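import Fermat.Prelude.Def_GaloisRep_Residual
import Fermat.Agent.ECFrob.DetCyc
import Fermat.Agent.Frob.Density
import Fermat.Agent.Frob.Exists

/-!
# Congruences at the remaining primes
-/

set_option autoImplicit false
set_option linter.style.haveILetI false

noncomputable section

namespace Fermat.Agent.Ribet

open Polynomial WeierstrassCurve WeierstrassCurve.Affine WeierstrassCurve.Affine.Point
open Fermat.Agent Fermat.Agent.ECFrob Fermat.Agent.Torsion Fermat.Agent.ECRed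

/-- The trace of the `n`-th power of a `2 × 2`-matrix of trace `t` and determinant `d`. -/
def lucas {R : Type*} [CommRing R] (t d : R) : ℕ → R
  | 0 => 2
  | 1 => t
  | (n + 2) => t * lucas t d (n + 1) - d * lucas t d n

theorem map_lucas {R S : Type*} [CommRing R] [CommRing S] (f : R →+* S) (t d : R) :
    ∀ n : ℕ, f (lucas t d n) = lucas (f t) (f d) n
  | 0 => map_ofNat f 2
  | 1 => rfl
  | (n + 2) => by rw [lucas, lucas, map_sub, map_mul, map_mul, map_lucas f t d (n + 1),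
      map_lucas f t d n]

theorem trace_pow_eq_lucas {K V : Type*} [Field K] [AddCommGroup V] [Module K V]
    (h2 : Module.finrank K V = 2) (f : Module.End K V) :
    ∀ n : ℕ, LinearMap.trace K V (f ^ n) = lucas (LinearMap.trace K V f) (LinearMap.det f) n := by
  have : Module.Finite K V := Module.finite_of_finrank_eq_succ h2
  let b := Module.finBasisOfFinrankEq _ _ h2
  have hc : f * f = LinearMap.trace K V f • f - LinearMap.det f • (1 : Module.End K V) := by
    have h3 := LinearMap.aeval_self_charpoly f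
    rw [← LinearMap.charpoly_toMatrix f b, Matrix.charpoly_fin_two] at h3
    simp only [map_add, map_sub, map_mul, map_pow, aeval_X, aeval_C] at h3
    rw [Module.algebraMap_end_eq_smul_id, Module.algebraMap_end_eq_smul_id] at h3
    rw [← LinearMap.trace_eq_matrix_trace, LinearMap.det_toMatrix] at h3
    have h4 : f ^ 2 = f * f := sq f
    rw [h4] at h3
    rw [sub_add, sub_eq_zero] at h3
    rw [h3]
    congr 1
  intro n
  induction n using Nat.strong_induction_on with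
  | _ n ih =>
    match n with
    | 0 => rw [pow_zero, LinearMap.trace_one, h2]; simp [lucas]
    | 1 => rw [pow_one]; rfl
    | (n + 2) =>
      have h3 : f ^ (n + 2) = LinearMap.trace K V f • f ^ (n + 1) - LinearMap.det f • f ^ n := by
        rw [pow_add, sq, hc, mul_sub, mul_smul_comm, mul_smul_comm, mul_one, pow_succ]
      rw [h3, map_sub, map_smul, map_smul, ih (n + 1) (by omega), ih n (by omega)]
      rfl

theorem trace_det_of_charpoly' {K V : Type*} [Field K] [AddCommGroup V] [Module K V]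
    [Module.Finite K V] (h2 : Module.finrank K V = 2) (f : Module.End K V) (a b : K)
    (h : LinearMap.charpoly f = X ^ 2 - C a * X + C b) :
    LinearMap.trace K V f = a ∧ LinearMap.det f = b := by
  let b' := Module.finBasisOfFinrankEq _ _ h2
  rw [← LinearMap.charpoly_toMatrix _ b', Matrix.charpoly_fin_two] at h
  have h1 := congrArg (fun f => coeff f 1) h
  have h0 := congrArg (fun f => coeff f 0) h
  simp [coeff_X, coeff_C, coeff_X_pow] at h1 h0
  rw [LinearMap.trace_eq_matrix_trace _ b']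
  exact ⟨h1, h0⟩

variable {W : WeierstrassCurve ℤ} {p : ℕ} [hp : Fact p.Prime]

open ModularFormClass in
/-- If a representation is attached to `g` and the coefficients of `g` agree with those of `W`
outside a finite set, they agree at all good primes prime to the level. -/
theorem cong_at_of_attached {N : ℕ} (hN : N ≠ 0) {g : CuspForm (CongruenceSubgroup.Gamma0 N) 2}
    (hΔ : W.Δ ≠ 0) {k : Type} [Field k] [CharP k p]
    (φ : integralClosure ℤ ℂ →+* k) (ρ : ResidualGaloisRep k) (hρ : ρ.IsAttachedTo g φ)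
    {S : Set ℕ} (hS : S.Finite)
    (hcong : ∀ ℓ : ℕ, ℓ.Prime → ℓ ∉ S → W.IsGoodPrimeFor ℓ → ∀ x : integralClosure ℤ ℂ,
      (x : ℂ) = qCoeff g ℓ → φ x = ((W.apOfModel ℓ : ℤ) : k))
    {ℓ : ℕ} (hℓ : ℓ.Prime) (hℓN : ¬ ℓ ∣ N) (hℓp : ℓ ≠ p) (hgood : W.IsGoodPrimeFor ℓ) :
    ∃ x : integralClosure ℤ ℂ, (x : ℂ) = qCoeff g ℓ ∧ φ x = ((W.apOfModel ℓ : ℤ) : k) := by
  have hcast : ∀ q : ℕ, q.Prime → q ≠ p → ((q : ℕ) : k) ≠ 0 := by
    intro q hq hqp h0
    rw [CharP.cast_eq_zero_iff k p] at h0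
    exact hqp ((Nat.prime_dvd_prime_iff_eq hp.out hq).mp h0).symm
  obtain ⟨L₁, hL₁, h₁⟩ := galoisRep_factors (map_Δ_ne_zero hΔ) hp.out.ne_zero
  obtain ⟨L₂, hL₂, h₂⟩ := ρ.factorsThroughFiniteLevel
  haveI := hL₁
  haveI := hL₂
  haveI : FiniteDimensional ℚ (L₁ ⊔ L₂ : IntermediateField ℚ _) :=
    IntermediateField.finiteDimensional_sup _ _
  have hfact : ∀ {M : Type} [Monoid M] (r : (AlgebraicClosure ℚ ≃ₐ[ℚ] AlgebraicClosure ℚ) →* M)
      (L : IntermediateField ℚ (AlgebraicClosure ℚ)), L ≤ L₁ ⊔ L₂ →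
      (∀ σ : AlgebraicClosure ℚ ≃ₐ[ℚ] AlgebraicClosure ℚ, (∀ x ∈ L, σ x = x) → r σ = 1) →
      ∀ σ τ : AlgebraicClosure ℚ ≃ₐ[ℚ] AlgebraicClosure ℚ,
      (∀ x ∈ (L₁ ⊔ L₂ : IntermediateField ℚ _), σ x = τ x) → r σ = r τ := by
    intro M _ r L hle hr σ τ h
    have h2 : r (τ⁻¹ * σ) = 1 := by
      apply hr
      intro x hx
      show τ.symm (σ x) = x
      rw [h x (hle hx), τ.symm_apply_apply]
    rw [_root_.map_mul] at h2
    have h4 : r τ * r τ⁻¹ = 1 := by
      rw [← _root_.map_mul, mul_inv_cancel, _root_.map_one]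
    calc r σ = (r τ * r τ⁻¹) * r σ := by rw [h4, one_mul]
      _ = r τ := by rw [mul_assoc, h2, mul_one]
  have hS' : (S ∪ {p} ∪ {q | q ∣ N} ∪ {q | (q : ℤ) ∣ W.Δ} : Set ℕ).Finite := by
    refine Set.Finite.union (Set.Finite.union (hS.union (Set.finite_singleton p)) ?_) ?_
    · refine (Finset.finite_toSet (N.divisors)).subset fun ℓ hℓ => ?_
      rw [Finset.mem_coe, Nat.mem_divisors]
      exact ⟨hℓ, hN⟩
    · refine (Finset.finite_toSet (W.Δ.natAbs.divisors)).subset fun ℓ hℓ => ?_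
      rw [Finset.mem_coe, Nat.mem_divisors]
      exact ⟨Int.natCast_dvd.mp hℓ, Int.natAbs_ne_zero.mpr hΔ⟩
  obtain ⟨A, hA, σ, hσ⟩ := Frob.exists_frobenius ℓ hℓ
  obtain ⟨q, hq, hqS, B, hB, ψ, hψ, m, m', hm, hm'⟩ :=
    FrobDensity.exists_frobenius_on (L₁ ⊔ L₂) σ _ hS'
  simp only [Set.mem_union, Set.mem_ofPred_eq, Set.mem_singleton_iff, not_or] at hqS
  obtain ⟨⟨⟨hq1, hq2⟩, hq3⟩, hq4⟩ := hqS
  haveI : Fact q.Prime := ⟨hq⟩
  haveI : Fact ℓ.Prime := ⟨hℓ⟩
  have e1 : rho W p σ = (rho W p ψ) ^ m' := by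
    rw [← map_pow]
    exact hfact (rho W p) L₁ le_sup_left (fun τ hτ => h₁ τ hτ) _ _ hm'
  have e2 : ρ.ρ σ = (ρ.ρ ψ) ^ m' := by
    rw [← map_pow]
    exact hfact ρ.ρ L₂ le_sup_right h₂ _ _ hm'
  -- at `q`
  obtain ⟨y, hy, hy'⟩ := hρ q hq hq3 (hcast q hq hq2) B hB ψ hψ
  obtain ⟨ty, dy⟩ := trace_det_of_charpoly' ρ.finrank_eq _ _ _ hy'
  have hyW := hcong q hq hq1 hq4 y hy
  -- at `ℓ`
  obtain ⟨x, hx, hx'⟩ := hρ ℓ hℓ hℓN (hcast ℓ hℓ hℓp) A hA σ hσ
  obtain ⟨tx, dx⟩ := trace_det_of_charpoly' ρ.finrank_eq _ _ _ hx'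
  refine ⟨x, hx, ?_⟩
  have t1 : φ x = lucas ((W.apOfModel q : ℤ) : k) (q : k) m' := by
    rw [← tx, e2, trace_pow_eq_lucas ρ.finrank_eq, ty, dy, hyW]
  have t2 : ((W.apOfModel ℓ : ℤ) : ZMod p) = lucas ((W.apOfModel q : ℤ) : ZMod p) (q : ZMod p) m' := by
    rw [← trace_rho_frobenius hgood hA hσ hℓp, e1, trace_pow_eq_lucas (finrank_rat hΔ),
      trace_rho_frobenius hq4 hB hψ hq2, det_rho_frobenius hq4 hB hψ hq2]
  have t3 := congrArg (ZMod.castHom (dvd_refl p) k) t2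
  rw [map_lucas, map_intCast, map_intCast, map_natCast] at t3
  rw [t1, t3]

end Fermat.Agent.Ribet

end
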