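import Fermat.Agent.Ribet.CongBad
import Fermat.Agent.S41.VarChange

/-!
# Comparison of integral models: traces of Frobenius modulo `p`
-/

set_option autoImplicit false
set_option linter.style.haveILetI false

noncomputable section

open WeierstrassCurve WeierstrassCurve.Affine WeierstrassCurve.Affine.Point
open Fermat.Agent.ECFrob
open scoped WeierstrassCurve.Affine

namespace Fermat.Agent.Ribet

/-- A Galois equivariant isomorphism of `n`-torsion. -/
theorem exists_torsion_equiv {E E' : WeierstrassCurve ℚ} {C : VariableChange ℚ} (hE : E.Δ ≠ 0)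
    (h : C • E = E') (n : ℕ) :
    ∃ g : Submodule.torsionBy ℤ (E'⁄(AlgebraicClosure ℚ)).Point n ≃ₗ[ZMod n]
        Submodule.torsionBy ℤ (E⁄(AlgebraicClosure ℚ)).Point n,
      ∀ (σ : AlgebraicClosure ℚ ≃ₐ[ℚ] AlgebraicClosure ℚ) x,
        g (galoisRepModuleEnd (K := AlgebraicClosure ℚ) ℚ E' n σ x) =
          galoisRepModuleEnd (K := AlgebraicClosure ℚ) ℚ E n σ (g x) := by
  obtain ⟨e, he⟩ := S41vc.exists_equiv_galois hE h
  let f : Submodule.torsionBy ℤ (E'⁄(AlgebraicClosure ℚ)).Point n ≃+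
      Submodule.torsionBy ℤ (E⁄(AlgebraicClosure ℚ)).Point n :=
    { toFun := fun x => ⟨e x.1, by
        have h1 := x.2
        rw [Submodule.mem_torsionBy_iff] at h1 ⊢
        rw [← map_zsmul, h1, _root_.map_zero]⟩
      invFun := fun x => ⟨e.symm x.1, by
        have h1 := x.2
        rw [Submodule.mem_torsionBy_iff] at h1 ⊢
        rw [← map_zsmul, h1, _root_.map_zero]⟩
      left_inv := fun x => Subtype.ext (e.symm_apply_apply _)
      right_inv := fun x => Subtype.ext (e.apply_symm_apply _)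
      map_add' := fun x y => Subtype.ext (map_add e _ _) }
  have hf : ∀ (σ : AlgebraicClosure ℚ ≃ₐ[ℚ] AlgebraicClosure ℚ) x, f (σ • x) = σ • f x :=
    fun σ x => Subtype.ext (he σ x.1)
  let g : Submodule.torsionBy ℤ (E'⁄(AlgebraicClosure ℚ)).Point n →ₗ[ZMod n]
      Submodule.torsionBy ℤ (E⁄(AlgebraicClosure ℚ)).Point n :=
    AddMonoidHom.toZModLinearMap n f.toAddMonoidHom
  have hg : ∀ x, g x = f x := fun x => rfl
  exact ⟨LinearEquiv.ofBijective g ⟨f.injective, f.surjective⟩, fun σ x => hf σ x⟩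

theorem trace_eq_of_model {E E' : WeierstrassCurve ℚ} {C : VariableChange ℚ} (hE : E.Δ ≠ 0)
    (h : C • E = E') (n : ℕ) (σ : AlgebraicClosure ℚ ≃ₐ[ℚ] AlgebraicClosure ℚ) :
    LinearMap.trace (ZMod n) _ (galoisRepModuleEnd (K := AlgebraicClosure ℚ) ℚ E' n σ) =
      LinearMap.trace (ZMod n) _ (galoisRepModuleEnd (K := AlgebraicClosure ℚ) ℚ E n σ) := by
  obtain ⟨g, hg⟩ := exists_torsion_equiv hE h n
  rw [← LinearMap.trace_conj' (galoisRepModuleEnd (K := AlgebraicClosure ℚ) ℚ E' n σ) g]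
  congr 1
  refine LinearMap.ext fun x => ?_
  rw [LinearEquiv.conj_apply_apply, hg, LinearEquiv.apply_symm_apply]

/-- Two integral models of the same curve have congruent `a_ℓ`. -/
theorem apOfModel_congr {E : WeierstrassCurve ℚ} (hE : E.Δ ≠ 0) {W W' : WeierstrassCurve ℤ}
    (hW : W.IsIntegralModelOf E) (hW' : W'.IsIntegralModelOf E) {p : ℕ} [hp : Fact p.Prime]
    {ℓ : ℕ} (hℓ : ℓ.Prime) (hℓp : ℓ ≠ p) (h1 : W.IsGoodPrimeFor ℓ) (h2 : W'.IsGoodPrimeFor ℓ) :
    ((W.apOfModel ℓ : ℤ) : ZMod p) = ((W'.apOfModel ℓ : ℤ) : ZMod p) := by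
  haveI : Fact ℓ.Prime := ⟨hℓ⟩
  obtain ⟨A, hA, σ, hσ⟩ := Frob.exists_frobenius ℓ hℓ
  obtain ⟨C, hC⟩ := hW
  obtain ⟨C', hC'⟩ := hW'
  rw [← trace_rho_frobenius h1 hA hσ hℓp, ← trace_rho_frobenius h2 hA hσ hℓp]
  exact (trace_eq_of_model hE hC p σ).trans (trace_eq_of_model hE hC' p σ).symm

end Fermat.Agent.Ribet

end
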