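import Fermat.Agent.Ribet.FormsMod
import Fermat.Agent.Ribet.CongBad
import Fermat.Agent.Ribet.Models
import Fermat.Agent.S41.HmNonEis
import Fermat.Agent.S41.HmInj
import Fermat.Agent.S29

/-!
# Residual modularity and non-vanishing of `Hm`
-/

set_option autoImplicit false

noncomputable section

open CongruenceSubgroup IsLocalRing
open scoped MatrixGroups

namespace Fermat.Agent.Ribet

open Fermat.Agent.HeckePar Fermat.Agent.TwHecke Fermat.Agent.TwExact Fermat.Agent.S41hm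
open Fermat.Agent.S41aux ModularFormClass

section Cong

variable {W : WeierstrassCurve ℤ} {p : ℕ} [hp : Fact p.Prime]

/-- **(iii)** From congruences outside a finite set to residual modularity. -/
theorem isResiduallyModularOfLevel_of_cong {N : ℕ} (hN : N ≠ 0)
    {g : CuspForm (CongruenceSubgroup.Gamma0 N) 2} (hg : g.IsNormalizedEigenform)
    (hΔ : W.Δ ≠ 0) (𝔪 : Ideal (integralClosure ℤ ℂ)) (h𝔪 : 𝔪.IsMaximal)
    (hp𝔪 : (p : integralClosure ℤ ℂ) ∈ 𝔪) {S : Set ℕ} (hS : S.Finite)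
    (hcong : ∀ ℓ : ℕ, ℓ.Prime → ℓ ∉ S → ∃ b : integralClosure ℤ ℂ, (b : ℂ) = qCoeff g ℓ ∧
        b - ((W.apOfModel ℓ : ℤ) : integralClosure ℤ ℂ) ∈ 𝔪) :
    W.IsResiduallyModularOfLevel p N := by
  refine ⟨g, 𝔪, hg, h𝔪, hp𝔪, fun ℓ hℓ hgood hℓN hℓp => ?_⟩
  letI instF : Field (integralClosure ℤ ℂ ⧸ 𝔪) := Ideal.Quotient.field 𝔪
  let φ : integralClosure ℤ ℂ →+* (integralClosure ℤ ℂ ⧸ 𝔪) := Ideal.Quotient.mk 𝔪
  haveI hchar : CharP (integralClosure ℤ ℂ ⧸ 𝔪) p := by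
    rw [CharP.charP_iff_prime_eq_zero hp.out]
    have h1 : φ (p : integralClosure ℤ ℂ) = 0 := Ideal.Quotient.eq_zero_iff_mem.mpr hp𝔪
    rw [map_natCast] at h1
    exact h1
  obtain ⟨ρ, hρ, -⟩ := Fermat.Agent.S29.result hg hp.out φ
  obtain ⟨x, hx, hx'⟩ := cong_at_of_attached hN hΔ φ ρ hρ hS (by
    intro q hq hqS _ x hx
    obtain ⟨b, hb, hb'⟩ := hcong q hq hqS
    have h1 : x = b := Subtype.ext (hx.trans hb.symm)
    rw [h1, ← sub_eq_zero, ← map_intCast φ, ← map_sub]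
    exact Ideal.Quotient.eq_zero_iff_mem.mpr hb') hℓ hℓN hℓp hgood
  refine ⟨x, hx, ?_⟩
  rw [← Ideal.Quotient.eq_zero_iff_mem, map_sub, map_intCast]
  exact sub_eq_zero.mpr hx'

/-- Residual modularity does not depend on the integral model. -/
theorem isResiduallyModularOfLevel_of_model {E : WeierstrassCurve ℚ} (hE : E.Δ ≠ 0)
    {W W' : WeierstrassCurve ℤ} (hW : W.IsIntegralModelOf E) (hW' : W'.IsIntegralModelOf E)
    (hΔ : W.Δ ≠ 0) (hΔ' : W'.Δ ≠ 0) {N : ℕ} (hN : N ≠ 0)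
    (h : W.IsResiduallyModularOfLevel p N) : W'.IsResiduallyModularOfLevel p N := by
  obtain ⟨f, 𝔪, hf, h𝔪, hp𝔪, hcong⟩ := h
  have hS' : ({p} ∪ {q | q ∣ N} ∪ {q | (q : ℤ) ∣ W.Δ} ∪ {q | (q : ℤ) ∣ W'.Δ} : Set ℕ).Finite := by
    refine Set.Finite.union (Set.Finite.union ((Set.finite_singleton p).union ?_) ?_) ?_
    · refine (Finset.finite_toSet (N.divisors)).subset fun ℓ hℓ => ?_
      rw [Finset.mem_coe, Nat.mem_divisors]
      exact ⟨hℓ, hN⟩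
    · refine (Finset.finite_toSet (W.Δ.natAbs.divisors)).subset fun ℓ hℓ => ?_
      rw [Finset.mem_coe, Nat.mem_divisors]
      exact ⟨Int.natCast_dvd.mp hℓ, Int.natAbs_ne_zero.mpr hΔ⟩
    · refine (Finset.finite_toSet (W'.Δ.natAbs.divisors)).subset fun ℓ hℓ => ?_
      rw [Finset.mem_coe, Nat.mem_divisors]
      exact ⟨Int.natCast_dvd.mp hℓ, Int.natAbs_ne_zero.mpr hΔ'⟩
  refine isResiduallyModularOfLevel_of_cong hN hf hΔ' 𝔪 h𝔪 hp𝔪 hS' fun ℓ hℓ hℓS => ?_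
  simp only [Set.mem_union, Set.mem_ofPred_eq, Set.mem_singleton_iff, not_or] at hℓS
  obtain ⟨⟨⟨h1, h2⟩, h3⟩, h4⟩ := hℓS
  obtain ⟨a, ha, ha'⟩ := hcong ℓ hℓ h3 h2 h1
  refine ⟨a, ha, ?_⟩
  have h5 := apOfModel_congr hE hW hW' (p := p) hℓ h1 h3 h4
  rw [← sub_eq_zero, ← Int.cast_sub, ZMod.intCast_zmod_eq_zero_iff_dvd] at h5
  obtain ⟨z, hz⟩ := h5
  have h6 : a - ((W'.apOfModel ℓ : ℤ) : integralClosure ℤ ℂ) =
      (a - ((W.apOfModel ℓ : ℤ) : integralClosure ℤ ℂ)) +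
        (p : integralClosure ℤ ℂ) * ((z : ℤ) : integralClosure ℤ ℂ) := by
    have h7 : ((W.apOfModel ℓ : ℤ) : integralClosure ℤ ℂ) -
        ((W'.apOfModel ℓ : ℤ) : integralClosure ℤ ℂ) =
        (p : integralClosure ℤ ℂ) * ((z : ℤ) : integralClosure ℤ ℂ) := by
      rw [← Int.cast_sub, hz]
      push_cast
      ring
    rw [← h7]
    ring
  rw [h6]
  exact 𝔪.add_mem ha' (𝔪.mul_mem_right _ hp𝔪)

/-- For the Frey curve: `ModularRepOfLevel` in terms of any integral model. -/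
theorem modularRepOfLevel_iff (P : FreyPackage) {W : WeierstrassCurve ℤ}
    (hW : W.IsIntegralModelOf P.freyCurve) (hΔ : W.Δ ≠ 0) {N : ℕ} (hN : N ≠ 0) :
    P.ModularRepOfLevel N ↔ W.IsResiduallyModularOfLevel P.p N := by
  haveI : Fact P.p.Prime := ⟨P.pp⟩
  have hE : P.freyCurve.Δ ≠ 0 := by
    obtain ⟨C, hC⟩ := hW
    intro h
    apply hΔ
    have h1 : (W.map (Int.castRingHom ℚ)).Δ = 0 := by
      rw [← hC, WeierstrassCurve.variableChange_Δ, h, mul_zero]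
    rw [WeierstrassCurve.map_Δ] at h1
    exact Int.cast_eq_zero.mp h1
  constructor
  · rintro ⟨f, W', 𝔪, hf, hW', h𝔪, hp𝔪, hcong⟩
    have hΔ' : W'.Δ ≠ 0 := by
      obtain ⟨C, hC⟩ := hW'
      intro h
      have h1 : (W'.map (Int.castRingHom ℚ)).Δ = 0 := by
        rw [WeierstrassCurve.map_Δ, h, map_zero]
      rw [← hC, WeierstrassCurve.variableChange_Δ] at h1
      rcases mul_eq_zero.mp h1 with h2 | h2
      · exact (pow_ne_zero _ (Units.ne_zero _)) h2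
      · exact hE h2
    exact isResiduallyModularOfLevel_of_model hE hW' hW hΔ' hΔ hN ⟨f, 𝔪, hf, h𝔪, hp𝔪, hcong⟩
  · rintro ⟨f, 𝔪, hf, h𝔪, hp𝔪, hcong⟩
    exact ⟨f, W, 𝔪, hf, hW, h𝔪, hp𝔪, hcong⟩

end Cong

section Hm

variable {W : WeierstrassCurve ℤ} {N : ℕ} [NeZero N] {p : ℕ} [hp : Fact p.Prime]
variable {R : Type} [CommRing R] [IsLocalRing R] [IsNoetherianRing R]
  [IsAdicComplete (maximalIdeal R) R] [CharP (ResidueField R) p]
  {ε : (ZMod N)ˣ →* Rˣ} {S : Set ℕ} {θ : PIdx S → ResidueField R}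

/-- Residual modularity of level `N` gives a nonzero `Hm`. -/
theorem nontrivial_Hm_of_isResiduallyModular (hε1 : ε (-1) = 1) (h2 : IsUnit (2 : R))
    (h3 : IsUnit (3 : R) ∨ ∀ x : SL(2, ℤ),
      x * (ModularGroup.T * ModularGroup.S) * x⁻¹ ∉ Gamma0 N)
    (hε : ∀ u, residue R (ε u : R) = 1)
    (hSN : ∀ ℓ : ℕ, ℓ.Prime → ℓ ∣ N → ℓ ∈ S) (hSp : p ∈ S)
    (hSW : ∀ ℓ : ℕ, ℓ.Prime → ¬ W.IsGoodPrimeFor ℓ → ℓ ∈ S)
    (hθ : ∀ ℓ : PIdx S, θ ℓ = ((W.apOfModel (ℓ.1 : ℕ) : ℤ) : ResidueField R))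
    (hres : W.IsResiduallyModularOfLevel p N) : Nontrivial (Hm N ε R S θ) := by
  obtain ⟨f, 𝔪, hf, h𝔪, hp𝔪, hcong⟩ := hres
  refine nontrivial_Hm_of_form (p := p) (a := W.apOfModel) hε1 h2 h3 hε hθ hf 𝔪 h𝔪.ne_top hp𝔪
    fun ℓ hℓ hℓS => hcong ℓ hℓ ?_ (fun hd => hℓS (hSN ℓ hℓ hd)) ?_
  · by_contra h
    exact hℓS (hSW ℓ hℓ h)
  · rintro rfl
    exact hℓS hSp

/-- A nonzero `Hm` gives residual modularity of level `N`. -/
theorem isResiduallyModular_of_nontrivial_Hm (hp2 : p ≠ 2)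
    (h3 : IsUnit (3 : ℤ_[p]) ∨ ∀ x : SL(2, ℤ),
      x * (ModularGroup.T * ModularGroup.S) * x⁻¹ ∉ Gamma0 N)
    (hε : ∀ u, residue R (ε u : R) = 1) (hG : Good N ε S θ)
    (hΔ : W.Δ ≠ 0) (hirr : W.ModRepIsIrreducible p)
    (hSfin : S.Finite) (hSN : ∀ ℓ : ℕ, ℓ.Prime → ℓ ∣ N → ℓ ∈ S)
    (hθ : ∀ ℓ : PIdx S, θ ℓ = ((W.apOfModel (ℓ.1 : ℕ) : ℤ) : ResidueField R))
    (hnt : Nontrivial (Hm N ε R S θ)) : W.IsResiduallyModularOfLevel p N := by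
  have hne : StrongNonEis S θ := strongNonEis_of_model hp2 hΔ hirr hSfin (fun ℓ _ _ => hθ ℓ)
  have hpc : (p : integralClosure ℤ ℂ) ∈ Ideal.span {(p : integralClosure ℤ ℂ)} :=
    Ideal.mem_span_singleton_self _
  have hne_top : Ideal.span {(p : integralClosure ℤ ℂ)} ≠ ⊤ := by
    rw [Ne, Ideal.span_singleton_eq_top]
    intro hu
    obtain ⟨u, hu⟩ := hu
    have h1 : (p : ℂ) * ((↑u⁻¹ : integralClosure ℤ ℂ) : ℂ) = 1 := by
      have h2 := congrArg (fun x : integralClosure ℤ ℂ => (x : ℂ)) (Units.mul_inv u)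
      rw [hu] at h2
      push_cast at h2
      exact h2
    have h2 : IsIntegral ℤ ((1 : ℚ) / p) := by
      have h3 : IsIntegral ℤ (((1 : ℚ) / p : ℚ) : ℂ) := by
        have h4 : (((1 : ℚ) / p : ℚ) : ℂ) = ((↑u⁻¹ : integralClosure ℤ ℂ) : ℂ) := by
          push_cast
          have h5 : (p : ℂ) ≠ 0 := by exact_mod_cast hp.out.ne_zero
          field_simp
          exact h1.symm
        rw [h4]
        exact (↑u⁻¹ : integralClosure ℤ ℂ).2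
      have h6 : Function.Injective (algebraMap ℚ ℂ) := (algebraMap ℚ ℂ).injective
      exact (isIntegral_algHom_iff (Algebra.ofId ℚ ℂ |>.restrictScalars ℤ) h6).mp h3
    obtain ⟨z, hz⟩ := IsIntegrallyClosed.isIntegral_iff.mp h2
    have h7 : (z : ℚ) * p = 1 := by
      have h8 : (p : ℚ) ≠ 0 := by exact_mod_cast hp.out.ne_zero
      have h9 : (z : ℚ) = 1 / p := hz
      rw [h9]
      field_simp
    have h8 : z * p = 1 := by exact_mod_cast h7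
    have h9 : (p : ℤ) ∣ 1 := Dvd.intro_left _ h8
    exact hp.out.one_lt.ne' (by exact_mod_cast Int.eq_one_of_dvd_one (by positivity) h9)
  obtain ⟨𝔪, h𝔪, hle⟩ := Ideal.exists_le_maximal _ hne_top
  obtain ⟨g, hg, hgc⟩ := exists_form_of_nontrivial hp2 h3 hε hG hSN hθ hne.one hnt 𝔪 h𝔪
    (hle hpc)
  exact isResiduallyModularOfLevel_of_cong (NeZero.ne N) hg hΔ 𝔪 h𝔪 (hle hpc) hSfin hgc

end Hm

section Padic

variable {W : WeierstrassCurve ℤ} {N : ℕ} [NeZero N] {p : ℕ} [hp : Fact p.Prime] {S : Set ℕ}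
  {θ : PIdx S → ResidueField ℤ_[p]}

theorem nontrivial_MN_of_isResiduallyModular (hp2 : p ≠ 2)
    (h3 : p ≠ 3 ∨ ∃ r : ℕ, r.Prime ∧ r ∣ N ∧ r % 3 = 2)
    (hSN : ∀ ℓ : ℕ, ℓ.Prime → ℓ ∣ N → ℓ ∈ S) (hSp : p ∈ S)
    (hSW : ∀ ℓ : ℕ, ℓ.Prime → ¬ W.IsGoodPrimeFor ℓ → ℓ ∈ S)
    (hθ : ∀ ℓ : PIdx S, θ ℓ = ((W.apOfModel (ℓ.1 : ℕ) : ℤ) : ResidueField ℤ_[p]))
    (hres : W.IsResiduallyModularOfLevel p N) : Nontrivial (MN p N S θ) := by
  have := charP_residueField_padic p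
  exact nontrivial_Hm_of_isResiduallyModular rfl (isUnit_two_padic hp2) (three_padic h3)
    (fun u => by rw [MonoidHom.one_apply, Units.val_one, map_one]) hSN hSp hSW hθ hres

theorem isResiduallyModular_of_nontrivial_MN (hp2 : p ≠ 2)
    (h3 : p ≠ 3 ∨ ∃ r : ℕ, r.Prime ∧ r ∣ N ∧ r % 3 = 2)
    (hΔ : W.Δ ≠ 0) (hirr : W.ModRepIsIrreducible p)
    (hSfin : S.Finite) (hSN : ∀ ℓ : ℕ, ℓ.Prime → ℓ ∣ N → ℓ ∈ S)
    (hθ : ∀ ℓ : PIdx S, θ ℓ = ((W.apOfModel (ℓ.1 : ℕ) : ℤ) : ResidueField ℤ_[p]))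
    (hnt : Nontrivial (MN p N S θ)) : W.IsResiduallyModularOfLevel p N := by
  have := charP_residueField_padic p
  have hε : ∀ u : (ZMod N)ˣ, residue ℤ_[p] (((1 : (ZMod N)ˣ →* ℤ_[p]ˣ) u : ℤ_[p]ˣ) : ℤ_[p]) = 1 :=
    fun u => by rw [MonoidHom.one_apply, Units.val_one, map_one]
  have hG : Good N (1 : (ZMod N)ˣ →* ℤ_[p]ˣ) S θ :=
    good_of_strong rfl (isUnit_two_padic hp2) (three_padic h3) hε hSN
      (strongNonEis_of_model hp2 hΔ hirr hSfin (fun ℓ _ _ => hθ ℓ))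
  exact isResiduallyModular_of_nontrivial_Hm hp2 (three_padic h3) hε hG hΔ hirr hSfin hSN hθ hnt

end Padic

end Fermat.Agent.Ribet

end
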