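import Fermat.Agent.EC.TateDatum
import Fermat.Agent.EC.ResRep
import Fermat.Agent.S41.VarChange
import Fermat.Prelude.Def_FLTPrelim_Ramification

/-!
# The residual representation of `T_p E` and ramification
-/

set_option autoImplicit false
set_option linter.style.haveILetI false

noncomputable section

open WeierstrassCurve WeierstrassCurve.Affine Fermat.Agent.Tate Polynomial
open scoped WeierstrassCurve.Affine TensorProduct

namespace Fermat.Agent.Ribet

section

variable {W : WeierstrassCurve ℤ} (hΔ : (W.map (Int.castRingHom ℚ)).Δ ≠ 0)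
  (p : ℕ) [hp : Fact p.Prime]

/-- The residual representation of `T_p W`. -/
abbrev rbar : ResidualGaloisRep (IsLocalRing.ResidueField ℤ_[p]) :=
  (tateRep (W.map (Int.castRingHom ℚ)) hΔ p).residual

theorem one_tmul_eq_zero' (v : (tateRep (W.map (Int.castRingHom ℚ)) hΔ p).V)
    (hv : toT hΔ v 1 = 0) : (1 : IsLocalRing.ResidueField ℤ_[p]) ⊗ₜ[ℤ_[p]] v = 0 :=
  one_tmul_eq_zero hΔ p v hv

/-- An element acting trivially on `E[p]` acts trivially on the residual representation. -/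
theorem rbar_eq_one {σ : AlgebraicClosure ℚ ≃ₐ[ℚ] AlgebraicClosure ℚ}
    (h : ∀ x : Submodule.torsionBy ℤ ((W.map (Int.castRingHom ℚ))⁄(AlgebraicClosure ℚ)).Point p,
      σ • x = x) : (rbar hΔ p).ρ σ = 1 := by
  refine LinearMap.ext fun w => ?_
  obtain ⟨v, rfl⟩ := exists_eq_one_tmul hΔ p w
  have hv1 : p • toT hΔ v 1 = 0 := by
    have := TMod.pow_smul_apply (toT hΔ v) 1
    rwa [pow_one] at this
  have h1 := congrArg Subtype.val (h ⟨toT hΔ v 1, mem_torsionBy_nat.mpr hv1⟩)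
  change σ • (toT hΔ v 1) = toT hΔ v 1 at h1
  have h2 := one_tmul_eq_zero hΔ p ((tateRep (W.map (Int.castRingHom ℚ)) hΔ p).ρ σ v - v) (by
    change σ • (toT hΔ v 1) - toT hΔ v 1 = 0
    rw [h1, sub_self])
  rw [TensorProduct.tmul_sub, sub_eq_zero] at h2
  exact h2

theorem rbar_isAbsolutelyIrreducible (hp2 : p ≠ 2) (hirr : W.ModRepIsIrreducible p) :
    (rbar hΔ p).IsAbsolutelyIrreducible :=
  tateRep_residual_isAbsolutelyIrreducible hΔ p hp2 hirr

theorem rbar_isIrreducible (hirr : W.ModRepIsIrreducible p) : (rbar hΔ p).IsIrreducible :=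
  tateRep_residual_isIrreducible hΔ p hirr

theorem rbar_isOdd (hp2 : p ≠ 2) : (rbar hΔ p).IsOdd := tateRep_residual_isOdd hΔ p hp2

/-- Frobenius at a good prime. -/
theorem charpoly_rbar_frobenius {ℓ : ℕ} [Fact ℓ.Prime] (hgood : W.IsGoodPrimeFor ℓ) (hℓp : ℓ ≠ p)
    {A : ValuationSubring (AlgebraicClosure ℚ)} (hA : A.LiesOverPrime ℓ)
    {σ : AlgebraicClosure ℚ ≃ₐ[ℚ] AlgebraicClosure ℚ} (hσ : A.IsFrobeniusAt σ ℓ) :
    LinearMap.charpoly ((rbar hΔ p).ρ σ) =
      X ^ 2 - C ((W.apOfModel ℓ : ℤ) : IsLocalRing.ResidueField ℤ_[p]) * X +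
        C ((ℓ : ℕ) : IsLocalRing.ResidueField ℤ_[p]) := by
  have h1 : LinearMap.charpoly ((rbar hΔ p).ρ σ) =
      (LinearMap.charpoly ((tateRep (W.map (Int.castRingHom ℚ)) hΔ p).ρ σ)).map
        (IsLocalRing.residue ℤ_[p]) :=
    LinearMap.charpoly_baseChange _ _
  rw [h1, charpoly_tateRep_frobenius p hΔ hgood (Ne.symm hℓp) hA hσ]
  simp

/-- The residual representation is unramified at good primes. -/
theorem rbar_isUnramifiedAt_of_good {ℓ : ℕ} [Fact ℓ.Prime] (hgood : W.IsGoodPrimeFor ℓ)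
    (hℓp : ℓ ≠ p) : (rbar hΔ p).IsUnramifiedAt ℓ := by
  intro A hA σ hσ
  apply rbar_eq_one
  intro x
  have h1 := Fermat.Agent.ECFrob.rho_inertia hgood hA hσ (n := p) (fun h =>
    hℓp ((Nat.prime_dvd_prime_iff_eq Fact.out hp.out).mp h))
  have h2 := LinearMap.congr_fun h1 x
  exact h2

/-- **(a)** Ramification in the form of S38. -/
theorem rbar_isUnramifiedAt_of_residualGaloisRepOf
    (hcard : Nat.card (Submodule.torsionBy ℤ
      ((W.map (Int.castRingHom ℚ))⁄(AlgebraicClosure ℚ)).Point p) = p ^ 2)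
    (hker : GaloisFactorsThroughFiniteLevel
      (WeierstrassCurve.Affine.Point.galoisRepModuleEnd (K := AlgebraicClosure ℚ) ℚ
        (W.map (Int.castRingHom ℚ)) p)) {q : ℕ}
    (hunr : ((W.map (Int.castRingHom ℚ)).residualGaloisRepOf p hcard hker).IsUnramifiedAt q) :
    (rbar hΔ p).IsUnramifiedAt q := by
  intro A hA σ hσ
  apply rbar_eq_one
  intro x
  have h1 := hunr A hA σ hσ
  have h2 := LinearMap.congr_fun h1 x
  exact h2

/-- Ramification in terms of points of `W`. -/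
theorem rbar_isUnramifiedAt_of_points {q : ℕ}
    (hunr : Point.GaloisRepUnramifiedAt (K := AlgebraicClosure ℚ) ℚ
      (W.map (Int.castRingHom ℚ)) p q) : (rbar hΔ p).IsUnramifiedAt q := by
  intro A hA σ hσ
  apply rbar_eq_one
  intro x
  exact hunr A hA σ hσ x

/-- Ramification does not depend on the model. -/
theorem unramified_of_isIntegralModelOf {E : WeierstrassCurve ℚ} (hE : E.Δ ≠ 0)
    (hW : W.IsIntegralModelOf E) {n q : ℕ}
    (hunr : Point.GaloisRepUnramifiedAt (K := AlgebraicClosure ℚ) ℚ E n q) :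
    Point.GaloisRepUnramifiedAt (K := AlgebraicClosure ℚ) ℚ (W.map (Int.castRingHom ℚ)) n q := by
  obtain ⟨C, hC⟩ := hW
  obtain ⟨e, he⟩ := S41vc.exists_equiv_galois hE hC
  intro A hA σ hσ x
  have hx : (n : ℤ) • (e x.1) = 0 := by
    have h1 := x.2
    rw [Submodule.mem_torsionBy_iff] at h1
    rw [← map_zsmul, h1, map_zero]
  have h1 := hunr A hA σ hσ ⟨e x.1, (Submodule.mem_torsionBy_iff _ _).mpr hx⟩
  have h2 := congrArg Subtype.val h1
  change σ • (e x.1) = e x.1 at h2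
  apply Subtype.ext
  apply e.injective
  change e (σ • x.1) = e x.1
  rw [he, h2]

/-- **(b)** Ramification in the form of S43. -/
theorem rbar_isUnramifiedAt_of_isIntegralModelOf {E : WeierstrassCurve ℚ} (hE : E.Δ ≠ 0)
    (hW : W.IsIntegralModelOf E) {q : ℕ}
    (hunr : Point.GaloisRepUnramifiedAt (K := AlgebraicClosure ℚ) ℚ E p q) :
    (rbar hΔ p).IsUnramifiedAt q :=
  rbar_isUnramifiedAt_of_points hΔ p (unramified_of_isIntegralModelOf hE hW hunr)

end

/-- **(b)** for the Frey curve. -/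
theorem rbar_isUnramifiedAt_of_frey (P : FreyPackage) [Fact P.p.Prime] {W : WeierstrassCurve ℤ}
    (hΔ : (W.map (Int.castRingHom ℚ)).Δ ≠ 0) (hW : W.IsIntegralModelOf P.freyCurve) {q : ℕ}
    (hunr : P.GaloisRepUnramifiedAt q) : (rbar hΔ P.p).IsUnramifiedAt q := by
  have hE : P.freyCurve.Δ ≠ 0 := by
    obtain ⟨C, hC⟩ := hW
    intro h
    apply hΔ
    rw [← hC, variableChange_Δ, h, mul_zero]
  exact rbar_isUnramifiedAt_of_isIntegralModelOf hΔ P.p hE hW hunr

end Fermat.Agent.Ribet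

end
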