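import Fermat.Agent.Ribet.Forms
import Fermat.Agent.Ribet.Unram
import Fermat.Agent.S59.Top
import Fermat.Agent.Frey.CurveInt
import Fermat.Prelude.Def_FreyPackage_IsConductorLevel

/-!
# Ribet's theorem: outer wiring

`LowerMN` is the level lowering theorem for the modules `MN p (m q) S θ` when `q ≡ 1 mod p` (road B);
`LowerNe` is level lowering for residual modularity when `q ≢ 1 mod p` (Mazur's principle). Together
they imply (E1) of the modularity lifting theorem (`lowerUnr_of`) and S43 (`s43_of`).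
-/

set_option autoImplicit false
set_option linter.style.haveILetI false

noncomputable section

namespace Fermat.Agent.Ribet

open WeierstrassCurve IsLocalRing Tate TwHecke TwExact HeckeRep

/-- **Level lowering for the modules `MN`**, `q ≡ 1 mod p`. -/
def LowerMN : Prop :=
  ∀ (p : ℕ) [Fact p.Prime] (_ : p ≠ 2) (W : WeierstrassCurve ℤ)
    (hΔ : (W.map (Int.castRingHom ℚ)).Δ ≠ 0) (_ : W.IsSemistableModel)
    (_ : W.ModRepIsIrreducible p) (m q : ℕ) [NeZero m] [NeZero (m * q)] (_ : Squarefree m)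
    (_ : q.Prime) (_ : q ≠ p) (_ : ¬ q ∣ m) (_ : q % p = 1)
    (_ : p ≠ 3 ∨ ∃ r : ℕ, r.Prime ∧ r ∣ m ∧ r % 12 = 11)
    (S : Finset ℕ) (_ : ∀ ℓ ∈ S, ℓ.Prime) (_ : p ∈ S) (_ : q ∈ S)
    (_ : ∀ ℓ : ℕ, ℓ.Prime → ℓ ∣ m → ℓ ∈ S)
    (_ : ∀ ℓ : ℕ, ℓ.Prime → ¬ W.IsGoodPrimeFor ℓ → ℓ ∈ S)
    (θ : PIdx (↑S : Set ℕ) → ResidueField ℤ_[p])
    (_ : ∀ ℓ : PIdx (↑S : Set ℕ), θ ℓ = ((W.apOfModel (ℓ.1 : ℕ) : ℤ) : ResidueField ℤ_[p]))
    (_ : (rbar hΔ p).IsUnramifiedAt q) (_ : Nontrivial (MN p (m * q) (↑S : Set ℕ) θ)),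
    Nontrivial (MN p m (↑S : Set ℕ) θ)

/-- **Level lowering, `q ≢ 1 mod p`** (Mazur's principle). -/
def LowerNe : Prop :=
  ∀ (p : ℕ) [Fact p.Prime] (_ : p ≠ 2) (W : WeierstrassCurve ℤ)
    (hΔ : (W.map (Int.castRingHom ℚ)).Δ ≠ 0) (_ : W.IsSemistableModel)
    (_ : W.ModRepIsIrreducible p) (m q : ℕ) [NeZero m] [NeZero (m * q)] (_ : Squarefree m)
    (_ : q.Prime) (_ : q ≠ p) (_ : ¬ q ∣ m) (_ : q % p ≠ 1)
    (_ : p ≠ 3 ∨ ∃ r : ℕ, r.Prime ∧ r ∣ m ∧ r % 12 = 11)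
    (_ : (rbar hΔ p).IsUnramifiedAt q) (_ : W.IsResiduallyModularOfLevel p (m * q)),
    W.IsResiduallyModularOfLevel p m

theorem map_Δ_ne_zero {W : WeierstrassCurve ℤ} (hΔ : W.Δ ≠ 0) :
    (W.map (Int.castRingHom ℚ)).Δ ≠ 0 := by
  rw [WeierstrassCurve.map_Δ, eq_intCast]
  exact_mod_cast hΔ

/-- **Level lowering for residual modularity.** -/
theorem lower_of (H : LowerMN) (H' : LowerNe) {p : ℕ} [hp : Fact p.Prime] (hp2 : p ≠ 2) {W : WeierstrassCurve ℤ}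
    (hΔ : W.Δ ≠ 0) (hW : W.IsSemistableModel) (hirr : W.ModRepIsIrreducible p) {m q : ℕ}
    (hm : Squarefree m) (hq : q.Prime) (hqp : q ≠ p) (hqm : ¬ q ∣ m)
    (h12 : p ≠ 3 ∨ ∃ r : ℕ, r.Prime ∧ r ∣ m ∧ r % 12 = 11)
    (hunr : (rbar (map_Δ_ne_zero hΔ) p).IsUnramifiedAt q)
    (hres : W.IsResiduallyModularOfLevel p (m * q)) : W.IsResiduallyModularOfLevel p m := by
  haveI : NeZero m := ⟨hm.ne_zero⟩
  haveI : NeZero (m * q) := ⟨mul_ne_zero hm.ne_zero hq.ne_zero⟩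
  by_cases hq1 : q % p = 1
  swap
  · exact H' p hp2 W (map_Δ_ne_zero hΔ) hW hirr m q hm hq hqp hqm hq1 h12 hunr hres
  have h3 : p ≠ 3 ∨ ∃ r : ℕ, r.Prime ∧ r ∣ m ∧ r % 3 = 2 := by
    rcases h12 with h | ⟨r, h1, h2, h3⟩
    · exact Or.inl h
    · exact Or.inr ⟨r, h1, h2, by omega⟩
  classical
  let S : Finset ℕ := insert p (insert q (m.primeFactors ∪ W.Δ.natAbs.primeFactors))
  have hSprime : ∀ ℓ ∈ S, ℓ.Prime := by
    intro ℓ hℓ
    simp only [S, Finset.mem_insert, Finset.mem_union] at hℓ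
    rcases hℓ with rfl | rfl | h | h
    · exact hp.out
    · exact hq
    · exact Nat.prime_of_mem_primeFactors h
    · exact Nat.prime_of_mem_primeFactors h
  have hpS : p ∈ S := by simp [S]
  have hqS : q ∈ S := by simp [S]
  have hmS : ∀ ℓ : ℕ, ℓ.Prime → ℓ ∣ m → ℓ ∈ S := by
    intro ℓ hℓ hd
    simp only [S, Finset.mem_insert, Finset.mem_union, Nat.mem_primeFactors]
    exact Or.inr (Or.inr (Or.inl ⟨hℓ, hd, hm.ne_zero⟩))
  have hmqS : ∀ ℓ : ℕ, ℓ.Prime → ℓ ∣ m * q → ℓ ∈ S := by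
    intro ℓ hℓ hd
    rcases hℓ.dvd_mul.mp hd with h | h
    · exact hmS ℓ hℓ h
    · rw [(Nat.prime_dvd_prime_iff_eq hℓ hq).mp h]
      exact hqS
  have hWS : ∀ ℓ : ℕ, ℓ.Prime → ¬ W.IsGoodPrimeFor ℓ → ℓ ∈ S := by
    intro ℓ hℓ hd
    simp only [S, Finset.mem_insert, Finset.mem_union, Nat.mem_primeFactors]
    refine Or.inr (Or.inr (Or.inr ⟨hℓ, ?_, ?_⟩))
    · unfold WeierstrassCurve.IsGoodPrimeFor at hd
      rw [not_not] at hd
      exact Int.natCast_dvd.mp hd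
    · exact Int.natAbs_ne_zero.mpr hΔ
  let θ : PIdx (↑S : Set ℕ) → ResidueField ℤ_[p] :=
    fun ℓ => ((W.apOfModel (ℓ.1 : ℕ) : ℤ) : ResidueField ℤ_[p])
  have h3' : p ≠ 3 ∨ ∃ r : ℕ, r.Prime ∧ r ∣ m * q ∧ r % 3 = 2 := by
    rcases h3 with h | ⟨r, h1, h2, h3⟩
    · exact Or.inl h
    · exact Or.inr ⟨r, h1, h2.trans (dvd_mul_right _ _), h3⟩
  have h1 : Nontrivial (MN p (m * q) (↑S : Set ℕ) θ) :=
    nontrivial_MN_of_isResiduallyModular hp2 h3' (fun ℓ hℓ hd => hmqS ℓ hℓ hd) hpS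
      (fun ℓ hℓ hd => hWS ℓ hℓ hd) (fun _ => rfl) hres
  have h2 : Nontrivial (MN p m (↑S : Set ℕ) θ) :=
    H p hp2 W (map_Δ_ne_zero hΔ) hW hirr m q hm hq hqp hqm hq1 h12 S hSprime hpS hqS hmS hWS θ
      (fun _ => rfl) hunr h1
  exact isResiduallyModular_of_nontrivial_MN hp2 h3 hΔ hirr S.finite_toSet
    (fun ℓ hℓ hd => hmS ℓ hℓ hd) (fun _ => rfl) h2

/-- **(E1)** of the modularity lifting theorem. -/
theorem lowerUnr_of (H : LowerMN) (H' : LowerNe) : S59aux.LowerUnr := by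
  intro p hp W hΔ hW hirr r M q hr hM hrM hq hqp hqr hqM hunr hres
  have hpp : p.Prime := by rcases hp with rfl | rfl <;> norm_num
  haveI : Fact p.Prime := ⟨hpp⟩
  have hp2 : p ≠ 2 := by rcases hp with rfl | rfl <;> norm_num
  obtain ⟨m, rfl⟩ := hqM
  rw [Nat.mul_div_cancel_left _ hq.pos]
  rw [mul_comm] at hres hM
  have hsq := (Nat.squarefree_mul_iff.mp hM)
  have hqm : ¬ q ∣ m := (Nat.Prime.coprime_iff_not_dvd hq).mp hsq.1.symm
  have hrm : r ∣ m := by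
    rcases hr.prime.dvd_mul.mp hrM with h | h
    · exact absurd ((Nat.prime_dvd_prime_iff_eq hr.prime hq).mp h).symm hqr
    · exact h
  refine lower_of H H' hp2 hΔ hW hirr hsq.2.1 hq hqp hqm
    (Or.inr ⟨r, hr.prime, hrm, hr.mod_twelve⟩) ?_ hres
  intro A hA σ hσ
  apply rbar_eq_one
  intro x
  exact LinearMap.congr_fun (hunr A hA σ hσ) x

/-- **S43** (all exponents `≥ 5`). -/
theorem s43_of (H : LowerMN) (H' : LowerNe) (P : FreyPackage) {N q : ℕ} (hcond : P.IsConductorLevel N)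
    (hq : q.Prime) (hqp : q ≠ P.p) (hqN : q ∣ N)
    (hirr : WeierstrassCurve.Affine.Point.GaloisRepIsIrreducible (K := AlgebraicClosure ℚ) ℚ P.freyCurve P.p)
    (hmod : P.ModularRepOfLevel N) (hunr : P.GaloisRepUnramifiedAt q) :
    ∃ M : ℕ, M ∣ N ∧ ¬ q ∣ M ∧ P.ModularRepOfLevel M := by
  haveI : Fact P.p.Prime := ⟨P.pp⟩
  have hp2 : P.p ≠ 2 := by have := P.hp5; omega
  have hp3 : P.p ≠ 3 := by have := P.hp5; omega
  obtain ⟨m, rfl⟩ := hqN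
  have hsq' := hcond.squarefree
  rw [mul_comm] at hsq'
  have hsq := Nat.squarefree_mul_iff.mp hsq'
  have hqm : ¬ q ∣ m := (Nat.Prime.coprime_iff_not_dvd hq).mp hsq.1.symm
  have hmod' : P.ModularRepOfLevel (m * q) := by rwa [mul_comm]
  have hint := Frey.freyCurveInt_isIntegralModelOf P
  have hΔ := Frey.freyCurveInt_Δ_ne_zero P
  have hirr' : P.freyCurveInt.ModRepIsIrreducible P.p := by
    unfold WeierstrassCurve.ModRepIsIrreducible
    rw [Frey.freyCurveInt_map]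
    exact hirr
  have hres := (modularRepOfLevel_iff P hint hΔ (mul_ne_zero hsq.2.1.ne_zero hq.ne_zero)).mp hmod'
  refine ⟨m, dvd_mul_left _ _, hqm, (modularRepOfLevel_iff P hint hΔ hsq.2.1.ne_zero).mpr ?_⟩
  exact lower_of H H' hp2 hΔ (Frey.freyCurveInt_isSemistableModel P) hirr' hsq.2.1 hq hqp hqm
    (Or.inl hp3) (rbar_isUnramifiedAt_of_frey P (map_Δ_ne_zero hΔ) hint hunr) hres

end Fermat.Agent.Ribet

end
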