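import Fermat.Agent.Ribet.MazurPr
import Fermat.Agent.Ribet.Wire
import Fermat.Agent.Star.WidthInst

/-!
# Level lowering at `q ≢ 1 (mod p)`: the proposition `LowerNe`
-/

set_option autoImplicit false
set_option linter.unusedSectionVars false
set_option linter.style.haveILetI false

noncomputable section

open WeierstrassCurve WeierstrassCurve.Affine Fermat.Agent.Tate
open scoped WeierstrassCurve.Affine TensorProduct
open Fermat.Agent.ECFrob Fermat.Agent.RibetE Fermat.Agent.FF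

namespace Fermat.Agent.Ribet

section Residual

variable {W : WeierstrassCurve ℤ} (hΔ : (W.map (Int.castRingHom ℚ)).Δ ≠ 0)
  (p : ℕ) [hp : Fact p.Prime]

/-- elements of `T` that vanish in the residual representation vanish at level `p`. -/
theorem toT_one_eq_zero (v : (tateRep (W.map (Int.castRingHom ℚ)) hΔ p).V)
    (hv : (1 : IsLocalRing.ResidueField ℤ_[p]) ⊗ₜ[ℤ_[p]] v = 0) : toT hΔ v 1 = 0 := by
  have h1 := congrArg (TensorProduct.quotTensorEquivQuotSMul
    (tateRep (W.map (Int.castRingHom ℚ)) hΔ p).V (IsLocalRing.maximalIdeal ℤ_[p])) hv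
  have h2 : TensorProduct.quotTensorEquivQuotSMul
      (tateRep (W.map (Int.castRingHom ℚ)) hΔ p).V (IsLocalRing.maximalIdeal ℤ_[p])
      ((1 : IsLocalRing.ResidueField ℤ_[p]) ⊗ₜ[ℤ_[p]] v) = Submodule.Quotient.mk v := by
    have := TensorProduct.quotTensorEquivQuotSMul_mk_tmul (M := (tateRep (W.map (Int.castRingHom ℚ)) hΔ p).V)
      (I := IsLocalRing.maximalIdeal ℤ_[p]) (1 : ℤ_[p]) v
    rw [one_smul] at this
    exact this
  have h3 := (h2.symm.trans h1).trans (LinearEquiv.map_zero (TensorProduct.quotTensorEquivQuotSMul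
    (tateRep (W.map (Int.castRingHom ℚ)) hΔ p).V (IsLocalRing.maximalIdeal ℤ_[p])))
  rw [Submodule.Quotient.mk_eq_zero, PadicInt.maximalIdeal_eq_span_p,
    Submodule.ideal_span_singleton_smul] at h3
  obtain ⟨w, -, hw⟩ := Submodule.mem_smul_pointwise_iff_exists _ _ _ |>.1 h3
  refine (TMod.apply_eq_zero_iff (p := p) (toT hΔ v) 1).mpr ⟨toT hΔ w, ?_⟩
  rw [pow_one]
  exact hw.symm

/-- if `σ` is trivial on the residual representation, it is trivial on `E[p]`. -/
theorem rho_eq_one_of_rbar {σ : AlgebraicClosure ℚ ≃ₐ[ℚ] AlgebraicClosure ℚ}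
    (h : (rbar hΔ p).ρ σ = 1) : rho W p σ = 1 := by
  refine LinearMap.ext fun x => Subtype.ext ?_
  have hx : p ^ 1 • (x : ((W.map (Int.castRingHom ℚ))⁄(AlgebraicClosure ℚ)).Point) = 0 := by
    rw [pow_one]
    exact mem_torsionBy_nat.mp x.2
  obtain ⟨f, hf⟩ := (hasTwoRank_curve hΔ p).exists_apply_eq hx
  obtain ⟨v, hv⟩ : ∃ v : (tateRep (W.map (Int.castRingHom ℚ)) hΔ p).V, toT hΔ v = f := ⟨f, rfl⟩
  have h1 := LinearMap.congr_fun h ((1 : IsLocalRing.ResidueField ℤ_[p]) ⊗ₜ[ℤ_[p]] v)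
  have h2 : (1 : IsLocalRing.ResidueField ℤ_[p]) ⊗ₜ[ℤ_[p]]
      ((tateRep (W.map (Int.castRingHom ℚ)) hΔ p).ρ σ v) =
      (1 : IsLocalRing.ResidueField ℤ_[p]) ⊗ₜ[ℤ_[p]] v := h1
  have h3 := toT_one_eq_zero hΔ p ((tateRep (W.map (Int.castRingHom ℚ)) hΔ p).ρ σ v - v) (by
    rw [TensorProduct.tmul_sub, h2, sub_self])
  have h4 : σ • (toT hΔ v 1) - toT hΔ v 1 = 0 := h3
  rw [hv] at h4
  rw [hf, sub_eq_zero] at h4
  exact h4

end Residual

/-- **Level lowering, `q ≢ 1 mod p`.** -/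
theorem lowerNe : LowerNe := by
  intro p _ hp2 W hΔ hW hirr m q _ _ hm hq hqp hqm hq1 h12 hunr hres
  have hΔ' : W.Δ ≠ 0 := Δ_ne_zero_of_map hΔ
  have hp : p.Prime := Fact.out
  have hq1' : (q : ZMod p) ≠ 1 := by
    intro h
    apply hq1
    have h1 : ((q : ℕ) : ZMod p) = ((1 : ℕ) : ZMod p) := by rw [h, Nat.cast_one]
    rw [ZMod.natCast_eq_natCast_iff] at h1
    have h2 : q % p = 1 % p := h1
    rw [h2, Nat.mod_eq_of_lt hp.one_lt]
  have hunr' : ∀ A : ValuationSubring (AlgebraicClosure ℚ), A.LiesOverPrime q →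
      ∀ σ ∈ A.inertiaSubgroupIn ℚ, rho W p σ = 1 :=
    fun A hA σ hσ => rho_eq_one_of_rbar hΔ p (hunr A hA σ hσ)
  by_cases hp3 : p = 3
  · subst hp3
    rcases h12 with h | ⟨r, hr, hrm, hr12⟩
    · exact absurd rfl h
    · refine mazur_principle hp2 hΔ' hirr hq hqp hqm hq1' (fun A hA _ _ => ?_) hunr' hres
      intro H3 _ hM P C hP
      haveI : IsFF (AlgebraicClosure ℚ) (ModularCurve.modularFunctionFieldBar (m * q)) :=
        TwoGauss.isFF_m
      rw [Star.Inst.width_eq_one hq hqm hA H3 hr hrm hr12 C hP]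
      exact Nat.coprime_one_right 3
  · exact mazur_principle_of_five_le (hp.five_le_of_ne_two_of_ne_three hp2 hp3) hΔ' hirr hq hqp hqm
      hq1' hunr' hres

end Fermat.Agent.Ribet

end
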