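import Fermat.Agent.Ribet.Morita
import Fermat.Agent.HeckeRep.Local
import Fermat.Agent.S58.Transfer
import Fermat.Agent.Frob.Density

/-!
# Cluster RIBET, piece R2: matrices of a Galois representation and the Eichler–Shimura relation

* `matOf ρ` : a matrix form of `ρ : GaloisRepAdic T`;
* `span_matOf_eq_top` : it spans `M₂(T)` if `ρ` is residually absolutely irreducible;
* `esRel_of_frobenius` : the relation `g + χ(g) g⁻¹ = t(g)` on a module of finite level holds for all
  `g` as soon as it holds for Frobenius elements.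
-/

set_option autoImplicit false

noncomputable section

open Polynomial

namespace Fermat.Agent.Ribet

/-- the absolute Galois group -/
local notation "GQ'" => (AlgebraicClosure ℚ ≃ₐ[ℚ] AlgebraicClosure ℚ)

section MatOf

variable {T : Type} [CommRing T] [IsLocalRing T]

/-- A basis of the space of a Galois representation. -/
def basisOf (ρ : GaloisRepAdic T) : Module.Basis (Fin 2) T ρ.V :=
  Module.finBasisOfFinrankEq T ρ.V ρ.finrank_eq

/-- A matrix form of a Galois representation. -/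
def matOf (ρ : GaloisRepAdic T) : GQ' →* Matrix (Fin 2) (Fin 2) T :=
  ((LinearMap.toMatrixAlgEquiv (basisOf ρ)).toAlgHom : Module.End T ρ.V →ₐ[T] _).toMonoidHom.comp ρ.ρ

theorem matOf_apply (ρ : GaloisRepAdic T) (g : GQ') :
    matOf ρ g = LinearMap.toMatrix (basisOf ρ) (basisOf ρ) (ρ.ρ g) := rfl

theorem trace_matOf (ρ : GaloisRepAdic T) (g : GQ') : (matOf ρ g).trace = ρ.trace g := by
  rw [matOf_apply]
  exact (LinearMap.trace_eq_matrix_trace T (basisOf ρ) (ρ.ρ g)).symm

theorem det_matOf (ρ : GaloisRepAdic T) (g : GQ') : (matOf ρ g).det = LinearMap.det (ρ.ρ g) := by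
  rw [matOf_apply, LinearMap.det_toMatrix]

theorem trace_det_matOf (ρ : GaloisRepAdic T) (g : GQ') {a b : T}
    (h : (ρ.ρ g).charpoly = X ^ 2 - C a * X + C b) :
    (matOf ρ g).trace = a ∧ (matOf ρ g).det = b := by
  rw [trace_matOf, det_matOf]
  exact HeckeRep.charpoly_coeff_zero ρ.finrank_eq _ h

theorem matOf_sub_one_mem (ρ : GaloisRepAdic T) (n : ℕ) :
    ∃ L : IntermediateField ℚ (AlgebraicClosure ℚ), FiniteDimensional ℚ L ∧
      ∀ σ : GQ', (∀ x ∈ L, σ x = x) → ∀ i j,
        matOf ρ σ i j - (1 : Matrix (Fin 2) (Fin 2) T) i j ∈ IsLocalRing.maximalIdeal T ^ n := by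
  obtain ⟨L, hL, h⟩ := ρ.isAdicContinuous n
  refine ⟨L, hL, fun σ hσ i j => ?_⟩
  have h1 := h σ hσ (basisOf ρ j)
  have h2 : matOf ρ σ i j - (1 : Matrix (Fin 2) (Fin 2) T) i j =
      (basisOf ρ).repr (ρ.ρ σ (basisOf ρ j) - basisOf ρ j) i := by
    rw [matOf_apply, LinearMap.toMatrix_apply, map_sub, Finsupp.sub_apply, Module.Basis.repr_self,
      Finsupp.single_apply, Matrix.one_apply]
    simp only [eq_comm]
  rw [h2]
  have h3 : ∀ x ∈ (IsLocalRing.maximalIdeal T ^ n) • (⊤ : Submodule T ρ.V),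
      (basisOf ρ).repr x i ∈ IsLocalRing.maximalIdeal T ^ n := by
    intro x hx
    refine Submodule.smul_induction_on hx ?_ ?_
    · intro a ha w _
      rw [map_smul, Finsupp.smul_apply, smul_eq_mul]
      exact Ideal.mul_mem_right _ _ ha
    · intro x y hx hy
      rw [map_add, Finsupp.add_apply]
      exact Ideal.add_mem _ hx hy
  exact h3 _ h1

end MatOf

section Span

variable {T : Type*} [CommRing T] [IsLocalRing T]

/-- Four matrices with invertible Gram matrix for the trace form span `M₂(T)`. -/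
theorem span_eq_top_of_gram {R : Type*} [CommRing R] (M : Fin 4 → Matrix (Fin 2) (Fin 2) R)
    (h : IsUnit (Matrix.of fun i j => (M i * M j).trace).det) :
    Submodule.span R (Set.range M) = ⊤ := by
  classical
  let G : Matrix (Fin 4) (Fin 4) R := Matrix.of fun i j => (M i * M j).trace
  let φ : (Fin 4 → R) →ₗ[R] Matrix (Fin 2) (Fin 2) R := Fintype.linearCombination R M
  let ψ : Matrix (Fin 2) (Fin 2) R →ₗ[R] (Fin 4 → R) :=
    LinearMap.pi fun j => (Matrix.traceLinearMap (Fin 2) R R) ∘ₗ (LinearMap.mulRight R (M j))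
  have hψφ : ∀ c, ψ (φ c) = Matrix.vecMul c G := by
    intro c
    funext j
    simp only [ψ, φ, G, LinearMap.pi_apply, LinearMap.comp_apply, LinearMap.mulRight_apply,
      Fintype.linearCombination_apply, map_sum, Matrix.vecMul, dotProduct,
      Matrix.of_apply, map_smul, smul_eq_mul, Matrix.traceLinearMap_apply]
  have hGinv : G * G⁻¹ = 1 ∧ G⁻¹ * G = 1 :=
    ⟨Matrix.mul_nonsing_inv _ h, Matrix.nonsing_inv_mul _ h⟩
  have hψs : Function.Surjective ψ := by
    intro y
    refine ⟨φ (Matrix.vecMul y G⁻¹), ?_⟩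
    rw [hψφ, Matrix.vecMul_vecMul, hGinv.2, Matrix.vecMul_one]
  have hψi : Function.Injective ψ := by
    let e : (Fin 4 → R) ≃ₗ[R] Matrix (Fin 2) (Fin 2) R :=
      (LinearEquiv.funCongrLeft R R finProdFinEquiv) ≪≫ₗ
        (LinearEquiv.curry R R (Fin 2) (Fin 2)) ≪≫ₗ (Matrix.ofLinearEquiv R)
    have h1 : Function.Surjective (ψ ∘ₗ e.toLinearMap) := by
      rw [LinearMap.coe_comp]
      exact hψs.comp e.surjective
    have h2 := OrzechProperty.injective_of_surjective_endomorphism _ h1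
    intro a b hab
    obtain ⟨a', rfl⟩ := e.surjective a
    obtain ⟨b', rfl⟩ := e.surjective b
    exact congrArg e (h2 hab)
  rw [eq_top_iff]
  intro A _
  have h1 : A = φ (Matrix.vecMul (ψ A) G⁻¹) := by
    apply hψi
    rw [hψφ, Matrix.vecMul_vecMul, hGinv.2, Matrix.vecMul_one]
  rw [h1]
  simp only [φ, Fintype.linearCombination_apply]
  exact Submodule.sum_mem _ fun i _ => Submodule.smul_mem _ _ (Submodule.subset_span ⟨i, rfl⟩)

/-- **R2b.** -/
theorem span_matOf_eq_top {T : Type} [CommRing T] [IsLocalRing T] (ρ : GaloisRepAdic T)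
    (habs : ρ.residual.IsAbsolutelyIrreducible) :
    Submodule.span T (Set.range (matOf ρ)) = ⊤ := by
  obtain ⟨g, hg⟩ := S58aux.exists_gram_ne_zero ρ.residual habs
  have h1 : (Matrix.of fun i j => LinearMap.trace _ ρ.residual.V (ρ.residual.ρ (g i * g j))) =
      (Matrix.of fun i j => (matOf ρ (g i) * matOf ρ (g j)).trace).map (IsLocalRing.residue T) := by
    ext i j
    rw [Matrix.of_apply, Matrix.map_apply, Matrix.of_apply, ← map_mul, trace_matOf]
    show LinearMap.trace (IsLocalRing.ResidueField T) _ ((ρ.ρ _).baseChange _) = _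
    rw [LinearMap.trace_baseChange]; rfl
  rw [h1, ← RingHom.mapMatrix_apply, ← RingHom.map_det] at hg
  have h2 : IsUnit (Matrix.of fun i j => (matOf ρ (g i) * matOf ρ (g j)).trace).det := by
    by_contra hcon
    exact hg ((IsLocalRing.residue_eq_zero_iff _).mpr ((IsLocalRing.mem_maximalIdeal _).mpr hcon))
  have h3 := span_eq_top_of_gram (fun i => matOf ρ (g i)) h2
  rw [eq_top_iff, ← h3]
  refine Submodule.span_mono ?_
  rintro _ ⟨i, rfl⟩
  exact ⟨g i, rfl⟩

end Span

section Frob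

variable {T : Type*} [CommRing T] {V : Type*} [AddCommGroup V] [Module T V]

theorem matrix_CH (A : Matrix (Fin 2) (Fin 2) T) : A * A = A.trace • A - A.det • 1 := by
  ext i j
  fin_cases i <;> fin_cases j <;>
    simp [Matrix.mul_apply, Fin.sum_univ_two, Matrix.trace_fin_two, Matrix.det_fin_two] <;> ring

/-- The relation at `φ` implies the relation at the powers of `φ`. -/
theorem esRel_pow {G : Type*} [Group G] (r : G →* Module.End T V)
    (ρ : G →* Matrix (Fin 2) (Fin 2) T) (φ : G)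
    (h : r φ + (ρ φ).det • r φ⁻¹ = (ρ φ).trace • (1 : Module.End T V)) (k : ℕ) :
    r (φ ^ k) + (ρ (φ ^ k)).det • r (φ ^ k)⁻¹ = (ρ (φ ^ k)).trace • (1 : Module.End T V) := by
  have h1 : r φ * r φ⁻¹ = 1 := by rw [← map_mul, mul_inv_cancel, map_one]
  have h1' : r φ⁻¹ * r φ = 1 := by rw [← map_mul, inv_mul_cancel, map_one]
  set t := (ρ φ).trace with ht
  set d := (ρ φ).det with hd
  suffices H : ∀ k : ℕ, (r (φ ^ k) + (ρ (φ ^ k)).det • r (φ ^ k)⁻¹ =
        (ρ (φ ^ k)).trace • (1 : Module.End T V)) ∧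
      (r (φ ^ (k + 1)) + (ρ (φ ^ (k + 1))).det • r (φ ^ (k + 1))⁻¹ =
        (ρ (φ ^ (k + 1))).trace • (1 : Module.End T V)) from (H k).1
  intro k
  induction k with
  | zero =>
    refine ⟨?_, by simpa using h⟩
    simp only [pow_zero, map_one, inv_one, Matrix.det_one, one_smul, Matrix.trace_one,
      Fintype.card_fin, Nat.cast_ofNat]
    rw [two_smul]
  | succ k ih =>
    refine ⟨ih.2, ?_⟩
    obtain ⟨e0, e1⟩ := ih
    -- the recursion for the traces
    have htr : (ρ (φ ^ (k + 1 + 1))).trace = t * (ρ (φ ^ (k + 1))).trace - d * (ρ (φ ^ k)).trace := by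
      have h3 : ρ (φ ^ (k + 1 + 1)) = t • ρ (φ ^ (k + 1)) - d • ρ (φ ^ k) := by
        rw [show φ ^ (k + 1 + 1) = φ ^ k * (φ * φ) by rw [pow_succ, pow_succ, mul_assoc],
          map_mul, map_mul, matrix_CH, mul_sub, mul_smul_comm, mul_smul_comm, mul_one,
          pow_succ, map_mul]
      rw [h3, Matrix.trace_sub, Matrix.trace_smul, Matrix.trace_smul, smul_eq_mul, smul_eq_mul]
    have hdet : ∀ j : ℕ, (ρ (φ ^ j)).det = d ^ j := fun j => by
      rw [map_pow, Matrix.det_pow]
    have hr : ∀ j : ℕ, r (φ ^ j) = r φ ^ j := fun j => map_pow _ _ _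
    have hr' : ∀ j : ℕ, r (φ ^ j)⁻¹ = r φ⁻¹ ^ j := fun j => by rw [← inv_pow, map_pow]
    rw [htr]
    simp only [hdet, hr, hr'] at e0 e1 ⊢
    rw [sub_smul, mul_smul, mul_smul, ← e0, ← e1]
    set a := r φ
    set b := r φ⁻¹
    have e2 : t • (a ^ (k + 1) + d ^ (k + 1) • b ^ (k + 1)) =
        (a + d • b) * (a ^ (k + 1) + d ^ (k + 1) • b ^ (k + 1)) := by
      rw [h, smul_mul_assoc, one_mul]
    have e3 : b * a ^ (k + 1) = a ^ k := by rw [pow_succ', ← mul_assoc, h1', one_mul]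
    have e4 : a * b ^ (k + 1) = b ^ k := by rw [pow_succ', ← mul_assoc, h1, one_mul]
    rw [e2, mul_add, add_mul, add_mul, smul_mul_assoc, e3, mul_smul_comm, e4, smul_mul_smul_comm,
      ← pow_succ', ← pow_succ', ← pow_succ']
    simp only [smul_add, smul_smul]
    rw [← pow_succ']
    abel

/-- **Eichler–Shimura for all elements.**  `r` of finite level, `ρ` of finite level modulo
the annihilator of `V`. -/
theorem esRel_of_frobenius (r : GQ' →* Module.End T V) (ρ : GQ' →* Matrix (Fin 2) (Fin 2) T)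
    (hr : ∃ L : IntermediateField ℚ (AlgebraicClosure ℚ), FiniteDimensional ℚ L ∧
      ∀ σ : GQ', (∀ x ∈ L, σ x = x) → r σ = 1)
    (hρ : ∃ L : IntermediateField ℚ (AlgebraicClosure ℚ), FiniteDimensional ℚ L ∧
      ∀ σ : GQ', (∀ x ∈ L, σ x = x) → ∀ i j, ∀ v : V,
        (ρ σ i j - (1 : Matrix (Fin 2) (Fin 2) T) i j) • v = 0)
    (S : Set ℕ) (hS : S.Finite)
    (hF : ∀ ℓ : ℕ, ℓ.Prime → ℓ ∉ S → ∀ A : ValuationSubring (AlgebraicClosure ℚ),
      A.LiesOverPrime ℓ → ∀ φ : GQ', A.IsFrobeniusAt φ ℓ →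
        r φ + (ρ φ).det • r φ⁻¹ = (ρ φ).trace • (1 : Module.End T V)) :
    ESRel r ρ := by
  intro σ
  obtain ⟨L, hLf, hL1⟩ := hr
  obtain ⟨L', hLf', hL1'⟩ := hρ
  have hfin : FiniteDimensional ℚ (L ⊔ L' : IntermediateField ℚ (AlgebraicClosure ℚ)) :=
    IntermediateField.finiteDimensional_sup L L'
  obtain ⟨ℓ, hℓ, hℓS, A, hA, φ, hφ, k, k', hk, hk'⟩ :=
    FrobDensity.exists_frobenius_on (L ⊔ L') σ S hS
  have h1 := esRel_pow r ρ φ (hF ℓ hℓ hℓS A hA φ hφ) k'
  set τ := (φ ^ k')⁻¹ * σ with hτ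
  have hτσ : σ = φ ^ k' * τ := by rw [hτ, mul_inv_cancel_left]
  have hτL : ∀ x ∈ (L ⊔ L' : IntermediateField ℚ (AlgebraicClosure ℚ)), τ x = x := by
    intro x hx
    rw [hτ, AlgEquiv.mul_apply, hk' x hx, ← AlgEquiv.mul_apply, inv_mul_cancel, AlgEquiv.one_apply]
  have hrτ : r τ = 1 := hL1 τ fun x hx => hτL x (le_sup_left (a := L) (b := L') hx)
  have hρτ := hL1' τ fun x hx => hτL x (le_sup_right (a := L) (b := L') hx)
  have e1 : r σ = r (φ ^ k') := by rw [hτσ, map_mul, hrτ, mul_one]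
  have e2 : r σ⁻¹ = r (φ ^ k')⁻¹ := by
    have : r τ⁻¹ = 1 := by
      have h3 : r τ * r τ⁻¹ = 1 := by rw [← map_mul, mul_inv_cancel, map_one]
      rwa [hrτ, one_mul] at h3
    rw [hτσ, mul_inv_rev, map_mul, this, one_mul]
  -- entries of `ρ τ`
  have h00 := hρτ 0 0
  have h01 := hρτ 0 1
  have h10 := hρτ 1 0
  have h11 := hρτ 1 1
  simp only [Matrix.one_apply_eq, Matrix.one_apply_ne (show (0 : Fin 2) ≠ 1 by decide),
    Matrix.one_apply_ne (show (1 : Fin 2) ≠ 0 by decide), sub_zero] at h00 h01 h10 h11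
  have c00 : ∀ v : V, ρ τ 0 0 • v = v := fun v => by
    have := h00 v; rwa [sub_smul, one_smul, sub_eq_zero] at this
  have c11 : ∀ v : V, ρ τ 1 1 • v = v := fun v => by
    have := h11 v; rwa [sub_smul, one_smul, sub_eq_zero] at this
  have e3 : ∀ v : V, (ρ σ).trace • v = (ρ (φ ^ k')).trace • v := by
    intro v
    rw [hτσ, map_mul, Matrix.trace_fin_two, Matrix.trace_fin_two, Matrix.mul_apply,
      Matrix.mul_apply, Fin.sum_univ_two, Fin.sum_univ_two]
    simp only [add_smul, mul_smul, c00, c11, h01, h10, smul_zero, add_zero, zero_add]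
  have e4 : ∀ v : V, (ρ σ).det • v = (ρ (φ ^ k')).det • v := by
    intro v
    have h5 : (ρ τ).det • v = v := by
      rw [Matrix.det_fin_two, sub_smul, mul_smul, mul_smul, c11, c00, h10, smul_zero, sub_zero]
    rw [hτσ, map_mul, Matrix.det_mul, mul_smul, h5]
  ext v
  rw [e1, e2]
  have h5 := LinearMap.congr_fun h1 v
  simp only [LinearMap.add_apply, LinearMap.smul_apply, Module.End.one_apply] at h5 ⊢
  rw [e3, e4, h5]

end Frob

end Fermat.Agent.Ribet

end
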