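import Fermat.Agent.Ribet.TN
import Fermat.Agent.Ribet.Span
import Fermat.Agent.RTD.TameAdic
import Fermat.Agent.HeckeRep.AbsIrr

/-!
# The Galois representation over the Hecke ring of the family
-/

set_option autoImplicit false
set_option linter.unusedSectionVars false
set_option linter.unusedVariables false
set_option linter.style.haveILetI false

noncomputable section

open Polynomial

namespace Fermat.Agent.Ribet

open IsLocalRing HeckeRep TwExact Fermat.Agent.GalRep ModularCurve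

section Res

variable {k : Type} [Field k]

theorem cc_ne_one : complexConjugation ≠ 1 := by
  intro h
  have h1 := complexEmbedding_complexConjugation
  obtain ⟨i, hi⟩ := IsAlgClosed.exists_pow_nat_eq (-1 : AlgebraicClosure ℚ) (n := 2) two_pos
  have h2 := h1 i
  rw [h, AlgEquiv.one_apply] at h2
  have h3 : complexEmbedding i ^ 2 = -1 := by rw [← map_pow, hi, map_neg, map_one]
  have h4 : (complexEmbedding i).im = 0 := Complex.conj_eq_iff_im.mp h2.symm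
  have h5 : (complexEmbedding i ^ 2).re = -1 := by rw [h3]; simp
  rw [sq, Complex.mul_re, h4] at h5
  nlinarith [mul_self_nonneg (complexEmbedding i).re]

theorem residual_isOdd_of_isEquiv {ρ ρ' : ResidualGaloisRep k} (h : ρ.IsEquiv ρ')
    (hodd : ρ'.IsOdd) : ρ.IsOdd := by
  obtain ⟨e⟩ := h
  intro c h1 h2
  rw [← hodd c h1 h2, ← LinearMap.det_conj (ρ.ρ c) e.toLinearEquiv]
  congr 1
  refine LinearMap.ext fun x => ?_
  simp only [LinearMap.comp_apply, LinearEquiv.coe_coe]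
  rw [e.map_apply, LinearEquiv.apply_symm_apply]

theorem residual_isOdd_baseChangeAlong {k' : Type} [Field k'] (ψ : k →+* k')
    {ρ : ResidualGaloisRep k} (hodd : ρ.IsOdd) : (ρ.baseChangeAlong ψ).IsOdd := by
  letI : Algebra k k' := ψ.toAlgebra
  intro c h1 h2
  show LinearMap.det ((ρ.ρ c).baseChange k') = -1
  rw [LinearMap.det_baseChange, hodd c h1 h2, map_neg, map_one]

theorem residual_eq_one_of_isEquiv {ρ ρ' : ResidualGaloisRep k} (h : ρ.IsEquiv ρ')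
    {σ : AlgebraicClosure ℚ ≃ₐ[ℚ] AlgebraicClosure ℚ} (h1 : ρ'.ρ σ = 1) : ρ.ρ σ = 1 := by
  obtain ⟨e⟩ := h
  refine LinearMap.ext fun x => e.toLinearEquiv.injective ?_
  rw [e.map_apply, h1]; rfl

theorem residual_eq_one_baseChangeAlong {k' : Type} [Field k'] (ψ : k →+* k')
    {ρ : ResidualGaloisRep k} {σ : AlgebraicClosure ℚ ≃ₐ[ℚ] AlgebraicClosure ℚ}
    (h1 : ρ.ρ σ = 1) : (ρ.baseChangeAlong ψ).ρ σ = 1 := by
  letI : Algebra k k' := ψ.toAlgebra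
  show (ρ.ρ σ).baseChange k' = 1
  rw [h1, LinearMap.baseChange_one]

end Res

theorem evS_surj (N : ℕ) [NeZero N] (S : Set ℕ) : Function.Surjective (evS N S) := by
  rintro ⟨t, ht⟩
  refine Algebra.adjoin_induction (p := fun t ht => ∃ x, evS N S x = ⟨t, ht⟩) ?_ ?_ ?_ ?_ ht
  · rintro T hT
    rcases hT with ⟨r, hr, hrN, hrS, rfl⟩ | ⟨r, hrN, hr, hrS, rfl⟩
    · refine ⟨MvPolynomial.X ⟨⟨r, hr⟩, hrS⟩, ?_⟩
      rw [evS, MvPolynomial.aeval_X, genS, dif_neg hrN]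
      rfl
    · refine ⟨MvPolynomial.X ⟨⟨r, hr⟩, hrS⟩, ?_⟩
      rw [evS, MvPolynomial.aeval_X, genS, dif_pos hrN]
      rfl
  · intro r
    refine ⟨algebraMap ℤ _ r, ?_⟩
    rw [AlgHom.commutes]
    rfl
  · rintro x y hx hy ⟨a, ha⟩ ⟨b, hb⟩
    exact ⟨a + b, by rw [map_add, ha, hb]; rfl⟩
  · rintro x y hx hy ⟨a, ha⟩ ⟨b, hb⟩
    exact ⟨a * b, by rw [map_mul, ha, hb]; rfl⟩

/-- the character of the Hecke algebra of level `L` -/
theorem exists_chiT {L : ℕ} [NeZero L] {S : Finset ℕ}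
    (hLS : ∀ ℓ : ℕ, ℓ.Prime → ℓ ∣ L → ℓ ∈ S) {T : Type} [CommRing T]
    (gen : PIdx (↑S : Set ℕ) → T) (χ : HeckeAlgS (↑S : Set ℕ) →+* T)
    (hχX : ∀ ℓ, χ (MvPolynomial.X ℓ) = gen ℓ) (hχ : ∀ t, evS L (↑S : Set ℕ) t = 0 → χ t = 0) :
    ∃ χ' : CuspForm.heckeAlgebra L 2 (↑S : Set ℕ) →+* T,
      ∀ (ℓ : ℕ) (hℓ : ℓ.Prime) (hℓN : ¬ ℓ ∣ L) (hℓS : ℓ ∉ (↑S : Set ℕ)),
        χ' (CuspForm.heckeAlgebra.T hℓ hℓN hℓS) = gen ⟨⟨ℓ, hℓ⟩, hℓS⟩ := by
  have hc : ∀ a b : HeckeAlgS (↑S : Set ℕ), evS L (↑S : Set ℕ) a = evS L (↑S : Set ℕ) b →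
      χ a = χ b := by
    intro a b hab
    rw [← sub_eq_zero, ← map_sub]
    exact hχ _ (by rw [map_sub, hab, sub_self])
  let χ' : CuspForm.heckeAlgebra L 2 (↑S : Set ℕ) →+* T :=
    liftSurj (evS L (↑S : Set ℕ)).toRingHom (evS_surj L _) χ hc
  have hχ' : ∀ t, χ' (evS L _ t) = χ t := fun t =>
    liftSurj_apply (evS L (↑S : Set ℕ)).toRingHom (evS_surj L _) χ hc t
  refine ⟨χ', fun ℓ hℓ hℓN hℓS => ?_⟩
  rw [← hχX, ← hχ', evS_X_of_not_dvd L _ ⟨⟨ℓ, hℓ⟩, hℓS⟩ hℓN]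

section Rho

variable {L : ℕ} [NeZero L] {p : ℕ} [Fact p.Prime] {S : Finset ℕ}
  {T : Type} [CommRing T] [IsLocalRing T] [IsAdicComplete (maximalIdeal T) T] [Algebra ℤ_[p] T]
  [IsLocalHom (algebraMap ℤ_[p] T)]

theorem p_mem_maximalIdeal : (p : T) ∈ maximalIdeal T := by
  have h1 : ((p : ℕ) : ℤ_[p]) ∈ maximalIdeal ℤ_[p] := by
    rw [PadicInt.maximalIdeal_eq_span_p]
    exact Ideal.mem_span_singleton_self _
  rw [mem_maximalIdeal, mem_nonunits_iff] at h1 ⊢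
  intro h2
  rw [← map_natCast (algebraMap ℤ_[p] T)] at h2
  exact h1 (isUnit_of_map_unit _ _ h2)

/-- **The Galois representation** over a complete local ring with a character of the Hecke
algebra. -/
theorem exists_rho {J : Type*} [AddCommGroup J] [Module HeckeAlg J]
    [DistribMulAction GalRep.GQ J] [SMulCommClass GalRep.GQ HeckeAlg J]
    (hJ : ESInput L p (↑S : Set ℕ) J) (hp2 : p ≠ 2) (hpS : p ∈ S) (hLS : ∀ ℓ : ℕ, ℓ.Prime → ℓ ∣ L → ℓ ∈ S)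
    (gen : PIdx (↑S : Set ℕ) → T) (χ : HeckeAlgS (↑S : Set ℕ) →+* T)
    (hχX : ∀ ℓ, χ (MvPolynomial.X ℓ) = gen ℓ) (hχ : ∀ t, evS L (↑S : Set ℕ) t = 0 → χ t = 0)
    (θ : PIdx (↑S : Set ℕ) → ResidueField ℤ_[p])
    (hgen : ∀ ℓ, residue T (gen ℓ) = ResidueField.map (algebraMap ℤ_[p] T) (θ ℓ))
    (ρbar : ResidualGaloisRep (ResidueField ℤ_[p])) (habs : ρbar.IsAbsolutelyIrreducible)
    (hodd : ρbar.IsOdd)
    (hfrob : ∀ ℓ : PIdx (↑S : Set ℕ), ∀ A : ValuationSubring (AlgebraicClosure ℚ),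
      A.LiesOverPrime (ℓ.1 : ℕ) → ∀ σ : AlgebraicClosure ℚ ≃ₐ[ℚ] AlgebraicClosure ℚ,
      A.IsFrobeniusAt σ (ℓ.1 : ℕ) →
        LinearMap.charpoly (ρbar.ρ σ) = X ^ 2 - C (θ ℓ) * X + C (((ℓ.1 : ℕ) : ResidueField ℤ_[p]))) :
    ∃ ρ : GaloisRepAdic T,
      (∀ ℓ : PIdx (↑S : Set ℕ), ∀ A : ValuationSubring (AlgebraicClosure ℚ),
        A.LiesOverPrime (ℓ.1 : ℕ) → ∀ σ : AlgebraicClosure ℚ ≃ₐ[ℚ] AlgebraicClosure ℚ,
        A.IsFrobeniusAt σ (ℓ.1 : ℕ) →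
          LinearMap.charpoly (ρ.ρ σ) = X ^ 2 - C (gen ℓ) * X + C (((ℓ.1 : ℕ) : T))) ∧
      ρ.DetIsCyclotomic p ∧ ρ.residual.IsAbsolutelyIrreducible ∧ ρ.residual.IsOdd ∧
      ∀ σ, ρbar.ρ σ = 1 → ρ.residual.ρ σ = 1 := by
  classical
  obtain ⟨χ', hχ'⟩ := exists_chiT hLS gen χ hχX hχ
  let ψ := ResidueField.map (algebraMap ℤ_[p] T)
  have hp2' : IsUnit (2 : ℤ_[p]) := by
    rw [PadicInt.isUnit_iff]
    have h := (PadicInt.norm_int_lt_one_iff_dvd (p := p) 2).not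
    push_cast at h
    have h1 : ¬ ((p : ℤ) ∣ 2) := by
      intro hd
      have := (Nat.prime_dvd_prime_iff_eq (Fact.out : p.Prime) Nat.prime_two).mp
        (by exact_mod_cast hd)
      exact hp2 this
    have h2 := h.mpr h1
    exact le_antisymm (PadicInt.norm_le_one _) (not_lt.mp h2)
  obtain ⟨κ, hκ⟩ := (hp2'.map (residue ℤ_[p])).exists_right_inv
  have hκ2 : 2 * κ = 1 := by rw [← hκ, map_ofNat]
  have hcc : complexConjugation * complexConjugation = 1 := complexConjugation_mul_self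
  have hc1 : complexConjugation ≠ 1 := cc_ne_one
  have habs' : (ρbar.baseChangeAlong ψ).IsAbsolutelyIrreducible :=
    (isAbsolutelyIrreducible_baseChangeAlong_iff hcc hκ2 ρbar (hodd _ hcc hc1) ψ).mpr habs
  obtain ⟨ρ, h1, h2, h3, h4, h5, h6⟩ := exists_rep_of_ESInput_local hJ hpS hLS hp2
    (p_mem_maximalIdeal (T := T)) χ' (ρbar.baseChangeAlong ψ) habs' ∅ Set.finite_empty (by
      intro ℓ hℓ hℓN hℓS _ A hA σ hσ
      rw [HeckeRep.charpoly_baseChangeAlong, hfrob ⟨⟨ℓ, hℓ⟩, hℓS⟩ A hA σ hσ, hχ' ℓ hℓ hℓN hℓS, hgen]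
      simp only [Polynomial.map_add, Polynomial.map_sub, Polynomial.map_mul, Polynomial.map_pow,
        Polynomial.map_X, Polynomial.map_C, map_natCast, Polynomial.map_natCast]
      rfl)
  refine ⟨ρ, fun ℓ A hA σ hσ => ?_, h4, h6, ?_, fun σ hσ => ?_⟩
  · have hℓN : ¬ (ℓ.1 : ℕ) ∣ L := fun h => ℓ.2 (hLS _ ℓ.1.2 h)
    rw [h1 ℓ.1 ℓ.1.2 hℓN ℓ.2 A hA σ hσ, hχ' ℓ.1 ℓ.1.2 hℓN ℓ.2]
    rfl
  · exact residual_isOdd_of_isEquiv h5 (residual_isOdd_baseChangeAlong ψ hodd)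
  · exact residual_eq_one_of_isEquiv h5 (residual_eq_one_baseChangeAlong ψ hσ)

end Rho

end Fermat.Agent.Ribet

end
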