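import Fermat.Agent.Ribet.LowerMNOf
import Fermat.Agent.Ribet.Rep
import Fermat.Agent.TwES.Transport
import Fermat.Agent.Cofaith.ES
import Fermat.Agent.QX4.Spec

/-!
# Ribet's theorem, road B: the Hecke ring data
-/

set_option autoImplicit false
set_option linter.unusedSectionVars false
set_option linter.unusedVariables false
set_option linter.style.haveILetI false
set_option synthInstance.maxHeartbeats 400000
set_option maxHeartbeats 1000000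

noncomputable section

open CongruenceSubgroup IsLocalRing ModularCurve Polynomial
open scoped MatrixGroups

namespace Fermat.Agent.Ribet

open Fermat.Agent.HeckePar Fermat.Agent.TwHecke Fermat.Agent.TwExact Fermat.Agent.S41hm
open Fermat.Agent.GalRep Fermat.Agent.QX4 HeckeRep RT WeierstrassCurve Tate

section Chi

/-- the polynomial ring over the integers acting through a Hecke ring -/
theorem act_eval_int {J 𝒪 R H K T : Type*} [CommRing 𝒪] [CommRing R] [AddCommGroup H] [Module 𝒪 H]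
    [AddCommGroup K] [Module R K] [CommRing T] [Algebra 𝒪 T] (act : T →ₐ[𝒪] Module.End 𝒪 H)
    (gen : J → T) (op : J → Module.End R K) (hop : ∀ i j, Commute (op i) (op j)) (j : H →+ K)
    (hj : ∀ i x, j (act (gen i) x) = op i (j x)) (t : MvPolynomial J ℤ) (x : H) :
    j (act (MvPolynomial.eval₂Hom (Int.castRingHom T) gen t) x) =
      cev (R := ℤ) op hop t (j x) := by
  induction t using MvPolynomial.induction_on generalizing x with
  | C a =>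
    rw [cev_C, MvPolynomial.eval₂Hom_C, eq_intCast, eq_intCast, map_intCast,
      Module.End.intCast_apply, Module.End.intCast_apply, map_zsmul]
  | add p q hp hq =>
    rw [map_add, map_add, map_add, LinearMap.add_apply, LinearMap.add_apply, map_add, hp, hq]
  | mul_X p i hp =>
    rw [map_mul, map_mul, map_mul, cev_X, Module.End.mul_apply, Module.End.mul_apply, hp,
      MvPolynomial.eval₂Hom_X', hj]

end Chi

section ExT

variable {M : ℕ} [NeZero M] {R : Type} [CommRing R] [IsLocalRing R] [IsNoetherianRing R]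
  [IsAdicComplete (maximalIdeal R) R] (η : (ZMod M)ˣ →* Rˣ) {S : Set ℕ}
  (𝒪 : Type) [CommRing 𝒪] [IsLocalRing 𝒪] [IsNoetherianRing 𝒪]
  [IsAdicComplete (maximalIdeal 𝒪) 𝒪] [Algebra 𝒪 R] [IsLocalHom (algebraMap 𝒪 R)]
  (θ₀ : PIdx S → ResidueField 𝒪) [Module.Finite 𝒪 (Hm M (η ^ 2) R S (thMap R θ₀))]
  [Nontrivial (Hm M (η ^ 2) R S (thMap R θ₀))]
  (σ : R →ₐ[𝒪] 𝒪) [IsLocalHom (σ : R →+* 𝒪)] (hση : ∀ u, σ ((η u : Rˣ) : R) = 1)

include hση in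
theorem exists_T (hη : ∀ u, residue R ((η u : Rˣ) : R) = 1)
    (hG : Good M (η ^ 2) S (thMap R θ₀)) :
    ∃ (T : Type) (_ : CommRing T) (_ : IsLocalRing T) (_ : Algebra 𝒪 T) (_ : Module.Finite 𝒪 T)
      (_ : IsAdicComplete (maximalIdeal T) T) (_ : IsLocalHom (algebraMap 𝒪 T))
      (act : T →ₐ[𝒪] Module.End 𝒪 (Hm M (η ^ 2) R S (thMap R θ₀)))
      (actN : T →ₐ[𝒪] Module.End 𝒪 (Hm M (1 : (ZMod M)ˣ →* 𝒪ˣ) 𝒪 S θ₀))
      (gen : PIdx S → T), Function.Injective act ∧ (∀ ℓ, act (gen ℓ) = opO η 𝒪 θ₀ ℓ) ∧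
      (∀ ℓ, actN (gen ℓ) = opN M 𝒪 S θ₀ ℓ) ∧ Algebra.adjoin 𝒪 (Set.range gen) = ⊤ ∧
      ∀ ℓ, residue T (gen ℓ) = ResidueField.map (algebraMap 𝒪 T) (θ₀ ℓ) := by
  have hloc := isLocalAt_opO η 𝒪 θ₀ hη
  haveI j6 : IsLocalRing (TD η 𝒪 θ₀) := hloc.isLocalRing
  haveI j7 : IsLocalHom (algebraMap 𝒪 (TD η 𝒪 θ₀)) := hloc.isLocalHom
  haveI j8 : Module.Finite 𝒪 (TD η 𝒪 θ₀) := Tring.instModuleFinite _ _
  haveI j9 := IsLocalRing.isAdicComplete_of_module_finite (𝒪 := 𝒪) (T := TD η 𝒪 θ₀)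
  refine ⟨TD η 𝒪 θ₀, inferInstance, j6, inferInstance, j8, j9, j7,
    Tring.val (opO η 𝒪 θ₀) (opO_commute η 𝒪 θ₀),
    { actN η 𝒪 θ₀ σ hση hG with commutes' := actN_algebraMap η 𝒪 θ₀ σ hση hG }, tl η 𝒪 θ₀,
    Tring.val_injective _ _, fun ℓ => Tring.val_gen _ _ ℓ, fun ℓ => actN_tl η 𝒪 θ₀ σ hση hG ℓ, ?_,
    fun ℓ => hloc.residue_gen ℓ⟩
  rw [eq_top_iff]
  rintro x -
  obtain ⟨t, rfl⟩ := Tring.ev_surjective (opO η 𝒪 θ₀) (opO_commute η 𝒪 θ₀) x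
  induction t using MvPolynomial.induction_on with
  | C a =>
    rw [← MvPolynomial.algebraMap_eq, AlgHom.commutes]
    exact Subalgebra.algebraMap_mem _ a
  | add p q hp hq => rw [map_add]; exact add_mem hp hq
  | mul_X p i hp =>
    rw [map_mul, Tring.ev_X]
    exact mul_mem hp (Algebra.subset_adjoin ⟨i, rfl⟩)

end ExT

theorem repStmt : RepStmt := by
  intro p hp hp2 W hΔ hWs hirr m q iM iq iMq hmsq hq hqp hm h12 S hSp hpS hqS hSm hWS θ hθ hunr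
    hnt Δ i1 i2 hΔp τ0 hτ0 i3 i4
  have hS : ∀ ℓ : ℕ, ℓ.Prime → ℓ ∣ m * q → ℓ ∈ S := by
    intro ℓ hℓ hd
    rcases hℓ.dvd_mul.mp hd with h | h
    · exact hSm ℓ hℓ h
    · rw [(Nat.prime_dvd_prime_iff_eq hℓ hq).mp h]
      exact hqS
  have hW : W.Δ ≠ 0 := by
    intro h
    apply hΔ
    rw [WeierstrassCurve.map_Δ, h, map_zero]
  haveI := charP_residueField_padic p
  have h3 : p ≠ 3 ∨ ∃ r : ℕ, r.Prime ∧ r ∣ m * q ∧ r % 3 = 2 :=
    h12.imp id fun ⟨r, h1, h2, h4⟩ => ⟨r, h1, h2.mul_right q, by omega⟩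
  have hst : StrongNonEis (↑S : Set ℕ) θ :=
    strongNonEis_of_model hp2 hW hirr S.finite_toSet fun ℓ _ _ => hθ ℓ
  have hG := good_MD (m := m) hΔp τ0 hp2 h3 hS hst
  obtain ⟨ℓ0, hℓ0, -, hℓ0'⟩ := exists_aux hst (M := m * q)
  haveI j1 := isNoetherianRing_groupRing (𝒪 := ℤ_[p]) (Δ := Δ)
  haveI j2 := isAdicComplete_groupRing (𝒪 := ℤ_[p]) (Δ := Δ)
  haveI j3 : IsLocalHom (RT.aug ℤ_[p] Δ : MonoidAlgebra ℤ_[p] Δ →+* ℤ_[p]) := isLocalHom_aug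
  haveI j4 := finite_HmΔ (𝒪 := ℤ_[p]) (Δ := Δ) (M := m * q)
    (ε := taut ℤ_[p] (tauQ m q τ0) ^ 2) (S := (↑S : Set ℕ)) (θ := thMap (MonoidAlgebra ℤ_[p] Δ) θ)
  haveI j5 : Nontrivial (MD p (m * q) (tauQ m q τ0) (↑S : Set ℕ) θ) :=
    (specN_surjective (taut ℤ_[p] (tauQ m q τ0)) ℤ_[p] θ (RT.aug ℤ_[p] Δ) (aug_taut _)
      hG).nontrivial
  have hpO := natCast_mem_maximalIdeal_padic p
  obtain ⟨T, k1, k2, k3, k4, k5, k6, act, actN, gen, hinj, hact, hactN, hadj, hres⟩ :=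
    exists_T (taut ℤ_[p] (tauQ m q τ0)) ℤ_[p] θ (RT.aug ℤ_[p] Δ) (aug_taut _)
      (residue_taut hpO hΔp _) hG
  have hnop : ∀ ℓ (y : MD p (m * q) (tauQ m q τ0) (↑S : Set ℕ) θ),
      ((act (gen ℓ) y : MD p (m * q) (tauQ m q τ0) (↑S : Set ℕ) θ) :
        HM (m * q) (taut ℤ_[p] (tauQ m q τ0) ^ 2) (MonoidAlgebra ℤ_[p] Δ)) =
        nop (taut ℤ_[p] (tauQ m q τ0)) (↑S : Set ℕ) ℓ
          (y : HM (m * q) (taut ℤ_[p] (tauQ m q τ0) ^ 2) (MonoidAlgebra ℤ_[p] Δ)) := by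
    intro ℓ y
    rw [hact]
    rfl
  obtain ⟨ι, hι⟩ := exists_embedding_padic p
  -- relations
  have hχ : ∀ t, evS (m * q ^ 2) (↑S : Set ℕ) t = 0 →
      MvPolynomial.eval₂Hom (Int.castRingHom T) gen t = 0 := by
    intro t ht
    apply hinj
    rw [map_zero]
    refine LinearMap.ext fun x => Subtype.ext ?_
    have h1 := act_eval_int act gen (nop (taut ℤ_[p] (tauQ m q τ0)) (↑S : Set ℕ))
      (nop_commute (taut ℤ_[p] (tauQ m q τ0)))
      (Submodule.subtype (Hm (m * q) (taut ℤ_[p] (tauQ m q τ0) ^ 2) (MonoidAlgebra ℤ_[p] Δ)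
        (↑S : Set ℕ) (thMap (MonoidAlgebra ℤ_[p] Δ) θ))).toAddMonoidHom
      (fun ℓ x => hnop ℓ x) t x
    refine h1.trans ?_
    refine TwES.relation_Hm m q (↑S : Set ℕ) (fun ℓ h1 h2 => hS ℓ h1 h2) (tauQ m q τ0) ⟨τ0, rfl⟩
      ι hι ℓ0 hℓ0 ?_ t ht x.2
    intro h2
    apply hℓ0'
    refine (ResidueField.map (algebraMap ℤ_[p] (MonoidAlgebra ℤ_[p] Δ))).injective ?_
    rw [map_add, map_one, map_natCast]
    rw [map_add, map_one, map_natCast] at h2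
    exact h2
  -- the representation
  haveI hNZ : NeZero (m * q ^ 2) := ⟨mul_ne_zero (NeZero.ne m) (pow_ne_zero 2 hq.ne_zero)⟩
  have hdvd : ∀ ℓ : ℕ, ℓ.Prime → ℓ ∣ m * q ^ 2 → ℓ ∈ S := fun ℓ hℓ h =>
    (hℓ.dvd_mul.mp h).elim (fun h' => hS ℓ hℓ (h'.mul_right q))
      (fun h' => hS ℓ hℓ ((hℓ.dvd_of_dvd_pow h').mul_left m))
  letI := heckeModuleBar (m * q ^ 2)
  haveI := Fermat.Agent.Cofaith.smulCommClass_JZero (m * q ^ 2)
  have hJ : ESInput (m * q ^ 2) p (↑S : Set ℕ) (JZero (m * q ^ 2)) :=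
    Fermat.Agent.Cofaith.esInput_JZero (m * q ^ 2) hp.out _
      (fun ℓ hℓ h => Finset.mem_coe.mpr (hdvd ℓ hℓ h))
      (Fermat.Agent.QX4.allSpec (m * q ^ 2) p hp.out)
  obtain ⟨ρ, h1, hdet, habs, hodd, hone⟩ := exists_rho hJ hp2 hpS hdvd gen
    (MvPolynomial.eval₂Hom (Int.castRingHom T) gen) (fun ℓ => MvPolynomial.eval₂Hom_X' _ _ _) hχ θ
    hres (rbar hΔ p) (rbar_isAbsolutelyIrreducible hΔ p hp2 hirr) (rbar_isOdd hΔ p hp2)
    (fun ℓ A hA σ hσ => by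
      haveI : Fact (ℓ.1 : ℕ).Prime := ⟨ℓ.1.2⟩
      rw [hθ]
      exact charpoly_rbar_frobenius hΔ p (by
        by_contra hcon
        exact ℓ.2 (hWS _ ℓ.1.2 hcon)) (fun h => ℓ.2 (by rw [h]; exact hpS)) hA hσ)
  exact ⟨T, k1, k2, k3, k4, act, actN, gen, ρ, hnop, fun ℓ x => by rw [hactN]; rfl, hadj, hdet,
    habs, hodd, h1, fun A hA σ hσ => hone σ (hunr A hA σ hσ)⟩

/-- **Level lowering for the modules `MN`**, `q ≡ 1 mod p`. -/
theorem lowerMN : LowerMN := lowerMN_of repStmt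

end Fermat.Agent.Ribet

end
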