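import Fermat.Agent.Ribet.RepInst
import Fermat.Agent.Ribet.LowerNe

/-!
# (E1): level lowering at primes different from `p`, unconditional
-/

set_option autoImplicit false

noncomputable section

namespace Fermat.Agent.Ribet

/-- **(E1)** of the modularity lifting theorem. -/
theorem lowerUnr : S59aux.LowerUnr := lowerUnr_of lowerMN lowerNe

end Fermat.Agent.Ribet

end
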