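import Fermat.Agent.RTD.TameGen
import Fermat.Agent.TwoComp.SwapInst
import Fermat.Agent.Cofaith.Finite

/-!
# (Fr): `(σ - 1)(φ + w_q) = 0` on the torsion of `J₀(mq)`, `σ` in inertia, `φ` Frobenius at `q`
-/

set_option autoImplicit false
set_option linter.style.haveILetI false
set_option linter.unusedSectionVars false

noncomputable section

open AlgebraicCurve ModularCurve
open Fermat.Agent.QX4 Fermat.Agent.TwoGauss
open scoped Fermat.Agent.GaussVal

namespace Fermat.Agent.Ribet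

/-- the absolute Galois group of `ℚ` -/
local notation "𝔾" => (AlgebraicClosure ℚ ≃ₐ[ℚ] AlgebraicClosure ℚ)

section

variable {q m : ℕ} [NeZero m] (hq : q.Prime) (hm : ¬ q ∣ m)
  {A : ValuationSubring (AlgebraicClosure ℚ)} (hA : A.LiesOverPrime q)

include hq hm hA in
/-- `σ x - x` is toric, `σ` in the inertia group. -/
theorem smul_sub_split [Fact q.Prime] [CharP (IsLocalRing.ResidueField A) q] {n : ℕ} {σ : 𝔾}
    (hσ : σ ∈ A.inertiaSubgroupIn ℚ) {x : JZero (m * q)} (hx : n • x = 0) :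
    Split (twoComp hq hm hA).O₁ (twoComp hq hm hA).ρ₁ n (σ • x - x) ∧
      Split (twoComp hq hm hA).O₂ (twoComp hq hm hA).ρ₂ n (σ • x - x) := by
  have H3 := GoodRed.degThm_res hq hA (NeZero.ne m) hm
  have H2 := GoodRed.genus_le_all hq hA m hm
  haveI : FF.IsFF (AlgebraicClosure ℚ) (modularFunctionFieldBar m) := isFF_m
  haveI : FF.IsFF (IsLocalRing.ResidueField A)
    (modularFunctionFieldFullC (IsLocalRing.ResidueField A) m) := isFF_m' (m := m) H3
  haveI : FF.IsFF (AlgebraicClosure ℚ) (modularFunctionFieldBar (m * q)) := isFF_m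
  have hg := (act_mkData_inertia hq hm hA H3 H2 hσ).toAct_id
  exact ⟨TwoComp.Data.split_of_inertia₁ hq.pos hg hx, TwoComp.Data.split_of_inertia₂ hq.pos hg hx⟩

include hq hm hA in
/-- the tame relation on the `p`-power torsion of `J₀(mq)` -/
theorem tame_JZero [NeZero q] {p : ℕ} [Fact p.Prime] (hqp : q ≠ p) {k : ℕ} {σ φ : 𝔾}
    (hσ : σ ∈ A.inertiaSubgroupIn ℚ) (hφ : A.IsFrobeniusAt φ q) {x : JZero (m * q)}
    (hx : p ^ k • x = 0) : (φ * σ * φ⁻¹) • x - x = q • (σ • x - x) := by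
  classical
  have hpk : p ^ k ≠ 0 := pow_ne_zero _ (Fact.out : p.Prime).ne_zero
  have hqn : ¬ q ∣ p ^ k := fun h =>
    hqp ((Nat.prime_dvd_prime_iff_eq hq Fact.out).1 (hq.dvd_of_dvd_pow h))
  let X := {x : JZero (m * q) // p ^ k • x = 0}
  have htors : ∀ (g : 𝔾) (x : JZero (m * q)), p ^ k • x = 0 → p ^ k • (g • x) = 0 := by
    intro g x hx
    have h1 : p ^ k • (g • x) = g • (p ^ k • x) :=
      (map_nsmul (DistribSMul.toAddMonoidHom (JZero (m * q)) g) (p ^ k) x).symm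
    rw [h1, hx]
    exact map_zero (DistribSMul.toAddMonoidHom (JZero (m * q)) g)
  let f : A.inertiaSubgroupIn ℚ →* Multiplicative (X → JZero (m * q)) :=
    { toFun := fun τ => Multiplicative.ofAdd fun x => (τ : 𝔾) • (x : JZero (m * q)) - x
      map_one' := by
        rw [← ofAdd_zero]
        congr 1
        funext x
        show (1 : 𝔾) • (x : JZero (m * q)) - x = 0
        rw [one_smul, sub_self]
      map_mul' := fun τ τ' => by
        rw [← ofAdd_add]
        congr 1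
        funext x
        show ((τ : 𝔾) * τ') • (x : JZero (m * q)) - x =
          ((τ : 𝔾) • (x : JZero (m * q)) - x) + ((τ' : 𝔾) • (x : JZero (m * q)) - x)
        have h1 := inertia_unipotent hq hm hA hqn τ'.2 τ.2 x.2
        rw [smul_sub, sub_eq_iff_eq_add] at h1
        rw [mul_smul, h1]
        abel }
  have hf : ∀ (τ : A.inertiaSubgroupIn ℚ) (y : X),
      Multiplicative.toAdd (f τ) y = (τ : 𝔾) • (y : JZero (m * q)) - y := fun τ y => rfl
  obtain ⟨L, hL, hL2⟩ := Fermat.Agent.Cofaith.exists_level (m * q) hpk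
  have hH : IsPGroup p f.range := by
    rintro ⟨_, τ, rfl⟩
    refine ⟨k, Subtype.ext ?_⟩
    show f τ ^ p ^ k = 1
    refine Multiplicative.toAdd.injective ?_
    rw [toAdd_pow, toAdd_one]
    funext y
    rw [Pi.smul_apply, hf, nsmul_sub, htors _ _ y.2, y.2, sub_zero]
    rfl
  have key := RTD.tame_relation hq hA hqp hφ f hH L (fun i hi => by
    refine Multiplicative.toAdd.injective ?_
    rw [toAdd_one]
    funext y
    rw [hf, hL2 _ hi _ y.2, sub_self]
    rfl) ⟨σ, hσ⟩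
  have h1 := congrFun (congrArg Multiplicative.toAdd key) ⟨x, hx⟩
  rw [toAdd_pow, Pi.smul_apply, hf, hf] at h1
  exact h1

include hq hA in
/-- **(Fr)** `(σ - 1)(φ + w_q) = 0` on `J₀(mq)[p^k]`. -/
theorem smul_frob_add_wJ [NeZero q] {p : ℕ} [Fact p.Prime] (hqp : q ≠ p) {k : ℕ} {σ φ : 𝔾}
    (hσ : σ ∈ A.inertiaSubgroupIn ℚ) (hφ : A.IsFrobeniusAt φ q) {x : JZero (m * q)}
    (hx : p ^ k • x = 0) : σ • (φ • x + wJ hq hm x) = φ • x + wJ hq hm x := by
  haveI : Fact q.Prime := ⟨hq⟩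
  haveI : CharP (IsLocalRing.ResidueField A) q := charP_res hq hA
  have hqn : ¬ q ∣ p ^ k := fun h =>
    hqp ((Nat.prime_dvd_prime_iff_eq hq Fact.out).1 (hq.dvd_of_dvd_pow h))
  -- `σ' = φ⁻¹ σ φ`
  have hσ' : φ⁻¹ * σ * φ ∈ A.inertiaSubgroupIn ℚ := by
    have := TW.conj_mem_inertia_of_decomp hφ.mem_decompositionSubgroup hσ
    exact this
  set σ' : 𝔾 := φ⁻¹ * σ * φ with hσ'def
  have h1 := tame_JZero hq hm hA hqp hσ' hφ hx
  have h2 : φ * σ' * φ⁻¹ = σ := by rw [hσ'def]; group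
  rw [h2] at h1
  obtain ⟨s₁, s₂⟩ := smul_sub_split hq hm hA hσ' hx
  have h3 := frob_toric hq hm hA hqn hφ s₁ s₂
  have h4 : σ • (φ • x) = φ • (σ' • x) := by
    rw [smul_smul, smul_smul, hσ'def]
    congr 1
    group
  have h5 : σ • (φ • x) - φ • x = -(wJ hq hm (σ • x - x)) := by
    have h6 : φ • (σ' • x - x) = φ • (σ' • x) - φ • x := smul_sub _ _ _
    rw [h4, ← h6, h3, h1, map_nsmul]
  rw [map_sub, wJ_galois] at h5
  rw [smul_add, sub_eq_iff_eq_add.1 h5]
  abel

end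

end Fermat.Agent.Ribet
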