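import Fermat.Agent.X1.HeckeOps

/-!
# The groups `Γ_H(q) ∩ Γ₀(m)` and the Atkin–Lehner matrix at `q`
-/

set_option autoImplicit false

noncomputable section

open CongruenceSubgroup Matrix.SpecialLinearGroup
open scoped MatrixGroups ModularForm

namespace Fermat.Agent.Ribet

open Fermat.Agent.X1 Fermat.Agent.HeckePar

theorem entry10_mod {m q : ℕ} {g : SL(2, ℤ)} (hg : g ∈ Gamma0 (m * q)) :
    ((g 1 0 : ℤ) : ZMod q) = 0 := by
  have h1 := Gamma0_mem.mp hg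
  rw [ZMod.intCast_zmod_eq_zero_iff_dvd] at h1
  rw [ZMod.intCast_zmod_eq_zero_iff_dvd]
  refine dvd_trans ?_ h1
  push_cast
  exact Dvd.intro_left _ rfl

theorem entry00_mul_11 {m q : ℕ} {g : SL(2, ℤ)} (hg : g ∈ Gamma0 (m * q)) :
    ((g 0 0 : ℤ) : ZMod q) * ((g 1 1 : ℤ) : ZMod q) = 1 := by
  have h1 := congrArg (Int.cast : ℤ → ZMod q) (det_SL g)
  push_cast at h1
  rw [entry10_mod hg, mul_zero, sub_zero] at h1
  exact h1

theorem mul_11 (g h : SL(2, ℤ)) : (g * h) 1 1 = g 1 0 * h 0 1 + g 1 1 * h 1 1 := by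
  rw [Matrix.SpecialLinearGroup.coe_mul, Matrix.mul_apply, Fin.sum_univ_two]

/-- The group of all `g ∈ Γ₀(m q)` with lower right entry in `H` modulo `q`. -/
def GD (m q : ℕ) (H : Subgroup (ZMod q)ˣ) : Subgroup SL(2, ℤ) where
  carrier := {g | g ∈ Gamma0 (m * q) ∧ ∃ u ∈ H, ((g 1 1 : ℤ) : ZMod q) = (u : ZMod q)}
  one_mem' := ⟨one_mem _, 1, one_mem _, by simp⟩
  mul_mem' := by
    rintro g h ⟨hg, u, hu, hgu⟩ ⟨hh, v, hv, hhv⟩
    refine ⟨mul_mem hg hh, u * v, mul_mem hu hv, ?_⟩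
    rw [mul_11]
    push_cast
    rw [entry10_mod hg, zero_mul, zero_add, hgu, hhv]
  inv_mem' := by
    rintro g ⟨hg, u, hu, hgu⟩
    refine ⟨inv_mem hg, u⁻¹, inv_mem hu, ?_⟩
    have h1 : (g⁻¹ : SL(2, ℤ)) 1 1 = g 0 0 := by
      rw [Matrix.SpecialLinearGroup.coe_inv, Matrix.adjugate_fin_two]; rfl
    rw [h1]
    have h2 := entry00_mul_11 hg
    rw [hgu, mul_comm] at h2
    exact Units.eq_inv_of_mul_eq_one_left h2

theorem mem_GD {m q : ℕ} {H : Subgroup (ZMod q)ˣ} {g : SL(2, ℤ)} :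
    g ∈ GD m q H ↔ g ∈ Gamma0 (m * q) ∧ ∃ u ∈ H, ((g 1 1 : ℤ) : ZMod q) = (u : ZMod q) := Iff.rfl

instance between_GD (m q : ℕ) (H : Subgroup (ZMod q)ˣ) : Between (m * q) (GD m q H) where
  ge g hg := by
    refine ⟨Gamma1_in_Gamma0 _ hg, 1, one_mem _, ?_⟩
    have h1 := ((Gamma1_mem (m * q) g).mp hg).2.1
    have h2 := congrArg (ZMod.castHom (Dvd.intro_left m rfl : q ∣ m * q) (ZMod q)) h1
    rw [map_intCast, map_one] at h2
    rw [h2, Units.val_one]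
  le _ hg := hg.1

instance finiteIndex_GD (m q : ℕ) [NeZero m] [NeZero q] (H : Subgroup (ZMod q)ˣ) :
    (GD m q H).FiniteIndex :=
  Subgroup.finiteIndex_of_le (between_GD m q H).ge

theorem T_mem_GD (m q : ℕ) (H : Subgroup (ZMod q)ˣ) : ModularGroup.T ∈ GD m q H := by
  refine (between_GD m q H).ge ?_
  rw [Gamma1_mem]
  simp [ModularGroup.T]

/-! ### The Atkin–Lehner matrix -/

/-- Integers `e, c` with `q² e + m c = 1`. -/
structure WD (m q : ℕ) where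
  e : ℤ
  c : ℤ
  rel : (q : ℤ) ^ 2 * e + m * c = 1

theorem exists_WD {m q : ℕ} (h : Nat.Coprime q m) : Nonempty (WD m q) := by
  have h1 : IsCoprime ((q : ℤ) ^ 2) (m : ℤ) := (Nat.isCoprime_iff_coprime.mpr h).pow_left
  obtain ⟨a, b, hab⟩ := h1
  exact ⟨⟨a, b, by rw [← hab]; ring⟩⟩

namespace WD

variable {m q : ℕ} (D : WD m q)

/-- the matrix `A` in `SL₂(ℤ)` with `W = A * diag(q, 1)`. -/
def A : SL(2, ℤ) := ⟨!![(q : ℤ), -1; m * D.c, q * D.e], by
  rw [Matrix.det_fin_two_of]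
  linear_combination D.rel⟩

/-- the Atkin–Lehner matrix `W`, of determinant `q`. -/
def W : Matrix (Fin 2) (Fin 2) ℤ := !![(q : ℤ) ^ 2, -1; m * q * D.c, q * D.e]

theorem W_eq : D.W = (D.A : Matrix (Fin 2) (Fin 2) ℤ) * !![(q : ℤ), 0; 0, 1] := by
  rw [W, A]
  ext i j
  fin_cases i <;> fin_cases j <;> simp [Matrix.mul_apply, Fin.sum_univ_two] <;> ring

theorem det_W : D.W.det = q := by
  rw [W, Matrix.det_fin_two_of]
  linear_combination (q : ℤ) * D.rel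

/-- the conjugate of `g = !![a, b; m q k, d]` by `W` -/
def cj (a b k d : ℤ) : Matrix (Fin 2) (Fin 2) ℤ :=
  !![((q : ℤ) ^ 2 * a - m * q * k) * D.e - ((q : ℤ) ^ 2 * b - d) * (m * D.c),
    q * a - m * k + (q : ℤ) ^ 3 * b - q * d;
    m * q * ((D.c * a + q * D.e * k) * D.e - D.c * b * (m * D.c) - D.e * d * D.c),
    m * D.c * a + D.e * (m * q) * k + q * (m * q * D.c * b + q * D.e * d)]

theorem W_mul (a b k d : ℤ) :
    D.W * !![a, b; m * q * k, d] = D.cj a b k d * D.W := by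
  have h := D.rel
  rw [W, cj]
  ext i j
  fin_cases i <;> fin_cases j
  · simp [Matrix.mul_apply, Fin.sum_univ_two]
    linear_combination (-((q : ℤ) ^ 2 * a) + (m * q * k)) * h
  · simp [Matrix.mul_apply, Fin.sum_univ_two]
    linear_combination (-(q : ℤ) ^ 2 * b + d) * h
  · simp [Matrix.mul_apply, Fin.sum_univ_two]
    linear_combination (-(m * q * D.c * a) - m * q * (q * D.e * k)) * h
  · simp [Matrix.mul_apply, Fin.sum_univ_two]
    linear_combination (-(m * q * D.c * b) - q * D.e * d) * h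

theorem det_cj {a b k d : ℤ} (hdet : a * d - b * (m * q * k) = 1) (hq : (q : ℤ) ≠ 0) :
    (D.cj a b k d).det = 1 := by
  have h1 := congrArg Matrix.det (D.W_mul a b k d)
  rw [Matrix.det_mul, Matrix.det_mul, D.det_W, Matrix.det_fin_two_of, hdet, mul_one] at h1
  exact (mul_right_cancel₀ hq (by rw [one_mul]; exact h1)).symm

/-- The groups stable under conjugation by `W`. -/
class _root_.Fermat.Agent.Ribet.WNorm {m q : ℕ} (D : WD m q) (Γ : Subgroup SL(2, ℤ)) : Prop where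
  conj : ∀ g ∈ Γ, ∃ c ∈ Γ, D.W * (g : Matrix (Fin 2) (Fin 2) ℤ) =
    (c : Matrix (Fin 2) (Fin 2) ℤ) * D.W

theorem exists_conj [NeZero q] {g : SL(2, ℤ)} (hg : g ∈ Gamma0 (m * q)) :
    ∃ c ∈ Gamma0 (m * q), D.W * (g : Matrix (Fin 2) (Fin 2) ℤ) =
      (c : Matrix (Fin 2) (Fin 2) ℤ) * D.W ∧
      ((c 1 1 : ℤ) : ZMod q) = ((g 0 0 : ℤ) : ZMod q) ∧
      ((c 1 1 : ℤ) : ZMod m) = ((g 1 1 : ℤ) : ZMod m) := by
  have h1 := Gamma0_mem.mp hg
  rw [ZMod.intCast_zmod_eq_zero_iff_dvd] at h1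
  obtain ⟨k, hk⟩ := h1
  push_cast at hk
  have hdet := det_SL g
  rw [hk] at hdet
  have hg' : (g : Matrix (Fin 2) (Fin 2) ℤ) = !![g 0 0, g 0 1; m * q * k, g 1 1] := by
    ext i j
    fin_cases i <;> fin_cases j
    · rfl
    · rfl
    · exact hk
    · rfl
  have hq : (q : ℤ) ≠ 0 := by exact_mod_cast NeZero.ne q
  have hc := D.det_cj (a := g 0 0) (b := g 0 1) (k := k) (d := g 1 1) (by linear_combination hdet)
    hq
  let c : SL(2, ℤ) := ⟨D.cj (g 0 0) (g 0 1) k (g 1 1), hc⟩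
  have hc10 : c 1 0 = m * q * ((D.c * g 0 0 + q * D.e * k) * D.e - D.c * g 0 1 * (m * D.c)
    - D.e * g 1 1 * D.c) := rfl
  have hc11 : c 1 1 = m * D.c * g 0 0 + D.e * (m * q) * k +
      q * (m * q * D.c * g 0 1 + q * D.e * g 1 1) := rfl
  refine ⟨c, ?_, ?_, ?_, ?_⟩
  · rw [Gamma0_mem, hc10, ZMod.intCast_zmod_eq_zero_iff_dvd]
    push_cast
    exact ⟨_, rfl⟩
  · exact (congrArg (fun X => D.W * X) hg').trans (D.W_mul _ _ _ _)
  · have h2 := congrArg (Int.cast : ℤ → ZMod q) D.rel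
    push_cast at h2
    rw [ZMod.natCast_self] at h2
    have h3 : ((m : ZMod q)) * (D.c : ZMod q) = 1 := by
      rw [← h2]; ring
    rw [hc11]
    push_cast
    rw [ZMod.natCast_self, h3]
    ring
  · have h2 := congrArg (Int.cast : ℤ → ZMod m) D.rel
    push_cast at h2
    rw [ZMod.natCast_self] at h2
    rw [hc11]
    push_cast
    rw [ZMod.natCast_self]
    linear_combination (((g 1 1 : ℤ)) : ZMod m) * h2

instance [NeZero q] : WNorm D (Gamma0 (m * q)) where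
  conj g hg := by
    obtain ⟨c, hc, h, -, -⟩ := D.exists_conj hg
    exact ⟨c, hc, h⟩

instance [NeZero q] (H : Subgroup (ZMod q)ˣ) : WNorm D (GD m q H) where
  conj g hg := by
    obtain ⟨c, hc, h, h1, -⟩ := D.exists_conj hg.1
    refine ⟨c, ⟨hc, ?_⟩, h⟩
    obtain ⟨u, hu, hgu⟩ := hg.2
    refine ⟨u⁻¹, inv_mem hu, ?_⟩
    rw [h1]
    have h2 := entry00_mul_11 hg.1
    rw [hgu, mul_comm] at h2
    exact Units.eq_inv_of_mul_eq_one_left h2

/-- `W` in `GL₂(ℝ)` -/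
def glW [NeZero q] : GL (Fin 2) ℝ :=
  toGLR (n := (q : ℤ)) (by exact_mod_cast NeZero.ne q) D.W D.det_W

theorem val_glW [NeZero q] :
    ((D.glW : GL (Fin 2) ℝ) : Matrix (Fin 2) (Fin 2) ℝ) = D.W.map (Int.cast) := rfl

theorem glW_mul_iff [NeZero q] (Γ : Subgroup SL(2, ℤ)) (g c : Γ) :
    D.glW * iotaG Γ g = iotaG Γ c * D.glW ↔
      D.W * ((g : SL(2, ℤ)) : Matrix (Fin 2) (Fin 2) ℤ) =
        ((c : SL(2, ℤ)) : Matrix (Fin 2) (Fin 2) ℤ) * D.W := by
  rw [← Units.val_inj, Units.val_mul, Units.val_mul, val_glW, val_iotaG, val_iotaG,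
    ← map_intCast_mul, ← map_intCast_mul]
  exact map_intCast_injective.eq_iff

/-- The coset system of the Atkin–Lehner operator. -/
def wSys [NeZero q] (Γ : Subgroup SL(2, ℤ)) [hΓ : WNorm D Γ] : CosetSys (iotaG Γ) Unit where
  rep _ := D.glW
  act _ x := x
  coc g _ := ⟨(hΓ.conj g g.2).choose, (hΓ.conj g g.2).choose_spec.1⟩
  spec g _ := (D.glW_mul_iff Γ g _).mpr (hΓ.conj g g.2).choose_spec.2
  inj _ _ _ _ := rfl
  ι_inj := iotaG_injective Γ

theorem wSys_rep [NeZero q] (Γ : Subgroup SL(2, ℤ)) [hΓ : WNorm D Γ] (x : Unit) :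
    (D.wSys Γ).rep x = D.glW := rfl

end WD

end Fermat.Agent.Ribet

end
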