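import Mathlib
import Fermat.Agent.HeckePar.Abstract

/-!
# Coset systems between two groups: restriction, corestriction and Hecke operators

`CosetSys₂ ι₁ ι₂ X`: the elements `rep x` (`x : X`) of `G` satisfy
`rep x * ι₂ g = ι₁ (coc g x) * rep (act g x)`.  The associated transfer maps homomorphisms
`Γ₁ → A` to homomorphisms `Γ₂ → A`.
-/

set_option autoImplicit false

namespace Fermat.Agent.Ribet

open scoped BigOperators

/-- A finite system of left `Γ₁`-cosets permuted by right translation by `Γ₂`. -/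
structure CosetSys₂ {Γ₁ Γ₂ G : Type*} [Group Γ₁] [Group Γ₂] [Group G] (ι₁ : Γ₁ →* G)
    (ι₂ : Γ₂ →* G) (X : Type*) where
  rep : X → G
  act : Γ₂ → X → X
  coc : Γ₂ → X → Γ₁
  spec : ∀ g x, rep x * ι₂ g = ι₁ (coc g x) * rep (act g x)
  inj : ∀ x y g, rep x = ι₁ g * rep y → x = y
  ι_inj : Function.Injective ι₁

namespace CosetSys₂

variable {Γ₁ Γ₂ Γ₃ G : Type*} [Group Γ₁] [Group Γ₂] [Group Γ₃] [Group G] {ι₁ : Γ₁ →* G}
  {ι₂ : Γ₂ →* G} {ι₃ : Γ₃ →* G} {X Y : Type*} (S : CosetSys₂ ι₁ ι₂ X)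

theorem ext_coc {g : Γ₂} {x y : X} {c : Γ₁} (h : S.rep x * ι₂ g = ι₁ c * S.rep y) :
    S.act g x = y ∧ S.coc g x = c := by
  have h1 := S.spec g x
  have h2 : S.rep (S.act g x) = ι₁ ((S.coc g x)⁻¹ * c) * S.rep y := by
    rw [map_mul, map_inv, mul_assoc, ← h, h1, inv_mul_cancel_left]
  have h3 := S.inj _ _ _ h2
  refine ⟨h3, ?_⟩
  rw [h3, h] at h1
  exact S.ι_inj (mul_right_cancel h1).symm

@[simp] theorem act_one (x : X) : S.act 1 x = x :=
  (S.ext_coc (g := 1) (x := x) (y := x) (c := 1) (by simp)).1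

@[simp] theorem coc_one (x : X) : S.coc 1 x = 1 :=
  (S.ext_coc (g := 1) (x := x) (y := x) (c := 1) (by simp)).2

theorem mul_aux (g h : Γ₂) (x : X) :
    S.rep x * ι₂ (g * h) = ι₁ (S.coc g x * S.coc h (S.act g x)) * S.rep (S.act h (S.act g x)) := by
  rw [map_mul, ← mul_assoc, S.spec, mul_assoc, S.spec, map_mul, mul_assoc]

theorem act_mul (g h : Γ₂) (x : X) : S.act (g * h) x = S.act h (S.act g x) :=
  (S.ext_coc (S.mul_aux g h x)).1

theorem coc_mul (g h : Γ₂) (x : X) : S.coc (g * h) x = S.coc g x * S.coc h (S.act g x) :=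
  (S.ext_coc (S.mul_aux g h x)).2

theorem act_inv_act (g : Γ₂) (x : X) : S.act g⁻¹ (S.act g x) = x := by
  rw [← S.act_mul, mul_inv_cancel, act_one]

theorem act_act_inv (g : Γ₂) (x : X) : S.act g (S.act g⁻¹ x) = x := by
  rw [← S.act_mul, inv_mul_cancel, act_one]

/-- The permutation of the index set given by an element of `Γ₂`. -/
def perm (g : Γ₂) : Equiv.Perm X where
  toFun := S.act g
  invFun := S.act g⁻¹
  left_inv := S.act_inv_act g
  right_inv := S.act_act_inv g

@[simp] theorem perm_apply (g : Γ₂) (x : X) : S.perm g x = S.act g x := rfl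

section AddTransfer

variable [Fintype X] {A : Type*} [AddCommGroup A]

/-- The transfer. -/
def tr : (Additive Γ₁ →+ A) →+ (Additive Γ₂ →+ A) where
  toFun φ :=
    { toFun := fun g => ∑ x, φ (Additive.ofMul (S.coc (Additive.toMul g) x))
      map_zero' := by
        simp
      map_add' := fun g h => by
        simp only [toMul_add, S.coc_mul, ofMul_mul, map_add, Finset.sum_add_distrib]
        congr 1
        exact Equiv.sum_comp (S.perm (Additive.toMul g))
          (fun x => φ (Additive.ofMul (S.coc (Additive.toMul h) x))) }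
  map_zero' := by ext g; simp
  map_add' φ ψ := by ext g; simp [Finset.sum_add_distrib]

theorem tr_apply (φ : Additive Γ₁ →+ A) (g : Additive Γ₂) :
    S.tr φ g = ∑ x, φ (Additive.ofMul (S.coc (Additive.toMul g) x)) := rfl

theorem tr_ofMul (φ : Additive Γ₁ →+ A) (g : Γ₂) :
    S.tr φ (Additive.ofMul g) = ∑ x, φ (Additive.ofMul (S.coc g x)) := rfl

theorem tr_comp {C : Type*} [AddCommGroup C] (ψ : A →+ C) (φ : Additive Γ₁ →+ A) :
    S.tr (ψ.comp φ) = ψ.comp (S.tr φ) := by
  ext g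
  simp [tr_apply]

end AddTransfer

/-- Composite of two coset systems, with representatives `rep x * rep y`, provided that the
products represent distinct cosets. -/
def comp (T : CosetSys₂ ι₂ ι₃ Y) (hinj : ∀ (x x' : X) (y y' : Y) (g : Γ₁),
    S.rep x * T.rep y = ι₁ g * (S.rep x' * T.rep y') → x = x' ∧ y = y') :
    CosetSys₂ ι₁ ι₃ (X × Y) where
  rep p := S.rep p.1 * T.rep p.2
  act g p := (S.act (T.coc g p.2) p.1, T.act g p.2)
  coc g p := S.coc (T.coc g p.2) p.1
  spec g p := by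
    rw [mul_assoc, T.spec, ← mul_assoc, S.spec, mul_assoc]
  inj p q g h := by
    obtain ⟨h1, h2⟩ := hinj p.1 q.1 p.2 q.2 g h
    exact Prod.ext h1 h2
  ι_inj := S.ι_inj

theorem tr_comp_sys [Fintype X] [Fintype Y] (T : CosetSys₂ ι₂ ι₃ Y)
    (hinj : ∀ (x x' : X) (y y' : Y) (g : Γ₁),
      S.rep x * T.rep y = ι₁ g * (S.rep x' * T.rep y') → x = x' ∧ y = y')
    {A : Type*} [AddCommGroup A] (φ : Additive Γ₁ →+ A) :
    (S.comp T hinj).tr φ = T.tr (S.tr φ) := by
  refine AddMonoidHom.ext fun g => ?_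
  rw [tr_apply, tr_apply, Fintype.sum_prod_type_right]
  rfl

/-- Two coset systems representing the same cosets have the same transfer. -/
theorem tr_eq_of_equiv [Fintype X] [Fintype Y] (T : CosetSys₂ ι₁ ι₂ Y) (e : X ≃ Y) (κ : X → Γ₁)
    (h : ∀ x, S.rep x = ι₁ (κ x) * T.rep (e x)) {A : Type*} [AddCommGroup A]
    (φ : Additive Γ₁ →+ A) :
    S.tr φ = T.tr φ := by
  have key : ∀ g x, e (S.act g x) = T.act g (e x) ∧
      κ x * T.coc g (e x) = S.coc g x * κ (S.act g x) := by
    intro g x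
    have h1 : T.rep (e x) * ι₂ g =
        ι₁ ((κ x)⁻¹ * (S.coc g x * κ (S.act g x))) * T.rep (e (S.act g x)) := by
      have h2 := S.spec g x
      rw [h x, h (S.act g x)] at h2
      rw [map_mul, map_mul, map_inv]
      rw [mul_assoc, mul_assoc, ← h2, ← mul_assoc, ← mul_assoc, inv_mul_cancel, one_mul]
    obtain ⟨h3, h4⟩ := T.ext_coc h1
    exact ⟨h3.symm, by rw [h4, mul_inv_cancel_left]⟩
  refine AddMonoidHom.ext fun g => ?_
  obtain ⟨g, rfl⟩ := Additive.ofMul.surjective g
  rw [tr_ofMul, tr_ofMul, ← Equiv.sum_comp e]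
  have h5 : ∀ x, φ (Additive.ofMul (T.coc g (e x))) = -φ (Additive.ofMul (κ x)) +
      φ (Additive.ofMul (S.coc g x)) + φ (Additive.ofMul (κ (S.act g x))) := by
    intro x
    have h6 := congrArg (fun t => φ (Additive.ofMul t)) (key g x).2
    simp only [ofMul_mul, map_add] at h6
    rw [add_assoc, ← h6, neg_add_cancel_left]
  simp only [h5, Finset.sum_add_distrib]
  rw [show ∑ x, φ (Additive.ofMul (κ (S.act g x))) = ∑ x, φ (Additive.ofMul (κ x)) from
    Equiv.sum_comp (S.perm g) (fun x => φ (Additive.ofMul (κ x)))]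
  rw [Finset.sum_neg_distrib]
  abel

/-- Two finite coset systems representing the same cosets have the same transfer. -/
theorem tr_eq_of_subset [Fintype X] [Fintype Y] (T : CosetSys₂ ι₁ ι₂ Y)
    (hcard : Fintype.card Y ≤ Fintype.card X)
    (h : ∀ x, ∃ (y : Y) (κ : Γ₁), S.rep x = ι₁ κ * T.rep y) {A : Type*} [AddCommGroup A]
    (φ : Additive Γ₁ →+ A) :
    S.tr φ = T.tr φ := by
  classical
  choose f κ hf using h
  have hinj : Function.Injective f := by
    intro x x' hx
    refine S.inj x x' (κ x * (κ x')⁻¹) ?_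
    rw [hf x, hf x', hx, ← mul_assoc, ← map_mul, inv_mul_cancel_right]
  have hbij : Function.Bijective f :=
    (Fintype.bijective_iff_injective_and_card f).mpr
      ⟨hinj, le_antisymm (Fintype.card_le_of_injective f hinj) hcard⟩
  exact S.tr_eq_of_equiv T (Equiv.ofBijective f hbij) κ hf φ

end CosetSys₂

/-- A Hecke system, as a system between a group and itself. -/
def ofCosetSys {Γ G : Type*} [Group Γ] [Group G] {ι : Γ →* G} {X : Type*}
    (S : HeckePar.CosetSys ι X) : CosetSys₂ ι ι X where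
  rep := S.rep
  act := S.act
  coc := S.coc
  spec := S.spec
  inj := S.inj
  ι_inj := S.ι_inj

theorem ofCosetSys_tr {Γ G : Type*} [Group Γ] [Group G] {ι : Γ →* G} {X : Type*} [Fintype X]
    (S : HeckePar.CosetSys ι X) {A : Type*} [AddCommGroup A] (φ : Additive Γ →+ A) :
    (ofCosetSys S).tr φ = S.addTransfer φ := rfl

end Fermat.Agent.Ribet
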