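import Mathlib
import Fermat.Agent.Ribet.Cosets

/-!
# Hecke operators on the kernel of a character, restriction and corestriction
-/

set_option autoImplicit false

namespace Fermat.Agent.Ribet

open scoped BigOperators
open HeckePar

variable {Γ G D : Type*} [Group Γ] [Group G] [CommGroup D] (θ : Γ →* D)
variable {A : Type*} [AddCommGroup A]

/-- restriction to the kernel -/
def res : (Additive Γ →+ A) →+ (Additive θ.ker →+ A) where
  toFun φ := φ.comp (MonoidHom.toAdditive θ.ker.subtype)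
  map_zero' := rfl
  map_add' _ _ := rfl

variable {θ}

@[simp] theorem res_apply (φ : Additive Γ →+ A) (γ : θ.ker) :
    res θ φ (Additive.ofMul γ) = φ (Additive.ofMul (γ : Γ)) := rfl

/-- conjugation on the kernel. -/
def kconj (g : Γ) : θ.ker →* θ.ker where
  toFun γ := ⟨g * γ * g⁻¹, by
    rw [MonoidHom.mem_ker, map_mul, map_mul, map_inv, (MonoidHom.mem_ker).mp γ.2, mul_one,
      mul_inv_cancel]⟩
  map_one' := by
    apply Subtype.ext
    simp
  map_mul' a b := by
    apply Subtype.ext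
    simp only [Subgroup.coe_mul]
    group

@[simp] theorem coe_kconj (g : Γ) (γ : θ.ker) : ((kconj g γ : θ.ker) : Γ) = g * γ * g⁻¹ := rfl

/-- the action of `Γ` on homomorphisms of the kernel. -/
def cj (g : Γ) : (Additive θ.ker →+ A) →+ (Additive θ.ker →+ A) where
  toFun φ := φ.comp (MonoidHom.toAdditive (kconj g))
  map_zero' := rfl
  map_add' _ _ := rfl

@[simp] theorem cj_apply (g : Γ) (φ : Additive θ.ker →+ A) (γ : θ.ker) :
    cj g φ (Additive.ofMul γ) = φ (Additive.ofMul (kconj g γ)) := rfl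

theorem kconj_mul (g h : Γ) (γ : θ.ker) : kconj (g * h) γ = kconj g (kconj h γ) := by
  apply Subtype.ext
  simp only [coe_kconj]
  group

theorem cj_mul (g h : Γ) (φ : Additive θ.ker →+ A) : cj (g * h) φ = cj h (cj g φ) := by
  refine AddMonoidHom.ext fun γ => ?_
  obtain ⟨γ, rfl⟩ := Additive.ofMul.surjective γ
  rw [cj_apply, cj_apply, cj_apply, kconj_mul]

@[simp] theorem cj_one (φ : Additive θ.ker →+ A) : cj (1 : Γ) φ = φ := by
  refine AddMonoidHom.ext fun γ => ?_
  obtain ⟨γ, rfl⟩ := Additive.ofMul.surjective γ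
  rw [cj_apply]
  congr 2
  apply Subtype.ext
  simp

/-- the kernel acts trivially. -/
theorem cj_ker (g : θ.ker) (φ : Additive θ.ker →+ A) : cj (g : Γ) φ = φ := by
  refine AddMonoidHom.ext fun γ => ?_
  obtain ⟨γ, rfl⟩ := Additive.ofMul.surjective γ
  rw [cj_apply]
  have h : kconj (g : Γ) γ = g * γ * g⁻¹ := Subtype.ext rfl
  rw [h, ofMul_mul, ofMul_mul, ofMul_inv, map_add, map_add, map_neg]
  abel

/-- `cj` only depends on the image in `D`. -/
theorem cj_eq_of_eq {g h : Γ} (hgh : θ g = θ h) (φ : Additive θ.ker →+ A) : cj g φ = cj h φ := by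
  have h1 : g * h⁻¹ ∈ θ.ker := by
    rw [MonoidHom.mem_ker, map_mul, map_inv, hgh, mul_inv_cancel]
  have h2 : g = ((⟨g * h⁻¹, h1⟩ : θ.ker) : Γ) * h := by simp
  rw [h2, cj_mul, cj_ker]

@[simp] theorem cj_res (g : Γ) (φ : Additive Γ →+ A) : cj g (res θ φ) = res θ φ := by
  refine AddMonoidHom.ext fun γ => ?_
  obtain ⟨γ, rfl⟩ := Additive.ofMul.surjective γ
  rw [cj_apply, res_apply, res_apply, coe_kconj, ofMul_mul, ofMul_mul, ofMul_inv, map_add,
    map_add, map_neg]
  abel

section Sys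

variable {ι : Γ →* G} (hι : Function.Injective ι)

/-- The system of the corestriction. -/
def corSys (s : D → Γ) (hs : ∀ d, θ (s d) = d) (hι : Function.Injective ι) :
    CosetSys₂ (ι.comp θ.ker.subtype) ι D where
  rep d := ι (s d)
  act g d := d * θ g
  coc g d := ⟨s d * g * (s (d * θ g))⁻¹, by
    rw [MonoidHom.mem_ker, map_mul, map_mul, map_inv, hs, hs, mul_inv_cancel]⟩
  spec g d := by
    simp only [MonoidHom.comp_apply, Subgroup.coe_subtype]
    rw [← map_mul, ← map_mul, inv_mul_cancel_right]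
  inj d d' g h := by
    simp only [MonoidHom.comp_apply, Subgroup.coe_subtype] at h
    rw [← map_mul] at h
    have h1 := congrArg θ (hι h)
    rw [hs, map_mul, hs, (MonoidHom.mem_ker).mp g.2, one_mul] at h1
    exact h1
  ι_inj := hι.comp Subtype.val_injective

/-- The system of a conjugation. -/
def cjSys (g : Γ) (hι : Function.Injective ι) :
    CosetSys₂ (ι.comp θ.ker.subtype) (ι.comp θ.ker.subtype) Unit where
  rep _ := ι g
  act _ x := x
  coc γ _ := kconj g γ
  spec γ _ := by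
    simp only [MonoidHom.comp_apply, Subgroup.coe_subtype, coe_kconj]
    rw [← map_mul, ← map_mul, inv_mul_cancel_right]
  inj _ _ _ _ := rfl
  ι_inj := hι.comp Subtype.val_injective

theorem cjSys_tr (g : Γ) (φ : Additive θ.ker →+ A) : (cjSys (ι := ι) g hι).tr φ = cj g φ := by
  refine AddMonoidHom.ext fun γ => ?_
  obtain ⟨γ, rfl⟩ := Additive.ofMul.surjective γ
  rw [CosetSys₂.tr_ofMul, cj_apply]
  simp [cjSys]

variable {X : Type*} (S : CosetSys ι X)

/-- The Hecke system on the kernel. -/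
def kerSys (τ : X → D) (hτ : ∀ g x, θ (S.coc g x) * τ (S.act g x) = τ x * θ g)
    (κ : X → Γ) (hκ : ∀ x, θ (κ x) * τ x = 1) : CosetSys (ι.comp θ.ker.subtype) X where
  rep x := ι (κ x) * S.rep x
  act g x := S.act (g : Γ) x
  coc g x := ⟨κ x * S.coc (g : Γ) x * (κ (S.act (g : Γ) x))⁻¹, by
    have h1 := hτ (g : Γ) x
    rw [(MonoidHom.mem_ker).mp g.2, mul_one] at h1
    have h2 := hκ x
    have h3 := hκ (S.act (g : Γ) x)
    rw [MonoidHom.mem_ker, map_mul, map_mul, map_inv, eq_comm, eq_mul_inv_iff_mul_eq, one_mul]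
    have h4 := h2.trans h3.symm
    rw [← h1, ← mul_assoc] at h4
    exact (mul_right_cancel h4).symm⟩
  spec g x := by
    simp only [MonoidHom.comp_apply, Subgroup.coe_subtype]
    rw [mul_assoc, S.spec, map_mul, map_mul, map_inv]
    simp only [mul_assoc, inv_mul_cancel_left]
  inj x y g h := by
    simp only [MonoidHom.comp_apply, Subgroup.coe_subtype] at h
    refine S.inj x y ((κ x)⁻¹ * g * κ y) ?_
    rw [map_mul, map_mul, map_inv, mul_assoc, mul_assoc, ← h, inv_mul_cancel_left]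
  ι_inj := S.ι_inj.comp Subtype.val_injective

variable [Fintype X] {τ : X → D} (hτ : ∀ g x, θ (S.coc g x) * τ (S.act g x) = τ x * θ g)
  {κ : X → Γ} (hκ : ∀ x, θ (κ x) * τ x = 1)

/-- restriction is Hecke equivariant. -/
theorem res_addTransfer (φ : Additive Γ →+ A) :
    res θ (S.addTransfer φ) = (kerSys S τ hτ κ hκ).addTransfer (res θ φ) := by
  refine AddMonoidHom.ext fun γ => ?_
  obtain ⟨γ, rfl⟩ := Additive.ofMul.surjective γ
  rw [res_apply, CosetSys.addTransfer_apply, CosetSys.addTransfer_apply]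
  simp only [toMul_ofMul, res_apply, kerSys]
  simp only [ofMul_mul, ofMul_inv, map_add, map_neg, Finset.sum_add_distrib,
    Finset.sum_neg_distrib]
  rw [show ∑ x, φ (Additive.ofMul (κ (S.act (γ : Γ) x))) = ∑ x, φ (Additive.ofMul (κ x)) from
    Equiv.sum_comp (S.perm (γ : Γ)) (fun x => φ (Additive.ofMul (κ x)))]
  abel

/-- the Hecke operators act on `Hom(D, A)` by their degree. -/
theorem addTransfer_comp_theta (hτ : ∀ g x, θ (S.coc g x) * τ (S.act g x) = τ x * θ g)
    (f : Additive D →+ A) :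
    S.addTransfer (f.comp (MonoidHom.toAdditive θ)) =
      Fintype.card X • f.comp (MonoidHom.toAdditive θ) := by
  refine AddMonoidHom.ext fun γ => ?_
  obtain ⟨γ, rfl⟩ := Additive.ofMul.surjective γ
  rw [CosetSys.addTransfer_apply]
  simp only [toMul_ofMul, AddMonoidHom.coe_comp, Function.comp_apply,
    MonoidHom.toAdditive_apply_apply, AddMonoidHom.smul_apply]
  have h1 : ∀ x, f (Additive.ofMul (θ (S.coc γ x))) = f (Additive.ofMul (τ x)) +
      f (Additive.ofMul (θ γ)) - f (Additive.ofMul (τ (S.act γ x))) := by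
    intro x
    have h2 := congrArg (fun d => f (Additive.ofMul d)) (hτ γ x)
    simp only [ofMul_mul, map_add] at h2
    rw [← h2, add_sub_cancel_right]
  simp only [h1, Finset.sum_sub_distrib, Finset.sum_add_distrib, Finset.sum_const]
  rw [show ∑ x, f (Additive.ofMul (τ (S.act γ x))) = ∑ x, f (Additive.ofMul (τ x)) from
    Equiv.sum_comp (S.perm γ) (fun x => f (Additive.ofMul (τ x)))]
  rw [Finset.card_univ]
  abel

/-- conjugation commutes with the Hecke operators. -/
theorem cj_addTransfer (g : Γ) (φ : Additive θ.ker →+ A) :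
    cj g ((kerSys S τ hτ κ hκ).addTransfer φ) = (kerSys S τ hτ κ hκ).addTransfer (cj g φ) := by
  classical
  have hι := S.ι_inj
  set K := ofCosetSys (kerSys S τ hτ κ hκ) with hK
  have h1 : ∀ (x x' : X) (y y' : Unit) (γ : θ.ker),
      K.rep x * (cjSys (θ := θ) g hι).rep y =
        (ι.comp θ.ker.subtype) γ * (K.rep x' * (cjSys (θ := θ) g hι).rep y') →
      x = x' ∧ y = y' := by
    intro x x' y y' γ h
    refine ⟨K.inj x x' γ ?_, rfl⟩
    rw [← mul_assoc] at h
    exact mul_right_cancel h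
  have h2 : ∀ (y y' : Unit) (x x' : X) (γ : θ.ker),
      (cjSys (θ := θ) g hι).rep y * K.rep x =
        (ι.comp θ.ker.subtype) γ * ((cjSys (θ := θ) g hι).rep y' * K.rep x') →
      y = y' ∧ x = x' := by
    intro y y' x x' γ h
    refine ⟨rfl, K.inj x x' (kconj g⁻¹ γ) ?_⟩
    have h3 : K.rep x = (ι g)⁻¹ * ((ι.comp θ.ker.subtype) γ * (ι g * K.rep x')) := by
      rw [eq_inv_mul_iff_mul_eq]
      exact h
    rw [h3]
    simp only [MonoidHom.comp_apply, Subgroup.coe_subtype, coe_kconj, map_mul, map_inv, inv_inv,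
      mul_assoc]
  have e1 := CosetSys₂.tr_comp_sys K (cjSys (θ := θ) g hι) h1 φ
  have e2 := CosetSys₂.tr_comp_sys (cjSys (θ := θ) g hι) K h2 φ
  rw [cjSys_tr] at e1
  rw [cjSys_tr] at e2
  have e3 : (K.comp (cjSys (θ := θ) g hι) h1).tr φ = ((cjSys (θ := θ) g hι).comp K h2).tr φ := by
    refine CosetSys₂.tr_eq_of_subset _ _ (by simp) ?_ φ
    rintro ⟨x, y⟩
    have hm : κ x * S.coc g x * (κ (S.act g x))⁻¹ * g⁻¹ ∈ θ.ker := by
      have h1 := hτ g x
      have h2 := hκ x
      have h3 := hκ (S.act g x)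
      rw [MonoidHom.mem_ker, map_mul, map_mul, map_mul, map_inv, map_inv, eq_comm,
        eq_mul_inv_iff_mul_eq, one_mul, eq_mul_inv_iff_mul_eq]
      apply mul_right_cancel (b := τ (S.act g x))
      rw [mul_assoc, h3, mul_one, mul_assoc, h1, ← mul_assoc, h2, one_mul]
    refine ⟨(y, S.act g x), ⟨_, hm⟩, ?_⟩
    change ι (κ x) * S.rep x * ι g = ι (κ x * S.coc g x * (κ (S.act g x))⁻¹ * g⁻¹) *
      (ι g * (ι (κ (S.act g x)) * S.rep (S.act g x)))
    rw [mul_assoc, S.spec]
    simp only [map_mul, map_inv, mul_assoc, inv_mul_cancel_left]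
  exact (e1.symm.trans e3).trans e2

section Cor

variable [Fintype D] (s : D → Γ) (hs : ∀ d, θ (s d) = d)

/-- The corestriction. -/
def cor : (Additive θ.ker →+ A) →+ (Additive Γ →+ A) :=
  (corSys (ι := MonoidHom.id Γ) s hs Function.injective_id).tr

theorem cor_apply (φ : Additive θ.ker →+ A) (γ : Γ) :
    cor s hs φ (Additive.ofMul γ) = ∑ d : D, φ (Additive.ofMul
      (⟨s d * γ * (s (d * θ γ))⁻¹, by
        rw [MonoidHom.mem_ker, map_mul, map_mul, map_inv, hs, hs, mul_inv_cancel]⟩ : θ.ker)) := rfl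

theorem cor_eq_tr (hι : Function.Injective ι) (φ : Additive θ.ker →+ A) :
    cor s hs φ = (corSys (ι := ι) s hs hι).tr φ := rfl

/-- restriction of the corestriction is the norm. -/
theorem res_cor (φ : Additive θ.ker →+ A) :
    res θ (cor s hs φ) = ∑ d : D, cj (s d) φ := by
  refine AddMonoidHom.ext fun γ => ?_
  obtain ⟨γ, rfl⟩ := Additive.ofMul.surjective γ
  rw [res_apply, cor_apply, AddMonoidHom.finsetSum_apply]
  refine Finset.sum_congr rfl fun d _ => ?_
  rw [cj_apply]
  congr 2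
  apply Subtype.ext
  simp only [coe_kconj]
  rw [(MonoidHom.mem_ker).mp γ.2, mul_one]

/-- corestriction is Hecke equivariant. -/
theorem cor_addTransfer (φ : Additive θ.ker →+ A) :
    cor s hs ((kerSys S τ hτ κ hκ).addTransfer φ) = S.addTransfer (cor s hs φ) := by
  classical
  have hι := S.ι_inj
  rw [cor_eq_tr s hs hι, cor_eq_tr s hs hι]
  set K := ofCosetSys (kerSys S τ hτ κ hκ) with hK
  set L := ofCosetSys S with hL
  have h1 : ∀ (x x' : X) (y y' : D) (γ : θ.ker),
      K.rep x * (corSys s hs hι).rep y =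
        (ι.comp θ.ker.subtype) γ * (K.rep x' * (corSys s hs hι).rep y') →
      x = x' ∧ y = y' := by
    intro x x' y y' γ h
    change ι (κ x) * S.rep x * ι (s y) = ι γ * (ι (κ x') * S.rep x' * ι (s y')) at h
    have h3 : S.rep x * ι (s y * (s y')⁻¹) = ι ((κ x)⁻¹ * γ * κ x') * S.rep x' := by
      rw [map_mul, map_inv, ← mul_assoc, mul_inv_eq_iff_eq_mul]
      have h4 : S.rep x * ι (s y) = (ι (κ x))⁻¹ * (ι γ * (ι (κ x') * S.rep x' * ι (s y'))) := by
        rw [eq_inv_mul_iff_mul_eq, ← mul_assoc]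
        exact h
      rw [h4]
      simp only [map_mul, map_inv, mul_assoc]
    obtain ⟨h4, h5⟩ := S.ext_coc h3
    have h6 := hτ (s y * (s y')⁻¹) x
    rw [h4, h5, map_mul, map_mul, map_inv, (MonoidHom.mem_ker).mp γ.2, mul_one, map_mul,
      map_inv, hs, hs, mul_assoc, hκ x', mul_one] at h6
    have h7 : (θ (κ x))⁻¹ = τ x := inv_eq_of_mul_eq_one_right (hκ x)
    rw [h7] at h6
    have h8 : y = y' := by
      have h9 : y * y'⁻¹ = 1 := by
        exact (mul_eq_left.mp h6.symm)
      exact mul_inv_eq_one.mp h9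
    refine ⟨?_, h8⟩
    rw [h8, mul_inv_cancel, S.act_one] at h4
    exact h4
  have h2 : ∀ (y y' : D) (x x' : X) (γ : θ.ker),
      (corSys s hs hι).rep y * L.rep x =
        (ι.comp θ.ker.subtype) γ * ((corSys s hs hι).rep y' * L.rep x') →
      y = y' ∧ x = x' := by
    intro y y' x x' γ h
    change ι (s y) * S.rep x = ι γ * (ι (s y') * S.rep x') at h
    have h3 : S.rep x = ι ((s y)⁻¹ * γ * s y') * S.rep x' := by
      have h4 : S.rep x = (ι (s y))⁻¹ * (ι γ * (ι (s y') * S.rep x')) := by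
        rw [eq_inv_mul_iff_mul_eq]
        exact h
      rw [h4]
      simp only [map_mul, map_inv, mul_assoc]
    have h5 := S.inj _ _ _ h3
    subst h5
    refine ⟨?_, rfl⟩
    have h6 : ι ((s y)⁻¹ * γ * s y') = 1 := by
      have h7 : 1 * S.rep x = ι ((s y)⁻¹ * γ * s y') * S.rep x := by rw [one_mul]; exact h3
      exact (mul_right_cancel h7).symm
    have h8 := hι (h6.trans (map_one ι).symm)
    have h9 := congrArg θ h8
    rw [map_mul, map_mul, map_inv, hs, hs, (MonoidHom.mem_ker).mp γ.2, mul_one, map_one,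
      inv_mul_eq_one] at h9
    exact h9
  have e1 := CosetSys₂.tr_comp_sys K (corSys s hs hι) h1 φ
  have e2 := CosetSys₂.tr_comp_sys (corSys s hs hι) L h2 φ
  have e3 : (K.comp (corSys s hs hι) h1).tr φ = ((corSys s hs hι).comp L h2).tr φ := by
    refine CosetSys₂.tr_eq_of_subset _ _ (by simp [mul_comm]) ?_ φ
    rintro ⟨x, y⟩
    set g := κ x * S.coc (s y) x with hg
    have hm : g * (s (θ g))⁻¹ ∈ θ.ker := by
      rw [MonoidHom.mem_ker, map_mul, map_inv, hs, mul_inv_cancel]
    refine ⟨(θ g, S.act (s y) x), ⟨_, hm⟩, ?_⟩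
    change ι (κ x) * S.rep x * ι (s y) = ι (g * (s (θ g))⁻¹) *
      (ι (s (θ g)) * S.rep (S.act (s y) x))
    rw [mul_assoc, S.spec, hg]
    simp only [map_mul, map_inv, mul_assoc, inv_mul_cancel_left]
  exact (e1.symm.trans e3).trans e2

end Cor

end Sys

end Fermat.Agent.Ribet
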