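import Mathlib
import Fermat.Agent.Ribet.Cover
import Fermat.Agent.S16.Lift

/-!
# Surjectivity of the corestriction

For `Γ ≤ SL(2, ℤ)`, a character `θ : Γ → D` (`D` finite) with `θ (-1) = 1` and coefficients `A` on
which `6` is invertible, the corestriction `Hom(ker θ, A) → Hom(Γ, A)` is surjective.
-/

set_option autoImplicit false

namespace Fermat.Agent.Ribet

open scoped BigOperators MatrixGroups
open ModularGroup S16 S16.Farey

section div

variable {A : Type*} [AddCommGroup A] (h6 : Function.Bijective (fun a : A => (6 : ℕ) • a))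
include h6

theorem eq_zero_of_six {a : A} (h : (6 : ℕ) • a = 0) : a = 0 :=
  h6.1 (by simpa using h)

theorem eq_zero_of_two {a : A} (h : (2 : ℕ) • a = 0) : a = 0 := by
  apply eq_zero_of_six h6
  rw [show (6 : ℕ) = 3 * 2 from rfl, mul_smul, h, smul_zero]

theorem exists_half : ∃ f : A →+ A, ∀ a, (2 : ℕ) • f a = a := by
  let e : A ≃+ A := AddEquiv.ofBijective (nsmulAddMonoidHom (α := A) 6) h6
  refine ⟨(3 : ℕ) • e.symm.toAddMonoidHom, fun a => ?_⟩
  have h1 : (6 : ℕ) • e.symm a = a := e.apply_symm_apply a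
  rw [AddMonoidHom.smul_apply, ← mul_smul]
  exact h1

end div

variable {Γ : Subgroup SL(2, ℤ)} {D : Type*} [CommGroup D] {θ : Γ →* D}
  {A : Type*} [AddCommGroup A]

theorem exists_half' (h2 : Function.Bijective (fun a : A => (2 : ℕ) • a)) :
    ∃ f : A →+ A, ∀ a, (2 : ℕ) • f a = a := by
  let e : A ≃+ A := AddEquiv.ofBijective (nsmulAddMonoidHom (α := A) 2) h2
  exact ⟨e.symm.toAddMonoidHom, fun a => e.apply_symm_apply a⟩

/-- **Surjectivity of the corestriction**; general version: `2` is invertible on `A` and the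
homomorphisms `Γ → A` kill the elements of order dividing `6`. -/
theorem cor_surjective' [Fintype D] (s : D → Γ) (hs : ∀ d, θ (s d) = d)
    (hneg : (-1 : SL(2, ℤ)) ∈ Γ) (hθneg : θ ⟨-1, hneg⟩ = 1)
    (h2b : Function.Bijective (fun a : A => (2 : ℕ) • a))
    (htor : ∀ γ : Γ, γ ^ 6 = 1 → ∀ ψ : Additive Γ →+ A, ψ (Additive.ofMul γ) = 0) :
    Function.Surjective (cor s hs : (Additive θ.ker →+ A) →+ (Additive Γ →+ A)) := by
  classical
  intro ψ
  obtain ⟨half, hhalf⟩ := exists_half' h2b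
  -- the potential
  obtain ⟨P, hP1, hP2⟩ := exists_potential ψ (T * S) (by
    intro δ k h
    apply htor
    apply Subtype.ext
    change (δ⁻¹ * (T * S) ^ k * δ) ^ 6 = 1
    have h2 : (δ⁻¹ * (T * S) ^ k * δ) ^ 6 = δ⁻¹ * ((T * S) ^ 6) ^ k * δ := by
      have h3 : ((T * S : SL(2, ℤ)) ^ 6) ^ k = ((T * S) ^ k) ^ 6 := by
        rw [← zpow_natCast, ← zpow_natCast, ← zpow_mul, ← zpow_mul, mul_comm]
      rw [h3]
      simp only [pow_succ, pow_zero, one_mul]
      group
    rw [h2, TS_pow_six, one_zpow, mul_one, inv_mul_cancel])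
  have hPneg : ∀ g, P (-g) = P g := by
    intro g
    have h3 : -g = (T * S) * ((T * S) * ((T * S) * g)) := by
      rw [← mul_assoc, ← mul_assoc, ← neg_one_mul, ← TS_pow_three]
      congr 1
      rw [pow_three]
      simp only [mul_assoc]
    rw [h3, hP2, hP2, hP2]
  have hSSneg : ∀ g : SL(2, ℤ), S * (S * g) = -g := by
    intro g
    rw [← mul_assoc, S_mul_S, neg_one_mul]
  let w : SL(2, ℤ) → A := fun g => P (S * g) - P g
  have hwΓ : ∀ g (γ : Γ), w (g * γ) = w g := by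
    intro g γ
    simp only [w]
    rw [← mul_assoc, hP1, hP1]
    abel
  have hwS : ∀ g, w (S * g) = - w g := by
    intro g
    simp only [w]
    rw [hSSneg, hPneg]
    abel
  have hwneg : ∀ g, w (-g) = w g := by
    intro g
    simp only [w]
    rw [hPneg, mul_neg, hPneg]
  -- coset representatives
  have hout : ∀ g : SL(2, ℤ), ∃ γ : Γ, (QuotientGroup.mk g : SL(2, ℤ) ⧸ Γ).out * γ = g := by
    intro g
    obtain ⟨γ, hγ⟩ := QuotientGroup.mk_out_eq_mul Γ g
    refine ⟨γ⁻¹, ?_⟩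
    rw [hγ, Subgroup.coe_inv, mul_inv_cancel_right]
  choose γ hγ using hout
  have hγmul : ∀ g (δ : Γ), γ (g * δ) = γ g * δ := by
    intro g δ
    apply Subtype.ext
    have h1 : (QuotientGroup.mk (g * δ) : SL(2, ℤ) ⧸ Γ) = QuotientGroup.mk g := by
      rw [QuotientGroup.eq]
      rw [mul_inv_rev, inv_mul_cancel_right]
      exact Γ.inv_mem δ.2
    have h2 := hγ (g * δ)
    rw [h1] at h2
    have h3 := hγ g
    rw [Subgroup.coe_mul]
    apply mul_left_cancel (a := (QuotientGroup.mk g : SL(2, ℤ) ⧸ Γ).out)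
    rw [h2, ← mul_assoc, h3]
  let w0 : SL(2, ℤ) → A := fun g => if θ (γ g) = 1 then w g else 0
  have hw0Γ : ∀ g (δ : Γ), θ δ = 1 → w0 (g * δ) = w0 g := by
    intro g δ hδ
    simp only [w0]
    rw [hγmul, map_mul, hδ, mul_one, hwΓ]
  have hw0neg : ∀ g, w0 (-g) = w0 g := by
    intro g
    have h1 : -g = g * ((⟨-1, hneg⟩ : Γ) : SL(2, ℤ)) := by simp
    rw [h1]
    exact hw0Γ g _ hθneg
  have hw0sum : ∀ g, ∑ d : D, w0 (g * ((s d)⁻¹ : Γ)) = w g := by
    intro g
    rw [Finset.sum_eq_single (θ (γ g))]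
    · simp only [w0]
      rw [hγmul, map_mul, map_inv, hs, mul_inv_cancel, if_pos rfl, hwΓ]
    · intro d _ hd
      simp only [w0]
      rw [hγmul, map_mul, map_inv, hs, if_neg]
      rw [mul_inv_eq_one]
      exact fun h => hd h.symm
    · intro h
      exact absurd (Finset.mem_univ _) h
  let w' : SL(2, ℤ) → A := fun g => half (w0 g - w0 (S * g))
  have hw'Γ : ∀ g (δ : Γ), θ δ = 1 → w' (g * δ) = w' g := by
    intro g δ hδ
    simp only [w']
    rw [← mul_assoc, hw0Γ g δ hδ, hw0Γ (S * g) δ hδ]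
  have hw'S : ∀ g : SL(2, ℤ), w' ((S : SL(2, ℤ)) • g) = - w' g := by
    intro g
    simp only [w', smul_eq_mul]
    rw [hSSneg, hw0neg, ← map_neg]
    congr 1
    abel
  have hhalf2 : ∀ a : A, half ((2 : ℕ) • a) = a := by
    intro a
    rw [map_nsmul]
    exact hhalf a
  have hw'sum : ∀ g, ∑ d : D, w' (g * ((s d)⁻¹ : Γ)) = w g := by
    intro g
    simp only [w']
    rw [← map_sum, Finset.sum_sub_distrib, hw0sum]
    simp only [← mul_assoc]
    rw [hw0sum, hwS, sub_neg_eq_add, ← two_nsmul, hhalf2]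
  -- the cocycle
  let c' : SL(2, ℤ) → SL(2, ℤ) → A := fun g x => - half (half (C4 w' g x))
  have hc'mul : ∀ g h x, c' (g * h) x = c' g (h • x) + c' h x := by
    intro g h x
    simp only [c']
    rw [C4_mul, map_add, map_add, neg_add]
  have hc'TS : ∀ x, c' (T * S) x = 0 := by
    intro x
    simp only [c']
    rw [C4_TS, map_zero, map_zero, neg_zero]
  have hc'S : ∀ x, c' S x = w' x := by
    intro x
    simp only [c']
    rw [C4_S hw'S]
    have h1 : (-4 : ℤ) • w' x = (2 : ℕ) • ((2 : ℕ) • (- w' x)) := by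
      rw [← mul_smul]
      simp only [neg_smul, smul_neg, neg_inj]
      rw [← natCast_zsmul]
      rfl
    rw [h1, hhalf2, hhalf2, neg_neg]
  have hc'Γ : ∀ g x (δ : Γ), θ δ = 1 → c' g (x * δ) = c' g x := by
    intro g x δ hδ
    simp only [c', C4, smul_eq_mul]
    congr 3
    refine finsum_congr fun h => ?_
    rw [← mul_assoc, hw'Γ _ δ hδ]
  have hsum : ∀ g x, ∑ d : D, c' g (x * ((s d)⁻¹ : Γ)) = P (g * x) - P x := by
    refine cocycle_ext (X := SL(2, ℤ)) (c := fun g x => ∑ d : D, c' g (x * ((s d)⁻¹ : Γ)))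
      (c' := fun g x => P (g * x) - P x) ?_ ?_ ?_ ?_
    · intro g h x
      rw [← Finset.sum_add_distrib]
      refine Finset.sum_congr rfl fun d _ => ?_
      rw [hc'mul, smul_eq_mul, smul_eq_mul, mul_assoc]
    · intro g h x
      rw [smul_eq_mul, mul_assoc]
      abel
    · intro x
      simp only [hc'S]
      exact hw'sum x
    · intro x
      simp only [hc'TS, Finset.sum_const_zero]
      rw [hP2, sub_self]
  let Q : SL(2, ℤ) → A := fun g => c' g 1
  have hc'Q : ∀ g h, c' g h = Q (g * h) - Q h := by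
    intro g h
    simp only [Q]
    rw [hc'mul, smul_eq_mul, mul_one, add_sub_cancel_right]
  have hQmul : ∀ h (δ : Γ), θ δ = 1 → Q (h * δ) = Q h + Q δ := by
    intro h δ hδ
    simp only [Q]
    rw [hc'mul, smul_eq_mul, mul_one]
    congr 1
    have := hc'Γ h 1 δ hδ
    rw [one_mul] at this
    exact this
  let φ : Additive θ.ker →+ A := AddMonoidHom.mk' (fun δ => Q ((Additive.toMul δ : θ.ker) : Γ)) (by
    intro a b
    rw [toMul_add, Subgroup.coe_mul, Subgroup.coe_mul]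
    exact hQmul _ _ ((MonoidHom.mem_ker).mp (Additive.toMul b).2))
  refine ⟨φ, ?_⟩
  refine AddMonoidHom.ext fun δ => ?_
  obtain ⟨δ, rfl⟩ := Additive.ofMul.surjective δ
  rw [cor_apply]
  have h1 : P δ - P 1 = ψ (Additive.ofMul δ) := by
    have h2 := hP1 1 δ
    rw [one_mul] at h2
    rw [h2, add_sub_cancel_left]
  rw [← h1]
  have h2 := hsum δ 1
  rw [mul_one] at h2
  rw [← h2]
  simp only [hc'Q, one_mul, Finset.sum_sub_distrib]
  rw [← Equiv.sum_comp (Equiv.mulRight (θ δ))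
    (fun d : D => Q ((δ : SL(2, ℤ)) * (((s d)⁻¹ : Γ) : SL(2, ℤ)))), ← Finset.sum_sub_distrib]
  refine Finset.sum_congr rfl fun d _ => ?_
  rw [Equiv.coe_mulRight]
  have hm : θ (s d * δ * (s (d * θ δ))⁻¹) = 1 := by
    rw [map_mul, map_mul, map_inv, hs, hs, mul_inv_cancel]
  have h3 := hQmul (((s d)⁻¹ : Γ) : SL(2, ℤ)) _ hm
  have h4 : (((s d)⁻¹ : Γ) : SL(2, ℤ)) * ((s d * δ * (s (d * θ δ))⁻¹ : Γ) : SL(2, ℤ)) =
      (δ : SL(2, ℤ)) * (((s (d * θ δ))⁻¹ : Γ) : SL(2, ℤ)) := by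
    rw [← Subgroup.coe_mul, ← Subgroup.coe_mul]
    congr 1
    group
  rw [h4] at h3
  rw [h3, add_sub_cancel_left]
  rfl

/-- **Surjectivity of the corestriction.** -/
theorem cor_surjective [Fintype D] (s : D → Γ) (hs : ∀ d, θ (s d) = d)
    (hneg : (-1 : SL(2, ℤ)) ∈ Γ) (hθneg : θ ⟨-1, hneg⟩ = 1)
    (h6 : Function.Bijective (fun a : A => (6 : ℕ) • a)) :
    Function.Surjective (cor s hs : (Additive θ.ker →+ A) →+ (Additive Γ →+ A)) := by
  refine cor_surjective' s hs hneg hθneg ⟨?_, ?_⟩ ?_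
  · intro a b hab
    have h1 : (2 : ℕ) • (a - b) = 0 := by
      rw [smul_sub]
      exact sub_eq_zero.mpr hab
    exact sub_eq_zero.mp (eq_zero_of_two h6 h1)
  · intro a
    obtain ⟨f, hf⟩ := exists_half h6
    exact ⟨f a, hf a⟩
  · intro γ hγ ψ
    apply eq_zero_of_six h6
    rw [← map_nsmul, ← ofMul_pow, hγ, ofMul_one, map_zero]

end Fermat.Agent.Ribet
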