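import Mathlib

/-!
# Common generalised kernels of commuting operators on a finite group
-/

set_option autoImplicit false

namespace Fermat.Agent.Ribet

section Nil

variable {ι H : Type*} [AddCommGroup H]

/-- The common generalised kernel. -/
def nil (f : ι → (H →+ H)) : AddSubgroup H where
  carrier := {x | ∀ i, ∃ k : ℕ, ((f i)^[k]) x = 0}
  zero_mem' := fun i => ⟨0, rfl⟩
  add_mem' := by
    intro x y hx hy i
    obtain ⟨k, hk⟩ := hx i
    obtain ⟨l, hl⟩ := hy i
    have hz : ∀ m, (f i)^[m] 0 = 0 := fun m => iterate_map_zero (f i) m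
    refine ⟨k + l, ?_⟩
    rw [iterate_map_add]
    rw [add_comm k l, Function.iterate_add_apply, hk, hz, zero_add, add_comm l k,
      Function.iterate_add_apply, hl, hz]
  neg_mem' := by
    intro x hx i
    obtain ⟨k, hk⟩ := hx i
    exact ⟨k, by rw [iterate_map_neg, hk, neg_zero]⟩

theorem mem_nil {f : ι → (H →+ H)} {x : H} :
    x ∈ nil f ↔ ∀ i, ∃ k : ℕ, ((f i)^[k]) x = 0 := Iff.rfl

/-- Functoriality. -/
theorem map_mem_nil {H' : Type*} [AddCommGroup H'] {f : ι → (H →+ H)} {f' : ι → (H' →+ H')}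
    (g : H →+ H') (hg : ∀ i x, g (f i x) = f' i (g x)) {x : H} (hx : x ∈ nil f) :
    g x ∈ nil f' := by
  intro i
  obtain ⟨k, hk⟩ := hx i
  refine ⟨k, ?_⟩
  have h1 : ∀ k x, g ((f i)^[k] x) = (f' i)^[k] (g x) := by
    intro k
    induction k with
    | zero => intro x; rfl
    | succ k ih => intro x; rw [Function.iterate_succ_apply, Function.iterate_succ_apply, ih, hg]
  rw [← h1, hk, map_zero]

/-- On the generalised kernel, `f i + c` is injective if `c` is. -/
theorem eq_zero_of_nil {f : ι → (H →+ H)} {c : ℤ} (hc : ∀ x : H, c • x = 0 → x = 0) (i : ι)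
    {x : H} (hx : x ∈ nil f) (h : f i x + c • x = 0) : x = 0 := by
  obtain ⟨k, hk⟩ := hx i
  have h1 : f i x = (-c) • x := by
    rw [neg_smul]
    exact eq_neg_of_add_eq_zero_left h
  have h2 : ∀ k : ℕ, (f i)^[k] x = ((-c) ^ k) • x := by
    intro k
    induction k with
    | zero => simp
    | succ k ih => rw [Function.iterate_succ_apply', ih, map_zsmul, h1, smul_smul, pow_succ]
  rw [h2 k] at hk
  have h3 : ∀ k : ℕ, ((-c) ^ k) • x = 0 → x = 0 := by
    intro k
    induction k with
    | zero => intro h; simpa using h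
    | succ k ih =>
      intro h
      apply ih
      apply hc
      have : c • ((-c) ^ k • x) = -((-c) ^ (k + 1) • x) := by
        rw [smul_smul, ← neg_smul]
        congr 1
        ring
      rw [this, h, neg_zero]
  exact h3 k hk

/-- On the generalised kernel, `f i + c` is bijective if `c` is injective, `H` being finite. -/
theorem exists_of_nil [Finite H] {f : ι → (H →+ H)}
    (hf : ∀ i j x, f i (f j x) = f j (f i x)) {c : ℤ} (hc : ∀ x : H, c • x = 0 → x = 0) (i : ι)
    {x : H} (hx : x ∈ nil f) : ∃ y ∈ nil f, f i y + c • y = x := by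
  let g : nil f → nil f := fun y => ⟨f i y + c • (y : H),
    add_mem (map_mem_nil (f i) (fun j x => hf i j x) y.2) ((nil f).zsmul_mem y.2 c)⟩
  have hg : Function.Injective g := by
    intro y z hyz
    have h1 : f i y + c • (y : H) = f i z + c • (z : H) := congrArg Subtype.val hyz
    have h2 : f i ((y : H) - z) + c • ((y : H) - z) = 0 := by
      rw [map_sub, smul_sub]
      rw [sub_add_sub_comm, h1, sub_self]
    have h3 := eq_zero_of_nil hc i (sub_mem y.2 z.2) h2
    exact Subtype.ext (sub_eq_zero.mp h3)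
  obtain ⟨y, hy⟩ := (Finite.injective_iff_surjective.mp hg) ⟨x, hx⟩
  exact ⟨y, y.2, congrArg Subtype.val hy⟩

section Proj

/-- Some iterate is idempotent. -/
theorem exists_iterate_idem [Finite H] (g : H →+ H) :
    ∃ K : ℕ, 0 < K ∧ ∀ x, g^[K] (g^[K] x) = g^[K] x := by
  classical
  obtain ⟨a, b, hab, h⟩ : ∃ a b : ℕ, a < b ∧ g^[a] = g^[b] := by
    obtain ⟨a, b, hne, h⟩ := Finite.exists_ne_map_eq_of_infinite (fun k : ℕ => (g^[k] : H → H))
    rcases lt_or_gt_of_ne hne with h1 | h1
    · exact ⟨a, b, h1, h⟩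
    · exact ⟨b, a, h1, h.symm⟩
  obtain ⟨d, hd, rfl⟩ : ∃ d, 0 < d ∧ b = a + d := ⟨b - a, by omega, by omega⟩
  have h1 : ∀ j c : ℕ, g^[a + c + j * d] = g^[a + c] := by
    intro j
    induction j with
    | zero => intro c; simp
    | succ j ih =>
      intro c
      have h2 : a + c + (j + 1) * d = (c + j * d) + (a + d) := by ring
      have h3 : a + c + j * d = (c + j * d) + a := by ring
      rw [← ih, h2, h3, Function.iterate_add g (c + j * d) (a + d),
        Function.iterate_add g (c + j * d) a, h]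
  refine ⟨(a + 1) * d, by positivity, fun x => ?_⟩
  rw [← Function.iterate_add_apply]
  obtain ⟨c, hc⟩ : ∃ c, (a + 1) * d = a + c := ⟨(a + 1) * d - a, by
    have : a ≤ (a + 1) * d := by nlinarith
    omega⟩
  have h4 := h1 (a + 1) c
  rw [← hc] at h4
  rw [h4]

/-- The endomorphism `x ↦ x - g^K x`. -/
def sub_iter (g : H →+ H) (K : ℕ) : H →+ H where
  toFun x := x - g^[K] x
  map_zero' := by rw [iterate_map_zero, sub_zero]
  map_add' x y := by rw [iterate_map_add]; abel

theorem sub_iter_apply (g : H →+ H) (K : ℕ) (x : H) : sub_iter g K x = x - g^[K] x := rfl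

theorem iterate_comm {g h : H →+ H} (hgh : ∀ x, g (h x) = h (g x)) (k : ℕ) (x : H) :
    g (h^[k] x) = h^[k] (g x) := by
  induction k generalizing x with
  | zero => rfl
  | succ k ih => rw [Function.iterate_succ_apply, Function.iterate_succ_apply, ih, hgh]

theorem exists_proj_finset [Finite H] {f : ι → (H →+ H)}
    (hf : ∀ i j x, f i (f j x) = f j (f i x)) (s : Finset ι) :
    ∃ e : H →+ H, (∀ x, ∀ i ∈ s, ∃ k, (f i)^[k] (e x) = 0) ∧
      (∀ x, (∀ i ∈ s, ∃ k, (f i)^[k] x = 0) → e x = x) ∧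
      (∀ g : H →+ H, (∀ i x, g (f i x) = f i (g x)) → ∀ x, g (e x) = e (g x)) := by
  classical
  induction s using Finset.induction_on with
  | empty => exact ⟨AddMonoidHom.id H, by simp, fun x _ => rfl, fun g _ x => rfl⟩
  | insert i s hi ih =>
    obtain ⟨e, he1, he2, he3⟩ := ih
    obtain ⟨K, hK0, hK⟩ := exists_iterate_idem (f i)
    refine ⟨(sub_iter (f i) K).comp e, fun x j hj => ?_, fun x hx => ?_, fun g hg x => ?_⟩
    · rw [AddMonoidHom.comp_apply, sub_iter_apply]
      rw [Finset.mem_insert] at hj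
      rcases hj with rfl | hj
      · exact ⟨K, by rw [iterate_map_sub, hK, sub_self]⟩
      · obtain ⟨k, hk⟩ := he1 x j hj
        refine ⟨k, ?_⟩
        rw [iterate_map_sub, hk, zero_sub, neg_eq_zero]
        have h1 : ∀ y, (f j)^[k] ((f i)^[K] y) = (f i)^[K] ((f j)^[k] y) := by
          intro y
          have h2 : Function.Commute (f i) (f j) := fun x => hf i j x
          exact ((h2.iterate_iterate K k) y).symm
        rw [h1, hk, iterate_map_zero]
    · rw [AddMonoidHom.comp_apply, he2 x fun j hj => hx j (Finset.mem_insert_of_mem hj),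
        sub_iter_apply, sub_eq_self]
      obtain ⟨k, hk⟩ := hx i (Finset.mem_insert_self i s)
      have h1 : ∀ m : ℕ, (f i)^[(m + 1) * K] x = (f i)^[K] x := by
        intro m
        induction m with
        | zero => simp
        | succ m ih =>
          have : (m + 1 + 1) * K = K + (m + 1) * K := by ring
          rw [this, Function.iterate_add_apply, ih, hK]
      rw [← h1 k]
      have h2 : (k + 1) * K = ((k + 1) * K - k) + k := by
        have : k ≤ (k + 1) * K := by nlinarith
        omega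
      rw [h2, Function.iterate_add_apply, hk, iterate_map_zero]
    · rw [AddMonoidHom.comp_apply, AddMonoidHom.comp_apply, sub_iter_apply, sub_iter_apply,
        map_sub, iterate_comm (fun x => hg i x), he3 g hg]

/-- **The projector** onto the common generalised kernel. -/
theorem exists_proj [Finite H] {f : ι → (H →+ H)} (hf : ∀ i j x, f i (f j x) = f j (f i x)) :
    ∃ e : H →+ H, (∀ x, e x ∈ nil f) ∧ (∀ x ∈ nil f, e x = x) ∧
      (∀ g : H →+ H, (∀ i x, g (f i x) = f i (g x)) → ∀ x, g (e x) = e (g x)) := by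
  classical
  -- the partial generalised kernels
  let K : Finset ι → Set H := fun s => {x | ∀ i ∈ s, ∃ k : ℕ, (f i)^[k] x = 0}
  have hanti : ∀ s t, s ⊆ t → K t ⊆ K s := fun s t hst x hx i hi => hx i (hst hi)
  obtain ⟨s, hs⟩ : ∃ s, ∀ t, (K s).ncard ≤ (K t).ncard := by
    let P : Set ℕ := Set.range fun s => (K s).ncard
    have hP : P.Nonempty := ⟨_, ∅, rfl⟩
    obtain ⟨s, hs⟩ := Nat.sInf_mem hP
    exact ⟨s, fun t => by
      change (fun s => (K s).ncard) s ≤ _
      rw [hs]
      exact Nat.sInf_le ⟨t, rfl⟩⟩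
  have hKs : ∀ x ∈ K s, x ∈ nil f := by
    intro x hx i
    have h1 : K (insert i s) = K s :=
      Set.eq_of_subset_of_ncard_le (hanti _ _ (Finset.subset_insert i s)) (hs _)
        (Set.toFinite _)
    rw [← h1] at hx
    exact hx i (Finset.mem_insert_self i s)
  obtain ⟨e, he1, he2, he3⟩ := exists_proj_finset hf s
  exact ⟨e, fun x => hKs _ (he1 x), fun x hx => he2 x fun i _ => hx i, he3⟩

end Proj

/-- **Invariants are norms.** -/
theorem exists_norm_of_nil [Finite H] {f : ι → (H →+ H)}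
    (hf : ∀ i j x, f i (f j x) = f j (f i x)) (δ Nm : H →+ H)
    (hδ : ∀ i x, δ (f i x) = f i (δ x)) (hN : ∀ i x, Nm (f i x) = f i (Nm x)) (i : ι) {c : ℤ}
    (hc : ∀ x : H, c • x = 0 → x = 0)
    (h : ∀ x, δ x = x → ∃ y, f i x + c • x = Nm y) {x : H} (hx : x ∈ nil f) (hδx : δ x = x) :
    ∃ y ∈ nil f, x = Nm y := by
  obtain ⟨e, he1, he2, he3⟩ := exists_proj hf
  obtain ⟨z, hz, hzx⟩ := exists_of_nil hf hc i hx
  have h1 : δ z = z := by
    have h2 : δ z - z ∈ nil f := sub_mem (map_mem_nil δ (fun j x => hδ j x) hz) hz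
    have h3 : f i (δ z - z) + c • (δ z - z) = 0 := by
      rw [map_sub, smul_sub, sub_add_sub_comm, hzx, ← hδ, ← map_zsmul, ← map_add, hzx, hδx,
        sub_self]
    exact sub_eq_zero.mp (eq_zero_of_nil hc i h2 h3)
  obtain ⟨y, hy⟩ := h z h1
  refine ⟨e y, he1 y, ?_⟩
  rw [he3 Nm hN, ← hy, hzx, he2 x hx]

/-- The Herbrand quotient argument. -/
theorem exists_sub_of_nil [Finite H] {f : ι → (H →+ H)}
    (hf : ∀ i j x, f i (f j x) = f j (f i x)) (δ Nm : H →+ H)
    (hδ : ∀ i x, δ (f i x) = f i (δ x)) (hN : ∀ i x, Nm (f i x) = f i (Nm x)) (i : ι) {c : ℤ}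
    (hc : ∀ x : H, c • x = 0 → x = 0)
    (h : ∀ x, δ x = x → ∃ y, f i x + c • x = Nm y)
    (h1 : ∀ x, Nm (δ x) = Nm x) (h2 : ∀ x, δ (Nm x) = Nm x) {x : H} (hx : x ∈ nil f)
    (hNx : Nm x = 0) : ∃ y ∈ nil f, x = δ y - y := by
  classical
  let L := nil f
  let a : L →+ L := (((δ - AddMonoidHom.id H).comp L.subtype).codRestrict L
    (fun x => sub_mem (map_mem_nil δ (fun j x => hδ j x) x.2) x.2))
  let b : L →+ L := ((Nm.comp L.subtype).codRestrict L
    (fun x => map_mem_nil Nm (fun j x => hN j x) x.2))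
  have ha' : ∀ x : L, ((a x : L) : H) = δ x - x := fun x => rfl
  have hb' : ∀ x : L, ((b x : L) : H) = Nm x := fun x => rfl
  have hab : a.range ≤ b.ker := by
    rintro _ ⟨y, rfl⟩
    rw [AddMonoidHom.mem_ker]
    apply Subtype.ext
    rw [hb', ha', map_sub, h1, sub_self]
    rfl
  have hker : a.ker = b.range := by
    apply le_antisymm
    · intro y hy
      rw [AddMonoidHom.mem_ker] at hy
      have h3 : δ y - (y : H) = 0 := by
        rw [← ha', hy]
        rfl
      obtain ⟨z, hz, hz2⟩ := exists_norm_of_nil hf δ Nm hδ hN i hc h y.2 (sub_eq_zero.mp h3)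
      exact ⟨⟨z, hz⟩, Subtype.ext hz2.symm⟩
    · rintro _ ⟨y, rfl⟩
      rw [AddMonoidHom.mem_ker]
      apply Subtype.ext
      rw [ha', hb', h2, sub_self]
      rfl
  have hcard : ∀ g : L →+ L, Nat.card g.ker * Nat.card g.range = Nat.card L := by
    intro g
    rw [← Nat.card_congr (QuotientAddGroup.quotientKerEquivRange g).toEquiv,
      AddSubgroup.card_eq_card_quotient_mul_card_addSubgroup g.ker, mul_comm]
  have ha := hcard a
  have hb := hcard b
  rw [hker] at ha
  have hpos : 0 < Nat.card b.range := Nat.card_pos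
  have heq : Nat.card a.range = Nat.card b.ker := by
    apply Nat.eq_of_mul_eq_mul_left hpos
    rw [ha, ← hb, mul_comm]
  have hset : a.range = b.ker := by
    apply SetLike.coe_injective
    apply Set.eq_of_subset_of_ncard_le hab
    · rw [← Nat.card_coe_set_eq, ← Nat.card_coe_set_eq]
      exact heq.ge
  have hx' : (⟨x, hx⟩ : L) ∈ b.ker := by
    rw [AddMonoidHom.mem_ker]
    exact Subtype.ext hNx
  rw [← hset] at hx'
  obtain ⟨y, hy⟩ := hx'
  exact ⟨y, y.2, (congrArg Subtype.val hy).symm⟩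

end Nil

end Fermat.Agent.Ribet
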