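import Mathlib
import Fermat.Agent.Ribet.Cover

/-!
# Invariants are norms, up to Eisenstein classes
-/

set_option autoImplicit false

namespace Fermat.Agent.Ribet

open scoped BigOperators
open HeckePar

variable {Γ D : Type*} [Group Γ] [CommGroup D] {θ : Γ →* D} {A : Type*} [AddCommGroup A]

/-- A homomorphism which vanishes on the kernel factors. -/
theorem exists_factor_of_res_eq_zero (hθ : Function.Surjective θ) (ψ : Additive Γ →+ A)
    (h : res θ ψ = 0) : ∃ f : Additive D →+ A, ψ = f.comp (MonoidHom.toAdditive θ) := by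
  have hker : (MonoidHom.toAdditive θ).ker ≤ ψ.ker := by
    intro γ hγ
    obtain ⟨γ, rfl⟩ := Additive.ofMul.surjective γ
    have h1 : γ ∈ θ.ker := by
      rw [AddMonoidHom.mem_ker, MonoidHom.toAdditive_apply_apply] at hγ
      rw [MonoidHom.mem_ker]
      exact Additive.ofMul.injective hγ
    have h2 := DFunLike.congr_fun h (Additive.ofMul (⟨γ, h1⟩ : θ.ker))
    exact h2
  have hsurj : Function.Surjective (MonoidHom.toAdditive θ) := by
    intro d
    obtain ⟨d, rfl⟩ := Additive.ofMul.surjective d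
    obtain ⟨γ, hγ⟩ := hθ d
    exact ⟨Additive.ofMul γ, by rw [MonoidHom.toAdditive_apply_apply, toMul_ofMul, hγ]⟩
  refine ⟨(MonoidHom.toAdditive θ).liftOfRightInverse _ (Function.rightInverse_surjInv hsurj)
    ⟨ψ, hker⟩, ?_⟩
  refine AddMonoidHom.ext fun γ => ?_
  exact ((MonoidHom.toAdditive θ).liftOfRightInverse_comp_apply _
    (Function.rightInverse_surjInv hsurj) ⟨ψ, hker⟩ γ).symm

section Extend

variable [Fintype D]

/-- the generator of `D` has order `card D`. -/
theorem pow_mem_ker (g : Γ) : g ^ (Fintype.card D) ∈ θ.ker := by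
  rw [MonoidHom.mem_ker, map_pow, pow_card_eq_one]

/-- invariant homomorphisms vanishing on `g ^ n` extend. -/
theorem exists_res_of_pow (g : Γ) (hg : ∀ d : D, ∃ i : ℕ, θ g ^ i = d)
    (φ : Additive θ.ker →+ A) (hφ : cj g φ = φ)
    (h0 : φ (Additive.ofMul ⟨g ^ (Fintype.card D), pow_mem_ker g⟩) = 0) :
    ∃ ψ : Additive Γ →+ A, res θ ψ = φ := by
  classical
  choose i hi using hg
  -- invariance under powers
  have hpow : ∀ k : ℕ, cj (g ^ k) φ = φ := by
    intro k
    induction k with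
    | zero => rw [pow_zero, cj_one]
    | succ k ih => rw [pow_succ, cj_mul, ih, hφ]
  have horder : orderOf (θ g) = Fintype.card D := by
    rw [← Nat.card_eq_fintype_card]
    apply orderOf_eq_card_of_forall_mem_zpowers
    intro d
    exact ⟨i d, by simpa using hi d⟩
  -- elements of `⟨g⟩ ∩ ker` are killed
  have hkill : ∀ (k : ℤ) (h : g ^ k ∈ θ.ker), φ (Additive.ofMul ⟨g ^ k, h⟩) = 0 := by
    intro k h
    rw [MonoidHom.mem_ker, map_zpow, ← orderOf_dvd_iff_zpow_eq_one, horder] at h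
    obtain ⟨m, rfl⟩ := h
    have h1 : (⟨g ^ ((Fintype.card D : ℤ) * m), by
        rw [MonoidHom.mem_ker, map_zpow, zpow_mul, zpow_natCast, pow_card_eq_one, one_zpow]⟩ :
        θ.ker) = (⟨g ^ (Fintype.card D), pow_mem_ker g⟩ : θ.ker) ^ m := by
      apply Subtype.ext
      rw [Subgroup.coe_zpow]
      change g ^ ((Fintype.card D : ℤ) * m) = (g ^ (Fintype.card D)) ^ m
      rw [zpow_mul, zpow_natCast]
    rw [h1, ofMul_zpow, map_zsmul, h0, smul_zero]
  have hm : ∀ γ : Γ, γ * (g ^ i (θ γ))⁻¹ ∈ θ.ker := by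
    intro γ
    rw [MonoidHom.mem_ker, map_mul, map_inv, map_pow, hi, mul_inv_cancel]
  let ψ0 : Γ → A := fun γ => φ (Additive.ofMul ⟨γ * (g ^ i (θ γ))⁻¹, hm γ⟩)
  have hψ : ∀ a b : Γ, ψ0 (a * b) = ψ0 a + ψ0 b := by
    intro a b
    set ia := i (θ a)
    set ib := i (θ b)
    set iab := i (θ (a * b))
    have hk : g ^ ((ia : ℤ) + ib - iab) ∈ θ.ker := by
      rw [MonoidHom.mem_ker, map_zpow, zpow_sub, zpow_add, zpow_natCast, zpow_natCast,
        zpow_natCast, hi, hi, hi, map_mul, mul_inv_cancel]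
    have h1 : (⟨a * b * (g ^ iab)⁻¹, hm (a * b)⟩ : θ.ker) =
        (⟨a * (g ^ ia)⁻¹, hm a⟩ : θ.ker) * kconj (g ^ ia) (⟨b * (g ^ ib)⁻¹, hm b⟩ : θ.ker) *
          ⟨_, hk⟩ := by
      apply Subtype.ext
      simp only [Subgroup.coe_mul, coe_kconj]
      rw [zpow_sub, zpow_add, zpow_natCast, zpow_natCast, zpow_natCast]
      group
    simp only [ψ0]
    rw [h1, ofMul_mul, ofMul_mul, map_add, map_add, hkill, add_zero]
    congr 1
    rw [← cj_apply, hpow]
  refine ⟨AddMonoidHom.mk' (fun γ => ψ0 (Additive.toMul γ)) (fun a b => hψ _ _), ?_⟩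
  refine AddMonoidHom.ext fun γ => ?_
  obtain ⟨γ, rfl⟩ := Additive.ofMul.surjective γ
  rw [res_apply]
  change ψ0 (γ : Γ) = _
  have hk : g ^ (-(i (θ (γ : Γ)) : ℤ)) ∈ θ.ker := by
    rw [MonoidHom.mem_ker, map_zpow, zpow_neg, zpow_natCast, hi, inv_eq_one]
    exact (MonoidHom.mem_ker).mp γ.2
  have h1 : (⟨(γ : Γ) * (g ^ i (θ (γ : Γ)))⁻¹, hm γ⟩ : θ.ker) = γ * ⟨_, hk⟩ := by
    apply Subtype.ext
    rw [Subgroup.coe_mul]
    simp only
    rw [zpow_neg, zpow_natCast]
  simp only [ψ0]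
  rw [h1, ofMul_mul, map_add, hkill, add_zero]

variable (s : D → Γ) (hs : ∀ d, θ (s d) = d)

/-- the corestriction does not depend on the section. -/
theorem cor_eq (s' : D → Γ) (hs' : ∀ d, θ (s' d) = d) (φ : Additive θ.ker →+ A) :
    cor s hs φ = cor s' hs' φ := by
  classical
  refine CosetSys₂.tr_eq_of_subset _ _ le_rfl ?_ φ
  intro d
  refine ⟨d, ⟨s d * (s' d)⁻¹, ?_⟩, ?_⟩
  · rw [MonoidHom.mem_ker, map_mul, map_inv, hs, hs', mul_inv_cancel]
  · change s d = (s d * (s' d)⁻¹) * s' d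
    rw [inv_mul_cancel_right]

/-- value of the corestriction of an invariant homomorphism at a generator. -/
theorem cor_apply_gen (g : Γ) (hg : ∀ d : D, ∃ i : ℕ, θ g ^ i = d)
    (φ : Additive θ.ker →+ A) :
    cor s hs φ (Additive.ofMul g) =
      φ (Additive.ofMul ⟨g ^ (Fintype.card D), pow_mem_ker g⟩) := by
  classical
  choose i hi using hg
  have hs' : ∀ d, θ (g ^ i d) = d := by
    intro d
    rw [map_pow, hi]
  rw [cor_eq s hs (fun d => g ^ i d) hs', cor_apply]
  have hmem : ∀ d : D, (i d : ℤ) + 1 - i (d * θ g) ∈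
      AddSubgroup.zmultiples (Fintype.card D : ℤ) := by
    intro d
    rw [Int.mem_zmultiples_iff]
    have horder : orderOf (θ g) = Fintype.card D := by
      rw [← Nat.card_eq_fintype_card]
      apply orderOf_eq_card_of_forall_mem_zpowers
      intro d
      exact ⟨i d, by simpa using hi d⟩
    rw [← horder, orderOf_dvd_iff_zpow_eq_one, zpow_sub, zpow_add, zpow_natCast, zpow_natCast,
      hi, hi, zpow_one, mul_inv_cancel]
  choose m hm using fun d => (Int.mem_zmultiples_iff.mp (hmem d))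
  have hsum : ∑ d, m d = 1 := by
    have h1 : (Fintype.card D : ℤ) * ∑ d, m d = (Fintype.card D : ℤ) * 1 := by
      rw [Finset.mul_sum, ← Finset.sum_congr rfl fun d _ => hm d, Finset.sum_sub_distrib,
        Finset.sum_add_distrib]
      rw [show ∑ d : D, (i (d * θ g) : ℤ) = ∑ d : D, (i d : ℤ) from
        Equiv.sum_comp (Equiv.mulRight (θ g)) (fun d => (i d : ℤ))]
      simp
    have h2 : (Fintype.card D : ℤ) ≠ 0 := by
      have : Nonempty D := ⟨1⟩
      exact_mod_cast Fintype.card_ne_zero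
    exact mul_left_cancel₀ h2 h1
  have hterm : ∀ d : D, φ (Additive.ofMul (⟨g ^ i d * g * (g ^ i (d * θ g))⁻¹, by
        rw [MonoidHom.mem_ker, map_mul, map_mul, map_inv, hs', hs', mul_inv_cancel]⟩ : θ.ker)) =
      m d • φ (Additive.ofMul ⟨g ^ (Fintype.card D), pow_mem_ker g⟩) := by
    intro d
    rw [← map_zsmul, ← ofMul_zpow]
    congr 2
    apply Subtype.ext
    rw [Subgroup.coe_zpow]
    simp only
    rw [← zpow_natCast g (Fintype.card D), ← zpow_mul, ← hm d, zpow_sub, zpow_add, zpow_natCast,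
      zpow_natCast, zpow_one]
  rw [Finset.sum_congr rfl fun d _ => hterm d, ← Finset.sum_smul, hsum, one_smul]

omit [Fintype D] in
/-- If `φ` is invariant under a generator then it is invariant under everything. -/
theorem cj_eq_of_gen (g : Γ) (hg : ∀ d : D, ∃ i : ℕ, θ g ^ i = d)
    (φ : Additive θ.ker →+ A) (hφ : cj g φ = φ) (γ : Γ) : cj γ φ = φ := by
  obtain ⟨i, hi⟩ := hg (θ γ)
  have h1 : θ γ = θ (g ^ i) := by rw [map_pow, hi]
  rw [cj_eq_of_eq h1]
  induction i with
  | zero => rw [pow_zero, cj_one]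
  | succ k ih =>
    have : ∀ k : ℕ, cj (g ^ k) φ = φ := by
      intro k
      induction k with
      | zero => rw [pow_zero, cj_one]
      | succ k ih => rw [pow_succ, cj_mul, ih, hφ]
    exact this _

/-- the corestriction of an invariant homomorphism is a character of `D`. -/
theorem exists_cor_eq (hn : ∀ a : A, Fintype.card D • a = 0) (g : Γ)
    (hg : ∀ d : D, ∃ i : ℕ, θ g ^ i = d) (φ : Additive θ.ker →+ A) (hφ : cj g φ = φ) :
    ∃ f : Additive D →+ A, cor s hs φ = f.comp (MonoidHom.toAdditive θ) := by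
  refine exists_factor_of_res_eq_zero (fun d => ⟨s d, hs d⟩) _ ?_
  rw [res_cor]
  rw [Finset.sum_congr rfl fun d _ => cj_eq_of_gen g hg φ hφ (s d), Finset.sum_const,
    Finset.card_univ]
  refine AddMonoidHom.ext fun γ => ?_
  rw [AddMonoidHom.smul_apply, hn, AddMonoidHom.zero_apply]

/-- an invariant homomorphism with zero corestriction extends. -/
theorem exists_res_of_cor_eq_zero (g : Γ) (hg : ∀ d : D, ∃ i : ℕ, θ g ^ i = d)
    (φ : Additive θ.ker →+ A) (hφ : cj g φ = φ) (h0 : cor s hs φ = 0) :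
    ∃ ψ : Additive Γ →+ A, res θ ψ = φ := by
  refine exists_res_of_pow g hg φ hφ ?_
  rw [← cor_apply_gen s hs g hg, h0, AddMonoidHom.zero_apply]

/-- **Invariants are norms up to Eisenstein classes.** -/
theorem exists_norm_eq (hn : ∀ a : A, Fintype.card D • a = 0)
    (hsurj : Function.Surjective (cor s hs : (Additive θ.ker →+ A) →+ (Additive Γ →+ A)))
    (g : Γ) (hg : ∀ d : D, ∃ i : ℕ, θ g ^ i = d)
    (P' : (Additive θ.ker →+ A) →+ (Additive θ.ker →+ A))
    (P : (Additive Γ →+ A) →+ (Additive Γ →+ A))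
    (hPP' : ∀ φ, cor s hs (P' φ) = P (cor s hs φ))
    (hcj : ∀ φ, cj g (P' φ) = P' (cj g φ))
    (hEis : ∀ f : Additive D →+ A, P (f.comp (MonoidHom.toAdditive θ)) = 0)
    (φ : Additive θ.ker →+ A) (hφ : cj g φ = φ) :
    ∃ ψ : Additive θ.ker →+ A, P' φ = ∑ d : D, cj (s d) ψ := by
  obtain ⟨f, hf⟩ := exists_cor_eq s hs hn g hg φ hφ
  have h1 : cor s hs (P' φ) = 0 := by
    rw [hPP', hf, hEis]
  obtain ⟨χ, hχ⟩ := exists_res_of_cor_eq_zero s hs g hg (P' φ) (by rw [hcj, hφ]) h1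
  obtain ⟨ψ, hψ⟩ := hsurj χ
  refine ⟨ψ, ?_⟩
  rw [← res_cor s hs ψ, hψ, hχ]

end Extend

end Fermat.Agent.Ribet
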