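import Mathlib
import Fermat.Agent.Ribet.NormThm
import Fermat.Agent.Ribet.CorSurj
import Fermat.Agent.Ribet.Nil
import Fermat.Agent.X1.HeckePara

/-!
# Restriction, corestriction, norm between `Γ` and `Γ₀(M)`

`Γ₁(M) ≤ Γ ≤ Γ₀(M)` is the kernel of `ψ (lower right entry)`.
-/

set_option autoImplicit false

noncomputable section

namespace Fermat.Agent.Ribet

open scoped BigOperators MatrixGroups
open HeckePar X1 CongruenceSubgroup

/-- The lower right entry. -/
def lr (M : ℕ) : Gamma0 M →* (ZMod M)ˣ := (Gamma0Map M).toHomUnits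

theorem coe_lr {M : ℕ} (g : Gamma0 M) :
    ((lr M g : (ZMod M)ˣ) : ZMod M) = (((g : SL(2, ℤ)) 1 1 : ℤ) : ZMod M) := rfl

variable {M : ℕ} {D : Type*} [CommGroup D] (ψ : (ZMod M)ˣ →* D)

/-- The character of `Γ₀(M)`. -/
def th : Gamma0 M →* D := ψ.comp (lr M)

theorem th_apply (g : Gamma0 M) : th ψ g = ψ (lr M g) := rfl

theorem lr_coc {n : ℤ} {a : ZMod M} {X : Type*} (S : IntSys M n a X) (g : Gamma0 M) (x : X) :
    lr M ((S.sys (Gamma0 M)).coc g x) = lr M g := by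
  have h1 := S.sys_spec (Gamma0 M) g x
  have h2 := (Del_mul (S.mem x) (mem_Del_of_mem_gamma0 g.2)).2.2
  rw [h1] at h2
  have h3 := (Del_mul (mem_Del_of_mem_gamma0 ((S.sys (Gamma0 M)).coc g x).2)
    (S.mem ((S.sys (Gamma0 M)).act g x))).2.2
  rw [h3, mul_comm] at h2
  have h4 := S.unit.mul_left_cancel h2
  apply Units.ext
  rw [coe_lr, coe_lr]
  have h5 := gamma0_00_mul_11 ((S.sys (Gamma0 M)).coc g x).2
  have h6 := gamma0_00_mul_11 g.2
  rw [h4] at h5
  have h7 : IsUnit ((((g : SL(2, ℤ)) 0 0 : ℤ) : ZMod M)) := IsUnit.of_mul_eq_one _ h6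
  exact h7.mul_left_cancel (h5.trans h6.symm)

/-- `Γ` is the kernel of the character `ψ` of the lower right entry. -/
def IsKer (Γ : Subgroup SL(2, ℤ)) (ψ : (ZMod M)ˣ →* D) : Prop :=
  ∀ g : Gamma0 M, (g : SL(2, ℤ)) ∈ Γ ↔ th ψ g = 1

variable {ψ} {Γ : Subgroup SL(2, ℤ)} [hΓ : Between M Γ]

/-- The isomorphism with the kernel. -/
def kerEquiv (h : IsKer Γ ψ) : Γ ≃* (th ψ).ker where
  toFun g := ⟨⟨g, hΓ.le g.2⟩, (h _).mp g.2⟩
  invFun g := ⟨((g : Gamma0 M) : SL(2, ℤ)), (h _).mpr g.2⟩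
  left_inv _ := rfl
  right_inv _ := rfl
  map_mul' _ _ := rfl

theorem coe_kerEquiv (h : IsKer Γ ψ) (g : Γ) :
    (((kerEquiv h g : (th ψ).ker) : Gamma0 M) : SL(2, ℤ)) = g := rfl

theorem coe_kerEquiv_symm (h : IsKer Γ ψ) (g : (th ψ).ker) :
    (((kerEquiv h).symm g : Γ) : SL(2, ℤ)) = ((g : Gamma0 M) : SL(2, ℤ)) := rfl

variable {A : Type*} [AddCommGroup A]

/-- Pull back along the isomorphism. -/
def pull (h : IsKer Γ ψ) : (Additive (th ψ).ker →+ A) ≃+ (Additive Γ →+ A) where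
  toFun φ := φ.comp (MonoidHom.toAdditive (kerEquiv h : Γ →* (th ψ).ker))
  invFun φ := φ.comp (MonoidHom.toAdditive ((kerEquiv h).symm : (th ψ).ker →* Γ))
  left_inv _ := rfl
  right_inv _ := rfl
  map_add' _ _ := rfl

theorem pull_apply (h : IsKer Γ ψ) (φ : Additive (th ψ).ker →+ A) (g : Γ) :
    pull h φ (Additive.ofMul g) = φ (Additive.ofMul (kerEquiv h g)) := rfl

/-- The Hecke system on the kernel. -/
def kS {n : ℤ} {a : ZMod M} {X : Type*} (S : IntSys M n a X) (ψ : (ZMod M)ˣ →* D) :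
    CosetSys ((iotaG (Gamma0 M)).comp (th ψ).ker.subtype) X :=
  kerSys (S.sys (Gamma0 M)) (fun _ => 1) (fun g x => by
    rw [mul_one, one_mul, th_apply, th_apply, lr_coc]) (fun _ => 1) (fun x => by
      rw [map_one, one_mul])

theorem pull_addTransfer (h : IsKer Γ ψ) {n : ℤ} {a : ZMod M} {X : Type*} [Fintype X]
    (S : IntSys M n a X) (φ : Additive (th ψ).ker →+ A) :
    pull h ((kS S ψ).addTransfer φ) = (S.sys Γ).addTransfer (pull h φ) := by
  refine AddMonoidHom.ext fun g => ?_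
  obtain ⟨g, rfl⟩ := Additive.ofMul.surjective g
  rw [pull_apply, CosetSys.addTransfer_apply, CosetSys.addTransfer_apply]
  refine Finset.sum_congr rfl fun x _ => ?_
  rw [toMul_ofMul, toMul_ofMul, pull_apply]
  congr 2
  have h1 : (S.sys Γ).rep x * iotaG Γ g =
      iotaG Γ ((kerEquiv h).symm ((kS S ψ).coc (kerEquiv h g) x)) *
        (S.sys Γ).rep ((kS S ψ).act (kerEquiv h g) x) := by
    have h2 := (kS S ψ).spec (kerEquiv h g) x
    have h3 : ∀ x, (kS S ψ).rep x = (S.sys Γ).rep x := by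
      intro x
      change iotaG (Gamma0 M) 1 * _ = _
      rw [map_one, one_mul]
      rfl
    rw [h3, h3] at h2
    exact h2
  rw [((S.sys Γ).ext_coc h1).2, MulEquiv.apply_symm_apply]

/-- Restriction from `Γ₀(M)` to `Γ`. -/
def resG (Γ : Subgroup SL(2, ℤ)) [hΓ : Between M Γ] :
    (Additive (Gamma0 M) →+ A) →+ (Additive Γ →+ A) where
  toFun φ := φ.comp (MonoidHom.toAdditive (Subgroup.inclusion hΓ.le))
  map_zero' := rfl
  map_add' _ _ := rfl

theorem resG_apply (φ : Additive (Gamma0 M) →+ A) (g : Γ) :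
    resG Γ φ (Additive.ofMul g) = φ (Additive.ofMul ⟨g, hΓ.le g.2⟩) := rfl

theorem resG_eq (h : IsKer Γ ψ) (φ : Additive (Gamma0 M) →+ A) :
    resG Γ φ = pull h (res (th ψ) φ) := rfl

theorem resG_addTransfer (h : IsKer Γ ψ) {n : ℤ} {a : ZMod M} {X : Type*} [Fintype X]
    (S : IntSys M n a X) (φ : Additive (Gamma0 M) →+ A) :
    resG Γ ((S.sys (Gamma0 M)).addTransfer φ) = (S.sys Γ).addTransfer (resG Γ φ) := by
  rw [resG_eq h, resG_eq h, ← pull_addTransfer]
  congr 1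
  exact res_addTransfer _ _ _ φ

section Cor

variable [Fintype D] (s : D → Gamma0 M) (hs : ∀ d, th ψ (s d) = d)

/-- Corestriction from `Γ` to `Γ₀(M)`. -/
def corG (h : IsKer Γ ψ) (s : D → Gamma0 M) (hs : ∀ d, th ψ (s d) = d) :
    (Additive Γ →+ A) →+ (Additive (Gamma0 M) →+ A) :=
  (cor s hs).comp (pull h).symm.toAddMonoidHom

theorem corG_apply (h : IsKer Γ ψ) (φ : Additive Γ →+ A) :
    corG h s hs φ = cor s hs ((pull h).symm φ) := rfl

theorem corG_addTransfer (h : IsKer Γ ψ) {n : ℤ} {a : ZMod M} {X : Type*} [Fintype X]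
    (S : IntSys M n a X) (φ : Additive Γ →+ A) :
    corG h s hs ((S.sys Γ).addTransfer φ) = (S.sys (Gamma0 M)).addTransfer (corG h s hs φ) := by
  obtain ⟨φ, rfl⟩ := (pull h).surjective φ
  rw [← pull_addTransfer, corG_apply, corG_apply, AddEquiv.symm_apply_apply,
    AddEquiv.symm_apply_apply]
  exact cor_addTransfer (S := S.sys (Gamma0 M)) (s := s) (hs := hs) _ _ φ

end Cor

/-- Conjugation by an element of `Γ₀(M)` -/
def cjG (Γ : Subgroup SL(2, ℤ)) [hΓ : Between M Γ] (h : IsKer Γ ψ) (g : Gamma0 M) :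
    (Additive Γ →+ A) →+ (Additive Γ →+ A) :=
  ((pull h).toAddMonoidHom.comp (cj g)).comp (pull h).symm.toAddMonoidHom

theorem cjG_apply (h : IsKer Γ ψ) (g : Gamma0 M) (φ : Additive Γ →+ A) :
    cjG Γ h g φ = pull h (cj g ((pull h).symm φ)) := rfl

/-- the diamond operator is the conjugation by `diaMat`. -/
theorem dia_eq (h : IsKer Γ ψ) (u : (ZMod M)ˣ) (φ : Additive Γ →+ A) :
    ((diaSys M u).sys Γ).addTransfer φ = cjG Γ h ⟨diaMat M u, diaMat_mem u⟩ φ := by
  refine AddMonoidHom.ext fun g => ?_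
  obtain ⟨g, rfl⟩ := Additive.ofMul.surjective g
  rw [CosetSys.addTransfer_apply, cjG_apply, pull_apply, cj_apply]
  simp only [Finset.univ_unique, Finset.sum_singleton, toMul_ofMul]
  change _ = φ (Additive.ofMul ((kerEquiv h).symm (kconj _ _)))
  congr 2
  have h1 : ((diaSys M u).sys Γ).rep default * iotaG Γ g =
      iotaG Γ ((kerEquiv h).symm (kconj ⟨diaMat M u, diaMat_mem u⟩ (kerEquiv h g))) *
        ((diaSys M u).sys Γ).rep default := by
    rw [IntSys.sys_rep, IntSys.glRep_mul_iotaG_iff, diaSys_mat, coe_kerEquiv_symm, coe_kconj,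
      Subgroup.coe_mul, Subgroup.coe_mul, ← Matrix.SpecialLinearGroup.coe_mul,
      ← Matrix.SpecialLinearGroup.coe_mul]
    congr 1
    rw [Subgroup.coe_inv, inv_mul_cancel_right, coe_kerEquiv]
  exact (((diaSys M u).sys Γ).ext_coc h1).2

end Fermat.Agent.Ribet
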