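import Mathlib

/-!
# Torsion elements of `SL(2, ℤ)` and the condition `NoTors`
-/

set_option autoImplicit false
set_option linter.unusedSectionVars false

open CongruenceSubgroup
open scoped MatrixGroups

noncomputable section

namespace Fermat.Agent.Ribet

/-! ### Torsion elements of `SL(2, ℤ)` -/

section Torsion

theorem sl2_sq (A : SL(2, ℤ)) : (A * A : SL(2, ℤ)).1 = A.1.trace • A.1 - 1 := by
  have hdet := A.2
  rw [Matrix.det_fin_two] at hdet
  rw [Matrix.SpecialLinearGroup.coe_mul, Matrix.trace_fin_two]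
  ext i j
  rw [Matrix.sub_apply, Matrix.smul_apply, smul_eq_mul, Matrix.mul_apply, Fin.sum_univ_two]
  fin_cases i <;> fin_cases j
  · show A.1 0 0 * A.1 0 0 + A.1 0 1 * A.1 1 0 = (A.1 0 0 + A.1 1 1) * A.1 0 0 - 1
    linarith
  · show A.1 0 0 * A.1 0 1 + A.1 0 1 * A.1 1 1 = (A.1 0 0 + A.1 1 1) * A.1 0 1 - 0
    ring
  · show A.1 1 0 * A.1 0 0 + A.1 1 1 * A.1 1 0 = (A.1 0 0 + A.1 1 1) * A.1 1 0 - 0
    ring
  · show A.1 1 0 * A.1 0 1 + A.1 1 1 * A.1 1 1 = (A.1 0 0 + A.1 1 1) * A.1 1 1 - 1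
    linarith

theorem trace_pow_add_two (A : SL(2, ℤ)) (k : ℕ) :
    (A ^ (k + 2) : SL(2, ℤ)).1.trace =
      A.1.trace * (A ^ (k + 1) : SL(2, ℤ)).1.trace - (A ^ k : SL(2, ℤ)).1.trace := by
  have h1 : (A ^ (k + 2) : SL(2, ℤ)).1 = A.1.trace • (A ^ (k + 1) : SL(2, ℤ)).1 -
      (A ^ k : SL(2, ℤ)).1 := by
    have h2 : (A ^ (k + 2) : SL(2, ℤ)) = (A ^ k) * (A * A) := by
      rw [pow_succ, pow_succ, mul_assoc]
    rw [h2, Matrix.SpecialLinearGroup.coe_mul, sl2_sq, mul_sub, mul_one, mul_smul_comm, pow_succ,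
      Matrix.SpecialLinearGroup.coe_mul]
  rw [h1, Matrix.trace_sub, Matrix.trace_smul, smul_eq_mul]

/-- The traces of the powers of a hyperbolic element grow. -/
theorem two_lt_abs_trace_pow (A : SL(2, ℤ)) (h : 2 < |A.1.trace|) (k : ℕ) :
    2 < |(A ^ (k + 1) : SL(2, ℤ)).1.trace| ∧
      |(A ^ k : SL(2, ℤ)).1.trace| ≤ |(A ^ (k + 1) : SL(2, ℤ)).1.trace| := by
  induction k with
  | zero =>
    have h0 : (A ^ 0 : SL(2, ℤ)).1.trace = 2 := by
      simp
    refine ⟨by simpa using h, ?_⟩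
    rw [h0, zero_add, pow_one]
    exact le_of_lt (by simpa using h)
  | succ k ih =>
    obtain ⟨ih1, ih2⟩ := ih
    have h1 := trace_pow_add_two A k
    have h3 : |(A ^ (k + 1) : SL(2, ℤ)).1.trace| ≤ |(A ^ (k + 1 + 1) : SL(2, ℤ)).1.trace| := by
      rw [show k + 1 + 1 = k + 2 from rfl, h1]
      have h4 : |A.1.trace * (A ^ (k + 1) : SL(2, ℤ)).1.trace| - |(A ^ k : SL(2, ℤ)).1.trace| ≤
          |A.1.trace * (A ^ (k + 1) : SL(2, ℤ)).1.trace - (A ^ k : SL(2, ℤ)).1.trace| :=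
        abs_sub_abs_le_abs_sub _ _
      rw [abs_mul] at h4
      nlinarith
    exact ⟨lt_of_lt_of_le ih1 h3, h3⟩

/-- A torsion element is parabolic (in the sense `tr² = 4`) or of order dividing `4`, or has
trace `±1`, and then its order divides `6`. -/
theorem torsion_cases (A : SL(2, ℤ)) {m : ℕ} (hm : m ≠ 0) (h : A ^ m = 1) :
    A.1.trace ^ 2 = 4 ∨ A ^ 4 = 1 ∨ (A.1.trace ^ 2 = 1 ∧ A ^ 6 = 1) := by
  have h1 : |A.1.trace| ≤ 2 := by
    by_contra hcon
    rw [not_le] at hcon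
    obtain ⟨k, rfl⟩ := Nat.exists_eq_succ_of_ne_zero hm
    have h2 := (two_lt_abs_trace_pow A hcon k).1
    rw [h] at h2
    simp at h2
  rw [abs_le] at h1
  have h2 := sl2_sq A
  have hneg : ∀ B : SL(2, ℤ), B.1 = -1 → B * B = 1 := by
    intro B hB
    apply Subtype.ext
    rw [Matrix.SpecialLinearGroup.coe_mul, hB]
    simp
  obtain h3 | h3 | h3 | h3 | h3 : A.1.trace = -2 ∨ A.1.trace = -1 ∨ A.1.trace = 0 ∨
      A.1.trace = 1 ∨ A.1.trace = 2 := by omega
  · left; rw [h3]; norm_num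
  · right; right
    refine ⟨by rw [h3]; norm_num, ?_⟩
    -- `A² = -A - 1`, `A³ = 1`
    rw [h3] at h2
    have h4 : A ^ 3 = 1 := by
      apply Subtype.ext
      rw [pow_succ, pow_two, Matrix.SpecialLinearGroup.coe_mul, h2, sub_mul, smul_mul_assoc,
        ← Matrix.SpecialLinearGroup.coe_mul, h2]
      simp
    rw [show 6 = 3 * 2 from rfl, pow_mul, h4, one_pow]
  · right; left
    rw [h3, zero_smul, zero_sub] at h2
    have := hneg _ h2
    rw [show 4 = 2 + 2 from rfl, pow_add, pow_two, this]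
  · right; right
    refine ⟨by rw [h3]; norm_num, ?_⟩
    rw [h3] at h2
    have h4 : (A ^ 3 : SL(2, ℤ)).1 = -1 := by
      rw [pow_succ, pow_two, Matrix.SpecialLinearGroup.coe_mul, h2, sub_mul, smul_mul_assoc,
        ← Matrix.SpecialLinearGroup.coe_mul, h2]
      simp
    have := hneg _ h4
    rw [show 6 = 3 + 3 from rfl, pow_add, this]
  · left; rw [h3]; norm_num

/-- No elements of trace `±1` in `Γ₀(N)` if `N` has a prime factor `r ≡ 2 (mod 3)`. -/
theorem trace_sq_ne_one {N r : ℕ} (hr : r.Prime) (hrN : r ∣ N) (hr3 : r % 3 = 2)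
    (γ : Gamma0 N) : ((γ : SL(2, ℤ)) : Matrix (Fin 2) (Fin 2) ℤ).trace ^ 2 ≠ 1 := by
  intro h
  have : Fact r.Prime := ⟨hr⟩
  have hdet := (γ : SL(2, ℤ)).2
  rw [Matrix.det_fin_two] at hdet
  rw [Matrix.trace_fin_two] at h
  set a := (γ : SL(2, ℤ)).1 0 0
  set b := (γ : SL(2, ℤ)).1 0 1
  set c := (γ : SL(2, ℤ)).1 1 0 with hc
  set d := (γ : SL(2, ℤ)).1 1 1
  have hcN : ((c : ℤ) : ZMod N) = 0 := Gamma0_mem.mp γ.2
  have hcr : ((c : ℤ) : ZMod r) = 0 := by
    rw [ZMod.intCast_zmod_eq_zero_iff_dvd] at hcN ⊢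
    exact (Int.natCast_dvd_natCast.mpr hrN).trans hcN
  have hdr : ((a : ℤ) : ZMod r) * ((d : ℤ) : ZMod r) = 1 := by
    have := congrArg (fun z : ℤ => (z : ZMod r)) hdet
    push_cast at this
    rwa [hcr, mul_zero, sub_zero] at this
  have hs : (((a : ℤ) : ZMod r) + ((d : ℤ) : ZMod r)) ^ 2 = 1 := by
    have := congrArg (fun z : ℤ => (z : ZMod r)) h
    push_cast at this
    exact this
  -- `x := a²`: `x² + x + 1 = 0`
  set A : ZMod r := ((a : ℤ) : ZMod r)
  set D : ZMod r := ((d : ℤ) : ZMod r)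
  have h1 : (A * A) ^ 2 + (A * A) + 1 = 0 := by
    linear_combination (A * A) * hs - (2 * A * A + 1 + A * D) * hdr
  have h3 : (A * A) ^ 3 = 1 := by
    linear_combination (A * A - 1) * h1
  have hne : A * A ≠ 1 := by
    intro h4
    rw [h4] at h1
    have h5 : ((3 : ℕ) : ZMod r) = 0 := by
      push_cast
      linear_combination h1
    rw [ZMod.natCast_eq_zero_iff, Nat.dvd_prime Nat.prime_three] at h5
    rcases h5 with h5 | h5
    · exact hr.one_lt.ne' h5
    · rw [h5] at hr3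
      omega
  have h6 : orderOf (A * A) = 3 := orderOf_eq_prime h3 hne
  have h7 : A * A ≠ 0 := by
    intro h8
    rw [h8] at h3
    simp at h3
  have h9 := orderOf_dvd_of_pow_eq_one (ZMod.pow_card_sub_one_eq_one h7)
  rw [h6] at h9
  have := hr.two_le
  omega

end Torsion

/-- `n` is prime to the orders of the torsion elements of `Γ₀(N)` modulo parabolic elements. -/
def NoTors (N n : ℕ) : Prop :=
  Nat.Coprime n 2 ∧ (Nat.Coprime n 3 ∨ ∃ r : ℕ, r.Prime ∧ r ∣ N ∧ r % 3 = 2)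

theorem NoTors.odd {N n : ℕ} (h : NoTors N n) : Odd n := Nat.coprime_two_right.mp h.1

theorem odd_of_six {N n : ℕ} (h : NoTors N n) : Odd n := h.odd

theorem NoTors.mono {N N' n : ℕ} (h : NoTors N n) (hN : N ∣ N') : NoTors N' n :=
  ⟨h.1, h.2.imp id fun ⟨r, hr, hrN, h3⟩ => ⟨r, hr, hrN.trans hN, h3⟩⟩

theorem NoTors.mul_right {N n : ℕ} (h : NoTors N n) (q : ℕ) : NoTors (N * q) n :=
  h.mono (dvd_mul_right N q)

theorem noTors_of_coprime_six {n : ℕ} (h : Nat.Coprime 6 n) (N : ℕ) : NoTors N n :=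
  ⟨(Nat.Coprime.coprime_dvd_left (by norm_num) h).symm,
    Or.inl (Nat.Coprime.coprime_dvd_left (by norm_num) h).symm⟩

/-- A unipotent matrix of finite order dividing `6` is trivial. -/
theorem eq_one_of_trace_two {A : SL(2, ℤ)} (ht : A.1.trace = 2) (h6 : A ^ 6 = 1) : A = 1 := by
  have h1 := sl2_sq A
  rw [ht] at h1
  rw [Matrix.SpecialLinearGroup.coe_mul] at h1
  set N : Matrix (Fin 2) (Fin 2) ℤ := A.1 - 1 with hN
  have hA : A.1 = 1 + N := by rw [hN]; abel
  have hNN : N * N = 0 := by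
    have h2 : N * N = A.1 * A.1 - (2 : ℤ) • A.1 + 1 := by
      rw [hN]
      noncomm_ring
    rw [h2, h1]
    abel
  have h3 : A.1 ^ 2 = 1 + (2 : ℤ) • N := by
    rw [hA, pow_two]
    have : (1 + N) * (1 + N) = 1 + (2 : ℤ) • N + N * N := by noncomm_ring
    rw [this, hNN, add_zero]
  have h4 : A.1 ^ 6 = 1 + (6 : ℤ) • N := by
    rw [show 6 = 2 * 3 from rfl, pow_mul, h3, pow_three]
    have : (1 + (2 : ℤ) • N) * ((1 + (2 : ℤ) • N) * (1 + (2 : ℤ) • N)) =
        1 + (6 : ℤ) • N + (12 : ℤ) • (N * N) + (8 : ℤ) • (N * (N * N)) := by noncomm_ring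
    rw [this, hNN]
    simp
  have h5 : A.1 ^ 6 = 1 := by
    rw [← Matrix.SpecialLinearGroup.coe_pow, h6, Matrix.SpecialLinearGroup.coe_one]
  rw [h5] at h4
  have h7 : (6 : ℤ) • N = 0 := (add_eq_left.mp h4.symm)
  have h8 : N = 0 := (smul_eq_zero.mp h7).resolve_left (by norm_num)
  apply Subtype.ext
  rw [Matrix.SpecialLinearGroup.coe_one, hA, h8, add_zero]

/-- A torsion element of order dividing `6` whose trace is not `± 1` has order dividing `2`. -/
theorem sq_eq_one_of_pow_six {A : SL(2, ℤ)} (h6 : A ^ 6 = 1) (ht : A.1.trace ^ 2 ≠ 1) :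
    A ^ 2 = 1 := by
  rcases torsion_cases A (by norm_num) h6 with h | h | h
  · have h1 : A.1.trace = 2 ∨ A.1.trace = -2 := by
      have : (A.1.trace - 2) * (A.1.trace + 2) = 0 := by linear_combination h
      rcases mul_eq_zero.mp this with h | h
      · left; linarith
      · right; linarith
    rcases h1 with h1 | h1
    · rw [eq_one_of_trace_two h1 h6, one_pow]
    · have h2 : (-A).1.trace = 2 := by
        rw [Matrix.SpecialLinearGroup.coe_neg, Matrix.trace_neg, h1, neg_neg]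
      have h3 : (-A) ^ 6 = 1 := by
        rw [Even.neg_pow ⟨3, rfl⟩, h6]
      have h4 := eq_one_of_trace_two h2 h3
      rw [← neg_sq, h4, one_pow]
  · have h1 : A ^ 6 = A ^ 4 * A ^ 2 := by rw [← pow_add]
    rw [h6, h, one_mul] at h1
    exact h1.symm
  · exact absurd h.1 ht

/-- A homomorphism `Γ₀(N) → A` (`n A = 0`) kills the elements of order dividing `6`. -/
theorem NoTors.map_eq_zero {N n : ℕ} (h : NoTors N n) {A : Type*} [AddCommGroup A]
    (hA : ∀ x : A, n • x = 0) {γ : Gamma0 N} (hγ : γ ^ 6 = 1) (ψ : Additive (Gamma0 N) →+ A) :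
    ψ (Additive.ofMul γ) = 0 := by
  have key : ∀ k : ℕ, Nat.Coprime n k → γ ^ k = 1 → ψ (Additive.ofMul γ) = 0 := by
    intro k hk hγk
    have h1 : k • ψ (Additive.ofMul γ) = 0 := by
      rw [← map_nsmul, ← ofMul_pow, hγk, ofMul_one, map_zero]
    have h2 : addOrderOf (ψ (Additive.ofMul γ)) ∣ Nat.gcd n k :=
      Nat.dvd_gcd (addOrderOf_dvd_of_nsmul_eq_zero (hA _)) (addOrderOf_dvd_of_nsmul_eq_zero h1)
    rw [hk.gcd_eq_one, Nat.dvd_one, AddMonoid.addOrderOf_eq_one_iff] at h2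
    exact h2
  rcases h.2 with h3 | ⟨r, hr, hrN, hr3⟩
  · exact key 6 (by
      rw [show 6 = 2 * 3 from rfl]
      exact Nat.Coprime.mul_right h.1 h3) hγ
  · refine key 2 h.1 ?_
    apply Subtype.ext
    have h4 : (γ : SL(2, ℤ)) ^ 6 = 1 := by rw [← Subgroup.coe_pow, hγ, Subgroup.coe_one]
    rw [Subgroup.coe_pow, Subgroup.coe_one]
    exact sq_eq_one_of_pow_six h4 (trace_sq_ne_one hr hrN hr3 γ)

/-- The conditions on the coefficients under which the corestriction is surjective. -/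
structure TorOK (M : ℕ) (A : Type*) [AddCommGroup A] : Prop where
  two : Function.Bijective (fun a : A => (2 : ℕ) • a)
  tor : ∀ γ : Gamma0 M, γ ^ 6 = 1 → ∀ ψ : Additive (Gamma0 M) →+ A, ψ (Additive.ofMul γ) = 0

theorem two_of_odd {A : Type*} [AddCommGroup A] {n : ℕ} (hn : Odd n) (hA : ∀ x : A, n • x = 0)
    (x : A) (hx : (2 : ℕ) • x = 0) : x = 0 := by
  obtain ⟨k, rfl⟩ := hn
  have h1 := hA x
  rwa [add_smul, one_smul, mul_comm, mul_smul, hx, smul_zero, zero_add] at h1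

theorem two_of_coprime {A : Type*} [AddCommGroup A] {n : ℕ} (hA : ∀ x : A, n • x = 0) {N : ℕ}
    (h6 : NoTors N n) (x : A) (hx : (2 : ℕ) • x = 0) : x = 0 := two_of_odd h6.odd hA x hx

theorem bijective_two_of_odd {A : Type*} [AddCommGroup A] {n : ℕ} (hn : Odd n)
    (hA : ∀ x : A, n • x = 0) : Function.Bijective (fun a : A => (2 : ℕ) • a) := by
  refine ⟨fun a b hab => ?_, fun a => ?_⟩
  · have h1 : (2 : ℕ) • (a - b) = 0 := by
      rw [smul_sub]
      exact sub_eq_zero.mpr hab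
    exact sub_eq_zero.mp (two_of_odd hn hA _ h1)
  · obtain ⟨k, rfl⟩ := hn
    refine ⟨(k + 1) • a, ?_⟩
    change (2 : ℕ) • (k + 1) • a = a
    rw [← mul_smul, show 2 * (k + 1) = (2 * k + 1) + 1 by ring, add_smul, hA, zero_add, one_smul]

theorem NoTors.torOK {M n : ℕ} (h : NoTors M n) {A : Type*} [AddCommGroup A]
    (hA : ∀ x : A, n • x = 0) : TorOK M A :=
  ⟨bijective_two_of_odd h.odd hA, fun _ hγ ψ => h.map_eq_zero hA hγ ψ⟩

end Fermat.Agent.Ribet
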