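import Mathlib
import Fermat.Agent.Ribet.Betw
import Fermat.Agent.Ribet.NoTors
import Fermat.Agent.X1.ModL

/-!
# Invariants are norms on the generalised eigenspaces of level `Γ`
-/

set_option autoImplicit false

noncomputable section

namespace Fermat.Agent.Ribet

open scoped BigOperators MatrixGroups
open HeckePar X1 CongruenceSubgroup

section Defs

variable (M : ℕ) (Γ : Subgroup SL(2, ℤ)) [hΓ : Between M Γ] (A : Type*) [AddCommGroup A]

/-- The Hecke operator `T_ℓ` (`U_ℓ` if `ℓ ∣ M`) on `Hom(Γ, A)`. -/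
def TT (ℓ : ℕ) [Fact ℓ.Prime] : (Additive Γ →+ A) →+ (Additive Γ →+ A) :=
  ((hSys M ℓ).sys Γ).addTransfer

/-- The diamond operator. -/
def dd (u : (ZMod M)ˣ) : (Additive Γ →+ A) →+ (Additive Γ →+ A) :=
  ((diaSys M u).sys Γ).addTransfer

/-- `T_ℓ - a_ℓ`. -/
def TA (I : Set ℕ) (a : ℕ → ℤ) (ℓ : {ℓ : ℕ // ℓ.Prime ∧ ℓ ∈ I}) :
    (Additive Γ →+ A) →+ (Additive Γ →+ A) :=
  haveI : Fact (ℓ : ℕ).Prime := ⟨ℓ.2.1⟩
  TT M Γ A ℓ - a ℓ • AddMonoidHom.id _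

/-- The generalised eigenspace. -/
def genEig (I : Set ℕ) (a : ℕ → ℤ) : AddSubgroup (Additive Γ →+ A) := nil (TA M Γ A I a)

end Defs

variable {M : ℕ} {Γ : Subgroup SL(2, ℤ)} [hΓ : Between M Γ] {A : Type*} [AddCommGroup A]
variable {I : Set ℕ} {a : ℕ → ℤ}

theorem TT_apply (ℓ : ℕ) [Fact ℓ.Prime] (φ : Additive Γ →+ A) :
    TT M Γ A ℓ φ = ((hSys M ℓ).sys Γ).addTransfer φ := rfl

theorem dd_apply (u : (ZMod M)ˣ) (φ : Additive Γ →+ A) :
    dd M Γ A u φ = ((diaSys M u).sys Γ).addTransfer φ := rfl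

theorem TA_apply (ℓ : {ℓ : ℕ // ℓ.Prime ∧ ℓ ∈ I}) (φ : Additive Γ →+ A) :
    haveI : Fact (ℓ : ℕ).Prime := ⟨ℓ.2.1⟩
    TA M Γ A I a ℓ φ = TT M Γ A ℓ φ - a ℓ • φ := rfl

theorem mem_genEig {φ : Additive Γ →+ A} : φ ∈ genEig M Γ A I a ↔
    ∀ (ℓ : ℕ) [Fact ℓ.Prime], ℓ ∈ I → ∃ k : ℕ,
      (TT M Γ A ℓ - a ℓ • AddMonoidHom.id (Additive Γ →+ A))^[k] φ = 0 := by
  constructor
  · intro h ℓ hℓ hI
    exact h ⟨ℓ, hℓ.out, hI⟩
  · rintro h ⟨ℓ, hℓ, hI⟩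
    have : Fact ℓ.Prime := ⟨hℓ⟩
    exact h ℓ hI

theorem TT_comm (p q : ℕ) [Fact p.Prime] [Fact q.Prime] (φ : Additive Γ →+ A) :
    TT M Γ A p (TT M Γ A q φ) = TT M Γ A q (TT M Γ A p φ) :=
  addTransfer_hecke_comm Γ p q φ

theorem dd_TT (u : (ZMod M)ˣ) (q : ℕ) [Fact q.Prime] (φ : Additive Γ →+ A) :
    dd M Γ A u (TT M Γ A q φ) = TT M Γ A q (dd M Γ A u φ) :=
  addTransfer_dia_hecke_comm Γ u q φ

theorem dd_dd (u v : (ZMod M)ˣ) (φ : Additive Γ →+ A) :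
    dd M Γ A u (dd M Γ A v φ) = dd M Γ A (u * v) φ :=
  addTransfer_dia_mul Γ u v φ

/-- an endomorphism which commutes with all the `T_ℓ` commutes with all the `T_ℓ - a_ℓ`. -/
theorem comm_TA {Γ' : Subgroup SL(2, ℤ)} [Between M Γ'] {A' : Type*} [AddCommGroup A']
    (g : (Additive Γ →+ A) →+ (Additive Γ' →+ A'))
    (hg : ∀ (ℓ : ℕ) [Fact ℓ.Prime], ℓ ∈ I → ∀ φ, g (TT M Γ A ℓ φ) = TT M Γ' A' ℓ (g φ))
    (ℓ : {ℓ : ℕ // ℓ.Prime ∧ ℓ ∈ I}) (φ : Additive Γ →+ A) :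
    g (TA M Γ A I a ℓ φ) = TA M Γ' A' I a ℓ (g φ) := by
  have : Fact (ℓ : ℕ).Prime := ⟨ℓ.2.1⟩
  rw [TA_apply, TA_apply, map_sub, map_zsmul, hg (ℓ : ℕ) ℓ.2.2]

theorem TA_comm (ℓ ℓ' : {ℓ : ℕ // ℓ.Prime ∧ ℓ ∈ I}) (φ : Additive Γ →+ A) :
    TA M Γ A I a ℓ (TA M Γ A I a ℓ' φ) = TA M Γ A I a ℓ' (TA M Γ A I a ℓ φ) := by
  have : Fact (ℓ : ℕ).Prime := ⟨ℓ.2.1⟩
  refine comm_TA (TA M Γ A I a ℓ) (fun p _ _ ψ => ?_) ℓ' φ
  rw [TA_apply, TA_apply, map_sub, map_zsmul, TT_comm]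

/-- Functoriality of the generalised eigenspace. -/
theorem map_mem_genEig {Γ' : Subgroup SL(2, ℤ)} [Between M Γ'] {A' : Type*} [AddCommGroup A']
    (g : (Additive Γ →+ A) →+ (Additive Γ' →+ A'))
    (hg : ∀ (ℓ : ℕ) [Fact ℓ.Prime], ℓ ∈ I → ∀ φ, g (TT M Γ A ℓ φ) = TT M Γ' A' ℓ (g φ))
    {φ : Additive Γ →+ A} (hφ : φ ∈ genEig M Γ A I a) : g φ ∈ genEig M Γ' A' I a :=
  map_mem_nil g (comm_TA g hg) hφ

theorem TT_mem_genEig (p : ℕ) [Fact p.Prime] {φ : Additive Γ →+ A}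
    (hφ : φ ∈ genEig M Γ A I a) : TT M Γ A p φ ∈ genEig M Γ A I a :=
  map_mem_genEig (TT M Γ A p) (fun ℓ _ _ ψ => TT_comm p ℓ ψ) hφ

theorem dd_mem_genEig (u : (ZMod M)ˣ) {φ : Additive Γ →+ A}
    (hφ : φ ∈ genEig M Γ A I a) : dd M Γ A u φ ∈ genEig M Γ A I a :=
  map_mem_genEig (dd M Γ A u) (fun ℓ _ _ ψ => dd_TT u ℓ ψ) hφ

/-- finiteness -/
theorem finite_hom (Γ : Subgroup SL(2, ℤ)) [Γ.FiniteIndex] (A : Type*) [AddCommGroup A]
    [Finite A] : Finite (Additive Γ →+ A) := by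
  have hfg : Group.FG Γ := fg_of_finiteIndex_modL Γ
  have hfg' : AddGroup.FG (Additive Γ) := inferInstance
  obtain ⟨S, hS⟩ := (AddGroup.fg_def.mp hfg' : (⊤ : AddSubgroup (Additive Γ)).FG)
  refine Finite.of_injective (fun (φ : Additive Γ →+ A) (x : S) => φ x) ?_
  intro φ ψ h
  refine AddMonoidHom.ext fun g => ?_
  have hg : g ∈ AddSubgroup.closure (S : Set (Additive Γ)) := by rw [hS]; trivial
  have hle : AddSubgroup.closure (S : Set (Additive Γ)) ≤ AddMonoidHom.eqLocus φ ψ := by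
    rw [AddSubgroup.closure_le]
    intro x hx
    exact congrFun h ⟨x, hx⟩
  exact hle hg

theorem finiteIndex_of_between (M : ℕ) [NeZero M] (Γ : Subgroup SL(2, ℤ)) [hΓ : Between M Γ] :
    Γ.FiniteIndex := by
  have : (Gamma1 M).FiniteIndex := inferInstance
  exact Subgroup.finiteIndex_of_le hΓ.ge

section Main

variable {D : Type*} [CommGroup D] {ψ : (ZMod M)ˣ →* D} (h : IsKer Γ ψ)

/-- the element of `Γ₀(M)` underlying the diamond operator. -/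
def gd (M : ℕ) (u : (ZMod M)ˣ) : Gamma0 M := ⟨diaMat M u, diaMat_mem u⟩

theorem lr_gd (u : (ZMod M)ˣ) : lr M (gd M u) = u := Units.ext (diaMat_11 u)

theorem th_gd (u : (ZMod M)ˣ) : th ψ (gd M u) = ψ u := by rw [th_apply, lr_gd]

/-- The norm. -/
def nmG (M : ℕ) (Γ : Subgroup SL(2, ℤ)) [hΓ : Between M Γ] (A : Type*) [AddCommGroup A]
    (u : (ZMod M)ˣ) (n : ℕ) : (Additive Γ →+ A) →+ (Additive Γ →+ A) where
  toFun φ := ∑ i ∈ Finset.range n, (dd M Γ A u)^[i] φ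
  map_zero' := by simp only [iterate_map_zero, Finset.sum_const_zero]
  map_add' φ φ' := by simp only [iterate_map_add, Finset.sum_add_distrib]

theorem nmG_apply (u : (ZMod M)ˣ) (n : ℕ) (φ : Additive Γ →+ A) :
    nmG M Γ A u n φ = ∑ i ∈ Finset.range n, (dd M Γ A u)^[i] φ := rfl

theorem sum_powers {G B : Type*} [CommGroup G] [Fintype G] [AddCommMonoid B] {x : G}
    (hx : ∀ d : G, ∃ i : ℕ, x ^ i = d) (F : G → B) :
    ∑ d : G, F d = ∑ i ∈ Finset.range (Fintype.card G), F (x ^ i) := by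
  classical
  have horder : orderOf x = Fintype.card G := by
    rw [← Nat.card_eq_fintype_card]
    apply orderOf_eq_card_of_forall_mem_zpowers
    intro d
    obtain ⟨i, hi⟩ := hx d
    exact ⟨i, by simpa using hi⟩
  symm
  refine Finset.sum_nbij (fun i => x ^ i) (fun i _ => Finset.mem_univ _) ?_ ?_ (fun i _ => rfl)
  · intro i hi j hj hij
    rw [Finset.coe_range, ← horder] at hi hj
    exact pow_injOn_Iio_orderOf hi hj hij
  · intro d _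
    obtain ⟨i, hi⟩ := hx d
    refine ⟨i % Fintype.card G, ?_, ?_⟩
    · rw [Finset.coe_range]
      exact Nat.mod_lt _ Fintype.card_pos
    · change x ^ (i % Fintype.card G) = d
      rw [← horder, pow_mod_orderOf, hi]

theorem cjG_mul (g g' : Gamma0 M) (φ : Additive Γ →+ A) :
    cjG Γ h (g * g') φ = cjG Γ h g' (cjG Γ h g φ) := by
  rw [cjG_apply, cjG_apply, cjG_apply, AddEquiv.symm_apply_apply, cj_mul]

theorem cjG_pow (g : Gamma0 M) (i : ℕ) (φ : Additive Γ →+ A) :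
    cjG Γ h (g ^ i) φ = (cjG Γ h g)^[i] φ := by
  induction i generalizing φ with
  | zero =>
    rw [pow_zero, cjG_apply, cj_one, AddEquiv.apply_symm_apply]
    rfl
  | succ i ih => rw [pow_succ', cjG_mul, ih, Function.iterate_succ_apply]

theorem dd_eq (u : (ZMod M)ˣ) (φ : Additive Γ →+ A) : dd M Γ A u φ = cjG Γ h (gd M u) φ :=
  dia_eq h u φ

theorem resG_corG [Fintype D] (s : D → Gamma0 M) (hs : ∀ d, th ψ (s d) = d) {u : (ZMod M)ˣ}
    (hu : ∀ d : D, ∃ i : ℕ, ψ u ^ i = d) (φ : Additive Γ →+ A) :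
    resG Γ (corG h s hs φ) = nmG M Γ A u (Fintype.card D) φ := by
  obtain ⟨φ, rfl⟩ := (pull h).surjective φ
  rw [corG_apply, AddEquiv.symm_apply_apply, resG_eq h, res_cor, sum_powers hu, nmG_apply,
    map_sum]
  refine Finset.sum_congr rfl fun i _ => ?_
  have h1 : (⇑(dd M Γ A u)) = ⇑(cjG Γ h (gd M u)) := funext fun φ => dd_eq h u φ
  rw [h1, ← cjG_pow, cjG_apply, AddEquiv.symm_apply_apply]
  congr 1
  apply cj_eq_of_eq
  rw [hs, map_pow, th_gd]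

theorem card_hidx (ℓ : ℕ) [hℓ : Fact ℓ.Prime] (hM : ¬ ℓ ∣ M) :
    Fintype.card (HIdx M ℓ) = ℓ + 1 := by
  rw [Fintype.card_congr (hidxEquivOfNotDvd hM), Fintype.card_option, ZMod.card]

/-- `Hom(D, A)` is Eisenstein. -/
theorem TT_comp_th (ℓ : ℕ) [hℓ : Fact ℓ.Prime] (hM : ¬ ℓ ∣ M) (f : Additive D →+ A) :
    TT M (Gamma0 M) A ℓ (f.comp (MonoidHom.toAdditive (th ψ))) =
      ((ℓ : ℤ) + 1) • f.comp (MonoidHom.toAdditive (th ψ)) := by
  have h1 := addTransfer_comp_theta ((hSys M ℓ).sys (Gamma0 M)) (θ := th ψ)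
    (τ := fun _ => 1) (fun g x => by
      rw [mul_one, one_mul, th_apply, th_apply, lr_coc]) f
  rw [card_hidx ℓ hM] at h1
  rw [TT_apply, h1, ← natCast_zsmul]
  push_cast
  rfl

/-- multiplication by an integer on homs -/
theorem hom_zsmul_inj {B : Type*} [AddGroup B] {c : ℤ} (hc : ∀ x : A, c • x = 0 → x = 0) (φ : B →+ A)
    (hφ : c • φ = 0) : φ = 0 := by
  refine AddMonoidHom.ext fun x => hc _ ?_
  exact DFunLike.congr_fun hφ x

variable [Fintype D] {u : (ZMod M)ˣ} (hu : ∀ d : D, ∃ i : ℕ, ψ u ^ i = d)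
  (hn : ∀ x : A, Fintype.card D • x = 0)
  (h6 : TorOK M A)

include h hu hn h6 in
/-- The key step. -/
theorem exists_T_sub_eq_norm (hodd : ψ (-1) = 1) (ℓ : ℕ) [hℓ : Fact ℓ.Prime] (hM : ¬ ℓ ∣ M)
    (φ : Additive Γ →+ A) (hφ : dd M Γ A u φ = φ) :
    ∃ φ', TT M Γ A ℓ φ - ((ℓ : ℤ) + 1) • φ = nmG M Γ A u (Fintype.card D) φ' := by
  choose i hi using hu
  have hu : ∀ d : D, ∃ i : ℕ, ψ u ^ i = d := fun d => ⟨i d, hi d⟩
  let s : D → Gamma0 M := fun d => gd M u ^ i d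
  have hs : ∀ d, th ψ (s d) = d := by
    intro d
    change th ψ (gd M u ^ i d) = d
    rw [map_pow, th_gd, hi]
  have hneg : (-1 : SL(2, ℤ)) ∈ Gamma0 M := by
    rw [Gamma0_mem]
    simp
  have hθneg : th ψ ⟨-1, hneg⟩ = 1 := by
    rw [th_apply, ← hodd]
    congr 1
    apply Units.ext
    rw [coe_lr]
    simp
  have hsurj := cor_surjective' (A := A) s hs hneg hθneg h6.two h6.tor
  obtain ⟨φ, rfl⟩ := (pull h).surjective φ
  have hφ' : cj (gd M u) φ = φ := by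
    apply (pull h).injective
    rw [dd_eq h, cjG_apply, AddEquiv.symm_apply_apply] at hφ
    exact hφ
  obtain ⟨φ', hφ'⟩ := exists_norm_eq s hs hn hsurj (gd M u) (fun d => ⟨i d, by
      rw [th_gd, hi]⟩)
    ((kS (hSys M ℓ) ψ).addTransfer - ((ℓ : ℤ) + 1) • AddMonoidHom.id _)
    (((hSys M ℓ).sys (Gamma0 M)).addTransfer - ((ℓ : ℤ) + 1) • AddMonoidHom.id _)
    (fun φ => by
      rw [AddMonoidHom.sub_apply, AddMonoidHom.sub_apply, map_sub]
      congr 1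
      · exact cor_addTransfer (S := (hSys M ℓ).sys (Gamma0 M)) (s := s) (hs := hs) _ _ φ
      · rw [AddMonoidHom.smul_apply, AddMonoidHom.smul_apply, map_zsmul]
        rfl)
    (fun φ => by
      rw [AddMonoidHom.sub_apply, AddMonoidHom.sub_apply, map_sub]
      congr 1
      exact cj_addTransfer (S := (hSys M ℓ).sys (Gamma0 M)) _ _ _ φ)
    (fun f => by
      have h1 := TT_comp_th (ψ := ψ) ℓ hM f
      rw [TT_apply] at h1
      rw [AddMonoidHom.sub_apply, h1, AddMonoidHom.smul_apply, AddMonoidHom.id_apply, sub_self])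
    φ hφ'
  refine ⟨pull h φ', ?_⟩
  rw [← resG_corG h s hs hu, corG_apply, AddEquiv.symm_apply_apply, resG_eq h, res_cor, ← hφ',
    AddMonoidHom.sub_apply, map_sub, pull_addTransfer]
  rfl

omit [Fintype D] in
theorem dd_iterate (u v : (ZMod M)ˣ) (i : ℕ) (φ : Additive Γ →+ A) :
    dd M Γ A v ((dd M Γ A u)^[i] φ) = (dd M Γ A u)^[i] (dd M Γ A v φ) := by
  apply iterate_comm
  intro x
  rw [dd_dd, dd_dd, mul_comm]

theorem nmG_TT (u : (ZMod M)ˣ) (n : ℕ) (ℓ : ℕ) [Fact ℓ.Prime] (φ : Additive Γ →+ A) :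
    nmG M Γ A u n (TT M Γ A ℓ φ) = TT M Γ A ℓ (nmG M Γ A u n φ) := by
  rw [nmG_apply, nmG_apply, map_sum]
  refine Finset.sum_congr rfl fun i _ => ?_
  symm
  exact iterate_comm (fun x => (dd_TT u ℓ x).symm) i φ

include h in
omit hu in
theorem dd_iterate_card (φ : Additive Γ →+ A) : (dd M Γ A u)^[Fintype.card D] φ = φ := by
  have h1 : (⇑(dd M Γ A u)) = ⇑(cjG Γ h (gd M u)) := funext fun φ => dd_eq h u φ
  rw [h1, ← cjG_pow, cjG_apply]
  have h2 : th ψ (gd M u ^ Fintype.card D) = th ψ 1 := by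
    rw [map_pow, pow_card_eq_one, map_one]
  rw [cj_eq_of_eq h2, cj_one, AddEquiv.apply_symm_apply]

include h in
omit hu in
theorem nmG_dd (φ : Additive Γ →+ A) :
    nmG M Γ A u (Fintype.card D) (dd M Γ A u φ) = nmG M Γ A u (Fintype.card D) φ := by
  rw [nmG_apply, nmG_apply]
  have h1 := Finset.sum_range_succ (fun i => (dd M Γ A u)^[i] φ) (Fintype.card D)
  have h2 := Finset.sum_range_succ' (fun i => (dd M Γ A u)^[i] φ) (Fintype.card D)
  rw [h1, dd_iterate_card h, Function.iterate_zero_apply] at h2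
  have h3 := add_right_cancel h2
  rw [h3]
  rfl

include h in
omit hu in
theorem dd_nmG (φ : Additive Γ →+ A) :
    dd M Γ A u (nmG M Γ A u (Fintype.card D) φ) = nmG M Γ A u (Fintype.card D) φ := by
  conv_rhs => rw [← nmG_dd h]
  rw [nmG_apply, nmG_apply, map_sum]
  exact Finset.sum_congr rfl fun i _ => dd_iterate u u i φ

variable [Finite (Additive Γ →+ A)] {ℓ : ℕ} [hℓ : Fact ℓ.Prime] (hM : ¬ ℓ ∣ M) (hI : ℓ ∈ I)
  (ha : ∀ x : A, (a ℓ - 1 - (ℓ : ℤ)) • x = 0 → x = 0) (hodd : ψ (-1) = 1)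

omit [Finite (Additive Γ →+ A)] in
include h hu hn h6 hM hodd in
theorem key_hyp (a : ℕ → ℤ) (x : Additive Γ →+ A) (hx : dd M Γ A u x = x) :
    ∃ y, TA M Γ A I a ⟨ℓ, hℓ.out, hI⟩ x + (a ℓ - 1 - (ℓ : ℤ)) • x =
      nmG M Γ A u (Fintype.card D) y := by
  obtain ⟨y, hy⟩ := exists_T_sub_eq_norm h hu hn h6 hodd ℓ hM x hx
  refine ⟨y, ?_⟩
  rw [← hy, TA_apply, sub_smul, sub_smul, one_smul, add_smul, one_smul]
  abel

include h hu hn h6 hM hI ha hodd in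
/-- **(N1)** -/
theorem N1 {x : Additive Γ →+ A} (hx : x ∈ genEig M Γ A I a) (hδ : dd M Γ A u x = x) :
    ∃ y ∈ genEig M Γ A I a, x = nmG M Γ A u (Fintype.card D) y :=
  exists_norm_of_nil TA_comm (dd M Γ A u) (nmG M Γ A u (Fintype.card D))
    (comm_TA _ fun ℓ _ _ φ => dd_TT u ℓ φ) (comm_TA _ fun ℓ _ _ φ => nmG_TT u _ ℓ φ)
    ⟨ℓ, hℓ.out, hI⟩ (fun φ hφ => hom_zsmul_inj ha φ hφ)
    (key_hyp h hu hn h6 hM hI hodd a) hx hδ

include h hu hn h6 hM hI ha hodd in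
/-- **(N2)** -/
theorem N2 {x : Additive Γ →+ A} (hx : x ∈ genEig M Γ A I a)
    (hN : nmG M Γ A u (Fintype.card D) x = 0) :
    ∃ y ∈ genEig M Γ A I a, x = dd M Γ A u y - y :=
  exists_sub_of_nil TA_comm (dd M Γ A u) (nmG M Γ A u (Fintype.card D))
    (comm_TA _ fun ℓ _ _ φ => dd_TT u ℓ φ) (comm_TA _ fun ℓ _ _ φ => nmG_TT u _ ℓ φ)
    ⟨ℓ, hℓ.out, hI⟩ (fun φ hφ => hom_zsmul_inj ha φ hφ)
    (key_hyp h hu hn h6 hM hI hodd a) (nmG_dd h) (dd_nmG h) hx hN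

omit [Fintype D] [Finite (Additive Γ →+ A)] in
include h in
theorem resG_TT (q : ℕ) [Fact q.Prime] (φ : Additive (Gamma0 M) →+ A) :
    resG Γ (TT M (Gamma0 M) A q φ) = TT M Γ A q (resG Γ φ) :=
  resG_addTransfer h (hSys M q) φ

omit [Fintype D] [Finite (Additive Γ →+ A)] in
include h in
theorem resG_mem {φ : Additive (Gamma0 M) →+ A} (hφ : φ ∈ genEig M (Gamma0 M) A I a) :
    resG Γ φ ∈ genEig M Γ A I a :=
  map_mem_genEig (resG Γ) (fun q _ _ φ => resG_TT h q φ) hφ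

omit [Finite (Additive Γ →+ A)] in
theorem corG_mem (s : D → Gamma0 M) (hs : ∀ d, th ψ (s d) = d) {φ : Additive Γ →+ A}
    (hφ : φ ∈ genEig M Γ A I a) : corG h s hs φ ∈ genEig M (Gamma0 M) A I a :=
  map_mem_genEig (corG h s hs) (fun q _ _ φ => corG_addTransfer s hs h (hSys M q) φ) hφ

omit [Fintype D] [Finite (Additive Γ →+ A)] in
include h in
/-- restrictions are invariant. -/
theorem dd_resG (v : (ZMod M)ˣ) (φ : Additive (Gamma0 M) →+ A) :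
    dd M Γ A v (resG Γ φ) = resG Γ φ := by
  rw [dd_eq h, cjG_apply, resG_eq h, AddEquiv.symm_apply_apply, cj_res]

include h hu hn h6 hM hI ha hodd in
/-- **(N0)** surjectivity: the invariants come from level `Γ₀(M)`. -/
theorem exists_resG {x : Additive Γ →+ A} (hx : x ∈ genEig M Γ A I a)
    (hδ : dd M Γ A u x = x) : ∃ y ∈ genEig M (Gamma0 M) A I a, resG Γ y = x := by
  obtain ⟨y, hy, rfl⟩ := N1 h hu hn h6 hM hI ha hodd hx hδ
  choose i hi using hu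
  have hu : ∀ d : D, ∃ i : ℕ, ψ u ^ i = d := fun d => ⟨i d, hi d⟩
  let s : D → Gamma0 M := fun d => gd M u ^ i d
  have hs : ∀ d, th ψ (s d) = d := by
    intro d
    change th ψ (gd M u ^ i d) = d
    rw [map_pow, th_gd, hi]
  exact ⟨corG h s hs y, corG_mem h s hs hy, resG_corG h s hs hu y⟩

omit [Fintype D] [Finite (Additive Γ →+ A)] in
include h hM hI ha in
/-- **(N0)** injectivity. -/
theorem resG_inj (hψ : Function.Surjective ψ) {x : Additive (Gamma0 M) →+ A}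
    (hx : x ∈ genEig M (Gamma0 M) A I a) (h0 : resG Γ x = 0) : x = 0 := by
  have h1 : res (th ψ) x = 0 := by
    apply (pull h).injective
    rw [← resG_eq, h0, map_zero]
  have hsurj : Function.Surjective (th ψ) := by
    intro d
    obtain ⟨v, hv⟩ := hψ d
    exact ⟨gd M v, by rw [th_gd, hv]⟩
  obtain ⟨f, rfl⟩ := exists_factor_of_res_eq_zero hsurj x h1
  refine eq_zero_of_nil (c := a ℓ - 1 - (ℓ : ℤ)) (fun φ hφ => hom_zsmul_inj ha φ hφ)
    (⟨ℓ, hℓ.out, hI⟩ : {ℓ : ℕ // ℓ.Prime ∧ ℓ ∈ I}) hx ?_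
  rw [TA_apply, TT_comp_th ℓ hM, sub_smul, sub_smul, one_smul, add_smul, one_smul]
  abel

end Main

end Fermat.Agent.Ribet
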