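import Mathlib
import Fermat.Agent.Ribet.R3Main
import Fermat.Agent.S16.Lift

/-!
# The boundary is Eisenstein

For a prime `ℓ ≡ 1 (mod M)` the operator `T_ℓ - 1 - ℓ` on `Hom(Γ, A)`, `Γ₁(M) ≤ Γ ≤ Γ₀(M)`, has
values in the parabolic homomorphisms.
-/

set_option autoImplicit false

noncomputable section

namespace Fermat.Agent.Ribet

open scoped BigOperators MatrixGroups
open HeckePar X1 CongruenceSubgroup ModularGroup ModularCurve.Period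

variable {M : ℕ}

/-- Matrices congruent to `1`. -/
theorem mem_Del_of_cong {n : ℤ} {A Z : Matrix (Fin 2) (Fin 2) ℤ} (hdet : A.det = n)
    (hA : A = 1 + (M : ℤ) • Z) : A ∈ Del M n 1 := by
  refine ⟨by rw [← Matrix.det_fin_two]; exact hdet, ?_, ?_⟩
  · rw [hA, Matrix.add_apply, Matrix.smul_apply, smul_eq_mul]
    push_cast
    rw [ZMod.natCast_self, zero_mul, add_zero]
    simp
  · rw [hA, Matrix.add_apply, Matrix.smul_apply, smul_eq_mul]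
    push_cast
    rw [ZMod.natCast_self, zero_mul, add_zero]
    simp

/-- the unipotent factor -/
def uT (ℓ : ℕ) : Option (ZMod ℓ) → SL(2, ℤ)
  | none => 1
  | some b => T ^ (b.val : ℤ)

/-- `uT x ⁻¹ * intRep ℓ x`. -/
def uRep (ℓ : ℕ) : Option (ZMod ℓ) → Matrix (Fin 2) (Fin 2) ℤ
  | none => !![(ℓ : ℤ), 0; 0, 1]
  | some b => !![1, (b.val : ℤ) * (1 - ℓ); 0, (ℓ : ℤ)]

theorem uT_mul_uRep (ℓ : ℕ) (x : Option (ZMod ℓ)) :
    (uT ℓ x : Matrix (Fin 2) (Fin 2) ℤ) * uRep ℓ x = intRep ℓ x := by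
  cases x with
  | none =>
    simp [uT, uRep]
  | some b =>
    simp only [uT, uRep, intRep_some, coe_T_zpow]
    ext i j
    fin_cases i <;> fin_cases j <;>
      simp [Matrix.mul_apply, Fin.sum_univ_two, -ZMod.natCast_val]
    ring

theorem uRep_cong {ℓ : ℕ} {k : ℤ} (hk : (ℓ : ℤ) = 1 + M * k) (x : Option (ZMod ℓ)) :
    ∃ Z, uRep ℓ x = 1 + (M : ℤ) • Z := by
  cases x with
  | none =>
    refine ⟨!![k, 0; 0, 0], ?_⟩
    ext i j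
    fin_cases i <;> fin_cases j <;> simp [uRep, hk]
  | some b =>
    refine ⟨!![0, -(b.val : ℤ) * k; 0, k], ?_⟩
    ext i j
    fin_cases i <;> fin_cases j <;> simp [uRep, hk, -ZMod.natCast_val]
    ring

/-- The conjugated representatives. -/
def parMat (ℓ : ℕ) (g : SL(2, ℤ)) (x : Option (ZMod ℓ)) : Matrix (Fin 2) (Fin 2) ℤ :=
  ((g⁻¹ : SL(2, ℤ)) : Matrix (Fin 2) (Fin 2) ℤ) * uRep ℓ x * (g : Matrix (Fin 2) (Fin 2) ℤ)

theorem coe_inv_mul (g : SL(2, ℤ)) : ((g⁻¹ : SL(2, ℤ)) : Matrix (Fin 2) (Fin 2) ℤ) *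
    (g : Matrix (Fin 2) (Fin 2) ℤ) = 1 := by
  rw [← Matrix.SpecialLinearGroup.coe_mul, inv_mul_cancel, Matrix.SpecialLinearGroup.coe_one]

theorem coe_mul_inv (g : SL(2, ℤ)) : (g : Matrix (Fin 2) (Fin 2) ℤ) *
    ((g⁻¹ : SL(2, ℤ)) : Matrix (Fin 2) (Fin 2) ℤ) = 1 := by
  rw [← Matrix.SpecialLinearGroup.coe_mul, mul_inv_cancel, Matrix.SpecialLinearGroup.coe_one]

theorem parMat_cong {ℓ : ℕ} {k : ℤ} (hk : (ℓ : ℤ) = 1 + M * k) (g : SL(2, ℤ))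
    (x : Option (ZMod ℓ)) : ∃ Z, parMat ℓ g x = 1 + (M : ℤ) • Z := by
  obtain ⟨Z, hZ⟩ := uRep_cong hk x
  refine ⟨((g⁻¹ : SL(2, ℤ)) : Matrix (Fin 2) (Fin 2) ℤ) * Z * (g : Matrix (Fin 2) (Fin 2) ℤ), ?_⟩
  rw [parMat, hZ, mul_add, add_mul, mul_one, coe_inv_mul, Matrix.mul_smul, Matrix.smul_mul]

theorem det_parMat (ℓ : ℕ) (g : SL(2, ℤ)) (x : Option (ZMod ℓ)) : (parMat ℓ g x).det = ℓ := by
  rw [parMat, Matrix.det_mul, Matrix.det_mul, g⁻¹.det_coe, g.det_coe, one_mul, mul_one]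
  have h := congrArg Matrix.det (uT_mul_uRep ℓ x)
  rw [Matrix.det_mul, (uT ℓ x).det_coe, one_mul, det_intRep] at h
  exact h

theorem intRep_mul_eq (ℓ : ℕ) (g : SL(2, ℤ)) (x : Option (ZMod ℓ)) :
    intRep ℓ x * (g : Matrix (Fin 2) (Fin 2) ℤ) =
      ((uT ℓ x * g : SL(2, ℤ)) : Matrix (Fin 2) (Fin 2) ℤ) * parMat ℓ g x := by
  rw [parMat, ← uT_mul_uRep, Matrix.SpecialLinearGroup.coe_mul]
  simp only [mul_assoc]
  rw [← mul_assoc (g : Matrix (Fin 2) (Fin 2) ℤ) _ _, coe_mul_inv, one_mul]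

/-- The system adapted to `g`. -/
def parSys {ℓ : ℕ} [hℓ : Fact ℓ.Prime] {k : ℤ} (hk : (ℓ : ℤ) = 1 + M * k) (g : SL(2, ℤ)) :
    IntSys M (ℓ : ℤ) (1 : ZMod M) (Option (ZMod ℓ)) where
  mat := parMat ℓ g
  pos := by exact_mod_cast hℓ.out.pos
  unit := isUnit_one
  mem x := by
    obtain ⟨Z, hZ⟩ := parMat_cong hk g x
    exact mem_Del_of_cong (det_parMat ℓ g x) hZ
  surj A hA := by
    have hdet : A.det = ℓ := det_of_mem_Del hA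
    obtain ⟨x, B, hB, hBdet, -, -⟩ := exists_factor (N := 1) hℓ.out
      (A * ((g⁻¹ : SL(2, ℤ)) : Matrix (Fin 2) (Fin 2) ℤ)) 1 (by
        rw [← Matrix.det_fin_two, Matrix.det_mul, g⁻¹.det_coe, hdet])
      (by simp) (fun h => absurd (Nat.dvd_one.mp h) hℓ.out.one_lt.ne')
    let B' : SL(2, ℤ) := ⟨B, by rw [Matrix.det_fin_two]; exact hBdet⟩
    have h1 : A = ((B' * (uT ℓ x.1 * g) : SL(2, ℤ)) : Matrix (Fin 2) (Fin 2) ℤ) *
        parMat ℓ g x.1 := by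
      rw [Matrix.SpecialLinearGroup.coe_mul, mul_assoc, ← intRep_mul_eq, ← mul_assoc]
      change A = B * intRep ℓ x.1 * (g : Matrix (Fin 2) (Fin 2) ℤ)
      rw [← hB, mul_assoc, coe_inv_mul, mul_one]
    refine ⟨x.1, B' * (uT ℓ x.1 * g), ?_, h1⟩
    obtain ⟨Z, hZ⟩ := parMat_cong hk g x.1
    set C : SL(2, ℤ) := B' * (uT ℓ x.1 * g) with hC
    rw [hZ, mul_add, mul_one, Matrix.mul_smul] at h1
    have h10 := hA.2.1
    have h00 := hA.2.2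
    rw [h1] at h10 h00
    have e1 : ((C 1 0 : ℤ) : ZMod M) = 0 := by
      rw [Matrix.add_apply, Matrix.smul_apply, smul_eq_mul] at h10
      push_cast at h10
      rw [ZMod.natCast_self, zero_mul, add_zero] at h10
      exact h10
    have e2 : ((C 0 0 : ℤ) : ZMod M) = 1 := by
      rw [Matrix.add_apply, Matrix.smul_apply, smul_eq_mul] at h00
      push_cast at h00
      rw [ZMod.natCast_self, zero_mul, add_zero] at h00
      exact h00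
    exact mem_gamma1_of_mem_gamma0 (Gamma0_mem.mpr e1) e2
  inj x y γ _ h := by
    refine intRep_unique hℓ.out 1 (not_dvd_one_of_prime hℓ.out)
      ((uT ℓ x * g * γ * (uT ℓ y * g)⁻¹ : SL(2, ℤ)) : Matrix (Fin 2) (Fin 2) ℤ) x y ?_
    have h1 := intRep_mul_eq ℓ g x
    have h2 := intRep_mul_eq ℓ g y
    have h3 : intRep ℓ x = ((uT ℓ x * g : SL(2, ℤ)) : Matrix (Fin 2) (Fin 2) ℤ) *
        parMat ℓ g x * ((g⁻¹ : SL(2, ℤ)) : Matrix (Fin 2) (Fin 2) ℤ) := by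
      rw [← h1, mul_assoc, coe_mul_inv, mul_one]
    have h4 : parMat ℓ g y * ((g⁻¹ : SL(2, ℤ)) : Matrix (Fin 2) (Fin 2) ℤ) =
        (((uT ℓ y * g)⁻¹ : SL(2, ℤ)) : Matrix (Fin 2) (Fin 2) ℤ) * intRep ℓ y := by
      have h5 : intRep ℓ y = ((uT ℓ y * g : SL(2, ℤ)) : Matrix (Fin 2) (Fin 2) ℤ) *
          (parMat ℓ g y * ((g⁻¹ : SL(2, ℤ)) : Matrix (Fin 2) (Fin 2) ℤ)) := by
        rw [← mul_assoc, ← h2, mul_assoc, coe_mul_inv, mul_one]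
      rw [h5, ← mul_assoc, coe_inv_mul, one_mul]
    rw [one_smul, h3, h, mul_assoc, mul_assoc, h4]
    simp only [Matrix.SpecialLinearGroup.coe_mul, mul_assoc]

/-- elements of `SL(2, ℤ)` congruent to `1`. -/
theorem mem_gamma1_of_cong {g : SL(2, ℤ)} {Z : Matrix (Fin 2) (Fin 2) ℤ}
    (hg : (g : Matrix (Fin 2) (Fin 2) ℤ) = 1 + (M : ℤ) • Z) : g ∈ Gamma1 M := by
  have h := mem_Del_of_cong (M := M) g.det_coe hg
  exact mem_gamma1_of_mem_gamma0 (Gamma0_mem.mpr h.2.1) h.2.2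

/-- conjugates of powers of `T ^ M`. -/
theorem conj_T_mem (g : SL(2, ℤ)) (k : ℤ) : g⁻¹ * T ^ ((M : ℤ) * k) * g ∈ Gamma1 M := by
  refine mem_gamma1_of_cong (Z := ((g⁻¹ : SL(2, ℤ)) : Matrix (Fin 2) (Fin 2) ℤ) *
    !![0, k; 0, 0] * (g : Matrix (Fin 2) (Fin 2) ℤ)) ?_
  have h1 : ((T ^ ((M : ℤ) * k) : SL(2, ℤ)) : Matrix (Fin 2) (Fin 2) ℤ) =
      1 + (M : ℤ) • !![0, k; 0, 0] := by
    rw [coe_T_zpow]
    ext i j
    fin_cases i <;> fin_cases j <;> simp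
  rw [Matrix.SpecialLinearGroup.coe_mul, Matrix.SpecialLinearGroup.coe_mul, h1, mul_add, add_mul,
    mul_one, coe_inv_mul, Matrix.mul_smul, Matrix.smul_mul]

theorem T_zpow_mul_uRep_none (ℓ : ℕ) (j : ℤ) :
    uRep ℓ none * ((T ^ j : SL(2, ℤ)) : Matrix (Fin 2) (Fin 2) ℤ) =
      ((T ^ (j * ℓ) : SL(2, ℤ)) : Matrix (Fin 2) (Fin 2) ℤ) * uRep ℓ none := by
  rw [coe_T_zpow, coe_T_zpow]
  ext a b
  fin_cases a <;> fin_cases b <;>
    simp [uRep, Matrix.mul_apply, Fin.sum_univ_two]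
  ring

theorem T_zpow_mul_uRep_some (ℓ : ℕ) (j k : ℤ) (b b' : ZMod ℓ)
    (h : (b.val : ℤ) + j = b'.val + ℓ * k) :
    uRep ℓ (some b) * ((T ^ j : SL(2, ℤ)) : Matrix (Fin 2) (Fin 2) ℤ) =
      ((T ^ (j + (1 - ℓ) * k) : SL(2, ℤ)) : Matrix (Fin 2) (Fin 2) ℤ) * uRep ℓ (some b') := by
  have h' : (b'.val : ℤ) = b.val + j - ℓ * k := by linarith
  rw [coe_T_zpow, coe_T_zpow]
  ext a b
  fin_cases a <;> fin_cases b <;>
    simp [uRep, Matrix.mul_apply, Fin.sum_univ_two, -ZMod.natCast_val, h']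
  ring

variable {Γ : Subgroup SL(2, ℤ)} [hΓ : Between M Γ] {A : Type*} [AddCommGroup A]

/-- The computation on `g⁻¹ T ^ j g`. -/
theorem TT_par {ℓ : ℕ} [hℓ : Fact ℓ.Prime] {k : ℤ} (hk : (ℓ : ℤ) = 1 + M * k)
    (φ : Additive Γ →+ A) (g : SL(2, ℤ)) (j : ℤ) (hγ : g⁻¹ * T ^ j * g ∈ Γ) :
    TT M Γ A ℓ φ (Additive.ofMul ⟨g⁻¹ * T ^ j * g, hγ⟩) =
      ((ℓ : ℤ) + 1) • φ (Additive.ofMul ⟨g⁻¹ * T ^ j * g, hγ⟩) := by
  classical
  have : NeZero ℓ := ⟨hℓ.out.ne_zero⟩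
  set γ : Γ := ⟨g⁻¹ * T ^ j * g, hγ⟩ with hγdef
  rw [TT_apply, (hSys M ℓ).addTransfer_eq (parSys hk g) Γ φ, CosetSys.addTransfer_apply,
    toMul_ofMul, Fintype.sum_option]
  have hconj : ∀ a b : ℤ, (g⁻¹ * T ^ a * g) * (g⁻¹ * T ^ b * g) = g⁻¹ * T ^ (a + b) * g := by
    intro a b
    rw [zpow_add]
    group
  have hpow : ∀ (a b : ℤ), (g⁻¹ * T ^ a * g) ^ b = g⁻¹ * T ^ (a * b) * g := by
    intro a b
    rw [zpow_mul]
    have := conj_zpow (i := b) (a := g⁻¹) (b := T ^ a)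
    rw [inv_inv] at this
    exact this
  have hkey : ∀ (x y : Option (ZMod ℓ)) (m : ℤ) (c : Γ), (c : SL(2, ℤ)) = g⁻¹ * T ^ m * g →
      uRep ℓ x * ((T ^ j : SL(2, ℤ)) : Matrix (Fin 2) (Fin 2) ℤ) =
        ((T ^ m : SL(2, ℤ)) : Matrix (Fin 2) (Fin 2) ℤ) * uRep ℓ y →
      ((parSys hk g).sys Γ).coc γ x = c := by
    intro x y m c hc h
    have h1 : ((parSys hk g).sys Γ).rep x * iotaG Γ γ =
        iotaG Γ c * ((parSys hk g).sys Γ).rep y := by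
      rw [IntSys.sys_rep, IntSys.sys_rep, IntSys.glRep_mul_iotaG_iff]
      change parMat ℓ g x * ((g⁻¹ * T ^ j * g : SL(2, ℤ)) : Matrix (Fin 2) (Fin 2) ℤ) =
        _ * parMat ℓ g y
      rw [hc, parMat, parMat, Matrix.SpecialLinearGroup.coe_mul,
        Matrix.SpecialLinearGroup.coe_mul, Matrix.SpecialLinearGroup.coe_mul,
        Matrix.SpecialLinearGroup.coe_mul]
      simp only [mul_assoc]
      rw [← mul_assoc (g : Matrix (Fin 2) (Fin 2) ℤ) ((g⁻¹ : SL(2, ℤ)) : Matrix (Fin 2) (Fin 2) ℤ) _,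
        coe_mul_inv, one_mul,
        ← mul_assoc (g : Matrix (Fin 2) (Fin 2) ℤ) ((g⁻¹ : SL(2, ℤ)) : Matrix (Fin 2) (Fin 2) ℤ) _,
        coe_mul_inv, one_mul, ← mul_assoc (uRep ℓ x), h, mul_assoc]
    exact (((parSys hk g).sys Γ).ext_coc h1).2
  -- the element `T ^ (1 - ℓ)`
  have hvm : g⁻¹ * T ^ (1 - (ℓ : ℤ)) * g ∈ Γ := by
    have : (1 : ℤ) - ℓ = M * (-k) := by rw [hk]; ring
    rw [this]
    exact hΓ.ge (conj_T_mem g (-k))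
  set v : Γ := ⟨g⁻¹ * T ^ (1 - (ℓ : ℤ)) * g, hvm⟩ with hv
  -- `none`
  have hnone : ((parSys hk g).sys Γ).coc γ none = γ ^ (ℓ : ℤ) :=
    hkey none none (j * ℓ) _ (by rw [Subgroup.coe_zpow]; exact hpow _ _)
      (T_zpow_mul_uRep_none ℓ j)
  -- `some`
  have hex : ∀ b : ZMod ℓ, ∃ k' : ℤ, (b.val : ℤ) + j = (b + (j : ZMod ℓ)).val + ℓ * k' := by
    intro b
    have h1 : (ℓ : ℤ) ∣ ((b.val : ℤ) + j) - (b + (j : ZMod ℓ)).val := by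
      rw [← ZMod.intCast_zmod_eq_zero_iff_dvd]
      push_cast
      rw [ZMod.natCast_zmod_val, ZMod.natCast_zmod_val, sub_self]
    obtain ⟨c, hc⟩ := h1
    exact ⟨c, by linarith⟩
  choose kk hkk using hex
  have hsome : ∀ b : ZMod ℓ, ((parSys hk g).sys Γ).coc γ (some b) = γ * v ^ kk b := by
    intro b
    refine hkey (some b) (some (b + (j : ZMod ℓ))) (j + (1 - ℓ) * kk b) _ ?_
      (T_zpow_mul_uRep_some ℓ j (kk b) b _ (hkk b))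
    rw [Subgroup.coe_mul, Subgroup.coe_zpow]
    change g⁻¹ * T ^ j * g * (g⁻¹ * T ^ (1 - (ℓ : ℤ)) * g) ^ kk b = _
    rw [hpow, hconj]
  have hsum : ∑ b, kk b = j := by
    have h1 : (ℓ : ℤ) * ∑ b, kk b = ℓ * j := by
      rw [Finset.mul_sum]
      have h2 : ∀ b : ZMod ℓ, (ℓ : ℤ) * kk b = (b.val : ℤ) + j - (b + (j : ZMod ℓ)).val := by
        intro b
        have := hkk b
        linarith
      rw [Finset.sum_congr rfl fun b _ => h2 b, Finset.sum_sub_distrib, Finset.sum_add_distrib]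
      rw [show ∑ b : ZMod ℓ, ((b + (j : ZMod ℓ)).val : ℤ) = ∑ b : ZMod ℓ, (b.val : ℤ) from
        Equiv.sum_comp (Equiv.addRight (j : ZMod ℓ)) (fun b : ZMod ℓ => (b.val : ℤ))]
      rw [Finset.sum_const, Finset.card_univ, ZMod.card, nsmul_eq_mul]
      ring
    exact mul_left_cancel₀ (by exact_mod_cast hℓ.out.ne_zero) h1
  have hvj : v ^ j = γ ^ (1 - (ℓ : ℤ)) := by
    apply Subtype.ext
    rw [Subgroup.coe_zpow, Subgroup.coe_zpow]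
    change (g⁻¹ * T ^ (1 - (ℓ : ℤ)) * g) ^ j = (g⁻¹ * T ^ j * g) ^ (1 - (ℓ : ℤ))
    rw [hpow, hpow, mul_comm]
  have hφv : j • φ (Additive.ofMul v) = (1 - (ℓ : ℤ)) • φ (Additive.ofMul γ) := by
    have h1 : j • Additive.ofMul v = (1 - (ℓ : ℤ)) • Additive.ofMul γ := by
      rw [← ofMul_zpow, ← ofMul_zpow, hvj]
    have h2 := congrArg φ h1
    rwa [map_zsmul, map_zsmul] at h2
  rw [hnone]
  simp only [hsome, ofMul_mul, ofMul_zpow, map_add, map_zsmul, Finset.sum_add_distrib,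
    Finset.sum_const, Finset.card_univ, ZMod.card]
  rw [← Finset.sum_smul, hsum, hφv, ← natCast_zsmul, ← add_smul, ← add_smul]
  congr 1
  ring

/-- **The boundary is Eisenstein.** -/
theorem TT_sub_parabolic (h2 : ∀ x : A, (2 : ℕ) • x = 0 → x = 0) {ℓ : ℕ} [hℓ : Fact ℓ.Prime]
    {k : ℤ} (hk : (ℓ : ℤ) = 1 + M * k) (φ : Additive Γ →+ A) :
    IsParabolicHom Γ (TT M Γ A ℓ φ - ((ℓ : ℤ) + 1) • φ) := by
  intro γ hγ
  rw [AddMonoidHom.sub_apply, AddMonoidHom.smul_apply, sub_eq_zero]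
  obtain ⟨δ, m, h | h⟩ := S16.exists_conj_T_zpow (γ : SL(2, ℤ)) hγ
  · have h1 : (γ : SL(2, ℤ)) = (δ⁻¹)⁻¹ * T ^ m * δ⁻¹ := by rw [inv_inv]; exact h
    have h2 : (δ⁻¹)⁻¹ * T ^ m * δ⁻¹ ∈ Γ := h1 ▸ γ.2
    have h3 : γ = ⟨(δ⁻¹)⁻¹ * T ^ m * δ⁻¹, h2⟩ := Subtype.ext h1
    rw [h3]
    exact TT_par hk φ δ⁻¹ m h2
  · have h1 : ((γ ^ 2 : Γ) : SL(2, ℤ)) = (δ⁻¹)⁻¹ * T ^ (m + m) * δ⁻¹ := by
      rw [Subgroup.coe_pow, h, inv_inv, zpow_add, neg_sq, sq]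
      group
    have h3 : (δ⁻¹)⁻¹ * T ^ (m + m) * δ⁻¹ ∈ Γ := h1 ▸ (γ ^ 2).2
    have h4 : γ ^ 2 = ⟨(δ⁻¹)⁻¹ * T ^ (m + m) * δ⁻¹, h3⟩ := Subtype.ext h1
    have h5 := TT_par hk φ δ⁻¹ (m + m) h3
    rw [← h4, ofMul_pow, map_nsmul, map_nsmul, smul_comm] at h5
    rw [← sub_eq_zero]
    apply h2
    rw [smul_sub, h5, sub_self]

variable {I : Set ℕ} {a : ℕ → ℤ}

/-- **Non-Eisenstein generalised eigenclasses are parabolic.** -/
theorem parabolic_of_genEig [Finite (Additive Γ →+ A)] (h2 : ∀ x : A, (2 : ℕ) • x = 0 → x = 0)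
    {ℓ : ℕ} [hℓ : Fact ℓ.Prime] (hI : ℓ ∈ I) (hℓM : (ℓ : ZMod M) = 1)
    (ha : ∀ x : A, (a ℓ - 1 - (ℓ : ℤ)) • x = 0 → x = 0)
    {φ : Additive Γ →+ A} (hφ : φ ∈ genEig M Γ A I a) : IsParabolicHom Γ φ := by
  obtain ⟨k, hk⟩ : ∃ k : ℤ, (ℓ : ℤ) = 1 + M * k := by
    have h1 : ((1 : ℤ) : ZMod M) = ((ℓ : ℤ) : ZMod M) := by
      push_cast
      exact hℓM.symm
    have h3 := (ZMod.intCast_eq_intCast_iff_dvd_sub _ _ _).mp h1
    obtain ⟨k, hk⟩ := h3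
    exact ⟨k, by linarith⟩
  obtain ⟨ψ, -, hψ⟩ := exists_of_nil TA_comm (c := a ℓ - 1 - (ℓ : ℤ))
    (fun φ hφ => hom_zsmul_inj ha φ hφ) ⟨ℓ, hℓ.out, hI⟩ hφ
  have h3 : TT M Γ A ℓ ψ - ((ℓ : ℤ) + 1) • ψ = φ := by
    rw [← hψ, TA_apply, sub_smul, sub_smul, one_smul, add_smul, one_smul]
    abel
  rw [← h3]
  exact TT_sub_parabolic h2 hk ψ

end Fermat.Agent.Ribet
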