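import Mathlib
import Fermat.Agent.Ribet.GD
import Fermat.Agent.Ribet.ParEis

/-!
# R3 for the group `GD m q H`, coefficients `ZMod n`
-/

set_option autoImplicit false

noncomputable section

namespace Fermat.Agent.Ribet

open scoped BigOperators MatrixGroups
open HeckePar X1 CongruenceSubgroup ModularCurve.Period

section Psi

variable (m q : ℕ) (H : Subgroup (ZMod q)ˣ)

theorem dvd_mq : q ∣ m * q := Dvd.intro_left m rfl

/-- the quotient group -/
def Dq : Type := (ZMod q)ˣ ⧸ H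

instance : CommGroup (Dq q H) := inferInstanceAs (CommGroup ((ZMod q)ˣ ⧸ H))

/-- the projection -/
def Dq.mk : (ZMod q)ˣ →* Dq q H := QuotientGroup.mk' H

variable {q H} in
theorem Dq.mk_surjective (d : Dq q H) : ∃ x, Dq.mk q H x = d := QuotientGroup.mk_surjective d

variable {q H} in
theorem Dq.mk_eq_one {x : (ZMod q)ˣ} : Dq.mk q H x = 1 ↔ x ∈ H := QuotientGroup.eq_one_iff x

theorem Dq.card : Nat.card (Dq q H) = H.index := rfl

instance [NeZero q] : Finite (Dq q H) := inferInstanceAs (Finite ((ZMod q)ˣ ⧸ H))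

/-- The character with kernel `GD m q H`. -/
def psiGD : (ZMod (m * q))ˣ →* Dq q H :=
  (Dq.mk q H).comp (ZMod.unitsMap (dvd_mq m q))

theorem psiGD_apply (u : (ZMod (m * q))ˣ) :
    psiGD m q H u = Dq.mk q H (ZMod.unitsMap (dvd_mq m q) u) := rfl

theorem isKer_GD : IsKer (GD m q H) (psiGD m q H) := by
  intro g
  rw [mem_GD, th_apply, psiGD_apply, Dq.mk_eq_one]
  have h1 : ((ZMod.unitsMap (dvd_mq m q) (lr (m * q) g) : (ZMod q)ˣ) : ZMod q) =
      (((g : SL(2, ℤ)) 1 1 : ℤ) : ZMod q) := by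
    rw [ZMod.unitsMap_val, coe_lr]
    exact ZMod.cast_intCast (dvd_mq m q) _
  constructor
  · rintro ⟨-, u, hu, h⟩
    have h2 : ZMod.unitsMap (dvd_mq m q) (lr (m * q) g) = u := Units.ext (h1.trans h)
    rw [h2]
    exact hu
  · intro h
    exact ⟨g.2, _, h, h1.symm⟩

variable {m q H}

theorem psiGD_gen {u : (ZMod (m * q))ˣ}
    (hu : ∀ x : (ZMod q)ˣ, ∃ i : ℕ, ZMod.unitsMap (dvd_mq m q) u ^ i * x ∈ H)
    (d : Dq q H) : ∃ i : ℕ, psiGD m q H u ^ i = d := by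
  obtain ⟨x, rfl⟩ := Dq.mk_surjective d
  obtain ⟨i, hi⟩ := hu x⁻¹
  refine ⟨i, ?_⟩
  rw [psiGD_apply, ← map_pow, ← mul_inv_eq_one, ← map_inv, ← map_mul, Dq.mk_eq_one]
  exact hi

theorem psiGD_neg_one (hodd : Odd H.index) : psiGD m q H (-1) = 1 := by
  have h1 : (psiGD m q H (-1)) ^ 2 = 1 := by
    rw [← map_pow, neg_one_sq, map_one]
  have h2 : (psiGD m q H (-1)) ^ H.index = 1 := by
    rw [← Dq.card]
    exact pow_card_eq_one'
  obtain ⟨k, hk⟩ := hodd
  rw [hk, pow_succ, pow_mul, h1, one_pow, one_mul] at h2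
  exact h2

/-- A generator, congruent to `1` modulo `m`. -/
theorem exists_gen [hq : Fact q.Prime] [NeZero m] (hmq : Nat.Coprime m q) :
    ∃ u : (ZMod (m * q))ˣ, ZMod.unitsMap (Dvd.intro q rfl : m ∣ m * q) u = 1 ∧
      ∀ x : (ZMod q)ˣ, ∃ i : ℕ, ZMod.unitsMap (dvd_mq m q) u ^ i * x ∈ H := by
  obtain ⟨g, hg⟩ := IsCyclic.exists_generator (α := (ZMod q)ˣ)
  obtain ⟨v, hv⟩ := (ZMod.unitsMap_surjective (dvd_mq m q)) g
  have e := (ZMod.chineseRemainder hmq)
  -- the unit `(1, g)`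
  let w : (ZMod m × ZMod q)ˣ := MulEquiv.prodUnits.symm (1, g)
  let u : (ZMod (m * q))ˣ := Units.map (e.symm : ZMod m × ZMod q →* ZMod (m * q)) w
  have hfst : ∀ x : ZMod m × ZMod q, ZMod.castHom (Dvd.intro q rfl : m ∣ m * q) (ZMod m)
      (e.symm x) = x.1 := by
    intro x
    have h1 : (ZMod.castHom (Dvd.intro q rfl : m ∣ m * q) (ZMod m)) =
        (RingHom.fst (ZMod m) (ZMod q)).comp (e : ZMod (m * q) →+* ZMod m × ZMod q) :=
      Subsingleton.elim _ _
    rw [h1]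
    simp
  have hsnd : ∀ x : ZMod m × ZMod q, ZMod.castHom (dvd_mq m q) (ZMod q)
      (e.symm x) = x.2 := by
    intro x
    have h1 : (ZMod.castHom (dvd_mq m q) (ZMod q)) =
        (RingHom.snd (ZMod m) (ZMod q)).comp (e : ZMod (m * q) →+* ZMod m × ZMod q) :=
      Subsingleton.elim _ _
    rw [h1]
    simp
  refine ⟨u, ?_, ?_⟩
  · apply Units.ext
    exact hfst _
  · have h1 : ZMod.unitsMap (dvd_mq m q) u = g := by
      apply Units.ext
      exact hsnd _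
    intro x
    obtain ⟨i, hi⟩ := mem_powers_iff_mem_zpowers.mpr (hg x⁻¹)
    refine ⟨i, ?_⟩
    rw [h1]
    change g ^ i = x⁻¹ at hi
    rw [hi, inv_mul_cancel]
    exact one_mem _

end Psi

section Coeff

theorem zmod_smul {n : ℕ} (x : ZMod n) : n • x = 0 := by
  rw [nsmul_eq_mul]
  simp

theorem zmod_inj {n : ℕ} {c : ℤ} (hc : IsCoprime c (n : ℤ)) (x : ZMod n) (hx : c • x = 0) :
    x = 0 := by
  obtain ⟨a, b, hab⟩ := hc
  have h1 : ((a * c + b * n : ℤ)) • x = x := by rw [hab, one_smul]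
  rw [add_smul, mul_smul, mul_smul, hx, smul_zero, zero_add] at h1
  have h2 : (n : ℤ) • x = 0 := by
    rw [zsmul_eq_mul]
    simp
  rw [h2, smul_zero] at h1
  exact h1.symm

end Coeff

section Main

variable {m q : ℕ} [NeZero m] [hq : Fact q.Prime] {H : Subgroup (ZMod q)ˣ} {n : ℕ}
  (hn : H.index = n) (h6 : NoTors m n) {u : (ZMod (m * q))ˣ}
  (hu : ∀ x : (ZMod q)ˣ, ∃ i : ℕ, ZMod.unitsMap (dvd_mq m q) u ^ i * x ∈ H)
  {I : Set ℕ} {a : ℕ → ℤ} {ℓ : ℕ} [hℓ : Fact ℓ.Prime] (hI : ℓ ∈ I)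
  (ha : IsCoprime (a ℓ - 1 - (ℓ : ℤ)) (n : ℤ))

/-- finiteness of `Hom(GD, ℤ/n)` -/
theorem finite_GD [NeZero n] : Finite (Additive (GD m q H) →+ ZMod n) := by
  have : NeZero q := ⟨hq.out.ne_zero⟩
  exact finite_hom _ _

include hn in
theorem neZero_index : NeZero n := by
  have : NeZero q := ⟨hq.out.ne_zero⟩
  exact ⟨by rw [← hn]; exact Subgroup.index_ne_zero_of_finite⟩

include hn in
theorem card_quot [Fintype (Dq q H)] : Fintype.card (Dq q H) = n := by
  rw [← Nat.card_eq_fintype_card, Dq.card, hn]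

include hn hu h6 hI ha in
/-- **(N1)** for `GD m q H`. -/
theorem GD_N1 (hℓM : ¬ ℓ ∣ m * q) {x : Additive (GD m q H) →+ ZMod n}
    (hx : x ∈ genEig (m * q) (GD m q H) (ZMod n) I a)
    (hδ : dd (m * q) (GD m q H) (ZMod n) u x = x) :
    ∃ y ∈ genEig (m * q) (GD m q H) (ZMod n) I a,
      x = nmG (m * q) (GD m q H) (ZMod n) u n y := by
  classical
  have : NeZero q := ⟨hq.out.ne_zero⟩
  have := neZero_index hn
  have : Finite (Additive (GD m q H) →+ ZMod n) := finite_GD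
  let _ : Fintype (Dq q H) := Fintype.ofFinite _
  have hc := card_quot hn
  have h1 := N1 (isKer_GD m q H) (psiGD_gen hu) (fun x => by rw [hc]; simp) ((h6.mul_right q).torOK zmod_smul) hℓM hI
    (zmod_inj ha) (psiGD_neg_one (hn ▸ h6.odd)) hx hδ
  rwa [hc] at h1

include hn hu h6 hI ha in
/-- **(N2)** for `GD m q H`. -/
theorem GD_N2 (hℓM : ¬ ℓ ∣ m * q) {x : Additive (GD m q H) →+ ZMod n}
    (hx : x ∈ genEig (m * q) (GD m q H) (ZMod n) I a)
    (hN : nmG (m * q) (GD m q H) (ZMod n) u n x = 0) :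
    ∃ y ∈ genEig (m * q) (GD m q H) (ZMod n) I a,
      x = dd (m * q) (GD m q H) (ZMod n) u y - y := by
  classical
  have : NeZero q := ⟨hq.out.ne_zero⟩
  have := neZero_index hn
  have : Finite (Additive (GD m q H) →+ ZMod n) := finite_GD
  let _ : Fintype (Dq q H) := Fintype.ofFinite _
  have hc := card_quot hn
  refine N2 (isKer_GD m q H) (psiGD_gen hu) (fun x => by rw [hc]; simp) ((h6.mul_right q).torOK zmod_smul) hℓM hI
    (zmod_inj ha) (psiGD_neg_one (hn ▸ h6.odd)) hx ?_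
  rwa [hc]

include hn hu h6 hI ha in
/-- **(N0)** for `GD m q H`. -/
theorem GD_exists_resG (hℓM : ¬ ℓ ∣ m * q) {x : Additive (GD m q H) →+ ZMod n}
    (hx : x ∈ genEig (m * q) (GD m q H) (ZMod n) I a)
    (hδ : dd (m * q) (GD m q H) (ZMod n) u x = x) :
    ∃ y ∈ genEig (m * q) (Gamma0 (m * q)) (ZMod n) I a, resG (GD m q H) y = x := by
  classical
  have : NeZero q := ⟨hq.out.ne_zero⟩
  have := neZero_index hn
  have : Finite (Additive (GD m q H) →+ ZMod n) := finite_GD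
  let _ : Fintype (Dq q H) := Fintype.ofFinite _
  have hc := card_quot hn
  exact exists_resG (isKer_GD m q H) (psiGD_gen hu) (fun x => by rw [hc]; simp) ((h6.mul_right q).torOK zmod_smul) hℓM
    hI (zmod_inj ha) (psiGD_neg_one (hn ▸ h6.odd)) hx hδ

include hu hI ha in
/-- **(N0)**, injectivity. -/
theorem GD_resG_inj (hℓM : ¬ ℓ ∣ m * q) {x : Additive (Gamma0 (m * q)) →+ ZMod n}
    (hx : x ∈ genEig (m * q) (Gamma0 (m * q)) (ZMod n) I a) (h0 : resG (GD m q H) x = 0) :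
    x = 0 :=
  resG_inj (isKer_GD m q H) hℓM hI (zmod_inj ha)
    (fun d => by obtain ⟨i, hi⟩ := psiGD_gen hu d; exact ⟨u ^ i, by rw [map_pow, hi]⟩) hx h0

include hI ha in
/-- **(PAR)** for any `Γ₁(M) ≤ Γ ≤ Γ₀(M)`. -/
theorem parabolic_zmod (hodd : Odd n) {M : ℕ} [NeZero M] [NeZero n] {Γ : Subgroup SL(2, ℤ)} [hΓ : Between M Γ]
    (hℓM : (ℓ : ZMod M) = 1) {x : Additive Γ →+ ZMod n} (hx : x ∈ genEig M Γ (ZMod n) I a) :
    IsParabolicHom Γ x := by
  have := finiteIndex_of_between M Γ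
  have : Finite (Additive Γ →+ ZMod n) := finite_hom Γ (ZMod n)
  exact parabolic_of_genEig (two_of_odd hodd zmod_smul) hI hℓM (zmod_inj ha) hx

end Main

end Fermat.Agent.Ribet
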