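import Fermat.Agent.Ribet.GD
import Fermat.Agent.X1Char.GalX

/-!
# The Atkin–Lehner operator on functions with character
-/

set_option autoImplicit false

open UpperHalfPlane hiding I
open ModularForm Matrix.SpecialLinearGroup Filter Asymptotics CongruenceSubgroup
open scoped MatrixGroups Manifold ModularForm Polynomial Topology

noncomputable section

namespace Fermat.Agent.Ribet

open Fermat.Agent.JLevelOne Fermat.Agent.X0Emb Fermat.Agent.ModFun ModularCurve Fermat.Agent.FG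
open Fermat.Agent.EisChar Fermat.Agent.S28aux Fermat.Agent.IntStruct Fermat.Agent.HeckePar
open Fermat.Agent.X1 Fermat.Agent.X1Char

variable {m q : ℕ} [NeZero q] (D : WD m q)

namespace WD

/-- The action of `W` on the upper half plane. -/
def act (τ : ℍ) : ℍ := D.A • aff q 0 1 τ

theorem glW_eq : D.glW = mapGL ℝ D.A * hrep q none := by
  rw [← Units.val_inj, Units.val_mul, val_glW, val_mapGL, val_hrep (NeZero.ne q),
    ← map_intCast_mul, intRep_none, ← D.W_eq]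

theorem glW_smul (τ : ℍ) : D.glW • τ = D.act τ := by
  rw [glW_eq, mul_smul, hrep_none_smul]
  rfl

theorem act_surjective : Function.Surjective D.act := by
  intro τ
  refine ⟨D.glW⁻¹ • τ, ?_⟩
  rw [← glW_smul, smul_inv_smul]

/-- An identity of matrices gives an identity of maps. -/
theorem act_smul {g c : SL(2, ℤ)} (h : D.W * (g : Matrix (Fin 2) (Fin 2) ℤ) =
    (c : Matrix (Fin 2) (Fin 2) ℤ) * D.W) (τ : ℍ) : D.act (g • τ) = c • D.act τ := by
  have h1 : D.glW * mapGL ℝ g = mapGL ℝ c * D.glW := by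
    rw [← Units.val_inj, Units.val_mul, Units.val_mul, val_glW, val_mapGL, val_mapGL,
      ← map_intCast_mul, ← map_intCast_mul, h]
  have h2 : (D.glW * mapGL ℝ g) • τ = (mapGL ℝ c * D.glW) • τ := by rw [h1]
  rw [mul_smul, mul_smul] at h2
  have h3 : D.glW • (mapGL ℝ g • τ) = D.act (g • τ) := D.glW_smul _
  have h4 : mapGL ℝ c • (D.glW • τ) = c • D.act τ := by rw [D.glW_smul]; rfl
  rw [← h3, h2, h4]

/-! ### The square of `W` -/

/-- the matrix `W ^ 2 / q` -/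
def sqMat : SL(2, ℤ) :=
  ⟨!![(q : ℤ) ^ 3 - m * D.c, -(q + D.e); m * q * D.c * (q + D.e), q * D.e ^ 2 - m * D.c], by
    rw [Matrix.det_fin_two_of]
    have h := D.rel
    linear_combination ((q : ℤ) ^ 2 * D.e + m * D.c + 1) * h⟩

omit [NeZero q] in
theorem W_mul_W : D.W * D.W = (q : ℤ) • (D.sqMat : Matrix (Fin 2) (Fin 2) ℤ) := by
  rw [W, sqMat]
  ext i j
  fin_cases i <;> fin_cases j <;> simp [Matrix.mul_apply, Fin.sum_univ_two] <;> ring

omit [NeZero q] in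
theorem sqMat_mem : D.sqMat ∈ Gamma0 (m * q) := by
  rw [Gamma0_mem]
  have : D.sqMat 1 0 = m * q * D.c * (q + D.e) := rfl
  rw [this, ZMod.intCast_zmod_eq_zero_iff_dvd]
  push_cast
  exact ⟨D.c * (q + D.e), by ring⟩

omit [NeZero q] in
theorem sqMat_11 : ((D.sqMat 1 1 : ℤ) : ZMod q) = -1 := by
  have : D.sqMat 1 1 = q * D.e ^ 2 - m * D.c := rfl
  rw [this]
  have h := congrArg (Int.cast : ℤ → ZMod q) D.rel
  push_cast at h ⊢
  rw [ZMod.natCast_self] at h ⊢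
  linear_combination -h

theorem act_act (τ : ℍ) : D.act (D.act τ) = D.sqMat • τ := by
  ext
  have e1 : ((D.act (D.act τ) : ℍ) : ℂ) = ((D.glW * D.glW) • τ : ℍ) := by
    rw [mul_smul, D.glW_smul, D.glW_smul]
  have hqR : (q : ℝ) ≠ 0 := by exact_mod_cast NeZero.ne q
  have hq : (0 : ℝ) < q := by exact_mod_cast Nat.pos_of_ne_zero (NeZero.ne q)
  have hval : ((D.glW * D.glW : GL (Fin 2) ℝ) : Matrix (Fin 2) (Fin 2) ℝ) =
      (q : ℝ) • ((D.sqMat : Matrix (Fin 2) (Fin 2) ℤ).map (Int.cast) : Matrix (Fin 2) (Fin 2) ℝ) := by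
    rw [Units.val_mul, val_glW, ← map_intCast_mul, W_mul_W]
    ext i j
    rw [Matrix.map_apply, Matrix.smul_apply, Matrix.smul_apply, Matrix.map_apply, smul_eq_mul,
      smul_eq_mul]
    push_cast
    rfl
  have hdet : (0 : ℝ) < (D.glW * D.glW : GL (Fin 2) ℝ).det.val := by
    rw [Matrix.GeneralLinearGroup.val_det_apply, hval, Matrix.det_smul]
    have : ((D.sqMat : Matrix (Fin 2) (Fin 2) ℤ).map (Int.cast) : Matrix (Fin 2) (Fin 2) ℝ).det =
        1 := by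
      have h1 := D.sqMat.det_coe
      rw [Matrix.det_fin_two] at h1 ⊢
      simp only [Matrix.map_apply]
      exact_mod_cast h1
    rw [this]
    simp only [Fintype.card_fin, mul_one]
    positivity
  rw [e1, UpperHalfPlane.coe_smul_of_det_pos hdet, coe_sl_smul]
  simp only [num, denom, hval]
  simp only [Matrix.smul_apply, Matrix.map_apply, smul_eq_mul]
  push_cast
  have hqC : (q : ℂ) ≠ 0 := by exact_mod_cast NeZero.ne q
  have e2 : ((q : ℂ) * (D.sqMat 0 0 : ℂ) * τ + q * (D.sqMat 0 1 : ℂ)) =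
      q * ((D.sqMat 0 0 : ℂ) * τ + (D.sqMat 0 1 : ℂ)) := by ring
  have e3 : ((q : ℂ) * (D.sqMat 1 0 : ℂ) * τ + q * (D.sqMat 1 1 : ℂ)) =
      q * ((D.sqMat 1 0 : ℂ) * τ + (D.sqMat 1 1 : ℂ)) := by ring
  rw [e2, e3, mul_div_mul_left _ _ hqC]

/-! ### Characters -/

section Char

variable (Γ : Subgroup SL(2, ℤ)) [hW : WNorm D Γ]

/-- The operator on characters. -/
def wChar : (Γ →* ℂˣ) →* (Γ →* ℂˣ) where
  toFun χ := (D.wSys Γ).transfer χ
  map_one' := CosetSys.transfer_one _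
  map_mul' χ ψ := CosetSys.transfer_mul _ χ ψ

variable {Γ}

/-- The conjugate of an element. -/
def cjG (γ : Γ) : Γ := (D.wSys Γ).coc γ ()

theorem cjG_spec (γ : Γ) : D.W * ((γ : SL(2, ℤ)) : Matrix (Fin 2) (Fin 2) ℤ) =
    ((D.cjG γ : SL(2, ℤ)) : Matrix (Fin 2) (Fin 2) ℤ) * D.W :=
  (D.glW_mul_iff Γ _ _).mp ((D.wSys Γ).spec γ ())

theorem W_right_cancel {A B : Matrix (Fin 2) (Fin 2) ℤ} (h : A * D.W = B * D.W) : A = B := by
  have h1 := congrArg (fun X => X * D.W.adjugate) h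
  simp only [mul_assoc, Matrix.mul_adjugate, D.det_W, Matrix.mul_smul, Matrix.mul_one] at h1
  exact smul_right_injective _ (by exact_mod_cast NeZero.ne q : (q : ℤ) ≠ 0) h1

theorem cjG_eq {γ c : Γ} (h : D.W * ((γ : SL(2, ℤ)) : Matrix (Fin 2) (Fin 2) ℤ) =
    ((c : SL(2, ℤ)) : Matrix (Fin 2) (Fin 2) ℤ) * D.W) : D.cjG γ = c := by
  rw [D.cjG_spec γ] at h
  exact Subtype.ext (Subtype.ext (D.W_right_cancel h))

theorem wChar_apply (χ : Γ →* ℂˣ) (γ : Γ) : D.wChar Γ χ γ = χ (D.cjG γ) := by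
  show (D.wSys Γ).transfer χ γ = _
  rw [CosetSys.transfer_apply, Finset.univ_unique, Finset.prod_singleton]
  rfl

theorem act_smulG (γ : Γ) (τ : ℍ) :
    D.act ((γ : SL(2, ℤ)) • τ) = ((D.cjG γ : Γ) : SL(2, ℤ)) • D.act τ :=
  D.act_smul (D.cjG_spec γ) τ

theorem w_char {χ : Γ →* ℂˣ} {F : ℍ → ℂ}
    (hF : ∀ (γ : Γ) (τ : ℍ), F ((γ : SL(2, ℤ)) • τ) = (χ γ : ℂ) * F τ) (γ : Γ) (τ : ℍ) :
    F (D.act ((γ : SL(2, ℤ)) • τ)) = ((D.wChar Γ χ γ : ℂˣ) : ℂ) * F (D.act τ) := by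
  rw [D.act_smulG, hF, D.wChar_apply]

/-- `w` is an involution on characters, up to conjugation by `sqMat`. -/
theorem wChar_wChar (χ : Γ →* ℂˣ) (hs : D.sqMat ∈ Γ) : D.wChar Γ (D.wChar Γ χ) = χ := by
  ext γ
  rw [wChar_apply, wChar_apply]
  have h : D.cjG (D.cjG γ) = ⟨D.sqMat, hs⟩ * γ * ⟨D.sqMat, hs⟩⁻¹ := by
    have h1 := D.cjG_spec γ
    have h2 := D.cjG_spec (D.cjG γ)
    have h3 : ((D.cjG (D.cjG γ) : SL(2, ℤ)) : Matrix (Fin 2) (Fin 2) ℤ) * (D.W * D.W) =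
        (D.W * D.W) * ((γ : SL(2, ℤ)) : Matrix (Fin 2) (Fin 2) ℤ) := by
      rw [← mul_assoc, ← h2, mul_assoc, ← h1, mul_assoc]
    rw [D.W_mul_W, Matrix.mul_smul, Matrix.smul_mul] at h3
    have h4 := smul_right_injective _ (by exact_mod_cast NeZero.ne q : (q : ℤ) ≠ 0) h3
    apply Subtype.ext
    rw [Subgroup.coe_mul, Subgroup.coe_mul, Subgroup.coe_inv]
    rw [eq_mul_inv_iff_mul_eq]
    apply Subtype.ext
    rw [Matrix.SpecialLinearGroup.coe_mul, Matrix.SpecialLinearGroup.coe_mul]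
    exact h4
  rw [h, map_mul, map_mul, map_inv, mul_inv_cancel_comm]

theorem mdiff_act {F : ℍ → ℂ} (hF : MDiff F) : MDiff (fun τ => F (D.act τ)) :=
  mdiff_comp_aff (mdiff_comp_smul hF D.A) q 0 1

theorem growth_act {F : ℍ → ℂ} (hF : ModGrowth F) : ModGrowth (fun τ => F (D.act τ)) :=
  (smul_growth hF D.A).comp_aff q 0 1

end Char

end WD

end Fermat.Agent.Ribet
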