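import Fermat.Agent.TwHecke.Main
import Fermat.Agent.TwHecke.Semi
import Fermat.Agent.TwHecke.Par
import Fermat.Agent.Ribet.R3GD
import Fermat.Agent.Ribet.Wq

/-!
# `U_q = - w_q` on the `q`-new part
-/

set_option autoImplicit false

noncomputable section

namespace Fermat.Agent.Ribet

open scoped BigOperators MatrixGroups
open HeckePar X1 CongruenceSubgroup TwHecke

section Gamma0

variable {M : ℕ} {A : Type*} [AddCommGroup A]

/-- At level `Γ₀(M)` the operator `TT` is the usual one. -/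
theorem TT_gamma0 (ℓ : ℕ) [hℓ : Fact ℓ.Prime] (φ : Additive (Gamma0 M) →+ A) :
    TT M (Gamma0 M) A ℓ φ = (heckeSys M ℓ).addTransfer φ := by
  refine CosetSys.addTransfer_eq_of_equiv ((hSys M ℓ).sys (Gamma0 M)) (heckeSys M ℓ)
    (Equiv.refl _) (fun x => ⟨heckeFac M ℓ x.1, heckeFac_mem M ℓ x.1⟩) (fun x => ?_) φ
  rw [← Units.val_inj, Units.val_mul, IntSys.sys_rep, IntSys.val_glRep, heckeSys_rep]
  change (heckeMat M ℓ x.1).map _ = _
  rw [heckeMat_eq, val_hrep hℓ.out.ne_zero, iotaG_apply, val_mapGL, ← map_intCast_mul]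
  rfl

end Gamma0

section Wq

variable {m q : ℕ} (hq : q.Prime) (hm : ¬ q ∣ m) {A : Type*} [AddCommGroup A]

/-- the Atkin–Lehner operator on homomorphisms -/
def wHomA : (Additive (Gamma0 (m * q)) →+ A) →+ (Additive (Gamma0 (m * q)) →+ A) where
  toFun x := x.comp (MonoidHom.toAdditive (wHom hq hm))
  map_zero' := rfl
  map_add' _ _ := rfl

theorem wHomA_apply (x : Additive (Gamma0 (m * q)) →+ A) (g : Gamma0 (m * q)) :
    wHomA hq hm x (Additive.ofMul g) = x (Additive.ofMul (wHom hq hm g)) := rfl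

theorem infl_one {M M' : ℕ} (h : M ∣ M') : infl h (1 : (ZMod M)ˣ →* ℤˣ) = 1 := by
  ext x
  rfl

variable (m q A) in
/-- `H¹(Γ₀(m q), A) = Hom(Γ₀(m q), A)` -/
def eqvMQ : HM (m * q) (infl (dvd_mul_right m q) (1 : (ZMod m)ˣ →* ℤˣ)) A ≃ₗ[ℤ]
    (Additive (Gamma0 (m * q)) →+ A) := HM.equivHom (infl_one (dvd_mul_right m q))

variable (m A) in
/-- `H¹(Γ₀(m), A) = Hom(Γ₀(m), A)` -/
def eqvM : HM m (1 : (ZMod m)ˣ →* ℤˣ) A ≃ₗ[ℤ] (Additive (Gamma0 m) →+ A) := HM.equivHom rfl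

theorem eqvMQ_mk (c : ZM (m * q) (infl (dvd_mul_right m q) (1 : (ZMod m)ˣ →* ℤˣ)) A)
    (g : Gamma0 (m * q)) : eqvMQ m q A (H1.mk c) (Additive.ofMul g) = c g := rfl

theorem eqvMQ_wq (x : HM (m * q) (infl (dvd_mul_right m q) (1 : (ZMod m)ˣ →* ℤˣ)) A) :
    eqvMQ m q A (TwHecke.wq hq hm 1 A x) = wHomA hq hm (eqvMQ m q A x) := by
  induction x using H1.ind with
  | h c =>
  refine AddMonoidHom.ext fun g => ?_
  obtain ⟨g, rfl⟩ := Additive.ofMul.surjective g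
  have h1 : TwHecke.wq hq hm (1 : (ZMod m)ˣ →* ℤˣ) A (H1.mk c) =
    H1.mk ((wCorr hq hm).Ztr A (w_isWeight hq hm 1 (wt 1 (unitOf m q))) c) := rfl
  rw [h1, eqvMQ_mk, wHomA_apply, eqvMQ_mk]
  have h2 : (wCorr hq hm).Ztr A (w_isWeight hq hm 1 (wt 1 (unitOf m q))) c g =
      wt (1 : (ZMod m)ˣ →* ℤˣ) (unitOf m q) • c (wHom hq hm g) := by
    simp [Corr.Ztr_apply, wCorr, Corr.ofHom]
  refine h2.trans ?_
  have h3 : wt (1 : (ZMod m)ˣ →* ℤˣ) (unitOf m q) = (1 : ℤ) := by simp [wt]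
  rw [h3, one_smul]

theorem eqvMQ_TT (ℓ : ℕ) [Fact ℓ.Prime]
    (x : HM (m * q) (infl (dvd_mul_right m q) (1 : (ZMod m)ˣ →* ℤˣ)) A) :
    eqvMQ m q A (heckeH (m * q) ℓ _ A x) = TT (m * q) (Gamma0 (m * q)) A ℓ (eqvMQ m q A x) := by
  rw [TT_gamma0]
  exact HM.equivHom_heckeH _ ℓ x

theorem eqvM_TT (ℓ : ℕ) [Fact ℓ.Prime] (x : HM m (1 : (ZMod m)ˣ →* ℤˣ) A) :
    eqvM m A (heckeH m ℓ _ A x) = TT m (Gamma0 m) A ℓ (eqvM m A x) := by
  rw [TT_gamma0]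
  exact HM.equivHom_heckeH _ ℓ x

variable [NeZero q]

variable (A) in
/-- the second trace on homomorphisms -/
def trBA : (Additive (Gamma0 (m * q)) →+ A) →+ (Additive (Gamma0 m) →+ A) :=
  ((eqvM m A).toAddMonoidHom.comp (trB (1 : (ZMod m)ˣ →* ℤˣ) A hq hm).toAddMonoidHom).comp
    (eqvMQ m q A).symm.toAddMonoidHom

theorem trBA_eqvMQ (x : HM (m * q) (infl (dvd_mul_right m q) (1 : (ZMod m)ˣ →* ℤˣ)) A) :
    trBA hq hm A (eqvMQ m q A x) = eqvM m A (trB 1 A hq hm x) := by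
  change (eqvM m A) (trB 1 A hq hm ((eqvMQ m q A).symm (eqvMQ m q A x))) = _
  rw [LinearEquiv.symm_apply_apply]

theorem trBA_TT {ℓ : ℕ} [Fact ℓ.Prime] (hℓ : ℓ ≠ q) (x : Additive (Gamma0 (m * q)) →+ A) :
    trBA hq hm A (TT (m * q) (Gamma0 (m * q)) A ℓ x) = TT m (Gamma0 m) A ℓ (trBA hq hm A x) := by
  obtain ⟨x, rfl⟩ := (eqvMQ m q A).surjective x
  rw [← eqvMQ_TT, trBA_eqvMQ, trBA_eqvMQ, ← eqvM_TT, trB_heckeH _ hq hm hℓ]

theorem trBA_mem {I J : Set ℕ} {a : ℕ → ℤ} (hJ : ∀ ℓ ∈ J, ℓ ∈ I ∧ ℓ ≠ q)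
    {x : Additive (Gamma0 (m * q)) →+ A} (hx : x ∈ genEig (m * q) (Gamma0 (m * q)) A I a) :
    trBA hq hm A x ∈ genEig m (Gamma0 m) A J a := by
  rw [mem_genEig] at hx ⊢
  intro ℓ _ hℓ
  obtain ⟨k, hk⟩ := hx ℓ (hJ ℓ hℓ).1
  refine ⟨k, ?_⟩
  set f : (Additive (Gamma0 (m * q)) →+ A) →+ (Additive (Gamma0 (m * q)) →+ A) :=
    TT (m * q) (Gamma0 (m * q)) A ℓ - a ℓ • AddMonoidHom.id _ with hf
  set f' : (Additive (Gamma0 m) →+ A) →+ (Additive (Gamma0 m) →+ A) :=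
    TT m (Gamma0 m) A ℓ - a ℓ • AddMonoidHom.id _ with hf'
  have h1 : Function.Semiconj (trBA hq hm A) f f' := by
    intro y
    rw [hf, hf', AddMonoidHom.sub_apply, AddMonoidHom.sub_apply, AddMonoidHom.smul_apply,
      AddMonoidHom.smul_apply, AddMonoidHom.id_apply, AddMonoidHom.id_apply, map_sub, map_zsmul,
      trBA_TT hq hm (hJ ℓ hℓ).2]
  rw [← (h1.iterate_right k) x, hk, map_zero]

/-- **`U_q = - w_q` on the `q`-new part.** -/
theorem TT_q_eq_neg [Fact q.Prime] {I J : Set ℕ} {a : ℕ → ℤ} (hJ : ∀ ℓ ∈ J, ℓ ∈ I ∧ ℓ ≠ q)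
    (hnew : ∀ y ∈ genEig m (Gamma0 m) A J a, y = 0)
    {x : Additive (Gamma0 (m * q)) →+ A} (hx : x ∈ genEig (m * q) (Gamma0 (m * q)) A I a) :
    TT (m * q) (Gamma0 (m * q)) A q x = - wHomA hq hm x := by
  have h1 := hnew _ (trBA_mem hq hm hJ hx)
  obtain ⟨x, rfl⟩ := (eqvMQ m q A).surjective x
  rw [trBA_eqvMQ] at h1
  have h2 : trB 1 A hq hm x = 0 := (eqvM m A).injective (h1.trans (map_zero _).symm)
  rw [← eqvMQ_TT, heckeU_eq_neg_wq 1 hq hm h2, map_neg, eqvMQ_wq]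

end Wq

/-! ### Comparison of the Atkin–Lehner matrices -/

section Compare

variable {m q : ℕ} (hq : q.Prime) (hm : ¬ q ∣ m) [NeZero q] (D : WD m q)

omit [NeZero q] in
/-- the matrix `W_D W⁻¹` -/
def wCmp : SL(2, ℤ) :=
  ⟨!![(q : ℤ) ^ 2 * wd hq hm + m, -((q : ℤ) * wb hq hm) - 1;
      m * q * (D.c * wd hq hm - D.e), -(m * D.c * wb hq hm) + q * D.e], by
    rw [Matrix.det_fin_two_of]
    have h1 := D.rel
    have h2 := wbd hq hm
    generalize wb hq hm = b at h2 ⊢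
    generalize wd hq hm = d at h2 ⊢
    linear_combination (q * d - m * b) * h1 + h2⟩

omit [NeZero q] in
theorem wCmp_mem : wCmp hq hm D ∈ Gamma0 (m * q) := by
  rw [Gamma0_mem]
  have : wCmp hq hm D 1 0 = m * q * (D.c * wd hq hm - D.e) := rfl
  rw [this, ZMod.intCast_zmod_eq_zero_iff_dvd]
  push_cast
  exact ⟨_, rfl⟩

omit [NeZero q] in
theorem W_eq_wCmp : D.W = (wCmp hq hm D : Matrix (Fin 2) (Fin 2) ℤ) * wMat hq hm := by
  have h2 := wbd hq hm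
  rw [WD.W, wCmp, wMat]
  ext i j
  fin_cases i <;> fin_cases j <;> simp [Matrix.mul_apply, Fin.sum_univ_two]
  · linear_combination (-(q : ℤ) ^ 2) * h2
  · linear_combination h2
  · linear_combination (-(m * q * D.c)) * h2
  · linear_combination (-(q * D.e)) * h2

theorem cjG_wCmp (g : Gamma0 (m * q)) :
    D.cjG g = ⟨wCmp hq hm D, wCmp_mem hq hm D⟩ * wHom hq hm g * ⟨wCmp hq hm D, wCmp_mem hq hm D⟩⁻¹ := by
  refine D.cjG_eq ?_
  rw [W_eq_wCmp hq hm D, mul_assoc, wHom_spec, ← mul_assoc, ← mul_assoc,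
    ← Matrix.SpecialLinearGroup.coe_mul, ← Matrix.SpecialLinearGroup.coe_mul]
  congr 2
  simp only [Subgroup.coe_mul, Subgroup.coe_inv, inv_mul_cancel_right]

/-- The Atkin–Lehner operator on characters in terms of `wHom`. -/
theorem wChar_eq (χ : Gamma0 (m * q) →* ℂˣ) :
    D.wChar (Gamma0 (m * q)) χ = χ.comp (wHom hq hm) := by
  ext g
  rw [D.wChar_apply, cjG_wCmp hq hm D, map_mul, map_mul, map_inv, mul_inv_cancel_comm]
  rfl

end Compare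

end Fermat.Agent.Ribet

end
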