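import Fermat.Agent.GalRep.JZ9_Map
import Fermat.Agent.QX4.Commute
import Fermat.Agent.Ribet.NewQ
import Fermat.Agent.Ribet.Wq

/-!
# The Atkin–Lehner involution `w_q` on `J₀(m q)` and on integral parabolic homomorphisms
-/

set_option autoImplicit false

open UpperHalfPlane hiding I
open ModularForm CongruenceSubgroup Function
open scoped MatrixGroups Manifold

noncomputable section

namespace Fermat.Agent.Ribet

open ModularCurve ModularCurve.Period AlgebraicCurve IntermediateField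
open Fermat.Agent.GalRep Fermat.Agent.X0Emb Fermat.Agent.ModFun Fermat.Agent.TwHecke
open Fermat.Agent.JLevelOne Fermat.Agent.QX4
open Fermat.Agent.TwoGauss (Dv jd swapD evFun lexp_evFun atkW mk2 jFun_aff_swap FB jdB coe_jdB
  coeffMap_jd wq_jdB FB_eq_adjoin_range)

local notation "𝕂" => AlgebraicClosure ℚ

variable {m q : ℕ}

section Act

variable [NeZero q] (D : WD m q)

/-- The two Atkin–Lehner substitutions differ by an element of `Γ₀(m q)`. -/
theorem act_eq_atkW {x y : ℤ} (h : x * q - y * m = 1) (τ : ℍ) :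
    ∃ γ ∈ Gamma0 (m * q), D.act τ = γ • atkW x y h τ := by
  refine ⟨D.A * (mk2 x y m q h)⁻¹, ?_, ?_⟩
  · rw [Gamma0_mem]
    have h1 : (D.A * (mk2 x y m q h)⁻¹) 1 0 = m * q * (D.c - D.e) := by
      rw [Matrix.SpecialLinearGroup.coe_mul, Matrix.SpecialLinearGroup.coe_inv, mk2,
        Matrix.adjugate_fin_two_of, WD.A]
      simp [Matrix.mul_apply, Fin.sum_univ_two]
      ring
    rw [h1, ZMod.intCast_zmod_eq_zero_iff_dvd]
    push_cast
    exact dvd_mul_right _ _
  · rw [WD.act, atkW, ← mul_smul, inv_mul_cancel_right]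

end Act

section Poly

variable [NeZero (m * q)]

theorem coeffMap_aeval_jd (ι : 𝕂 →+* ℂ) (σ : Dv (m * q) → Dv (m * q))
    (P : MvPolynomial (Dv (m * q)) 𝕂) :
    coeffMap ι (MvPolynomial.aeval (fun d : Dv (m * q) => jd 𝕂 (σ d).1) P) =
      MvPolynomial.aeval (fun d : Dv (m * q) => jd ℂ (σ d).1) (MvPolynomial.map ι P) := by
  induction P using MvPolynomial.induction_on with
  | C a =>
    simp only [MvPolynomial.map_C, MvPolynomial.aeval_C]
    rw [algebraMap_laurentSeries_eq_single, algebraMap_laurentSeries_eq_single, coeffMap_single]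
  | add P Q hP hQ => simp only [map_add, hP, hQ]
  | mul_X P d hP =>
    simp only [map_mul, hP, MvPolynomial.aeval_X, MvPolynomial.map_X]
    rw [coeffMap_jd]

theorem coe_aeval_jdB (σ : Dv (m * q) → Dv (m * q)) (P : MvPolynomial (Dv (m * q)) 𝕂) :
    ((MvPolynomial.aeval (fun d : Dv (m * q) => jdB 𝕂 (m * q) (σ d)) P :
      modularFunctionFieldBar (m * q)) : LaurentSeries 𝕂) =
      MvPolynomial.aeval (fun d : Dv (m * q) => jd 𝕂 (σ d).1) P := by
  have : ((modularFunctionFieldBar (m * q)).val.comp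
      (MvPolynomial.aeval (fun d : Dv (m * q) => jdB 𝕂 (m * q) (σ d)))) =
      MvPolynomial.aeval (fun d : Dv (m * q) => jd 𝕂 (σ d).1) := by
    ext i; simp
  exact DFunLike.congr_fun this P

theorem wq_aeval (hq : q.Prime) (hm : ¬ q ∣ m) (P : MvPolynomial (Dv (m * q)) 𝕂) :
    TwoGauss.wq hq hm (MvPolynomial.aeval (fun d : Dv (m * q) => jdB 𝕂 (m * q) d) P) =
      MvPolynomial.aeval (fun d : Dv (m * q) => jdB 𝕂 (m * q) (swapD q m hq hm d)) P := by
  have : ((TwoGauss.wq hq hm : modularFunctionFieldBar (m * q) →ₐ[𝕂]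
      modularFunctionFieldBar (m * q)).comp
      (MvPolynomial.aeval (fun d : Dv (m * q) => jdB 𝕂 (m * q) d))) =
      MvPolynomial.aeval (fun d : Dv (m * q) => jdB 𝕂 (m * q) (swapD q m hq hm d)) := by
    ext i
    simp [wq_jdB]
  exact DFunLike.congr_fun this P

/-- Elements of the function field are fractions of polynomials in the `j (q ^ d)`. -/
theorem exists_frac (h : modularFunctionFieldBar (m * q)) :
    ∃ P Q : MvPolynomial (Dv (m * q)) 𝕂,
      (MvPolynomial.aeval (fun d : Dv (m * q) => jdB 𝕂 (m * q) d) Q :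
        modularFunctionFieldBar (m * q)) ≠ 0 ∧
      h * MvPolynomial.aeval (fun d : Dv (m * q) => jdB 𝕂 (m * q) d) Q =
        MvPolynomial.aeval (fun d : Dv (m * q) => jdB 𝕂 (m * q) d) P := by
  have h1 : (h : LaurentSeries 𝕂) ∈ adjoin 𝕂 (Set.range (fun d : Dv (m * q) => jd 𝕂 d.1)) := by
    rw [← FB_eq_adjoin_range]
    exact h.2
  rw [IntermediateField.mem_adjoin_range_iff] at h1
  obtain ⟨P, Q, hPQ⟩ := h1
  by_cases hQ : (MvPolynomial.aeval (fun d : Dv (m * q) => jd 𝕂 d.1) Q : LaurentSeries 𝕂) = 0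
  · refine ⟨0, 1, by simp, ?_⟩
    rw [hQ, div_zero] at hPQ
    have : h = 0 := Subtype.ext hPQ
    rw [this]
    simp
  · refine ⟨P, Q, fun h0 => hQ ?_, ?_⟩
    · have h2 := coe_aeval_jdB id Q
      simp only [id] at h2
      rw [← h2, h0]
      rfl
    · apply Subtype.ext
      have h2 := coe_aeval_jdB id Q
      have h3 := coe_aeval_jdB id P
      simp only [id] at h2 h3
      rw [MulMemClass.coe_mul, h2, h3, hPQ, div_mul_cancel₀ _ hQ]

end Poly

section Main

variable [NeZero m] [NeZero q]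

/-- **The expansion of `F ∘ W`.** -/
theorem lexp_wq (ι : 𝕂 →+* ℂ) (hq : q.Prime) (hm : ¬ q ∣ m) (D : WD m q)
    {h : modularFunctionFieldBar (m * q)} {F : ℍ → ℂ} (hFm : MDiff F) (hFg : ModGrowth F)
    (hFi : ∀ γ ∈ Gamma0 (m * q), ∀ τ : ℍ, F (γ • τ) = F τ)
    (hF : LExp 1 F (coeffMap ι (h : LaurentSeries 𝕂))) :
    LExp 1 (fun τ => F (D.act τ))
      (coeffMap ι ((TwoGauss.wq hq hm h : modularFunctionFieldBar (m * q)) : LaurentSeries 𝕂)) := by
  obtain ⟨x, y, hxy⟩ := TwoGauss.exists_bezout hq hm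
  have hxy' : x * q - y * m = 1 := by linear_combination hxy
  obtain ⟨P, Q, hQ0, hPQ⟩ := exists_frac h
  -- the identity of functions
  have hP := lexp_evFun (N := m * q) id (MvPolynomial.map ι P)
  have hQ := lexp_evFun (N := m * q) id (MvPolynomial.map ι Q)
  have hP' := lexp_evFun (N := m * q) (swapD q m hq hm) (MvPolynomial.map ι P)
  have hQ' := lexp_evFun (N := m * q) (swapD q m hq hm) (MvPolynomial.map ι Q)
  have eP := coeffMap_aeval_jd ι id P
  have eQ := coeffMap_aeval_jd ι id Q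
  have cP := coe_aeval_jdB id P
  have cQ := coe_aeval_jdB id Q
  rw [← eP, ← cP] at hP
  rw [← eQ, ← cQ] at hQ
  rw [← coeffMap_aeval_jd ι (swapD q m hq hm) P, ← coe_aeval_jdB] at hP'
  rw [← coeffMap_aeval_jd ι (swapD q m hq hm) Q, ← coe_aeval_jdB] at hQ'
  simp only [id] at hP hQ
  have h1 : LExp 1 (F * fun τ => MvPolynomial.aeval (fun d : Dv (m * q) => jFun (aff d.1 0 1 τ))
      (MvPolynomial.map ι Q)) (coeffMap ι ((MvPolynomial.aeval (fun d : Dv (m * q) =>
        jdB 𝕂 (m * q) d) P : modularFunctionFieldBar (m * q)) : LaurentSeries 𝕂)) := by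
    have h2 := hF.mul hQ
    rw [← map_mul, ← MulMemClass.coe_mul, hPQ] at h2
    exact h2
  have h2 := h1.funext hP
  -- substitute
  have h3 : ((fun τ => F (D.act τ)) * fun τ => MvPolynomial.aeval
      (fun d : Dv (m * q) => jFun (aff (swapD q m hq hm d).1 0 1 τ)) (MvPolynomial.map ι Q)) =
      fun τ => MvPolynomial.aeval
      (fun d : Dv (m * q) => jFun (aff (swapD q m hq hm d).1 0 1 τ)) (MvPolynomial.map ι P) := by
    funext τ
    have e : (fun d : Dv (m * q) => jFun (aff (swapD q m hq hm d).1 0 1 τ)) =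
        fun d => jFun (aff d.1 0 1 (atkW x y hxy' τ)) :=
      funext fun d => (jFun_aff_swap hq hm x y hxy' d τ).symm
    have h4 := congrFun h2 (atkW x y hxy' τ)
    obtain ⟨γ, hγ, hact⟩ := act_eq_atkW D hxy' τ
    rw [Pi.mul_apply, e, hact, hFi γ hγ]
    exact h4
  -- the expansion of `F ∘ W`
  have hch : HasChar (m * q) 1 F := ⟨hFm, hFg, fun γ τ => by rw [hFi _ γ.2]; simp⟩
  have hch' : HasChar (m * q) 1 (fun τ => F (D.act τ)) :=
    ⟨D.mdiff_act hFm, D.growth_act hFg, fun γ τ => by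
      rw [D.act_smulG γ τ, hFi _ (D.cjG γ).2]; simp⟩
  obtain ⟨G, hG⟩ := hch'.exists_lexp (fun τ => by
    rw [← TG_smul (m * q) τ]
    have := hch'.smul (TG (m * q)) τ
    simpa using this)
  have h4 := hG.mul hQ'
  rw [h3] at h4
  have h5 := h4.unique one_pos hP'
  have h6 := congrArg (TwoGauss.wq hq hm) hPQ
  rw [map_mul, wq_aeval, wq_aeval] at h6
  rw [← h6, MulMemClass.coe_mul, map_mul] at h5
  have h7 : coeffMap ι ((MvPolynomial.aeval (fun d : Dv (m * q) =>
      jdB 𝕂 (m * q) (swapD q m hq hm d)) Q : modularFunctionFieldBar (m * q)) :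
      LaurentSeries 𝕂) ≠ 0 := by
    rw [← wq_aeval]
    intro h0
    rw [← map_zero (coeffMap ι)] at h0
    have h8 := GalRep.coeffMap_injective ι.injective h0
    have h9 : TwoGauss.wq hq hm (MvPolynomial.aeval (fun d : Dv (m * q) => jdB 𝕂 (m * q) d) Q) = 0 :=
      Subtype.ext h8
    rw [map_eq_zero_iff _ (TwoGauss.wq hq hm).injective] at h9
    exact hQ0 h9
  rw [← mul_right_cancel₀ h7 h5]
  exact hG

/-- The relation between torsion classes and characters is stable under `w_q`. -/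
theorem rel_wJ (ι : 𝕂 →+* ℂ) (hq : q.Prime) (hm : ¬ q ∣ m) {n : ℕ} {x : JZero (m * q)}
    {χ : Gamma0 (m * q) →* ℂˣ} (hx : Rel ι (m * q) n x χ) :
    Rel ι (m * q) n (wJ hq hm x) (χ.comp (wHom hq hm)) := by
  obtain ⟨D⟩ := exists_WD ((Nat.Prime.coprime_iff_not_dvd hq).mpr hm)
  obtain ⟨h, g, h1, h2, h3⟩ := hx
  refine ⟨TwoGauss.wq hq hm h, fun τ => g (D.act τ), ?_, ?_, ?_⟩
  · have := h1.smul (SemilinearAut.ofAlgAut (TwoGauss.wq hq hm))
    rw [SemilinearAut.ofAlgAut_smul] at this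
    exact this
  · refine ⟨D.mdiff_act h2.mdiff, D.growth_act h2.growth, fun γ τ => ?_⟩
    rw [← wChar_eq hq hm D χ]
    exact D.w_char h2.smul γ τ
  · have hgn := h2.pow n
    have hmem : (h : LaurentSeries 𝕂) ∈ modularFunctionFieldFullC 𝕂 (m * q) := by
      have e : modularFunctionFieldBar (m * q) = modularFunctionFieldFullC 𝕂 (m * q) :=
        ModFun.laurentBaseChange_eq 𝕂 (m * q)
      rw [← e]
      exact h.2
    exact lexp_wq ι hq hm D hgn.mdiff hgn.growth
      (fun γ hγ τ => ModFun.inv_of_lexp (m * q) ι hmem hgn.mdiff h3 γ hγ τ) h3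

omit [NeZero m] [NeZero q] in
theorem trace_wHom_wj (hq : q.Prime) (hm : ¬ q ∣ m) (γ : Gamma0 (m * q)) :
    (((wHom hq hm γ : Gamma0 (m * q)) : SL(2, ℤ)) : Matrix (Fin 2) (Fin 2) ℤ).trace =
      ((γ : SL(2, ℤ)) : Matrix (Fin 2) (Fin 2) ℤ).trace := by
  have h1 := wHom_spec hq hm γ
  have h3 : (wMat hq hm * ((γ : SL(2, ℤ)) : Matrix (Fin 2) (Fin 2) ℤ) *
      (wMat hq hm).adjugate).trace = (((wHom hq hm γ : SL(2, ℤ)) : Matrix (Fin 2) (Fin 2) ℤ) *
        wMat hq hm * (wMat hq hm).adjugate).trace := by rw [h1]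
  rw [Matrix.mul_assoc, Matrix.trace_mul_comm, Matrix.mul_assoc, Matrix.mul_assoc,
    Matrix.adjugate_mul, Matrix.mul_adjugate, det_wMat, Matrix.mul_smul, Matrix.mul_smul,
    Matrix.mul_one, Matrix.mul_one, Matrix.trace_smul, Matrix.trace_smul] at h3
  exact (smul_right_injective ℤ (by exact_mod_cast hq.ne_zero : (q : ℤ) ≠ 0) h3).symm

/-- precomposition with `g ↦ W g W⁻¹` on parabolic homomorphisms -/
def wPar (hq : q.Prime) (hm : ¬ q ∣ m) :
    parabolicHoms ℤ (Gamma0 (m * q)) ℤ →+ parabolicHoms ℤ (Gamma0 (m * q)) ℤ where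
  toFun φ := ⟨(φ : Additive (Gamma0 (m * q)) →+ ℤ).comp (MonoidHom.toAdditive (wHom hq hm)), by
    intro γ hγ
    refine φ.2 (wHom hq hm γ) ?_
    have h2 := trace_wHom_wj hq hm γ
    rw [h2]
    exact hγ⟩
  map_zero' := rfl
  map_add' _ _ := rfl

omit [NeZero m] [NeZero q] in
theorem coe_wPar (hq : q.Prime) (hm : ¬ q ∣ m) (φ : parabolicHoms ℤ (Gamma0 (m * q)) ℤ) :
    (wPar hq hm φ : Additive (Gamma0 (m * q)) →+ ℤ) =
      (φ : Additive (Gamma0 (m * q)) →+ ℤ).comp (MonoidHom.toAdditive (wHom hq hm)) := rfl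

omit [NeZero m] [NeZero q] in
theorem wPar_apply (hq : q.Prime) (hm : ¬ q ∣ m) (φ : parabolicHoms ℤ (Gamma0 (m * q)) ℤ)
    (g : Gamma0 (m * q)) :
    (wPar hq hm φ : Additive (Gamma0 (m * q)) →+ ℤ) (Additive.ofMul g) =
      (φ : Additive (Gamma0 (m * q)) →+ ℤ) (Additive.ofMul (wHom hq hm g)) := rfl

omit [NeZero m] [NeZero q] in
theorem charOf_wPar (hq : q.Prime) (hm : ¬ q ∣ m) (n : ℕ)
    (φ : parabolicHoms ℤ (Gamma0 (m * q)) ℤ) :
    charOf n (wPar hq hm φ : Additive (Gamma0 (m * q)) →+ ℤ) =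
      (charOf n (φ : Additive (Gamma0 (m * q)) →+ ℤ)).comp (wHom hq hm) := rfl

/-- **`w_q` on `J₀(m q)` is precomposition with `g ↦ W g W⁻¹`.** -/
theorem wJ_jMap (hq : q.Prime) (hm : ¬ q ∣ m) {n : ℕ} (hn : n ≠ 0)
    (φ : parabolicHoms ℤ (Gamma0 (m * q)) ℤ) :
    wJ hq hm (jMap (m * q) n hn φ) = jMap (m * q) n hn (wPar hq hm φ) := by
  symm
  refine jMap_eq_of_rel hn ?_
  rw [charOf_wPar]
  exact rel_wJ iota hq hm (jMap_rel hn φ)

/-- The relation form for the standard embedding. -/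
theorem wRel' (hq : q.Prime) (hm : ¬ q ∣ m) (n : ℕ) (x : JZero (m * q))
    (χ : Gamma0 (m * q) →* ℂˣ) (_ : n ≠ 0) (_ : χ ^ n = 1) (hx : Rel iota (m * q) n x χ) :
    Rel iota (m * q) n (wJ hq hm x) (χ.comp (wHom hq hm)) := rel_wJ iota hq hm hx

end Main

end Fermat.Agent.Ribet

end
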