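import Fermat.Agent.TwExact.Change
import Fermat.Agent.HeckeRep.Transport
import Fermat.Agent.HeckeRep.LocalAlg
import Fermat.Agent.RT.GroupRing
import Fermat.Agent.TwHecke.Semi

/-!
# Ribet's theorem, road B: the modules

`τ : (ZMod (m q))ˣ →* Δ` (through the `q`-part), `Λ = ℤ_[p][Δ]`,
`MD = H¹(Γ₀(m q), Λ(taut τ ²))_𝔪`, `MN = H¹(Γ₀(m q), ℤ_[p])_𝔪`.
-/

set_option autoImplicit false

noncomputable section

namespace Fermat.Agent.Ribet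

open TwHecke TwExact HeckeRep IsLocalRing

/-- the character through the `q`-component -/
def tauQ (m q : ℕ) {Δ : Type} [CommGroup Δ] (τ0 : (ZMod q)ˣ →* Δ) : (ZMod (m * q))ˣ →* Δ :=
  τ0.comp (ZMod.unitsMap (dvd_mul_left q m))

theorem tauQ_apply (m q : ℕ) {Δ : Type} [CommGroup Δ] (τ0 : (ZMod q)ˣ →* Δ)
    (u : (ZMod (m * q))ˣ) : tauQ m q τ0 u = τ0 (ZMod.unitsMap (dvd_mul_left q m) u) := rfl

/-- level `N`: `H¹(Γ₀(N), ℤ_[p])_𝔪`. -/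
abbrev MN (p : ℕ) [Fact p.Prime] (N : ℕ) (S : Set ℕ) (θ : PIdx S → ResidueField ℤ_[p]) : Type :=
  ↥(Hm N (1 : (ZMod N)ˣ →* ℤ_[p]ˣ) ℤ_[p] S θ)

section MD

variable (p : ℕ) [Fact p.Prime] (N : ℕ) {Δ : Type} [CommGroup Δ] (τ : (ZMod N)ˣ →* Δ)
  [IsLocalRing (MonoidAlgebra ℤ_[p] Δ)] [IsLocalHom (algebraMap ℤ_[p] (MonoidAlgebra ℤ_[p] Δ))]
  (S : Set ℕ) (θ : PIdx S → ResidueField ℤ_[p])

/-- the family: `H¹(Γ₀(N), ℤ_[p][Δ](taut τ ²))_𝔪`. -/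
abbrev MD : Type :=
  ↥(Hm N (taut ℤ_[p] τ ^ 2) (MonoidAlgebra ℤ_[p] Δ) S (thMap (MonoidAlgebra ℤ_[p] Δ) θ))

end MD

end Fermat.Agent.Ribet

end
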