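import Fermat.Agent.Ribet.FormsLift
import Fermat.Agent.Ribet.Defs
import Fermat.Agent.S41.HmEig
import Fermat.Agent.S41.ModVec
import Fermat.Agent.RTI.Main

/-!
# Eigenforms and the non-vanishing of `Hm`
-/

set_option autoImplicit false

noncomputable section

open CongruenceSubgroup IsLocalRing
open scoped MatrixGroups

namespace Fermat.Agent.Ribet

open Fermat.Agent.HeckePar Fermat.Agent.TwHecke Fermat.Agent.TwExact Fermat.Agent.S41hm
open Fermat.Agent.S41aux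

/-! ### Integral lifts of homomorphisms modulo `p` -/

section IntLift

variable {N : ℕ} [NeZero N] {p : ℕ} [hp : Fact p.Prime]

theorem isUnit_natCast_padic {n : ℕ} (h : ¬ p ∣ n) : IsUnit ((n : ℕ) : ℤ_[p]) := by
  rw [PadicInt.isUnit_iff, PadicInt.norm_natCast_eq_one_iff]
  exact (Nat.Prime.coprime_iff_not_dvd Fact.out).mpr h

theorem isUnit_two_padic (hp2 : p ≠ 2) : IsUnit (2 : ℤ_[p]) := by
  have := isUnit_natCast_padic (p := p) (n := 2) (fun h =>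
    hp2 ((Nat.prime_dvd_prime_iff_eq Fact.out Nat.prime_two).mp h))
  simpa using this

theorem isUnit_three_padic (hp3 : p ≠ 3) : IsUnit (3 : ℤ_[p]) := by
  have := isUnit_natCast_padic (p := p) (n := 3) (fun h =>
    hp3 ((Nat.prime_dvd_prime_iff_eq Fact.out Nat.prime_three).mp h))
  simpa using this

theorem three_padic (h : p ≠ 3 ∨ ∃ r : ℕ, r.Prime ∧ r ∣ N ∧ r % 3 = 2) :
    IsUnit (3 : ℤ_[p]) ∨ ∀ x : SL(2, ℤ),
      x * (ModularGroup.T * ModularGroup.S) * x⁻¹ ∉ Gamma0 N := by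
  rcases h with h | ⟨r, hr, hrN, h3⟩
  · exact Or.inl (isUnit_three_padic h)
  · exact Or.inr (no_order_three hr hrN h3)

variable (p) in
theorem charP_residueField_padic : CharP (ResidueField ℤ_[p]) p := by
  rw [CharP.charP_iff_prime_eq_zero hp.out, ← map_natCast (residue ℤ_[p]),
    residue_eq_zero_iff]
  exact PadicInt.p_nonunit

/-- Homomorphisms modulo `p` lift to integral ones if there is no torsion obstruction. -/
theorem exists_int_lift (hp2 : p ≠ 2)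
    (h3 : IsUnit (3 : ℤ_[p]) ∨ ∀ x : SL(2, ℤ),
      x * (ModularGroup.T * ModularGroup.S) * x⁻¹ ∉ Gamma0 N)
    (ψ : Additive (Gamma0 N) →+ ZMod p) :
    ∃ y : Additive (Gamma0 N) →+ ℤ, ∀ g, ((y g : ℤ) : ZMod p) = ψ g := by
  have := fg_Gamma0 N
  let _ : Module ℤ_[p] (ZMod p) := Module.compHom _ (PadicInt.toZMod (p := p))
  have hsm : ∀ (r : ℤ_[p]) (x : ZMod p), r • x = PadicInt.toZMod r * x := fun _ _ => rfl
  let f : ℤ_[p] →ₗ[ℤ_[p]] ZMod p :=
    { toFun := PadicInt.toZMod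
      map_add' := map_add _
      map_smul' := fun r x => by rw [smul_eq_mul, map_mul, RingHom.id_apply, hsm] }
  have hf : Function.Surjective f := ZMod.ringHom_surjective _
  have hneg : (-1 : SL(2, ℤ)) ∈ Gamma0 N := by
    rw [Gamma0_mem]
    simp
  let c : Z1 (1 : Gamma0 N →* ℤ_[p]ˣ) (ZMod p) :=
    ⟨fun g => ψ (Additive.ofMul g), fun g h => by
      show ψ (Additive.ofMul (g * h)) = ψ (Additive.ofMul g) + (1 : ℤ_[p]) • ψ (Additive.ofMul h)
      rw [ofMul_mul, map_add, one_smul]⟩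
  obtain ⟨d, hd⟩ := Z1_map_surjective (Γ := Gamma0 N) (ε := 1) hneg rfl (isUnit_two_padic hp2) h3
    f hf c
  let u : Additive (Gamma0 N) →+ ℤ_[p] :=
    { toFun := fun g => d (Additive.toMul g)
      map_zero' := Z1.apply_one d
      map_add' := fun g h => by
        rw [toMul_add, Z1.apply_mul]
        show _ + (1 : ℤ_[p]) • _ = _
        rw [one_smul] }
  have hu : ∀ g, PadicInt.toZMod (u g) = ψ g := fun g => by
    have h1 := congrArg (fun z : Z1 (1 : Gamma0 N →* ℤ_[p]ˣ) (ZMod p) => z (Additive.toMul g)) hd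
    exact h1
  have : IsAddTorsionFree ℤ_[p] := inferInstance
  obtain ⟨n, b, l, hl, -⟩ := exists_decomposition u
  refine ⟨∑ i, ((PadicInt.toZMod (b i)).val : ℤ) • l i, fun g => ?_⟩
  rw [← hu, hl, map_sum, AddMonoidHom.finsetSum_apply]
  push_cast
  refine Finset.sum_congr rfl fun i _ => ?_
  rw [Pi.smul_apply, smul_eq_mul, map_zsmul, zsmul_eq_mul]
  push_cast
  rw [ZMod.natCast_zmod_val, mul_comm]

end IntLift

/-! ### Eigenvectors and `Hm` -/

section Eigen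

variable {R : Type} [CommRing R] [IsLocalRing R] {ι : Type} {θ : ι → ResidueField R}
variable {H : Type} [AddCommGroup H] [Module R H] {T : ι → Module.End R H}

/-- An eigenvector with eigenvalues reducing to `θ` lies in the `𝔪`-part. -/
theorem mem_mpart_of_eigen (hT : ∀ i j, Commute (T i) (T j)) {r : ι → R}
    (hr : ∀ i, residue R (r i) = θ i) {x : H} (h : ∀ i, T i x = r i • x) :
    x ∈ mpart θ T hT := by
  have h1 : ∀ t : MvPolynomial ι R, cev T hT t x = MvPolynomial.eval r t • x := by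
    intro t
    induction t using MvPolynomial.induction_on with
    | C a => rw [cev_C, Module.algebraMap_end_apply, MvPolynomial.eval_C]
    | add s t hs ht => rw [map_add, LinearMap.add_apply, hs, ht, map_add, add_smul]
    | mul_X s i hs =>
      rw [map_mul, Module.End.mul_apply, cev_X, h, map_smul, hs, map_mul, MvPolynomial.eval_X,
        smul_smul, mul_comm]
  have h2 : ∀ t : MvPolynomial ι R, residue R (MvPolynomial.eval r t) = evk θ t := by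
    intro t
    induction t using MvPolynomial.induction_on with
    | C a => rw [MvPolynomial.eval_C, evk_C]
    | add s t hs ht => rw [map_add, map_add, hs, ht, map_add]
    | mul_X s i hs => rw [map_mul, map_mul, hs, map_mul, MvPolynomial.eval_X, evk_X, hr]
  rw [mem_mpart]
  intro t ht
  rw [← h2] at ht
  have h3 : IsUnit (MvPolynomial.eval r t) := by
    by_contra hu
    exact ht ((residue_eq_zero_iff _).mpr ((mem_maximalIdeal _).mpr hu))
  obtain ⟨w, hw⟩ := h3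
  refine ⟨(↑w⁻¹ : R) • x, ?_⟩
  rw [map_smul, h1, smul_smul, ← hw, Units.inv_mul, one_smul]

end Eigen

section Forms

variable {N : ℕ} [NeZero N] {p : ℕ} [hp : Fact p.Prime]
variable {R : Type} [CommRing R] [IsLocalRing R] [IsNoetherianRing R]
  [IsAdicComplete (maximalIdeal R) R] [CharP (ResidueField R) p]
  {ε : (ZMod N)ˣ →* Rˣ} {S : Set ℕ} {θ : PIdx S → ResidueField R} {a : ℕ → ℤ}

omit hp [NeZero N] [IsNoetherianRing R] [IsAdicComplete (maximalIdeal R) R] in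
/-- A class modulo the maximal ideal from an integral eigenvector modulo `p`. -/
theorem exists_Hm_residue (hε : ∀ u, residue R (ε u : R) = 1)
    (hθ : ∀ ℓ : PIdx S, θ ℓ = ((a (ℓ.1 : ℕ) : ℤ) : ResidueField R))
    {ξ : Additive (Gamma0 N) →+ ℤ} (hξ0 : ∃ x, ¬ (p : ℤ) ∣ ξ x)
    (hξ : ∀ (ℓ : ℕ) [Fact ℓ.Prime], ℓ ∉ S → ∀ g,
      (p : ℤ) ∣ (heckeSys N ℓ).addTransfer ξ g - a ℓ * ξ g) :
    ∃ x : Hm N ε (ResidueField R) S θ, x ≠ 0 := by
  set ψ : Additive (Gamma0 N) →+ ResidueField R := (Int.castAddHom _).comp ξ with hψ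
  have hψa : ∀ g, ψ g = ((ξ g : ℤ) : ResidueField R) := fun _ => rfl
  have hc : ∀ ℓ : PIdx S, hop N ε (ResidueField R) S ℓ (H1.mk (ofHom hε ψ)) =
      ((a (ℓ.1 : ℕ) : ℤ) : R) • H1.mk (ofHom hε ψ) := by
    intro ℓ
    have : Fact (ℓ.1 : ℕ).Prime := ⟨ℓ.1.2⟩
    show heckeH N (ℓ.1 : ℕ) ε (ResidueField R) (H1.mk (ofHom hε ψ)) = _
    rw [heckeH_mk, ← H1.mk_smul]
    congr 1
    ext g
    have h1 : heckeZ N (ℓ.1 : ℕ) ε (ResidueField R) (ofHom hε ψ) g =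
        toHom hε (heckeZ N (ℓ.1 : ℕ) ε (ResidueField R) (ofHom hε ψ)) (Additive.ofMul g) := rfl
    have h2 : toHom hε (ofHom hε ψ) = ψ := rfl
    rw [h1, toHom_heckeZ hε, h2, Z1.smul_apply, smul_residue, map_intCast, hψ,
      CosetSys.addTransfer_comp]
    show (((heckeSys N (ℓ.1 : ℕ)).addTransfer ξ (Additive.ofMul g) : ℤ) : ResidueField R) = _ * _
    rw [ofHom_apply]
    show _ = _ * ((ξ (Additive.ofMul g) : ℤ) : ResidueField R)
    have h3 := (CharP.intCast_eq_zero_iff (ResidueField R) p _).mpr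
      (hξ (ℓ.1 : ℕ) ℓ.2 (Additive.ofMul g))
    push_cast at h3
    exact sub_eq_zero.mp h3
  refine ⟨⟨H1.mk (ofHom hε ψ), mem_mpart_of_eigen _ (r := fun ℓ => ((a (ℓ.1 : ℕ) : ℤ) : R))
    (fun ℓ => by rw [hθ, map_intCast]) hc⟩, fun h0 => ?_⟩
  have h1 := (mk_eq_zero hε).mp (congrArg Subtype.val h0)
  obtain ⟨x, hx⟩ := hξ0
  apply hx
  rw [← CharP.intCast_eq_zero_iff (ResidueField R) p]
  have h2 := congrArg (fun c : ZM N ε (ResidueField R) => c (Additive.toMul x)) h1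
  exact h2

open ModularFormClass in
/-- **(i)** An eigenform congruent to `a` gives a nonzero class. -/
theorem nontrivial_Hm_of_form (hε1 : ε (-1) = 1) (h2 : IsUnit (2 : R))
    (h3 : IsUnit (3 : R) ∨ ∀ x : SL(2, ℤ),
      x * (ModularGroup.T * ModularGroup.S) * x⁻¹ ∉ Gamma0 N)
    (hε : ∀ u, residue R (ε u : R) = 1)
    (hθ : ∀ ℓ : PIdx S, θ ℓ = ((a (ℓ.1 : ℕ) : ℤ) : ResidueField R))
    {f : CuspForm (Gamma0 N) 2} (hf : f.IsNormalizedEigenform)
    (𝔪 : Ideal (integralClosure ℤ ℂ)) (h𝔪 : 𝔪 ≠ ⊤) (hp𝔪 : (p : integralClosure ℤ ℂ) ∈ 𝔪)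
    (hcong : ∀ ℓ : ℕ, ℓ.Prime → ℓ ∉ S → ∃ x : integralClosure ℤ ℂ, (x : ℂ) = qCoeff ⇑f ℓ ∧
      x - ((a ℓ : ℤ) : integralClosure ℤ ℂ) ∈ 𝔪) : Nontrivial (Hm N ε R S θ) := by
  obtain ⟨ξ, hξ0, hξ⟩ := exists_mod_eigenvector hf hp.out 𝔪 h𝔪 hp𝔪 (fun ℓ => ℓ ∉ S) a hcong
  obtain ⟨x, hx⟩ := exists_Hm_residue hε hθ hξ0 hξ
  by_contra hnt
  rw [not_nontrivial_iff_subsingleton] at hnt
  obtain ⟨y, rfl⟩ := HmMap_surjective hε1 h2 h3 (RTI.resL R) RTI.resL_surjective x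
  apply hx
  rw [Subsingleton.elim y 0, map_zero]

omit hp [IsNoetherianRing R] [IsAdicComplete (maximalIdeal R) R] in
/-- Nakayama: the residual space is nonzero. -/
theorem exists_ne_zero_residue [IsNoetherianRing R] [IsAdicComplete (maximalIdeal R) R]
    (hG : Good N ε S θ) (hnt : Nontrivial (Hm N ε R S θ)) :
    ∃ x : Hm N ε (ResidueField R) S θ, x ≠ 0 := by
  by_contra hcon
  push Not at hcon
  have hfin : Module.Finite R (Hm N ε R S θ) := finite_Hm R ε θ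
  have h1 : (⊤ : Submodule R (Hm N ε R S θ)) ≤ maximalIdeal R • ⊤ := by
    intro x _
    rw [← RTI.ker_HmMap_residue hG, LinearMap.mem_ker]
    exact hcon _
  have h2 := Submodule.eq_bot_of_le_smul_of_le_jacobson_bot (maximalIdeal R) ⊤
    Module.Finite.fg_top h1 (maximalIdeal_le_jacobson _)
  obtain ⟨x, hx⟩ := exists_ne (0 : Hm N ε R S θ)
  have h3 : x ∈ (⊤ : Submodule R (Hm N ε R S θ)) := trivial
  rw [h2] at h3
  exact hx h3

/-- A residual eigenvector as a homomorphism. -/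
theorem exists_residual_eigenvector (hε : ∀ u, residue R (ε u : R) = 1) (hG : Good N ε S θ)
    (hnt : Nontrivial (Hm N ε R S θ)) :
    ∃ ψ : Additive (Gamma0 N) →+ ResidueField R, ψ ≠ 0 ∧ IsEig N (gd S) (ext0 S θ) ψ := by
  obtain ⟨x, hx⟩ := exists_ne_zero_residue hG hnt
  have := fg_Gamma0 N
  have hkfin : Module.Finite R (ResidueField R) :=
    Module.Finite.of_surjective (RTI.resL R) RTI.resL_surjective
  have hfin : Module.Finite R (HM N ε (ResidueField R)) := finite_H1 _ _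
  have hart : IsArtinian R (HM N ε (ResidueField R)) :=
    isArtinian_of_killed (HM_killed hε)
  obtain ⟨e, he⟩ := exists_isIdem_Hm (ResidueField R) ε θ
  obtain ⟨v, -, hv0, hv⟩ := exists_eigen (θ := θ) (hop_commute N ε (ResidueField R) S)
    (Hm N ε (ResidueField R) S θ)
    (fun i x hx => T_mem_mpart _ i hx)
    (by
      intro h
      apply hx
      have h1 : (x : HM N ε (ResidueField R)) ∈ (⊥ : Submodule R (HM N ε (ResidueField R))) :=
        h ▸ x.2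
      exact Subtype.ext h1)
    (fun t ht x hx h0 => he.eq_zero hx ht h0)
  induction v using H1.ind with
  | h c =>
    refine ⟨toHom hε c, fun h0 => hv0 ?_, isEig_of_eigen hε hv⟩
    rw [toHom_eq_zero hε h0, H1.mk_zero]

/-- An integral eigenvector modulo `p` from a nonzero class. -/
theorem exists_int_eigenvector (hp2 : p ≠ 2)
    (h3 : IsUnit (3 : ℤ_[p]) ∨ ∀ x : SL(2, ℤ),
      x * (ModularGroup.T * ModularGroup.S) * x⁻¹ ∉ Gamma0 N)
    (hε : ∀ u, residue R (ε u : R) = 1) (hG : Good N ε S θ)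
    (hθ : ∀ ℓ : PIdx S, θ ℓ = ((a (ℓ.1 : ℕ) : ℤ) : ResidueField R))
    (hnt : Nontrivial (Hm N ε R S θ)) :
    ∃ y : Additive (Gamma0 N) →+ ℤ, (∃ g, ¬ (p : ℤ) ∣ y g) ∧
      ∀ (ℓ : ℕ) [Fact ℓ.Prime], ℓ ∉ S → ∀ g,
        (p : ℤ) ∣ (heckeSys N ℓ).addTransfer y g - a ℓ * y g := by
  obtain ⟨ψ, hψ0, hψ⟩ := exists_residual_eigenvector hε hG hnt
  obtain ⟨x₀, hx₀⟩ : ∃ x, ψ x ≠ 0 := by
    by_contra hcon
    push Not at hcon
    exact hψ0 (AddMonoidHom.ext hcon)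
  let _ : Algebra (ZMod p) (ResidueField R) := ZMod.algebra _ p
  obtain ⟨lam, hlam⟩ := Module.Projective.exists_dual_ne_zero (V := ResidueField R) (ZMod p) hx₀
  obtain ⟨y, hy⟩ := exists_int_lift hp2 h3 (lam.toAddMonoidHom.comp ψ)
  refine ⟨y, ⟨x₀, fun hd => hlam ?_⟩, fun ℓ hℓ hS g => ?_⟩
  · rw [← ZMod.intCast_zmod_eq_zero_iff_dvd, hy] at hd
    exact hd
  · rw [← ZMod.intCast_zmod_eq_zero_iff_dvd]
    push_cast
    have h1 := DFunLike.congr_fun ((heckeSys N ℓ).addTransfer_comp (Int.castAddHom (ZMod p)) y) g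
    have h2 : (Int.castAddHom (ZMod p)).comp y = lam.toAddMonoidHom.comp ψ :=
      AddMonoidHom.ext hy
    rw [h2, CosetSys.addTransfer_comp] at h1
    have h3 : (((heckeSys N ℓ).addTransfer y g : ℤ) : ZMod p) =
        lam ((heckeSys N ℓ).addTransfer ψ g) := h1.symm
    have h4 : ext0 S θ ℓ = ((a ℓ : ℤ) : ResidueField R) := by
      rw [show ext0 S θ ℓ = θ ⟨⟨ℓ, hℓ.out⟩, hS⟩ from ext0_eq S θ ⟨⟨ℓ, hℓ.out⟩, hS⟩, hθ]
    rw [h3, hψ ℓ ⟨hℓ.out, hS⟩, h4, hy, ← zsmul_eq_mul, map_zsmul, zsmul_eq_mul, sub_eq_zero]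
    rfl

open ModularFormClass in
/-- **(ii)** A nonzero class gives an eigenform congruent to `a`. -/
theorem exists_form_of_nontrivial (hp2 : p ≠ 2)
    (h3 : IsUnit (3 : ℤ_[p]) ∨ ∀ x : SL(2, ℤ),
      x * (ModularGroup.T * ModularGroup.S) * x⁻¹ ∉ Gamma0 N)
    (hε : ∀ u, residue R (ε u : R) = 1) (hG : Good N ε S θ)
    (hS : ∀ ℓ : ℕ, ℓ.Prime → ℓ ∣ N → ℓ ∈ S)
    (hθ : ∀ ℓ : PIdx S, θ ℓ = ((a (ℓ.1 : ℕ) : ℤ) : ResidueField R))
    (hne : ∀ m : ℕ, 0 < m → ∃ ℓ : PIdx S, (m : ℤ) ∣ ((ℓ.1 : ℕ) : ℤ) - 1 ∧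
      θ ℓ ≠ ((ℓ.1 : ℕ) : ResidueField R) + 1)
    (hnt : Nontrivial (Hm N ε R S θ))
    (𝔪 : Ideal (integralClosure ℤ ℂ)) (h𝔪 : 𝔪.IsMaximal)
    (hp𝔪 : (p : integralClosure ℤ ℂ) ∈ 𝔪) :
    ∃ g : CuspForm (Gamma0 N) 2, g.IsNormalizedEigenform ∧
      ∀ ℓ : ℕ, ℓ.Prime → ℓ ∉ S → ∃ b : integralClosure ℤ ℂ, (b : ℂ) = qCoeff g ℓ ∧
        b - ((a ℓ : ℤ) : integralClosure ℤ ℂ) ∈ 𝔪 := by
  obtain ⟨y, hy0, hy⟩ := exists_int_eigenvector hp2 h3 hε hG hθ hnt
  obtain ⟨g, hg, hgc⟩ := exists_form_of_vector (M := N) hp.out 𝔪 h𝔪 hp𝔪 (gd S)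
    (gd_not_dvd hS) a (by
      intro m hm
      obtain ⟨ℓ, h1, h2⟩ := hne m hm
      refine ⟨ℓ.1, ℓ.1.2, ⟨ℓ.1.2, ℓ.2⟩, h1, fun hd => h2 ?_⟩
      rw [hθ]
      have h3 := (CharP.intCast_eq_zero_iff (ResidueField R) p _).mpr hd
      push_cast at h3
      exact sub_eq_zero.mp h3) y hy0
    (fun ℓ _ hS' g => hy ℓ hS'.2 g)
  exact ⟨g, hg, fun ℓ hℓ hℓS => hgc ℓ hℓ ⟨hℓ, hℓS⟩⟩

end Forms

end Fermat.Agent.Ribet

end
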