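import Fermat.Agent.Ribet.GoodMap

/-!
# The Atkin–Lehner map is a good map
-/

set_option autoImplicit false

open UpperHalfPlane hiding I
open ModularForm Matrix.SpecialLinearGroup Filter Asymptotics CongruenceSubgroup
open scoped MatrixGroups Manifold ModularForm Polynomial Topology

noncomputable section

namespace Fermat.Agent.Ribet

open Fermat.Agent.JLevelOne Fermat.Agent.X0Emb Fermat.Agent.ModFun ModularCurve Fermat.Agent.FG
open Fermat.Agent.EisChar Fermat.Agent.S28aux Fermat.Agent.IntStruct Fermat.Agent.HeckePar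
open Fermat.Agent.X1 Fermat.Agent.X1Char Fermat.Agent.GaussVal

variable {m q : ℕ} [NeZero m] [hq : Fact q.Prime] [NeZero q]

/-- The automorphisms of `ℂ` act on the expansions of modular functions at the second cusp through
the diamonds. -/
class ALGroup (D : WD m q) (Γ : Subgroup SL(2, ℤ)) : Prop where
  al : ∀ (σ : ℂ ≃+* ℂ) (u : (ZMod (m * q))ˣ),
    σ (zetaU 1 q : ℂ) ^ ((u : ZMod (m * q)).val) = (zetaU 1 q : ℂ) →
    ∀ (F F' : ℍ → ℂ) (G E : LaurentSeries ℂ),
    IsMF (RingHom.id ℂ) Γ 1 F G → IsMF (RingHom.id ℂ) Γ 1 F' (coeffMap (σ : ℂ →+* ℂ) G) →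
    LExp 1 (fun τ => F (D.act τ)) E →
    LExp 1 (fun τ => F' (diaMat (m * q) u • D.act τ)) (coeffMap (σ : ℂ →+* ℂ) E)

theorem isAlgebraic_zetaU (q : ℕ) [NeZero q] : IsAlgebraic ℚ ((zetaU 1 q : ℂˣ) : ℂ) := by
  have h := (zetaU_isPrimitiveRoot q).pow_eq_one
  refine ⟨Polynomial.X ^ q - 1, ?_, ?_⟩
  · have h1 := (Polynomial.monic_X_pow_sub_C (1 : ℚ) (NeZero.ne q)).ne_zero
    rwa [map_one] at h1
  · rw [map_sub, map_pow, Polynomial.aeval_X, map_one, h, sub_self]

omit [NeZero q] in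
theorem val_one_mul : (1 : ZMod (m * q)).val = 1 := by
  have : Fact (1 < m * q) := ⟨by
    have h1 := hq.out.one_lt
    have h2 := Nat.pos_of_ne_zero (NeZero.ne m)
    nlinarith⟩
  exact ZMod.val_one _

section

variable {K : Type} [Field K] [Countable K] [IsAlgClosed K] (ι : K →+* ℂ)

/-- The relation between `σ` and the diamond. -/
def RAL (m q : ℕ) (σ : K ≃+* K) (u : (ZMod (m * q))ˣ) : Prop :=
  ∀ ζ : K, ι ζ = ((zetaU 1 q : ℂˣ) : ℂ) → σ ζ ^ ((u : ZMod (m * q)).val) = ζ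

variable {ι} {D : WD m q} {Γ : Subgroup SL(2, ℤ)} [hW : WNorm D Γ] [hΓ : Between (m * q) Γ]
  [GoodGroup Γ] [hAL : ALGroup D Γ]

omit [NeZero m] hq hΓ [GoodGroup Γ] hAL in
include hW in
theorem act_inv {F : ℍ → ℂ} (hF : ∀ γ ∈ Γ, ∀ τ : ℍ, F (γ • τ) = F τ) :
    ∀ γ ∈ Γ, ∀ τ : ℍ, F (D.act (γ • τ)) = F (D.act τ) := by
  intro γ hγ τ
  rw [D.act_smulG (Γ := Γ) ⟨γ, hγ⟩, hF _ (D.cjG ⟨γ, hγ⟩).2]

omit [NeZero m] hq hΓ hAL [Countable K] [IsAlgClosed K] in
include hW in
theorem exists_lexp_act {F : ℍ → ℂ} {y : LaurentSeries K} (hF : IsMF ι Γ 1 F y) :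
    ∃ E : LaurentSeries ℂ, LExp 1 (fun τ => F (D.act τ)) E := by
  have hinv := act_inv (D := D) hF.inv
  have hm := D.mdiff_act hF.mdiff
  have hg := D.growth_act hF.growth
  obtain ⟨E, hE⟩ := exists_lexp (h := 1) hm (fun τ => by
    have h1 := hinv _ (GoodGroup.T_mem (Γ := Γ)) τ
    rw [UpperHalfPlane.modular_T_smul] at h1
    simpa using h1) (by
    have h1 : GrowthInf (fun τ => F (D.act ((1 : SL(2, ℤ)) • τ))) := hg 1
    simpa only [one_smul] using h1)
  rw [Nat.cast_one] at hE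
  exact ⟨E, hE⟩

theorem mf_exists_act {F : ℍ → ℂ} {y : LaurentSeries K} (hF : IsMF ι Γ 1 F y) :
    ∃ z : LaurentSeries K, IsMF ι Γ 1 (fun τ => F (D.act τ)) z := by
  obtain ⟨E, hE⟩ := exists_lexp_act (D := D) hF
  have hfix : ∀ k, ∃ x : K, ι x = E.coeff k := by
    intro k
    refine mem_range_of_fixed ι fun τ hτ => ?_
    have h1 : coeffMap (τ : ℂ →+* ℂ) (coeffMap ι y) = coeffMap ι y := by
      ext j
      rw [coeffMap_coeff, coeffMap_coeff]
      exact hτ _
    obtain ⟨ζ, hζ⟩ := mem_range_of_isAlgebraic ι (isAlgebraic_zetaU q)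
    have h0 : τ ((zetaU 1 q : ℂˣ) : ℂ) ^ (((1 : (ZMod (m * q))ˣ) : ZMod (m * q)).val) =
        ((zetaU 1 q : ℂˣ) : ℂ) := by
      rw [Units.val_one, val_one_mul, pow_one, ← hζ, hτ]
    have h2 := hAL.al τ 1 h0 F F (coeffMap ι y) E (mf_toC hF)
      (by rw [h1]; exact (mf_toC hF)) hE
    have h3 : (fun τ => F (diaMat (m * q) 1 • D.act τ)) = fun τ => F (D.act τ) :=
      funext fun τ => dia_one hF.inv _
    rw [h3] at h2
    have h4 := hE.unique one_pos h2
    conv_rhs => rw [h4]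
    rw [coeffMap_coeff]
    rfl
  choose a ha using hfix
  have hz : ∃ z : LaurentSeries K, coeffMap ι z = E := by
    refine ⟨⟨a, ?_⟩, ?_⟩
    · have hs : Function.support a = E.support := by
        ext k
        rw [Function.mem_support, HahnSeries.mem_support, ← ha k, Ne, Ne, map_eq_zero]
      rw [hs]
      exact E.isPWO_support
    · ext k
      rw [coeffMap_coeff]
      exact ha k
  obtain ⟨z, rfl⟩ := hz
  exact ⟨z, D.mdiff_act hF.mdiff, act_inv (D := D) hF.inv, D.growth_act hF.growth,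
    by simpa using hE⟩

/-- **The Atkin–Lehner map is a good map.** -/
theorem goodMap_act : GoodMap ι (m * q) Γ D.act (RAL ι m q) where
  surj := D.act_surjective
  exp hF := mf_exists_act hF
  conj := by
    intro σ u hu F F' y z hF hF' hz
    obtain ⟨σ', hσ'⟩ := exists_ringEquiv_complex_comp ι (ι.comp (σ : K →+* K))
    have hc : ∀ w : LaurentSeries K, coeffMap (σ' : ℂ →+* ℂ) (coeffMap ι w) =
        coeffMap ι (coeffMap (σ : K →+* K) w) := by
      intro w
      ext k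
      rw [coeffMap_coeff, coeffMap_coeff, coeffMap_coeff, coeffMap_coeff]
      exact hσ' _
    obtain ⟨ζ, hζ⟩ := mem_range_of_isAlgebraic ι (isAlgebraic_zetaU q)
    rw [← hc]
    refine hAL.al σ' u ?_ F F' (coeffMap ι y) _ (mf_toC hF) ?_ hz
    · rw [← hζ, hσ']
      show ι (σ ζ) ^ _ = _
      rw [← map_pow, hu ζ hζ]
    · rw [hc]
      exact mf_toC hF'

end

end Fermat.Agent.Ribet
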