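import Fermat.Agent.ModFun.Conv

/-!
# Conjugation of modular functions and composition

If `v` is a modular function on `Γ` with stabiliser `Γ` then every modular function `u` on `Γ` is a
rational function of `j` and `v`.  Hence an identity `(u ∘ A) ^ σ = u ^ σ ∘ B` between `q`-expansions
only has to be checked for `j` and `v`.
-/

set_option autoImplicit false

open UpperHalfPlane hiding I
open ModularForm Matrix.SpecialLinearGroup
open scoped MatrixGroups Manifold ModularForm Polynomial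

noncomputable section

namespace Fermat.Agent.Ribet

open Fermat.Agent.JLevelOne Fermat.Agent.X0Emb Fermat.Agent.ModFun ModularCurve

/-- `∑ P_i(F) V^i` -/
def ev2 (n : ℕ) (P : ℕ → ℂ[X]) (F V : LaurentSeries ℂ) : LaurentSeries ℂ :=
  ∑ i ∈ Finset.range n, Polynomial.aeval F (P i) * V ^ i

theorem lexp_ev2 {h : ℝ} {f v : ℍ → ℂ} {F V : LaurentSeries ℂ} (hf : LExp h f F)
    (hv : LExp h v V) (n : ℕ) (P : ℕ → ℂ[X]) :
    LExp h (fun τ => ∑ i ∈ Finset.range n, (P i).eval (f τ) * v τ ^ i) (ev2 n P F V) := by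
  have := lexp_sum (Finset.range n) (f := fun i τ => (P i).eval (f τ) * v τ ^ i)
      (F := fun i => Polynomial.aeval F (P i) * V ^ i)
      fun i _ => (lexp_eval hf (P i)).mul (lexp_pow hv i)
  convert! this using 1
  funext τ
  simp

theorem coeffMap_aeval (σ : ℂ →+* ℂ) (F : LaurentSeries ℂ) (P : ℂ[X]) :
    coeffMap σ (Polynomial.aeval F P) = Polynomial.aeval (coeffMap σ F) (P.map σ) := by
  induction P using Polynomial.induction_on' with
  | add P Q hP hQ => rw [map_add, map_add, hP, hQ, Polynomial.map_add, map_add]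
  | monomial n c =>
    rw [Polynomial.aeval_monomial, map_mul, map_pow, Polynomial.map_monomial,
      Polynomial.aeval_monomial, algebraMap_laurentSeries_eq_single,
      algebraMap_laurentSeries_eq_single, coeffMap_single]

theorem coeffMap_ev2 (σ : ℂ →+* ℂ) (n : ℕ) (P : ℕ → ℂ[X]) (F V : LaurentSeries ℂ) :
    coeffMap σ (ev2 n P F V) =
      ev2 n (fun i => (P i).map σ) (coeffMap σ F) (coeffMap σ V) := by
  rw [ev2, map_sum, ev2]
  refine Finset.sum_congr rfl fun i _ => ?_
  rw [map_mul, map_pow, coeffMap_aeval]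

theorem coeffMap_inj {R S : Type*} [CommRing R] [CommRing S] {φ : R →+* S}
    (hφ : Function.Injective φ) : Function.Injective (coeffMap φ) := by
  intro a b hab
  ext k
  have := congrArg (fun G => HahnSeries.coeff G k) hab
  simp only [coeffMap_coeff] at this
  exact hφ this

/-- **Conjugation and composition.** -/
theorem conj_comp {Γ : Subgroup SL(2, ℤ)} [Γ.FiniteIndex] {v : ℍ → ℂ} (hv : IsModFun Γ v)
    (hstab : ∀ γ : SL(2, ℤ), (∀ τ : ℍ, v (γ • τ) = v τ) → γ ∈ Γ) (σ : ℂ →+* ℂ)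
    {v' : ℍ → ℂ} {V : LaurentSeries ℂ} (hV : LExp 1 v V) (hV' : LExp 1 v' (coeffMap σ V))
    {A B : ℍ → ℍ} (hA : Function.Surjective A) {h : ℝ} (hh : 0 < h) {JA VA : LaurentSeries ℂ}
    (hjA : LExp h (fun τ => jFun (A τ)) JA) (hjB : LExp h (fun τ => jFun (B τ)) (coeffMap σ JA))
    (hvA : LExp h (fun τ => v (A τ)) VA) (hvB : LExp h (fun τ => v' (B τ)) (coeffMap σ VA))
    {u u' : ℍ → ℂ} (hu : IsModFun Γ u) {U : LaurentSeries ℂ}
    (hU : LExp 1 u U) (hU' : LExp 1 u' (coeffMap σ U)) {UA UB : LaurentSeries ℂ}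
    (huA : LExp h (fun τ => u (A τ)) UA) (huB : LExp h (fun τ => u' (B τ)) UB) :
    UB = coeffMap σ UA := by
  obtain ⟨n, n', P, Q, hPQ, τ₀, hτ₀⟩ := exists_interp_modFun hv hstab hu
  -- the relation at infinity
  have hPe := lexp_ev2 lexp_j hV n P
  have hQe := lexp_ev2 lexp_j hV n' Q
  have h1 : U * ev2 n' Q (jqModC ℂ) V = ev2 n P (jqModC ℂ) V := by
    refine (hU.mul hQe).unique one_pos ?_
    convert hPe using 1
    funext τ
    exact hPQ τ
  -- the conjugate relation
  have h2 := congrArg (coeffMap σ) h1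
  rw [map_mul, coeffMap_ev2, coeffMap_ev2, coeffMap_jqModC] at h2
  set P' : ℕ → ℂ[X] := fun i => (P i).map σ with hP'
  set Q' : ℕ → ℂ[X] := fun i => (Q i).map σ with hQ'
  have hPe' := lexp_ev2 lexp_j hV' n P'
  have hQe' := lexp_ev2 lexp_j hV' n' Q'
  have h3 : ∀ τ : ℍ, u' τ * (∑ i ∈ Finset.range n', (Q' i).eval (jFun τ) * v' τ ^ i) =
      ∑ i ∈ Finset.range n, (P' i).eval (jFun τ) * v' τ ^ i := by
    intro τ
    have h4 := hU'.mul hQe'
    rw [h2] at h4
    exact congrFun (h4.funext hPe') τ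
  -- composed with `B`
  have hPB := lexp_ev2 hjB hvB n P'
  have hQB := lexp_ev2 hjB hvB n' Q'
  have h5 : UB * ev2 n' Q' (coeffMap σ JA) (coeffMap σ VA) =
      ev2 n P' (coeffMap σ JA) (coeffMap σ VA) := by
    refine (huB.mul hQB).unique hh ?_
    convert hPB using 1
    funext τ
    exact h3 (B τ)
  -- composed with `A`
  have hPA := lexp_ev2 hjA hvA n P
  have hQA := lexp_ev2 hjA hvA n' Q
  have h6 : UA * ev2 n' Q JA VA = ev2 n P JA VA := by
    refine (huA.mul hQA).unique hh ?_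
    convert hPA using 1
    funext τ
    exact hPQ (A τ)
  have h7 := congrArg (coeffMap σ) h6
  rw [map_mul, coeffMap_ev2, coeffMap_ev2] at h7
  have hQ0 : ev2 n' Q' (coeffMap σ JA) (coeffMap σ VA) ≠ 0 := by
    rw [hQ', ← coeffMap_ev2, Ne, map_eq_zero_iff _ (coeffMap_inj σ.injective)]
    intro h0
    rw [h0] at hQA
    obtain ⟨τ₁, rfl⟩ := hA τ₀
    have := congrFun (hQA.funext (LExp.zero h)) τ₁
    exact hτ₀ this
  exact mul_right_cancel₀ hQ0 (h5.trans h7.symm)

end Fermat.Agent.Ribet
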