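import Fermat.Agent.Ribet.Eis0
import Fermat.Agent.Igusa.DeltaQ
import Fermat.Agent.X0Emb.LExp
import Fermat.Agent.ModFun.JN

/-!
# Eisenstein series separating the cosets of `H ≤ (ℤ/q)ˣ`, at both cusps
-/

set_option autoImplicit false

open UpperHalfPlane ModularForm EisensteinSeries Matrix.SpecialLinearGroup Filter Topology
  CongruenceSubgroup
open scoped MatrixGroups Manifold ModularForm

noncomputable section

namespace Fermat.Agent.Ribet

open Fermat.Agent.DSEis ZMod ModularCurve Fermat.Agent.X0Emb Fermat.Agent.ModFun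

section Ind

variable {q : ℕ} (H : Subgroup (ZMod q)ˣ)

open Classical in
/-- the indicator function of the coset `x H` -/
def cInd (x : (ZMod q)ˣ) (a : ZMod q) : ℂ :=
  if ∃ h ∈ H, a = ((x * h : (ZMod q)ˣ) : ZMod q) then 1 else 0

variable {H}

lemma cInd_unit (x y : (ZMod q)ˣ) [Decidable (x⁻¹ * y ∈ H)] :
    cInd H x (y : ZMod q) = if x⁻¹ * y ∈ H then 1 else 0 := by
  classical
  rw [cInd]
  by_cases h : x⁻¹ * y ∈ H
  · rw [if_pos h, if_pos ⟨x⁻¹ * y, h, by rw [mul_inv_cancel_left]⟩]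
  · rw [if_neg h, if_neg]
    rintro ⟨g, hg, hy⟩
    have h1 : y = x * g := Units.ext hy
    apply h
    rw [h1, inv_mul_cancel_left]
    exact hg

lemma cInd_of_not_isUnit (x : (ZMod q)ˣ) {a : ZMod q} (ha : ¬ IsUnit a) : cInd H x a = 0 := by
  classical
  rw [cInd, if_neg]
  rintro ⟨h, _, rfl⟩
  exact ha (Units.isUnit _)

lemma cInd_zero [Fact (1 < q)] (x : (ZMod q)ˣ) : cInd H x 0 = 0 :=
  cInd_of_not_isUnit x not_isUnit_zero

lemma cInd_mul_unit (x u : (ZMod q)ˣ) (a : ZMod q) :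
    cInd H x (a * u) = cInd H (x * u⁻¹) a := by
  classical
  by_cases ha : IsUnit a
  · obtain ⟨y, rfl⟩ := ha
    have e1 : (x * u⁻¹)⁻¹ * y = x⁻¹ * (y * u) := by
      rw [mul_inv, inv_inv, mul_comm y u, mul_assoc]
    rw [← Units.val_mul, cInd_unit, cInd_unit, e1]
  · rw [cInd_of_not_isUnit _ ha, cInd_of_not_isUnit]
    intro h
    exact ha ((Units.isUnit_mul_units a u).mp h)

lemma cInd_neg (hH : (-1 : (ZMod q)ˣ) ∈ H) (x : (ZMod q)ˣ) (a : ZMod q) :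
    cInd H x (-a) = cInd H x a := by
  classical
  by_cases ha : IsUnit a
  · obtain ⟨y, rfl⟩ := ha
    rw [← Units.val_neg, cInd_unit, cInd_unit]
    have h1 : x⁻¹ * -y = x⁻¹ * y * -1 := by rw [mul_neg_one, mul_neg]
    rw [h1]
    by_cases h : x⁻¹ * y ∈ H
    · rw [if_pos h, if_pos (mul_mem h hH)]
    · rw [if_neg h, if_neg]
      intro h'
      apply h
      have := mul_mem h' hH
      rwa [mul_assoc, neg_mul_neg, one_mul, mul_one] at this
  · rw [cInd_of_not_isUnit _ ha, cInd_of_not_isUnit]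
    intro h
    exact ha (by simpa using h.neg)

lemma cInd_conj (σ : ℂ →+* ℂ) (t x : (ZMod q)ˣ) : conjPhi σ t (cInd H x) = cInd H (x * t) := by
  classical
  funext a
  rw [conjPhi, mul_comm, cInd_mul_unit, inv_inv]
  rw [cInd]
  split_ifs <;> simp

variable (H) in
open Classical in
/-- `cInd` with integral values -/
def zInd (x : (ZMod q)ˣ) (a : ZMod q) : ℤ :=
  if ∃ h ∈ H, a = ((x * h : (ZMod q)ˣ) : ZMod q) then 1 else 0

lemma cast_zInd (x : (ZMod q)ˣ) (a : ZMod q) : ((zInd H x a : ℤ) : ℂ) = cInd H x a := by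
  classical
  rw [zInd, cInd]
  split_ifs <;> simp

lemma cInd_nonneg_or (x : (ZMod q)ˣ) (a : ZMod q) : cInd H x a = 0 ∨ cInd H x a = 1 := by
  classical
  rw [cInd]
  split_ifs <;> simp

end Ind

section Inf

variable {q : ℕ} [NeZero q] {H : Subgroup (ZMod q)ˣ}

variable (H) in
/-- The Eisenstein series attached to `x H` with integral expansion at `∞`. -/
def eInf (x : (ZMod q)ˣ) (k : ℕ) : ℍ → ℂ :=
  (cst k)⁻¹ • eis (N := q) (fun a => cInd H x (a 0)) k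

omit [NeZero q] in
lemma inv_entry10 (γ : SL(2, ℤ)) : ((γ⁻¹ : SL(2, ℤ)) : Matrix (Fin 2) (Fin 2) ℤ) 1 0 = -γ 1 0 := by
  rw [Matrix.SpecialLinearGroup.SL2_inv_expl]; rfl

omit [NeZero q] in
lemma inv_entry00 (γ : SL(2, ℤ)) : ((γ⁻¹ : SL(2, ℤ)) : Matrix (Fin 2) (Fin 2) ℤ) 0 0 = γ 1 1 := by
  rw [Matrix.SpecialLinearGroup.SL2_inv_expl]; rfl

omit [NeZero q] in
lemma vecMul_inv_zero (γ : SL(2, ℤ)) (a : Fin 2 → ZMod q) : Matrix.vecMul a
      (((γ⁻¹ : SL(2, ℤ)) : Matrix (Fin 2) (Fin 2) ℤ).map (Int.castRingHom (ZMod q))) 0 =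
      a 0 * ((γ 1 1 : ℤ) : ZMod q) - a 1 * ((γ 1 0 : ℤ) : ZMod q) := by
  simp only [Matrix.vecMul, dotProduct, Fin.sum_univ_two, Matrix.map_apply, inv_entry10,
    inv_entry00, Int.coe_castRingHom]
  push_cast
  ring

omit [NeZero q] in
/-- the action of matrices which are upper triangular modulo `q` -/
theorem eInf_slash (x u : (ZMod q)ˣ) (k : ℕ) (γ : SL(2, ℤ)) (h10 : ((γ 1 0 : ℤ) : ZMod q) = 0)
    (hu : ((γ 1 1 : ℤ) : ZMod q) = u) :
    (eInf H x k) ∣[(k : ℤ)] γ = eInf H (x * u⁻¹) k := by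
  rw [eInf, SL_smul_slash, eis_slash, eInf]
  congr 2
  funext a
  rw [vecMul_inv_zero, h10, mul_zero, sub_zero, hu, cInd_mul_unit]

omit [NeZero q] in
/-- the action of matrices with lower right entry divisible by `q` -/
theorem eInf_slash_A (hH : (-1 : (ZMod q)ˣ) ∈ H) (x u : (ZMod q)ˣ) (k : ℕ) (γ : SL(2, ℤ))
    (h11 : ((γ 1 1 : ℤ) : ZMod q) = 0) (hu : ((γ 1 0 : ℤ) : ZMod q) = u) :
    (eInf H x k) ∣[(k : ℤ)] γ = (cst k)⁻¹ • eis (N := q) (fun a => cInd H (x * u⁻¹) (a 1)) k := by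
  rw [eInf, SL_smul_slash, eis_slash]
  congr 2
  funext a
  rw [vecMul_inv_zero, h11, mul_zero, zero_sub, cInd_neg hH, hu, cInd_mul_unit]

/-- `c(a₁)` at `q τ` -/
theorem eis_mul_q (φ : ZMod q → ℂ) (k : ℕ) (z w : ℍ) (hw : (w : ℂ) = q * z) :
    eis (N := q) (fun a => φ (a 1)) k w = eis0 φ k z := by
  have hq : (q : ℤ) ≠ 0 := by exact_mod_cast NeZero.ne q
  let e : (Fin 2 → ℤ) → (Fin 2 → ℤ) := fun v => ![q * v 0, v 1]
  have he : Function.Injective e := by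
    intro a b hab
    have h0 := congrFun hab 0
    have h1 := congrFun hab 1
    simp only [e, Matrix.cons_val_zero, Matrix.cons_val_one] at h0 h1
    ext i
    fin_cases i
    · exact mul_left_cancel₀ hq h0
    · exact h1
  rw [eis0, eis, eis]
  refine Eq.trans ?_ (he.tsum_eq (f := fun v : Fin 2 → ℤ =>
    (if red q v 0 = 0 then φ (red q v 1) else 0) * eisSummand (k : ℤ) v z) ?_)
  · refine tsum_congr fun v => ?_
    have h1 : red q (e v) 0 = 0 := by simp [e, red]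
    have h2 : red q (e v) 1 = red q v 1 := rfl
    rw [if_pos h1, h2]
    congr 1
    simp only [eisSummand, e, hw, Matrix.cons_val_zero, Matrix.cons_val_one]
    push_cast
    congr 1
    ring
  · intro v hv
    by_cases h0 : red q v 0 = 0
    · have h2 : ((v 0 : ℤ) : ZMod q) = 0 := h0
      rw [ZMod.intCast_zmod_eq_zero_iff_dvd] at h2
      obtain ⟨c, hc⟩ := h2
      refine ⟨![c, v 1], ?_⟩
      ext i
      fin_cases i
      · exact hc.symm
      · rfl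
    · simp [h0] at hv

/-- **The value at the other cusp.** -/
theorem eInf_slash_A_apply (hH : (-1 : (ZMod q)ˣ) ∈ H) (x u : (ZMod q)ˣ) (k : ℕ) (γ : SL(2, ℤ))
    (h11 : ((γ 1 1 : ℤ) : ZMod q) = 0) (hu : ((γ 1 0 : ℤ) : ZMod q) = u) (z w : ℍ)
    (hw : (w : ℂ) = q * z) :
    ((eInf H x k) ∣[(k : ℤ)] γ) w = ((q : ℂ) ^ k)⁻¹ * F0 (cInd H (x * u⁻¹)) k z := by
  have hq : (q : ℂ) ≠ 0 := by exact_mod_cast NeZero.ne q
  rw [eInf_slash_A hH x u k γ h11 hu, Pi.smul_apply, eis_mul_q _ k z w hw, F0, Pi.smul_apply,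
    smul_eq_mul, smul_eq_mul]
  field_simp

theorem eInf_mdiff (x : (ZMod q)ˣ) {k : ℕ} (hk : 3 ≤ k) : MDiff (eInf H x k) :=
  (eis_mdiff (N := q) (k := (k : ℤ)) _ (by exact_mod_cast hk)).const_smul _

theorem eInf_bdd (x : (ZMod q)ˣ) {k : ℕ} (hk : 3 ≤ k) (γ : SL(2, ℤ)) :
    IsBoundedAtImInfty ((eInf H x k) ∣[(k : ℤ)] γ) := by
  rw [eInf, SL_smul_slash, eis_slash]
  exact (eis_bdd (N := q) _ (by exact_mod_cast hk)).smul _

variable (H) in
/-- the coefficients of `eInf` -/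
def eInfCoeff (x : (ZMod q)ˣ) (k n : ℕ) : ℂ :=
  ∑ y ∈ n.divisorsAntidiagonal, psiPM (cInd H x) k y.1 * (y.2 : ℂ) ^ (k - 1)

theorem hasSum_eInf [Fact (1 < q)] (x : (ZMod q)ˣ) {k : ℕ} (hk : 3 ≤ k) (z : ℍ) :
    HasSum (fun n => eInfCoeff H x k n • Function.Periodic.qParam 1 z ^ n) (eInf H x k z) := by
  have h1 := (hasSum_eis (cInd H x) hk z).mul_left (cst k)⁻¹
  have h2 : (eInf H x k z) = (cst k)⁻¹ * eis (fun a => cInd H x (a 0)) k z := rfl
  rw [h2]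
  convert! h1 using 1
  funext n
  rw [eisCoeff]
  split_ifs with hn
  · subst hn
    simp [eInfCoeff, cst0, cInd_zero]
  · rw [smul_eq_mul, smul_eq_mul, ← mul_assoc, ← mul_assoc, inv_mul_cancel₀ (cst_ne_zero k),
      one_mul]
    rfl

variable (H) in
/-- the coefficients of `eInf`, as integers -/
def eInfInt (x : (ZMod q)ˣ) (k n : ℕ) : ℤ :=
  ∑ y ∈ n.divisorsAntidiagonal, (zInd H x (y.1 : ZMod q) + (-1) ^ k * zInd H x (-(y.1 : ZMod q))) *
    (y.2 : ℤ) ^ (k - 1)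

lemma cast_eInfInt (x : (ZMod q)ˣ) (k n : ℕ) :
    ((eInfInt H x k n : ℤ) : ℂ) = eInfCoeff H x k n := by
  rw [eInfInt, eInfCoeff]
  push_cast
  refine Finset.sum_congr rfl fun y _ => ?_
  rw [psiPM, cast_zInd, cast_zInd]

lemma eInfCoeff_one (hH : (-1 : (ZMod q)ˣ) ∈ H) (x : (ZMod q)ˣ) {k : ℕ} (hev : Even k) :
    eInfCoeff H x k 1 = 2 * cInd H x 1 := by
  rw [eInfCoeff, Nat.divisorsAntidiagonal_one, Finset.sum_singleton, psiPM, hev.neg_one_pow]
  simp only [Nat.cast_one, one_pow, mul_one, one_mul]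
  rw [cInd_neg hH, two_mul]

/-- as a modular form -/
def eInfMF (x : (ZMod q)ˣ) (k : ℕ) (hk : 3 ≤ k) :
    ModularForm (Gamma1 q : Subgroup (GL (Fin 2) ℝ)) k :=
  (cst k)⁻¹ • eisMF (cInd H x) k hk

@[simp] lemma coe_eInfMF (x : (ZMod q)ˣ) (k : ℕ) (hk : 3 ≤ k) :
    ⇑(eInfMF (H := H) x k hk) = eInf H x k := rfl

theorem qExpansion_eInf [Fact (1 < q)] (x : (ZMod q)ˣ) {k : ℕ} (hk : 3 ≤ k) (n : ℕ) :
    (qExpansion 1 (eInf H x k)).coeff n = eInfCoeff H x k n :=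
  (ModularFormClass.qExpansion_coeff_unique one_pos one_mem_G1 (f := eInfMF (H := H) x k hk)
    (fun τ => hasSum_eInf x hk τ) n).symm

/-! ### The stabiliser -/

omit [NeZero q] in
lemma cuspVal_slash' (x : (ZMod q)ˣ) (k : ℕ) (γ : SL(2, ℤ)) :
    cuspVal (fun a : Fin 2 → ZMod q => cInd H x ((Matrix.vecMul a
      (((γ⁻¹ : SL(2, ℤ)) : Matrix (Fin 2) (Fin 2) ℤ).map (Int.castRingHom (ZMod q)))) 0)) k =
    ∑' d : ℤ, cInd H x (-((d : ZMod q) * ((γ 1 0 : ℤ) : ZMod q))) * (d : ℂ) ^ (-(k : ℤ)) := by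
  rw [cuspVal]
  refine tsum_congr fun d => ?_
  rw [vecMul_inv_zero]
  simp

lemma tsum_cInd_ne_zero {k : ℕ} (hk : 3 ≤ k) (hev : Even k) (x u : (ZMod q)ˣ) :
    ∑' d : ℤ, cInd H x (-((d : ZMod q) * u)) * (d : ℂ) ^ (-(k : ℤ)) ≠ 0 := by
  classical
  set g : ℤ → ℝ := fun d => (zInd H x (-((d : ZMod q) * u)) : ℝ) * (d : ℝ) ^ (-(k : ℤ)) with hg
  have h1 : ∑' d : ℤ, cInd H x (-((d : ZMod q) * u)) * (d : ℂ) ^ (-(k : ℤ)) =
      ((∑' d : ℤ, g d : ℝ) : ℂ) := by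
    rw [Complex.ofReal_tsum]
    refine tsum_congr fun d => ?_
    rw [hg, ← cast_zInd]
    push_cast
    rfl
  have hz : ∀ a, (zInd H x a : ℝ) = 0 ∨ (zInd H x a : ℝ) = 1 := by
    intro a
    rw [zInd]
    split_ifs <;> simp
  have hnn : ∀ d, 0 ≤ g d := by
    intro d
    have h2 : (0 : ℝ) ≤ (d : ℝ) ^ (-(k : ℤ)) := by
      rw [zpow_neg, zpow_natCast]
      exact inv_nonneg.mpr (hev.pow_nonneg _)
    rcases hz (-((d : ZMod q) * u)) with h | h
    · rw [hg]; simp only [h, zero_mul]; exact le_rfl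
    · rw [hg]; simp only [h, one_mul]; exact h2
  have hsum : Summable g := by
    have h2 : Summable fun d : ℤ => ((d : ℝ) ^ (-(k : ℤ))) := by
      have := (Real.summable_abs_int_rpow (b := (k : ℝ)) (by exact_mod_cast (by omega : 1 < k)))
      refine Summable.of_norm (this.congr fun b => ?_)
      rw [norm_zpow, Real.norm_eq_abs, Real.rpow_neg (abs_nonneg _), Real.rpow_natCast, zpow_neg,
        zpow_natCast]
    refine Summable.of_nonneg_of_le hnn (fun d => ?_) h2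
    have h3 : (0 : ℝ) ≤ (d : ℝ) ^ (-(k : ℤ)) := by
      rw [zpow_neg, zpow_natCast]
      exact inv_nonneg.mpr (hev.pow_nonneg _)
    rcases hz (-((d : ZMod q) * u)) with h | h
    · rw [hg]; simp only [h, zero_mul]; exact h3
    · rw [hg]; simp only [h, one_mul]; exact le_rfl
  -- a positive term
  set d₀ : ℤ := (((-(x * u⁻¹) : (ZMod q)ˣ) : ZMod q).val : ℤ) + q with hd₀
  have hd₀' : ((d₀ : ℤ) : ZMod q) = ((-(x * u⁻¹) : (ZMod q)ˣ) : ZMod q) := by
    rw [hd₀]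
    push_cast
    rw [ZMod.natCast_zmod_val, ZMod.natCast_self, add_zero]
  have hpos : 0 < d₀ := by
    rw [hd₀]
    have : (0 : ℤ) < q := by exact_mod_cast Nat.pos_of_ne_zero (NeZero.ne q)
    positivity
  have h4 : 0 < g d₀ := by
    have e1 : -((d₀ : ZMod q) * u) = x := by
      rw [hd₀', Units.val_neg, Units.val_mul, neg_mul, neg_neg, mul_assoc, Units.inv_mul, mul_one]
    have e2 : (zInd H x (-((d₀ : ZMod q) * u)) : ℝ) = 1 := by
      rw [e1, zInd, if_pos ⟨1, one_mem _, by rw [mul_one]⟩]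
      simp
    rw [hg]
    simp only [e2, one_mul]
    have : (0 : ℝ) < d₀ := by exact_mod_cast hpos
    positivity
  rw [h1]
  have h5 := hsum.tsum_pos hnn d₀ h4
  exact_mod_cast h5.ne'

/-- **The stabiliser of `eInf`.** -/
theorem mem_of_eInf_slash_eq [Fact q.Prime] (hH : (-1 : (ZMod q)ˣ) ∈ H) {k : ℕ} (hk : 3 ≤ k)
    (hev : Even k) {γ : SL(2, ℤ)} (h : (eInf H 1 k) ∣[(k : ℤ)] γ = eInf H 1 k) :
    ((γ 1 0 : ℤ) : ZMod q) = 0 ∧ ∃ u ∈ H, ((γ 1 1 : ℤ) : ZMod q) = (u : ZMod q) := by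
  have hk' : (3 : ℤ) ≤ k := by exact_mod_cast hk
  have : Fact (1 < q) := ⟨(Fact.out : q.Prime).one_lt⟩
  have h10 : ((γ 1 0 : ℤ) : ZMod q) = 0 := by
    by_contra hne
    obtain ⟨u, hu⟩ := (isUnit_iff_ne_zero (a := ((γ 1 0 : ℤ) : ZMod q))).mpr hne
    have h1 : eis (N := q) (fun a => cInd H 1 ((Matrix.vecMul a
      (((γ⁻¹ : SL(2, ℤ)) : Matrix (Fin 2) (Fin 2) ℤ).map (Int.castRingHom (ZMod q)))) 0)) k =
        eis (N := q) (fun a => cInd H 1 (a 0)) k := by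
      rw [eInf, SL_smul_slash, eis_slash] at h
      exact smul_right_injective _ (inv_ne_zero (cst_ne_zero k)) h
    have h2 := tendsto_eis (N := q) (fun a => cInd H 1 ((Matrix.vecMul a
      (((γ⁻¹ : SL(2, ℤ)) : Matrix (Fin 2) (Fin 2) ℤ).map (Int.castRingHom (ZMod q)))) 0)) hk'
    rw [h1] at h2
    have h3 := tendsto_nhds_unique h2 (tendsto_eis (N := q) (fun a => cInd H 1 (a 0)) hk')
    rw [cuspVal_slash', ← hu] at h3
    have h4 : cuspVal (N := q) (fun a => cInd H 1 (a 0)) k = 0 := by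
      rw [cuspVal]
      simp [cInd_zero]
    rw [h4] at h3
    exact tsum_cInd_ne_zero hk hev 1 u h3
  refine ⟨h10, ?_⟩
  have hdet : ((γ 0 0 : ℤ) : ZMod q) * ((γ 1 1 : ℤ) : ZMod q) = 1 := by
    have h1 := γ.det_coe
    rw [Matrix.det_fin_two] at h1
    have h2 := congrArg (Int.cast : ℤ → ZMod q) h1
    push_cast at h2
    rw [h10, mul_zero, sub_zero] at h2
    exact h2
  obtain ⟨u, hu⟩ : IsUnit ((γ 1 1 : ℤ) : ZMod q) :=
    IsUnit.of_mul_eq_one _ (by rw [mul_comm]; exact hdet)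
  refine ⟨u, ?_, hu.symm⟩
  rw [eInf_slash 1 u k γ h10 hu.symm, one_mul] at h
  have h1 : eInfCoeff H u⁻¹ k 1 = eInfCoeff H 1 k 1 := by
    rw [← qExpansion_eInf _ hk, ← qExpansion_eInf _ hk, h]
  classical
  have e1 : (1 : ZMod q) = ((1 : (ZMod q)ˣ) : ZMod q) := rfl
  rw [eInfCoeff_one hH _ hev, eInfCoeff_one hH _ hev, e1, cInd_unit, cInd_unit, inv_inv, mul_one,
    inv_one, mul_one, if_pos (one_mem H)] at h1
  by_contra hcon
  rw [if_neg hcon] at h1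
  norm_num at h1

end Inf

end Fermat.Agent.Ribet
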