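import Fermat.Agent.Ribet.AL
import Fermat.Agent.Ribet.Eis
import Fermat.Agent.Ribet.Conj
import Fermat.Agent.X1Char.Inst
import Fermat.Agent.FG.Algebraic

/-!
# The groups `GD m q H` satisfy `ALGroup`
-/

set_option autoImplicit false

open UpperHalfPlane hiding I
open ModularForm Matrix.SpecialLinearGroup Filter Asymptotics CongruenceSubgroup
open scoped MatrixGroups Manifold ModularForm Polynomial Topology

noncomputable section

namespace Fermat.Agent.Ribet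

open Fermat.Agent.JLevelOne Fermat.Agent.X0Emb Fermat.Agent.ModFun ModularCurve Fermat.Agent.FG
open Fermat.Agent.EisChar Fermat.Agent.S28aux Fermat.Agent.IntStruct Fermat.Agent.HeckePar
open Fermat.Agent.X1 Fermat.Agent.X1Char Fermat.Agent.GaussVal ZMod

/-! ### The function `f₁` -/

section F1

variable {q : ℕ} [hq : Fact q.Prime] [NeZero q] {H : Subgroup (ZMod q)ˣ}

instance fact_one_lt : Fact (1 < q) := ⟨hq.out.one_lt⟩

variable (H) in
/-- the weight zero function attached to `x H` -/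
def f1 (x : (ZMod q)ˣ) (τ : ℍ) : ℂ := eInf H x 12 τ * (discriminant τ)⁻¹

theorem f1_smul (x : (ZMod q)ˣ) (γ : SL(2, ℤ)) (τ : ℍ) :
    f1 H x (γ • τ) = ((eInf H x 12) ∣[(12 : ℤ)] γ) τ * (discriminant τ)⁻¹ := by
  have hd : denom γ τ ≠ 0 := denom_ne_zero _ _
  have hd' : denom γ τ ^ (12 : ℤ) ≠ 0 := zpow_ne_zero _ hd
  have h1 := discriminant_smul γ τ
  rw [f1, SL_slash_apply, h1, mul_inv, zpow_neg]
  ring

theorem f1_dia (x u : (ZMod q)ˣ) (γ : SL(2, ℤ)) (h10 : ((γ 1 0 : ℤ) : ZMod q) = 0)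
    (hu : ((γ 1 1 : ℤ) : ZMod q) = u) (τ : ℍ) : f1 H x (γ • τ) = f1 H (x * u⁻¹) τ := by
  rw [f1_smul]
  have := eInf_slash (H := H) x u 12 γ h10 hu
  rw [show ((12 : ℕ) : ℤ) = 12 from rfl] at this
  rw [this, f1]

theorem eInf_congr {x y : (ZMod q)ˣ} (h : x⁻¹ * y ∈ H) (k : ℕ) : eInf H x k = eInf H y k := by
  have h1 : cInd H x = cInd H y := by
    classical
    funext a
    by_cases ha : IsUnit a
    · obtain ⟨z, rfl⟩ := ha
      rw [cInd_unit, cInd_unit]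
      congr 1
      apply propext
      constructor
      · intro h2
        have := mul_mem (inv_mem h) h2
        rwa [mul_inv, inv_inv, mul_comm x, mul_assoc, mul_inv_cancel_left] at this
      · intro h2
        have := mul_mem h h2
        rwa [mul_assoc, mul_inv_cancel_left] at this
    · rw [cInd_of_not_isUnit _ ha, cInd_of_not_isUnit _ ha]
  rw [eInf, eInf, h1]

theorem f1_polInf (x : (ZMod q)ˣ) (γ : SL(2, ℤ)) : (fun τ : ℍ => f1 H x (γ • τ)) ∈ polInf := by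
  have h0 : (fun τ : ℍ => f1 H x (γ • τ)) =
      ((eInf H x 12) ∣[(12 : ℤ)] γ) * fun τ => (discriminant τ)⁻¹ := by
    funext τ
    rw [f1_smul]
    rfl
  have hinv : MDiff (fun τ : ℍ => (discriminant τ)⁻¹) := by
    have h0 := (mdifferentiable_const (c := (1 : ℂ))).div mdiff_discriminant discriminant_ne_zero
    have e : (fun τ : ℍ => (discriminant τ)⁻¹) = (fun _ : ℍ => (1 : ℂ)) / discriminant := by
      funext τ
      simp
    rw [e]
    exact h0
  rw [h0, mem_polInf]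
  refine ⟨?_, 1, ?_⟩
  · exact ((eInf_mdiff (H := H) x (k := 12) (by norm_num)).slash 12 (mapGL ℝ γ)).mul hinv
  · have h1 : ((eInf H x 12) ∣[(12 : ℤ)] γ) * (fun τ => (discriminant τ)⁻¹) *
        (discriminant : ℍ → ℂ) ^ 1 = (eInf H x 12) ∣[(12 : ℤ)] γ := by
      funext τ
      simp only [Pi.mul_apply, pow_one]
      rw [mul_assoc, inv_mul_cancel₀ (discriminant_ne_zero τ), mul_one]
    rw [h1]
    exact eInf_bdd (H := H) x (k := 12) (by norm_num) γ

variable (H) in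
/-- the expansion of `eInf` -/
def PInf (x : (ZMod q)ˣ) : PowerSeries ℤ := PowerSeries.mk (eInfInt H x 12)

theorem lexp_f1 (x : (ZMod q)ˣ) :
    LExp 1 (f1 H x) (HahnSeries.ofPowerSeries ℤ ℂ ((PInf H x).map (Int.castRingHom ℂ)) *
      deltaInvC ℂ) := by
  refine LExp.mul ?_ lexp_discriminant_inv
  refine LExp.of_hasSum fun τ => ?_
  have h1 := hasSum_eInf (H := H) x (k := 12) (by norm_num) τ
  convert! h1 using 1
  funext n
  rw [PowerSeries.coeff_map, PInf, PowerSeries.coeff_mk, eq_intCast, cast_eInfInt]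
  rfl

theorem coeffMap_intMap (σ : ℂ →+* ℂ) (P : PowerSeries ℤ) :
    coeffMap σ (HahnSeries.ofPowerSeries ℤ ℂ (P.map (Int.castRingHom ℂ))) =
      HahnSeries.ofPowerSeries ℤ ℂ (P.map (Int.castRingHom ℂ)) := by
  rw [X0Emb.coeffMap_ofPowerSeries]
  congr 1
  ext n
  simp

/-! ### The value at the other cusp -/

variable {m : ℕ} (D : WD m q)

theorem A_11 : ((D.A 1 1 : ℤ) : ZMod q) = 0 := by
  have : D.A 1 1 = q * D.e := rfl
  rw [this]
  push_cast
  rw [ZMod.natCast_self, zero_mul]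

theorem A_10 : ((D.A 1 0 : ℤ) : ZMod q) = ((1 : (ZMod q)ˣ) : ZMod q) := by
  have : D.A 1 0 = m * D.c := rfl
  rw [this]
  have h := congrArg (Int.cast : ℤ → ZMod q) D.rel
  push_cast at h ⊢
  rw [ZMod.natCast_self] at h
  linear_combination h

/-- `Δ(q τ)` -/
theorem f1_act (hH : (-1 : (ZMod q)ˣ) ∈ H) (x : (ZMod q)ˣ) (τ : ℍ) :
    f1 H x (D.act τ) = ((q : ℂ) ^ 12)⁻¹ * F0 (cInd H x) 12 τ *
      (discriminant (aff q 0 1 τ))⁻¹ := by
  rw [WD.act, f1_smul]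
  have hw : ((aff q 0 1 τ : ℍ) : ℂ) = q * τ := by
    rw [coe_aff]
    simp
  have h := eInf_slash_A_apply (H := H) hH x 1 12 D.A (A_11 D) (A_10 D) τ (aff q 0 1 τ) hw
  rw [inv_one, mul_one] at h
  rw [show ((12 : ℕ) : ℤ) = 12 from rfl] at h
  rw [h]

variable (H) in
/-- the expansion of `F0` -/
def P0 (x : (ZMod q)ˣ) : PowerSeries ℂ := qExpansion 1 (F0 (cInd H x) 12)

theorem lexp_F0 (x : (ZMod q)ˣ) :
    LExp 1 (F0 (cInd H x) 12) (HahnSeries.ofPowerSeries ℤ ℂ (P0 H x)) := by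
  refine LExp.of_hasSum fun τ => ?_
  have h1 := ModularForm.hasSum_qExpansion (f := F0MF (cInd H x) 12 (by norm_num)) one_pos
    DSEis.one_mem_G1 τ
  rw [coe_F0MF] at h1
  exact h1

variable (H) in
/-- the expansion of `f1 ∘ W` -/
def V0 (x : (ZMod q)ˣ) : LaurentSeries ℂ :=
  HahnSeries.C ((q : ℂ) ^ 12)⁻¹ * HahnSeries.ofPowerSeries ℤ ℂ (P0 H x) *
    qExpand ℂ q (deltaInvC ℂ)

theorem lexp_f1_act (hH : (-1 : (ZMod q)ˣ) ∈ H) (x : (ZMod q)ˣ) :
    LExp 1 (fun τ => f1 H x (D.act τ)) (V0 H x) := by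
  have h1 : (fun τ => f1 H x (D.act τ)) = (fun _ => ((q : ℂ) ^ 12)⁻¹) * F0 (cInd H x) 12 *
      fun τ => (discriminant (aff q 0 1 τ))⁻¹ := by
    funext τ
    rw [f1_act D hH]
    rfl
  have h2 : LExp 1 (fun τ => (discriminant (aff q 0 1 τ))⁻¹) (qExpand ℂ q (deltaInvC ℂ)) := by
    have h := lexp_discriminant_inv.aff q 0 1 q 1 (by ring)
    rw [zetaU_zero, ModFun.twist_one, Nat.cast_one] at h
    exact h
  rw [h1]
  exact ((LExp.const 1 _).mul (lexp_F0 x)).mul h2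

theorem coeffMap_V0 (hH : (-1 : (ZMod q)ˣ) ∈ H) {σ : ℂ →+* ℂ} {t : (ZMod q)ˣ}
    (hσ : σ (stdAddChar (1 : ZMod q)) = stdAddChar (t : ZMod q)) (x : (ZMod q)ˣ) :
    coeffMap σ (V0 H x) = V0 H (x * t) := by
  have h1 : (P0 H x).map σ = P0 H (x * t) := by
    rw [P0, P0, ← cInd_conj σ t x]
    exact (qExpansion_F0_conj hσ (cInd H x) (cInd_neg hH x) (k := 12) (by norm_num)
      (by decide)).symm
  rw [V0, map_mul, map_mul, X0Emb.coeffMap_ofPowerSeries, h1, ModularCurve.coeffMap_qExpand,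
    coeffMap_deltaInvC, V0]
  congr 2
  show coeffMap σ (HahnSeries.single 0 _) = HahnSeries.single 0 _
  rw [coeffMap_single, map_inv₀, map_pow, map_natCast]

/-! ### `j(mτ)` at the other cusp -/

variable [NeZero m]

/-- `m W τ` is a translate of `m q τ`. -/
theorem jd_act (τ : ℍ) : jd m (D.act τ) = jd (m * q) τ := by
  let A' : SL(2, ℤ) := ⟨!![(q : ℤ), -m; D.c, q * D.e], by
    rw [Matrix.det_fin_two_of]
    linear_combination D.rel⟩
  have h : aff m 0 1 (D.act τ) = A' • aff (m * q) 0 1 τ := by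
    ext
    have hq0 : (q : ℂ) ≠ 0 := by exact_mod_cast NeZero.ne q
    have hm0 : (m : ℂ) ≠ 0 := by exact_mod_cast NeZero.ne m
    rw [coe_aff, WD.act, coe_sl_smul, coe_sl_smul, coe_aff, coe_aff]
    have e1 : D.A 0 0 = q := rfl
    have e2 : D.A 0 1 = -1 := rfl
    have e3 : D.A 1 0 = m * D.c := rfl
    have e4 : D.A 1 1 = q * D.e := rfl
    have e5 : A' 0 0 = q := rfl
    have e6 : A' 0 1 = -m := rfl
    have e7 : A' 1 0 = D.c := rfl
    have e8 : A' 1 1 = q * D.e := rfl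
    rw [e1, e2, e3, e4, e5, e6, e7, e8]
    push_cast
    rw [add_zero, add_zero, add_zero, div_one, div_one, div_one, mul_div_assoc']
    congr 1 <;> ring
  rw [jd, h, jFun_smul, jd]

/-- `j(m W τ)` composed with a diamond -/
theorem jd_dia_act {γ : SL(2, ℤ)} (hγ : γ ∈ Gamma0 (m * q)) (τ : ℍ) :
    jd m (γ • D.act τ) = jd (m * q) τ := by
  have h1 : γ ∈ Gamma0 m := by
    rw [Gamma0_mem, ZMod.intCast_zmod_eq_zero_iff_dvd] at hγ ⊢
    refine dvd_trans ?_ hγ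
    push_cast
    exact Dvd.intro _ rfl
  rw [jd_inv (dvd_refl m) γ h1, jd_act]

end F1

/-! ### The separating function -/

section Sep

variable {m q : ℕ} [NeZero m] [hq : Fact q.Prime] [NeZero q] {H : Subgroup (ZMod q)ˣ}

variable (m H) in
/-- `j(mτ) + α f₁` -/
def vSep (α : ℕ) (τ : ℍ) : ℂ := jd m τ + α * f1 H 1 τ

theorem isModFun_GD_of {u : ℍ → ℂ} (h1 : ∀ γ ∈ GD m q H, ∀ τ : ℍ, u (γ • τ) = u τ)
    (h2 : ∀ γ : SL(2, ℤ), (fun τ : ℍ => u (γ • τ)) ∈ polInf) : IsModFun (GD m q H) u :=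
  ⟨h1, h2⟩

theorem mem_Gamma0_left {γ : SL(2, ℤ)} (hγ : γ ∈ Gamma0 (m * q)) : γ ∈ Gamma0 m := by
  rw [Gamma0_mem, ZMod.intCast_zmod_eq_zero_iff_dvd] at hγ ⊢
  refine dvd_trans ?_ hγ
  push_cast
  exact Dvd.intro _ rfl

variable (m H) in
theorem isModFun_jd_GD : IsModFun (GD m q H) (jd m) where
  inv γ hγ τ := jd_inv (dvd_refl m) γ (mem_Gamma0_left hγ.1) τ
  conj := (isModFun_jd (dvd_refl m)).conj

variable (m H) in
theorem isModFun_f1_GD : IsModFun (GD m q H) (f1 H 1) where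
  inv γ hγ τ := by
    obtain ⟨u, hu, hγu⟩ := hγ.2
    rw [f1_dia 1 u γ (entry10_mod hγ.1) hγu, one_mul, f1, f1,
      eInf_congr (x := u⁻¹) (y := 1) (by simpa using hu)]
  conj γ := f1_polInf 1 γ

variable (m H) in
theorem isModFun_vSep (α : ℕ) : IsModFun (GD m q H) (vSep m H α) where
  inv γ hγ τ := by
    rw [vSep, vSep, (isModFun_jd_GD m H).inv γ hγ, (isModFun_f1_GD m H).inv γ hγ]
  conj γ := by
    have h1 := (isModFun_jd_GD m H).conj γ
    have h2 := (isModFun_f1_GD m H).conj γ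
    have h3 := Subalgebra.smul_mem _ h2 (α : ℂ)
    exact Subalgebra.add_mem _ h1 h3

theorem stab_aux (hcop : Nat.Coprime q m) (hH : (-1 : (ZMod q)ˣ) ∈ H) {γ : SL(2, ℤ)}
    (h1 : ∀ τ : ℍ, jd m (γ • τ) = jd m τ) (h2 : ∀ τ : ℍ, f1 H 1 (γ • τ) = f1 H 1 τ) :
    γ ∈ GD m q H := by
  have e1 := mem_Gamma0_of_jd m γ h1
  have e2 : (eInf H 1 12) ∣[((12 : ℕ) : ℤ)] γ = eInf H 1 12 := by
    funext τ
    have h := h2 τ
    rw [f1_smul, f1] at h
    exact mul_right_cancel₀ (inv_ne_zero (discriminant_ne_zero τ)) h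
  obtain ⟨e3, e4⟩ := mem_of_eInf_slash_eq hH (by norm_num) (by decide) e2
  refine ⟨?_, e4⟩
  rw [Gamma0_mem, ZMod.intCast_zmod_eq_zero_iff_dvd] at e1 ⊢
  rw [ZMod.intCast_zmod_eq_zero_iff_dvd] at e3
  push_cast
  exact IsCoprime.mul_dvd (Nat.isCoprime_iff_coprime.mpr hcop.symm) e1 e3

theorem exists_alpha (hcop : Nat.Coprime q m) (hH : (-1 : (ZMod q)ˣ) ∈ H) :
    ∃ α : ℕ, ∀ γ : SL(2, ℤ), (∀ τ : ℍ, vSep m H α (γ • τ) = vSep m H α τ) → γ ∈ GD m q H := by
  classical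
  set Γ := GD m q H with hΓ
  have hJ : IsModFun Γ (jd m) := isModFun_jd_GD m H
  have hF : IsModFun Γ (f1 H 1) := isModFun_f1_GD m H
  -- the bad values
  set bad : SL(2, ℤ) ⧸ Γ → Set ℕ := fun x => {α : ℕ | x ≠ ((1 : SL(2, ℤ)) : SL(2, ℤ) ⧸ Γ) ∧
    ∀ τ : ℍ, (conjF hJ x : ℍ → ℂ) τ + α * (conjF hF x : ℍ → ℂ) τ =
      jd m τ + α * f1 H 1 τ} with hbad
  have hsub : ∀ x, (bad x).Subsingleton := by
    intro x α hα β hβ
    by_contra hne
    obtain ⟨g, rfl⟩ := QuotientGroup.mk_surjective x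
    have hd : ∀ τ, (conjF hF (g : SL(2, ℤ) ⧸ Γ) : ℍ → ℂ) τ = f1 H 1 τ := by
      intro τ
      have a1 := hα.2 τ
      have a2 := hβ.2 τ
      have a3 : ((α : ℂ) - β) * ((conjF hF (g : SL(2, ℤ) ⧸ Γ) : ℍ → ℂ) τ - f1 H 1 τ) = 0 := by
        linear_combination a1 - a2
      rcases mul_eq_zero.mp a3 with a4 | a4
      · rw [sub_eq_zero] at a4
        exact absurd (by exact_mod_cast a4) hne
      · exact sub_eq_zero.mp a4
    have hd' : ∀ τ, (conjF hJ (g : SL(2, ℤ) ⧸ Γ) : ℍ → ℂ) τ = jd m τ := by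
      intro τ
      have a1 := hα.2 τ
      rw [hd τ] at a1
      exact add_right_cancel a1
    have hg : g⁻¹ ∈ Γ := stab_aux hcop hH (fun τ => (conjF_mk hJ g τ).symm.trans (hd' τ))
      (fun τ => (conjF_mk hF g τ).symm.trans (hd τ))
    apply hα.1
    rw [eq_comm, QuotientGroup.eq, inv_one, one_mul]
    exact (inv_mem_iff).mp hg
  have hfin : (⋃ x, bad x).Finite := by
    have : Finite (SL(2, ℤ) ⧸ Γ) := inferInstance
    exact Set.finite_iUnion fun x => (hsub x).finite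
  obtain ⟨α, hα⟩ := hfin.infinite_compl.nonempty
  refine ⟨α, fun γ hγ => ?_⟩
  by_contra hcon
  apply hα
  rw [Set.mem_iUnion]
  refine ⟨((γ⁻¹ : SL(2, ℤ)) : SL(2, ℤ) ⧸ Γ), ?_, fun τ => ?_⟩
  · intro h
    apply hcon
    rw [QuotientGroup.eq, inv_inv, mul_one] at h
    exact h
  · rw [conjF_mk, conjF_mk, inv_inv]
    exact hγ τ

variable (m H) in
/-- the expansion of `vSep` -/
def VSep (α : ℕ) : LaurentSeries ℂ := qExpand ℂ m (jqModC ℂ) +
  HahnSeries.C (α : ℂ) * (HahnSeries.ofPowerSeries ℤ ℂ ((PInf H 1).map (Int.castRingHom ℂ)) *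
      deltaInvC ℂ)

theorem lexp_vSep (α : ℕ) : LExp 1 (vSep m H α) (VSep m H α) :=
  (lexp_jd m).add ((LExp.const 1 _).mul (lexp_f1 1))

theorem coeffMap_C_nat (σ : ℂ →+* ℂ) (α : ℕ) :
    coeffMap σ (HahnSeries.C (α : ℂ)) = HahnSeries.C (α : ℂ) := by
  show coeffMap σ (HahnSeries.single 0 _) = HahnSeries.single 0 _
  rw [coeffMap_single, map_natCast]

theorem coeffMap_VSep (σ : ℂ →+* ℂ) (α : ℕ) : coeffMap σ (VSep m H α) = VSep m H α := by
  rw [VSep, map_add, map_mul, map_mul, coeffMap_C_nat, coeffMap_intMap, coeffMap_deltaInvC,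
    ModularCurve.coeffMap_qExpand, coeffMap_jqModC]

variable (D : WD m q)

theorem lexp_vSep_act (hH : (-1 : (ZMod q)ˣ) ∈ H) (α : ℕ) :
    LExp 1 (fun τ => vSep m H α (D.act τ))
      (qExpand ℂ (m * q) (jqModC ℂ) + HahnSeries.C (α : ℂ) * V0 H 1) := by
  have h1 : (fun τ => vSep m H α (D.act τ)) =
      jd (m * q) + (fun _ => (α : ℂ)) * fun τ => f1 H 1 (D.act τ) := by
    funext τ
    rw [vSep, jd_act]
    rfl
  rw [h1]
  exact (lexp_jd (m * q)).add ((LExp.const 1 _).mul (lexp_f1_act D hH 1))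

theorem lexp_vSep_dia_act (hH : (-1 : (ZMod q)ˣ) ∈ H) (α : ℕ) {γ : SL(2, ℤ)}
    (hγ : γ ∈ Gamma0 (m * q)) {u : (ZMod q)ˣ} (hu : ((γ 1 1 : ℤ) : ZMod q) = u) :
    LExp 1 (fun τ => vSep m H α (γ • D.act τ))
      (qExpand ℂ (m * q) (jqModC ℂ) + HahnSeries.C (α : ℂ) * V0 H u⁻¹) := by
  have h1 : (fun τ => vSep m H α (γ • D.act τ)) =
      jd (m * q) + (fun _ => (α : ℂ)) * fun τ => f1 H u⁻¹ (D.act τ) := by
    funext τ
    rw [vSep, jd_dia_act D hγ, f1_dia 1 u γ (entry10_mod hγ) hu, one_mul]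
    rfl
  rw [h1]
  exact (lexp_jd (m * q)).add ((LExp.const 1 _).mul (lexp_f1_act D hH u⁻¹))

/-- **Conjugation of expansions at the second cusp.** -/
theorem al_conj (hcop : Nat.Coprime q m) (hH : (-1 : (ZMod q)ˣ) ∈ H) {σ : ℂ →+* ℂ}
    {t u : (ZMod q)ˣ} (htu : t * u = 1)
    (hσ : σ (stdAddChar (1 : ZMod q)) = stdAddChar (t : ZMod q)) {γ : SL(2, ℤ)}
    (hγ : γ ∈ Gamma0 (m * q)) (hu : ((γ 1 1 : ℤ) : ZMod q) = u) {F F' : ℍ → ℂ}
    (hF : IsModFun (GD m q H) F) {U : LaurentSeries ℂ} (hU : LExp 1 F U)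
    (hU' : LExp 1 F' (coeffMap σ U)) {UA UB : LaurentSeries ℂ}
    (huA : LExp 1 (fun τ => F (D.act τ)) UA) (huB : LExp 1 (fun τ => F' (γ • D.act τ)) UB) :
    UB = coeffMap σ UA := by
  obtain ⟨α, hα⟩ := exists_alpha (m := m) (H := H) hcop hH
  have hJ : LExp 1 (fun τ => jFun (D.act τ)) (qExpand ℂ q (jqModC ℂ)) := by
    have h1 : (fun τ => jFun (D.act τ)) = jd q := by
      funext τ
      rw [WD.act, jFun_smul, jd]
    rw [h1]
    exact lexp_jd q
  have hJ' : LExp 1 (fun τ => jFun (γ • D.act τ)) (coeffMap σ (qExpand ℂ q (jqModC ℂ))) := by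
    have h1 : (fun τ => jFun (γ • D.act τ)) = fun τ => jFun (D.act τ) := by
      funext τ
      rw [jFun_smul]
    rw [h1, ModularCurve.coeffMap_qExpand, coeffMap_jqModC]
    exact hJ
  have hv := lexp_vSep (m := m) (H := H) α
  have hv' : LExp 1 (vSep m H α) (coeffMap σ (VSep m H α)) := by
    rw [coeffMap_VSep]
    exact hv
  have hvA := lexp_vSep_act (H := H) D hH α
  have hvB := lexp_vSep_dia_act (H := H) D hH α hγ hu
  have hut : u⁻¹ = 1 * t := by rw [one_mul]; exact inv_eq_of_mul_eq_one_left htu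
  have e : qExpand ℂ (m * q) (jqModC ℂ) + HahnSeries.C (α : ℂ) * V0 H u⁻¹ =
      coeffMap σ (qExpand ℂ (m * q) (jqModC ℂ) + HahnSeries.C (α : ℂ) * V0 H 1) := by
    rw [map_add, map_mul, coeffMap_C_nat, ModularCurve.coeffMap_qExpand, coeffMap_jqModC,
      coeffMap_V0 hH hσ, hut]
  rw [e] at hvB
  exact conj_comp (isModFun_vSep m H α) hα σ hv hv' (A := D.act) (B := fun τ => γ • D.act τ)
    D.act_surjective one_pos hJ hJ' hvA hvB hF hU hU' huA huB

/-! ### The instance -/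

omit [NeZero m] in
theorem zetaU_eq_stdAddChar : ((zetaU 1 q : ℂˣ) : ℂ) = stdAddChar (1 : ZMod q) := by
  have h := stdAddChar_coe (N := q) 1
  rw [Int.cast_one] at h
  rw [h, zetaU, Units.val_mk0]
  congr 1

/-- the image of a root of unity -/
theorem exists_sigma_stdAddChar (σ : ℂ →+* ℂ) :
    ∃ s : ZMod q, σ (stdAddChar (1 : ZMod q)) = stdAddChar s := by
  have h1 := zetaU_isPrimitiveRoot q
  rw [zetaU_eq_stdAddChar] at h1
  have h2 : (σ (stdAddChar (1 : ZMod q))) ^ q = 1 := by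
    rw [← map_pow, h1.pow_eq_one, map_one]
  obtain ⟨i, -, hi⟩ := h1.eq_pow_of_pow_eq_one h2
  refine ⟨(i : ZMod q), ?_⟩
  rw [← hi, ← stdAddChar_natCast_mul, mul_one]

theorem al_condition {σ : ℂ →+* ℂ} {u : (ZMod (m * q))ˣ}
    (h : σ ((zetaU 1 q : ℂˣ) : ℂ) ^ ((u : ZMod (m * q)).val) = ((zetaU 1 q : ℂˣ) : ℂ)) :
    ∃ t u' : (ZMod q)ˣ, t * u' = 1 ∧ σ (stdAddChar (1 : ZMod q)) = stdAddChar (t : ZMod q) ∧
      ((diaMat (m * q) u 1 1 : ℤ) : ZMod q) = u' := by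
  obtain ⟨s, hs⟩ := exists_sigma_stdAddChar (q := q) σ
  rw [zetaU_eq_stdAddChar, hs, ← stdAddChar_natCast_mul] at h
  have h1 := injective_stdAddChar h
  set f : ZMod (m * q) →+* ZMod q := ZMod.castHom (Dvd.intro_left m rfl : q ∣ m * q) (ZMod q)
  have h2 : f (u : ZMod (m * q)) = (((u : ZMod (m * q)).val : ℕ) : ZMod q) := by
    conv_lhs => rw [← ZMod.natCast_zmod_val (u : ZMod (m * q))]
    rw [map_natCast]
  have h3 : f (u : ZMod (m * q)) = ((diaMat (m * q) u 1 1 : ℤ) : ZMod q) := by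
    rw [← diaMat_11 u, map_intCast]
  rw [← h2] at h1
  have hs' : s * f (u : ZMod (m * q)) = 1 := by rw [mul_comm]; exact h1
  refine ⟨⟨s, f (u : ZMod (m * q)), hs', h1⟩, ⟨f (u : ZMod (m * q)), s, h1, hs'⟩, ?_, hs, ?_⟩
  · exact Units.ext hs'
  · exact h3.symm

/-- **The groups `GD m q H`, `-1 ∈ H`, satisfy `ALGroup`.** -/
theorem alGroup_GD (hcop : Nat.Coprime q m) (hH : (-1 : (ZMod q)ˣ) ∈ H) :
    ALGroup D (GD m q H) where
  al σ u hu F F' G E hF hF' hE := by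
    have : NeZero (m * q) := ⟨Nat.mul_ne_zero (NeZero.ne m) (NeZero.ne q)⟩
    have : GoodGroup (GD m q H) := goodGroup_of_between (m * q) _
    obtain ⟨t, u', htu, hσ, hu'⟩ := al_condition (m := m) (q := q) (σ := (σ : ℂ →+* ℂ)) hu
    -- existence of an expansion
    have hex : ∃ UB : LaurentSeries ℂ,
        LExp 1 (fun τ => F' (diaMat (m * q) u • D.act τ)) UB := by
      have hinv := act_inv (D := D) (Γ := GD m q H) (F := fun τ => F' (diaMat (m * q) u • τ))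
        (dia_inv (M := m * q) (Γ := GD m q H) hF'.inv u)
      have hm := D.mdiff_act (F := fun τ => F' (diaMat (m * q) u • τ))
        (mdiff_comp_smul hF'.mdiff _)
      have hg := D.growth_act (F := fun τ => F' (diaMat (m * q) u • τ))
        (smul_growth hF'.growth _)
      obtain ⟨UB, hUB⟩ := exists_lexp (h := 1) hm (fun τ => by
        have h1 := hinv _ (T_mem_GD m q H) τ
        rw [UpperHalfPlane.modular_T_smul] at h1
        simpa using h1) (by
        have h1 : GrowthInf (fun τ => F' (diaMat (m * q) u • D.act ((1 : SL(2, ℤ)) • τ))) := hg 1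
        simpa only [one_smul] using h1)
      rw [Nat.cast_one] at hUB
      exact ⟨UB, hUB⟩
    obtain ⟨UB, hUB⟩ := hex
    have hFl : LExp 1 F G := by
      have := hF.lexp
      rwa [ModularCurve.coeffMap_id, Nat.cast_one] at this
    have hFl' : LExp 1 F' (coeffMap (σ : ℂ →+* ℂ) G) := by
      have := hF'.lexp
      rwa [ModularCurve.coeffMap_id, Nat.cast_one] at this
    have := al_conj D hcop hH htu hσ (diaMat_mem u) hu' hF.isModFun hFl hFl' hE hUB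
    rw [← this]
    exact hUB

omit [NeZero m] hq [NeZero q] in
theorem GD_top [Fact q.Prime] : GD m q (⊤ : Subgroup (ZMod q)ˣ) = Gamma0 (m * q) := by
  ext g
  rw [mem_GD]
  constructor
  · exact fun h => h.1
  · intro h
    refine ⟨h, ?_⟩
    have h1 := entry00_mul_11 h
    rw [mul_comm] at h1
    obtain ⟨u, hu⟩ := IsUnit.of_mul_eq_one _ h1
    exact ⟨u, Subgroup.mem_top u, hu.symm⟩

theorem alGroup_Gamma0 (hcop : Nat.Coprime q m) : ALGroup D (Gamma0 (m * q)) := by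
  have h := alGroup_GD (H := (⊤ : Subgroup (ZMod q)ˣ)) D hcop (Subgroup.mem_top _)
  rwa [GD_top] at h

end Sep

end Fermat.Agent.Ribet
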