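import Fermat.Agent.RT.GroupRing

/-!
# The group ring of a cyclic `p`-group: annihilators, inversion, characters
-/

set_option autoImplicit false
set_option linter.unusedSectionVars false
set_option linter.unusedVariables false
set_option linter.style.haveILetI false

noncomputable section

open IsLocalRing

namespace Fermat.Agent.Ribet

open Fermat.Agent.RT

section Nrm

variable {R : Type*} [CommRing R] {Δ : Type*} [CommGroup Δ] [Finite Δ]

theorem exists_nrm_eq (g : Δ) : ∃ c₀ : MonoidAlgebra R Δ,
    nrm R g = (orderOf g : ℕ) + (gr R Δ g - 1) * c₀ := by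
  have h : ∀ n : ℕ, ∃ c : MonoidAlgebra R Δ,
      ∑ j ∈ Finset.range n, gr R Δ g ^ j = (n : ℕ) + (gr R Δ g - 1) * c := by
    intro n
    induction n with
    | zero => exact ⟨0, by simp⟩
    | succ n ih =>
      obtain ⟨c, hc⟩ := ih
      obtain ⟨d, hd⟩ : gr R Δ g - 1 ∣ gr R Δ g ^ n - 1 := sub_one_dvd_pow_sub_one _ _
      refine ⟨c + d, ?_⟩
      rw [Finset.sum_range_succ, hc]
      push_cast
      linear_combination hd
  exact h _

/-- for a generator `g`, the annihilator of `g - 1` is generated by the norm element -/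
theorem exists_nrm_mul (g : Δ) (hg : ∀ x, x ∈ Subgroup.zpowers g) {b : MonoidAlgebra R Δ}
    (hb : (gr R Δ g - 1) * b = 0) : ∃ c, b = nrm R g * c := by
  classical
  haveI := Fintype.ofFinite Δ
  have h1 : gr R Δ g * b = b := by
    have : gr R Δ g * b - b = 0 := by rw [← hb]; ring
    exact sub_eq_zero.mp this
  have h2 : ∀ x, b.coeff (g⁻¹ * x) = b.coeff x := by
    intro x
    have := congrArg (fun z : MonoidAlgebra R Δ => z.coeff x) h1
    simp only [coeff_gr_mul] at this
    exact this
  have h3 : ∀ (n : ℕ) (x : Δ), b.coeff ((g ^ n)⁻¹ * x) = b.coeff x := by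
    intro n
    induction n with
    | zero => intro x; simp
    | succ n ih =>
      intro x
      rw [pow_succ, mul_inv_rev, mul_assoc, h2, ih]
  refine ⟨MonoidAlgebra.single 1 (b.coeff 1), ?_⟩
  ext x
  have hx : ∃ n < orderOf g, g ^ n = x := by
    have := (isOfFinOrder_of_finite g).mem_zpowers_iff_mem_range_orderOf.1 (hg x)
    obtain ⟨n, hn, hn'⟩ := Finset.mem_image.1 this
    exact ⟨n, Finset.mem_range.1 hn, hn'⟩
  obtain ⟨n, hn, rfl⟩ := hx
  rw [coeff_nrm_mul, Finset.sum_eq_single_of_mem n (Finset.mem_range.2 hn)]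
  · rw [inv_mul_cancel, MonoidAlgebra.coeff_single, Finsupp.single_apply, if_pos rfl]
    have := h3 n (g ^ n)
    rw [inv_mul_cancel] at this
    exact this.symm
  · intro j hj hjn
    rw [MonoidAlgebra.coeff_single, Finsupp.single_apply, if_neg]
    intro hh
    apply hjn
    have : g ^ j = g ^ n := by
      rw [eq_comm, inv_mul_eq_one] at hh
      exact hh
    exact pow_injOn_Iio_orderOf (by simpa using Finset.mem_range.1 hj) (by simpa using hn) this

theorem nrm_mul_nrm (g : Δ) : nrm R g * nrm R g = (orderOf g : ℕ) * nrm R g := by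
  obtain ⟨c, hc⟩ := exists_nrm_eq (R := R) g
  nth_rewrite 1 [hc]
  rw [add_mul, mul_assoc, mul_comm c, ← mul_assoc, sub_one_mul_nrm, zero_mul, add_zero]

variable [IsDomain R] [CharZero R]

theorem eq_zero_of_nat_mul {n : ℕ} (hn : n ≠ 0) {b : MonoidAlgebra R Δ}
    (h : ((n : ℕ) : MonoidAlgebra R Δ) * b = 0) : b = 0 := by
  ext x
  have h1 : (n • b).coeff x = 0 := by rw [nsmul_eq_mul, h]; rfl
  rw [MonoidAlgebra.coeff_smul, Finsupp.smul_apply, nsmul_eq_mul] at h1
  rcases mul_eq_zero.mp h1 with h2 | h2
  · exact absurd (Nat.cast_eq_zero.mp h2) hn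
  · rw [h2]; rfl

/-- the annihilator condition on free modules -/
theorem exists_of_sub_one_smul_eq {M : Type*} [AddCommGroup M] [Module (MonoidAlgebra R Δ) M]
    [Module.Free (MonoidAlgebra R Δ) M] [Module.Finite (MonoidAlgebra R Δ) M]
    (g : Δ) (hg : ∀ x, x ∈ Subgroup.zpowers g) (x : M)
    (h : ∃ y, (gr R Δ g - 1) • x = nrm R g • y) : ∃ y, x = nrm R g • y := by
  classical
  obtain ⟨y, hy⟩ := h
  let b := Module.Free.chooseBasis (MonoidAlgebra R Δ) M
  have h1 : ∀ i, (gr R Δ g - 1) * b.repr x i = 0 := by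
    intro i
    have h2 := congrArg (fun z => b.repr z i) hy
    simp only [map_smul, Finsupp.smul_apply, smul_eq_mul] at h2
    rw [h2]
    have h3 : nrm R g * (nrm R g * b.repr y i) = 0 := by
      rw [← h2, ← mul_assoc, mul_comm (nrm R g), sub_one_mul_nrm, zero_mul]
    rw [← mul_assoc, nrm_mul_nrm, mul_assoc] at h3
    exact eq_zero_of_nat_mul (orderOf_pos g).ne' h3
  choose c hc using fun i => exists_nrm_mul g hg (h1 i)
  refine ⟨∑ i, c i • b i, ?_⟩
  conv_lhs => rw [← b.sum_repr x]
  rw [Finset.smul_sum]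
  refine Finset.sum_congr rfl fun i _ => ?_
  rw [hc i, mul_smul]

end Nrm

section LocalHom

variable {R A B : Type*} [CommRing R] [IsLocalRing R] [CommRing A] [IsLocalRing A] [CommRing B]
  [IsLocalRing B] [Algebra R A] [Algebra R B] [Algebra.IsIntegral R A]
  [IsLocalHom (algebraMap R B)]

/-- a homomorphism from an integral local algebra to a local algebra is local. -/
theorem isLocalHom_of_integral (f : A →ₐ[R] B) : IsLocalHom (f : A →+* B) := by
  have h1 : ((maximalIdeal B).comap (f : A →+* B)).IsPrime := inferInstance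
  have h2 : (((maximalIdeal B).comap (f : A →+* B)).comap (algebraMap R A)).IsMaximal := by
    have : ((maximalIdeal B).comap (f : A →+* B)).comap (algebraMap R A) = maximalIdeal R := by
      ext r
      rw [Ideal.mem_comap, Ideal.mem_comap]
      have : (f : A →+* B) (algebraMap R A r) = algebraMap R B r := f.commutes r
      rw [this, mem_maximalIdeal, mem_maximalIdeal, mem_nonunits_iff, mem_nonunits_iff,
        isUnit_map_iff]
    rw [this]
    exact maximalIdeal.isMaximal R
  have h3 := Ideal.isMaximal_of_isIntegral_of_isMaximal_comap (R := R)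
    ((maximalIdeal B).comap (f : A →+* B)) h2
  have h4 : (maximalIdeal B).comap (f : A →+* B) = maximalIdeal A := eq_maximalIdeal h3
  constructor
  intro a ha
  by_contra hcon
  have h5 : a ∈ maximalIdeal A := (mem_maximalIdeal _).mpr hcon
  rw [← h4, Ideal.mem_comap, mem_maximalIdeal, mem_nonunits_iff] at h5
  exact h5 ha

end LocalHom

end Fermat.Agent.Ribet

end
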