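import Fermat.Agent.Ribet.Family
import Fermat.Agent.Ribet.Lam
import Fermat.Agent.RT.DvrExt
import Fermat.Agent.RT.Embed
import Fermat.Agent.HeckeRep.Fourier

/-!
# Road B for the group ring of a cyclic group
-/

set_option autoImplicit false
set_option linter.unusedSectionVars false
set_option linter.unusedVariables false
set_option linter.style.haveILetI false

noncomputable section

namespace Fermat.Agent.Ribet

open IsLocalRing HeckeRep RT

theorem two_isUnit_of_odd {B : Type*} [CommRing B] [IsLocalRing B] {p : ℕ} (hp : p.Prime)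
    (hp2 : p ≠ 2) (hpB : (p : B) ∈ maximalIdeal B) : IsUnit (2 : B) := by
  by_contra h
  have h3 : (2 : B) ∈ maximalIdeal B := (mem_maximalIdeal _).mpr h
  obtain ⟨k, hk⟩ := hp.odd_of_ne_two hp2
  have h4 : (1 : B) = (p : B) - k * 2 := by rw [hk]; push_cast; ring
  exact (Ideal.ne_top_iff_one _).mp (maximalIdeal.isMaximal B).ne_top
    (h4 ▸ Ideal.sub_mem _ hpB (Ideal.mul_mem_left _ _ h3))

theorem natCast_mem_maximalIdeal {p : ℕ} [Fact p.Prime] {T : Type*} [CommRing T] [IsLocalRing T]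
    [Algebra ℤ_[p] T] [IsLocalHom (algebraMap ℤ_[p] T)] : (p : T) ∈ maximalIdeal T := by
  have h1 : ((p : ℕ) : ℤ_[p]) ∈ maximalIdeal ℤ_[p] := by
    rw [PadicInt.maximalIdeal_eq_span_p]
    exact Ideal.mem_span_singleton_self _
  rw [mem_maximalIdeal, mem_nonunits_iff] at h1 ⊢
  intro h2
  rw [← map_natCast (algebraMap ℤ_[p] T)] at h2
  exact h1 (isUnit_of_map_unit _ _ h2)

theorem isUnit_natCast_of_not_dvd {p : ℕ} [hp : Fact p.Prime] {B : Type*} [CommRing B]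
    [IsLocalRing B] (hpB : (p : B) ∈ maximalIdeal B) {r : ℕ} (hr : ¬ p ∣ r) : IsUnit (r : B) := by
  have h1 : IsCoprime (r : ℤ) (p : ℤ) :=
    (Nat.isCoprime_iff_coprime.mpr ((Nat.Prime.coprime_iff_not_dvd hp.out).mpr hr)).symm
  obtain ⟨a, b, hab⟩ := h1
  by_contra h
  have h3 : (r : B) ∈ maximalIdeal B := (mem_maximalIdeal _).mpr h
  have h4 : (1 : B) = (a : B) * r + (b : B) * p := by
    have := congrArg (fun z : ℤ => (z : B)) hab
    push_cast at this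
    exact this.symm
  exact (Ideal.ne_top_iff_one _).mp (maximalIdeal.isMaximal B).ne_top
    (h4 ▸ Ideal.add_mem _ (Ideal.mul_mem_left _ _ h3) (Ideal.mul_mem_left _ _ hpB))

/-- the ramified character of the group ring, over a discrete valuation ring. -/
theorem exists_dvr_char {p : ℕ} [Fact p.Prime] {Δ : Type} [CommGroup Δ] [Fintype Δ]
    [IsLocalRing (MonoidAlgebra ℤ_[p] Δ)] (g : Δ) (hg : ∀ x, x ∈ Subgroup.zpowers g)
    {k : ℕ} (hk0 : 0 < k) (hgo : orderOf g = p ^ k) :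
    ∃ (O' : Type) (_ : CommRing O') (_ : IsDomain O') (_ : IsDiscreteValuationRing O')
      (_ : CharZero O') (_ : Algebra ℤ_[p] O') (_ : IsLocalHom (algebraMap ℤ_[p] O'))
      (χ : MonoidAlgebra ℤ_[p] Δ →ₐ[ℤ_[p]] O') (_ : IsLocalHom (χ : MonoidAlgebra ℤ_[p] Δ →+* O'))
      (ζ : O') (ι : ℤ_[p] →+* ℂ) (ψ : Δ →* ℂˣ), IsPrimitiveRoot ζ p ∧ χ (gr ℤ_[p] Δ g) = ζ ∧
      Function.Injective ι ∧ ψ ≠ 1 ∧
      ∀ a, χ a = 0 ↔ chiO ι ψ a = 0 := by
  have hp : p.Prime := Fact.out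
  have hres : Finite (ResidueField ℤ_[p]) :=
    Finite.of_equiv (ZMod p) PadicInt.residueField.symm.toEquiv
  obtain ⟨ι, hι⟩ := exists_embedding ℤ_[p]
  letI : Algebra ℤ_[p] ℂ := ι.toAlgebra
  haveI : FaithfulSMul ℤ_[p] ℂ := (faithfulSMul_iff_algebraMap_injective ℤ_[p] ℂ).mpr hι
  -- the character
  have hζ0 : IsPrimitiveRoot (Complex.exp (2 * Real.pi * Complex.I / p)) p :=
    Complex.isPrimitiveRoot_exp p hp.ne_zero
  obtain ⟨z, hz⟩ : ∃ z : ℂˣ, (z : ℂ) = Complex.exp (2 * Real.pi * Complex.I / p) :=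
    ⟨(hζ0.isUnit hp.ne_zero).unit, rfl⟩
  have hzp : IsPrimitiveRoot z p := IsPrimitiveRoot.coe_units_iff.mp (hz ▸ hζ0)
  have hzo : orderOf z ∣ orderOf g := by
    rw [hgo, ← hzp.eq_orderOf]
    exact dvd_pow_self p hk0.ne'
  let ψ : Δ →* ℂˣ := monoidHomOfForallMemZpowers hg hzo
  have hψg : ψ g = z := monoidHomOfForallMemZpowers_apply_gen hg hzo
  have hψ1 : ψ ≠ 1 := by
    intro h
    rw [h, MonoidHom.one_apply] at hψg
    have := hzp.eq_orderOf
    rw [← hψg, orderOf_one] at this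
    exact hp.one_lt.ne' this
  let x : MonoidAlgebra ℤ_[p] Δ →ₐ[ℤ_[p]] ℂ :=
    { chiO ι ψ with
      commutes' := fun a => by
        show chiO ι ψ (algebraMap ℤ_[p] (MonoidAlgebra ℤ_[p] Δ) a) = ι a
        rw [MonoidAlgebra.coe_algebraMap, Function.comp_apply, chiO_single, map_one,
          Units.val_one, mul_one]
        rfl }
  have hx : ∀ a, x a = chiO ι ψ a := fun _ => rfl
  obtain ⟨O', i1, i2, i3, i4, i5, i6, i7, i8, i9, y, i, h1, h2, h3⟩ := exists_dvr_ext x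
  have hy : ∀ a, i (y a) = chiO ι ψ a := fun a => by
    rw [← hx, ← h3]; rfl
  have hig : i (y (gr ℤ_[p] Δ g)) = (z : ℂ) := by
    rw [hy]
    show chiO ι ψ (MonoidAlgebra.single g 1) = _
    rw [chiO_single, map_one, one_mul, hψg]
  refine ⟨O', i1, i2, i3, i6, i7, i9, y, isLocalHom_of_integral y, y (gr ℤ_[p] Δ g), ι, ψ,
    ?_, rfl, hι, hψ1, fun a => ?_⟩
  · refine IsPrimitiveRoot.of_map_of_injective (f := (i : O' →+* ℂ)) ?_ h2
    show IsPrimitiveRoot (i (y (gr ℤ_[p] Δ g))) p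
    rw [hig]
    exact IsPrimitiveRoot.coe_units_iff.mpr hzp
  · rw [← hy, map_eq_zero_iff i h2]

section Main

variable {p : ℕ} [Fact p.Prime] {Δ : Type} [CommGroup Δ] [Fintype Δ]
  [IsLocalRing (MonoidAlgebra ℤ_[p] Δ)]
  {T : Type} [CommRing T] [IsLocalRing T] [Algebra ℤ_[p] T] [IsLocalHom (algebraMap ℤ_[p] T)]
  {M : Type} [AddCommGroup M] [Module (MonoidAlgebra ℤ_[p] Δ) M] [Module T M]
  [SMulCommClass T (MonoidAlgebra ℤ_[p] Δ) M] [Module.Free (MonoidAlgebra ℤ_[p] Δ) M]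
  [Module.Finite (MonoidAlgebra ℤ_[p] Δ) M]
  {MN : Type} [AddCommGroup MN] [Module ℤ_[p] MN] [Module T MN] [SMulCommClass T ℤ_[p] MN]
  [Module.Free ℤ_[p] MN] [Module.Finite T MN] [Nontrivial MN]

/-- **Road B.** -/
theorem road_b_abs (hp2 : p ≠ 2) {q k : ℕ} (hq : q.Prime) (hk0 : 0 < k)
    (hk : p ^ k ∣ q - 1) (hk' : ¬ p ^ (k + 1) ∣ q - 1)
    (g : Δ) (hg : ∀ x, x ∈ Subgroup.zpowers g) (hgo : orderOf g = p ^ k)
    (π : M →+ MN) (hπs : Function.Surjective π) (hπT : ∀ (t : T) (x : M), π (t • x) = t • π x)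
    (hπΛ : ∀ (a : MonoidAlgebra ℤ_[p] Δ) (x : M), π (a • x) = aug ℤ_[p] Δ a • π x)
    (hker : ∀ x, π x = 0 ↔ x ∈ RingHom.ker (aug ℤ_[p] Δ : MonoidAlgebra ℤ_[p] Δ →+* ℤ_[p]) •
      (⊤ : Submodule (MonoidAlgebra ℤ_[p] Δ) M))
    (w : M →+ M) (hw : ∀ x, w ((gr ℤ_[p] Δ g - 1) • x) =
      -((1 + (gr ℤ_[p] Δ g - 1) * (-gr ℤ_[p] Δ g⁻¹)) • (gr ℤ_[p] Δ g - 1) • w x))
    (hwT : ∀ (t : T) (x : M), w (t • x) = t • w x)
    (wN : MN → MN) (hwN : ∀ x, wN (wN x) = x) (hπw : ∀ x, π (w x) = wN (π x))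
    (S F : Matrix (Fin 2) (Fin 2) T) (hS : dt2 S = 1) (hF : IsUnit (dt2 F))
    (hFS : F * S = S ^ q * F) (hS1 : ∀ i j, (S - 1) i j ∈ IsLocalRing.maximalIdeal T)
    (hN1 : ∀ x : MN, tr2 S • x = (2 : T) • x) (hN2 : ∀ x : MN, tr2 (F * S) • x = tr2 F • x)
    (hN3 : ∀ x : MN, tr2 F • x = -(((q : T) + 1) • wN x))
    (hRAM : ∀ (ι : ℤ_[p] →+* ℂ), Function.Injective ι → ∀ ψ : Δ →* ℂˣ, ψ ≠ 1 → ∀ x : M,
      (tr2 S - 2) • x ∈ RingHom.ker (chiO ι ψ) • (⊤ : Submodule (MonoidAlgebra ℤ_[p] Δ) M) →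
      x ∈ RingHom.ker (chiO ι ψ) • (⊤ : Submodule (MonoidAlgebra ℤ_[p] Δ) M))
    (hE : ∀ x : Fin 2 → MN, act (S - 1) x = 0 → ∃ x', act (S - 1) x' = x) : False := by
  have hp : p.Prime := Fact.out
  have hpT : (p : T) ∈ maximalIdeal T := natCast_mem_maximalIdeal
  have h2T : IsUnit (2 : T) := two_isUnit_of_odd hp hp2 hpT
  obtain ⟨O', i1, i2, i3, i4, i5, i6, χ, i7, ζ, ι, ψ, hζ, hχg, hι, hψ, hχker⟩ :=
    exists_dvr_char (p := p) g hg hk0 hgo
  -- arithmetic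
  obtain ⟨r, hr⟩ := hk
  have hq1 : q = 1 + p ^ k * r := by
    have := hq.one_lt
    omega
  have hpr : ¬ p ∣ r := by
    rintro ⟨s, rfl⟩
    apply hk'
    rw [hr]
    exact ⟨s, by ring⟩
  have hqodd : Even (p ^ k * r) := by
    have hq2 : q ≠ 2 := by
      rintro rfl
      have h1 : p ^ k * r = 1 := by omega
      have h2 : p ^ k = 1 := Nat.eq_one_of_mul_eq_one_right h1
      exact (Nat.one_lt_pow hk0.ne' hp.one_lt).ne' h2
    have := hq.eq_two_or_odd.resolve_left hq2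
    rw [Nat.even_iff]
    omega
  obtain ⟨a, ha⟩ := hqodd
  have ha2 : 2 * a = p ^ k * r := by omega
  have ha0 : 0 < a := by
    have := hq.one_lt
    rcases Nat.eq_zero_or_pos a with h | h
    · rw [h] at ha2; omega
    · exact h
  -- the Atkin-Lehner operator
  have hwNT : ∀ (t : T) (x : MN), wN (t • x) = t • wN x := by
    intro t x
    obtain ⟨x, rfl⟩ := hπs x
    rw [← hπT, ← hπw, hwT, hπT, hπw]
  have hqu : IsUnit ((q : T) + 1) := by
    have h1 : (q : T) + 1 = 2 + (p : T) * ((p : T) ^ (k - 1) * r) := by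
      obtain ⟨k', rfl⟩ : ∃ k', k = k' + 1 := ⟨k - 1, by omega⟩
      rw [hq1, Nat.add_sub_cancel]
      push_cast
      ring
    rw [h1]
    by_contra h
    have h3 : (2 + (p : T) * ((p : T) ^ (k - 1) * r)) ∈ maximalIdeal T :=
      (mem_maximalIdeal _).mpr h
    have h4 := Ideal.sub_mem _ h3 (Ideal.mul_mem_right ((p : T) ^ (k - 1) * r) _ hpT)
    rw [add_sub_cancel_right] at h4
    exact (mem_maximalIdeal _).mp h4 h2T
  obtain ⟨u, hu⟩ := hqu.exists_left_inv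
  set η : T := u * tr2 F with hη
  have hηw : ∀ x : MN, η • x = -wN x := by
    intro x
    rw [hη, mul_smul, hN3, smul_neg, smul_smul, hu, one_smul]
  have hηη : ∀ x : MN, (η * η) • x = x := by
    intro x
    rw [mul_smul, hηw x, smul_neg, hηw (wN x), hwN, neg_neg]
  obtain ⟨ε, hε, hεη⟩ : ∃ ε : T, ε * ε = 1 ∧ ∀ x : MN, η • x = ε • x := by
    have h1 : IsUnit (η + 1) ∨ IsUnit (η - 1) := by
      by_contra h
      push Not at h
      have h3 := Ideal.sub_mem _ ((mem_maximalIdeal _).mpr h.1) ((mem_maximalIdeal _).mpr h.2)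
      have h4 : η + 1 - (η - 1) = 2 := by ring
      rw [h4] at h3
      exact (mem_maximalIdeal _).mp h3 h2T
    rcases h1 with h1 | h1
    · refine ⟨1, one_mul _, fun x => ?_⟩
      obtain ⟨v, hv⟩ := h1.exists_left_inv
      have h3 : (η + 1) • (η • x - x) = 0 := by
        have : (η + 1) • (η • x - x) = (η * η) • x - x := by
          rw [smul_sub, add_smul, add_smul, one_smul, one_smul, smul_smul]; abel
        rw [this, hηη, sub_self]
      have h4 : η • x - x = 0 := by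
        rw [← one_smul T (η • x - x), ← hv, mul_smul, h3, smul_zero]
      rw [one_smul]
      exact sub_eq_zero.mp h4
    · refine ⟨-1, by ring, fun x => ?_⟩
      obtain ⟨v, hv⟩ := h1.exists_left_inv
      have h3 : (η - 1) • (η • x + x) = 0 := by
        have : (η - 1) • (η • x + x) = (η * η) • x - x := by
          rw [smul_add, sub_smul, sub_smul, one_smul, one_smul, smul_smul]; abel
        rw [this, hηη, sub_self]
      have h4 : η • x + x = 0 := by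
        rw [← one_smul T (η • x + x), ← hv, mul_smul, h3, smul_zero]
      rw [neg_smul, one_smul]
      exact eq_neg_of_add_eq_zero_left h4
  have hεu : IsUnit (-ε) := IsUnit.of_mul_eq_one (-ε) (by rw [neg_mul_neg, hε])
  have hwη : ∀ x : MN, wN x = (-ε) • x := by
    intro x
    rw [neg_smul, ← hεη, hηw, neg_neg]
  -- the group ring
  obtain ⟨c₀, hc₀⟩ := exists_nrm_eq (R := ℤ_[p]) g
  rw [hgo] at hc₀
  have hclos : Subgroup.closure (Set.range fun _ : Unit => g) = ⊤ := by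
    rw [Set.range_const, ← Subgroup.zpowers_eq_closure, eq_top_iff]
    exact fun x _ => hg x
  have hkerI : RingHom.ker (aug ℤ_[p] Δ : MonoidAlgebra ℤ_[p] Δ →+* ℤ_[p]) =
      Ideal.span {gr ℤ_[p] Δ g - 1} := by
    have h1 := ker_aug_eq (𝒪 := ℤ_[p]) (fun _ : Unit => g) hclos
    rw [Set.range_const] at h1
    exact h1
  have hker' : ∀ x, π x = 0 ↔ ∃ y, x = (gr ℤ_[p] Δ g - 1) • y := by
    intro x
    rw [hker, hkerI]
    constructor
    · intro hx
      rw [Submodule.ideal_span_singleton_smul] at hx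
      obtain ⟨y, -, hy⟩ := Submodule.mem_smul_pointwise_iff_exists _ _ _ |>.mp hx
      exact ⟨y, hy.symm⟩
    · rintro ⟨y, rfl⟩
      exact Submodule.smul_mem_smul (Ideal.mem_span_singleton_self _) trivial
  have hχkerI : RingHom.ker (χ : MonoidAlgebra ℤ_[p] Δ →+* O') = RingHom.ker (chiO ι ψ) :=
    Ideal.ext fun a => hχker a
  have hpO : (p : O') ∈ maximalIdeal O' := natCast_mem_maximalIdeal
  refine family_contradiction (R := ℤ_[p]) (O := O') (Λ := MonoidAlgebra ℤ_[p] Δ) (T := T)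
    (M := M) (MN := MN) (p := p) hq1 ha2 ha0 (isUnit_natCast_of_not_dvd hpO hpr)
    (isUnit_natCast_of_not_dvd hpT hpr) h2T ?_ hζ (gr ℤ_[p] Δ g - 1) (nrm ℤ_[p] g)
    (-gr ℤ_[p] Δ g⁻¹) c₀ hc₀ (fun x hx => exists_of_sub_one_smul_eq g hg x hx)
    (χ : MonoidAlgebra ℤ_[p] Δ →+* O') ?_ π hπs hπT ?_ hker' ?_ w hw hwT (-ε) hεu ?_ S F hS hF
    hFS hS1 ε hε hN1 hN2 ?_ ?_ hE
  · rw [Nat.cast_pow]
    exact Ideal.pow_mem_of_mem _ hpT _ hk0
  · rw [map_sub, map_one]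
    show χ (gr ℤ_[p] Δ g) - 1 = _
    rw [hχg]
  · intro o x
    rw [hπΛ, AlgHom.commutes]
    rfl
  · intro j x hj hjx
    have : Module.IsTorsionFree ℤ_[p] MN := inferInstance
    have h1 : ((j : ℕ) : ℤ_[p]) • x = 0 := by rw [Nat.cast_smul_eq_nsmul, hjx]
    rcases smul_eq_zero.mp h1 with h | h
    · exact absurd (Nat.cast_eq_zero.mp h) hj.ne'
    · exact h
  · intro x
    rw [hπw, hwη]
  · intro x
    rw [hN3, hwη, mul_comm ε, mul_smul, neg_smul, smul_neg, neg_neg]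
  · rw [hχkerI]
    exact hRAM ι hι ψ hψ

end Main

end Fermat.Agent.Ribet

end
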