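import Fermat.Agent.Ribet.LevelRel

/-!
# Relations at level `N` (cluster RIBET, piece P6): the final statement
-/

set_option autoImplicit false
set_option linter.unusedSectionVars false
set_option linter.style.haveILetI false

open Function CongruenceSubgroup Polynomial
open scoped MatrixGroups

noncomputable section

namespace Fermat.Agent.Ribet

open ModularCurve.Period Fermat.Agent.HeckePar Fermat.Agent.TwHecke Fermat.Agent.TwExact IsLocalRing
open Fermat.Agent.GalRep ModularCurve Fermat.Agent.QX4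

/-- The relations at level `N` for `S = ρ(σ₀)`, `F = ρ(φ)` and the involution `w`. -/
structure LevelRel {T MN : Type*} [CommRing T] [AddCommGroup MN] [Module T MN]
    (S F : Matrix (Fin 2) (Fin 2) T) (w : MN →ₗ[T] MN) (q : ℕ) : Prop where
  /-- N1 -/
  trS : ∀ m : MN, tr2 S • m = (2 : T) • m
  /-- N2 -/
  trFS : ∀ m : MN, tr2 (F * S) • m = tr2 F • m
  /-- N3 -/
  trF : ∀ m : MN, tr2 F • m = -((q + 1) • w m)
  /-- `(σ₀ - 1)² = 0` -/
  U : ∀ x : Fin 2 → MN, act (S - 1) (act (S - 1) x) = 0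
  /-- `(σ₀ - 1)(φ + w) = 0` -/
  Fr : ∀ x : Fin 2 → MN, act (S - 1) (act F x + wv w.toAddMonoidHom x) = 0
  /-- `φ (σ₀ - 1) = q (σ₀ - 1) φ` -/
  FNN : ∀ x : Fin 2 → MN, act F (act (S - 1) x) = q • act (S - 1) (act F x)
  /-- (E) -/
  E : ∀ x : Fin 2 → MN, act (S - 1) x = 0 → ∃ x', act (S - 1) x' = x

section

variable {m q : ℕ} [NeZero m] [NeZero q] {p : ℕ} [hp : Fact p.Prime]
  {O : Type} [CommRing O] [IsLocalRing O] [IsNoetherianRing O]
  [IsAdicComplete (maximalIdeal O) O] {S : Set ℕ} {θ : PIdx S → ResidueField O}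
  {T : Type} [CommRing T] [IsLocalRing T] [Algebra O T]
  {MN : Type} [AddCommGroup MN] [Module O MN] [Module T MN] [IsScalarTower O T MN]
  (e : MN ≃ₗ[O] Hm (m * q) 1 O S θ) (hne : NonEis1 (m * q) S θ) (gen : PIdx S → T)
  (hgen : ∀ (ℓ : PIdx S) (x : MN), (e (gen ℓ • x) : HM (m * q) (1 : (ZMod (m * q))ˣ →* Oˣ) O) =
    hop (m * q) 1 O S ℓ (e x : HM (m * q) (1 : (ZMod (m * q))ˣ →* Oˣ) O))
  (hNT : ∀ k, NoTors (m * q) (p ^ k)) (hS : ∀ ℓ : ℕ, ℓ.Prime → ℓ ∣ m * q → ℓ ∈ S)
  (h : Good (m * q) (1 : (ZMod (m * q))ˣ →* Oˣ) S θ)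
  (hadj : Algebra.adjoin O (Set.range gen) = ⊤)
  (hq : q.Prime) (hm : ¬ q ∣ m) (w : MN →ₗ[T] MN)
  (hw : ∀ x, HM.equivHom (M := m * q) (R := O) (A := O) rfl
      (e (w x) : HM (m * q) (1 : (ZMod (m * q))ˣ →* Oˣ) O) =
    (HM.equivHom (M := m * q) (R := O) (A := O) rfl
      (e x : HM (m * q) (1 : (ZMod (m * q))ˣ →* Oˣ) O)).comp (wHom hq hm).toAdditive)
  (hW : WRel hq hm)

/-- Descent of an identity from the finite levels. -/
theorem eq_zero_of_levels [Module.Finite O MN] (hpO : (p : O) ∈ maximalIdeal O) (x : MN)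
    (hx : ∀ k, mkV T p k x = 0) : x = 0 := by
  have hbot := Ideal.iInf_pow_smul_eq_bot_of_isLocalRing (M := MN)
    (maximalIdeal O) (Ideal.IsMaximal.ne_top inferInstance)
  have hmem : x ∈ (⨅ i : ℕ, maximalIdeal O ^ i • (⊤ : Submodule O MN)) := by
    rw [Submodule.mem_iInf]
    intro n
    obtain ⟨y, hy⟩ := (mkV_eq_zero T p n x).mp (hx n)
    rw [hy, ← Nat.cast_smul_eq_nsmul O, Nat.cast_pow]
    exact Submodule.smul_mem_smul (Ideal.pow_mem_pow hpO n) trivial
  rw [hbot] at hmem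
  exact (Submodule.mem_bot O).mp hmem

include e hne hgen hNT hS h hadj hw hW in
/-- **P6: the relations at level `N = m q`.** -/
theorem level_relations (hb : ∀ k, ∃ (_ : Module (ZMod (p ^ k)) (O ⧸ Ip O p k)) (d : ℕ),
      Nonempty (Module.Basis (Fin d) (ZMod (p ^ k)) (O ⧸ Ip O p k)))
    (hpO : (p : O) ∈ maximalIdeal O) (h2 : IsUnit (2 : T))
    (ρ : GaloisRepAdic T) (habs : ρ.residual.IsAbsolutelyIrreducible)
    (B : Set ℕ) (hB : B.Finite) (hSfin : S.Finite)
    (hfrob : ∀ (ℓ : PIdx S), (ℓ.1 : ℕ) ∉ B → ∀ A : ValuationSubring (AlgebraicClosure ℚ),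
      A.LiesOverPrime (ℓ.1 : ℕ) → ∀ φ : GQ, A.IsFrobeniusAt φ (ℓ.1 : ℕ) →
        LinearMap.charpoly (ρ.ρ φ) = X ^ 2 - C (gen ℓ) * X + C (((ℓ.1 : ℕ) : T)))
    (hF : letI := heckeModuleBar (m * q);
      FrobeniusQuadratic (K := ℚ) (L := AlgebraicClosure ℚ) (m * q) p (JZero (m * q)))
    (hww : ∀ x, w (w x) = x) (σ φ : GQ)
    (hdS : dt2 (matOf ρ σ) = 1) (hdF : dt2 (matOf ρ φ) = (q : T)) (hqu : IsUnit (q : T))
    (hFS : matOf ρ φ * matOf ρ σ = matOf ρ σ ^ q * matOf ρ φ)
    (hU : ∀ (k : ℕ) (x : JZero (m * q)), p ^ k • x = 0 → σ • (σ • x - x) = σ • x - x)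
    (hFr : ∀ (k : ℕ) (x : JZero (m * q)), p ^ k • x = 0 → MNil (m * q) S θ x →
      σ • (φ • x + wJ hq hm x) = φ • x + wJ hq hm x)
    (hE : ∀ k, EJ (m * q) (p ^ k) S θ σ) :
    LevelRel (matOf ρ σ) (matOf ρ φ) w q := by
  have hE' := hE_MN e hne gen hgen hNT hS h hadj hb hpO h2 ρ habs B hB hSfin hfrob hF σ hE
  choose hmod d hbas using hb
  have hfinMN : Module.Finite O MN := by
    have := finite_Hm (M := m * q) (S := S) O (1 : (ZMod (m * q))ˣ →* Oˣ) θ
    exact Module.Finite.equiv e.symm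
  have hspan := span_matOf_eq_top ρ habs
  let r : ∀ k, GQ →* Module.End T (Vk T MN p k) := fun k =>
    letI := hmod k; galV e hne gen hgen hNT hS (hbas k).some h hadj
  have hES : ∀ k, ESRel (r k) (matOf ρ) := fun k =>
    letI := hmod k
    galV_esRel e hne gen hgen hNT hS h hadj (hbas k).some ρ B hB hSfin hfrob hF
  choose Φ hΦ using fun k => exists_algHom h2 (hES k) hspan
  have hact : ∀ (k : ℕ) (A : Matrix (Fin 2) (Fin 2) T) (y : Fin 2 → Vk T MN p k) (i : Fin 2),
      flipEquiv (Φ k) (act A y) i = Φ k A (flipEquiv (Φ k) y i) := fun k A y i =>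
    flipEquiv_act _ _ _ _
  have hsub : ∀ (k : ℕ) (τ : GQ) (v : Vk T MN p k), Φ k (matOf ρ τ - 1) v = r k τ v - v := by
    intro k τ v
    rw [map_sub, map_one, hΦ, LinearMap.sub_apply, Module.End.one_apply]
  -- (U)
  have hU' : ∀ x : Fin 2 → MN, act (matOf ρ σ - 1) (act (matOf ρ σ - 1) x) = 0 := by
    intro x
    funext i
    refine eq_zero_of_levels (T := T) (O := O) hpO _ fun k => ?_
    have h1 : act (matOf ρ σ - 1) (act (matOf ρ σ - 1) fun j => mkV T p k (x j)) = 0 := by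
      apply (flipEquiv (Φ k)).injective
      funext j
      rw [hact, hact, hsub, hsub, map_zero, Pi.zero_apply]
      letI := hmod k
      have h2 := galV_unipotent e hne gen hgen hNT hS (hbas k).some h hadj
        (τ := σ) (τ' := σ) (hU k)
      exact sub_eq_zero.mpr (h2 _)
    rw [act_map, act_map] at h1
    exact congrFun h1 i
  have hwT : ∀ (t : T) (x : MN), w.toAddMonoidHom (t • x) = t • w.toAddMonoidHom x :=
    fun t x => map_smul w t x
  -- (Fr)
  have hFr' : ∀ x : Fin 2 → MN, act (matOf ρ σ - 1)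
      (act (matOf ρ φ) x + wv w.toAddMonoidHom x) = 0 := by
    intro x
    funext i
    refine eq_zero_of_levels (T := T) (O := O) hpO _ fun k => ?_
    set y : Fin 2 → Vk T MN p k := fun j => mkV T p k (x j) with hy
    have h1 : act (matOf ρ σ - 1) (act (matOf ρ φ) y + wv (wVk w p k).toAddMonoidHom y) = 0 := by
      apply (flipEquiv (Φ k)).injective
      funext j
      letI := hmod k
      have h3 := flip_comm hspan (Φ k) (hΦ k) (wVk w p k).toAddMonoidHom
        (fun t v => map_smul (wVk w p k) t v)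
        (fun g v => (galV_wVk e hne hq hm w hw gen hgen hNT hS (hbas k).some h hadj hW g v).symm)
        y j
      rw [hact, map_add, Pi.add_apply, hact, h3, hsub, map_zero, Pi.zero_apply, hΦ]
      have h2 := galV_fr e hne hq hm w hw gen hgen hNT hS (hbas k).some h hadj hW
        (hFr k)
      exact sub_eq_zero.mpr (h2 _)
    have h4 : act (matOf ρ φ) y + wv (wVk w p k).toAddMonoidHom y =
        fun j => mkV T p k ((act (matOf ρ φ) x + wv w.toAddMonoidHom x) j) := by
      rw [hy, act_map]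
      funext j
      rw [Pi.add_apply, Pi.add_apply, map_add]
      rfl
    rw [h4, act_map] at h1
    exact congrFun h1 i
  exact
    { trS := rel_tr_S hdS hU'
      trFS := rel_tr_FS w.toAddMonoidHom hdS hU' hFr'
      trF := rel_tr_F w.toAddMonoidHom hdF hqu hU' hwT hww hFr' hFS hE'
      U := hU'
      Fr := hFr'
      FNN := rel_F_NN hU' hFS
      E := hE' }

end

/-! ### Consequences -/

section Cons

variable {T MN : Type*} [CommRing T] [IsLocalRing T] [AddCommGroup MN] [Module T MN]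
  {S F : Matrix (Fin 2) (Fin 2) T} {w : MN →ₗ[T] MN} {q : ℕ}

/-- `w` is a sign. -/
theorem LevelRel.exists_eps (H : LevelRel S F w q) (h2 : IsUnit (2 : T))
    (hq1 : IsUnit ((q : T) + 1)) (hww : ∀ x, w (w x) = x) :
    ∃ ε : T, (ε = 1 ∨ ε = -1) ∧ ∀ m : MN, w m = -(ε • m) :=
  Ribet.exists_eps w.toAddMonoidHom h2 hq1 (fun t x => map_smul w t x) hww H.trF

/-- **Mazur's principle**: if `ρ(σ₀) ≡ 1` then `q ≡ 1`. -/
theorem LevelRel.q_sub_one_mem [Module.Finite T MN] [Nontrivial MN] (H : LevelRel S F w q)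
    (hww : ∀ x, w (w x) = x) (hS1 : ∀ i j, (S - 1) i j ∈ maximalIdeal T) :
    (q : T) - 1 ∈ maximalIdeal T := by
  by_contra hcon
  have hunit : IsUnit ((q : T) - 1) := by
    by_contra h
    exact hcon ((mem_maximalIdeal _).mpr h)
  -- `F + w` maps to `𝔪 M²`
  have h1 : ∀ (x : Fin 2 → MN) (i : Fin 2),
      act F x i + w (x i) ∈ maximalIdeal T • (⊤ : Submodule T MN) := by
    intro x i
    obtain ⟨z, hz⟩ := H.E _ (H.Fr x)
    have h2 := congrFun hz i
    have h3 : act F x i + w (x i) = act (S - 1) z i := h2.symm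
    rw [h3]
    exact Submodule.add_mem _ (Submodule.smul_mem_smul (hS1 i 0) trivial)
      (Submodule.smul_mem_smul (hS1 i 1) trivial)
  have h2 : ∀ m : MN, ((q : T) - 1) • w m ∈ maximalIdeal T • (⊤ : Submodule T MN) := by
    intro m
    have e1 := h1 (Pi.single 0 m) 0
    have e2 := h1 (Pi.single 1 m) 1
    rw [act_single, Pi.single_eq_same] at e1 e2
    have e3 := Submodule.add_mem _ e1 e2
    have e4 : F 0 0 • m + w m + (F 1 1 • m + w m) = -(((q : T) - 1) • w m) := by
      have e5 := H.trF m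
      rw [tr2, add_smul] at e5
      have e6 : (q + 1) • w m = (((q : T) - 1) + 2) • w m := by
        rw [← Nat.cast_smul_eq_nsmul T]
        push_cast
        congr 1
        ring
      rw [e6, add_smul, two_smul] at e5
      have e7 : F 0 0 • m + w m + (F 1 1 • m + w m) = (F 0 0 • m + F 1 1 • m) + (w m + w m) := by
        abel
      rw [e7, e5]
      abel
    rw [e4] at e3
    exact (Submodule.neg_mem_iff _).mp e3
  have h3 : maximalIdeal T • (⊤ : Submodule T MN) = ⊤ := by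
    refine eq_top_iff.mpr fun m _ => ?_
    obtain ⟨u, hu⟩ := hunit
    have h4 := Submodule.smul_mem _ ((u⁻¹ : Tˣ) : T) (h2 (w m))
    rw [hww, smul_smul, ← hu, Units.inv_mul, one_smul] at h4
    exact h4
  have h4 := Submodule.eq_bot_of_le_smul_of_le_jacobson_bot (maximalIdeal T)
    (⊤ : Submodule T MN) Module.Finite.fg_top h3.ge (maximalIdeal_le_jacobson _)
  obtain ⟨x, hx⟩ := exists_ne (0 : MN)
  apply hx
  have : x ∈ (⊤ : Submodule T MN) := trivial
  rw [h4] at this
  exact (Submodule.mem_bot T).mp this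

end Cons

end Fermat.Agent.Ribet

end
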