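import Fermat.Agent.Ribet.Family
import Fermat.Agent.Ribet.LevelRelMain

/-!
# The tame family argument for a Hecke ring generated by operators (cluster RIBET, road B)
-/

set_option autoImplicit false
set_option linter.unusedSectionVars false
set_option linter.style.haveILetI false

noncomputable section

open IsLocalRing Matrix

namespace Fermat.Agent.Ribet

variable {J R O Λ T M MN : Type*} [CommRing R] [CommRing O] [IsDomain O] [IsIntegrallyClosed O]
  [CharZero O] [CommRing Λ] [Algebra R Λ] [CommRing T] [IsLocalRing T] [Algebra R T]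
  [AddCommGroup M] [Module R M] [Module Λ M] [IsScalarTower R Λ M]
  [AddCommGroup MN] [Module R MN] [Module T MN] [IsScalarTower R T MN]
  (act : T →ₐ[R] Module.End R M) (tl : J → T) (hadj : Algebra.adjoin R (Set.range tl) = ⊤)

include hadj in
/-- an operator commuting with the generators commutes with the Hecke ring. -/
theorem comm_of_adjoin {w : M →+ M} (hwR : ∀ (a : R) x, w (a • x) = a • w x)
    (hwl : ∀ i x, w (act (tl i) x) = act (tl i) (w x)) (t : T) (x : M) :
    w (act t x) = act t (w x) := by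
  have ht : t ∈ Algebra.adjoin R (Set.range tl) := by rw [hadj]; trivial
  induction ht using Algebra.adjoin_induction generalizing x with
  | mem y hy =>
    obtain ⟨i, rfl⟩ := hy
    exact hwl i x
  | algebraMap a =>
    rw [AlgHom.commutes, Module.algebraMap_end_apply, Module.algebraMap_end_apply, hwR]
  | add a b _ _ ha hb =>
    rw [map_add, LinearMap.add_apply, LinearMap.add_apply, map_add, ha, hb]
  | mul a b _ _ ha hb =>
    rw [map_mul, Module.End.mul_apply, Module.End.mul_apply, ha, hb]

include hadj in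
/-- a linear map compatible with the generators is compatible with the Hecke ring. -/
theorem map_of_adjoin {π : M →ₗ[R] MN} (hπl : ∀ i x, π (act (tl i) x) = tl i • π x) (t : T)
    (x : M) : π (act t x) = t • π x := by
  have ht : t ∈ Algebra.adjoin R (Set.range tl) := by rw [hadj]; trivial
  induction ht using Algebra.adjoin_induction generalizing x with
  | mem y hy =>
    obtain ⟨i, rfl⟩ := hy
    exact hπl i x
  | algebraMap a =>
    rw [AlgHom.commutes, Module.algebraMap_end_apply, map_smul, algebraMap_smul]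
  | add a b _ _ ha hb =>
    rw [map_add, LinearMap.add_apply, map_add, ha, hb, add_smul]
  | mul a b _ _ ha hb =>
    rw [map_mul, Module.End.mul_apply, ha, hb, mul_smul]

include hadj in
/-- **Road B, for a Hecke ring generated by operators `tl`.** -/
theorem abs_contradiction [Module.Free Λ M] [Module.Finite Λ M] [Module.Projective R MN]
    [Module.Finite R MN] [Nontrivial MN]
    (hΛ : ∀ i (a : Λ) (x : M), act (tl i) (a • x) = a • act (tl i) x)
    -- arithmetic
    {p : ℕ} [hp : Fact p.Prime] {k r q a : ℕ} (hq : q = 1 + p ^ k * r) (ha : 2 * a = p ^ k * r)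
    (ha0 : 0 < a) (hk : k ≠ 0) (hrR : IsUnit (r : R)) (h2R : IsUnit (2 : R)) (hrO : IsUnit (r : O))
    (hpT : (p : T) ∈ maximalIdeal T)
    {ζ : O} (hζ : IsPrimitiveRoot ζ p)
    -- the ring `Λ`
    (ϖ ν e c₀ : Λ) (hν : ν = (p ^ k : ℕ) + ϖ * c₀)
    (hann : ∀ x : M, (∃ y, ϖ • x = ν • y) → ∃ y, x = ν • y)
    (χ : Λ →+* O) [IsLocalHom χ] (hχϖ : χ ϖ = ζ - 1)
    -- the specialisation
    (π : M →ₗ[R] MN) (hπs : Function.Surjective π)
    (hπl : ∀ i x, π (act (tl i) x) = tl i • π x)
    (hker : ∀ x, π x = 0 ↔ ∃ y, x = ϖ • y)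
    (htf : ∀ (j : ℕ) (x : MN), 0 < j → j • x = 0 → x = 0)
    -- the Atkin-Lehner operators
    (w : M →+ M) (hw : ∀ x, w (ϖ • x) = -((1 + ϖ * e) • ϖ • w x))
    (hwR : ∀ (a : R) x, w (a • x) = a • w x)
    (hwl : ∀ i x, w (act (tl i) x) = act (tl i) (w x))
    (wN : MN →ₗ[T] MN) (hwN : ∀ x, π (w x) = wN (π x)) (hwNN : ∀ x, wN (wN x) = x)
    -- the matrices
    (S F : Matrix (Fin 2) (Fin 2) T) (hS : dt2 S = 1) (hF : IsUnit (dt2 F))
    (hFS : F * S = S ^ q * F) (hS1 : ∀ i j, (S - 1) i j ∈ IsLocalRing.maximalIdeal T)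
    -- level `N`
    (H : LevelRel S F wN q)
    -- ramification of the nebentypus forms
    (hRAM : ∀ x : M, act (tr2 S - 2) x ∈ RingHom.ker χ • (⊤ : Submodule Λ M) →
      x ∈ RingHom.ker χ • (⊤ : Submodule Λ M)) :
    False := by
  letI iT : Module T M := Module.compHom M (act : T →+* Module.End R M)
  have hdef : ∀ (t : T) (x : M), t • x = act t x := fun t x => rfl
  haveI i1 : SMulCommClass T Λ M := ⟨fun t a x => by
    rw [hdef, hdef]
    exact (comm_of_adjoin act tl hadj (w := (Module.toAddMonoidEnd Λ M a : M →+ M))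
      (fun b y => by
        show a • b • y = b • a • y
        rw [← algebraMap_smul Λ b y, ← algebraMap_smul Λ b (a • y), smul_smul, smul_smul,
          mul_comm])
      (fun i y => by
        show a • act (tl i) y = act (tl i) (a • y)
        rw [hΛ]) t x).symm⟩
  haveI i2 : Module.Finite T MN := Module.Finite.of_restrictScalars_finite R T MN
  have h2T : IsUnit (2 : T) := by
    have h := h2R.map (algebraMap R T)
    rwa [map_ofNat] at h
  have hrT : IsUnit (r : T) := by
    have h := hrR.map (algebraMap R T)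
    rwa [map_natCast] at h
  have hpkT : ((p ^ k : ℕ) : T) ∈ maximalIdeal T := by
    rw [Nat.cast_pow]
    exact Ideal.pow_mem_of_mem _ hpT k (Nat.pos_of_ne_zero hk)
  have hq1 : IsUnit ((q : T) + 1) := by
    by_contra hcon
    have h3 := (mem_maximalIdeal _).mpr hcon
    have h4 : ((p ^ k : ℕ) : T) * r ∈ maximalIdeal T := Ideal.mul_mem_right _ _ hpkT
    have h5 : (2 : T) ∈ maximalIdeal T := by
      have h6 := Ideal.sub_mem _ h3 h4
      have h7 : (q : T) + 1 - ((p ^ k : ℕ) : T) * r = 2 := by
        rw [hq]; push_cast; ring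
      rwa [h7] at h6
    exact (mem_maximalIdeal _).mp h5 h2T
  obtain ⟨ε, hε, hwε⟩ := H.exists_eps h2T hq1 hwNN
  have hεε : ε * ε = 1 := by
    rcases hε with rfl | rfl
    · exact one_mul 1
    · ring
  have hc : IsUnit (-ε) := IsUnit.neg (IsUnit.of_mul_eq_one ε hεε)
  refine family_contradiction (T := T) (M := M) (MN := MN) (R := R) hq ha ha0 hrO hrT h2T hpkT hζ ϖ ν
    e c₀ hν hann χ hχϖ π.toAddMonoidHom hπs
    (fun t x => map_of_adjoin act tl hadj hπl t x)
    (fun o x => by
      show π (algebraMap R Λ o • x) = o • π x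
      rw [algebraMap_smul, map_smul]) hker htf w hw
    (fun t x => comm_of_adjoin act tl hadj hwR hwl t x) (-ε) hc
    (fun x => by
      show π (w x) = -ε • π x
      rw [hwN, hwε, neg_smul]) S F hS hF hFS hS1 ε hεε H.trS H.trFS ?_ hRAM H.E
  intro x
  rw [H.trF, hwε, smul_neg, neg_neg, mul_comm, mul_smul, add_smul, one_smul, add_smul, one_smul,
    Nat.cast_smul_eq_nsmul]

end Fermat.Agent.Ribet

end
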