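import Fermat.Agent.AtN.Main
import Fermat.Agent.QX4.Final

/-!
# Frobenius and the Atkin–Lehner involution on the `q`-new torsion of `J₀(mq)`

For torsion classes `y` killed by both degeneracy maps to level `m`, the class `φ y + w y` is
toric, hence fixed by the inertia group.
-/

set_option autoImplicit false
set_option linter.style.haveILetI false
set_option linter.unusedSectionVars false

noncomputable section

open ModularCurve AlgebraicCurve
open Fermat.Agent.GaussVal Fermat.Agent.GalRep Fermat.Agent.FF Fermat.Agent.QX4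
open Fermat.Agent.TwoGauss (mkData act_mkData_frobenius act_mkData_inertia degEq)

namespace Fermat.Agent.Ribet

variable {m q : ℕ} [NeZero m] [NeZero q]

/-- **(Fr)**: `φ y + w y` is fixed by inertia. -/
theorem fr_level (hq : q.Prime) (hm : ¬ q ∣ m) {A : ValuationSubring (AlgebraicClosure ℚ)}
    (hA : A.LiesOverPrime q) {φ τ : GQ} (hφ : A.IsFrobeniusAt φ q)
    (hτ : τ ∈ A.inertiaSubgroupIn ℚ) {n : ℕ} (hn : 0 < n) (hnq : n.Coprime q)
    (y : JZero (m * q)) (hy : n • y = 0) (hα : pushA m q y = 0)
    (hαw : pushA m q (wJ hq hm y) = 0) :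
    τ • (φ • y + wJ hq hm y) = φ • y + wJ hq hm y := by
  haveI : Fact q.Prime := ⟨hq⟩
  haveI : CharP (IsLocalRing.ResidueField A) q := TEll.charP_residueField A q hA
  haveI : PerfectRing (IsLocalRing.ResidueField A) q := PerfectField.toPerfectRing q
  have H3 := GoodRed.degThm_res hq hA (NeZero.ne m) hm
  have H2 := GoodRed.genus_le_all hq hA m hm
  haveI : IsFF (IsLocalRing.ResidueField A)
    (modularFunctionFieldFullC (IsLocalRing.ResidueField A) m) := (degEq (m := m) H3).isFF'
  have C : Compat hm A (mkData hq hm hA H3 H2) := compat_mkData _ _ _ _ _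
  have hwy : n • wJ hq hm y = 0 := by rw [← map_nsmul, hy, map_zero]
  have hφy : n • (φ • y) = 0 := by
    have h := (map_nsmul (DistribSMul.toAddMonoidHom (JZero (m * q)) φ) n y).symm
    have h' : n • (φ • y) = φ • (n • y) := h
    rw [h', hy]
    exact smul_zero (A := JZero (m * q)) φ
  -- the class is split at both components
  have h1 : Split (mkData hq hm hA H3 H2).O₁ (mkData hq hm hA H3 H2).ρ₁ n
      (φ • y + wJ hq hm y) := by
    have := C.split_add hA hφ hn (wJ hq hm y) hwy hαw
    rwa [wJ_wJ, add_comm] at this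
  have h2 : Split (mkData hq hm hA H3 H2).O₂ (mkData hq hm hA H3 H2).ρ₂ n
      (φ • y + wJ hq hm y) := by
    apply C.split₂
    have := C.split_add hA hφ hn y hy hα
    rwa [map_add, wJ_galois hq hm φ y, wJ_wJ, add_comm]
  have h3 : n • (φ • y + wJ hq hm y) = 0 := by rw [nsmul_add, hφy, hwy, add_zero]
  have hcore := TwoComp.Data.core (D := mkData hq hm hA H3 H2) hq.two_le
    (AtN.arch_mkData (hq := hq) (hm := hm) (hA := hA) (H3 := H3) (H2 := H2))
    (AtN.natCast_ne_zero hq hnq)
  exact hcore _ (act_mkData_inertia hq hm hA H3 H2 hτ) _ h3 ⟨h1, h2⟩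

end Fermat.Agent.Ribet

end
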