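import Fermat.Agent.Ribet.Family

/-!
# Relations at level `N` (cluster RIBET, piece P6, algebra)

`S = ρ(σ₀)`, `F = ρ(φ)` act on `M²`, `w` is the Atkin–Lehner involution on `M`.
-/

set_option autoImplicit false
set_option linter.unusedSectionVars false
set_option linter.unusedVariables false

namespace Fermat.Agent.Ribet

open IsLocalRing

section Alg

variable {T MN : Type*} [CommRing T] [AddCommGroup MN] [Module T MN]
  {S F : Matrix (Fin 2) (Fin 2) T}

theorem act_surjective_of_det {A : Matrix (Fin 2) (Fin 2) T} (hA : IsUnit (dt2 A))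
    (x : Fin 2 → MN) : ∃ y, act A y = x := by
  obtain ⟨u, hu⟩ := hA
  refine ⟨act A.adjugate (fun i => ((u⁻¹ : Tˣ) : T) • x i), ?_⟩
  have h1 : A * A.adjugate = (u : T) • (1 : Matrix (Fin 2) (Fin 2) T) := by
    rw [Matrix.mul_adjugate, Matrix.det_fin_two, hu]; rfl
  rw [act_act, h1, smul_act, one_act]
  funext i
  rw [Pi.smul_apply, smul_smul, Units.mul_inv, one_smul]

/-- N1 -/
theorem rel_tr_S (hS : dt2 S = 1)
    (hU : ∀ x : Fin 2 → MN, act (S - 1) (act (S - 1) x) = 0) (m : MN) :
    tr2 S • m = (2 : T) • m := by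
  have h1 : (S - 1) * (S - 1) = (tr2 S - 2) • S := by
    rw [Matrix.sub_mul, Matrix.mul_sub, Matrix.mul_one, Matrix.one_mul, cayley, hS, one_smul,
      sub_smul, two_smul]
    abel
  obtain ⟨y, hy⟩ := act_surjective_of_det (MN := MN) (A := S) (by rw [hS]; exact isUnit_one)
    (fun _ => m)
  have h2 := hU y
  rw [act_act, h1, smul_act, hy] at h2
  have h3 := congrFun h2 0
  rw [Pi.smul_apply, Pi.zero_apply, sub_smul, sub_eq_zero] at h3
  exact h3

variable (w : MN →+ MN)

/-- apply `w` to both coordinates -/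
def wv (x : Fin 2 → MN) : Fin 2 → MN := fun i => w (x i)

theorem wv_act (hwT : ∀ (t : T) (x : MN), w (t • x) = t • w x) (A : Matrix (Fin 2) (Fin 2) T)
    (x : Fin 2 → MN) : wv w (act A x) = act A (wv w x) := by
  funext i
  simp only [wv, act, map_add, hwT]

theorem act_single (A : Matrix (Fin 2) (Fin 2) T) (j i : Fin 2) (m : MN) :
    act A (Pi.single j m) i = A i j • m := by
  fin_cases j <;> simp [act]

/-- N2 -/
theorem rel_tr_FS (hS : dt2 S = 1)
    (hU : ∀ x : Fin 2 → MN, act (S - 1) (act (S - 1) x) = 0)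
    (hFr : ∀ x : Fin 2 → MN, act (S - 1) (act F x + wv w x) = 0) (m : MN) :
    tr2 (F * S) • m = tr2 F • m := by
  have h1 : ∀ j i : Fin 2, (((S - 1) * F) i j) • m = -((S - 1) i j • w m) := by
    intro j i
    have h2 := congrFun (hFr (Pi.single j m)) i
    have h3 : wv w (Pi.single j m) = Pi.single j (w m) := by
      funext k
      by_cases hk : k = j
      · subst hk; simp [wv]
      · simp [wv, Pi.single_eq_of_ne hk]
    rw [act_add, act_act, h3, Pi.add_apply, act_single, act_single, Pi.zero_apply] at h2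
    exact eq_neg_of_add_eq_zero_left h2
  have h4 : tr2 ((S - 1) * F) • m = 0 := by
    have h5 : tr2 ((S - 1) * F) • m = -(tr2 (S - 1) • w m) := by
      simp only [tr2, add_smul, h1]
      abel
    have h6 : tr2 (S - 1) = tr2 S - 2 := by
      simp only [tr2, Matrix.sub_apply, Matrix.one_apply_eq]; ring
    rw [h5, h6, sub_smul, rel_tr_S hS hU, sub_self, neg_zero]
  have h7 : tr2 ((S - 1) * F) = tr2 (F * S) - tr2 F := by
    rw [Matrix.sub_mul, Matrix.one_mul]
    simp only [tr2, Matrix.sub_apply, Matrix.mul_apply, Fin.sum_univ_two]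
    ring
  rw [h7, sub_smul, sub_eq_zero] at h4
  exact h4

theorem rel_pow (hU : ∀ x : Fin 2 → MN, act (S - 1) (act (S - 1) x) = 0) (j : ℕ)
    (x : Fin 2 → MN) : act (S ^ j) x = x + j • act (S - 1) x := by
  induction j generalizing x with
  | zero => rw [pow_zero, one_act, zero_smul, add_zero]
  | succ j ih =>
    rw [pow_succ, ← act_act, ih]
    have h1 : act S x = x + act (S - 1) x := by rw [sub_act, one_act]; abel
    rw [h1, act_add, hU, add_zero, succ_nsmul]
    abel

theorem rel_F_NN {q : ℕ} (hU : ∀ x : Fin 2 → MN, act (S - 1) (act (S - 1) x) = 0)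
    (hFS : F * S = S ^ q * F) (x : Fin 2 → MN) :
    act F (act (S - 1) x) = q • act (S - 1) (act F x) := by
  have h1 : act (F * S) x = act (S ^ q * F) x := by rw [hFS]
  rw [← act_act, ← act_act, rel_pow hU] at h1
  rw [sub_act, one_act, act_sub, h1]
  abel

/-- N3 -/
theorem rel_tr_F {q : ℕ} (hFq : dt2 F = (q : T)) (hqu : IsUnit (q : T))
    (hU : ∀ x : Fin 2 → MN, act (S - 1) (act (S - 1) x) = 0)
    (hwT : ∀ (t : T) (x : MN), w (t • x) = t • w x) (hww : ∀ x, w (w x) = x)
    (hFr : ∀ x : Fin 2 → MN, act (S - 1) (act F x + wv w x) = 0)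
    (hFS : F * S = S ^ q * F)
    (hE : ∀ x : Fin 2 → MN, act (S - 1) x = 0 → ∃ x', act (S - 1) x' = x) (m : MN) :
    tr2 F • m = -((q + 1) • w m) := by
  have hwv : ∀ x : Fin 2 → MN, wv w (wv w x) = x := fun x => funext fun i => hww _
  have hadd : ∀ x y : Fin 2 → MN, wv w (x + y) = wv w x + wv w y := fun x y =>
    funext fun i => map_add w _ _
  have key : ∀ x : Fin 2 → MN, tr2 F • act F x + (q + 1) • wv w (act F x) = 0 := by
    intro x
    set y : Fin 2 → MN := act F x + wv w x with hy
    obtain ⟨z, hz⟩ := hE y (hFr x)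
    have h1 : act F y = -(q • wv w y) := by
      rw [← hz, rel_F_NN hU hFS]
      have h2 := hFr z
      rw [act_add, ← wv_act w hwT] at h2
      rw [eq_neg_of_add_eq_zero_left h2, smul_neg]
    have h3 : act F y = act F (act F x) + wv w (act F x) := by
      rw [hy, act_add, wv_act w hwT]
    have h4 : wv w y = wv w (act F x) + x := by rw [hy, hadd, hwv]
    have h5 : act F (act F x) = tr2 F • act F x - q • x := by
      rw [act_act, cayley, hFq, sub_act, smul_act, smul_act, one_act, Nat.cast_smul_eq_nsmul]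
    rw [h3, h4, h5, smul_add] at h1
    have h6 : tr2 F • act F x + (q + 1) • wv w (act F x) =
        (tr2 F • act F x - q • x + wv w (act F x)) + (q • wv w (act F x) + q • x) := by
      rw [add_nsmul, one_nsmul]; abel
    rw [h6, h1]
    abel
  obtain ⟨x, hx⟩ := act_surjective_of_det (MN := MN) (A := F) (by rw [hFq]; exact hqu)
    (fun _ => m)
  have h1 := congrFun (key x) 0
  rw [hx] at h1
  exact eq_neg_of_add_eq_zero_left h1

/-- The involution `w` is a sign. -/
theorem exists_eps [IsLocalRing T] {q : ℕ} (h2 : IsUnit (2 : T)) (hq1 : IsUnit ((q : T) + 1))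
    (hwT : ∀ (t : T) (x : MN), w (t • x) = t • w x) (hww : ∀ x, w (w x) = x)
    (hN3 : ∀ m : MN, tr2 F • m = -((q + 1) • w m)) :
    ∃ ε : T, (ε = 1 ∨ ε = -1) ∧ ∀ m : MN, w m = -(ε • m) := by
  obtain ⟨u, hu⟩ := hq1
  have h1 : ∀ m : MN, (((u⁻¹ : Tˣ) : T) * tr2 F) • m = -w m := by
    intro m
    rw [mul_smul, hN3, smul_neg, neg_inj]
    have h2 : (q + 1) • w m = (u : T) • w m := by
      rw [hu, ← Nat.cast_smul_eq_nsmul T]
      push_cast
      rfl
    rw [h2, smul_smul, Units.inv_mul, one_smul]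
  set e : T := ((u⁻¹ : Tˣ) : T) * tr2 F with he
  have h3 : ∀ m : MN, e • e • m = m := by
    intro m
    rw [h1, h1, map_neg, neg_neg, hww]
  rcases (inferInstance : IsLocalRing T).isUnit_or_isUnit_of_isUnit_add
    (a := e + 1) (b := -(e - 1)) (by
      have : e + 1 + -(e - 1) = 2 := by ring
      rw [this]; exact h2) with h | h
  · refine ⟨1, Or.inl rfl, fun m => ?_⟩
    have h4 : (e + 1) • (e - 1) • m = 0 := by
      rw [smul_smul]
      have : (e + 1) * (e - 1) = e * e - 1 := by ring
      rw [this, sub_smul, mul_smul, h3, one_smul, sub_self]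
    rw [h.smul_eq_zero, sub_smul, one_smul, sub_eq_zero, h1] at h4
    rw [one_smul, ← neg_eq_iff_eq_neg]
    exact h4
  · refine ⟨-1, Or.inr rfl, fun m => ?_⟩
    have h' : IsUnit (e - 1) := by simpa using h.neg
    have h4 : (e - 1) • (e + 1) • m = 0 := by
      rw [smul_smul]
      have : (e - 1) * (e + 1) = e * e - 1 := by ring
      rw [this, sub_smul, mul_smul, h3, one_smul, sub_self]
    rw [h'.smul_eq_zero, add_smul, one_smul, h1] at h4
    rw [neg_smul, one_smul, neg_neg]
    exact (neg_add_eq_zero.mp h4)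

end Alg

end Fermat.Agent.Ribet
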