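import Fermat.Agent.Ribet.LevelE
import Fermat.Agent.Ribet.LevelRelAlg
import Fermat.Agent.TwHecke.Semi
import Fermat.Agent.QX4.Commute

/-!
# Relations at level `N` (cluster RIBET, piece P6): transport from `J₀(mq)[p^k]`
-/

set_option autoImplicit false
set_option linter.unusedSectionVars false
set_option linter.style.haveILetI false

open Function CongruenceSubgroup Polynomial
open scoped MatrixGroups

noncomputable section

namespace Fermat.Agent.Ribet

open ModularCurve.Period Fermat.Agent.HeckePar Fermat.Agent.TwHecke Fermat.Agent.TwExact IsLocalRing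
open Fermat.Agent.GalRep ModularCurve Fermat.Agent.QX4

/-! ### The involution on parabolic homomorphisms -/

section W

variable {m q : ℕ} (hq : q.Prime) (hm : ¬ q ∣ m)

theorem trace_eq_of_mul_eq {W G C : Matrix (Fin 2) (Fin 2) ℤ} (hW : W.det ≠ 0)
    (h : W * G = C * W) : C.trace = G.trace := by
  have h2 : (W * G * W.adjugate).trace = (C * W * W.adjugate).trace := by rw [h]
  rw [Matrix.mul_assoc C, Matrix.mul_adjugate, Matrix.trace_mul_comm, ← Matrix.mul_assoc,
    Matrix.adjugate_mul, Matrix.smul_mul, Matrix.one_mul, Matrix.mul_smul, Matrix.mul_one,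
    Matrix.trace_smul, Matrix.trace_smul, smul_eq_mul, smul_eq_mul] at h2
  exact (mul_left_cancel₀ hW h2).symm

theorem trace_wHom (γ : Gamma0 (m * q)) :
    ((wHom hq hm γ : SL(2, ℤ)) : Matrix (Fin 2) (Fin 2) ℤ).trace =
      ((γ : SL(2, ℤ)) : Matrix (Fin 2) (Fin 2) ℤ).trace :=
  trace_eq_of_mul_eq (det_wMat_pos hq hm).ne' (wHom_spec hq hm γ)

variable {R : Type*} [CommRing R] {A : Type*} [AddCommGroup A] [Module R A]

/-- `φ ↦ φ ∘ (W · W⁻¹)` -/
def wP (φ : parabolicHoms R (Gamma0 (m * q)) A) : parabolicHoms R (Gamma0 (m * q)) A :=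
  ⟨φ.1.comp (wHom hq hm).toAdditive, fun γ hγ => by
    have h := φ.2 (wHom hq hm γ) (by rw [trace_wHom]; exact hγ)
    exact h⟩

theorem wP_apply (φ : parabolicHoms R (Gamma0 (m * q)) A) (γ : Additive (Gamma0 (m * q))) :
    (wP hq hm φ).1 γ = φ.1 (Additive.ofMul (wHom hq hm (Additive.toMul γ))) := rfl

theorem coordE_wP {n : ℕ} [NeZero n] {O : Type*} [CommRing O] {A : Type*} [AddCommGroup A]
    [Module O A] [Module (ZMod n) A] {ι : Type*} [Fintype ι] (b : Module.Basis ι (ZMod n) A)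
    (c : parabolicHoms O (Gamma0 (m * q)) A) (i : ι) :
    coordE b (wP hq hm c) i = wP hq hm (coordE b c i) := rfl

end W

/-! ### Compatibility with the Jacobian -/

section Jac

variable {m q : ℕ} [NeZero m] [NeZero q] (hq : q.Prime) (hm : ¬ q ∣ m)

/-- The Atkin–Lehner involution on classes and on characters (piece P4). -/
def WRel : Prop := ∀ (n : ℕ) (x : JZero (m * q)) (χ : Gamma0 (m * q) →* ℂˣ), n ≠ 0 → χ ^ n = 1 →
  Rel X0Emb.iota (m * q) n x χ → Rel X0Emb.iota (m * q) n (wJ hq hm x) (χ.comp (wHom hq hm))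

variable (hW : WRel hq hm) {n : ℕ} [NeZero n] (hNT : NoTors (m * q) n)

include hW in
theorem jEquiv_wP (φ : parabolicHoms ℤ (Gamma0 (m * q)) (ZMod n)) :
    (jEquiv hNT (wP hq hm φ) : JZero (m * q)) = wJ hq hm (jEquiv hNT φ : JZero (m * q)) :=
  jEquiv_eq_of_rel hNT (hW n _ _ (NeZero.ne n) (charZ_pow _) (jEquiv_rel hNT φ))

include hW in
theorem galP_wP (σ : GQ) (φ : parabolicHoms ℤ (Gamma0 (m * q)) (ZMod n)) :
    galP hNT σ (wP hq hm φ) = wP hq hm (galP hNT σ φ) := by
  apply (jEquiv hNT).injective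
  apply Subtype.ext
  rw [jEquiv_galP, jEquiv_wP hq hm hW, jEquiv_wP hq hm hW, jEquiv_galP, wJ_galois]

variable {O : Type} [CommRing O] {A : Type} [AddCommGroup A] [Module O A]
  [Module (ZMod n) A] {ι : Type} [Fintype ι] (b : Module.Basis ι (ZMod n) A)

include hW in
theorem galA_wP (σ : GQ) (c : parabolicHoms O (Gamma0 (m * q)) A) :
    galA hNT b σ (wP hq hm c) = wP hq hm (galA hNT b σ c) := by
  apply (coordE b).injective
  funext i
  rw [coordE_galA, coordE_wP, coordE_wP, coordE_galA, galP_wP hq hm hW]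

/-- (U) on parabolic homomorphisms. -/
theorem galA_unipotent {τ τ' : GQ}
    (hU : ∀ x : JZero (m * q), n • x = 0 → τ • (τ' • x - x) = τ' • x - x)
    (c : parabolicHoms O (Gamma0 (m * q)) A) :
    galA hNT b τ (galA hNT b τ' c - c) = galA hNT b τ' c - c := by
  apply (coordE b).injective
  funext i
  rw [coordE_galA, map_sub, Pi.sub_apply, coordE_galA]
  apply (jEquiv hNT).injective
  apply Subtype.ext
  rw [jEquiv_galP, map_sub, AddSubgroup.coe_sub, jEquiv_galP]
  exact hU _ (jEquiv hNT (coordE b c i)).2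

end Jac

section Fr

variable {m q : ℕ} [NeZero m] [NeZero q] (hq : q.Prime) (hm : ¬ q ∣ m)
  {n : ℕ} [NeZero n] (hNT : NoTors (m * q) n)
  {O : Type} [CommRing O] [IsLocalRing O] [IsNoetherianRing O]
  [IsAdicComplete (maximalIdeal O) O] {A : Type} [AddCommGroup A] [Module O A]
  [Module (ZMod n) A] {ι : Type} [Fintype ι] (b : Module.Basis ι (ZMod n) A)
  {S : Set ℕ} {θ : PIdx S → ResidueField O}

/-- The classes killed by powers of the elements of `𝔪`. -/
def MNil (N : ℕ) [NeZero N] (S : Set ℕ) {k : Type} [Field k] (θ : PIdx S → k) (x : JZero N) :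
    Prop :=
  letI := heckeModuleBar N; ∀ s : HeckeAlgS S,
      MvPolynomial.eval₂ (Int.castRingHom k) θ s = 0 → ∃ j : ℕ, inclS S (s ^ j) • x = 0

/-- The coordinates of elements of the `𝔪`-part. -/
theorem mNil_of_mem_Pm {N : ℕ} [NeZero N] {n : ℕ} [NeZero n] (hNT : NoTors N n)
    {O : Type} [CommRing O] [IsLocalRing O] [IsNoetherianRing O]
    [IsAdicComplete (maximalIdeal O) O] {A : Type} [AddCommGroup A] [Module O A]
    [Module (ZMod n) A] {ι : Type} [Fintype ι] (b : Module.Basis ι (ZMod n) A)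
    {S : Set ℕ} {θ : PIdx S → ResidueField O}
    (hS : ∀ ℓ : ℕ, ℓ.Prime → ℓ ∣ N → ℓ ∈ S)
    {c : parabolicHoms O (Gamma0 N) A} (hc : c ∈ Pm N A θ) (i : ι) :
    MNil N S θ (jEquiv hNT (coordE b c i) : JZero N) := by
  letI := heckeModuleBar N
  have hfin := finite_parabolicA (O := O) hNT b
  obtain ⟨e, he⟩ := exists_isIdem_parabolic (O := O) (S := S) (θ := θ) hNT b
  intro s hs
  have hs' : evk θ (MvPolynomial.map (Int.castRingHom O) s) = 0 := by
    rw [evk, MvPolynomial.coe_eval₂Hom, MvPolynomial.eval₂_map, ← hs]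
    congr 1
  obtain ⟨j, hj⟩ := exists_pow_eq_zero he hs' hc
  refine ⟨j, ?_⟩
  have h2 := jEquiv_cev hNT hS (s ^ j) (coordE b c i)
  rw [← h2, ← coordE_cev b, map_pow, hj, map_zero, Pi.zero_apply, map_zero]
  rfl

variable (hW : WRel hq hm)

include hW in
/-- (Fr) on parabolic homomorphisms. -/
theorem galA_fr (hS : ∀ ℓ : ℕ, ℓ.Prime → ℓ ∣ m * q → ℓ ∈ S) {σ φ : GQ}
    (hFr : ∀ x : JZero (m * q), n • x = 0 → MNil (m * q) S θ x →
      σ • (φ • x + wJ hq hm x) = φ • x + wJ hq hm x)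
    {c : parabolicHoms O (Gamma0 (m * q)) A} (hc : c ∈ Pm (m * q) A θ) :
    galA hNT b σ (galA hNT b φ c + wP hq hm c) = galA hNT b φ c + wP hq hm c := by
  apply (coordE b).injective
  funext i
  rw [coordE_galA, map_add, Pi.add_apply, coordE_galA, coordE_wP]
  apply (jEquiv hNT).injective
  apply Subtype.ext
  rw [jEquiv_galP, map_add, AddSubgroup.coe_add, jEquiv_galP, jEquiv_wP hq hm hW]
  exact hFr _ (jEquiv hNT (coordE b c i)).2 (mNil_of_mem_Pm hNT b hS hc i)

end Fr

/-! ### The finite levels -/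

section Push

variable {M : ℕ} {R : Type*} [CommRing R] {A B : Type*} [AddCommGroup A] [Module R A]
  [AddCommGroup B] [Module R B]

theorem equivHom_map (f : A →ₗ[R] B) (x : HM M (1 : (ZMod M)ˣ →* Rˣ) A) :
    HM.equivHom (M := M) (R := R) (A := B) rfl (H1.map _ f x) =
      f.toAddMonoidHom.comp (HM.equivHom (M := M) (R := R) (A := A) rfl x) := by
  induction x using H1.ind with
  | h c => rfl

end Push

section Levels

variable {m q : ℕ} [NeZero m] [NeZero q] {p : ℕ} [hp : Fact p.Prime]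
  {O : Type} [CommRing O] [IsLocalRing O] [IsNoetherianRing O]
  [IsAdicComplete (maximalIdeal O) O] {S : Set ℕ} {θ : PIdx S → ResidueField O}
  {T : Type} [CommRing T] [Algebra O T]
  {MN : Type} [AddCommGroup MN] [Module O MN] [Module T MN] [IsScalarTower O T MN]

/-- The involution on the finite levels. -/
def wVk (w : MN →ₗ[T] MN) (p k : ℕ) : Vk T MN p k →ₗ[T] Vk T MN p k :=
  Submodule.mapQ (Kk T p k) (Kk T p k) w (by
    rintro _ ⟨y, rfl⟩
    exact ⟨w y, map_nsmul w _ _⟩)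

theorem wVk_mk (w : MN →ₗ[T] MN) (p k : ℕ) (x : MN) :
    wVk w p k (mkV T p k x) = mkV T p k (w x) := rfl

variable (e : MN ≃ₗ[O] Hm (m * q) 1 O S θ) (hne : NonEis1 (m * q) S θ)
  (hq : q.Prime) (hm : ¬ q ∣ m) (w : MN →ₗ[T] MN)
  (hw : ∀ x, HM.equivHom (M := m * q) (R := O) (A := O) rfl
      (e (w x) : HM (m * q) (1 : (ZMod (m * q))ˣ →* Oˣ) O) =
    (HM.equivHom (M := m * q) (R := O) (A := O) rfl
      (e x : HM (m * q) (1 : (ZMod (m * q))ˣ →* Oˣ) O)).comp (wHom hq hm).toAdditive)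

include hw in
theorem redk_w (k : ℕ) (x : MN) :
    (redk e hne p k (w x) : parabolicHoms O (Gamma0 (m * q)) (O ⧸ Ip O p k)) =
      wP hq hm (redk e hne p k x : parabolicHoms O (Gamma0 (m * q)) (O ⧸ Ip O p k)) := by
  apply Subtype.ext
  rw [← equivHom_toHM (m * q) O (O ⧸ Ip O p k), toHM_redk, equivHom_map, hw]
  have h1 := equivHom_toHM (m * q) O (O ⧸ Ip O p k)
    (redk e hne p k x : parabolicHoms O (Gamma0 (m * q)) (O ⧸ Ip O p k))
  rw [toHM_redk, equivHom_map] at h1
  refine AddMonoidHom.ext fun γ => ?_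
  rw [wP_apply, ← h1]
  rfl

include hw in
theorem ek_wVk (h : Good (m * q) (1 : (ZMod (m * q))ˣ →* Oˣ) S θ) (k : ℕ) (v : Vk T MN p k) :
    (ek e hne h k (wVk w p k v) : parabolicHoms O (Gamma0 (m * q)) (O ⧸ Ip O p k)) =
      wP hq hm (ek e hne h k v : parabolicHoms O (Gamma0 (m * q)) (O ⧸ Ip O p k)) := by
  obtain ⟨x, rfl⟩ := mkV_surjective T p k v
  rw [wVk_mk, ek_mk, ek_mk, redk_w e hne hq hm w hw]

variable (gen : PIdx S → T)
  (hgen : ∀ (ℓ : PIdx S) (x : MN), (e (gen ℓ • x) : HM (m * q) (1 : (ZMod (m * q))ˣ →* Oˣ) O) =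
    hop (m * q) 1 O S ℓ (e x : HM (m * q) (1 : (ZMod (m * q))ˣ →* Oˣ) O))
  (hNT : ∀ k, NoTors (m * q) (p ^ k)) (hS : ∀ ℓ : ℕ, ℓ.Prime → ℓ ∣ m * q → ℓ ∈ S)
  {k : ℕ} [Module (ZMod (p ^ k)) (O ⧸ Ip O p k)] {ι : Type} [Fintype ι]
  (b : Module.Basis ι (ZMod (p ^ k)) (O ⧸ Ip O p k))
  (h : Good (m * q) (1 : (ZMod (m * q))ˣ →* Oˣ) S θ)
  (hadj : Algebra.adjoin O (Set.range gen) = ⊤) (hW : WRel hq hm)

include hw hW in
theorem galV_wVk (σ : GQ) (v : Vk T MN p k) :
    galV e hne gen hgen hNT hS b h hadj σ (wVk w p k v) =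
      wVk w p k (galV e hne gen hgen hNT hS b h hadj σ v) := by
  apply (ek e hne h k).injective
  apply Subtype.ext
  rw [ek_galV, coe_galPm, ek_wVk e hne hq hm w hw, galA_wP hq hm hW,
    ek_wVk e hne hq hm w hw, ek_galV, coe_galPm]

/-- (U) on the finite levels. -/
theorem galV_unipotent {τ τ' : GQ}
    (hU : ∀ x : JZero (m * q), p ^ k • x = 0 → τ • (τ' • x - x) = τ' • x - x)
    (v : Vk T MN p k) :
    galV e hne gen hgen hNT hS b h hadj τ (galV e hne gen hgen hNT hS b h hadj τ' v - v) =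
      galV e hne gen hgen hNT hS b h hadj τ' v - v := by
  apply (ek e hne h k).injective
  apply Subtype.ext
  rw [ek_galV, coe_galPm, map_sub, Submodule.coe_sub, ek_galV, coe_galPm]
  exact galA_unipotent (hNT k) b hU _

include hw hW in
/-- (Fr) on the finite levels. -/
theorem galV_fr {σ φ : GQ}
    (hFr : ∀ x : JZero (m * q), p ^ k • x = 0 → MNil (m * q) S θ x →
      σ • (φ • x + wJ hq hm x) = φ • x + wJ hq hm x) (v : Vk T MN p k) :
    galV e hne gen hgen hNT hS b h hadj σ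
        (galV e hne gen hgen hNT hS b h hadj φ v + wVk w p k v) =
      galV e hne gen hgen hNT hS b h hadj φ v + wVk w p k v := by
  apply (ek e hne h k).injective
  apply Subtype.ext
  rw [ek_galV, coe_galPm, map_add, Submodule.coe_add, ek_galV, coe_galPm,
    ek_wVk e hne hq hm w hw]
  exact galA_fr hq hm (hNT k) b hW hS hFr (ek e hne h k v).2

end Levels

/-! ### The flip and commuting operators -/

section Flip

variable {T : Type*} [CommRing T] {V : Type*} [AddCommGroup V] [Module T V]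
  {G : Type*} [Group G] {r : G →* Module.End T V} {ρ : G →* Matrix (Fin 2) (Fin 2) T}

theorem flipEquiv_apply (Φ : Matrix (Fin 2) (Fin 2) T →ₐ[T] Module.End T V) (x : Fin 2 → V)
    (k : Fin 2) : flipEquiv Φ x k =
      Φ (Matrix.single 0 k 1) (x 0) + Φ (Matrix.single 1 k 1) (x 1) := by
  show Φ (Matrix.single 0 0 1) (Φ (Matrix.single 0 k 1) (x 0)) +
    Φ (Matrix.single 1 0 1) (Φ (Matrix.single 0 k 1) (x 1)) = _
  rw [phi_mul_apply, phi_mul_apply, Matrix.single_mul_single_same,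
    Matrix.single_mul_single_same, one_mul]

/-- An additive map commuting with `T` and `G` commutes with `M₂(T)`. -/
theorem phi_comm (hspan : Submodule.span T (Set.range ρ) = ⊤)
    (Φ : Matrix (Fin 2) (Fin 2) T →ₐ[T] Module.End T V) (hΦ : ∀ g, Φ (ρ g) = r g) (y : V →+ V)
    (hyT : ∀ (t : T) (v : V), y (t • v) = t • y v) (hyr : ∀ g v, y (r g v) = r g (y v))
    (A : Matrix (Fin 2) (Fin 2) T) (v : V) : y (Φ A v) = Φ A (y v) := by
  have hA : A ∈ Submodule.span T (Set.range ρ) := by rw [hspan]; trivial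
  induction hA using Submodule.span_induction with
  | mem x h =>
    obtain ⟨g, rfl⟩ := h
    rw [hΦ, hyr]
  | zero => rw [map_zero, LinearMap.zero_apply, LinearMap.zero_apply, map_zero]
  | add x z _ _ hx hz => rw [map_add, LinearMap.add_apply, map_add, hx, hz, LinearMap.add_apply]
  | smul a x _ hx => rw [map_smul, LinearMap.smul_apply, hyT, hx, LinearMap.smul_apply]

theorem flip_comm (hspan : Submodule.span T (Set.range ρ) = ⊤)
    (Φ : Matrix (Fin 2) (Fin 2) T →ₐ[T] Module.End T V) (hΦ : ∀ g, Φ (ρ g) = r g) (y : V →+ V)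
    (hyT : ∀ (t : T) (v : V), y (t • v) = t • y v) (hyr : ∀ g v, y (r g v) = r g (y v))
    (x : Fin 2 → V) (k : Fin 2) : flipEquiv Φ (wv y x) k = y (flipEquiv Φ x k) := by
  rw [flipEquiv_apply, flipEquiv_apply, map_add, phi_comm hspan Φ hΦ y hyT hyr,
    phi_comm hspan Φ hΦ y hyT hyr]
  rfl

end Flip

end Fermat.Agent.Ribet

end
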