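import Fermat.Agent.Ribet.FormsMod
import Fermat.Agent.Ribet.Fr
import Fermat.Agent.Ribet.LevelRel
import Fermat.Agent.QX4.Poly
import Fermat.Agent.S44w.Old

/-!
# Eigensystems which are new at `q` (cluster RIBET)

If the module of level `m` is zero, there is a Hecke polynomial which is zero on `S₂(Γ₀(m))` and
`1` on the eigensystem.  Hence both degeneracy maps kill the `𝔪`-part of `J₀(m q)`.
-/

set_option autoImplicit false
set_option linter.unusedSectionVars false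
set_option linter.style.haveILetI false

noncomputable section

open CongruenceSubgroup IsLocalRing ModularCurve
open scoped MatrixGroups

namespace Fermat.Agent.Ribet

open Fermat.Agent.HeckePar Fermat.Agent.TwHecke Fermat.Agent.TwExact Fermat.Agent.S41hm
open Fermat.Agent.GalRep Fermat.Agent.QX4

theorem eval₂_eq_thetaZ {S : Finset ℕ} {a : ℕ → ℤ} {k : Type} [CommRing k]
    {θ : PIdx (↑S : Set ℕ) → k} (hθ : ∀ ℓ, θ ℓ = ((a (ℓ.1 : ℕ) : ℤ) : k))
    (t : HeckeAlgS (↑S : Set ℕ)) :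
    MvPolynomial.eval₂ (Int.castRingHom k) θ t = ((S44w.thetaZ S a t : ℤ) : k) := by
  have h : MvPolynomial.eval₂Hom (Int.castRingHom k) θ =
      (Int.castRingHom k).comp (S44w.thetaZ S a) := by
    apply MvPolynomial.ringHom_ext
    · intro r
      simp
    · intro i
      rw [MvPolynomial.coe_eval₂Hom, MvPolynomial.eval₂_X, RingHom.comp_apply, S44w.thetaZ_X, hθ]
      rfl
  exact RingHom.congr_fun h t

/-- **New eigensystems are killed by a relation of the lower level.** -/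
theorem exists_kill {p : ℕ} [hp : Fact p.Prime] (hp2 : p ≠ 2) {m : ℕ} [NeZero m]
    (h3 : p ≠ 3 ∨ ∃ r : ℕ, r.Prime ∧ r ∣ m ∧ r % 3 = 2) {S : Finset ℕ} {a : ℕ → ℤ}
    {θ : PIdx (↑S : Set ℕ) → ResidueField ℤ_[p]}
    (hθ : ∀ ℓ, θ ℓ = ((a (ℓ.1 : ℕ) : ℤ) : ResidueField ℤ_[p]))
    (hnt : ¬ Nontrivial (MN p m (↑S : Set ℕ) θ)) :
    ∃ t : HeckeAlgS (↑S : Set ℕ), evS m (↑S : Set ℕ) t = 0 ∧
      MvPolynomial.eval₂ (Int.castRingHom (ResidueField ℤ_[p])) θ t = 1 := by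
  haveI := charP_residueField_padic p
  rcases S44w.exists_separating_or_eigenform m S p a with ⟨t, ht, h1⟩ | ⟨f, 𝔪, hf, h𝔪, hp𝔪, hc⟩
  · refine ⟨t, ht, ?_⟩
    rw [S44w.theta_eq] at h1
    have h2 : ((S44w.thetaZ S a t - 1 : ℤ) : ZMod p) = 0 := by
      push_cast
      rw [h1, sub_self]
    rw [ZMod.intCast_zmod_eq_zero_iff_dvd] at h2
    have h4 := (CharP.intCast_eq_zero_iff (ResidueField ℤ_[p]) p _).mpr h2
    push_cast at h4
    rw [eval₂_eq_thetaZ hθ]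
    exact sub_eq_zero.mp h4
  · exfalso
    apply hnt
    refine nontrivial_Hm_of_form (p := p) (N := m) (R := ℤ_[p]) (a := a) (by simp)
      (isUnit_two_padic hp2) (three_padic h3) (fun u => ?_) hθ hf 𝔪 h𝔪.ne_top hp𝔪
      (fun ℓ hℓ hℓS => hc ℓ hℓ hℓS)
    rw [MonoidHom.one_apply, Units.val_one, map_one]

section New

variable {m q : ℕ} [NeZero m] [NeZero q]

/-- An element of the `𝔪`-part killed by `t` with `θ(t) = 1` is zero. -/
theorem mNil_eq_zero {N : ℕ} [NeZero N] {S : Set ℕ} {k : Type} [Field k] {θ : PIdx S → k}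
    {x : JZero N} (hx : MNil N S θ x) {t : HeckeAlgS S}
    (ht : MvPolynomial.eval₂ (Int.castRingHom k) θ t = 1)
    (h0 : (letI := heckeModuleBar N; inclS S t • x) = 0) : x = 0 := by
  letI := heckeModuleBar N
  obtain ⟨j, hj⟩ := hx (1 - t) (by
    rw [MvPolynomial.eval₂_sub, ht, MvPolynomial.eval₂_one, sub_self])
  have h1 : ∀ j : ℕ, inclS S ((1 - t) ^ j) • x = x := by
    intro j
    induction j with
    | zero => rw [pow_zero, map_one, one_smul]
    | succ j ih =>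
      rw [pow_succ, map_mul, mul_smul, map_sub, map_one, sub_smul, one_smul]
      have h2 : inclS S t • x = 0 := h0
      rw [h2, sub_zero, ih]
  rw [← h1 j]
  exact hj

/-- the push-forward of the `𝔪`-part. -/
theorem mNil_pushA (hq : q.Prime) (hm : ¬ q ∣ m) {S : Set ℕ}
    (hS : ∀ ℓ : ℕ, ℓ.Prime → ℓ ∣ m * q → ℓ ∈ S) {k : Type} [Field k] {θ : PIdx S → k} {n : ℕ}
    (hn : n ≠ 0) {x : JZero (m * q)} (hnx : n • x = 0) (hx : MNil (m * q) S θ x) :
    MNil m S θ (pushA m q x) := by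
  intro s hs
  obtain ⟨j, hj⟩ := hx s hs
  refine ⟨j, ?_⟩
  have h1 := pushA_inclS hq hm S hS hn (s ^ j) x hnx
  rw [hj, map_zero] at h1
  exact h1.symm

/-- the Atkin–Lehner involution on the `𝔪`-part. -/
theorem mNil_wJ (hq : q.Prime) (hm : ¬ q ∣ m) {S : Set ℕ}
    (hS : ∀ ℓ : ℕ, ℓ.Prime → ℓ ∣ m * q → ℓ ∈ S) {k : Type} [Field k] {θ : PIdx S → k} {n : ℕ}
    (hn : n ≠ 0) {x : JZero (m * q)} (hnx : n • x = 0) (hx : MNil (m * q) S θ x) :
    MNil (m * q) S θ (wJ hq hm x) := by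
  intro s hs
  obtain ⟨j, hj⟩ := hx s hs
  refine ⟨j, ?_⟩
  have h1 := wJ_inclS hq hm S hS hn (s ^ j) x hnx
  rw [← h1]
  show wJ hq hm _ = 0
  rw [hj, map_zero]

variable {S : Set ℕ} {k : Type} [Field k] {θ : PIdx S → k}

/-- **The degeneracy map kills the `𝔪`-part of the torsion** if the eigensystem is new at `q`. -/
theorem pushA_eq_zero_of_kill (hq : q.Prime) (hm : ¬ q ∣ m)
    (hS : ∀ ℓ : ℕ, ℓ.Prime → ℓ ∣ m * q → ℓ ∈ S) {t : HeckeAlgS S} (ht : evS m S t = 0)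
    (hθt : MvPolynomial.eval₂ (Int.castRingHom k) θ t = 1) {n : ℕ} (hn : n ≠ 0)
    {x : JZero (m * q)} (hnx : n • x = 0) (hx : MNil (m * q) S θ x) : pushA m q x = 0 := by
  refine mNil_eq_zero (mNil_pushA hq hm hS hn hnx hx) hθt ?_
  refine S44w.inclS_smul_eq_zero m S (fun ℓ hℓ hd => hS ℓ hℓ (hd.mul_right q)) ht hn ?_
  rw [← map_nsmul, hnx, map_zero]

/-- **(Fr)** on the `𝔪`-part of an eigensystem which is new at `q`. -/
theorem fr_of_kill (hq : q.Prime) (hm : ¬ q ∣ m)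
    (hS : ∀ ℓ : ℕ, ℓ.Prime → ℓ ∣ m * q → ℓ ∈ S) {t : HeckeAlgS S} (ht : evS m S t = 0)
    (hθt : MvPolynomial.eval₂ (Int.castRingHom k) θ t = 1) {n : ℕ} (hn : n ≠ 0)
    (hnq : n.Coprime q) {A : ValuationSubring (AlgebraicClosure ℚ)} (hA : A.LiesOverPrime q)
    {φ τ : GQ} (hφ : A.IsFrobeniusAt φ q) (hτ : τ ∈ A.inertiaSubgroupIn ℚ)
    {x : JZero (m * q)} (hnx : n • x = 0) (hx : MNil (m * q) S θ x) :
    τ • (φ • x + wJ hq hm x) = φ • x + wJ hq hm x := by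
  refine fr_level hq hm hA hφ hτ (Nat.pos_of_ne_zero hn) hnq x hnx
    (pushA_eq_zero_of_kill hq hm hS ht hθt hn hnx hx) ?_
  refine pushA_eq_zero_of_kill hq hm hS ht hθt hn ?_ (mNil_wJ hq hm hS hn hnx hx)
  rw [← map_nsmul, hnx, map_zero]

end New

end Fermat.Agent.Ribet

end
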