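import Fermat.Agent.Ribet.Spec
import Fermat.Agent.TwHecke.Par

/-!
# The Atkin–Lehner operators `w_N` and `w_D`

* `wN` on `H¹(Γ₀(m q), A)` (trivial character), `x ↦ x ∘ wHom`;
* `wD` on the family `H¹(Γ₀(m q), ℤ_[p][Δ](taut τ ²))_𝔪`, semilinear for the inversion of `Δ`.
-/

set_option autoImplicit false
set_option linter.unusedSectionVars false
set_option linter.unusedVariables false
set_option linter.style.haveILetI false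

noncomputable section

namespace Fermat.Agent.Ribet

open TwHecke TwExact HeckeRep IsLocalRing CongruenceSubgroup
open scoped MatrixGroups

/-! ### Trivial character -/

/-- the trivial character -/
local notation "𝟙[" N ", " R "]" => (1 : (ZMod N)ˣ →* Rˣ)

section WN

variable {m q : ℕ} (hq : q.Prime) (hm : ¬ q ∣ m) {R : Type*} [CommRing R]
variable {A : Type*} [AddCommGroup A] [Module R A] {B : Type*} [AddCommGroup B] [Module R B]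

theorem wN_isWeight (R : Type*) [CommRing R] :
    (wCorr hq hm).IsWeight (chr (m * q) 𝟙[m * q, R])
      (chr (m * q) 𝟙[m * q, R]) (fun _ => (1 : R)) :=
  Corr.ofHom_isWeight _ (fun _ => rfl) 1

variable (R A) in
/-- cocycle version of `wN` -/
def wNZ : ZM (m * q) 𝟙[m * q, R] A →ₗ[R] ZM (m * q) 𝟙[m * q, R] A :=
  (wCorr hq hm).Ztr A (wN_isWeight hq hm R)

variable (R A) in
/-- **the Atkin–Lehner operator for the trivial character** -/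
def wN : HM (m * q) 𝟙[m * q, R] A →ₗ[R] HM (m * q) 𝟙[m * q, R] A :=
  (wCorr hq hm).tr A (wN_isWeight hq hm R)

theorem wN_mk (c : ZM (m * q) 𝟙[m * q, R] A) :
    wN hq hm R A (H1.mk c) = H1.mk (wNZ hq hm R A c) := rfl

@[simp] theorem wNZ_apply (c : ZM (m * q) 𝟙[m * q, R] A) (g : Gamma0 (m * q)) :
    wNZ hq hm R A c g = c (wHom hq hm g) := by
  simp [wNZ, wCorr, Corr.ofHom]

theorem wN_map (f : A →ₗ[R] B) (x : HM (m * q) 𝟙[m * q, R] A) :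
    wN hq hm R B (H1.map _ f x) = H1.map _ f (wN hq hm R A x) := Corr.tr_map _ _ _ _

theorem equivHom_wN (x : HM (m * q) 𝟙[m * q, R] A) :
    HM.equivHom (R := R) (A := A) rfl (wN hq hm R A x) =
      (HM.equivHom (R := R) (A := A) rfl x).comp (MonoidHom.toAdditive (wHom hq hm)) := by
  induction x using H1.ind with
  | h c =>
    refine AddMonoidHom.ext fun g => ?_
    obtain ⟨g, rfl⟩ := Additive.ofMul.surjective g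
    rw [wN_mk, HM.equivHom_mk, wNZ_apply]
    rfl

theorem equivHom_wN_apply (x : HM (m * q) 𝟙[m * q, R] A) (g : Gamma0 (m * q)) :
    HM.equivHom (R := R) (A := A) rfl (wN hq hm R A x) (Additive.ofMul g) =
      HM.equivHom (R := R) (A := A) rfl x (Additive.ofMul (wHom hq hm g)) := by
  rw [equivHom_wN]; rfl

/-- `w_N` is an involution. -/
theorem wN_wN (x : HM (m * q) 𝟙[m * q, R] A) : wN hq hm R A (wN hq hm R A x) = x := by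
  induction x using H1.ind with
  | h c =>
    rw [wN_mk, wN_mk]
    have h1 := H1.conj_eq c (wNZ hq hm R A (wNZ hq hm R A c)) (wSq hq hm) (fun g => by
        rw [wNZ_apply, wNZ_apply, wHom_wHom])
    rw [h1]
    exact one_smul R _

/-- comparison with `wq`. -/
theorem wN_eq_wq (x : HM (m * q) 𝟙[m * q, R] A) :
    wN hq hm R A x = wq hq hm (1 : (ZMod m)ˣ →* Rˣ) A x := by
  induction x using H1.ind with
  | h c =>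
    have h1 : wq hq hm (1 : (ZMod m)ˣ →* Rˣ) A (H1.mk c) =
      H1.mk ((wCorr hq hm).Ztr A (w_isWeight hq hm 1 (wt 1 (unitOf m q))) c) := rfl
    rw [wN_mk, h1]
    refine congrArg H1.mk (Z1.ext fun g => ?_)
    have h2 : (wCorr hq hm).Ztr A (w_isWeight hq hm 1 (wt 1 (unitOf m q))) c g =
        wt (1 : (ZMod m)ˣ →* Rˣ) (unitOf m q) • c (wHom hq hm g) := by
      simp [Corr.Ztr_apply, wCorr, Corr.ofHom]
    have h3 : wt (1 : (ZMod m)ˣ →* Rˣ) (unitOf m q) = (1 : R) := by simp [wt]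
    rw [h3, one_smul] at h2
    rw [wNZ_apply]
    exact h2.symm

/-- `w_N` commutes with `T_ℓ`, `ℓ ≠ q`. -/
theorem wN_heckeH {ℓ : ℕ} [Fact ℓ.Prime] (hℓ : ℓ ≠ q)
    (x : HM (m * q) 𝟙[m * q, R] A) :
    wN hq hm R A (heckeH (m * q) ℓ 1 A x) = heckeH (m * q) ℓ 1 A (wN hq hm R A x) := by
  rw [wN_eq_wq, wN_eq_wq]
  exact wq_heckeH (1 : (ZMod m)ˣ →* Rˣ) hq hm hℓ x

/-- `w_N` commutes with `T_ℓ`, `ℓ ≠ q`. -/
theorem wN_heckeP (ℓ : Nat.Primes) (hℓ : (ℓ : ℕ) ≠ q)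
    (x : HM (m * q) 𝟙[m * q, R] A) :
    wN hq hm R A (heckeP (m * q) 1 A ℓ x) = heckeP (m * q) 1 A ℓ (wN hq hm R A x) := by
  have : Fact (ℓ : ℕ).Prime := ⟨ℓ.2⟩
  exact wN_heckeH hq hm hℓ x

/-- **`U_q = - w_N` on the kernel of the second trace.** -/
theorem heckeU_eq_neg_wN [Fact q.Prime] [NeZero q]
    {x : HM (m * q) 𝟙[m * q, R] A}
    (hx : trB (1 : (ZMod m)ˣ →* Rˣ) A hq hm x = 0) :
    heckeH (m * q) q 1 A x = - wN hq hm R A x := by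
  rw [wN_eq_wq]
  exact heckeU_eq_neg_wq (1 : (ZMod m)ˣ →* Rˣ) hq hm hx

/-- `w_N` commutes with restriction of scalars of the coefficients along a ring map. -/
theorem pushH_wN {R' : Type*} [CommRing R'] (f : R →+* R')
    (hε : ∀ u, ((𝟙[m * q, R'] u : R'ˣ) : R') =
      f ((𝟙[m * q, R] u : Rˣ) : R))
    (x : HM (m * q) 𝟙[m * q, R] R) :
    pushH f hε (wN hq hm R R x) = wN hq hm R' R' (pushH f hε x) := by
  induction x using H1.ind with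
  | h c =>
    rw [wN_mk, pushH_mk, pushH_mk, wN_mk]
    refine congrArg H1.mk (Z1.ext fun g => ?_)
    rw [pushZ_apply, wNZ_apply, wNZ_apply, pushZ_apply]

end WN

section WNm

variable {m q : ℕ} (hq : q.Prime) (hm : ¬ q ∣ m) {R : Type} [CommRing R] [IsLocalRing R]
  {A : Type} [AddCommGroup A] [Module R A] {S : Set ℕ} (hqS : q ∈ S)
  {θ : PIdx S → ResidueField R}

include hqS in
theorem wN_mem_Hm {x : HM (m * q) 𝟙[m * q, R] A} (hx : x ∈ Hm (m * q) 𝟙[m * q, R] A S θ) :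
    wN hq hm R A x ∈ Hm (m * q) 𝟙[m * q, R] A S θ :=
  mpart_stable (hop_commute (m * q) 1 A S) (wN hq hm R A)
    (fun i y => wN_heckeP hq hm i.1 (fun h => i.2 (by rw [h]; exact hqS)) y) hx

/-- `w_N` on the `𝔪`-part. -/
def wNm : Hm (m * q) 𝟙[m * q, R] A S θ →ₗ[R] Hm (m * q) 𝟙[m * q, R] A S θ :=
  (wN hq hm R A).restrict fun _ hx => wN_mem_Hm hq hm hqS hx

@[simp] theorem coe_wNm (x : Hm (m * q) 𝟙[m * q, R] A S θ) :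
    ((wNm hq hm hqS x : Hm (m * q) 𝟙[m * q, R] A S θ) :
      HM (m * q) 𝟙[m * q, R] A) = wN hq hm R A x.1 := rfl

theorem wNm_wNm (x : Hm (m * q) 𝟙[m * q, R] A S θ) :
    wNm hq hm hqS (wNm hq hm hqS x) = x := Subtype.ext (wN_wN hq hm x.1)

end WNm

/-! ### The inversion of the group ring -/

section Inv

variable (𝒪 : Type*) [CommRing 𝒪] (Δ : Type*) [CommGroup Δ]

/-- the inversion `δ ↦ δ⁻¹` of the group ring -/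
def invG : MonoidAlgebra 𝒪 Δ →ₐ[𝒪] MonoidAlgebra 𝒪 Δ :=
  MonoidAlgebra.mapDomainAlgHom 𝒪 𝒪 (invMonoidHom : Δ →* Δ)

variable {𝒪 Δ}

@[simp] theorem invG_single (δ : Δ) (a : 𝒪) :
    invG 𝒪 Δ (MonoidAlgebra.single δ a) = MonoidAlgebra.single δ⁻¹ a :=
  MonoidAlgebra.mapDomain_single

@[simp] theorem invG_gr (δ : Δ) : invG 𝒪 Δ (RT.gr 𝒪 Δ δ) = RT.gr 𝒪 Δ δ⁻¹ := invG_single δ 1

@[simp] theorem invG_invG (a : MonoidAlgebra 𝒪 Δ) : invG 𝒪 Δ (invG 𝒪 Δ a) = a := by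
  have h : (invG 𝒪 Δ).comp (invG 𝒪 Δ) = AlgHom.id 𝒪 _ := by
    refine MonoidAlgebra.algHom_ext (fun δ => ?_) (Subsingleton.elim _ _)
    rw [AlgHom.comp_apply, invG_single, invG_single, inv_inv]
    rfl
  exact DFunLike.congr_fun h a

@[simp] theorem aug_invG (a : MonoidAlgebra 𝒪 Δ) : RT.aug 𝒪 Δ (invG 𝒪 Δ a) = RT.aug 𝒪 Δ a := by
  have h : (RT.aug 𝒪 Δ).comp (invG 𝒪 Δ) = RT.aug 𝒪 Δ := by
    refine MonoidAlgebra.algHom_ext (fun δ => ?_) (Subsingleton.elim _ _)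
    rw [AlgHom.comp_apply, invG_single]
    exact (RT.aug_gr (𝒪 := 𝒪) δ⁻¹).trans (RT.aug_gr (𝒪 := 𝒪) δ).symm
  exact DFunLike.congr_fun h a

theorem chiO_invG [IsDomain 𝒪] [Fintype Δ] (ι : 𝒪 →+* ℂ) (ψ : Δ →* ℂˣ) (a : MonoidAlgebra 𝒪 Δ) :
    chiO ι ψ (invG 𝒪 Δ a) = chiO ι ψ⁻¹ a := by
  induction a using MonoidAlgebra.induction_on with
  | of g =>
    show chiO ι ψ (invG 𝒪 Δ (MonoidAlgebra.single g 1)) = chiO ι ψ⁻¹ (MonoidAlgebra.single g 1)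
    rw [invG_single, chiO_single, chiO_single, map_inv]
    rfl
  | add a b ha hb => rw [map_add, map_add, ha, hb, map_add]
  | smul r a ha =>
    rw [map_smul, Algebra.smul_def, Algebra.smul_def, map_mul, map_mul, ha]
    congr 1
    simp only [MonoidAlgebra.coe_algebraMap, Function.comp_apply, chiO_single, map_one]

/-- the inversion as a semilinear map -/
def invS : MonoidAlgebra 𝒪 Δ →ₛₗ[(invG 𝒪 Δ : MonoidAlgebra 𝒪 Δ →+* MonoidAlgebra 𝒪 Δ)]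
    MonoidAlgebra 𝒪 Δ where
  toFun := invG 𝒪 Δ
  map_add' := map_add _
  map_smul' r x := by rw [smul_eq_mul, map_mul]; rfl

@[simp] theorem invS_apply (a : MonoidAlgebra 𝒪 Δ) : invS a = invG 𝒪 Δ a := rfl

end Inv

section Residue

variable {𝒪 : Type} [CommRing 𝒪] [IsLocalRing 𝒪] {Δ : Type} [CommGroup Δ]
  [IsLocalRing (MonoidAlgebra 𝒪 Δ)]

/-- the augmentation ideal is contained in the maximal ideal -/
theorem residue_eq_of_aug_eq {a b : MonoidAlgebra 𝒪 Δ} (h : RT.aug 𝒪 Δ a = RT.aug 𝒪 Δ b) :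
    residue (MonoidAlgebra 𝒪 Δ) a = residue (MonoidAlgebra 𝒪 Δ) b := by
  rw [← sub_eq_zero, ← map_sub, residue_eq_zero_iff]
  have h1 : RingHom.ker (RT.aug 𝒪 Δ) ≠ ⊤ := RingHom.ker_ne_top _
  refine le_maximalIdeal h1 ?_
  rw [RingHom.mem_ker, map_sub, h, sub_self]

theorem residue_invG (a : MonoidAlgebra 𝒪 Δ) :
    residue (MonoidAlgebra 𝒪 Δ) (invG 𝒪 Δ a) = residue (MonoidAlgebra 𝒪 Δ) a :=
  residue_eq_of_aug_eq (aug_invG a)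

end Residue

/-! ### The family -/

section Fam

variable {m q : ℕ} (hq : q.Prime) (hm : ¬ q ∣ m) (𝒪 : Type) [CommRing 𝒪] {Δ : Type} [CommGroup Δ]
  (τ0 : (ZMod q)ˣ →* Δ)

/-- the character of the family -/
abbrev epsD (m : ℕ) : (ZMod (m * q))ˣ →* (MonoidAlgebra 𝒪 Δ)ˣ := taut 𝒪 (tauQ m q τ0) ^ 2

theorem coe_epsD (u : (ZMod (m * q))ˣ) : ((epsD 𝒪 τ0 m u : (MonoidAlgebra 𝒪 Δ)ˣ) :
    MonoidAlgebra 𝒪 Δ) = RT.gr 𝒪 Δ (tauQ m q τ0 u) ^ 2 := by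
  rw [epsD, MonoidHom.pow_apply, Units.val_pow_eq_pow_val]
  rfl

theorem tauQ_wInv (u : (ZMod (m * q))ˣ) :
    tauQ m q τ0 (wInv (coprime_of_not_dvd hq hm) u) = (tauQ m q τ0 u)⁻¹ := by
  rw [tauQ_apply, tauQ_apply, unitsMap_wInv', map_inv]

theorem epsD_semi (u : (ZMod (m * q))ˣ) :
    ((epsD 𝒪 τ0 m u : (MonoidAlgebra 𝒪 Δ)ˣ) : MonoidAlgebra 𝒪 Δ) =
      (invG 𝒪 Δ : MonoidAlgebra 𝒪 Δ →+* MonoidAlgebra 𝒪 Δ) (epsW hq hm (epsD 𝒪 τ0 m) u) := by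
  show _ = invG 𝒪 Δ ((epsD 𝒪 τ0 m (wInv (coprime_of_not_dvd hq hm) u) : (MonoidAlgebra 𝒪 Δ)ˣ) :
    MonoidAlgebra 𝒪 Δ)
  rw [coe_epsD, coe_epsD, tauQ_wInv hq hm, map_pow, invG_gr, inv_inv]

/-- **the semilinear Atkin–Lehner operator on the family** (global cohomology) -/
def wDH : HM (m * q) (epsD 𝒪 τ0 m) (MonoidAlgebra 𝒪 Δ) →ₛₗ[(invG 𝒪 Δ : MonoidAlgebra 𝒪 Δ →+*
    MonoidAlgebra 𝒪 Δ)] HM (m * q) (epsD 𝒪 τ0 m) (MonoidAlgebra 𝒪 Δ) :=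
  wSemi hq hm (epsD_semi hq hm 𝒪 τ0) invS

theorem wDH_smul (a : MonoidAlgebra 𝒪 Δ) (x : HM (m * q) (epsD 𝒪 τ0 m) (MonoidAlgebra 𝒪 Δ)) :
    wDH hq hm 𝒪 τ0 (a • x) = invG 𝒪 Δ a • wDH hq hm 𝒪 τ0 x :=
  (wDH hq hm 𝒪 τ0).map_smulₛₗ a x

theorem tauQ_wSq : tauQ m q τ0 (aMap (m * q) (wSq hq hm)) = τ0 (-1) := by
  rw [tauQ_apply]
  congr 1
  apply Units.ext
  rw [Units.val_neg, Units.val_one]
  show (aMap' (dvd_mul_left q m) (wSq hq hm) : ZMod q) = -1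
  rw [val_aMap']
  have h1 : (wSq hq hm : SL(2, ℤ)) 0 0 = q + wb hq hm * m := rfl
  rw [h1]
  have h4 := congrArg (Int.cast : ℤ → ZMod q) (wbd hq hm)
  push_cast at h4 ⊢
  rw [ZMod.natCast_self] at h4 ⊢
  linear_combination -h4

/-- `w_D` is an involution. -/
theorem wDH_wDH (x : HM (m * q) (epsD 𝒪 τ0 m) (MonoidAlgebra 𝒪 Δ)) :
    wDH hq hm 𝒪 τ0 (wDH hq hm 𝒪 τ0 x) = x := by
  rw [wDH, wSemi_wSemi hq hm _ _ (fun a => invG_invG a), coe_epsD, tauQ_wSq, ← RT.gr_pow,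
    ← map_pow, neg_one_sq, map_one, RT.gr_one, one_smul]

theorem coe_epsQ (ℓ : ℕ) : ((epsQ hq hm (epsD 𝒪 τ0 m) ℓ : (MonoidAlgebra 𝒪 Δ)ˣ) :
    MonoidAlgebra 𝒪 Δ) = RT.gr 𝒪 Δ (τ0 (unitOf q ℓ)) ^ 2 := by
  rw [epsQ, coe_epsD, tauQ_apply, unitsMap_qUnit']

/-- `T_ℓ w = ε_q(ℓ)⁻¹ w T_ℓ` -/
theorem heckeP_wDH (ℓ : Nat.Primes) (hℓ : (ℓ : ℕ) ≠ q)
    (x : HM (m * q) (epsD 𝒪 τ0 m) (MonoidAlgebra 𝒪 Δ)) :
    heckeP (m * q) (epsD 𝒪 τ0 m) (MonoidAlgebra 𝒪 Δ) ℓ (wDH hq hm 𝒪 τ0 x) =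
      RT.gr 𝒪 Δ (τ0 (unitOf q ℓ))⁻¹ ^ 2 •
        wDH hq hm 𝒪 τ0 (heckeP (m * q) (epsD 𝒪 τ0 m) (MonoidAlgebra 𝒪 Δ) ℓ x) := by
  have : Fact (ℓ : ℕ).Prime := ⟨ℓ.2⟩
  have h := wSemi_heckeH (p := (ℓ : ℕ)) hq hm hℓ (epsD_semi hq hm 𝒪 τ0) (invS (𝒪 := 𝒪) (Δ := Δ)) x
  rw [coe_epsQ] at h
  refine h.trans ?_
  congr 1
  show invG 𝒪 Δ (RT.gr 𝒪 Δ (τ0 (unitOf q ℓ)) ^ 2) = _
  rw [map_pow, invG_gr]

theorem tauQ_unitOf {ℓ : ℕ} (hℓ : ℓ.Prime) (h : ¬ ℓ ∣ m * q) :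
    tauQ m q τ0 (unitOf (m * q) ℓ) = τ0 (unitOf q ℓ) := by
  rw [tauQ_apply]
  congr 1
  have hu := isUnit_prime hℓ h
  have hu' := isUnit_prime hℓ (fun h' => h (h'.mul_left m))
  apply Units.ext
  rw [val_unitOf hu']
  show ZMod.castHom (dvd_mul_left q m) (ZMod q) (unitOf (m * q) ℓ : ZMod (m * q)) = _
  rw [val_unitOf hu, map_intCast]

/-- **`w_D` commutes with `T'_ℓ`.** -/
theorem wDH_nop {S : Set ℕ} (ℓ : PIdx S) (hℓ : ¬ (ℓ.1 : ℕ) ∣ m * q)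
    (x : HM (m * q) (epsD 𝒪 τ0 m) (MonoidAlgebra 𝒪 Δ)) :
    wDH hq hm 𝒪 τ0 (nop (taut 𝒪 (tauQ m q τ0)) S ℓ x) =
      nop (taut 𝒪 (tauQ m q τ0)) S ℓ (wDH hq hm 𝒪 τ0 x) := by
  have hlq : (ℓ.1 : ℕ) ≠ q := fun h => hℓ (by rw [h]; exact dvd_mul_left q m)
  have h1 : ((taut 𝒪 (tauQ m q τ0) (unitOf (m * q) ℓ.1) : (MonoidAlgebra 𝒪 Δ)ˣ) :
      MonoidAlgebra 𝒪 Δ) = RT.gr 𝒪 Δ (τ0 (unitOf q ℓ.1)) := by
    rw [← tauQ_unitOf τ0 ℓ.1.2 hℓ]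
    rfl
  rw [nop, LinearMap.smul_apply, LinearMap.smul_apply, wDH_smul, heckeP_wDH hq hm 𝒪 τ0 ℓ.1 hlq,
    smul_smul, h1, invG_gr]
  congr 1
  have h2 : RT.gr 𝒪 Δ (τ0 (unitOf q ℓ.1)) * RT.gr 𝒪 Δ (τ0 (unitOf q ℓ.1))⁻¹ = 1 := by
    rw [← RT.gr_mul, mul_inv_cancel, RT.gr_one]
  linear_combination (-RT.gr 𝒪 Δ (τ0 (unitOf q ℓ.1))⁻¹) * h2

/-- **specialisation at the trivial character** -/
theorem pushH_wDH (hε : ∀ u, (((1 : (ZMod (m * q))ˣ →* 𝒪ˣ) u : 𝒪ˣ) : 𝒪) =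
      (RT.aug 𝒪 Δ : MonoidAlgebra 𝒪 Δ →+* 𝒪)
        ((epsD 𝒪 τ0 m u : (MonoidAlgebra 𝒪 Δ)ˣ) : MonoidAlgebra 𝒪 Δ))
    (x : HM (m * q) (epsD 𝒪 τ0 m) (MonoidAlgebra 𝒪 Δ)) :
    pushH (RT.aug 𝒪 Δ : MonoidAlgebra 𝒪 Δ →+* 𝒪) hε (wDH hq hm 𝒪 τ0 x) =
      wN hq hm 𝒪 𝒪 (pushH (RT.aug 𝒪 Δ : MonoidAlgebra 𝒪 Δ →+* 𝒪) hε x) := by
  induction x using H1.ind with
  | h c =>
    rw [wDH, wSemi_mk, pushH_mk, pushH_mk, wN_mk]
    refine congrArg H1.mk (Z1.ext fun g => ?_)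
    rw [pushZ_apply, wNZ_apply, pushZ_apply, Z1.mapₛ_apply, wTZ_apply, invS_apply]
    exact aug_invG _

end Fam

section Twist

variable {R : Type*} [CommRing R] {ι : Type*} {H : Type*} [AddCommGroup H] [Module R H]

/-- evaluation of polynomials and semilinear maps commuting with the operators up to scalars. -/
theorem cev_twist (σ : R →+* R) (hσ : ∀ a, σ (σ a) = a) {T : ι → Module.End R H}
    (hT : ∀ i j, Commute (T i) (T j)) (w : H →+ H) (hw : ∀ a x, w (a • x) = σ a • w x)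
    (u : ι → R) (hTw : ∀ i x, T i (w x) = σ (u i) • w (T i x)) (t : MvPolynomial ι R) (x : H) :
    cev T hT t (w x) = w (cev T hT (MvPolynomial.eval₂Hom (MvPolynomial.C.comp σ)
      (fun i => MvPolynomial.C (u i) * MvPolynomial.X i) t) x) := by
  induction t using MvPolynomial.induction_on generalizing x with
  | C a =>
    rw [MvPolynomial.coe_eval₂Hom, MvPolynomial.eval₂_C, RingHom.comp_apply, cev_C, cev_C,
      Module.algebraMap_end_apply, Module.algebraMap_end_apply, hw, hσ]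
  | add p q hp hq => rw [map_add, map_add, map_add, LinearMap.add_apply, LinearMap.add_apply,
      map_add, hp, hq]
  | mul_X p i hp =>
    have h1 : T i (w x) = w (cev T hT (MvPolynomial.C (u i) * MvPolynomial.X i) x) := by
      rw [map_mul, cev_C, cev_X, Module.End.mul_apply, Module.algebraMap_end_apply, hw, hTw]
    rw [cev_mul_apply, cev_X, h1, hp, ← cev_mul_apply,
      map_mul (MvPolynomial.eval₂Hom (MvPolynomial.C.comp σ)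
        (fun i => MvPolynomial.C (u i) * MvPolynomial.X i)), MvPolynomial.eval₂Hom_X']

end Twist

section FamM

variable {m q : ℕ} (hq : q.Prime) (hm : ¬ q ∣ m) {𝒪 : Type} [CommRing 𝒪] [IsLocalRing 𝒪]
  {Δ : Type} [CommGroup Δ] [IsLocalRing (MonoidAlgebra 𝒪 Δ)] (τ0 : (ZMod q)ˣ →* Δ) {S : Set ℕ}
  (hqS : q ∈ S) {θ : PIdx S → ResidueField (MonoidAlgebra 𝒪 Δ)}

/-- auxiliary substitution -/
def subW (S : Set ℕ) (𝒪 : Type) [CommRing 𝒪] :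
    MvPolynomial (PIdx S) (MonoidAlgebra 𝒪 Δ) →+* MvPolynomial (PIdx S) (MonoidAlgebra 𝒪 Δ) :=
  MvPolynomial.eval₂Hom (MvPolynomial.C.comp (invG 𝒪 Δ : MonoidAlgebra 𝒪 Δ →+* MonoidAlgebra 𝒪 Δ))
    (fun ℓ => MvPolynomial.C (RT.gr 𝒪 Δ (τ0 (unitOf q ℓ.1)) ^ 2) * MvPolynomial.X ℓ)

theorem evk_subW (t : MvPolynomial (PIdx S) (MonoidAlgebra 𝒪 Δ)) :
    evk θ (subW τ0 S 𝒪 t) = evk θ t := by
  induction t using MvPolynomial.induction_on with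
  | C a =>
    rw [subW, MvPolynomial.coe_eval₂Hom, MvPolynomial.eval₂_C, RingHom.comp_apply, evk_C, evk_C]
    exact residue_invG a
  | add p q hp hq => rw [map_add, map_add, map_add, hp, hq]
  | mul_X p i hp =>
    rw [map_mul, map_mul, map_mul, hp, evk_X]
    congr 1
    rw [subW, MvPolynomial.coe_eval₂Hom, MvPolynomial.eval₂_X, map_mul, evk_X, evk_C]
    have h1 : residue (MonoidAlgebra 𝒪 Δ) (RT.gr 𝒪 Δ (τ0 (unitOf q i.1)) ^ 2) =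
        residue (MonoidAlgebra 𝒪 Δ) 1 := residue_eq_of_aug_eq (by
      rw [map_pow, RT.aug_gr, one_pow, map_one])
    rw [h1, map_one, one_mul]

include hqS in
theorem cev_wDH (t : MvPolynomial (PIdx S) (MonoidAlgebra 𝒪 Δ))
    (x : HM (m * q) (epsD 𝒪 τ0 m) (MonoidAlgebra 𝒪 Δ)) :
    cev (hop (m * q) (epsD 𝒪 τ0 m) (MonoidAlgebra 𝒪 Δ) S) (hop_commute _ _ _ S) t
        (wDH hq hm 𝒪 τ0 x) =
      wDH hq hm 𝒪 τ0 (cev (hop (m * q) (epsD 𝒪 τ0 m) (MonoidAlgebra 𝒪 Δ) S)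
        (hop_commute _ _ _ S) (subW τ0 S 𝒪 t) x) :=
  cev_twist (invG 𝒪 Δ : MonoidAlgebra 𝒪 Δ →+* MonoidAlgebra 𝒪 Δ) invG_invG
    (hop_commute (m * q) (epsD 𝒪 τ0 m) (MonoidAlgebra 𝒪 Δ) S)
    ((wDH hq hm 𝒪 τ0 (m := m)).toAddMonoidHom) (wDH_smul hq hm 𝒪 τ0)
    (fun ℓ => RT.gr 𝒪 Δ (τ0 (unitOf q ℓ.1)) ^ 2) (fun i y => by
      have hiq : (i.1 : ℕ) ≠ q := fun h => i.2 (by rw [h]; exact hqS)
      have h1 := heckeP_wDH hq hm 𝒪 τ0 i.1 hiq y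
      rw [← invG_gr, ← map_pow] at h1
      exact h1) t x

include hqS in
theorem wDH_mem_Hm {x : HM (m * q) (epsD 𝒪 τ0 m) (MonoidAlgebra 𝒪 Δ)}
    (hx : x ∈ Hm (m * q) (epsD 𝒪 τ0 m) (MonoidAlgebra 𝒪 Δ) S θ) :
    wDH hq hm 𝒪 τ0 x ∈ Hm (m * q) (epsD 𝒪 τ0 m) (MonoidAlgebra 𝒪 Δ) S θ := by
  rw [Hm, mem_mpart] at hx ⊢
  intro t ht
  obtain ⟨y, rfl⟩ := hx (subW τ0 S 𝒪 t) (by rwa [evk_subW])
  exact ⟨wDH hq hm 𝒪 τ0 y, cev_wDH hq hm τ0 hqS t y⟩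

end FamM

/-! ### Road B -/

section MDw

variable {p : ℕ} [Fact p.Prime] {m q : ℕ} (hq : q.Prime) (hm : ¬ q ∣ m) {Δ : Type} [CommGroup Δ]
  (τ0 : (ZMod q)ˣ →* Δ) [IsLocalRing (MonoidAlgebra ℤ_[p] Δ)]
  [IsLocalHom (algebraMap ℤ_[p] (MonoidAlgebra ℤ_[p] Δ))]
  {S : Set ℕ} (hqS : q ∈ S) {θ : PIdx S → ResidueField ℤ_[p]}

/-- **The Atkin–Lehner operator `w_D` on the family.** -/
def wD : MD p (m * q) (tauQ m q τ0) S θ →+ MD p (m * q) (tauQ m q τ0) S θ where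
  toFun x := ⟨wDH hq hm ℤ_[p] τ0 x.1, wDH_mem_Hm hq hm τ0 hqS x.2⟩
  map_zero' := Subtype.ext (map_zero _)
  map_add' x y := Subtype.ext (map_add _ _ _)

@[simp] theorem coe_wD (x : MD p (m * q) (tauQ m q τ0) S θ) :
    ((wD hq hm τ0 hqS x : MD p (m * q) (tauQ m q τ0) S θ) :
      HM (m * q) (epsD ℤ_[p] τ0 m) (MonoidAlgebra ℤ_[p] Δ)) = wDH hq hm ℤ_[p] τ0 x.1 := rfl

theorem wD_smul (a : MonoidAlgebra ℤ_[p] Δ) (x : MD p (m * q) (tauQ m q τ0) S θ) :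
    wD hq hm τ0 hqS (a • x) = invG ℤ_[p] Δ a • wD hq hm τ0 hqS x :=
  Subtype.ext (wDH_smul hq hm ℤ_[p] τ0 a x.1)

theorem wD_gr_smul (δ : Δ) (x : MD p (m * q) (tauQ m q τ0) S θ) :
    wD hq hm τ0 hqS (RT.gr ℤ_[p] Δ δ • x) = RT.gr ℤ_[p] Δ δ⁻¹ • wD hq hm τ0 hqS x := by
  rw [wD_smul, invG_gr]

/-- the form used in `family_contradiction`: `ϖ = δ - 1`, `e = -δ⁻¹` -/
theorem wD_sub_one_smul (δ : Δ) (x : MD p (m * q) (tauQ m q τ0) S θ) :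
    wD hq hm τ0 hqS ((RT.gr ℤ_[p] Δ δ - 1) • x) =
      -((1 + (RT.gr ℤ_[p] Δ δ - 1) * (-RT.gr ℤ_[p] Δ δ⁻¹)) • (RT.gr ℤ_[p] Δ δ - 1) •
        wD hq hm τ0 hqS x) := by
  have h2 : RT.gr ℤ_[p] Δ δ * RT.gr ℤ_[p] Δ δ⁻¹ = 1 := by
    rw [← RT.gr_mul, mul_inv_cancel, RT.gr_one]
  rw [wD_smul, map_sub, map_one, invG_gr, smul_smul, ← neg_smul]
  congr 1
  linear_combination (2 - RT.gr ℤ_[p] Δ δ) * h2

theorem wD_algebraMap_smul (a : ℤ_[p]) (x : MD p (m * q) (tauQ m q τ0) S θ) :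
    wD hq hm τ0 hqS (algebraMap ℤ_[p] (MonoidAlgebra ℤ_[p] Δ) a • x) =
      algebraMap ℤ_[p] (MonoidAlgebra ℤ_[p] Δ) a • wD hq hm τ0 hqS x := by
  rw [wD_smul, AlgHom.commutes]

theorem wD_wD (x : MD p (m * q) (tauQ m q τ0) S θ) :
    wD hq hm τ0 hqS (wD hq hm τ0 hqS x) = x := Subtype.ext (wDH_wDH hq hm ℤ_[p] τ0 x.1)

/-- `w_D` commutes with `T'_ℓ` -/
theorem coe_wD_nop (ℓ : PIdx S) (hℓ : ¬ (ℓ.1 : ℕ) ∣ m * q)
    (x : MD p (m * q) (tauQ m q τ0) S θ) :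
    wDH hq hm ℤ_[p] τ0 (nop (taut ℤ_[p] (tauQ m q τ0)) S ℓ x.1) =
      nop (taut ℤ_[p] (tauQ m q τ0)) S ℓ (wD hq hm τ0 hqS x).1 :=
  wDH_nop hq hm ℤ_[p] τ0 ℓ hℓ x.1

/-- `w_D` commutes with every additive operator which is `T'_ℓ` on the underlying classes. -/
theorem wD_comm_nop (ℓ : PIdx S) (hℓ : ¬ (ℓ.1 : ℕ) ∣ m * q)
    (T : MD p (m * q) (tauQ m q τ0) S θ → MD p (m * q) (tauQ m q τ0) S θ)
    (hT : ∀ x, (T x).1 = nop (taut ℤ_[p] (tauQ m q τ0)) S ℓ x.1)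
    (x : MD p (m * q) (tauQ m q τ0) S θ) :
    wD hq hm τ0 hqS (T x) = T (wD hq hm τ0 hqS x) :=
  Subtype.ext (by
    rw [hT, coe_wD, hT]
    exact wDH_nop hq hm ℤ_[p] τ0 ℓ hℓ x.1)

theorem pushH_wD (hε : ∀ u, (((1 : (ZMod (m * q))ˣ →* ℤ_[p]ˣ) u : ℤ_[p]ˣ) : ℤ_[p]) =
      (RT.aug ℤ_[p] Δ : MonoidAlgebra ℤ_[p] Δ →+* ℤ_[p])
        ((epsD ℤ_[p] τ0 m u : (MonoidAlgebra ℤ_[p] Δ)ˣ) : MonoidAlgebra ℤ_[p] Δ))
    (x : MD p (m * q) (tauQ m q τ0) S θ) :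
    pushH (RT.aug ℤ_[p] Δ : MonoidAlgebra ℤ_[p] Δ →+* ℤ_[p]) hε (wD hq hm τ0 hqS x).1 =
      wN hq hm ℤ_[p] ℤ_[p] (pushH (RT.aug ℤ_[p] Δ : MonoidAlgebra ℤ_[p] Δ →+* ℤ_[p]) hε x.1) :=
  pushH_wDH hq hm ℤ_[p] τ0 hε x.1

/-- the compatibility with the specialisation `MD → MN`. -/
theorem spec_wD [IsLocalHom (RT.aug ℤ_[p] Δ : MonoidAlgebra ℤ_[p] Δ →+* ℤ_[p])]
    (hε : ∀ u, (((1 : (ZMod (m * q))ˣ →* ℤ_[p]ˣ) u : ℤ_[p]ˣ) : ℤ_[p]) =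
      (RT.aug ℤ_[p] Δ : MonoidAlgebra ℤ_[p] Δ →+* ℤ_[p])
        ((epsD ℤ_[p] τ0 m u : (MonoidAlgebra ℤ_[p] Δ)ˣ) : MonoidAlgebra ℤ_[p] Δ))
    (hσ : Function.Surjective (RT.aug ℤ_[p] Δ : MonoidAlgebra ℤ_[p] Δ →+* ℤ_[p]))
    {θ' : PIdx S → ResidueField ℤ_[p]}
    (hθ : ∀ ℓ, θ' ℓ = ResidueField.map (RT.aug ℤ_[p] Δ : MonoidAlgebra ℤ_[p] Δ →+* ℤ_[p])
      (thMap (MonoidAlgebra ℤ_[p] Δ) θ ℓ))
    (x : MD p (m * q) (tauQ m q τ0) S θ) :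
    spec (RT.aug ℤ_[p] Δ : MonoidAlgebra ℤ_[p] Δ →+* ℤ_[p]) hε hσ hθ (wD hq hm τ0 hqS x) =
      wNm hq hm hqS (spec (RT.aug ℤ_[p] Δ : MonoidAlgebra ℤ_[p] Δ →+* ℤ_[p]) hε hσ hθ x) :=
  Subtype.ext (pushH_wDH hq hm ℤ_[p] τ0 hε x.1)

/-- the characters match -/
theorem aug_epsD (u : (ZMod (m * q))ˣ) :
    (((1 : (ZMod (m * q))ˣ →* ℤ_[p]ˣ) u : ℤ_[p]ˣ) : ℤ_[p]) =
      (RT.aug ℤ_[p] Δ : MonoidAlgebra ℤ_[p] Δ →+* ℤ_[p])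
        ((epsD ℤ_[p] τ0 m u : (MonoidAlgebra ℤ_[p] Δ)ˣ) : MonoidAlgebra ℤ_[p] Δ) := by
  rw [coe_epsD, RingHom.coe_coe, map_pow, RT.aug_gr, one_pow]
  rfl

end MDw

end Fermat.Agent.Ribet

end
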