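import Mathlib

/-!
# Bases of `O / p ^ k` over `ℤ / p ^ k`
-/

set_option autoImplicit false

open Function

noncomputable section

namespace Fermat.Agent.Ribet

/-- A finite module over `ℤ / p ^ k` in which `p ^ j a = 0` implies `a ∈ p ^ (k - j) A` is free. -/
theorem exists_basis_zmod (p k : ℕ) [hp : Fact p.Prime] (A : Type*) [AddCommGroup A]
    [Module (ZMod (p ^ k)) A] [Finite A]
    (hA : ∀ j ≤ k, ∀ a : A, p ^ j • a = 0 → ∃ a', a = p ^ (k - j) • a') :
    ∃ d : ℕ, Nonempty (Module.Basis (Fin d) (ZMod (p ^ k)) A) := by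
  classical
  have hne : NeZero (p ^ k) := ⟨pow_ne_zero _ hp.out.ne_zero⟩
  have := Fintype.ofFinite A
  -- a spanning set of minimal cardinality
  have hex : ∃ m : ℕ, ∃ s : Finset A, s.card = m ∧
      Submodule.span (ZMod (p ^ k)) (s : Set A) = ⊤ :=
    ⟨_, Finset.univ, rfl, by rw [Finset.coe_univ]; exact Submodule.span_univ⟩
  obtain ⟨s, hs, hspan⟩ := Nat.find_spec hex
  have hmin : ∀ t : Finset A, Submodule.span (ZMod (p ^ k)) (t : Set A) = ⊤ →
      s.card ≤ t.card := by
    intro t ht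
    rw [hs]
    exact Nat.find_min' hex ⟨t, rfl, ht⟩
  have hli : LinearIndependent (ZMod (p ^ k)) (fun x : s => (x : A)) := by
    rw [Fintype.linearIndependent_iff]
    intro c hc
    by_contra hcon
    push Not at hcon
    obtain ⟨x1, hx1⟩ := hcon
    -- the power of `p` dividing all coefficients
    set g : ℕ := Nat.gcd (Finset.univ.gcd fun x : s => (c x).val) (p ^ k) with hg
    obtain ⟨j, hjk, hj⟩ := (Nat.dvd_prime_pow hp.out).mp (Nat.gcd_dvd_right _ (p ^ k) : g ∣ p ^ k)
    have hdvd : ∀ x : s, p ^ j ∣ (c x).val := fun x => by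
      rw [← hj]
      exact (Nat.gcd_dvd_left _ _).trans (Finset.gcd_dvd (Finset.mem_univ x))
    have hjlt : j < k := by
      rcases lt_or_eq_of_le hjk with h | h
      · exact h
      · exfalso
        apply hx1
        have h1 := hdvd x1
        rw [h] at h1
        have h2 : (c x1).val = 0 := Nat.eq_zero_of_dvd_of_lt h1 (ZMod.val_lt _)
        rwa [ZMod.val_eq_zero] at h2
    choose w hw using hdvd
    obtain ⟨x0, hx0⟩ : ∃ x0 : s, ¬ p ∣ w x0 := by
      by_contra hall
      push Not at hall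
      have h1 : p ^ (j + 1) ∣ g := by
        refine Nat.dvd_gcd (Finset.dvd_gcd fun x _ => ?_) (pow_dvd_pow p hjlt)
        rw [hw x, pow_succ]
        exact mul_dvd_mul_left _ (hall x)
      have h1' : p ^ (j + 1) ∣ p ^ j := hj ▸ h1
      have h2 := (Nat.pow_dvd_pow_iff_le_right hp.out.one_lt).mp h1'
      omega
    have hcw : ∀ x : s, c x = ((p ^ j : ℕ) : ZMod (p ^ k)) * (w x : ZMod (p ^ k)) := fun x => by
      rw [← Nat.cast_mul, ← hw x, ZMod.natCast_zmod_val]
    set a : A := ∑ x : s, ((w x : ZMod (p ^ k))) • (x : A) with ha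
    have h1 : p ^ j • a = 0 := by
      rw [← Nat.cast_smul_eq_nsmul (ZMod (p ^ k)), ha, Finset.smul_sum, ← hc]
      refine Finset.sum_congr rfl fun x _ => ?_
      rw [smul_smul, hcw x]
    obtain ⟨a', ha'⟩ := hA j hjk a h1
    -- `a = p • a''`
    obtain ⟨a'', ha''⟩ : ∃ a'' : A, a = p • a'' := by
      refine ⟨p ^ (k - j - 1) • a', ?_⟩
      rw [ha', smul_smul, ← pow_succ']
      congr 2
      omega
    have hmem : a'' ∈ Submodule.span (ZMod (p ^ k)) (s : Set A) := by rw [hspan]; trivial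
    have hrange : (s : Set A) = Set.range (fun x : s => (x : A)) := by
      ext y; simp
    rw [hrange, Submodule.mem_span_range_iff_exists_fun] at hmem
    obtain ⟨e, he⟩ := hmem
    have h2 : ∑ x : s, ((w x : ZMod (p ^ k)) - (p : ZMod (p ^ k)) * e x) • (x : A) = 0 := by
      simp only [sub_smul, mul_smul, Finset.sum_sub_distrib]
      rw [← Finset.smul_sum, he, Nat.cast_smul_eq_nsmul, ← ha, ha'', sub_self]
    have hunit : IsUnit ((w x0 : ZMod (p ^ k)) - (p : ZMod (p ^ k)) * e x0) := by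
      have h3 : IsUnit (w x0 : ZMod (p ^ k)) := by
        rw [ZMod.isUnit_iff_coprime]
        exact (Nat.Coprime.pow_left k ((hp.out.coprime_iff_not_dvd).mpr hx0)).symm
      have h4 : IsNilpotent ((p : ZMod (p ^ k)) * e x0) := by
        refine ⟨k, ?_⟩
        rw [mul_pow, ← Nat.cast_pow, ZMod.natCast_self, zero_mul]
      rw [sub_eq_add_neg, add_comm]
      exact IsNilpotent.isUnit_add_right_of_commute h4.neg h3 (Commute.all _ _)
    obtain ⟨u, hu⟩ := hunit
    -- `x0` is in the span of the others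
    have h5 : (x0 : A) ∈ Submodule.span (ZMod (p ^ k)) ((s.erase x0 : Finset A) : Set A) := by
      have h6 : (u : ZMod (p ^ k)) • (x0 : A) =
          -∑ x ∈ Finset.univ.erase x0,
            ((w x : ZMod (p ^ k)) - (p : ZMod (p ^ k)) * e x) • (x : A) := by
        rw [hu, eq_neg_iff_add_eq_zero, Finset.add_sum_erase Finset.univ
          (fun x : s => ((w x : ZMod (p ^ k)) - (p : ZMod (p ^ k)) * e x) • (x : A))
          (Finset.mem_univ x0), h2]
      have h7 : (x0 : A) = ((u⁻¹ : (ZMod (p ^ k))ˣ) : ZMod (p ^ k)) •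
          ((u : ZMod (p ^ k)) • (x0 : A)) := by
        rw [smul_smul, Units.inv_mul, one_smul]
      have h8 : ((u⁻¹ : (ZMod (p ^ k))ˣ) : ZMod (p ^ k)) • ((u : ZMod (p ^ k)) • (x0 : A)) ∈
          Submodule.span (ZMod (p ^ k)) ((s.erase x0 : Finset A) : Set A) := by
        refine Submodule.smul_mem _ _ ?_
        rw [h6]
        refine Submodule.neg_mem _ (Submodule.sum_mem _ fun x hx => ?_)
        refine Submodule.smul_mem _ _ (Submodule.subset_span ?_)
        rw [Finset.mem_coe, Finset.mem_erase]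
        exact ⟨fun h => (Finset.mem_erase.mp hx).1 (Subtype.ext h), x.2⟩
      rwa [← h7] at h8
    have h8 : Submodule.span (ZMod (p ^ k)) ((s.erase x0 : Finset A) : Set A) = ⊤ := by
      refine eq_top_iff.mpr (hspan.ge.trans (Submodule.span_le.mpr fun y hy => ?_))
      by_cases hyx : y = x0
      · rw [hyx]; exact h5
      · exact Submodule.subset_span (by
          rw [Finset.mem_coe, Finset.mem_erase]
          exact ⟨hyx, hy⟩)
    have h9 := hmin _ h8
    rw [Finset.card_erase_of_mem x0.2] at h9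
    have h10 : 0 < s.card := Finset.card_pos.mpr ⟨x0, x0.2⟩
    omega
  refine ⟨Fintype.card s, ⟨(Module.Basis.mk hli ?_).reindex (Fintype.equivFin s)⟩⟩
  have hrange : (s : Set A) = Set.range (fun x : s => (x : A)) := by
    ext y; simp
  rw [← hrange, hspan]

/-- The case of `O / p ^ k`. -/
theorem exists_basis_quotient (p : ℕ) [hp : Fact p.Prime] (O : Type) [CommRing O] [IsDomain O]
    [CharZero O] (k : ℕ) (hfin : Finite (O ⧸ Ideal.span {(p : O) ^ k})) :
    ∃ (_ : Module (ZMod (p ^ k)) (O ⧸ Ideal.span {(p : O) ^ k})) (d : ℕ),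
      Nonempty (Module.Basis (Fin d) (ZMod (p ^ k)) (O ⧸ Ideal.span {(p : O) ^ k})) := by
  have hz : ∀ x : O ⧸ Ideal.span {(p : O) ^ k}, p ^ k • x = 0 := by
    intro x
    obtain ⟨a, rfl⟩ := Ideal.Quotient.mk_surjective x
    rw [← map_nsmul, Ideal.Quotient.eq_zero_iff_mem, Ideal.mem_span_singleton, nsmul_eq_mul,
      Nat.cast_pow]
    exact dvd_mul_right _ _
  let _ : Module (ZMod (p ^ k)) (O ⧸ Ideal.span {(p : O) ^ k}) := AddCommGroup.zmodModule hz
  refine ⟨inferInstance, exists_basis_zmod p k _ ?_⟩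
  intro j hj x hx
  obtain ⟨a, rfl⟩ := Ideal.Quotient.mk_surjective x
  rw [← map_nsmul, Ideal.Quotient.eq_zero_iff_mem, Ideal.mem_span_singleton, nsmul_eq_mul,
    Nat.cast_pow] at hx
  obtain ⟨c, hc⟩ := hx
  refine ⟨Ideal.Quotient.mk _ c, ?_⟩
  rw [← map_nsmul]
  congr 1
  have hp0 : (p : O) ^ j ≠ 0 := pow_ne_zero _ (by exact_mod_cast hp.out.ne_zero)
  apply mul_left_cancel₀ hp0
  rw [hc, nsmul_eq_mul, Nat.cast_pow, ← mul_assoc, ← pow_add, Nat.add_sub_cancel' hj]

end Fermat.Agent.Ribet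

end
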