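import Fermat.Agent.Ribet.LevelRelMain
import Fermat.Agent.Ribet.NewT
import Fermat.Agent.Ribet.WD
import Fermat.Agent.Ribet.ZModBasis
import Fermat.Agent.AtN.Main
import Fermat.Agent.RTD.TameGen
import Fermat.Agent.S41.HmNonEis
import Fermat.Agent.S41.HmInj
import Fermat.Agent.Cofaith.ES
import Fermat.Agent.S37

/-!
# Relations at level `N` for `ℤ_[p]`-coefficients (cluster RIBET)

`level_relations` with all side conditions discharged.
-/

set_option autoImplicit false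
set_option linter.unusedSectionVars false
set_option linter.style.haveILetI false

noncomputable section

open CongruenceSubgroup IsLocalRing ModularCurve Polynomial
open scoped MatrixGroups

namespace Fermat.Agent.Ribet

open Fermat.Agent.HeckePar Fermat.Agent.TwHecke Fermat.Agent.TwExact Fermat.Agent.S41hm
open Fermat.Agent.GalRep Fermat.Agent.QX4

/-- The quadratic Frobenius relation on `J₀(N)`. -/
theorem frobQuad (N p : ℕ) [NeZero N] :
    letI := heckeModuleBar N;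
    FrobeniusQuadratic (K := ℚ) (L := AlgebraicClosure ℚ) N p (JZero N) := by
  letI := heckeModuleBar N
  haveI := Fermat.Agent.Cofaith.smulCommClass_JZero N
  exact frobeniusQuadratic_of_specializationExists
    (Fermat.Agent.S37.result N p (Fermat.Agent.HeckeComm.heckeOperatorsCommuteBar N) inferInstance)

section Side

variable {p : ℕ} [hp : Fact p.Prime]

theorem nonEis1_of_strong {N : ℕ} [NeZero N] {S : Set ℕ} (hpS : p ∈ S)
    {θ : PIdx S → ResidueField ℤ_[p]} (h : StrongNonEis S θ) : NonEis1 N S θ := by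
  obtain ⟨ℓ, h1, h2⟩ := h.one (2 * N) (Nat.mul_pos two_pos (NeZero.pos N))
  refine ⟨ℓ, ?_, ?_, ?_, ?_⟩
  · have h3 : ((N : ℕ) : ℤ) ∣ ((ℓ.1 : ℕ) : ℤ) - 1 :=
      (Int.natCast_dvd_natCast.mpr (dvd_mul_left N 2)).trans h1
    rw [← ZMod.intCast_zmod_eq_zero_iff_dvd] at h3
    push_cast at h3
    exact sub_eq_zero.mp h3
  · have h3 : ((2 : ℕ) : ℤ) ∣ ((ℓ.1 : ℕ) : ℤ) - 1 :=
      (Int.natCast_dvd_natCast.mpr (dvd_mul_right 2 N)).trans h1
    rw [Nat.odd_iff]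
    omega
  · refine isUnit_natCast_padic fun hd => ℓ.2 ?_
    rw [← (Nat.prime_dvd_prime_iff_eq hp.out ℓ.1.2).mp hd]
    exact hpS
  · rw [map_add, map_natCast, map_one]
    exact h2

theorem noTors_padic (hp2 : p ≠ 2) {N : ℕ}
    (h3 : p ≠ 3 ∨ ∃ r : ℕ, r.Prime ∧ r ∣ N ∧ r % 3 = 2) (k : ℕ) : NoTors N (p ^ k) :=
  ⟨Nat.Coprime.pow_left k ((Nat.coprime_primes hp.out Nat.prime_two).mpr hp2),
    h3.imp (fun h => Nat.Coprime.pow_left k ((Nat.coprime_primes hp.out Nat.prime_three).mpr h))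
      id⟩

variable (p) in
theorem finite_quotient_padic (k : ℕ) : Finite (ℤ_[p] ⧸ Ideal.span {(p : ℤ_[p]) ^ k}) := by
  haveI : NeZero (p ^ k) := ⟨pow_ne_zero _ hp.out.ne_zero⟩
  have h := PadicInt.ker_toZModPow (p := p) k
  rw [← h]
  exact Finite.of_injective _ (RingHom.kerLift_injective (PadicInt.toZModPow (p := p) k))

theorem det_eq_of_roots {T : Type} [CommRing T] [IsLocalRing T] [IsNoetherianRing T]
    {ρ : GaloisRepAdic T} (hdet : ρ.DetIsCyclotomic p) {σ : GQ} {a : ℕ}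
    (h : ∀ (n : ℕ) (μ : AlgebraicClosure ℚ), μ ^ p ^ n = 1 → σ μ = μ ^ a) :
    LinearMap.det (ρ.ρ σ) = (a : T) := by
  have hbot := Ideal.iInf_pow_eq_bot_of_isLocalRing (maximalIdeal T)
    (Ideal.IsMaximal.ne_top inferInstance)
  rw [← sub_eq_zero]
  have h1 : LinearMap.det (ρ.ρ σ) - (a : T) ∈ (⨅ n : ℕ, maximalIdeal T ^ n) := by
    rw [Submodule.mem_iInf]
    intro n
    refine (Ideal.span_le.mpr ?_) (hdet.2 n σ a (h n))
    rw [Set.singleton_subset_iff, Nat.cast_pow]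
    exact Ideal.pow_mem_pow hdet.1 n
  rw [hbot] at h1
  exact (Submodule.mem_bot T).mp h1

theorem dt2_matOf {T : Type} [CommRing T] [IsLocalRing T] (ρ : GaloisRepAdic T) (g : GQ) :
    dt2 (matOf ρ g) = LinearMap.det (ρ.ρ g) := by
  rw [← det_matOf, Matrix.det_fin_two]
  rfl

end Side

section Main

variable {p : ℕ} [hp : Fact p.Prime] {m q : ℕ} [NeZero m] [NeZero q] (hq : q.Prime)
  (hm : ¬ q ∣ m) {S : Set ℕ} (hqS : q ∈ S) {θ : PIdx S → ResidueField ℤ_[p]}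
  {T : Type} [CommRing T] [Algebra ℤ_[p] T] [Module T (MN p (m * q) S θ)]
  [IsScalarTower ℤ_[p] T (MN p (m * q) S θ)] (gen : PIdx S → T)
  (hgen : ∀ (ℓ : PIdx S) (x : MN p (m * q) S θ),
    ((gen ℓ • x : MN p (m * q) S θ) : HM (m * q) (1 : (ZMod (m * q))ˣ →* ℤ_[p]ˣ) ℤ_[p]) =
      hop (m * q) 1 ℤ_[p] S ℓ (x : HM (m * q) (1 : (ZMod (m * q))ˣ →* ℤ_[p]ˣ) ℤ_[p]))
  (hadj : Algebra.adjoin ℤ_[p] (Set.range gen) = ⊤)

include hgen hadj in
/-- `w_N` commutes with the Hecke ring. -/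
theorem wNm_smul (t : T) (x : MN p (m * q) S θ) :
    wNm hq hm hqS (t • x) = t • wNm hq hm hqS x := by
  have ht : t ∈ Algebra.adjoin ℤ_[p] (Set.range gen) := by rw [hadj]; trivial
  induction ht using Algebra.adjoin_induction generalizing x with
  | mem y hy =>
    obtain ⟨ℓ, rfl⟩ := hy
    have hℓq : ((ℓ.1 : Nat.Primes) : ℕ) ≠ q := fun h => ℓ.2 (by rw [h]; exact hqS)
    have h1 : ((wNm hq hm hqS (gen ℓ • x) : MN p (m * q) S θ) :
        HM (m * q) (1 : (ZMod (m * q))ˣ →* ℤ_[p]ˣ) ℤ_[p]) =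
        wN hq hm ℤ_[p] ℤ_[p] (hop (m * q) 1 ℤ_[p] S ℓ x.1) := by
      rw [coe_wNm, hgen]
    have h2 : ((gen ℓ • wNm hq hm hqS x : MN p (m * q) S θ) :
        HM (m * q) (1 : (ZMod (m * q))ˣ →* ℤ_[p]ˣ) ℤ_[p]) =
        hop (m * q) 1 ℤ_[p] S ℓ (wN hq hm ℤ_[p] ℤ_[p] x.1) := by
      rw [hgen, coe_wNm]
    apply Subtype.ext
    rw [h1, h2]
    exact wN_heckeP hq hm ℓ.1 hℓq x.1
  | algebraMap a =>
    have h1 : algebraMap ℤ_[p] T a • x = a • x := algebraMap_smul T a x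
    have h2 : algebraMap ℤ_[p] T a • wNm hq hm hqS x = a • wNm hq hm hqS x :=
      algebraMap_smul T a (wNm hq hm hqS x)
    exact (congrArg _ h1).trans (((wNm hq hm hqS).map_smul a x).trans h2.symm)
  | add a b _ _ ha hb =>
    have h1 : (a + b) • x = a • x + b • x := add_smul a b x
    have h2 : (a + b) • wNm hq hm hqS x = a • wNm hq hm hqS x + b • wNm hq hm hqS x :=
      add_smul a b _
    rw [h1, h2, ← ha, ← hb]
    exact (wNm hq hm hqS).map_add _ _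
  | mul a b _ _ ha hb => rw [mul_smul, mul_smul, ha, hb]

/-- **The Atkin–Lehner involution as a map over the Hecke ring.** -/
def wT : MN p (m * q) S θ →ₗ[T] MN p (m * q) S θ where
  toFun := wNm hq hm hqS
  map_add' := map_add _
  map_smul' := wNm_smul hq hm hqS gen hgen hadj

@[simp] theorem wT_apply (x : MN p (m * q) S θ) :
    wT hq hm hqS gen hgen hadj x = wNm hq hm hqS x := rfl

theorem wT_wT (x : MN p (m * q) S θ) :
    wT hq hm hqS gen hgen hadj (wT hq hm hqS gen hgen hadj x) = x := wNm_wNm hq hm hqS x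

end Main

/-- **The relations at level `N = m q` for `ℤ_[p]`-coefficients.** -/
theorem levelRel_padic {p : ℕ} [hp : Fact p.Prime] (hp2 : p ≠ 2) {m q : ℕ} [NeZero m] [NeZero q]
    (hq : q.Prime) (hqp : q ≠ p) (hm : ¬ q ∣ m)
    (h3 : p ≠ 3 ∨ ∃ r : ℕ, r.Prime ∧ r ∣ m ∧ r % 3 = 2) {S : Finset ℕ} (hpS : p ∈ S)
    (hqS : q ∈ (↑S : Set ℕ)) (hS : ∀ ℓ : ℕ, ℓ.Prime → ℓ ∣ m * q → ℓ ∈ (↑S : Set ℕ))
    {W : WeierstrassCurve ℤ} (hΔ : W.Δ ≠ 0) (hirr : W.ModRepIsIrreducible p)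
    {θ : PIdx (↑S : Set ℕ) → ResidueField ℤ_[p]}
    (hθ : ∀ ℓ, θ ℓ = ((W.apOfModel (ℓ.1 : ℕ) : ℤ) : ResidueField ℤ_[p]))
    (hnt : ¬ Nontrivial (MN p m (↑S : Set ℕ) θ))
    {T : Type} [CommRing T] [IsLocalRing T] [IsNoetherianRing T] [Algebra ℤ_[p] T]
    [Module T (MN p (m * q) (↑S : Set ℕ) θ)]
    [IsScalarTower ℤ_[p] T (MN p (m * q) (↑S : Set ℕ) θ)] (gen : PIdx (↑S : Set ℕ) → T)
    (hgen : ∀ (ℓ : PIdx (↑S : Set ℕ)) (x : MN p (m * q) (↑S : Set ℕ) θ),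
      ((gen ℓ • x : MN p (m * q) (↑S : Set ℕ) θ) :
        HM (m * q) (1 : (ZMod (m * q))ˣ →* ℤ_[p]ˣ) ℤ_[p]) =
        hop (m * q) 1 ℤ_[p] (↑S : Set ℕ) ℓ
          (x : HM (m * q) (1 : (ZMod (m * q))ˣ →* ℤ_[p]ˣ) ℤ_[p]))
    (hadj : Algebra.adjoin ℤ_[p] (Set.range gen) = ⊤)
    (ρ : GaloisRepAdic T) (hdet : ρ.DetIsCyclotomic p)
    (habs : ρ.residual.IsAbsolutelyIrreducible)
    (B : Set ℕ) (hB : B.Finite)
    (hfrob : ∀ (ℓ : PIdx (↑S : Set ℕ)), (ℓ.1 : ℕ) ∉ B →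
      ∀ A : ValuationSubring (AlgebraicClosure ℚ),
      A.LiesOverPrime (ℓ.1 : ℕ) → ∀ φ : GQ, A.IsFrobeniusAt φ (ℓ.1 : ℕ) →
        LinearMap.charpoly (ρ.ρ φ) = X ^ 2 - C (gen ℓ) * X + C (((ℓ.1 : ℕ) : T)))
    {A : ValuationSubring (AlgebraicClosure ℚ)} (hA : A.LiesOverPrime q) {σ₀ φ : GQ}
    (hσ₀ : σ₀ ∈ A.inertiaSubgroupIn ℚ) (hφ : A.IsFrobeniusAt φ q)
    (hFS : matOf ρ φ * matOf ρ σ₀ = matOf ρ σ₀ ^ q * matOf ρ φ)
    (hW : WRel hq hm) (hE : ∀ k, EJ (m * q) (p ^ k) (↑S : Set ℕ) θ σ₀) :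
    LevelRel (matOf ρ σ₀) (matOf ρ φ) (wT hq hm hqS gen hgen hadj) q := by
  haveI := charP_residueField_padic p
  have hcop : ∀ k : ℕ, Nat.Coprime (p ^ k) q := fun k =>
    Nat.Coprime.pow_left k ((Nat.coprime_primes hp.out hq).mpr hqp.symm)
  have hpk : ∀ k : ℕ, p ^ k ≠ 0 := fun k => pow_ne_zero _ hp.out.ne_zero
  have h3' : p ≠ 3 ∨ ∃ r : ℕ, r.Prime ∧ r ∣ m * q ∧ r % 3 = 2 :=
    h3.imp id fun ⟨r, h1, h2, h4⟩ => ⟨r, h1, h2.mul_right q, h4⟩
  have hstrong : StrongNonEis (↑S : Set ℕ) θ :=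
    strongNonEis_of_model hp2 hΔ hirr S.finite_toSet fun ℓ _ _ => hθ ℓ
  have hgood : Good (m * q) (1 : (ZMod (m * q))ˣ →* ℤ_[p]ˣ) (↑S : Set ℕ) θ :=
    good_of_strong (by simp) (isUnit_two_padic hp2) (three_padic h3')
      (fun u => by rw [MonoidHom.one_apply, Units.val_one, map_one]) hS hstrong
  obtain ⟨t, ht, hθt⟩ := exists_kill hp2 h3 hθ hnt
  have hqu : IsUnit (q : T) := by
    have h := (isUnit_natCast_padic (p := p) (n := q) fun h =>
      hqp ((Nat.prime_dvd_prime_iff_eq hp.out hq).mp h).symm).map (algebraMap ℤ_[p] T)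
    rwa [map_natCast] at h
  have h2T : IsUnit (2 : T) := by
    have h := (isUnit_two_padic hp2).map (algebraMap ℤ_[p] T)
    rwa [map_ofNat] at h
  exact level_relations (LinearEquiv.refl ℤ_[p] (MN p (m * q) (↑S : Set ℕ) θ))
    (nonEis1_of_strong hpS hstrong) gen hgen (noTors_padic hp2 h3') hS hgood hadj hq hm
    (wT hq hm hqS gen hgen hadj) (fun x => equivHom_wN hq hm _) hW
    (fun k => exists_basis_quotient p ℤ_[p] k (finite_quotient_padic p k))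
    ((mem_maximalIdeal _).mpr PadicInt.p_nonunit) h2T ρ habs B hB S.finite_toSet hfrob
    (frobQuad (m * q) p) (wT_wT hq hm hqS gen hgen hadj) σ₀ φ
    (by
      rw [dt2_matOf, det_eq_of_roots (p := p) (a := 1) hdet, Nat.cast_one]
      intro n μ hμ
      rw [pow_one]
      exact inertia_fix_rootOfUnity hA (hcop n).symm (hpk n) hσ₀ hμ)
    (by
      rw [dt2_matOf, det_eq_of_roots (p := p) (a := q) hdet]
      intro n μ hμ
      exact frobenius_rootOfUnity hA (hcop n).symm (hpk n) hφ hμ)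
    hqu hFS
    (fun k x hx => AtN.unipotent_level hq hm hA hσ₀ hσ₀ (hcop k) hx)
    (fun k x hx hn => fr_of_kill hq hm hS ht hθt (hpk k) (hcop k) hA hφ hσ₀ hx hn)
    hE

end Fermat.Agent.Ribet

end
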