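import Fermat.Agent.Ribet.Defs
import Fermat.Agent.RT.HmDelta

/-!
# Ribet's theorem, road B: inertia at `q` on the ramified members of the family
-/

set_option autoImplicit false
set_option linter.style.haveILetI false

noncomputable section

open Polynomial CongruenceSubgroup
open scoped MatrixGroups TensorProduct

namespace Fermat.Agent.Ribet

open IsLocalRing TwHecke TwExact HeckeRep RT

/-- The units `≡ 1` modulo `m` surject onto the units modulo `q`. -/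
theorem exists_unit_mq {m q : ℕ} [NeZero m] [NeZero q] (hc : m.Coprime q) (u : (ZMod q)ˣ) :
    ∃ v : (ZMod (m * q))ˣ, ZMod.unitsMap (dvd_mul_right m q) v = 1 ∧
      ZMod.unitsMap (dvd_mul_left q m) v = u := by
  let e := ZMod.chineseRemainder hc
  let v : (ZMod (m * q))ˣ := Units.map (e.symm : ZMod m × ZMod q →* ZMod (m * q))
    (MulEquiv.prodUnits.symm (1, u))
  have hv : e (v : ZMod (m * q)) = ((1 : ZMod m), (u : ZMod q)) := by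
    show e (e.symm _) = _
    rw [RingEquiv.apply_symm_apply]; rfl
  have h1 : ∀ x : ZMod (m * q), ZMod.castHom (dvd_mul_right m q) (ZMod m) x = (e x).1 := by
    intro x
    have : ZMod.castHom (dvd_mul_right m q) (ZMod m) = (RingHom.fst _ _).comp
        (e : ZMod (m * q) →+* ZMod m × ZMod q) :=
      Subsingleton.elim _ _
    rw [this]; rfl
  have h2 : ∀ x : ZMod (m * q), ZMod.castHom (dvd_mul_left q m) (ZMod q) x = (e x).2 := by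
    intro x
    have : ZMod.castHom (dvd_mul_left q m) (ZMod q) = (RingHom.snd _ _).comp
        (e : ZMod (m * q) →+* ZMod m × ZMod q) :=
      Subsingleton.elim _ _
    rw [this]; rfl
  refine ⟨v, Units.ext ?_, Units.ext ?_⟩
  · rw [ZMod.unitsMap_val]
    have := h1 v
    rw [hv] at this
    simpa using this
  · rw [ZMod.unitsMap_val]
    have := h2 v
    rw [hv] at this
    simpa using this

theorem exists_two_mul_eq_one {B : Type*} [CommRing B] [IsLocalRing B] {p : ℕ} (hp : p.Prime)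
    (hp2 : p ≠ 2) (hpB : (p : B) ∈ maximalIdeal B) : ∃ κ : B, 2 * κ = 1 := by
  have h2 : IsUnit (2 : B) := by
    by_contra h
    have h3 : (2 : B) ∈ maximalIdeal B := (mem_maximalIdeal _).mpr h
    obtain ⟨k, hk⟩ := hp.odd_of_ne_two hp2
    have h4 : (1 : B) = (p : B) - k * 2 := by rw [hk]; push_cast; ring
    exact (Ideal.ne_top_iff_one _).mp (maximalIdeal.isMaximal B).ne_top
      (h4 ▸ Ideal.sub_mem _ hpB (Ideal.mul_mem_left _ _ h3))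
  exact h2.exists_right_inv

section Main

variable {p : ℕ} [Fact p.Prime] {m q : ℕ} [NeZero m] [NeZero q] (hq : q.Prime) (hqm : ¬ q ∣ m)
  {Δ : Type} [CommGroup Δ] [Fintype Δ] (hΔ : IsPGroup p Δ) (τ0 : (ZMod q)ˣ →* Δ)
  (hτ0 : Function.Surjective τ0) [IsLocalRing (MonoidAlgebra ℤ_[p] Δ)]
  [IsLocalHom (algebraMap ℤ_[p] (MonoidAlgebra ℤ_[p] Δ))]
  {S : Finset ℕ} (hpS : p ∈ S) (hS : ∀ ℓ : ℕ, ℓ.Prime → ℓ ∣ m * q → ℓ ∈ S)
  (θ : PIdx (↑S : Set ℕ) → ResidueField ℤ_[p])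
  (hG : Good (m * q) (taut ℤ_[p] (tauQ m q τ0) ^ 2) (↑S : Set ℕ)
    (thMap (MonoidAlgebra ℤ_[p] Δ) θ))
  {ℓ0 : PIdx (↑S : Set ℕ)} (hℓ0 : ((ℓ0.1 : ℕ) : ZMod (m * q)) = 1)
  (hθ : θ ℓ0 ≠ ((ℓ0.1 : ℕ) : ResidueField ℤ_[p]) + 1)
  {T : Type} [CommRing T] [IsLocalRing T] [Algebra ℤ_[p] T] [Module.Finite ℤ_[p] T]
  (act : T →ₐ[ℤ_[p]] Module.End ℤ_[p] (MD p (m * q) (tauQ m q τ0) (↑S : Set ℕ) θ))
  (hcomm : ∀ t (δ : Δ) (y : MD p (m * q) (tauQ m q τ0) (↑S : Set ℕ) θ),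
    act t ((MonoidAlgebra.single δ (1 : ℤ_[p]) : MonoidAlgebra ℤ_[p] Δ) • y) =
    (MonoidAlgebra.single δ (1 : ℤ_[p]) : MonoidAlgebra ℤ_[p] Δ) • act t y)
  (tl : PIdx (↑S : Set ℕ) → T)
  (ht : ∀ ℓ (y : MD p (m * q) (tauQ m q τ0) (↑S : Set ℕ) θ),
    ((act (tl ℓ) y : MD p (m * q) (tauQ m q τ0) (↑S : Set ℕ) θ) :
      HM (m * q) (taut ℤ_[p] (tauQ m q τ0) ^ 2) (MonoidAlgebra ℤ_[p] Δ)) =
      nop (taut ℤ_[p] (tauQ m q τ0)) (↑S : Set ℕ) ℓ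
        (y : HM (m * q) (taut ℤ_[p] (tauQ m q τ0) ^ 2) (MonoidAlgebra ℤ_[p] Δ)))

include hq hqm hΔ hτ0 hpS hS hG hℓ0 hθ hcomm ht in
/-- **Inertia at `q` on the ramified members of the family.** -/
theorem mem_of_trace (h36 : Stmt36) (hp2 : p ≠ 2) (hqp : q ≠ p)
    (ρ : GaloisRepAdic T) (hd : ρ.DetIsCyclotomic p)
    (habs : ρ.residual.IsAbsolutelyIrreducible) (hodd : ρ.residual.IsOdd)
    (hfrob : ∀ ℓ : PIdx (↑S : Set ℕ),
      ∀ A : ValuationSubring (AlgebraicClosure ℚ), A.LiesOverPrime ℓ.1 →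
      ∀ σ : AlgebraicClosure ℚ ≃ₐ[ℚ] AlgebraicClosure ℚ, A.IsFrobeniusAt σ ℓ.1 →
        LinearMap.charpoly (ρ.ρ σ) = X ^ 2 - C (tl ℓ) * X + C (((ℓ.1 : ℕ) : ℕ) : T))
    {A : ValuationSubring (AlgebraicClosure ℚ)} (hA : A.LiesOverPrime q)
    (hur : ∀ σ ∈ A.inertiaSubgroupIn ℚ, ρ.residual.ρ σ = 1)
    {σ₀ : AlgebraicClosure ℚ ≃ₐ[ℚ] AlgebraicClosure ℚ} (hσ₀ : RTD.IsTameGen A p q σ₀)
    (ι : ℤ_[p] →+* ℂ) (hι : Function.Injective ι)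
    {ψ : Δ →* ℂˣ} (hψ : ψ ≠ 1) (y : MD p (m * q) (tauQ m q τ0) (↑S : Set ℕ) θ)
    (hy : act (ρ.trace σ₀ - 2) y ∈ RingHom.ker (chiO ι ψ) •
      (⊤ : Submodule (MonoidAlgebra ℤ_[p] Δ) (MD p (m * q) (tauQ m q τ0) (↑S : Set ℕ) θ))) :
    y ∈ RingHom.ker (chiO ι ψ) •
      (⊤ : Submodule (MonoidAlgebra ℤ_[p] Δ) (MD p (m * q) (tauQ m q τ0) (↑S : Set ℕ) θ)) := by
  letI : Algebra ℤ_[p] ℂ := ι.toAlgebra
  have hf : FaithfulSMul ℤ_[p] ℂ := (faithfulSMul_iff_algebraMap_injective ℤ_[p] ℂ).mpr hι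
  have hNZ : NeZero (m * q) := ⟨mul_ne_zero (NeZero.ne m) (NeZero.ne q)⟩
  have hfin := finite_HmΔ (𝒪 := ℤ_[p]) (Δ := Δ) (M := m * q)
    (ε := taut ℤ_[p] (tauQ m q τ0) ^ 2) (S := (↑S : Set ℕ)) (θ := thMap (MonoidAlgebra ℤ_[p] Δ) θ)
  have hfreeΛ := freeΛ_HmΔ (𝒪 := ℤ_[p]) hG
  have hfree := free_HmΔ (𝒪 := ℤ_[p]) hG
  have htf : Module.IsTorsionFree ℤ_[p] (MD p (m * q) (tauQ m q τ0) (↑S : Set ℕ) θ) :=
    inferInstance
  obtain ⟨κ, hκ⟩ := exists_two_mul_eq_one (B := T) Fact.out hp2 hd.1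
  have hres : Finite (ResidueField ℤ_[p]) :=
    Finite.of_equiv (ZMod p) PadicInt.residueField.symm.toEquiv
  have hpO : ((p : ℕ) : ℤ_[p]) ∈ maximalIdeal ℤ_[p] := by
    rw [PadicInt.maximalIdeal_eq_span_p]
    exact Ideal.mem_span_singleton_self _
  have hloc : ∀ y ∈ Hm (m * q) (taut ℤ_[p] (tauQ m q τ0) ^ 2) (MonoidAlgebra ℤ_[p] Δ)
      (↑S : Set ℕ) (thMap (MonoidAlgebra ℤ_[p] Δ) θ),
      nop (taut ℤ_[p] (tauQ m q τ0)) (↑S : Set ℕ) ℓ0 y =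
        (((ℓ0.1 : ℕ) : MonoidAlgebra ℤ_[p] Δ) + 1) • y → y = 0 := by
    have hnoeth := isNoetherianRing_groupRing (𝒪 := ℤ_[p]) (Δ := Δ)
    have hcomp := isAdicComplete_groupRing (𝒪 := ℤ_[p]) (Δ := Δ)
    intro y hy h
    refine eq_zero_of_nop (residue_taut hpO hΔ _) (fun h1 => hθ ?_) hy h
    refine (ResidueField.map (algebraMap ℤ_[p] (MonoidAlgebra ℤ_[p] Δ))).injective ?_
    rw [map_add, map_one, map_natCast]
    exact h1
  have hunit := act_sub_injective hloc act (tl ℓ0) (ht ℓ0)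
  obtain ⟨n, hn⟩ := (IsPGroup.iff_card.mp hΔ)
  refine mem_ker_smul_top_of_trace (M := m * q) (m := m) (mul_comm m q) hq hqm hS
    (tauQ m q τ0) act hcomm tl ht ℓ0 hℓ0 hunit h36 hpO hp2 hpS hqp (dvd_mul_right m q) ?_ ?_ ρ hκ hd
    habs hodd hfrob hA hur hσ₀ hψ y hy
  · intro δ
    obtain ⟨u, hu⟩ := hτ0 δ
    obtain ⟨v, hv1, hv2⟩ := exists_unit_mq
      ((Nat.Prime.coprime_iff_not_dvd hq).mpr hqm).symm u
    exact ⟨v, hv1, by rw [tauQ_apply, hv2, hu]⟩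
  · rw [hn]
    exact (Fact.out : p.Prime).odd_of_ne_two hp2 |>.pow

end Main

end Fermat.Agent.Ribet
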