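import Fermat.Agent.Ribet.TD

/-!
# The Hecke ring of the family acts on the specialisation
-/

set_option autoImplicit false
set_option linter.unusedSectionVars false
set_option linter.unusedVariables false
set_option linter.style.haveILetI false

noncomputable section

namespace Fermat.Agent.Ribet

open TwHecke TwExact HeckeRep IsLocalRing CongruenceSubgroup
open scoped MatrixGroups

section Lift

variable {P T E : Type*} [Semiring P] [Semiring T] [Semiring E]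

/-- lifting along a surjection of semirings -/
def liftSurj (ev : P →+* T) (hev : Function.Surjective ev) (c : P →+* E)
    (hc : ∀ a b, ev a = ev b → c a = c b) : T →+* E where
  toFun t := c (Function.surjInv hev t)
  map_one' := by
    rw [← map_one c]
    exact hc _ _ (by rw [Function.surjInv_eq hev, map_one])
  map_zero' := by
    rw [← map_zero c]
    exact hc _ _ (by rw [Function.surjInv_eq hev, map_zero])
  map_add' a b := by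
    rw [← map_add c]
    exact hc _ _ (by rw [Function.surjInv_eq hev, map_add, Function.surjInv_eq hev,
      Function.surjInv_eq hev])
  map_mul' a b := by
    rw [← map_mul c]
    exact hc _ _ (by rw [Function.surjInv_eq hev, map_mul, Function.surjInv_eq hev,
      Function.surjInv_eq hev])

theorem liftSurj_apply (ev : P →+* T) (hev : Function.Surjective ev) (c : P →+* E)
    (hc : ∀ a b, ev a = ev b → c a = c b) (t : P) : liftSurj ev hev c hc (ev t) = c t :=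
  hc _ _ (Function.surjInv_eq hev _)

end Lift

section OpN

variable (M : ℕ) (𝒪 : Type) [CommRing 𝒪] [IsLocalRing 𝒪] (S : Set ℕ)
  (θ₀ : PIdx S → ResidueField 𝒪)

/-- the operators `T_ℓ` on the `𝔪`-part with trivial character -/
def opN (ℓ : PIdx S) : Module.End 𝒪 (Hm M (1 : (ZMod M)ˣ →* 𝒪ˣ) 𝒪 S θ₀) :=
  (hop M (1 : (ZMod M)ˣ →* 𝒪ˣ) 𝒪 S ℓ).restrict fun _ hx =>
    T_mem_mpart (hop_commute M 1 𝒪 S) ℓ hx

@[simp] theorem coe_opN (ℓ : PIdx S) (x : Hm M (1 : (ZMod M)ˣ →* 𝒪ˣ) 𝒪 S θ₀) :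
    ((opN M 𝒪 S θ₀ ℓ x : Hm M (1 : (ZMod M)ˣ →* 𝒪ˣ) 𝒪 S θ₀) : HM M 1 𝒪) =
      heckeP M 1 𝒪 ℓ.1 x.1 := rfl

theorem opN_commute (i j : PIdx S) : Commute (opN M 𝒪 S θ₀ i) (opN M 𝒪 S θ₀ j) := by
  refine LinearMap.ext fun x => Subtype.ext ?_
  exact LinearMap.congr_fun (hop_commute M 1 𝒪 S i j) x.1

end OpN

section TN

variable {M : ℕ} [NeZero M] {R : Type} [CommRing R] [IsLocalRing R] [IsNoetherianRing R]
  [IsAdicComplete (maximalIdeal R) R] (η : (ZMod M)ˣ →* Rˣ) {S : Set ℕ}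
  (𝒪 : Type) [CommRing 𝒪] [IsLocalRing 𝒪] [Algebra 𝒪 R] [IsLocalHom (algebraMap 𝒪 R)]
  (θ₀ : PIdx S → ResidueField 𝒪) [Module.Finite 𝒪 (Hm M (η ^ 2) R S (thMap R θ₀))]
  (σ : R →ₐ[𝒪] 𝒪) [IsLocalHom (σ : R →+* 𝒪)] (hση : ∀ u, σ ((η u : Rˣ) : R) = 1)

omit [NeZero M] [IsLocalRing R] [IsNoetherianRing R] [IsAdicComplete (maximalIdeal R) R]
  [IsLocalRing 𝒪] [IsLocalHom (algebraMap 𝒪 R)] [IsLocalHom (σ : R →+* 𝒪)] in
include hση in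
theorem hε_of (u : (ZMod M)ˣ) :
    (((1 : (ZMod M)ˣ →* 𝒪ˣ) u : 𝒪ˣ) : 𝒪) = (σ : R →+* 𝒪) (((η ^ 2) u : Rˣ) : R) := by
  rw [MonoidHom.one_apply, Units.val_one, MonoidHom.pow_apply, Units.val_pow_eq_pow_val, map_pow]
  show 1 = (σ ((η u : Rˣ) : R)) ^ 2
  rw [hση, one_pow]

omit [NeZero M] [IsLocalRing R] [IsNoetherianRing R] [IsAdicComplete (maximalIdeal R) R]
  [IsLocalRing 𝒪] [IsLocalHom (algebraMap 𝒪 R)] [IsLocalHom (σ : R →+* 𝒪)] in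
theorem σ_surjective : Function.Surjective (σ : R →+* 𝒪) := fun a =>
  ⟨algebraMap 𝒪 R a, σ.commutes a⟩

omit [NeZero M] [IsNoetherianRing R] [IsAdicComplete (maximalIdeal R) R] in
theorem hθ_of (ℓ : PIdx S) :
    θ₀ ℓ = ResidueField.map (σ : R →+* 𝒪) (thMap R θ₀ ℓ) := by
  obtain ⟨a, ha⟩ := residue_surjective (θ₀ ℓ)
  rw [thMap, ← ha, ResidueField.map_residue, ResidueField.map_residue]
  congr 1
  exact (σ.commutes a).symm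

/-- the specialisation to the trivial character. -/
def specN : Hm M (η ^ 2) R S (thMap R θ₀) →ₗ[𝒪] Hm M (1 : (ZMod M)ˣ →* 𝒪ˣ) 𝒪 S θ₀ :=
  { spec (σ : R →+* 𝒪) (hε_of η 𝒪 σ hση) (σ_surjective 𝒪 σ) (hθ_of 𝒪 θ₀ σ) with
    map_smul' := fun a x => by
      show spec (σ : R →+* 𝒪) (hε_of η 𝒪 σ hση) (σ_surjective 𝒪 σ) (hθ_of 𝒪 θ₀ σ) (a • x) = _
      rw [← algebraMap_smul R a x, spec_smul]
      show σ (algebraMap 𝒪 R a) • _ = _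
      rw [σ.commutes]
      rfl }

theorem specN_apply (x : Hm M (η ^ 2) R S (thMap R θ₀)) :
    specN η 𝒪 θ₀ σ hση x =
      spec (σ : R →+* 𝒪) (hε_of η 𝒪 σ hση) (σ_surjective 𝒪 σ) (hθ_of 𝒪 θ₀ σ) x := rfl

theorem coe_specN (x : Hm M (η ^ 2) R S (thMap R θ₀)) :
    ((specN η 𝒪 θ₀ σ hση x : Hm M (1 : (ZMod M)ˣ →* 𝒪ˣ) 𝒪 S θ₀) : HM M 1 𝒪) =
      pushH (σ : R →+* 𝒪) (hε_of η 𝒪 σ hση) x.1 := rfl

theorem specN_smul (r : R) (x : Hm M (η ^ 2) R S (thMap R θ₀)) :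
    specN η 𝒪 θ₀ σ hση (r • x) = σ r • specN η 𝒪 θ₀ σ hση x :=
  spec_smul (σ : R →+* 𝒪) (hε_of η 𝒪 σ hση) (hθ_of 𝒪 θ₀ σ) (σ_surjective 𝒪 σ) r x

theorem specN_opO (ℓ : PIdx S) (x : Hm M (η ^ 2) R S (thMap R θ₀)) :
    specN η 𝒪 θ₀ σ hση (opO η 𝒪 θ₀ ℓ x) = opN M 𝒪 S θ₀ ℓ (specN η 𝒪 θ₀ σ hση x) := by
  refine Subtype.ext ?_
  rw [coe_specN, coe_opO, coe_opN, coe_specN, nop, LinearMap.smul_apply, pushH_smul]
  have h1 : (σ : R →+* 𝒪) ((η (unitOf M ℓ.1) : Rˣ) : R) = 1 := hση _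
  rw [h1, one_smul]
  exact pushH_heckeP (σ : R →+* 𝒪) (hε_of η 𝒪 σ hση) ℓ.1 x.1

theorem specN_cev (t : MvPolynomial (PIdx S) 𝒪) (x : Hm M (η ^ 2) R S (thMap R θ₀)) :
    specN η 𝒪 θ₀ σ hση (cev (opO η 𝒪 θ₀) (opO_commute η 𝒪 θ₀) t x) =
      cev (opN M 𝒪 S θ₀) (opN_commute M 𝒪 S θ₀) t (specN η 𝒪 θ₀ σ hση x) :=
  cev_natural (opO_commute η 𝒪 θ₀) (opN_commute M 𝒪 S θ₀) (specN η 𝒪 θ₀ σ hση)
    (specN_opO η 𝒪 θ₀ σ hση) t x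

variable (hG : Good M (η ^ 2) S (thMap R θ₀))

include hG in
theorem specN_surjective : Function.Surjective (specN η 𝒪 θ₀ σ hση) :=
  spec_surjective (σ : R →+* 𝒪) (hε_of η 𝒪 σ hση) (hθ_of 𝒪 θ₀ σ) (σ_surjective 𝒪 σ) hG

include hG in
theorem specN_eq_zero_iff (x : Hm M (η ^ 2) R S (thMap R θ₀)) :
    specN η 𝒪 θ₀ σ hση x = 0 ↔
      x ∈ RingHom.ker (σ : R →+* 𝒪) • (⊤ : Submodule R (Hm M (η ^ 2) R S (thMap R θ₀))) :=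
  spec_eq_zero_iff (σ : R →+* 𝒪) (hε_of η 𝒪 σ hση) (hθ_of 𝒪 θ₀ σ) (σ_surjective 𝒪 σ) hG x

include hση hG in
theorem cevN_congr (s t : MvPolynomial (PIdx S) 𝒪)
    (hst : Tring.ev (opO η 𝒪 θ₀) (opO_commute η 𝒪 θ₀) s =
      Tring.ev (opO η 𝒪 θ₀) (opO_commute η 𝒪 θ₀) t) :
    cev (opN M 𝒪 S θ₀) (opN_commute M 𝒪 S θ₀) s =
      cev (opN M 𝒪 S θ₀) (opN_commute M 𝒪 S θ₀) t := by
  refine LinearMap.ext fun y => ?_
  obtain ⟨x, rfl⟩ := specN_surjective η 𝒪 θ₀ σ hση hG y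
  rw [← specN_cev, ← specN_cev, ← Tring.val_ev, ← Tring.val_ev, hst]

/-- the action of the Hecke ring on level `N` -/
def actN : TD η 𝒪 θ₀ →+* Module.End 𝒪 (Hm M (1 : (ZMod M)ˣ →* 𝒪ˣ) 𝒪 S θ₀) :=
  liftSurj (Tring.ev (opO η 𝒪 θ₀) (opO_commute η 𝒪 θ₀)).toRingHom
    (Tring.ev_surjective (opO η 𝒪 θ₀) (opO_commute η 𝒪 θ₀))
    (cev (opN M 𝒪 S θ₀) (opN_commute M 𝒪 S θ₀)).toRingHom
    (fun s t hst => cevN_congr η 𝒪 θ₀ σ hση hG s t hst)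

theorem actN_ev (t : MvPolynomial (PIdx S) 𝒪) :
    actN η 𝒪 θ₀ σ hση hG (Tring.ev (opO η 𝒪 θ₀) (opO_commute η 𝒪 θ₀) t) =
      cev (opN M 𝒪 S θ₀) (opN_commute M 𝒪 S θ₀) t :=
  liftSurj_apply (Tring.ev (opO η 𝒪 θ₀) (opO_commute η 𝒪 θ₀)).toRingHom
    (Tring.ev_surjective (opO η 𝒪 θ₀) (opO_commute η 𝒪 θ₀))
    (cev (opN M 𝒪 S θ₀) (opN_commute M 𝒪 S θ₀)).toRingHom
    (fun s t hst => cevN_congr η 𝒪 θ₀ σ hση hG s t hst) t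

theorem actN_tl (ℓ : PIdx S) :
    actN η 𝒪 θ₀ σ hση hG (tl η 𝒪 θ₀ ℓ) = opN M 𝒪 S θ₀ ℓ := by
  rw [tl, ← Tring.ev_X, actN_ev, cev_X]

theorem actN_algebraMap (a : 𝒪) :
    actN η 𝒪 θ₀ σ hση hG (algebraMap 𝒪 (TD η 𝒪 θ₀) a) = algebraMap 𝒪 _ a := by
  have h1 : algebraMap 𝒪 (TD η 𝒪 θ₀) a =
      Tring.ev (opO η 𝒪 θ₀) (opO_commute η 𝒪 θ₀) (MvPolynomial.C a) := by
    rw [← MvPolynomial.algebraMap_eq, AlgHom.commutes]
  rw [h1, actN_ev, cev_C]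

theorem specN_val (t : TD η 𝒪 θ₀) (x : Hm M (η ^ 2) R S (thMap R θ₀)) :
    specN η 𝒪 θ₀ σ hση (Tring.val (opO η 𝒪 θ₀) (opO_commute η 𝒪 θ₀) t x) =
      actN η 𝒪 θ₀ σ hση hG t (specN η 𝒪 θ₀ σ hση x) := by
  obtain ⟨t, rfl⟩ := Tring.ev_surjective (opO η 𝒪 θ₀) (opO_commute η 𝒪 θ₀) t
  rw [Tring.val_ev, actN_ev, specN_cev]

/-- the module structure on level `N` -/
@[reducible] def modTN : Module (TD η 𝒪 θ₀) (Hm M (1 : (ZMod M)ˣ →* 𝒪ˣ) 𝒪 S θ₀) :=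
  Module.compHom _ (actN η 𝒪 θ₀ σ hση hG)

end TN

end Fermat.Agent.Ribet

end
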