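import Fermat.Agent.Ribet.Span
import Fermat.Agent.RTD.TameAdic

/-!
# The tame relation for the matrices of an adic representation
-/

set_option autoImplicit false
set_option linter.style.haveILetI false

noncomputable section

open IsLocalRing
open Fermat.Agent.S53norm (M2 MemI IsCont)

namespace Fermat.Agent.Ribet

variable {T : Type} [CommRing T] [IsLocalRing T]

/-- The matrices of an adic representation are continuous. -/
theorem isCont_matOf (ρ : GaloisRepAdic T) :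
    IsCont (matOf ρ : (AlgebraicClosure ℚ ≃ₐ[ℚ] AlgebraicClosure ℚ) → M2 T) :=
  fun n => matOf_sub_one_mem ρ n

/-- Elements acting trivially on the residual representation have matrices `≡ 1`. -/
theorem memI_matOf (ρ : GaloisRepAdic T) {σ : AlgebraicClosure ℚ ≃ₐ[ℚ] AlgebraicClosure ℚ}
    (h : ρ.residual.ρ σ = 1) : MemI (maximalIdeal T) (matOf ρ σ - 1) := by
  intro i j
  have h1 : (ρ.ρ σ).baseChange (ResidueField T) = LinearMap.id := h
  have h2 := LinearMap.toMatrix_baseChange (A := ResidueField T) (ρ.ρ σ) (basisOf ρ) (basisOf ρ)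
  rw [h1, LinearMap.toMatrix_id] at h2
  have h3 := congrFun (congrFun h2 i) j
  rw [Matrix.map_apply, ResidueField.algebraMap_eq, ← matOf_apply] at h3
  rw [← residue_eq_zero_iff, Matrix.sub_apply, map_sub, ← h3, sub_eq_zero]
  by_cases hij : i = j
  · subst hij; rw [Matrix.one_apply_eq, Matrix.one_apply_eq, map_one]
  · rw [Matrix.one_apply_ne hij, Matrix.one_apply_ne hij, map_zero]

/-- the same for the entries. -/
theorem matOf_sub_one_entry_mem (ρ : GaloisRepAdic T)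
    {σ : AlgebraicClosure ℚ ≃ₐ[ℚ] AlgebraicClosure ℚ} (h : ρ.residual.ρ σ = 1) (i j : Fin 2) :
    (matOf ρ σ - 1) i j ∈ maximalIdeal T := memI_matOf ρ h i j

/-- **The tame relation** for the matrices. -/
theorem tame_matOf {p q : ℕ} [hp : Fact p.Prime] (hq : q.Prime) (hqp : q ≠ p)
    {A : ValuationSubring (AlgebraicClosure ℚ)} (hA : A.LiesOverPrime q)
    (hpT : (p : T) ∈ maximalIdeal T) (hH : IsHausdorff (maximalIdeal T) T) (ρ : GaloisRepAdic T)
    (hur : ∀ σ ∈ A.inertiaSubgroupIn ℚ, ρ.residual.ρ σ = 1)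
    {φ : AlgebraicClosure ℚ ≃ₐ[ℚ] AlgebraicClosure ℚ} (hφ : A.IsFrobeniusAt φ q)
    {σ₀ : AlgebraicClosure ℚ ≃ₐ[ℚ] AlgebraicClosure ℚ} (hσ₀ : σ₀ ∈ A.inertiaSubgroupIn ℚ) :
    matOf ρ φ * matOf ρ σ₀ = matOf ρ σ₀ ^ q * matOf ρ φ :=
  RTD.adic_tame_relation' hq hA hqp hpT hH (isCont_matOf ρ)
    (fun σ hσ => memI_matOf ρ (hur σ hσ)) hφ hσ₀

/-- **The tame relation** over a noetherian local ring. -/
theorem tame_matOf' [IsNoetherianRing T] {p q : ℕ} [hp : Fact p.Prime] (hq : q.Prime)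
    (hqp : q ≠ p) {A : ValuationSubring (AlgebraicClosure ℚ)} (hA : A.LiesOverPrime q)
    (ρ : GaloisRepAdic T) (hdet : ρ.DetIsCyclotomic p)
    (hur : ∀ σ ∈ A.inertiaSubgroupIn ℚ, ρ.residual.ρ σ = 1)
    {φ : AlgebraicClosure ℚ ≃ₐ[ℚ] AlgebraicClosure ℚ} (hφ : A.IsFrobeniusAt φ q)
    {σ₀ : AlgebraicClosure ℚ ≃ₐ[ℚ] AlgebraicClosure ℚ} (hσ₀ : σ₀ ∈ A.inertiaSubgroupIn ℚ) :
    matOf ρ φ * matOf ρ σ₀ = matOf ρ σ₀ ^ q * matOf ρ φ := by
  refine tame_matOf hq hqp hA hdet.1 ⟨fun x hx => ?_⟩ ρ hur hφ hσ₀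
  have hbot := Ideal.iInf_pow_eq_bot_of_isLocalRing (maximalIdeal T)
    (Ideal.IsMaximal.ne_top inferInstance)
  rw [← Submodule.mem_bot T, ← hbot, Submodule.mem_iInf]
  intro n
  have h := hx n
  rwa [SModEq.sub_mem, sub_zero, smul_eq_mul, Ideal.mul_top] at h

end Fermat.Agent.Ribet

end
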