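import Fermat.Agent.Ribet.LevelRel
import Fermat.Agent.SO.RelW

/-!
# The Atkin–Lehner involution on classes and on characters (cluster RIBET, piece P4)

`wRel : WRel hq hm`.
-/

set_option autoImplicit false

open CongruenceSubgroup
open scoped MatrixGroups

noncomputable section

namespace Fermat.Agent.Ribet

open Fermat.Agent.TwHecke Fermat.Agent.GalRep ModularCurve

variable {m q : ℕ}

/-- The matrix `g ∈ Γ₀(mq)` with `W = g * W'` for the two Atkin–Lehner matrices. -/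
def wdG (D : WD m q) (hq : q.Prime) (hm : ¬ q ∣ m) : SL(2, ℤ) :=
  ⟨!![(q : ℤ) ^ 2 * wd hq hm + m, -(q * wb hq hm + 1);
      m * q * (D.c * wd hq hm - D.e), q * D.e - m * D.c * wb hq hm], by
    rw [Matrix.det_fin_two_of]
    have h1 := D.rel
    have h2 := wbd hq hm
    linear_combination (q * wd hq hm - m * wb hq hm) * h1 + h2⟩

theorem wdG_mem (D : WD m q) (hq : q.Prime) (hm : ¬ q ∣ m) : wdG D hq hm ∈ Gamma0 (m * q) := by
  rw [Gamma0_mem]
  have h : wdG D hq hm 1 0 = m * q * (D.c * wd hq hm - D.e) := rfl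
  rw [h, ZMod.intCast_zmod_eq_zero_iff_dvd]
  push_cast
  exact ⟨_, rfl⟩

theorem W_eq_wdG_mul (D : WD m q) (hq : q.Prime) (hm : ¬ q ∣ m) :
    D.W = (wdG D hq hm : Matrix (Fin 2) (Fin 2) ℤ) * wMat hq hm := by
  have h1 := D.rel
  have h2 := wbd hq hm
  rw [WD.W, wdG, wMat]
  ext i j
  fin_cases i <;> fin_cases j
  · simp [Matrix.mul_apply, Fin.sum_univ_two]
    linear_combination (-((q : ℤ) ^ 2)) * h2
  · simp [Matrix.mul_apply, Fin.sum_univ_two]
    linear_combination h2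
  · simp [Matrix.mul_apply, Fin.sum_univ_two]
    linear_combination (-(m * q * D.c : ℤ)) * h2
  · simp [Matrix.mul_apply, Fin.sum_univ_two]
    linear_combination (-(q * D.e : ℤ)) * h2

/-- The two descriptions of the involution on characters agree. -/
theorem wChar_eq_comp_wHom [NeZero q] (D : WD m q) (hq : q.Prime) (hm : ¬ q ∣ m)
    (χ : Gamma0 (m * q) →* ℂˣ) :
    D.wChar (Gamma0 (m * q)) χ = χ.comp (wHom hq hm) := by
  refine MonoidHom.ext fun γ => ?_
  rw [WD.wChar_apply, MonoidHom.comp_apply]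
  have hc : D.cjG γ = ⟨wdG D hq hm, wdG_mem D hq hm⟩ * wHom hq hm γ *
      ⟨wdG D hq hm, wdG_mem D hq hm⟩⁻¹ := by
    apply D.cjG_eq
    have h1 := wHom_spec hq hm γ
    have h2 := W_eq_wdG_mul D hq hm
    have h3 : (((wdG D hq hm)⁻¹ : SL(2, ℤ)) : Matrix (Fin 2) (Fin 2) ℤ) *
        (wdG D hq hm : Matrix (Fin 2) (Fin 2) ℤ) = 1 := by
      rw [← Matrix.SpecialLinearGroup.coe_mul, inv_mul_cancel, Matrix.SpecialLinearGroup.coe_one]
    have h4 : (((⟨wdG D hq hm, wdG_mem D hq hm⟩ * wHom hq hm γ *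
        ⟨wdG D hq hm, wdG_mem D hq hm⟩⁻¹ : Gamma0 (m * q)) : SL(2, ℤ)) :
          Matrix (Fin 2) (Fin 2) ℤ) =
        (wdG D hq hm : Matrix (Fin 2) (Fin 2) ℤ) *
          ((wHom hq hm γ : SL(2, ℤ)) : Matrix (Fin 2) (Fin 2) ℤ) *
          (((wdG D hq hm)⁻¹ : SL(2, ℤ)) : Matrix (Fin 2) (Fin 2) ℤ) := by
      rw [← Matrix.SpecialLinearGroup.coe_mul, ← Matrix.SpecialLinearGroup.coe_mul]
      rfl
    rw [h4, h2, Matrix.mul_assoc (wdG D hq hm : Matrix (Fin 2) (Fin 2) ℤ) (wMat hq hm), h1,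
      Matrix.mul_assoc (_ * _) _ (_ * _), ← Matrix.mul_assoc (((wdG D hq hm)⁻¹ : SL(2, ℤ)) :
        Matrix (Fin 2) (Fin 2) ℤ), h3, Matrix.one_mul, Matrix.mul_assoc]
  rw [hc, map_mul, map_mul, map_inv, mul_comm (χ ⟨wdG D hq hm, wdG_mem D hq hm⟩),
    mul_inv_cancel_right]

/-- **[P4]** The Atkin–Lehner involution on classes and on characters. -/
theorem wRel [NeZero m] [NeZero q] (hq : q.Prime) (hm : ¬ q ∣ m) : WRel hq hm := by
  intro n x χ _ _ hx
  obtain ⟨D⟩ := exists_WD (m := m) (q := q) ((Nat.Prime.coprime_iff_not_dvd hq).mpr hm)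
  rw [← wChar_eq_comp_wHom D hq hm χ]
  exact SO.rel_w hq hm D hx

end Fermat.Agent.Ribet

end
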