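import Fermat.Agent.Ribet.Morita

/-!
# Cluster RIBET, piece R2c: transport from finite levels

`M` is a module over `T`, `π n : M → V n` are surjections with kernel `p ^ n M`, and the group `G`
acts on `V n` through `r n` (satisfying the Eichler–Shimura relation), so `V n ≅ X_n²`.  The group
acts on `M²` through the matrices `ρ g`.  Facts about the action on all `V n` give facts about the
action on `M²`.
-/

set_option autoImplicit false

namespace Fermat.Agent.Ribet

section Levels

variable {T : Type*} [CommRing T] {M : Type*} [AddCommGroup M] [Module T M]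

/-- applying a `T`-linear map to both coordinates -/
theorem act_map {V : Type*} [AddCommGroup V] [Module T V] (π : M →ₗ[T] V)
    (A : Matrix (Fin 2) (Fin 2) T) (x : Fin 2 → M) :
    act A (fun i => π (x i)) = fun i => π (act A x i) := by
  funext i
  simp [act]

/-- If a matrix acts trivially on all `V n`, it acts trivially on `M²`. -/
theorem act_eq_zero_of_levels {V : ℕ → Type*} [∀ n, AddCommGroup (V n)] [∀ n, Module T (V n)]
    (Φ : ∀ n, Matrix (Fin 2) (Fin 2) T →ₐ[T] Module.End T (V n))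
    (π : ∀ n, M →ₗ[T] V n) (hker : ∀ x : M, (∀ n, π n x = 0) → x = 0)
    {A : Matrix (Fin 2) (Fin 2) T} (hA : ∀ n, Φ n A = 0) (x : Fin 2 → M) : act A x = 0 := by
  funext i
  refine hker _ fun n => ?_
  have h1 : act A (fun i => π n (x i)) = 0 := by
    apply (flipEquiv (Φ n)).injective
    rw [map_zero]
    funext k
    rw [flipEquiv_act, hA]; rfl
  rw [act_map] at h1
  exact congrFun h1 i

/-- A matrix acting trivially on `M²`, `M` faithful, is zero. -/
theorem matrix_eq_zero_of_act (hfaith : ∀ t : T, (∀ x : M, t • x = 0) → t = 0)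
    {A : Matrix (Fin 2) (Fin 2) T} (hA : ∀ x : Fin 2 → M, act A x = 0) : A = 0 := by
  ext i j
  refine hfaith _ fun m => ?_
  have h := congrFun (hA (Pi.single j m)) i
  fin_cases j
  · simpa [act] using h
  · simpa [act] using h

variable {R : Type*} [CommRing R] [IsLocalRing R] [IsNoetherianRing R] [Module R M]
  [Module.Finite R M] [SMulCommClass T R M]

/-- **Solving linear equations level by level.**  If `A x' = x` can be solved in `(V n)²` for all `n`
then it can be solved in `M²`. -/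
theorem exists_act_eq_of_levels {p : ℕ} (hp : (p : R) ∈ IsLocalRing.maximalIdeal R)
    {V : ℕ → Type*} [∀ n, AddCommGroup (V n)] [∀ n, Module T (V n)]
    (π : ∀ n, M →ₗ[T] V n) (hπ : ∀ n, Function.Surjective (π n))
    (hker : ∀ n x, π n x = 0 → ∃ y, x = p ^ n • y)
    (A : Matrix (Fin 2) (Fin 2) T) (x : Fin 2 → M)
    (h : ∀ n, ∃ x' : Fin 2 → V n, act A x' = fun i => π n (x i)) :
    ∃ x', act A x' = x := by
  let N : Submodule R (Fin 2 → M) := LinearMap.range (actL R (M := M) A)
  suffices hx : x ∈ N by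
    obtain ⟨x', hx'⟩ := hx
    exact ⟨x', hx'⟩
  rw [← Submodule.Quotient.mk_eq_zero]
  have hbot := Ideal.iInf_pow_smul_eq_bot_of_isLocalRing (M := (Fin 2 → M) ⧸ N)
    (IsLocalRing.maximalIdeal R) (Ideal.IsMaximal.ne_top inferInstance)
  have hmem : (Submodule.Quotient.mk x : (Fin 2 → M) ⧸ N) ∈
      (⨅ i : ℕ, IsLocalRing.maximalIdeal R ^ i • (⊤ : Submodule R ((Fin 2 → M) ⧸ N))) := by
    rw [Submodule.mem_iInf]
    intro n
    obtain ⟨x', hx'⟩ := h n
    choose x'' hx'' using fun i => hπ n (x' i)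
    have h1 : ∀ i, π n (act A x'' i - x i) = 0 := by
      intro i
      rw [map_sub, sub_eq_zero]
      have h2 := act_map (π n) A x''
      have h3 : (fun i => π n (x'' i)) = x' := funext hx''
      rw [h3, hx'] at h2
      exact (congrFun h2 i).symm
    choose y hy using fun i => hker n _ (h1 i)
    have h4 : act A x'' - x = p ^ n • y := by
      funext i
      rw [Pi.sub_apply, hy, Pi.smul_apply]
    have h5 : x = act A x'' - p ^ n • y := by rw [← h4]; abel
    have h6 : (Submodule.Quotient.mk x : (Fin 2 → M) ⧸ N) =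
        ((p : R) ^ n) • Submodule.Quotient.mk (-y) := by
      rw [← Submodule.Quotient.mk_smul, Submodule.Quotient.eq]
      refine ⟨x'', ?_⟩
      rw [actL_apply, h5, smul_neg, ← Nat.cast_pow, Nat.cast_smul_eq_nsmul]
      abel
    rw [h6]
    exact Submodule.smul_mem_smul (Ideal.pow_mem_pow hp n) trivial
  rw [hbot] at hmem
  exact (Submodule.mem_bot R).mp hmem

variable {G : Type*} [Group G] {ρ : G →* Matrix (Fin 2) (Fin 2) T}

/-- **(E)-transport.** -/
theorem hE_of_levels {p : ℕ} (hp : (p : R) ∈ IsLocalRing.maximalIdeal R) (h2 : IsUnit (2 : T))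
    (hspan : Submodule.span T (Set.range ρ) = ⊤)
    {V : ℕ → Type*} [∀ n, AddCommGroup (V n)] [∀ n, Module T (V n)]
    (r : ∀ n, G →* Module.End T (V n)) (hES : ∀ n, ESRel (r n) ρ)
    (π : ∀ n, M →ₗ[T] V n) (hπ : ∀ n, Function.Surjective (π n))
    (hker : ∀ n x, π n x = 0 → ∃ y, x = p ^ n • y) (σ : G)
    (hE : ∀ n, ∀ x : V n, r n σ x = x → ∃ y, r n σ y - y = x) (x : Fin 2 → M)
    (hx : act (ρ σ - 1) x = 0) : ∃ x', act (ρ σ - 1) x' = x := by
  refine exists_act_eq_of_levels (R := R) hp π hπ hker _ x fun n => ?_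
  obtain ⟨e, he⟩ := exists_flip h2 (hES n) hspan
  have h1 : act (ρ σ - 1) (fun i => π n (x i)) = 0 := by
    rw [act_map, hx]
    funext i
    simp
  have h3 : ∀ z : Fin 2 → V n, ∀ k, e (act (ρ σ - 1) z) k = r n σ (e z k) - e z k := by
    intro z k
    rw [sub_act, one_act, map_sub, Pi.sub_apply, he]
  have h4 : ∀ k, ∃ y, r n σ y - y = e (fun i => π n (x i)) k := by
    intro k
    refine hE n _ ?_
    rw [← sub_eq_zero, ← h3, h1, map_zero, Pi.zero_apply]
  choose y hy using h4
  refine ⟨e.symm y, e.injective ?_⟩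
  funext k
  rw [h3, e.apply_symm_apply, hy]

/-- Relations of the form `(σ - 1)(φ - ε) = 0` on all `V n` hold for the matrices. -/
theorem hNZ_of_levels (h2 : IsUnit (2 : T)) (hspan : Submodule.span T (Set.range ρ) = ⊤)
    {V : ℕ → Type*} [∀ n, AddCommGroup (V n)] [∀ n, Module T (V n)]
    (r : ∀ n, G →* Module.End T (V n)) (hES : ∀ n, ESRel (r n) ρ)
    (π : ∀ n, M →ₗ[T] V n) (hker : ∀ x : M, (∀ n, π n x = 0) → x = 0)
    (hfaith : ∀ t : T, (∀ x : M, t • x = 0) → t = 0) (σ φ : G) (ε : T)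
    (h : ∀ n, ∀ x : V n, r n σ (r n φ x - ε • x) = r n φ x - ε • x) :
    (ρ σ - 1) * (ρ φ - ε • 1) = 0 := by
  choose Φ hΦ using fun n => exists_algHom h2 (hES n) hspan
  refine matrix_eq_zero_of_act hfaith fun x => act_eq_zero_of_levels Φ π hker (fun n => ?_) x
  rw [map_mul, map_sub, map_sub, map_smul, map_one, hΦ, hΦ]
  ext v
  have := h n v
  simp only [Module.End.mul_apply, LinearMap.sub_apply, LinearMap.smul_apply, Module.End.one_apply,
    LinearMap.zero_apply]
  rw [this, sub_self]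

/-- General version: a relation `P (r n σ, r n φ, …)` given by an element of the span of pairs. -/
theorem matrix_eq_of_levels (h2 : IsUnit (2 : T)) (hspan : Submodule.span T (Set.range ρ) = ⊤)
    {V : ℕ → Type*} [∀ n, AddCommGroup (V n)] [∀ n, Module T (V n)]
    (r : ∀ n, G →* Module.End T (V n)) (hES : ∀ n, ESRel (r n) ρ)
    (π : ∀ n, M →ₗ[T] V n) (hker : ∀ x : M, (∀ n, π n x = 0) → x = 0)
    (hfaith : ∀ t : T, (∀ x : M, t • x = 0) → t = 0)
    (A : Matrix (Fin 2) (Fin 2) T)
    (h : ∀ n, ∀ Φ : Matrix (Fin 2) (Fin 2) T →ₐ[T] Module.End T (V n), (∀ g, Φ (ρ g) = r n g) →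
      Φ A = 0) : A = 0 := by
  choose Φ hΦ using fun n => exists_algHom h2 (hES n) hspan
  exact matrix_eq_zero_of_act hfaith fun x =>
    act_eq_zero_of_levels Φ π hker (fun n => h n (Φ n) (hΦ n)) x

/-- The relation `(σ - 1)² = 0` (with `det ρ σ = 1`, `tr ρ σ = 2`). -/
theorem trace_eq_two_of_levels (h2 : IsUnit (2 : T))
    (hspan : Submodule.span T (Set.range ρ) = ⊤)
    {V : ℕ → Type*} [∀ n, AddCommGroup (V n)] [∀ n, Module T (V n)]
    (r : ∀ n, G →* Module.End T (V n)) (hES : ∀ n, ESRel (r n) ρ)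
    (π : ∀ n, M →ₗ[T] V n) (hker : ∀ x : M, (∀ n, π n x = 0) → x = 0)
    (hfaith : ∀ t : T, (∀ x : M, t • x = 0) → t = 0) (σ : G) (hdet : (ρ σ).det = 1)
    (h : ∀ n, ∀ x : V n, r n σ (r n σ x - x) = r n σ x - x) :
    (ρ σ - 1) * (ρ σ - 1) = 0 ∧ (ρ σ).trace • (1 : Matrix (Fin 2) (Fin 2) T) * (ρ σ) =
      (2 : T) • (1 : Matrix (Fin 2) (Fin 2) T) * ρ σ ∧ (ρ σ).trace = 2 := by
  have h1 : (ρ σ - 1) * (ρ σ - 1) = 0 := by
    have := hNZ_of_levels h2 hspan r hES π hker hfaith σ σ 1 (by simpa using h)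
    simpa using this
  have h3 : (ρ σ).trace = 2 := by
    have e1 : ρ σ * ρ σ = (ρ σ).trace • ρ σ - (ρ σ).det • 1 := by
      ext i j
      fin_cases i <;> fin_cases j <;>
        simp [Matrix.mul_apply, Fin.sum_univ_two, Matrix.trace_fin_two, Matrix.det_fin_two] <;> ring
    have e2 : ((ρ σ).trace - 2) • ρ σ = 0 := by
      have : ((ρ σ).trace - 2) • ρ σ = (ρ σ - 1) * (ρ σ - 1) := by
        rw [sub_mul, mul_sub, mul_one, one_mul, e1, hdet, one_smul, sub_smul, two_smul]
        abel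
      rw [this, h1]
    have e3 := congrArg (fun z => z * (ρ σ⁻¹)) e2
    simp only [smul_mul_assoc, zero_mul] at e3
    rw [← map_mul, mul_inv_cancel, map_one] at e3
    have e4 := congrFun (congrFun e3 0) 0
    simp at e4
    exact sub_eq_zero.mp e4
  exact ⟨h1, by rw [h3], h3⟩

end Levels

end Fermat.Agent.Ribet
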