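import Fermat.Agent.Ribet.JCoeff
import Fermat.Agent.Ribet.Span
import Fermat.Agent.Ribet.Transport

/-!
# The Galois action on parabolic homomorphisms with coefficients and (E)
-/

set_option autoImplicit false
set_option linter.unusedSectionVars false
set_option linter.style.haveILetI false

open Function CongruenceSubgroup
open scoped MatrixGroups

noncomputable section

namespace Fermat.Agent.Ribet

open ModularCurve.Period Fermat.Agent.HeckePar Fermat.Agent.TwHecke Fermat.Agent.TwExact IsLocalRing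
open Fermat.Agent.GalRep ModularCurve

section Gal

variable {N n : ℕ} [NeZero N] [NeZero n]

theorem nsmul_galois (m : ℕ) (σ : GQ) (x : JZero N) : m • (σ • x) = σ • (m • x) :=
  (map_nsmul (DistribSMul.toAddMonoidHom (JZero N) σ) m x).symm

/-- Galois action on the `n`-torsion. -/
def galJ : GQ →* AddMonoid.End (JTor N n) where
  toFun σ :=
    { toFun := fun x => ⟨σ • (x : JZero N), by
        rw [mem_JTor, nsmul_galois, mem_JTor.mp x.2]
        exact smul_zero (A := JZero N) σ⟩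
      map_zero' := Subtype.ext (smul_zero σ)
      map_add' := fun x y => Subtype.ext (smul_add σ _ _) }
  map_one' := AddMonoidHom.ext fun x => Subtype.ext (one_smul _ _)
  map_mul' σ τ := AddMonoidHom.ext fun x => Subtype.ext (mul_smul _ _ _)

theorem coe_galJ (σ : GQ) (x : JTor N n) : (galJ σ x : JZero N) = σ • (x : JZero N) := rfl

variable (hNT : NoTors N n)

/-- Galois action on parabolic homomorphisms to `ℤ/n`. -/
def galP : GQ →* AddMonoid.End (parabolicHoms ℤ (Gamma0 N) (ZMod n)) where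
  toFun σ := ((jEquiv hNT).symm.toAddMonoidHom.comp (galJ σ)).comp (jEquiv hNT).toAddMonoidHom
  map_one' := by
    refine AddMonoidHom.ext fun x => ?_
    show (jEquiv hNT).symm (galJ 1 (jEquiv hNT x)) = x
    rw [map_one, AddMonoid.End.coe_one, id, AddEquiv.symm_apply_apply]
  map_mul' σ τ := by
    refine AddMonoidHom.ext fun x => ?_
    show (jEquiv hNT).symm (galJ (σ * τ) (jEquiv hNT x)) =
      (jEquiv hNT).symm (galJ σ (jEquiv hNT ((jEquiv hNT).symm (galJ τ (jEquiv hNT x)))))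
    rw [AddEquiv.apply_symm_apply, map_mul]
    rfl

theorem jEquiv_galP (σ : GQ) (φ : parabolicHoms ℤ (Gamma0 N) (ZMod n)) :
    (jEquiv hNT (galP hNT σ φ) : JZero N) = σ • (jEquiv hNT φ : JZero N) := by
  show ((jEquiv hNT ((jEquiv hNT).symm (galJ σ (jEquiv hNT φ))) : JTor N n) : JZero N) = _
  rw [AddEquiv.apply_symm_apply, coe_galJ]

theorem jEquiv_opP (ℓ : Nat.Primes) (hN : ¬ (ℓ : ℕ) ∣ N)
    (φ : parabolicHoms ℤ (Gamma0 N) (ZMod n)) :
    (jEquiv hNT (opP N ℤ (ZMod n) ℓ φ) : JZero N) =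
      heckeOperatorBar N ℓ (jEquiv hNT φ : JZero N) :=
  heckeOperatorBar_jEquiv hNT ℓ hN φ _ rfl

theorem galP_opP (ℓ : Nat.Primes) (hN : ¬ (ℓ : ℕ) ∣ N) (σ : GQ)
    (φ : parabolicHoms ℤ (Gamma0 N) (ZMod n)) :
    galP hNT σ (opP N ℤ (ZMod n) ℓ φ) = opP N ℤ (ZMod n) ℓ (galP hNT σ φ) := by
  apply (jEquiv hNT).injective
  apply Subtype.ext
  rw [jEquiv_galP, jEquiv_opP hNT ℓ hN, jEquiv_opP hNT ℓ hN, jEquiv_galP,
    HeckeComm.heckeOperatorBar_smul]

/-- integral Hecke polynomials on `J₀(N)[n]` and on parabolic homomorphisms -/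
theorem jEquiv_cev {S : Set ℕ} (hS : ∀ ℓ : ℕ, ℓ.Prime → ℓ ∣ N → ℓ ∈ S) (s : HeckeAlgS S)
    (φ : parabolicHoms ℤ (Gamma0 N) (ZMod n)) :
    (jEquiv hNT (cev (opS (R := ℤ) N (ZMod n) S) (opS_commute (R := ℤ) N (ZMod n) S) s φ) :
      JZero N) = (letI := heckeModuleBar N; inclS S s • (jEquiv hNT φ : JZero N)) := by
  letI := heckeModuleBar N
  show _ = inclS S s • (jEquiv hNT φ : JZero N)
  have hcomm := Fermat.Agent.HeckeComm.heckeOperatorsCommuteBar N
  induction s using MvPolynomial.induction_on generalizing φ with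
  | C a =>
    have h1 : inclS S (MvPolynomial.C a) = MvPolynomial.C a := by
      rw [inclS, MvPolynomial.rename_C]
    have h2 : ∀ y : JZero N, (MvPolynomial.C a : HeckeAlg) • y = a • y := fun y => by
      rw [← MvPolynomial.algebraMap_eq, eq_intCast, Int.cast_smul_eq_zsmul]
    rw [cev_C, h1, h2, Module.algebraMap_end_apply, map_zsmul]
    rfl
  | add p q hp hq =>
    rw [map_add, map_add, add_smul, LinearMap.add_apply, map_add, ← hp, ← hq]
    rfl
  | mul_X p ℓ hp =>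
    have h1 : inclS S (p * MvPolynomial.X ℓ) = inclS S p * heckeGen ℓ.1 := by
      rw [map_mul]
      congr 1
      exact MvPolynomial.rename_X _ _
    have h2 : ¬ ((ℓ.1 : Nat.Primes) : ℕ) ∣ N := fun h => ℓ.2 (hS _ ℓ.1.2 h)
    rw [h1, mul_smul, heckeModuleBar_heckeGen_smul hcomm ℓ.1, map_mul, cev_X,
      Module.End.mul_apply, hp, ← jEquiv_opP hNT ℓ.1 h2]
    rfl

end Gal

section Coeff

variable {N n : ℕ} [NeZero N] [NeZero n] (hNT : NoTors N n)
  {O : Type} [CommRing O] {A : Type} [AddCommGroup A] [Module O A]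
  [Module (ZMod n) A] {ι : Type} [Fintype ι] (b : Module.Basis ι (ZMod n) A)

/-- Galois action on parabolic homomorphisms to `A`. -/
def galA : GQ →* Module.End O (parabolicHoms O (Gamma0 N) A) where
  toFun σ := extO b (galP hNT σ)
  map_one' := by rw [map_one, extO_one]
  map_mul' σ τ := by rw [map_mul, extO_mul]

theorem coordE_galA (σ : GQ) (c : parabolicHoms O (Gamma0 N) A) (i : ι) :
    coordE b (galA hNT b σ c) i = galP hNT σ (coordE b c i) := coordE_extA b _ c i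

theorem galA_opP (ℓ : Nat.Primes) (hN : ¬ (ℓ : ℕ) ∣ N) (σ : GQ)
    (c : parabolicHoms O (Gamma0 N) A) :
    galA hNT b σ (opP N O A ℓ c) = opP N O A ℓ (galA hNT b σ c) :=
  extA_opP b _ ℓ (galP_opP hNT ℓ hN σ) c

theorem coordE_cev {S : Set ℕ} (s : MvPolynomial (PIdx S) ℤ)
    (c : parabolicHoms O (Gamma0 N) A) (i : ι) :
    coordE b (cev (opS (R := O) N A S) (opS_commute (R := O) N A S)
      (MvPolynomial.map (Int.castRingHom O) s) c) i =
      cev (opS (R := ℤ) N (ZMod n) S) (opS_commute (R := ℤ) N (ZMod n) S) s (coordE b c i) := by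
  induction s using MvPolynomial.induction_on generalizing c with
  | C a =>
    rw [MvPolynomial.map_C, cev_C, cev_C, Module.algebraMap_end_apply,
      Module.algebraMap_end_apply, eq_intCast, Int.cast_smul_eq_zsmul, map_zsmul]
    rfl
  | add p q hp hq =>
    rw [map_add, map_add, map_add, LinearMap.add_apply, map_add, Pi.add_apply, hp, hq]
    rfl
  | mul_X p ℓ hp =>
    rw [map_mul, MvPolynomial.map_X, cev_mul_apply, cev_mul_apply, hp, cev_X, cev_X]
    congr 1
    exact coordE_opP b ℓ.1 c i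

end Coeff

/-! ### The Eichler–Shimura relation and finite level -/

section Frob

variable {N p k : ℕ} [NeZero N] [NeZero (p ^ k)] (hNT : NoTors N (p ^ k))
  {O : Type} [CommRing O] {A : Type} [AddCommGroup A] [Module O A]
  [Module (ZMod (p ^ k)) A] {ι : Type} [Fintype ι] (b : Module.Basis ι (ZMod (p ^ k)) A)

theorem galP_frobenius
    (hF : letI := heckeModuleBar N;
      FrobeniusQuadratic (K := ℚ) (L := AlgebraicClosure ℚ) N p (JZero N))
    (ℓ : Nat.Primes) (hℓp : ¬ (ℓ : ℕ) ∣ N * p)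
    (B : ValuationSubring (AlgebraicClosure ℚ)) (hB : B.LiesOverPrime (ℓ : ℕ))
    (φ : GQ) (hφ : B.IsFrobeniusAt φ (ℓ : ℕ)) (ψ : parabolicHoms ℤ (Gamma0 N) (ZMod (p ^ k))) :
    galP hNT φ (galP hNT φ ψ) - opP N ℤ (ZMod (p ^ k)) ℓ (galP hNT φ ψ) + (ℓ : ℕ) • ψ = 0 := by
  letI := heckeModuleBar N
  have hN : ¬ (ℓ : ℕ) ∣ N := fun h1 => hℓp (h1.mul_right p)
  have hcomm := Fermat.Agent.HeckeComm.heckeOperatorsCommuteBar N
  have h3 := hF ℓ ℓ.2 hℓp B hB φ hφ (jEquiv hNT ψ) ⟨k, (jEquiv hNT ψ).2⟩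
  have h4 : heckeGen ⟨ℓ, ℓ.2⟩ • (φ • (jEquiv hNT ψ : JZero N)) =
      heckeOperatorBar N ℓ (φ • (jEquiv hNT ψ : JZero N)) :=
    heckeModuleBar_heckeGen_smul hcomm ℓ _
  rw [h4] at h3
  apply (jEquiv hNT).injective
  apply Subtype.ext
  rw [map_add, map_sub, map_nsmul, map_zero, AddSubgroup.coe_add, AddSubgroup.coe_sub,
    AddSubgroup.coe_nsmul, jEquiv_galP, jEquiv_galP, jEquiv_opP hNT ℓ hN, jEquiv_galP]
  exact h3

theorem galA_frobenius
    (hF : letI := heckeModuleBar N;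
      FrobeniusQuadratic (K := ℚ) (L := AlgebraicClosure ℚ) N p (JZero N))
    (ℓ : Nat.Primes) (hℓp : ¬ (ℓ : ℕ) ∣ N * p)
    (B : ValuationSubring (AlgebraicClosure ℚ)) (hB : B.LiesOverPrime (ℓ : ℕ))
    (φ : GQ) (hφ : B.IsFrobeniusAt φ (ℓ : ℕ)) (c : parabolicHoms O (Gamma0 N) A) :
    galA hNT b φ (galA hNT b φ c) - opP N O A ℓ (galA hNT b φ c) + (ℓ : ℕ) • c = 0 := by
  apply (coordE b).injective
  funext i
  rw [map_add, map_sub, map_nsmul, map_zero, Pi.add_apply, Pi.sub_apply, Pi.smul_apply,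
    Pi.zero_apply, coordE_galA, coordE_opP, coordE_galA]
  exact galP_frobenius hNT hF ℓ hℓp B hB φ hφ _

theorem galP_finite_level : ∃ L : IntermediateField ℚ (AlgebraicClosure ℚ),
    FiniteDimensional ℚ L ∧ ∀ σ : GQ, (∀ x ∈ L, σ x = x) → ∀ ψ, galP hNT σ ψ = ψ := by
  obtain ⟨L, hL, hL2⟩ := Fermat.Agent.Cofaith.exists_level N (NeZero.ne (p ^ k))
  refine ⟨L, hL, fun σ hσ ψ => (jEquiv hNT).injective (Subtype.ext ?_)⟩
  rw [jEquiv_galP, hL2 σ hσ _ (jEquiv hNT ψ).2]

theorem galA_finite_level : ∃ L : IntermediateField ℚ (AlgebraicClosure ℚ),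
    FiniteDimensional ℚ L ∧ ∀ σ : GQ, (∀ x ∈ L, σ x = x) →
      ∀ c : parabolicHoms O (Gamma0 N) A, galA hNT b σ c = c := by
  obtain ⟨L, hL, hL2⟩ := galP_finite_level hNT
  refine ⟨L, hL, fun σ hσ c => (coordE b).injective (funext fun i => ?_)⟩
  rw [coordE_galA, hL2 σ hσ]

end Frob

/-! ### (E) on the `𝔪`-part -/

section E

variable {N n : ℕ} [NeZero N] [NeZero n] (hNT : NoTors N n)
  {O : Type} [CommRing O] [IsLocalRing O] [IsNoetherianRing O]
  [IsAdicComplete (maximalIdeal O) O] {A : Type} [AddCommGroup A] [Module O A]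
  [Module (ZMod n) A] {ι : Type} [Fintype ι] (b : Module.Basis ι (ZMod n) A)
  {S : Set ℕ} {θ : PIdx S → ResidueField O}

include hNT in
theorem finite_parabolic : Finite (parabolicHoms ℤ (Gamma0 N) (ZMod n)) := by
  have : Finite {x : JZero N // n • x = 0} := Fermat.Agent.Cofaith.finite_torsion N (NeZero.ne n)
  have h : Finite (JTor N n) := this
  exact Finite.of_equiv _ (jEquiv hNT).symm.toEquiv

include hNT b in
theorem finite_parabolicA : Finite (parabolicHoms O (Gamma0 N) A) := by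
  have := finite_parabolic hNT
  exact Finite.of_equiv _ (coordE (O := O) (N := N) b).symm.toEquiv

include hNT b in
theorem exists_isIdem_parabolic :
    ∃ e : MvPolynomial (PIdx S) O, IsIdem θ (opS (R := O) N A S) (opS_commute N A S) e := by
  have := finite_parabolicA (O := O) hNT b
  exact exists_isIdem _ O

omit [IsNoetherianRing O] [IsAdicComplete (maximalIdeal O) O] in
/-- Elements of `𝔪` are nilpotent on the `𝔪`-part of a finite module. -/
theorem exists_pow_eq_zero {κ : Type} {θ : κ → ResidueField O} {H : Type} [AddCommGroup H]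
    [Module O H] [Finite H] {T : κ → Module.End O H} {hT : ∀ i j, Commute (T i) (T j)}
    {e : MvPolynomial κ O} (he : IsIdem θ T hT e) {t : MvPolynomial κ O} (ht : evk θ t = 0)
    {x : H} (hx : x ∈ mpart θ T hT) : ∃ k : ℕ, cev T hT (t ^ k) x = 0 := by
  obtain ⟨k, l, hkl, h⟩ : ∃ k l : ℕ, k < l ∧ cev T hT (t ^ k) x = cev T hT (t ^ l) x := by
    obtain ⟨k, l, hne, h⟩ := Finite.exists_ne_map_eq_of_infinite fun k : ℕ => cev T hT (t ^ k) x
    rcases lt_or_gt_of_ne hne with h1 | h1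
    · exact ⟨k, l, h1, h⟩
    · exact ⟨l, k, h1, h.symm⟩
  refine ⟨k, he.eq_zero (cev_mem_mpart hT _ hx) (s := 1 - t ^ (l - k)) ?_ ?_⟩
  · rw [map_sub, map_one, map_pow, ht, zero_pow (Nat.sub_ne_zero_of_lt hkl), sub_zero]
    exact one_ne_zero
  · rw [← cev_mul_apply, sub_mul, one_mul, ← pow_add, Nat.sub_add_cancel hkl.le, map_sub,
      LinearMap.sub_apply, h, sub_self]

theorem galA_opS (hS : ∀ ℓ : ℕ, ℓ.Prime → ℓ ∣ N → ℓ ∈ S) (σ : GQ) (ℓ : PIdx S)
    (c : parabolicHoms O (Gamma0 N) A) :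
    galA hNT b σ (opS N A S ℓ c) = opS N A S ℓ (galA hNT b σ c) :=
  galA_opP hNT b ℓ.1 (fun h => ℓ.2 (hS _ ℓ.1.2 h)) σ c

theorem galA_mem_Pm (hS : ∀ ℓ : ℕ, ℓ.Prime → ℓ ∣ N → ℓ ∈ S) (σ : GQ)
    {c : parabolicHoms O (Gamma0 N) A} (hc : c ∈ Pm N A θ) : galA hNT b σ c ∈ Pm N A θ :=
  mpart_stable (opS_commute N A S) (galA hNT b σ) (galA_opS hNT b hS σ) hc

/-- The condition (E) for the `n`-torsion of `J₀(N)`. -/
def EJ (N n : ℕ) [NeZero N] (S : Set ℕ) {k : Type} [Field k] (θ : PIdx S → k) (σ : GQ) : Prop :=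
  ∀ x : JZero N, n • x = 0 →
    (letI := heckeModuleBar N; ∀ s : HeckeAlgS S,
      MvPolynomial.eval₂ (Int.castRingHom k) θ s = 0 → ∃ j : ℕ, inclS S (s ^ j) • x = 0) →
    σ • x = x → ∃ y : JZero N, n • y = 0 ∧ σ • y - y = x

/-- **(E) on the `𝔪`-part with coefficients.** -/
theorem hE_Pm (hS : ∀ ℓ : ℕ, ℓ.Prime → ℓ ∣ N → ℓ ∈ S) (σ : GQ) (hE : EJ N n S θ σ)
    {c : parabolicHoms O (Gamma0 N) A} (hc : c ∈ Pm N A θ) (hσ : galA hNT b σ c = c) :
    ∃ c' ∈ Pm N A θ, galA hNT b σ c' - c' = c := by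
  letI := heckeModuleBar N
  have hfin := finite_parabolicA (O := O) hNT b
  obtain ⟨e, he⟩ := exists_isIdem_parabolic (O := O) (S := S) (θ := θ) hNT b
  have h1 : ∀ i, ∃ ψ : parabolicHoms ℤ (Gamma0 N) (ZMod n),
      galP hNT σ ψ - ψ = coordE b c i := by
    intro i
    obtain ⟨y, hy, hy2⟩ := hE (jEquiv hNT (coordE b c i)) (jEquiv hNT (coordE b c i)).2 (by
      intro s hs
      have hs' : evk θ (MvPolynomial.map (Int.castRingHom O) s) = 0 := by
        rw [evk, MvPolynomial.coe_eval₂Hom, MvPolynomial.eval₂_map, ← hs]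
        congr 1
      obtain ⟨j, hj⟩ := exists_pow_eq_zero he hs' hc
      refine ⟨j, ?_⟩
      have h2 := jEquiv_cev hNT hS (s ^ j) (coordE b c i)
      rw [← h2, ← coordE_cev b, map_pow, hj, map_zero, Pi.zero_apply, map_zero]
      rfl) (by rw [← jEquiv_galP, ← coordE_galA, hσ])
    refine ⟨(jEquiv hNT).symm ⟨y, hy⟩, (jEquiv hNT).injective (Subtype.ext ?_)⟩
    rw [map_sub, AddSubgroup.coe_sub, jEquiv_galP, AddEquiv.apply_symm_apply]
    exact hy2
  choose ψ hψ using h1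
  set c' := (coordE (O := O) b).symm ψ with hc'
  have h2 : galA hNT b σ c' - c' = c := by
    apply (coordE b).injective
    funext i
    rw [map_sub, Pi.sub_apply, coordE_galA, hc', AddEquiv.apply_symm_apply, hψ]
  refine ⟨cev (opS N A S) (opS_commute N A S) e c', he.apply_mem c', ?_⟩
  rw [cev_commute (opS_commute N A S) (galA hNT b σ) (galA_opS hNT b hS σ), ← map_sub, h2]
  exact he.mem_iff.mp hc

end E

end Fermat.Agent.Ribet

end
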