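import Fermat.Agent.Ribet.ChiO
import Fermat.Agent.Ribet.FamilyAbs
import Fermat.Agent.Ribet.TN
import Fermat.Agent.Ribet.Ram
import Fermat.Agent.Ribet.Lam
import Fermat.Agent.Ribet.WD
import Fermat.Agent.Ribet.LevelRelInst
import Fermat.Agent.Ribet.TameMat
import Fermat.Agent.Ribet.WRelMain
import Fermat.Agent.RibetE.EJ
import Fermat.Agent.Frob.Exists
import Fermat.Agent.RT.Embed

/-!
# Ribet's theorem, road B: the assembly, for any Hecke ring with its Galois representation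
-/

set_option autoImplicit false
set_option linter.unusedSectionVars false
set_option linter.unusedVariables false
set_option linter.style.haveILetI false
set_option synthInstance.maxHeartbeats 400000
set_option maxHeartbeats 1000000

noncomputable section

open CongruenceSubgroup IsLocalRing ModularCurve Polynomial
open scoped MatrixGroups

namespace Fermat.Agent.Ribet

open Fermat.Agent.HeckePar Fermat.Agent.TwHecke Fermat.Agent.TwExact Fermat.Agent.S41hm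
open Fermat.Agent.GalRep Fermat.Agent.QX4 HeckeRep RT

section Inst

variable {p : ℕ} [hp : Fact p.Prime]

variable (p) in
theorem natCast_mem_maximalIdeal_padic : ((p : ℕ) : ℤ_[p]) ∈ maximalIdeal ℤ_[p] :=
  (mem_maximalIdeal _).mpr PadicInt.p_nonunit

theorem isLocalHom_aug {Δ : Type} [CommGroup Δ] [IsLocalRing (MonoidAlgebra ℤ_[p] Δ)] :
    IsLocalHom (RT.aug ℤ_[p] Δ : MonoidAlgebra ℤ_[p] Δ →+* ℤ_[p]) :=
  IsLocalHom.of_surjective _ fun a => ⟨algebraMap ℤ_[p] _ a, (RT.aug ℤ_[p] Δ).commutes a⟩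

/-- an embedding of `ℤ_[p]` in `ℂ` -/
theorem exists_embedding_padic (p : ℕ) [Fact p.Prime] :
    ∃ ι : ℤ_[p] →+* ℂ, Function.Injective ι := by
  haveI : Finite (ResidueField ℤ_[p]) :=
    Finite.of_equiv (ZMod p) PadicInt.residueField.symm.toEquiv
  exact RT.exists_embedding ℤ_[p]

theorem strongNonEis_map {F F' : Type*} [Field F] [Field F'] (f : F →+* F') {S : Set ℕ}
    {θ : PIdx S → F} (h : StrongNonEis S θ) : StrongNonEis S (fun ℓ => f (θ ℓ)) where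
  one M hM := by
    obtain ⟨ℓ, h1, h2⟩ := h.one M hM
    refine ⟨ℓ, h1, fun h3 => h2 (f.injective ?_)⟩
    rw [h3, map_add, map_one, map_natCast]
  two M hM := by
    obtain ⟨ℓ, h1, h2⟩ := h.two M hM
    refine ⟨ℓ, h1, fun h3 => h2 (f.injective ?_)⟩
    rw [map_pow, h3, map_pow, map_add, map_one, map_natCast]

end Inst

section Good

variable {p : ℕ} [hp : Fact p.Prime] {m q : ℕ} [NeZero m] [NeZero q] {Δ : Type} [CommGroup Δ] [Finite Δ]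
  (hΔ : IsPGroup p Δ) [IsLocalRing (MonoidAlgebra ℤ_[p] Δ)]
  [IsLocalHom (algebraMap ℤ_[p] (MonoidAlgebra ℤ_[p] Δ))] (τ0 : (ZMod q)ˣ →* Δ)

include hΔ in
theorem good_MD (hp2 : p ≠ 2) (h3 : p ≠ 3 ∨ ∃ r : ℕ, r.Prime ∧ r ∣ m * q ∧ r % 3 = 2)
    {S : Set ℕ} (hS : ∀ ℓ : ℕ, ℓ.Prime → ℓ ∣ m * q → ℓ ∈ S)
    {θ : PIdx S → ResidueField ℤ_[p]} (hst : StrongNonEis S θ) :
    Good (m * q) (taut ℤ_[p] (tauQ m q τ0) ^ 2) S (thMap (MonoidAlgebra ℤ_[p] Δ) θ) := by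
  haveI := isNoetherianRing_groupRing (𝒪 := ℤ_[p]) (Δ := Δ)
  haveI := isAdicComplete_groupRing (𝒪 := ℤ_[p]) (Δ := Δ)
  refine good_of_strong ?_ ?_ ?_ ?_ hS ?_
  · rw [MonoidHom.pow_apply, ← map_pow, neg_one_sq, map_one]
  · have h := (isUnit_two_padic hp2).map (algebraMap ℤ_[p] (MonoidAlgebra ℤ_[p] Δ))
    rwa [map_ofNat] at h
  · refine (three_padic h3).imp (fun h => ?_) id
    have h := h.map (algebraMap ℤ_[p] (MonoidAlgebra ℤ_[p] Δ))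
    rwa [map_ofNat] at h
  · intro u
    rw [MonoidHom.pow_apply, Units.val_pow_eq_pow_val, map_pow,
      residue_taut (natCast_mem_maximalIdeal_padic p) hΔ, one_pow]
  · exact strongNonEis_map (ResidueField.map (algebraMap ℤ_[p] (MonoidAlgebra ℤ_[p] Δ))) hst

end Good

section Main

variable {p : ℕ} [hp : Fact p.Prime] {m q : ℕ} [NeZero m] [NeZero q] (hq : q.Prime)
  (hm : ¬ q ∣ m) {Δ : Type} [CommGroup Δ] [Fintype Δ] (hΔ : IsPGroup p Δ)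
  {δ : Δ} (hδ : ∀ x, x ∈ Subgroup.zpowers δ) {τ0 : (ZMod q)ˣ →* Δ}
  (hτ0 : Function.Surjective τ0) [IsLocalRing (MonoidAlgebra ℤ_[p] Δ)]
  [IsLocalHom (algebraMap ℤ_[p] (MonoidAlgebra ℤ_[p] Δ))]
  {S : Finset ℕ} {θ : PIdx (↑S : Set ℕ) → ResidueField ℤ_[p]}

omit [NeZero m] [NeZero q] [Fintype Δ] [IsLocalHom (algebraMap ℤ_[p] (MonoidAlgebra ℤ_[p] Δ))] in
theorem aug_taut (τ : (ZMod (m * q))ˣ →* Δ) (u : (ZMod (m * q))ˣ) :
    RT.aug ℤ_[p] Δ ((taut ℤ_[p] τ u : (MonoidAlgebra ℤ_[p] Δ)ˣ) : MonoidAlgebra ℤ_[p] Δ) = 1 :=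
  RT.aug_gr _

include hq hm hΔ hδ hτ0 in
/-- **Road B for a Hecke ring `T` with its Galois representation.** -/
theorem nontrivial_MN_of_rep (h36 : Stmt36) (hp2 : p ≠ 2) (hqp : q ≠ p)
    (h12 : p ≠ 3 ∨ ∃ r : ℕ, r.Prime ∧ r ∣ m ∧ r % 12 = 11)
    {k r a : ℕ} (hqk : q = 1 + p ^ k * r) (ha : 2 * a = p ^ k * r) (ha0 : 0 < a) (hk : k ≠ 0)
    (hr : ¬ p ∣ r) (hord : orderOf δ = p ^ k)
    (hpS : p ∈ S) (hqS : q ∈ (↑S : Set ℕ)) (hS : ∀ ℓ : ℕ, ℓ.Prime → ℓ ∣ m * q → ℓ ∈ (↑S : Set ℕ))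
    {W : WeierstrassCurve ℤ} (hW : W.Δ ≠ 0) (hirr : W.ModRepIsIrreducible p)
    (hθ : ∀ ℓ, θ ℓ = ((W.apOfModel (ℓ.1 : ℕ) : ℤ) : ResidueField ℤ_[p]))
    {T : Type} [CommRing T] [IsLocalRing T] [Algebra ℤ_[p] T] [Module.Finite ℤ_[p] T]
    (act : T →ₐ[ℤ_[p]] Module.End ℤ_[p] (MD p (m * q) (tauQ m q τ0) (↑S : Set ℕ) θ))
    [Module T (MN p (m * q) (↑S : Set ℕ) θ)]
    [IsScalarTower ℤ_[p] T (MN p (m * q) (↑S : Set ℕ) θ)]
    (tl : PIdx (↑S : Set ℕ) → T)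
    (ht : ∀ ℓ (y : MD p (m * q) (tauQ m q τ0) (↑S : Set ℕ) θ),
      ((act (tl ℓ) y : MD p (m * q) (tauQ m q τ0) (↑S : Set ℕ) θ) :
        HM (m * q) (taut ℤ_[p] (tauQ m q τ0) ^ 2) (MonoidAlgebra ℤ_[p] Δ)) =
        nop (taut ℤ_[p] (tauQ m q τ0)) (↑S : Set ℕ) ℓ
          (y : HM (m * q) (taut ℤ_[p] (tauQ m q τ0) ^ 2) (MonoidAlgebra ℤ_[p] Δ)))
    (hgen : ∀ (ℓ : PIdx (↑S : Set ℕ)) (x : MN p (m * q) (↑S : Set ℕ) θ),
      ((tl ℓ • x : MN p (m * q) (↑S : Set ℕ) θ) :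
        HM (m * q) (1 : (ZMod (m * q))ˣ →* ℤ_[p]ˣ) ℤ_[p]) =
        hop (m * q) 1 ℤ_[p] (↑S : Set ℕ) ℓ
          (x : HM (m * q) (1 : (ZMod (m * q))ˣ →* ℤ_[p]ˣ) ℤ_[p]))
    (hadj : Algebra.adjoin ℤ_[p] (Set.range tl) = ⊤)
    (ρ : GaloisRepAdic T) (hdet : ρ.DetIsCyclotomic p)
    (habs : ρ.residual.IsAbsolutelyIrreducible) (hodd : ρ.residual.IsOdd)
    (hfrob : ∀ ℓ : PIdx (↑S : Set ℕ),
      ∀ A : ValuationSubring (AlgebraicClosure ℚ), A.LiesOverPrime ℓ.1 →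
      ∀ σ : AlgebraicClosure ℚ ≃ₐ[ℚ] AlgebraicClosure ℚ, A.IsFrobeniusAt σ ℓ.1 →
        LinearMap.charpoly (ρ.ρ σ) = X ^ 2 - C (tl ℓ) * X + C (((ℓ.1 : ℕ) : ℕ) : T))
    (hur : ∀ A : ValuationSubring (AlgebraicClosure ℚ), A.LiesOverPrime q →
      ∀ σ ∈ A.inertiaSubgroupIn ℚ, ρ.residual.ρ σ = 1)
    (hnt : Nontrivial (MN p (m * q) (↑S : Set ℕ) θ)) : Nontrivial (MN p m (↑S : Set ℕ) θ) := by
  by_contra hcon
  haveI := charP_residueField_padic p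
  haveI : Finite (ResidueField ℤ_[p]) :=
    Finite.of_equiv (ZMod p) PadicInt.residueField.symm.toEquiv
  haveI : IsNoetherianRing T := IsNoetherianRing.of_finite ℤ_[p] T
  -- non Eisenstein
  have h3 : p ≠ 3 ∨ ∃ r : ℕ, r.Prime ∧ r ∣ m ∧ r % 3 = 2 :=
    h12.imp id fun ⟨r, h1, h2, h4⟩ => ⟨r, h1, h2, by omega⟩
  have h3' : p ≠ 3 ∨ ∃ r : ℕ, r.Prime ∧ r ∣ m * q ∧ r % 3 = 2 :=
    h3.imp id fun ⟨r, h1, h2, h4⟩ => ⟨r, h1, h2.mul_right q, h4⟩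
  have hst : StrongNonEis (↑S : Set ℕ) θ :=
    strongNonEis_of_model hp2 hW hirr S.finite_toSet fun ℓ _ _ => hθ ℓ
  have hG := good_MD (m := m) hΔ τ0 hp2 h3' hS hst
  have hGN : Good (m * q) (1 : (ZMod (m * q))ˣ →* ℤ_[p]ˣ) (↑S : Set ℕ) θ :=
    good_of_strong (by simp) (isUnit_two_padic hp2) (three_padic h3')
      (fun u => by rw [MonoidHom.one_apply, Units.val_one, map_one]) hS hst
  obtain ⟨ℓ0, hℓ0, -, hℓ0'⟩ := exists_aux hst (M := m * q)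
  -- local data at `q`
  obtain ⟨A, hA⟩ := Frob.exists_liesOverPrime q hq
  obtain ⟨φ, hφ⟩ := Frob.exists_isFrobeniusAt hq hA
  obtain ⟨σ₀, hσ₀⟩ := RTD.exists_isTameGen hq hp.out hA hqp
  have hFS : matOf ρ φ * matOf ρ σ₀ = matOf ρ σ₀ ^ q * matOf ρ φ :=
    tame_matOf' hq hqp hA ρ hdet (hur A hA) hφ hσ₀.1
  obtain ⟨t, htev, htθ⟩ := exists_kill hp2 h3 hθ hcon
  have hE : ∀ k, EJ (m * q) (p ^ k) (↑S : Set ℕ) θ σ₀ := fun k =>
    RibetE.EJ_of_new' hq hm hA hp.out hqp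
      (h12.elim (fun h => Or.inl (by
        have h5 : p.Coprime 2 := (Nat.coprime_primes hp.out Nat.prime_two).mpr hp2
        have h6 : p.Coprime 3 := (Nat.coprime_primes hp.out Nat.prime_three).mpr h
        have h7 : p.Coprime (2 * 2 * 3) := (h5.mul_right h5).mul_right h6
        exact h7))
        (fun h => Or.inr (Or.inr (Or.inr h)))) hS θ htev (by rw [htθ]; exact one_ne_zero) hℓ0' hσ₀ k
  have H := levelRel_padic hp2 hq hqp hm h3 hpS hqS hS hW hirr hθ hcon tl hgen hadj ρ hdet habs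
    ∅ Set.finite_empty (fun ℓ _ A hA φ hφ => hfrob ℓ A hA φ hφ) hA hσ₀.1 hφ hFS (wRel hq hm) hE
  -- the character
  obtain ⟨ι, hι⟩ := exists_embedding_padic p
  obtain ⟨ψ, hψ, hz⟩ := exists_psi (Δ := Δ) hp.out.ne_zero hp.out.ne_one hδ
    (hord ▸ dvd_pow_self p hk)
  obtain ⟨ζ, hζ, hχ⟩ := exists_zeta_OO ι ψ hz
  haveI := isLocalHom_chiOO ι ψ
  obtain ⟨c₀, hc₀⟩ := exists_nrm_eq (R := ℤ_[p]) δ
  -- the modules
  haveI i1 := isNoetherianRing_groupRing (𝒪 := ℤ_[p]) (Δ := Δ)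
  haveI i2 := isAdicComplete_groupRing (𝒪 := ℤ_[p]) (Δ := Δ)
  haveI i3 : IsLocalHom (RT.aug ℤ_[p] Δ : MonoidAlgebra ℤ_[p] Δ →+* ℤ_[p]) := isLocalHom_aug
  haveI i4 := finite_HmΔ (𝒪 := ℤ_[p]) (Δ := Δ) (M := m * q)
    (ε := taut ℤ_[p] (tauQ m q τ0) ^ 2) (S := (↑S : Set ℕ)) (θ := thMap (MonoidAlgebra ℤ_[p] Δ) θ)
  haveI i5 : Module.Finite (MonoidAlgebra ℤ_[p] Δ)
      (MD p (m * q) (tauQ m q τ0) (↑S : Set ℕ) θ) := finite_Hm _ _ _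
  haveI i6 : Module.Free (MonoidAlgebra ℤ_[p] Δ)
      (MD p (m * q) (tauQ m q τ0) (↑S : Set ℕ) θ) := freeΛ_HmΔ (𝒪 := ℤ_[p]) hG
  haveI i7 : Module.Finite ℤ_[p] (MN p (m * q) (↑S : Set ℕ) θ) := finite_Hm _ _ _
  haveI i8 : Module.Free ℤ_[p] (MN p (m * q) (↑S : Set ℕ) θ) := hGN.free
  have hact : ∀ (ℓ : PIdx (↑S : Set ℕ)) (a : MonoidAlgebra ℤ_[p] Δ)
      (x : MD p (m * q) (tauQ m q τ0) (↑S : Set ℕ) θ),
      act (tl ℓ) (a • x) = a • act (tl ℓ) x := by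
    intro ℓ a x
    refine Subtype.ext ((ht ℓ _).trans ?_)
    exact (map_smul (nop (taut ℤ_[p] (tauQ m q τ0)) (↑S : Set ℕ) ℓ) a x.1).trans
      (congrArg (a • ·) (ht ℓ x).symm)
  -- the specialisation
  have hopO : ∀ (ℓ : PIdx (↑S : Set ℕ)) (x : MD p (m * q) (tauQ m q τ0) (↑S : Set ℕ) θ),
      act (tl ℓ) x = opO (taut ℤ_[p] (tauQ m q τ0)) ℤ_[p] θ ℓ x := fun ℓ x =>
    Subtype.ext (ht ℓ x)
  have hπl : ∀ (ℓ : PIdx (↑S : Set ℕ)) (x : MD p (m * q) (tauQ m q τ0) (↑S : Set ℕ) θ),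
      specN (taut ℤ_[p] (tauQ m q τ0)) ℤ_[p] θ (RT.aug ℤ_[p] Δ) (aug_taut _) (act (tl ℓ) x) =
        tl ℓ • specN (taut ℤ_[p] (tauQ m q τ0)) ℤ_[p] θ (RT.aug ℤ_[p] Δ) (aug_taut _) x := by
    intro ℓ x
    rw [hopO, specN_opO]
    exact Subtype.ext (hgen ℓ _).symm
  have hclos : Subgroup.closure (Set.range fun _ : Unit => δ) = ⊤ := by
    rw [Set.range_const, ← Subgroup.zpowers_eq_closure]
    exact (Subgroup.eq_top_iff' _).mpr hδ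
  have hker : ∀ x : MD p (m * q) (tauQ m q τ0) (↑S : Set ℕ) θ,
      specN (taut ℤ_[p] (tauQ m q τ0)) ℤ_[p] θ (RT.aug ℤ_[p] Δ) (aug_taut _) x = 0 ↔
        ∃ y, x = (RT.gr ℤ_[p] Δ δ - 1) • y := by
    intro x
    rw [specN_eq_zero_iff _ _ _ _ _ hG, show RingHom.ker (RT.aug ℤ_[p] Δ :
      MonoidAlgebra ℤ_[p] Δ →+* ℤ_[p]) = Ideal.span {RT.gr ℤ_[p] Δ δ - 1} from by
        have h := RT.ker_aug_eq (𝒪 := ℤ_[p]) (fun _ : Unit => δ) hclos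
        rw [Set.range_const] at h
        exact h, Submodule.ideal_span_singleton_smul, Submodule.mem_smul_pointwise_iff_exists]
    constructor
    · rintro ⟨y, -, rfl⟩
      exact ⟨y, rfl⟩
    · rintro ⟨y, rfl⟩
      exact ⟨y, trivial, rfl⟩
  have htf : ∀ (j : ℕ) (x : MN p (m * q) (↑S : Set ℕ) θ), 0 < j → j • x = 0 → x = 0 := by
    intro j x hj hx
    rw [← Nat.cast_smul_eq_nsmul ℤ_[p], smul_eq_zero] at hx
    exact hx.resolve_left (Nat.cast_ne_zero.mpr hj.ne')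
  -- the matrices
  have hcop : ∀ k : ℕ, Nat.Coprime (p ^ k) q := fun k =>
    Nat.Coprime.pow_left k ((Nat.coprime_primes hp.out hq).mpr hqp.symm)
  have hpk : ∀ k : ℕ, p ^ k ≠ 0 := fun k => pow_ne_zero _ hp.out.ne_zero
  have hdS : dt2 (matOf ρ σ₀) = 1 := by
    rw [dt2_matOf, det_eq_of_roots (p := p) (a := 1) hdet, Nat.cast_one]
    intro n μ hμ
    rw [pow_one]
    exact inertia_fix_rootOfUnity hA (hcop n).symm (hpk n) hσ₀.1 hμ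
  have hdF : IsUnit (dt2 (matOf ρ φ)) := by
    rw [dt2_matOf, det_eq_of_roots (p := p) (a := q) hdet]
    · have h := (isUnit_natCast_padic (p := p) (n := q) fun h =>
        hqp ((Nat.prime_dvd_prime_iff_eq hp.out hq).mp h).symm).map (algebraMap ℤ_[p] T)
      rwa [map_natCast] at h
    · intro n μ hμ
      exact frobenius_rootOfUnity hA (hcop n).symm (hpk n) hφ hμ
  have htr : tr2 (matOf ρ σ₀) = ρ.trace σ₀ := by
    rw [← trace_matOf, Matrix.trace_fin_two]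
    rfl
  have hRAM : ∀ x : MD p (m * q) (tauQ m q τ0) (↑S : Set ℕ) θ,
      act (tr2 (matOf ρ σ₀) - 2) x ∈ RingHom.ker (chiOO ι ψ) •
        (⊤ : Submodule (MonoidAlgebra ℤ_[p] Δ) (MD p (m * q) (tauQ m q τ0) (↑S : Set ℕ) θ)) →
      x ∈ RingHom.ker (chiOO ι ψ) •
        (⊤ : Submodule (MonoidAlgebra ℤ_[p] Δ) (MD p (m * q) (tauQ m q τ0) (↑S : Set ℕ) θ)) := by
    intro x hx
    rw [htr, ker_chiOO] at hx
    rw [ker_chiOO]
    refine mem_of_trace hq hm hΔ τ0 hτ0 hpS (fun ℓ h1 h2 => hS ℓ h1 h2) θ hG hℓ0 hℓ0' act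
      (fun t γ y => ?_) tl ht h36 hp2 hqp ρ hdet habs hodd hfrob hA (hur A hA) hσ₀ ι hι hψ x hx
    exact (comm_of_adjoin act tl hadj (w := (Module.toAddMonoidEnd (MonoidAlgebra ℤ_[p] Δ)
      (MD p (m * q) (tauQ m q τ0) (↑S : Set ℕ) θ) (MonoidAlgebra.single γ (1 : ℤ_[p])) : _ →+ _))
      (fun b y => by
        show (MonoidAlgebra.single γ (1 : ℤ_[p]) : MonoidAlgebra ℤ_[p] Δ) • b • y =
          b • (MonoidAlgebra.single γ (1 : ℤ_[p]) : MonoidAlgebra ℤ_[p] Δ) • y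
        exact smul_comm _ _ _)
      (fun i y => (hact i _ y).symm) t y).symm
  exact abs_contradiction (Λ := MonoidAlgebra ℤ_[p] Δ) act tl hadj hact hqk ha ha0 hk
    (isUnit_natCast_padic hr) (isUnit_two_padic hp2)
    (isUnit_natCast_OO ι (isUnit_natCast_padic hr)) hdet.1 hζ (RT.gr ℤ_[p] Δ δ - 1)
    (RT.nrm ℤ_[p] δ) (-RT.gr ℤ_[p] Δ δ⁻¹) c₀ (by rw [hc₀, hord])
    (exists_of_sub_one_smul_eq δ hδ) (chiOO ι ψ) hχ
    (specN (taut ℤ_[p] (tauQ m q τ0)) ℤ_[p] θ (RT.aug ℤ_[p] Δ) (aug_taut _))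
    (specN_surjective _ _ _ _ _ hG) hπl hker htf (wD hq hm τ0 hqS)
    (wD_sub_one_smul hq hm τ0 hqS δ)
    (fun a x => by
      have h := wD_algebraMap_smul hq hm τ0 hqS a x
      rwa [algebraMap_smul, algebraMap_smul] at h)
    (fun ℓ x => wD_comm_nop hq hm τ0 hqS ℓ (fun h => ℓ.2 (hS _ ℓ.1.2 h)) _ (ht ℓ) x)
    (wT hq hm hqS tl hgen hadj)
    (fun x => spec_wD hq hm τ0 hqS (hε_of _ ℤ_[p] (RT.aug ℤ_[p] Δ) (aug_taut _))
      (σ_surjective ℤ_[p] (RT.aug ℤ_[p] Δ)) (hθ_of ℤ_[p] θ (RT.aug ℤ_[p] Δ)) x)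
    (wT_wT hq hm hqS tl hgen hadj) (matOf ρ σ₀) (matOf ρ φ) hdS hdF hFS
    (matOf_sub_one_entry_mem ρ (hur A hA σ₀ hσ₀.1)) H hRAM

end Main

end Fermat.Agent.Ribet

end
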