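import Fermat.Agent.HeckeRep.Fourier
import Fermat.Agent.RT.GroupRing

/-!
# Road B: arithmetic choices, and the ring of values of a character of the group ring
-/

set_option autoImplicit false
set_option linter.unusedSectionVars false
set_option linter.style.haveILetI false

noncomputable section

open IsLocalRing

namespace Fermat.Agent.Ribet

open Fermat.Agent.RT Fermat.Agent.HeckeRep

/-! ### (A1) -/

theorem exists_arith {p q : ℕ} (hp : p.Prime) (_hp2 : p ≠ 2) (hq : q.Prime) (h1 : q % p = 1) :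
    ∃ k r a : ℕ, q = 1 + p ^ k * r ∧ 2 * a = p ^ k * r ∧ 0 < a ∧ 0 < k ∧ ¬ p ∣ r := by
  have hq1 : q - 1 ≠ 0 := by have := hq.two_le; omega
  have hpd : p ∣ q - 1 := (Nat.modEq_iff_dvd' hq.one_lt.le).1 (by
    rw [Nat.ModEq, h1, Nat.mod_eq_of_lt hp.one_lt])
  obtain ⟨k, r, hr, hk⟩ := Nat.exists_eq_pow_mul_and_not_dvd hq1 p hp.one_lt.ne'
  have hq2 : q ≠ 2 := by
    rintro rfl
    have := Nat.le_of_dvd (by norm_num) hpd
    have := hp.two_le
    omega
  obtain ⟨a, ha⟩ := (hq.eq_two_or_odd'.resolve_left hq2)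
  refine ⟨k, r, a, by omega, by omega, ?_, ?_, hr⟩
  · have := hq.two_le
    omega
  · rcases Nat.eq_zero_or_pos k with rfl | h
    · exfalso
      rw [pow_zero, one_mul] at hk
      exact hr (hk ▸ hpd)
    · exact h

/-! ### (A2) -/

/-- the cyclic quotient of order `p ^ k` of `(ℤ/q)ˣ` -/
theorem exists_tau0 {p k q : ℕ} (hq : q.Prime) (hd : p ^ k ∣ q - 1) :
    ∃ τ0 : (ZMod q)ˣ →* Multiplicative (ZMod (p ^ k)), Function.Surjective τ0 := by
  haveI : Fact q.Prime := ⟨hq⟩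
  have hcyc : IsCyclic (ZMod q)ˣ := inferInstance
  have hcard : Nat.card (ZMod q)ˣ = q - 1 := by
    rw [Nat.card_eq_fintype_card, ZMod.card_units]
  have hd' : p ^ k ∣ Nat.card (ZMod q)ˣ := by rwa [hcard]
  refine ⟨(AddMonoidHom.toMultiplicative
    (ZMod.castHom hd' (ZMod (p ^ k))).toAddMonoidHom).comp
    (zmodCyclicMulEquiv hcyc).symm.toMonoidHom, ?_⟩
  intro y
  obtain ⟨x, hx⟩ := ZMod.castHom_surjective hd' (Multiplicative.toAdd y)
  refine ⟨zmodCyclicMulEquiv hcyc (Multiplicative.ofAdd x), ?_⟩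
  rw [MonoidHom.comp_apply]
  have h1 : (zmodCyclicMulEquiv hcyc).symm.toMonoidHom
      (zmodCyclicMulEquiv hcyc (Multiplicative.ofAdd x)) = Multiplicative.ofAdd x :=
    (zmodCyclicMulEquiv hcyc).symm_apply_apply _
  rw [h1]
  exact congrArg Multiplicative.ofAdd hx

theorem mem_zpowers_ofAdd_one (n : ℕ) (x : Multiplicative (ZMod n)) :
    x ∈ Subgroup.zpowers (Multiplicative.ofAdd (1 : ZMod n)) := by
  obtain ⟨z, hz⟩ := ZMod.intCast_surjective (Multiplicative.toAdd x)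
  refine ⟨z, ?_⟩
  change Multiplicative.ofAdd (1 : ZMod n) ^ z = x
  rw [← ofAdd_zsmul]
  apply Multiplicative.toAdd.injective
  rw [toAdd_ofAdd, ← hz]
  simp

theorem orderOf_ofAdd_one (n : ℕ) : orderOf (Multiplicative.ofAdd (1 : ZMod n)) = n := by
  rw [orderOf_ofAdd_eq_addOrderOf, ZMod.addOrderOf_one]

theorem isPGroup_mul_zmod (p k : ℕ) [Fact p.Prime] :
    IsPGroup p (Multiplicative (ZMod (p ^ k))) := by
  haveI : NeZero (p ^ k) := ⟨pow_ne_zero k (Fact.out : p.Prime).ne_zero⟩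
  exact IsPGroup.of_card (n := k) (by rw [Nat.card_congr Multiplicative.toAdd, Nat.card_zmod])

/-! ### (A3) -/

section OO

variable {R : Type*} [CommRing R] (ι : R →+* ℂ)

/-- the integral closure of `R` in `ℂ`. -/
def OO : Subring ℂ :=
  letI := ι.toAlgebra
  (integralClosure R ℂ).toSubring

theorem mem_OO_iff {z : ℂ} : z ∈ OO ι ↔ ι.IsIntegralElem z := Iff.rfl

theorem map_mem_OO (a : R) : ι a ∈ OO ι := by
  letI := ι.toAlgebra
  exact isIntegral_algebraMap (R := R) (A := ℂ) (x := a)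

/-- the structure map -/
def toOO : R →+* OO ι := ι.codRestrict (OO ι) (map_mem_OO ι)

@[simp] theorem coe_toOO (a : R) : ((toOO ι a : OO ι) : ℂ) = ι a := rfl

theorem toOO_isIntegral : (toOO ι).IsIntegral := by
  intro z
  obtain ⟨P, hP, hz⟩ := z.2
  refine ⟨P, hP, ?_⟩
  apply Subtype.val_injective
  have h1 := Polynomial.hom_eval₂ P (toOO ι) (OO ι).subtype z
  have h2 : (OO ι).subtype.comp (toOO ι) = ι := RingHom.ext fun a => rfl
  rw [h2] at h1
  exact h1.trans hz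

instance : CharZero (OO ι) :=
  ⟨fun a b h => by
    have h1 := congrArg Subtype.val h
    simpa using h1⟩

instance : IsIntegrallyClosed (OO ι) := by
  letI : Algebra R (OO ι) := (toOO ι).toAlgebra
  letI : Algebra R ℂ := ι.toAlgebra
  haveI : IsScalarTower R (OO ι) ℂ := IsScalarTower.of_algebraMap_eq fun a => rfl
  haveI : Algebra.IsIntegral R (OO ι) := ⟨toOO_isIntegral ι⟩
  rw [isIntegrallyClosed_iff (FractionRing (OO ι))]
  intro x hx
  let g : FractionRing (OO ι) →+* ℂ :=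
    IsFractionRing.lift (A := OO ι) (K := FractionRing (OO ι)) (g := (OO ι).subtype)
      Subtype.val_injective
  have hg : ∀ a : OO ι, g (algebraMap (OO ι) (FractionRing (OO ι)) a) = (a : ℂ) := fun a =>
    IsFractionRing.lift_algebraMap _ a
  let g' : FractionRing (OO ι) →ₐ[OO ι] ℂ := { g with commutes' := hg }
  have h1 : IsIntegral (OO ι) (g x) := hx.map g'
  have h2 : IsIntegral R (g x) := isIntegral_trans (g x) h1
  refine ⟨⟨g x, h2⟩, ?_⟩
  apply g.injective
  rw [hg]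

variable [IsDomain R] {Δ : Type*} [CommGroup Δ] [Fintype Δ] (ψ : Δ →* ℂˣ)

theorem chiO_mem_OO (x : MonoidAlgebra R Δ) : chiO ι ψ x ∈ OO ι := by
  classical
  letI : Algebra R ℂ := ι.toAlgebra
  have h0 : ∀ a : R, chiO ι ψ (algebraMap R (MonoidAlgebra R Δ) a) = ι a := by
    intro a
    rw [MonoidAlgebra.coe_algebraMap, Function.comp_apply, chiO_single, map_one, Units.val_one,
      mul_one]
    rfl
  let f : MonoidAlgebra R Δ →ₐ[R] ℂ := { chiO ι ψ with commutes' := h0 }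
  have h1 : IsIntegral R x := by
    have : Module.Finite R (MonoidAlgebra R Δ) := inferInstance
    exact Algebra.IsIntegral.isIntegral x
  exact h1.map f

/-- the character with values in the ring of integers -/
def chiOO : MonoidAlgebra R Δ →+* OO ι := (chiO ι ψ).codRestrict (OO ι) (chiO_mem_OO ι ψ)

@[simp] theorem coe_chiOO (x : MonoidAlgebra R Δ) : ((chiOO ι ψ x : OO ι) : ℂ) = chiO ι ψ x := rfl

theorem ker_chiOO : RingHom.ker (chiOO ι ψ) = RingHom.ker (chiO ι ψ) := by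
  ext x
  rw [RingHom.mem_ker, RingHom.mem_ker, ← coe_chiOO, ← Subtype.coe_inj]
  rfl

theorem chiOO_comp (a : R) : chiOO ι ψ (algebraMap R (MonoidAlgebra R Δ) a) = toOO ι a := by
  apply Subtype.ext
  rw [coe_chiOO, MonoidAlgebra.coe_algebraMap, Function.comp_apply, chiO_single, map_one,
    Units.val_one, mul_one]
  rfl

theorem chiOO_isIntegral : (chiOO ι ψ).IsIntegral := by
  have h1 : (chiOO ι ψ).comp (algebraMap R (MonoidAlgebra R Δ)) = toOO ι :=
    RingHom.ext (chiOO_comp ι ψ)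
  have h2 := toOO_isIntegral ι
  rw [← h1] at h2
  exact h2.tower_top _ _

theorem isLocalHom_chiOO [IsLocalRing (MonoidAlgebra R Δ)] : IsLocalHom (chiOO ι ψ) := by
  letI : Algebra (MonoidAlgebra R Δ) (OO ι) := (chiOO ι ψ).toAlgebra
  haveI : Algebra.IsIntegral (MonoidAlgebra R Δ) (OO ι) := ⟨chiOO_isIntegral ι ψ⟩
  constructor
  intro a ha
  by_contra hcon
  have h1 : RingHom.ker (algebraMap (MonoidAlgebra R Δ) (OO ι)) ≤
      maximalIdeal (MonoidAlgebra R Δ) := by
    refine IsLocalRing.le_maximalIdeal ?_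
    exact RingHom.ker_ne_top _
  obtain ⟨Q, hQ, hQ2⟩ := Ideal.exists_ideal_over_maximal_of_isIntegral (S := OO ι)
    (maximalIdeal (MonoidAlgebra R Δ)) h1
  have h2 : a ∈ maximalIdeal (MonoidAlgebra R Δ) := (mem_maximalIdeal a).2 hcon
  rw [← hQ2, Ideal.mem_comap] at h2
  exact hQ.ne_top (Ideal.eq_top_of_isUnit_mem _ h2 ha)

theorem isUnit_natCast_OO {r : ℕ} (hr : IsUnit (r : R)) : IsUnit ((r : ℕ) : OO ι) := by
  have := hr.map (toOO ι)
  rwa [map_natCast] at this

/-- a character of order `p` -/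
theorem exists_psi {p : ℕ} (hp : p ≠ 0) (hp1 : p ≠ 1) {δ : Δ}
    (hδ : ∀ x, x ∈ Subgroup.zpowers δ)
    (hpd : p ∣ orderOf δ) : ∃ ψ : Δ →* ℂˣ, ψ ≠ 1 ∧ IsPrimitiveRoot ((ψ δ : ℂˣ) : ℂ) p := by
  have h0 := Complex.isPrimitiveRoot_exp p hp
  set z : ℂˣ := (h0.isUnit hp).unit with hz
  have hz1 : ((z : ℂˣ) : ℂ) = Complex.exp (2 * Real.pi * Complex.I / p) := rfl
  have h1 : IsPrimitiveRoot z p := by
    rw [← IsPrimitiveRoot.coe_units_iff]
    exact h0
  have h2 : orderOf z ∣ orderOf δ := by rwa [← h1.eq_orderOf]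
  refine ⟨monoidHomOfForallMemZpowers hδ h2, ?_, ?_⟩
  · intro h
    have h3 : monoidHomOfForallMemZpowers hδ h2 δ = z := monoidHomOfForallMemZpowers_apply_gen hδ h2
    rw [h, MonoidHom.one_apply] at h3
    have h4 := h1
    rw [← h3] at h4
    exact hp1 (h4.unique IsPrimitiveRoot.one)
  · rw [monoidHomOfForallMemZpowers_apply_gen hδ h2]
    exact h0

/-- the primitive root in the ring of integers -/
theorem exists_zeta_OO {p : ℕ} {δ : Δ} (hz : IsPrimitiveRoot ((ψ δ : ℂˣ) : ℂ) p) :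
    ∃ ζ : OO ι, IsPrimitiveRoot ζ p ∧ chiOO ι ψ (gr R Δ δ - 1) = ζ - 1 := by
  have h1 : chiO ι ψ (gr R Δ δ) = ((ψ δ : ℂˣ) : ℂ) := by
    rw [gr, MonoidAlgebra.of_apply, chiO_single, map_one, one_mul]
  refine ⟨chiOO ι ψ (gr R Δ δ), ?_, ?_⟩
  · have h2 : IsPrimitiveRoot ((chiOO ι ψ (gr R Δ δ) : OO ι) : ℂ) p := by
      rw [coe_chiOO, h1]; exact hz
    exact IsPrimitiveRoot.of_map_of_injective (f := (OO ι).subtype) h2 Subtype.val_injective
  · rw [map_sub, map_one]

end OO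

end Fermat.Agent.Ribet

end
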