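import Mathlib

/-!
# The key lemma (KL) of cluster RIBET: the algebra of road A

`W` = `n`-torsion at level `Γ_Δ` localised at a non-Eisenstein maximal ideal, `δ` a generator of the
diamond group, `w = δ - 1`, `σ` a generator of tame inertia at `q`, `φ` a Frobenius, `U = U_q`,
`K₁, K₂` the kernels of the two specialisation maps, `ε = ± 1` the eigenvalue of `U_q` modulo `w`.
Then `φ - ε = -2 y (σ - 1)` modulo `w`, where `U = ε + w y`.
-/

set_option autoImplicit false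

namespace Fermat.Agent.Ribet

/-- Hypotheses of (KL). -/
structure KLData (W : Type*) [AddCommGroup W] where
  δ : W →+ W
  σ : W →+ W
  φ : W →+ W
  U : W →+ W
  K₁ : AddSubgroup W
  K₂ : AddSubgroup W
  ε : ℤ
  q : ℤ
  εε : ε * ε = 1
  q_smul : ∀ x : W, q • x = x
  σδ : ∀ x, σ (δ x) = δ (σ x)
  φδ : ∀ x, φ (δ x) = δ (φ x)
  Uδ : ∀ x, U (δ x) = δ (U x)
  Uσ : ∀ x, U (σ x) = σ (U x)
  δ₁ : ∀ x ∈ K₁, δ x ∈ K₁
  σ₁ : ∀ x ∈ K₁, σ x ∈ K₁
  φ₁ : ∀ x ∈ K₁, φ x ∈ K₁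
  φ₂ : ∀ x ∈ K₂, φ x ∈ K₂
  a : ∀ x, σ x - x ∈ K₁
  b : ∀ x, σ x - δ x ∈ K₂
  c : ∀ x ∈ K₁, x ∈ K₂ → δ x = x
  d : ∀ x, φ x - U x ∈ K₁
  e : ∀ x ∈ K₁, φ (U x) - q • x ∈ K₂
  /-- the `δ`-invariants are in the image of `(δ - 1)²` -/
  surj : ∀ x, δ x = x → ∃ z, x = δ (δ z - z) - (δ z - z)
  /-- `U = ε` modulo `δ - 1` -/
  Uε : ∀ x, ∃ z, U x - ε • x = δ z - z

namespace KLData

variable {W : Type*} [AddCommGroup W] (D : KLData W)

/-- `w = δ - 1` -/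
def w : W →+ W := D.δ - AddMonoidHom.id W

lemma w_apply (x : W) : D.w x = D.δ x - x := rfl

lemma U₁ {x : W} (hx : x ∈ D.K₁) : D.U x ∈ D.K₁ := by
  have h := D.K₁.sub_mem (D.φ₁ x hx) (D.d x)
  rwa [sub_sub_cancel] at h

lemma σw (x : W) : D.σ (D.w x) = D.w (D.σ x) := by
  rw [w_apply, w_apply, map_sub, D.σδ]

lemma φw (x : W) : D.φ (D.w x) = D.w (D.φ x) := by
  rw [w_apply, w_apply, map_sub, D.φδ]

lemma Uw (x : W) : D.U (D.w x) = D.w (D.U x) := by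
  rw [w_apply, w_apply, map_sub, D.Uδ]

lemma εε_smul (x : W) : D.ε • D.ε • x = x := by
  rw [smul_smul, D.εε, one_smul]

/-- `ker w ⊆ w² W` -/
lemma ker_le {x : W} (hx : D.w x = 0) : ∃ z, x = D.w (D.w z) := by
  obtain ⟨z, hz⟩ := D.surj x (by rw [w_apply, sub_eq_zero] at hx; exact hx)
  exact ⟨z, hz⟩

lemma inter_le {x : W} (h1 : x ∈ D.K₁) (h2 : x ∈ D.K₂) : ∃ z, x = D.w (D.w z) := by
  refine D.ker_le ?_
  rw [w_apply, D.c x h1 h2, sub_self]

/-- `(σ - 1)(φ - U) = w (φ - U)` modulo `w²`. -/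
lemma AB (x : W) : ∃ t, D.σ (D.φ x - D.U x) - (D.φ x - D.U x) =
    D.w (D.φ x - D.U x) + D.w (D.w t) := by
  set u := D.φ x - D.U x with hu
  have hu1 : u ∈ D.K₁ := D.d x
  obtain ⟨t, ht⟩ := D.inter_le (D.K₁.sub_mem (D.σ₁ u hu1) (D.δ₁ u hu1)) (D.b u)
  refine ⟨t, ?_⟩
  rw [← ht, w_apply]
  abel

/-- `φ U = 1` modulo `w²` on `(σ - 1) W`. -/
lemma φU (x : W) : ∃ t, D.φ (D.U (D.σ x - x)) = (D.σ x - x) + D.w (D.w t) := by
  have h1 : D.σ x - x ∈ D.K₁ := D.a x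
  obtain ⟨t, ht⟩ := D.inter_le (x := D.φ (D.U (D.σ x - x)) - D.q • (D.σ x - x))
    (D.K₁.sub_mem (D.φ₁ _ (D.U₁ h1)) (D.K₁.zsmul_mem h1 _)) (D.e _ h1)
  refine ⟨t, ?_⟩
  rw [← ht, D.q_smul]
  abel

/-- `φ σ = σ φ` modulo `w²`. -/
lemma comm (x : W) : ∃ t, D.φ (D.σ x - x) = (D.σ (D.φ x) - D.φ x) + D.w (D.w t) := by
  have h1 : D.φ (D.σ x - x) - (D.σ (D.φ x) - D.φ x) ∈ D.K₁ :=
    D.K₁.sub_mem (D.φ₁ _ (D.a x)) (D.a _)
  have h2 : D.φ (D.σ x - x) - (D.σ (D.φ x) - D.φ x) ∈ D.K₂ := by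
    have h3 := D.K₂.sub_mem (D.φ₂ _ (D.b x)) (D.b (D.φ x))
    have e : D.φ (D.σ x - D.δ x) - (D.σ (D.φ x) - D.δ (D.φ x)) =
        D.φ (D.σ x - x) - (D.σ (D.φ x) - D.φ x) := by
      rw [map_sub, map_sub, D.φδ]; abel
    rwa [e] at h3
  obtain ⟨t, ht⟩ := D.inter_le h1 h2
  refine ⟨t, ?_⟩
  rw [← ht]; abel

/-- `φ = ε` modulo `w` on `(σ - 1) W`. -/
lemma φε (x : W) : ∃ t, D.φ (D.σ x - x) = D.ε • (D.σ x - x) + D.w t := by
  obtain ⟨z, hz⟩ := D.Uε (D.σ x - x)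
  obtain ⟨t, ht⟩ := D.φU x
  have hU : D.U (D.σ x - x) = D.ε • (D.σ x - x) + D.w z := by
    rw [w_apply, ← hz]; abel
  rw [hU] at ht
  obtain ⟨v, hv⟩ : ∃ v, v = D.σ x - x := ⟨_, rfl⟩
  rw [← hv] at ht ⊢
  rw [map_add, map_zsmul, D.φw] at ht
  refine ⟨D.ε • (D.w t - D.φ z), ?_⟩
  rw [map_zsmul, map_sub]
  have h2 : D.ε • D.φ v = v + D.w (D.w t) - D.w (D.φ z) := by
    rw [← ht]; abel
  calc D.φ v = D.ε • D.ε • D.φ v := (D.εε_smul _).symm
    _ = D.ε • (v + D.w (D.w t) - D.w (D.φ z)) := by rw [h2]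
    _ = _ := by rw [smul_sub, smul_add, smul_sub]; abel

/-- **(KL)**: if `U x = ε x + w z` then `φ x - ε x = - 2 (σ z - z)` modulo `w`. -/
theorem main {x z : W} (hz : D.U x - D.ε • x = D.w z) :
    ∃ t, D.φ x - D.ε • x + (2 : ℤ) • (D.σ z - z) = D.w t := by
  -- `v = (σ - 1) x`, `z' = (σ - 1) z`
  obtain ⟨v, hv⟩ : ∃ v, v = D.σ x - x := ⟨_, rfl⟩
  obtain ⟨z', hz'⟩ : ∃ z', z' = D.σ z - z := ⟨_, rfl⟩
  rw [← hz']
  have hUv : D.U v = D.ε • v + D.w z' := by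
    have e1 : D.U v - D.ε • v = D.σ (D.U x - D.ε • x) - (D.U x - D.ε • x) := by
      rw [hv, map_sub, D.Uσ, map_sub, map_zsmul, smul_sub]; abel
    have e2 : D.U v - D.ε • v = D.w z' := by
      rw [e1, hz, D.σw, hz', map_sub]
    rw [← e2]; abel
  -- `φ v = ε v - ε w φ z'` modulo `w²`
  obtain ⟨t₁, ht₁⟩ := D.φU x
  rw [← hv, hUv, map_add, map_zsmul, D.φw] at ht₁
  obtain ⟨t₂, ht₂⟩ := D.φε z
  rw [← hz'] at ht₂
  obtain ⟨t₃, ht₃⟩ := D.AB x
  obtain ⟨t₄, ht₄⟩ := D.comm x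
  rw [← hv] at ht₄
  have h1 : D.φ v = D.ε • v + D.ε • D.w (D.w t₁) - D.ε • D.w (D.φ z') := by
    have h2 : D.ε • D.φ v = v + D.w (D.w t₁) - D.w (D.φ z') := by
      rw [← ht₁]; abel
    calc D.φ v = D.ε • D.ε • D.φ v := (D.εε_smul _).symm
      _ = D.ε • (v + D.w (D.w t₁) - D.w (D.φ z')) := by rw [h2]
      _ = _ := by rw [smul_sub, smul_add]
  -- `(φ - U) v = - 2 w z'` modulo `w²`
  have h2 : D.φ v - D.U v = - ((2 : ℤ) • D.w z') + D.w (D.w (D.ε • t₁ - D.ε • t₂)) := by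
    have e1 : D.ε • D.w (D.φ z') = D.w z' + D.ε • D.w (D.w t₂) := by
      rw [ht₂, map_add, map_zsmul, smul_add, D.εε_smul]
    rw [h1, hUv, e1, map_sub, map_sub, map_zsmul, map_zsmul, map_zsmul, map_zsmul, two_zsmul]
    abel
  -- `(σ - 1)(φ - U) x = (φ - U)(σ - 1) x` modulo `w²`
  have h3 : D.σ (D.φ x - D.U x) - (D.φ x - D.U x) = D.φ v - D.U v - D.w (D.w t₄) := by
    rw [ht₄, hv, map_sub, map_sub, D.Uσ]; abel
  -- hence `w ((φ - U) x + 2 z' - w t) = 0`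
  have h4 : D.w (D.φ x - D.U x + (2 : ℤ) • z' - D.w (D.ε • t₁ - D.ε • t₂ - t₄ - t₃)) = 0 := by
    have h5 : D.w (D.φ x - D.U x) = D.φ v - D.U v - D.w (D.w t₄) - D.w (D.w t₃) := by
      rw [← h3, ht₃]; abel
    rw [map_sub, map_add, map_zsmul, h5, h2]
    simp only [map_sub, map_zsmul]
    abel
  obtain ⟨s, hs⟩ := D.ker_le h4
  refine ⟨z + (D.ε • t₁ - D.ε • t₂ - t₄ - t₃) + D.w s, ?_⟩
  have h6 : D.φ x - D.ε • x = D.φ x - D.U x + D.w z := by rw [← hz]; abel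
  rw [h6, map_add, map_add, ← hs]
  abel

/-- the image of `w` -/
abbrev wW : AddSubgroup W := D.w.range

/-- the relation `U x = ε x + w z` determines `z` modulo `w W`. -/
lemma unique {x z z' : W} (h : D.U x - D.ε • x = D.w z) (h' : D.U x - D.ε • x = D.w z') :
    z - z' ∈ D.wW := by
  have : D.w (z - z') = 0 := by rw [map_sub, ← h, ← h', sub_self]
  obtain ⟨s, hs⟩ := D.ker_le this
  exact ⟨D.w s, hs.symm⟩

/-- The operator `y` on `W / w W`, with `U = ε + w y`. -/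
noncomputable def y : W ⧸ D.wW →+ W ⧸ D.wW :=
  QuotientAddGroup.lift D.wW
    { toFun := fun x => QuotientAddGroup.mk (D.Uε x).choose
      map_zero' := by
        rw [QuotientAddGroup.eq_zero_iff]
        have h := D.unique (x := 0) (z := (D.Uε 0).choose) (z' := 0) (D.Uε 0).choose_spec
          (by simp)
        rwa [sub_zero] at h
      map_add' := fun x y => by
        rw [← QuotientAddGroup.mk_add, QuotientAddGroup.eq_iff_sub_mem]
        refine D.unique (x := x + y) (D.Uε (x + y)).choose_spec ?_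
        rw [map_add, smul_add, map_add, w_apply, w_apply, ← (D.Uε x).choose_spec,
          ← (D.Uε y).choose_spec]
        abel }
    (by
      rintro _ ⟨x, rfl⟩
      simp only [AddMonoidHom.mem_ker, AddMonoidHom.coe_mk, ZeroHom.coe_mk]
      rw [QuotientAddGroup.eq_zero_iff]
      have h := D.unique (x := D.w x) (z := (D.Uε (D.w x)).choose) (z' := D.U x - D.ε • x)
        (D.Uε (D.w x)).choose_spec (by rw [D.Uw, map_sub, map_zsmul])
      have h2 : D.U x - D.ε • x ∈ D.wW := by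
        obtain ⟨z, hz⟩ := D.Uε x
        exact ⟨z, hz.symm⟩
      have := D.wW.add_mem h h2
      rwa [sub_add_cancel] at this)

lemma y_mk {x z : W} (h : D.U x - D.ε • x = D.w z) :
    D.y (QuotientAddGroup.mk x) = QuotientAddGroup.mk z := by
  change QuotientAddGroup.mk (D.Uε x).choose = _
  rw [QuotientAddGroup.eq_iff_sub_mem]
  exact D.unique (D.Uε x).choose_spec h

/-- `y` commutes with every operator commuting with `δ` and `U`. -/
lemma y_comm {g : W →+ W} (hδ : ∀ x, g (D.δ x) = D.δ (g x)) (hU : ∀ x, g (D.U x) = D.U (g x))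
    {x z : W} (h : D.y (QuotientAddGroup.mk x) = QuotientAddGroup.mk z) :
    D.y (QuotientAddGroup.mk (g x)) = QuotientAddGroup.mk (g z) := by
  obtain ⟨z₀, hz₀⟩ := D.Uε x
  have h1 := D.y_mk hz₀
  rw [h, QuotientAddGroup.eq_iff_sub_mem] at h1
  obtain ⟨s, hs⟩ := h1
  have hgw : ∀ x, g (D.w x) = D.w (g x) := fun x => by rw [w_apply, w_apply, map_sub, hδ]
  have h2 : D.U (g x) - D.ε • g x = D.w (g z₀) := by
    rw [← hU, ← map_zsmul, ← map_sub, hz₀, ← w_apply, hgw]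
  rw [D.y_mk h2, QuotientAddGroup.eq_iff_sub_mem]
  refine ⟨- g s, ?_⟩
  rw [map_neg, ← hgw, hs, map_sub, neg_sub]

/-- **(KL)**: `φ - ε = - 2 y (σ - 1)` on `W / w W`. -/
theorem kl (x : W) : (QuotientAddGroup.mk (D.φ x - D.ε • x) : W ⧸ D.wW) =
    - ((2 : ℤ) • D.y (QuotientAddGroup.mk (D.σ x - x))) := by
  obtain ⟨z, hz⟩ := D.Uε x
  obtain ⟨t, ht⟩ := D.main (x := x) (z := z) hz
  have h1 : D.U (D.σ x - x) - D.ε • (D.σ x - x) = D.w (D.σ z - z) := by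
    have e1 : D.U (D.σ x - x) - D.ε • (D.σ x - x) =
        D.σ (D.U x - D.ε • x) - (D.U x - D.ε • x) := by
      rw [map_sub, D.Uσ, map_sub, map_zsmul, smul_sub]; abel
    rw [e1, hz, ← w_apply, D.σw, map_sub]
  rw [D.y_mk h1, ← QuotientAddGroup.mk_zsmul, ← QuotientAddGroup.mk_neg,
    QuotientAddGroup.eq_iff_sub_mem]
  refine ⟨t, ?_⟩
  rw [← ht]; abel

end KLData

section norm

variable {R : Type*} [Ring R]

lemma pow_expand (w : R) (n : ℕ) : ∃ s : R, (1 + w) ^ n = 1 + n • w + w * (w * s) := by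
  induction n with
  | zero => exact ⟨0, by simp⟩
  | succ n ih =>
    obtain ⟨s, hs⟩ := ih
    refine ⟨n • (1 : R) + s * (1 + w), ?_⟩
    rw [pow_succ, hs]
    simp only [mul_add, add_mul, mul_one, one_mul, smul_mul_assoc, mul_smul_comm, add_smul,
      one_smul, mul_assoc]
    abel

lemma norm_expand (w : R) (n : ℕ) : ∃ s : R,
    ∑ i ∈ Finset.range n, (1 + w) ^ i = n • (1 : R) + (n.choose 2) • w + w * (w * s) := by
  induction n with
  | zero => exact ⟨0, by simp⟩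
  | succ n ih =>
    obtain ⟨s, hs⟩ := ih
    obtain ⟨s', hs'⟩ := pow_expand w n
    refine ⟨s + s', ?_⟩
    rw [Finset.sum_range_succ, hs, hs', Nat.choose_succ_succ, Nat.choose_one_right, add_smul,
      add_smul, one_smul]
    noncomm_ring

end norm

/-- for `n` odd killing `W`, the norm `∑_{i<n} δ^i` is divisible by `(δ - 1)²`. -/
lemma norm_eq {W : Type*} [AddCommGroup W] (δ : W →+ W) {n : ℕ} (hodd : Odd n)
    (hn : ∀ x : W, n • x = 0) (x : W) :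
    ∃ z, ∑ i ∈ Finset.range n, (δ^[i]) x = δ (δ z - z) - (δ z - z) := by
  let d : AddMonoid.End W := δ
  obtain ⟨s, hs⟩ := norm_expand (d - 1) n
  rw [add_sub_cancel] at hs
  refine ⟨s x, ?_⟩
  have h1 := congrArg (fun f : AddMonoid.End W => f x) hs
  have h2 : ∀ m : ℕ, (∑ i ∈ Finset.range m, d ^ i) x = ∑ i ∈ Finset.range m, (δ^[i]) x := by
    intro m
    induction m with
    | zero => simp
    | succ m ih =>
      rw [Finset.sum_range_succ, Finset.sum_range_succ, ← ih]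
      change _ + (d ^ m) x = _
      rw [AddMonoid.End.coe_pow]
      rfl
  obtain ⟨m, hm⟩ := hodd
  have h3 : n.choose 2 = m * n := by
    rw [Nat.choose_two_right, hm, Nat.add_sub_cancel, mul_comm, mul_assoc,
      Nat.mul_div_cancel_left _ (by norm_num : 0 < 2)]
  have h4 : (n • (1 : AddMonoid.End W) + (n.choose 2) • (d - 1)) x = 0 := by
    change n • x + (n.choose 2) • (δ x - x) = 0
    rw [h3, mul_smul, hn, hn, smul_zero, add_zero]
  change (∑ i ∈ Finset.range n, d ^ i) x = (n • (1 : AddMonoid.End W) +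
    (n.choose 2) • (d - 1)) x + ((d - 1) * ((d - 1) * s)) x at h1
  rw [h2, h4, zero_add] at h1
  rw [h1]
  rfl

end Fermat.Agent.Ribet
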