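import Mathlib

/-!
# The toric part is formal (cluster RIBET)

`W` = `n`-torsion at level `Γ_Δ` localised at a non-Eisenstein maximal ideal, `δ` a generator of the
diamond group `Δ`, `σ` a generator of tame inertia at `q`, `K₁, K₂` the kernels of the two
specialisation maps.  The only geometric input is the bound on the toric part at level `N`,
i.e. on the `δ`-invariants.
-/

set_option autoImplicit false

namespace Fermat.Agent.Ribet

variable {W : Type*} [AddCommGroup W]

/-- Hypotheses of the formal argument. -/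
structure ToricData (W : Type*) [AddCommGroup W] where
  δ : W →+ W
  σ : W →+ W
  K₁ : AddSubgroup W
  K₂ : AddSubgroup W
  comm : ∀ x, σ (δ x) = δ (σ x)
  /-- `δ - 1` is nilpotent -/
  nil : ∀ x, ∃ N : ℕ, ((δ - AddMonoidHom.id W)^[N]) x = 0
  /-- the `δ`-invariants are in the image of `δ - 1` -/
  surj : ∀ y, δ y = y → ∃ z, δ z - z = y
  stab₁ : ∀ x ∈ K₁, δ x ∈ K₁
  stab₂ : ∀ x ∈ K₂, δ x ∈ K₂
  a : ∀ x, σ x - x ∈ K₁
  b : ∀ x, σ x - δ x ∈ K₂
  inter : ∀ x, δ x = x → (x ∈ K₁ ↔ x ∈ K₂)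

namespace ToricData

variable (D : ToricData W)

/-- the `δ`-invariants -/
def W₀ : AddSubgroup W where
  carrier := {x | D.δ x = x}
  zero_mem' := map_zero _
  add_mem' := fun {x y} hx hy => by
    have hx' : D.δ x = x := hx
    have hy' : D.δ y = y := hy
    show D.δ (x + y) = x + y
    rw [map_add, hx', hy']
  neg_mem' := fun {x} hx => by
    have hx' : D.δ x = x := hx
    show D.δ (-x) = -x
    rw [map_neg, hx']

theorem mem_W₀ {x : W} : x ∈ D.W₀ ↔ D.δ x = x := Iff.rfl

/-- the toric part -/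
def T₀ : AddSubgroup W := D.W₀ ⊓ D.K₁

theorem mem_T₀ {x : W} : x ∈ D.T₀ ↔ D.δ x = x ∧ x ∈ D.K₁ := Iff.rfl

theorem σ_mem_W₀ {x : W} (hx : D.δ x = x) : D.δ (D.σ x) = D.σ x := by
  rw [← D.comm, hx]

theorem sub_mem_T₀ {x : W} (hx : D.δ x = x) : D.σ x - x ∈ D.T₀ := by
  refine ⟨?_, D.a x⟩
  show D.δ (D.σ x - x) = D.σ x - x
  rw [map_sub, D.σ_mem_W₀ hx, hx]

theorem mem_T₀_of_σ {x : W} (hx : D.δ x = x) (hσ : D.σ x = x) : x ∈ D.T₀ := by
  obtain ⟨z, hz⟩ := D.surj x hx
  have hδz : D.δ z = z + x := by rw [← hz]; abel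
  have hσδ : D.δ (D.σ z - z) = D.σ z - z := by
    rw [map_sub, ← D.comm, hδz, map_add, hσ]; abel
  have h1 : D.σ z - z ∈ D.K₂ := (D.inter _ hσδ).mp (D.a z)
  have h2 : D.σ z - D.δ z ∈ D.K₂ := D.b z
  have h3 : x ∈ D.K₂ := by
    have := D.K₂.sub_mem h1 h2
    have e : D.σ z - z - (D.σ z - D.δ z) = x := by rw [hδz]; abel
    rwa [e] at this
  exact ⟨hx, (D.inter _ hx).mpr h3⟩

/-- `σ - 1` on the invariants -/
def S : D.W₀ →+ D.W₀ where
  toFun x := ⟨D.σ x - x, (D.sub_mem_T₀ x.2).1⟩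
  map_zero' := by ext; simp
  map_add' x y := by ext; simp; abel

@[simp] theorem coe_S (x : D.W₀) : (D.S x : W) = D.σ x - x := rfl

variable [Finite W]

theorem card_le : Nat.card D.W₀ ≤ Nat.card D.T₀ ^ 2 := by
  classical
  have h1 : Nat.card D.W₀ = Nat.card D.S.ker * Nat.card D.S.range := by
    rw [AddSubgroup.card_eq_card_quotient_mul_card_addSubgroup D.S.ker, mul_comm]
    congr 1
    exact Nat.card_congr (QuotientAddGroup.quotientKerEquivRange D.S).toEquiv
  have h2 : Nat.card D.S.ker ≤ Nat.card D.T₀ := by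
    refine Nat.card_le_card_of_injective (fun x => ⟨(x : D.W₀), ?_⟩) ?_
    · refine D.mem_T₀_of_σ x.1.2 ?_
      have := x.2
      rw [AddMonoidHom.mem_ker] at this
      have h := congrArg (fun y : D.W₀ => (y : W)) this
      simpa [sub_eq_zero] using h
    · intro x y h
      have := congrArg (fun z : D.T₀ => (z : W)) h
      exact Subtype.ext (Subtype.ext this)
  have h3 : Nat.card D.S.range ≤ Nat.card D.T₀ := by
    refine Nat.card_le_card_of_injective (fun x => ⟨(x : D.W₀), ?_⟩) ?_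
    · obtain ⟨y, hy⟩ := x.2
      rw [← hy, coe_S]
      exact D.sub_mem_T₀ y.2
    · intro x y h
      have := congrArg (fun z : D.T₀ => (z : W)) h
      exact Subtype.ext (Subtype.ext this)
  rw [h1, sq]
  exact Nat.mul_le_mul h2 h3

/-- (E): if the toric part is at most one half of the invariants, it is the kernel and the image
of `σ - 1`. -/
theorem E (hcard : Nat.card D.T₀ ^ 2 ≤ Nat.card D.W₀) :
    (∀ x, x ∈ D.T₀ ↔ (D.δ x = x ∧ D.σ x = x)) ∧
    (∀ x, x ∈ D.T₀ ↔ ∃ y, D.δ y = y ∧ D.σ y - y = x) := by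
  classical
  have h1 : Nat.card D.W₀ = Nat.card D.S.ker * Nat.card D.S.range := by
    rw [AddSubgroup.card_eq_card_quotient_mul_card_addSubgroup D.S.ker, mul_comm]
    congr 1
    exact Nat.card_congr (QuotientAddGroup.quotientKerEquivRange D.S).toEquiv
  let f : D.S.ker → D.T₀ := fun x => ⟨(x : D.W₀), by
    refine D.mem_T₀_of_σ x.1.2 ?_
    have := x.2
    rw [AddMonoidHom.mem_ker] at this
    have h := congrArg (fun y : D.W₀ => (y : W)) this
    simpa [sub_eq_zero] using h⟩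
  let g : D.S.range → D.T₀ := fun x => ⟨(x : D.W₀), by
    obtain ⟨y, hy⟩ := x.2
    rw [← hy, coe_S]
    exact D.sub_mem_T₀ y.2⟩
  have hf : Function.Injective f := by
    intro x y h
    have := congrArg (fun z : D.T₀ => (z : W)) h
    exact Subtype.ext (Subtype.ext this)
  have hg : Function.Injective g := by
    intro x y h
    have := congrArg (fun z : D.T₀ => (z : W)) h
    exact Subtype.ext (Subtype.ext this)
  have h2 : Nat.card D.S.ker ≤ Nat.card D.T₀ := Nat.card_le_card_of_injective f hf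
  have h3 : Nat.card D.S.range ≤ Nat.card D.T₀ := Nat.card_le_card_of_injective g hg
  have hpos : 0 < Nat.card D.T₀ := Nat.card_pos
  have e1 : Nat.card D.S.ker = Nat.card D.T₀ := by
    refine le_antisymm h2 ?_
    by_contra hlt
    push Not at hlt
    have : Nat.card D.S.ker * Nat.card D.S.range < Nat.card D.T₀ ^ 2 := by
      rw [sq]
      calc Nat.card D.S.ker * Nat.card D.S.range ≤ Nat.card D.S.ker * Nat.card D.T₀ :=
            Nat.mul_le_mul_left _ h3
        _ < _ := Nat.mul_lt_mul_of_pos_right hlt hpos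
    omega
  have e2 : Nat.card D.S.range = Nat.card D.T₀ := by
    refine le_antisymm h3 ?_
    by_contra hlt
    push Not at hlt
    have : Nat.card D.S.ker * Nat.card D.S.range < Nat.card D.T₀ ^ 2 := by
      rw [sq]
      calc Nat.card D.S.ker * Nat.card D.S.range ≤ Nat.card D.T₀ * Nat.card D.S.range :=
            Nat.mul_le_mul_right _ h2
        _ < _ := Nat.mul_lt_mul_of_pos_left hlt hpos
    omega
  have bf : Function.Bijective f := (Nat.bijective_iff_injective_and_card f).mpr ⟨hf, e1⟩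
  have bg : Function.Bijective g := (Nat.bijective_iff_injective_and_card g).mpr ⟨hg, e2⟩
  refine ⟨fun x => ⟨fun hx => ?_, fun hx => D.mem_T₀_of_σ hx.1 hx.2⟩,
    fun x => ⟨fun hx => ?_, ?_⟩⟩
  · obtain ⟨y, hy⟩ := bf.2 ⟨x, hx⟩
    have hyx : ((y : D.W₀) : W) = x := congrArg (fun z : D.T₀ => (z : W)) hy
    have hy2 := y.2
    rw [AddMonoidHom.mem_ker] at hy2
    have h := congrArg (fun y : D.W₀ => (y : W)) hy2
    refine ⟨hx.1, ?_⟩
    rw [← hyx]
    simpa [sub_eq_zero] using h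
  · obtain ⟨y, hy⟩ := bg.2 ⟨x, hx⟩
    have hyx : ((y : D.W₀) : W) = x := congrArg (fun z : D.T₀ => (z : W)) hy
    obtain ⟨v, hv⟩ := y.2
    refine ⟨v, v.2, ?_⟩
    rw [← hyx, ← hv, coe_S]
  · rintro ⟨y, hy, rfl⟩
    exact D.sub_mem_T₀ hy

/-- (c): `K₁ ∩ K₂` consists of `δ`-invariants. -/
theorem c (hcard : Nat.card D.T₀ ^ 2 ≤ Nat.card D.W₀) (x : W) (h1 : x ∈ D.K₁) (h2 : x ∈ D.K₂) :
    D.δ x = x := by
  obtain ⟨hE1, hE2⟩ := D.E hcard
  -- the case `(δ-1)² x = 0`
  have key : ∀ x : W, x ∈ D.K₁ → x ∈ D.K₂ → D.δ (D.δ x - x) = D.δ x - x → D.δ x = x := by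
    intro x h1 h2 h
    have hy : D.δ x - x ∈ D.T₀ := ⟨h, D.K₁.sub_mem (D.stab₁ x h1) h1⟩
    obtain ⟨v, hv, hvx⟩ := (hE2 _).mp hy
    obtain ⟨z, hz⟩ := D.surj v hv
    have hδz : D.δ z = z + v := by rw [← hz]; abel
    have e1 : D.δ (D.σ z - z - x) = D.σ z - z - x := by
      rw [map_sub, map_sub, ← D.comm, hδz, map_add]
      have : D.σ v = v + (D.δ x - x) := by rw [← hvx]; abel
      rw [this]; abel
    have e2 : D.σ z - z - x ∈ D.K₂ := (D.inter _ e1).mp (D.K₁.sub_mem (D.a z) h1)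
    have e3 : D.σ z - z ∈ D.K₂ := by
      have := D.K₂.add_mem e2 h2
      simpa using this
    have e4 : v ∈ D.K₂ := by
      have := D.K₂.sub_mem e3 (D.b z)
      have e : D.σ z - z - (D.σ z - D.δ z) = v := by rw [hδz]; abel
      rwa [e] at this
    have e5 : v ∈ D.T₀ := ⟨hv, (D.inter _ hv).mpr e4⟩
    have e6 : D.σ v = v := ((hE1 v).mp e5).2
    rw [e6, sub_self] at hvx
    exact sub_eq_zero.mp hvx.symm
  -- general case by nilpotency
  set w : W →+ W := D.δ - AddMonoidHom.id W with hw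
  have hwa : ∀ x, w x = D.δ x - x := fun x => by simp [hw]
  have hst : ∀ j : ℕ, (w^[j]) x ∈ D.K₁ ∧ (w^[j]) x ∈ D.K₂ := by
    intro j
    induction j with
    | zero => exact ⟨h1, h2⟩
    | succ j ih =>
      rw [Function.iterate_succ_apply', hwa]
      exact ⟨D.K₁.sub_mem (D.stab₁ _ ih.1) ih.1, D.K₂.sub_mem (D.stab₂ _ ih.2) ih.2⟩
  have main : ∀ N : ℕ, (w^[N + 1]) x = 0 → (w^[1]) x = 0 := by
    intro N
    induction N with
    | zero => exact id
    | succ N ih =>
      intro h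
      apply ih
      have h3 := key ((w^[N]) x) (hst N).1 (hst N).2 (by
        have : w (w ((w^[N]) x)) = 0 := by
          rw [← Function.iterate_succ_apply' w, ← Function.iterate_succ_apply' w]
          exact h
        rw [hwa, hwa] at this
        exact sub_eq_zero.mp this)
      rw [Function.iterate_succ_apply', hwa, h3, sub_self]
  obtain ⟨N, hN⟩ := D.nil x
  have hN' : (w^[N + 1]) x = 0 := by
    rw [Function.iterate_succ_apply']
    show w ((w^[N]) x) = 0
    have : (w^[N]) x = 0 := hN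
    rw [this, map_zero]
  have := main N hN'
  rw [Function.iterate_one, hwa] at this
  exact sub_eq_zero.mp this

end ToricData

end Fermat.Agent.Ribet
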