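import Fermat.Agent.Ribet.GoodMap

/-!
# Comparison of the kernels of specialisation at the levels `Γ` and `Γ₀(M)`
-/

set_option autoImplicit false

open UpperHalfPlane hiding I
open ModularForm Matrix.SpecialLinearGroup Filter Asymptotics CongruenceSubgroup
open scoped MatrixGroups Manifold ModularForm Polynomial Topology

noncomputable section

namespace Fermat.Agent.Ribet

open Fermat.Agent.JLevelOne Fermat.Agent.X0Emb Fermat.Agent.ModFun ModularCurve Fermat.Agent.FG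
open Fermat.Agent.EisChar Fermat.Agent.S28aux Fermat.Agent.IntStruct Fermat.Agent.HeckePar
open Fermat.Agent.X1 Fermat.Agent.X1Char Fermat.Agent.GaussVal

section Res

variable {K : Type} [Field K] {ι : K →+* ℂ} {M : ℕ} {Γ : Subgroup SL(2, ℤ)}
  [hΓ : Between M Γ]

variable (M Γ) in
/-- Restriction of characters from `Γ₀(M)` to `Γ`. -/
def resC : (Gamma0 M →* ℂˣ) →* (Γ →* ℂˣ) where
  toFun χ := χ.comp (Subgroup.inclusion hΓ.le)
  map_one' := rfl
  map_mul' _ _ := rfl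

theorem resC_apply (χ : Gamma0 M →* ℂˣ) (γ : Γ) :
    resC M Γ χ γ = χ ⟨(γ : SL(2, ℤ)), hΓ.le γ.2⟩ := rfl

theorem isCF_res {χ : Gamma0 M →* ℂˣ} {F : ℍ → ℂ} {y : LaurentSeries K}
    (hF : IsCF ι (Gamma0 M) χ F y) : IsCF ι Γ (resC M Γ χ) F y where
  mdiff := hF.mdiff
  char γ τ := hF.char ⟨(γ : SL(2, ℤ)), hΓ.le γ.2⟩ τ
  growth := hF.growth
  lexp := hF.lexp

theorem exists_dia_decomp {γ : SL(2, ℤ)} (hγ : γ ∈ Gamma0 M) :
    ∃ (u : (ZMod M)ˣ) (γ' : SL(2, ℤ)), γ' ∈ Gamma1 M ∧ γ = γ' * diaMat M u := by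
  have h1 := gamma0_00_mul_11 hγ
  set u : (ZMod M)ˣ := ⟨((γ 1 1 : ℤ) : ZMod M), ((γ 0 0 : ℤ) : ZMod M), by rw [mul_comm]; exact h1,
    h1⟩ with hu
  refine ⟨u, γ * (diaMat M u)⁻¹, ?_, by group⟩
  refine mem_gamma1_of_mem_gamma0 (mul_mem hγ (inv_mem (diaMat_mem _))) ?_
  rw [mul_inv_00 hγ (diaMat_mem _), diaMat_11]
  exact h1

/-- At level `Γ₀(M)` the diamonds are trivial. -/
theorem kk_of_gamma0 {n : ℕ} {A : ValuationSubring K} {g : ℍ → ℍ} {χ : Gamma0 M →* ℂˣ}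
    (hχ : χ ^ n = 1) {F G : ℍ → ℂ} {y z a b : LaurentSeries K}
    (hF : IsCF ι (Gamma0 M) χ F y) (hy : y ≠ 0) (hG : IsMF ι (Gamma0 M) 1 G z) (hz : z ≠ 0)
    (ha : LExp 1 (fun τ => F (g τ) ^ n) (coeffMap ι a))
    (hb : LExp 1 (fun τ => G (g τ) ^ n) (coeffMap ι b)) (hab : PC A a b) :
    KK ι M (Gamma0 M) g A n χ := by
  refine ⟨F, y, G, z, hF, hy, hG, hz, fun u => ⟨a, b, ?_, ?_, hab⟩⟩
  · have h1 : (fun τ => F (diaMat M u • g τ) ^ n) = fun τ => F (g τ) ^ n := by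
      funext τ
      have h2 := hF.char ⟨diaMat M u, diaMat_mem u⟩ (g τ)
      have h3 := DFunLike.congr_fun hχ ⟨diaMat M u, diaMat_mem u⟩
      rw [MonoidHom.pow_apply, MonoidHom.one_apply] at h3
      rw [h2, mul_pow, ← Units.val_pow_eq_pow_val, h3, Units.val_one, one_mul]
    rw [h1]
    exact ha
  · have h1 : (fun τ => G (diaMat M u • g τ) ^ n) = fun τ => G (g τ) ^ n := by
      funext τ
      rw [hG.inv _ (diaMat_mem u)]
    rw [h1]
    exact hb

end Res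

/-- The quotient of `Γ₀(M)` by `Γ` is cyclic, generated by the diamond `u₀`, with a character `κ`. -/
structure Cyc {K : Type} [Field K] (ι : K →+* ℂ) (M : ℕ) (Γ : Subgroup SL(2, ℤ)) (n : ℕ) where
  u₀ : (ZMod M)ˣ
  ζ : K
  prim : IsPrimitiveRoot ζ n
  κ : Gamma0 M →* ℂˣ
  mem : diaMat M (u₀ ^ n) ∈ Γ
  spec : ∀ γ : Gamma0 M, ∃ k : ℕ, ∃ γ' ∈ Γ, (γ : SL(2, ℤ)) = γ' * diaMat M (u₀ ^ k) ∧
    ((κ γ : ℂˣ) : ℂ) = ι ζ ^ k

namespace Cyc

variable {K : Type} [Field K] {ι : K →+* ℂ} {M : ℕ} {Γ : Subgroup SL(2, ℤ)}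
  {n : ℕ} (C : Cyc ι M Γ n)

theorem κ_pow : C.κ ^ n = 1 := by
  ext γ
  obtain ⟨k, -, -, -, h⟩ := C.spec γ
  rw [MonoidHom.pow_apply, Units.val_pow_eq_pow_val, h, ← pow_mul, mul_comm, pow_mul, ← map_pow,
    C.prim.pow_eq_one, map_one, one_pow]
  rfl

variable [hΓ : Between M Γ]

theorem per_aux {b : ℍ → ℂ} (hb : ∀ γ ∈ Γ, ∀ τ : ℍ, b (γ • τ) = b τ) (t c : ℕ) (τ : ℍ) :
    b (diaMat M (C.u₀ ^ (n * t + c)) • τ) = b (diaMat M (C.u₀ ^ c) • τ) := by
  induction t with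
  | zero => simp
  | succ t ih =>
    rw [← ih, show n * (t + 1) + c = n + (n * t + c) by ring, pow_add,
      ← dia_dia (M := M) (Γ := Γ) hb, hb _ C.mem]

theorem per [NeZero n] {b : ℍ → ℂ} (hb : ∀ γ ∈ Γ, ∀ τ : ℍ, b (γ • τ) = b τ) (a : ℕ) (i : ZMod n)
    (h : (a : ZMod n) = i) (τ : ℍ) :
    b (diaMat M (C.u₀ ^ a) • τ) = b (diaMat M (C.u₀ ^ i.val) • τ) := by
  rw [← h, ZMod.val_natCast]
  conv_lhs => rw [← Nat.div_add_mod a n]
  exact C.per_aux hb _ _ τ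

variable [NeZero n]

/-- the additive character -/
def zp : AddChar (ZMod n) K := AddChar.zmodChar n C.prim.pow_eq_one

omit hΓ in
theorem zp_val (a : ℕ) : C.zp (a : ZMod n) = C.ζ ^ a := AddChar.zmodChar_apply' _ a

/-- The eigencomponents of a function. -/
def comp (b : ℍ → ℂ) (j : ZMod n) : ℍ → ℂ :=
  ∑ i : ZMod n, ι (C.zp (-(i * j))) • fun τ => b (diaMat M (C.u₀ ^ i.val) • τ)

omit hΓ in
theorem comp_apply (b : ℍ → ℂ) (j : ZMod n) (τ : ℍ) :
    C.comp b j τ = ∑ i : ZMod n, ι (C.zp (-(i * j))) * b (diaMat M (C.u₀ ^ i.val) • τ) := by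
  rw [comp, Finset.sum_apply]
  rfl

theorem comp_char {b : ℍ → ℂ} (hb : ∀ γ ∈ Γ, ∀ τ : ℍ, b (γ • τ) = b τ) (j : ZMod n)
    (γ : Gamma0 M) (τ : ℍ) :
    C.comp b j ((γ : SL(2, ℤ)) • τ) = (((C.κ ^ j.val) γ : ℂˣ) : ℂ) * C.comp b j τ := by
  obtain ⟨k, γ', hγ', h1, h2⟩ := C.spec γ
  rw [comp_apply, comp_apply, MonoidHom.pow_apply, Units.val_pow_eq_pow_val, h2, Finset.mul_sum]
  conv_rhs => rw [← Equiv.sum_comp (Equiv.addRight (k : ZMod n))]
  refine Finset.sum_congr rfl fun i _ => ?_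
  simp only [Equiv.coe_addRight]
  have h3 : b (diaMat M (C.u₀ ^ i.val) • (γ : SL(2, ℤ)) • τ) =
      b (diaMat M (C.u₀ ^ (i + k).val) • τ) := by
    rw [h1, mul_smul, dia_inv hb _ _ hγ', dia_dia (M := M) (Γ := Γ) hb, ← pow_add]
    refine C.per hb _ _ ?_ τ
    push_cast
    rw [ZMod.natCast_zmod_val]
  rw [h3, ← mul_assoc]
  congr 1
  have h4 : ι C.ζ ^ k = ι (C.zp (k : ZMod n)) := by rw [zp_val, map_pow]
  have h5 : (ι (C.zp (k : ZMod n))) ^ j.val = ι (C.zp ((k : ZMod n) * j)) := by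
    rw [← map_pow, ← AddChar.map_nsmul_eq_pow, nsmul_eq_mul, ZMod.natCast_zmod_val, mul_comm]
  rw [h4, h5, ← map_mul, ← AddChar.map_add_eq_mul]
  congr 2
  ring

end Cyc

/-! ### The comparison -/

section Main

variable {ι : Qbar →+* ℂ} {M : ℕ} {Γ : Subgroup SL(2, ℤ)} [hΓ : Between M Γ]
  [GoodGroup Γ] [hD : DiaGroup M Γ] {n : ℕ} [NeZero n]
  {A : ValuationSubring Qbar} {g : ℍ → ℍ} {R : (Qbar ≃+* Qbar) → (ZMod M)ˣ → Prop}

omit hΓ [GoodGroup Γ] hD [NeZero n] in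
theorem GoodMap.ne_zero (hg : GoodMap ι M Γ g R) {F : ℍ → ℂ} {y z : LaurentSeries Qbar}
    (hF : IsMF ι Γ 1 F y) (hy : y ≠ 0) {u : (ZMod M)ˣ}
    (hz : LExp 1 (fun τ => F (diaMat M u • g τ)) (coeffMap ι z)) : z ≠ 0 := by
  rintro rfl
  have h1 : (fun τ => F (diaMat M u • g τ)) = 0 :=
    (IsCF.eq_zero_iff (F := fun τ => F (diaMat M u • g τ)) hz).mpr rfl
  have h2 := (IsCF.ofIsMF hF).smul_ne_zero hy (diaMat M u)
  obtain ⟨τ, hτ⟩ := Function.ne_iff.mp h2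
  obtain ⟨τ', rfl⟩ := hg.surj τ
  exact hτ (congrFun h1 τ')

omit hD [NeZero n] in
theorem pc_refl [IntGroup Γ] {p : ℕ} (hp : p.Prime) (hA : A.LiesOverPrime p) {F : ℍ → ℂ}
    {z : LaurentSeries Qbar} (hF : IsMF ι Γ 1 F z) (hz : z ≠ 0) : PC A z z := by
  have := isAlgebraic_Qbar
  exact PC.of_scalable (scalable_of_mem_intAlg hp hA (mem_intAlg_of_isMF hF) hz)

/-- The norm of a function. -/
theorem exists_norm {G : ℍ → ℂ} {z : LaurentSeries Qbar} (hz : z ≠ 0) (hG : IsMF ι Γ 1 G z)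
    [NeZero M] :
    ∃ (P : ℍ → ℂ) (w w' : LaurentSeries Qbar), w ≠ 0 ∧ IsMF ι Γ 1 P w ∧ w' ≠ 0 ∧
      IsMF ι (Gamma0 M) 1 (G * P) w' := by
  classical
  have hGv : ∀ v, ∃ w, IsMF ι Γ 1 (fun τ => G (diaMat M v • τ)) w := fun v =>
    mf_exists_dia (M := M) hG v
  choose w hw using hGv
  have hw0 : ∀ v, w v ≠ 0 := by
    intro v h0
    have h1 := hw v
    rw [h0] at h1
    exact (IsCF.ofIsMF hG).smul_ne_zero hz _ (h1.eq_zero_iff.mpr rfl)
  refine ⟨∏ v ∈ Finset.univ.erase 1, fun τ => G (diaMat M v • τ),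
    ∏ v ∈ Finset.univ.erase 1, w v, ∏ v, w v, Finset.prod_ne_zero_iff.mpr fun v _ => hw0 v,
    IsMF.prod _ fun v _ => hw v, Finset.prod_ne_zero_iff.mpr fun v _ => hw0 v, ?_⟩
  have h1 : (G * ∏ v ∈ Finset.univ.erase 1, fun τ => G (diaMat M v • τ)) =
      ∏ v : (ZMod M)ˣ, fun τ => G (diaMat M v • τ) := by
    rw [← Finset.mul_prod_erase Finset.univ _ (Finset.mem_univ 1)]
    congr 1
    funext τ
    exact (dia_one hG.inv τ).symm
  rw [h1]
  have h2 := IsMF.prod Finset.univ (fun v _ => hw v)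
  refine ⟨h2.mdiff, fun γ hγ τ => ?_, h2.growth, h2.lexp⟩
  obtain ⟨u, γ', hγ', rfl⟩ := exists_dia_decomp hγ
  rw [Finset.prod_apply, Finset.prod_apply]
  conv_rhs => rw [← Equiv.prod_comp (Equiv.mulRight u)]
  refine Finset.prod_congr rfl fun v _ => ?_
  rw [Equiv.coe_mulRight, mul_smul, dia_inv hG.inv _ _ (hΓ.ge hγ'),
    dia_dia (M := M) (Γ := Γ) hG.inv]

/-- **The comparison of the kernels of specialisation at the levels `Γ` and `Γ₀(M)`.** -/
theorem KK.descend [NeZero M] [IntGroup Γ] {p : ℕ} (hp : p.Prime) (hA : A.LiesOverPrime p)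
    (hpn : ¬ p ∣ n) (hg : GoodMap ι M Γ g R) (C : Cyc ι M Γ n) {χ₀ : Gamma0 M →* ℂˣ}
    (hχ₀ : χ₀ ∈ charGroup (Gamma0 M) n) (h : KK ι M Γ g A n (resC M Γ χ₀)) :
    ∃ k : ℕ, KK ι M (Gamma0 M) g A n (χ₀ * C.κ ^ k) := by
  classical
  obtain ⟨F, y, G, z, hF, hy, hG, hz, h⟩ := h
  obtain ⟨F0, y0, hy0, hF0, -⟩ := exists_isCF' ι (⟨χ₀, hχ₀⟩ : charGroup (Gamma0 M) n)
  obtain ⟨m, hm⟩ : ∃ m, n = m + 1 := Nat.exists_eq_succ_of_ne_zero (NeZero.ne n)
  obtain ⟨P, w, w', hw0, hP, hw'0, hNG⟩ := exists_norm (M := M) hz hG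
  have hres : (resC M Γ χ₀) ^ n = 1 := by
    ext γ
    have h1 := DFunLike.congr_fun hχ₀.1 ⟨(γ : SL(2, ℤ)), hΓ.le γ.2⟩
    rw [MonoidHom.pow_apply, resC_apply]
    rw [MonoidHom.pow_apply] at h1
    rw [h1]
    rfl
  have hF0r := isCF_res (Γ := Γ) hF0
  -- the function `b`
  have hb : IsMF ι Γ 1 (F0 * F ^ m * P ^ m) (y0 * y ^ m * w ^ m) := by
    refine IsMF.mul ?_ (hP.pow m)
    refine ((hF0r.mul (hF.pow m)).char_congr ?_).toIsMF
    ext γ
    have h1 := DFunLike.congr_fun hres γ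
    rw [MonoidHom.pow_apply, hm, pow_succ'] at h1
    rw [MonoidHom.mul_apply, MonoidHom.pow_apply, h1]
  set b : ℍ → ℂ := F0 * F ^ m * P ^ m with hbdef
  -- the function `Y`
  have hY : IsCF ι (Gamma0 M) χ₀ (F0 * (G * P) ^ m) (y0 * w' ^ m) := by
    have h1 := hF0.mul ((IsCF.ofIsMF hNG).pow m)
    refine h1.char_congr ?_
    ext γ
    rw [MonoidHom.mul_apply, MonoidHom.pow_apply, MonoidHom.one_apply, one_pow, mul_one]
  set Y : ℍ → ℂ := F0 * (G * P) ^ m with hYdef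
  have hYn : IsMF ι (Gamma0 M) 1 (Y ^ n) ((y0 * w' ^ m) ^ n) :=
    ((hY.pow n).char_congr hχ₀.1).toIsMF
  have hYn' : IsMF ι Γ 1 (Y ^ n) ((y0 * w' ^ m) ^ n) := hYn.mono hΓ.le
  obtain ⟨ys, hys⟩ := hg.exp hYn'
  have hysl : LExp 1 (fun τ => (Y ^ n) (g τ)) (coeffMap ι ys) := by simpa using hys.lexp
  -- expansions of `b`
  choose β hβ using fun u => hg.exp_dia hb u
  have hβl : ∀ u, LExp 1 (fun τ => b (diaMat M u • g τ)) (coeffMap ι (β u)) := fun u => by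
    simpa using (hβ u).lexp
  have hb0 : y0 * y ^ m * w ^ m ≠ 0 :=
    mul_ne_zero (mul_ne_zero hy0 (pow_ne_zero m hy)) (pow_ne_zero m hw0)
  have hβ0 : ∀ u, β u ≠ 0 := fun u => hg.ne_zero hb hb0 (hβl u)
  have hF0n : IsMF ι Γ 1 (F0 ^ n) (y0 ^ n) := ((hF0r.pow n).char_congr hres).toIsMF
  have hPn : IsMF ι Γ 1 (P ^ n) (w ^ n) := hP.pow n
  have key : ∀ u, PC A ys (β u ^ n) := by
    intro u
    obtain ⟨a, c, ha, hc, hac⟩ := h u
    obtain ⟨f, hf⟩ := hg.exp_dia hF0n u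
    obtain ⟨r, hr⟩ := hg.exp_dia hPn u
    have hfl : LExp 1 (fun τ => (F0 ^ n) (diaMat M u • g τ)) (coeffMap ι f) := by
      simpa using hf.lexp
    have hrl : LExp 1 (fun τ => (P ^ n) (diaMat M u • g τ)) (coeffMap ι r) := by
      simpa using hr.lexp
    have hf0 : f ≠ 0 := hg.ne_zero hF0n (pow_ne_zero n hy0) hfl
    have hr0 : r ≠ 0 := hg.ne_zero hPn (pow_ne_zero n hw0) hrl
    have e1 : ys = f * c ^ m * r ^ m := by
      refine IsCF.unique hysl ?_
      have h2 : (fun τ => (Y ^ n) (g τ)) = (fun τ => (F0 ^ n) (diaMat M u • g τ)) *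
          (fun τ => G (diaMat M u • g τ) ^ n) ^ m *
          (fun τ => (P ^ n) (diaMat M u • g τ)) ^ m := by
        funext τ
        rw [← hYn.inv _ (diaMat_mem u)]
        simp only [hYdef, Pi.mul_apply, Pi.pow_apply]
        ring
      rw [h2, map_mul, map_mul, map_pow, map_pow]
      exact (hfl.mul (hc.pow m)).mul (hrl.pow m)
    have e2 : β u ^ n = f * a ^ m * r ^ m := by
      have h2 : LExp 1 ((fun τ => b (diaMat M u • g τ)) ^ n) (coeffMap ι (β u ^ n)) := by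
        rw [map_pow]
        exact (hβl u).pow n
      refine IsCF.unique h2 ?_
      have h2 : (fun τ => b (diaMat M u • g τ)) ^ n = (fun τ => (F0 ^ n) (diaMat M u • g τ)) *
          (fun τ => F (diaMat M u • g τ) ^ n) ^ m *
          (fun τ => (P ^ n) (diaMat M u • g τ)) ^ m := by
        funext τ
        simp only [hbdef, Pi.mul_apply, Pi.pow_apply]
        ring
      rw [h2, map_mul, map_mul, map_pow, map_pow]
      exact (hfl.mul (ha.pow m)).mul (hrl.pow m)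
    rw [e1, e2]
    exact ((pc_refl hp hA hf hf0).mul (hac.symm.pow m)).mul ((pc_refl hp hA hr hr0).pow m)
  -- the eigencomponents
  have := isAlgebraic_Qbar
  set bb : ZMod n → LaurentSeries Qbar := fun i => β (C.u₀ ^ i.val) with hbb
  set S : ZMod n → LaurentSeries Qbar := fun j =>
    ∑ i : ZMod n, algebraMap Qbar (LaurentSeries Qbar) (C.zp (-(i * j))) * bb i with hS
  have hzpA : ∀ i, C.zp i ∈ A := fun i =>
    mem_of_pow_eq_one (NeZero.ne n) (by
      rw [← AddChar.map_nsmul_eq_pow, nsmul_eq_mul, ZMod.natCast_self, zero_mul,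
        AddChar.map_zero_eq_one])
  have hnA : ((n : Qbar)⁻¹) ∈ A := by
    have hcp := charP_residue hp hA
    have h1 : IsLocalRing.residue A (n : A) ≠ 0 := by
      rw [map_natCast, Ne, CharP.cast_eq_zero_iff (IsLocalRing.ResidueField A) p]
      exact hpn
    have h2 : IsUnit (n : A) := by
      by_contra hu
      exact h1 ((IsLocalRing.residue_eq_zero_iff _).mpr ((IsLocalRing.mem_maximalIdeal _).mpr hu))
    obtain ⟨v, hv⟩ := h2
    have h3 : ((v⁻¹ : Aˣ) : A) * (n : A) = 1 := by rw [← hv, Units.inv_mul]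
    have h4 : (((v⁻¹ : Aˣ) : A) : Qbar) * (n : Qbar) = 1 := by
      have := congrArg (fun x : A => (x : Qbar)) h3
      simpa using this
    rw [← eq_inv_of_mul_eq_one_left h4]
    exact ((v⁻¹ : Aˣ) : A).2
  obtain ⟨j, hj⟩ := PC.exists_comb (A := A) (NeZero.ne n) (b := bb) (y := ys)
    (fun i => scalable_of_mem_intAlg hp hA (mem_intAlg_of_isMF (hβ _)) (hβ0 _))
    (fun i => key _) S
    (fun j => ⟨Finset.univ, fun i => ⟨C.zp (-(i * j)), hzpA _⟩, rfl⟩)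
    (fun i => ⟨fun j => ⟨C.zp (i * j), hzpA _⟩ * ⟨_, hnA⟩, by
      have hprim : (C.zp).IsPrimitive := AddChar.zmodChar_primitive_of_primitive_root n C.prim
      have h0 : ∀ i' : ZMod n, ∑ j : ZMod n, C.zp (i * j) * (n : Qbar)⁻¹ * C.zp (-(i' * j)) =
          if i' = i then 1 else 0 := by
        intro i'
        have h1 := AddChar.sum_mulShift (i - i') hprim
        have h2 : ∑ j : ZMod n, C.zp (i * j) * (n : Qbar)⁻¹ * C.zp (-(i' * j)) =
            (n : Qbar)⁻¹ * ∑ j : ZMod n, C.zp (j * (i - i')) := by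
          rw [Finset.mul_sum]
          refine Finset.sum_congr rfl fun j _ => ?_
          rw [mul_right_comm, ← AddChar.map_add_eq_mul, mul_comm]
          congr 2
          ring
        have hn0 : (n : Qbar) ≠ 0 := by exact_mod_cast NeZero.ne n
        rw [h2, h1, ZMod.card]
        by_cases hii : i' = i
        · rw [if_pos (by rw [hii, sub_self]), if_pos hii, inv_mul_cancel₀ hn0]
        · rw [if_neg (fun h => hii (sub_eq_zero.mp h).symm), if_neg hii]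
          simp
      simp only [hS, Finset.mul_sum]
      rw [Finset.sum_comm]
      rw [Finset.sum_eq_single i]
      · have h1 : ∀ j : ZMod n, algebraMap Qbar (LaurentSeries Qbar)
            (((⟨C.zp (i * j), hzpA _⟩ * ⟨_, hnA⟩ : A)) : Qbar) *
            (algebraMap Qbar (LaurentSeries Qbar) (C.zp (-(i * j))) * bb i) =
            algebraMap Qbar (LaurentSeries Qbar)
              (C.zp (i * j) * (n : Qbar)⁻¹ * C.zp (-(i * j))) * bb i := by
          intro j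
          rw [map_mul _ (_ * _), mul_assoc]
          rfl
        rw [Finset.sum_congr rfl fun j _ => h1 j, ← Finset.sum_mul, ← map_sum, h0, if_pos rfl,
          map_one, one_mul]
      · intro i' _ hi'
        have h1 : ∀ j : ZMod n, algebraMap Qbar (LaurentSeries Qbar)
            (((⟨C.zp (i * j), hzpA _⟩ * ⟨_, hnA⟩ : A)) : Qbar) *
            (algebraMap Qbar (LaurentSeries Qbar) (C.zp (-(i' * j))) * bb i') =
            algebraMap Qbar (LaurentSeries Qbar)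
              (C.zp (i * j) * (n : Qbar)⁻¹ * C.zp (-(i' * j))) * bb i' := by
          intro j
          rw [map_mul _ (_ * _), mul_assoc]
          rfl
        rw [Finset.sum_congr rfl fun j _ => h1 j, ← Finset.sum_mul, ← map_sum, h0, if_neg hi',
          map_zero, zero_mul]
      · intro hi
        exact absurd (Finset.mem_univ _) hi⟩)
  -- the function `T`
  choose t ht using fun i : ZMod n => mf_exists_dia (M := M) hb (C.u₀ ^ i.val)
  have hT : IsMF ι Γ 1 (C.comp b j)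
      (∑ i : ZMod n, algebraMap Qbar (LaurentSeries Qbar) (C.zp (-(i * j))) * t i) :=
    IsMF.sum _ fun i _ => (ht i).smul _
  set T : ℍ → ℂ := C.comp b j with hTdef
  set tt := ∑ i : ZMod n, algebraMap Qbar (LaurentSeries Qbar) (C.zp (-(i * j))) * t i
    with htt
  have hTg : IsMF ι Γ 1 (fun τ => T (g τ)) (S j) := by
    have h1 : (fun τ => T (g τ)) =
        ∑ i : ZMod n, ι (C.zp (-(i * j))) • fun τ => b (diaMat M (C.u₀ ^ i.val) • g τ) := by
      funext τ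
      rw [hTdef, C.comp_apply, Finset.sum_apply]
      rfl
    rw [h1]
    exact IsMF.sum _ fun i _ => (hβ _).smul _
  have hTgl : LExp 1 (fun τ => T (g τ)) (coeffMap ι (S j)) := by simpa using hTg.lexp
  have hSj : S j ≠ 0 := fun h0 => hj.ne_zero_right (by rw [h0, zero_pow (NeZero.ne n)])
  have htt0 : tt ≠ 0 := by
    intro h0
    have h1 := hT.eq_zero_iff.mpr h0
    apply hSj
    refine hTg.eq_zero_iff.mp ?_
    funext τ
    show T (g τ) = 0
    rw [h1]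
    rfl
  have hTc : IsCF ι (Gamma0 M) (C.κ ^ j.val) T tt :=
    ⟨hT.mdiff, C.comp_char hb.inv j, hT.growth, by simpa using hT.lexp⟩
  have hTn : IsMF ι (Gamma0 M) 1 (T ^ n) (tt ^ n) := by
    refine ((hTc.pow n).char_congr ?_).toIsMF
    ext γ
    have h1 := DFunLike.congr_fun C.κ_pow γ
    rw [MonoidHom.pow_apply, MonoidHom.one_apply] at h1
    rw [MonoidHom.pow_apply, MonoidHom.pow_apply, ← pow_mul, mul_comm, pow_mul, h1, one_pow]
    rfl
  have hF1 : IsCF ι (Gamma0 M) (χ₀ * C.κ ^ (j.val * m)) (Y * T ^ m)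
      (y0 * w' ^ m * tt ^ m) := by
    refine (hY.mul (hTc.pow m)).char_congr ?_
    ext γ
    rw [MonoidHom.mul_apply, MonoidHom.mul_apply, MonoidHom.pow_apply, MonoidHom.pow_apply,
      MonoidHom.pow_apply, pow_mul]
  refine ⟨j.val * m, kk_of_gamma0 ?_ hF1
    (mul_ne_zero (mul_ne_zero hy0 (pow_ne_zero m hw'0)) (pow_ne_zero m htt0)) hTn
    (pow_ne_zero n htt0) (a := ys * (S j ^ n) ^ m) (b := S j ^ n * (S j ^ n) ^ m) ?_ ?_
    (hj.mul (hj.right.pow m))⟩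
  · ext γ
    have h1 := DFunLike.congr_fun C.κ_pow γ
    have h2 := DFunLike.congr_fun hχ₀.1 γ
    rw [MonoidHom.pow_apply, MonoidHom.one_apply] at h1 h2
    rw [MonoidHom.pow_apply, MonoidHom.mul_apply, MonoidHom.pow_apply, mul_pow, h2, ← pow_mul,
      mul_comm _ n, pow_mul, h1, one_pow, one_mul]
    rfl
  · have h1 : (fun τ => (Y * T ^ m) (g τ) ^ n) =
        (fun τ => (Y ^ n) (g τ)) * ((fun τ => T (g τ)) ^ n) ^ m := by
      funext τ
      simp only [Pi.mul_apply, Pi.pow_apply]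
      ring
    rw [h1, map_mul, map_pow, map_pow]
    exact hysl.mul ((hTgl.pow n).pow m)
  · have h1 : (fun τ => (T ^ n) (g τ) ^ n) =
        (fun τ => T (g τ)) ^ n * ((fun τ => T (g τ)) ^ n) ^ m := by
      funext τ
      simp only [Pi.mul_apply, Pi.pow_apply]
      rw [← pow_succ', ← hm]
    rw [h1, map_mul, map_pow _ (S j ^ n), map_pow]
    exact (hTgl.pow n).mul ((hTgl.pow n).pow m)

end Main

end Fermat.Agent.Ribet
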