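import Fermat.Agent.Ribet.UqDia
import Fermat.Agent.Ribet.ALInst
import Fermat.Agent.Ribet.Descend

/-!
# The operator `U_q` on functions at the second cusp
-/

set_option autoImplicit false

open UpperHalfPlane hiding I
open ModularForm Matrix.SpecialLinearGroup Filter Asymptotics CongruenceSubgroup
open scoped MatrixGroups Manifold ModularForm Polynomial Topology

noncomputable section

namespace Fermat.Agent.Ribet

open Fermat.Agent.JLevelOne Fermat.Agent.X0Emb Fermat.Agent.ModFun ModularCurve Fermat.Agent.FG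
open Fermat.Agent.EisChar Fermat.Agent.S28aux Fermat.Agent.IntStruct Fermat.Agent.HeckePar
open Fermat.Agent.X1 Fermat.Agent.X1Char Fermat.Agent.GaussVal Fermat.Agent.TEll

section Mod

variable {m q : ℕ} {H : Subgroup (ZMod q)ˣ}

/-- Reduction of units modulo `q`. -/
def redU (m : ℕ) {q : ℕ} : (ZMod (m * q))ˣ →* (ZMod q)ˣ :=
  ZMod.unitsMap (Dvd.intro_left m rfl : q ∣ m * q)

theorem coe_redU (u : (ZMod (m * q))ˣ) : ((redU m u : (ZMod q)ˣ) : ZMod q) =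
    ZMod.castHom (Dvd.intro_left m rfl : q ∣ m * q) (ZMod q) (u : ZMod (m * q)) := rfl

theorem diaMat_11_mod (u : (ZMod (m * q))ˣ) :
    ((diaMat (m * q) u 1 1 : ℤ) : ZMod q) = ((redU m u : (ZMod q)ˣ) : ZMod q) := by
  rw [coe_redU, ← diaMat_11 u, map_intCast]

theorem redU_surjective (m : ℕ) {q : ℕ} [NeZero m] [NeZero q] :
    Function.Surjective (redU m (q := q)) := by
  have : NeZero (m * q) := ⟨Nat.mul_ne_zero (NeZero.ne m) (NeZero.ne q)⟩
  exact ZMod.unitsMap_surjective _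

/-- A lift of units. -/
def liftU (m : ℕ) {q : ℕ} [NeZero m] [NeZero q] (x : (ZMod q)ˣ) : (ZMod (m * q))ˣ :=
  Function.surjInv (redU_surjective m) x

@[simp] theorem redU_liftU [NeZero m] [NeZero q] (x : (ZMod q)ˣ) : redU m (liftU m x) = x :=
  Function.surjInv_eq (redU_surjective m) x

theorem gd_congr {G : ℍ → ℂ} (hG : ∀ γ ∈ GD m q H, ∀ τ : ℍ, G (γ • τ) = G τ) {γ γ' : SL(2, ℤ)}
    (hγ : γ ∈ Gamma0 (m * q)) (hγ' : γ' ∈ Gamma0 (m * q))
    (h : ((γ 1 1 : ℤ) : ZMod q) = ((γ' 1 1 : ℤ) : ZMod q)) (τ : ℍ) : G (γ • τ) = G (γ' • τ) := by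
  have h1 : γ * γ'⁻¹ ∈ GD m q H := by
    refine ⟨mul_mem hγ (inv_mem hγ'), 1, one_mem _, ?_⟩
    have e : (γ'⁻¹ : SL(2, ℤ)) 1 1 = γ' 0 0 := by
      rw [Matrix.SpecialLinearGroup.coe_inv, Matrix.adjugate_fin_two]; rfl
    rw [mul_11]
    push_cast
    rw [entry10_mod hγ, zero_mul, zero_add, e, h, mul_comm, entry00_mul_11 hγ']
  have h2 := hG _ h1 (γ' • τ)
  rw [← mul_smul, inv_mul_cancel_right] at h2
  exact h2

theorem dia_congr {G : ℍ → ℂ} (hG : ∀ γ ∈ GD m q H, ∀ τ : ℍ, G (γ • τ) = G τ)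
    {u v : (ZMod (m * q))ˣ} (h : redU m u = redU m v) (τ : ℍ) :
    G (diaMat (m * q) u • τ) = G (diaMat (m * q) v • τ) :=
  gd_congr hG (diaMat_mem u) (diaMat_mem v) (by rw [diaMat_11_mod, diaMat_11_mod, h]) τ

end Mod

section Act

variable {m q : ℕ} [NeZero q] (D : WD m q)

/-- `(1, 0; 0, q) W = γ W (q, 0; 0, 1)` -/
theorem exists_aff_act_zero : ∃ γ ∈ Gamma0 (m * q), ((γ 1 1 : ℤ) : ZMod q) = 1 ∧
    ∀ τ : ℍ, aff 1 0 q (D.act τ) = γ • D.act (aff q 0 1 τ) := by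
  have hrel := D.rel
  let γ : SL(2, ℤ) := ⟨!![(q : ℤ) * D.e + m * D.c, 1 - q;
    m * q * (D.c * D.e * (1 - q)), m * D.c + (q : ℤ) ^ 3 * D.e], by
    rw [Matrix.det_fin_two_of]
    linear_combination ((q : ℤ) ^ 2 * D.e + m * D.c + 1) * hrel⟩
  let g : SL(2, ℤ) := ⟨!![1, -1; m * D.c, (q : ℤ) ^ 2 * D.e], by
    rw [Matrix.det_fin_two_of]
    linear_combination hrel⟩
  have hg : g = γ * D.A := by
    apply Subtype.ext
    rw [Matrix.SpecialLinearGroup.coe_mul]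
    show !![1, -1; (m : ℤ) * D.c, (q : ℤ) ^ 2 * D.e] =
      !![(q : ℤ) * D.e + m * D.c, 1 - q;
        m * q * (D.c * D.e * (1 - q)), m * D.c + (q : ℤ) ^ 3 * D.e] *
      !![(q : ℤ), -1; m * D.c, q * D.e]
    ext i j
    fin_cases i <;> fin_cases j
    · simp [Matrix.mul_apply, Fin.sum_univ_two]
      linear_combination -hrel
    · simp [Matrix.mul_apply, Fin.sum_univ_two]
      linear_combination hrel
    · simp [Matrix.mul_apply, Fin.sum_univ_two]
      linear_combination -(m * D.c) * hrel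
    · simp [Matrix.mul_apply, Fin.sum_univ_two]
      linear_combination -((q : ℤ) ^ 2 * D.e) * hrel
  refine ⟨γ, ?_, ?_, fun τ => ?_⟩
  · rw [Gamma0_mem]
    show (((m * q * (D.c * D.e * (1 - q)) : ℤ)) : ZMod (m * q)) = 0
    rw [ZMod.intCast_zmod_eq_zero_iff_dvd]
    push_cast
    exact Dvd.intro _ rfl
  · show (((m * D.c + (q : ℤ) ^ 3 * D.e : ℤ)) : ZMod q) = 1
    have h1 := congrArg (Int.cast : ℤ → ZMod q) hrel
    push_cast at h1 ⊢
    rw [ZMod.natCast_self] at h1 ⊢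
    linear_combination h1
  · rw [WD.act, WD.act, ← mul_smul, ← hg]
    refine aff_smul_eq 1 0 q q 0 1 D.A g ?_ ?_ ?_ ?_ _
    · show ((1 : ℕ) : ℤ) * (q : ℤ) + ((0 : ℕ) : ℤ) * (m * D.c) = 1 * (q : ℤ)
      push_cast; ring
    · show ((1 : ℕ) : ℤ) * (-1 : ℤ) + ((0 : ℕ) : ℤ) * (q * D.e) =
        1 * ((0 : ℕ) : ℤ) + (-1) * ((1 : ℕ) : ℤ)
      push_cast; ring
    · show (q : ℤ) * (m * D.c) = m * D.c * (q : ℤ)
      ring
    · show (q : ℤ) * (q * D.e) = m * D.c * ((0 : ℕ) : ℤ) + (q : ℤ) ^ 2 * D.e * ((1 : ℕ) : ℤ)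
      push_cast; ring

theorem aff_aff (j : ℕ) (τ : ℍ) : aff 1 j q (aff q 0 1 τ) = aff q j q τ := by
  ext
  rw [coe_aff, coe_aff, coe_aff]
  simp

/-- `(1, b; 0, q) W = γ (q, j; 0, q)`, `b j = -1` modulo `q`. -/
theorem exists_aff_act {b j : ℕ} {s : ℤ} (hbj : (b : ℤ) * j = q * s - 1) :
    ∃ γ ∈ Gamma0 (m * q), ((γ 1 1 : ℤ) : ZMod q) = -(j : ZMod q) ∧
    ∀ τ : ℍ, aff 1 b q (D.act τ) = γ • aff q j q τ := by
  have hrel := D.rel
  let γ : SL(2, ℤ) := ⟨!![(q : ℤ) + b * (m * D.c), -(q * D.e) + b * D.e - j - s * (m * D.c);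
    m * q * D.c, q * D.e - m * D.c * j], by
    rw [Matrix.det_fin_two_of]
    linear_combination (1 + m * D.c : ℤ) * hrel - (m * D.c : ℤ) ^ 2 * hbj⟩
  refine ⟨γ, ?_, ?_, fun τ => ?_⟩
  · rw [Gamma0_mem]
    show (((m * q * D.c : ℤ)) : ZMod (m * q)) = 0
    rw [ZMod.intCast_zmod_eq_zero_iff_dvd]
    push_cast
    exact Dvd.intro _ rfl
  · show (((q * D.e - m * D.c * j : ℤ)) : ZMod q) = -(j : ZMod q)
    have h1 := congrArg (Int.cast : ℤ → ZMod q) hrel
    push_cast at h1 ⊢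
    rw [ZMod.natCast_self] at h1 ⊢
    linear_combination -(j : ZMod q) * h1
  · rw [WD.act, ← aff_aff]
    refine aff_smul_eq 1 b q 1 j q D.A γ ?_ ?_ ?_ ?_ _
    · show ((1 : ℕ) : ℤ) * (q : ℤ) + (b : ℤ) * (m * D.c) = ((q : ℤ) + b * (m * D.c)) * ((1 : ℕ) : ℤ)
      push_cast; ring
    · show ((1 : ℕ) : ℤ) * (-1 : ℤ) + (b : ℤ) * (q * D.e) =
        ((q : ℤ) + b * (m * D.c)) * (j : ℤ) +
          (-(q * D.e) + b * D.e - j - s * (m * D.c)) * (q : ℤ)
      push_cast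
      linear_combination hrel - (m * D.c) * hbj
    · show (q : ℤ) * (m * D.c) = m * q * D.c * ((1 : ℕ) : ℤ)
      push_cast; ring
    · show (q : ℤ) * (q * D.e) = m * q * D.c * (j : ℤ) + (q * D.e - m * D.c * j) * (q : ℤ)
      ring

variable [NeZero m] [hq : Fact q.Prime] {H : Subgroup (ZMod q)ˣ}

/-- **The operator `U_q` at the second cusp.** -/
theorem heckeU_act {G : ℍ → ℂ} (hG : ∀ γ ∈ GD m q H, ∀ τ : ℍ, G (γ • τ) = G τ) (τ : ℍ) :
    ∏ b : Fin q, G (aff 1 b q (D.act τ)) = G (D.act (aff q 0 1 τ)) *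
      ∏ x : (ZMod q)ˣ, G (diaMat (m * q) (liftU m x) • aff q (-(x : ZMod q)).val q τ) := by
  classical
  rw [← zmod_prod_eq q (fun b => G (aff 1 b q (D.act τ))),
    ← Finset.mul_prod_erase Finset.univ _ (Finset.mem_univ (0 : ZMod q))]
  congr 1
  · obtain ⟨γ, hγ, h1, h2⟩ := exists_aff_act_zero D
    rw [ZMod.val_zero, h2]
    refine (gd_congr hG hγ (one_mem _) ?_ _).trans (by rw [one_smul])
    rw [h1]
    simp
  · symm
    refine Finset.prod_bij (fun (x : (ZMod q)ˣ) _ => ((x⁻¹ : (ZMod q)ˣ) : ZMod q)) ?_ ?_ ?_ ?_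
    · intro x _
      rw [Finset.mem_erase]
      exact ⟨Units.ne_zero _, Finset.mem_univ _⟩
    · intro x _ y _ h
      exact inv_injective (Units.ext h)
    · intro b hb
      rw [Finset.mem_erase] at hb
      refine ⟨(Units.mk0 b hb.1)⁻¹, Finset.mem_univ _, ?_⟩
      rw [inv_inv, Units.val_mk0]
    · intro x _
      have h0 : (((((x⁻¹ : (ZMod q)ˣ) : ZMod q).val : ℤ) * ((-(x : ZMod q)).val : ℤ) + 1 : ℤ) :
          ZMod q) = 0 := by
        push_cast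
        rw [ZMod.natCast_zmod_val, ZMod.natCast_zmod_val, mul_neg,
          inv_mul_cancel₀ (Units.ne_zero x), neg_add_cancel]
      rw [ZMod.intCast_zmod_eq_zero_iff_dvd] at h0
      obtain ⟨s, hs⟩ := h0
      obtain ⟨γ, hγ, h1, h2⟩ := exists_aff_act D (b := ((x⁻¹ : (ZMod q)ˣ) : ZMod q).val)
        (j := (-(x : ZMod q)).val) (s := s) (by linear_combination hs)
      rw [h2]
      refine gd_congr hG (diaMat_mem _) hγ ?_ _
      rw [diaMat_11_mod, redU_liftU, h1, ZMod.natCast_zmod_val, neg_neg]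

end Act

/-! ### The second congruence relation -/

section Main

variable {m q : ℕ} [NeZero m] [hq : Fact q.Prime] [NeZero q] {H : Subgroup (ZMod q)ˣ}

/-- The norm of a function to `Γ₀(m q)`. -/
theorem exists_K0 {ι : Qbar →+* ℂ} {G : ℍ → ℂ} {g : LaurentSeries Qbar}
    (hG : IsMF ι (GD m q H) 1 G g) (hg : g ≠ 0) :
    ∃ (K0 : ℍ → ℂ) (κ : LaurentSeries Qbar), κ ≠ 0 ∧ IsMF ι (Gamma0 (m * q)) 1 K0 κ ∧
      ∀ (v : (ZMod (m * q))ˣ) (τ : ℍ),
        ∏ x : (ZMod q)ˣ, G (diaMat (m * q) (v * liftU m x) • τ) = K0 τ := by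
  classical
  have : NeZero (m * q) := ⟨Nat.mul_ne_zero (NeZero.ne m) (NeZero.ne q)⟩
  have : GoodGroup (GD m q H) := goodGroup_of_between (m * q) _
  have hGv : ∀ v, ∃ w, IsMF ι (GD m q H) 1 (fun τ => G (diaMat (m * q) v • τ)) w := fun v =>
    mf_exists_dia (M := m * q) hG v
  choose w hw using hGv
  have hw0 : ∀ v, w v ≠ 0 := by
    intro v h0
    have h1 := hw v
    rw [h0] at h1
    exact (IsCF.ofIsMF hG).smul_ne_zero hg _ (h1.eq_zero_iff.mpr rfl)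
  have hmul : ∀ (v : (ZMod (m * q))ˣ) (τ : ℍ),
      ∏ x : (ZMod q)ˣ, G (diaMat (m * q) (v * liftU m x) • τ) =
        ∏ x : (ZMod q)ˣ, G (diaMat (m * q) (liftU m x) • τ) := by
    intro v τ
    conv_rhs => rw [← Equiv.prod_comp (Equiv.mulLeft (redU m v))]
    refine Finset.prod_congr rfl fun x _ => dia_congr hG.inv ?_ τ
    rw [map_mul, redU_liftU, Equiv.coe_mulLeft, redU_liftU]
  have h2 := IsMF.prod (Finset.univ : Finset (ZMod q)ˣ) (fun x _ => hw (liftU m x))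
  refine ⟨∏ x : (ZMod q)ˣ, fun τ => G (diaMat (m * q) (liftU m x) • τ),
    ∏ x : (ZMod q)ˣ, w (liftU m x), Finset.prod_ne_zero_iff.mpr fun v _ => hw0 _,
    ⟨h2.mdiff, fun γ hγ τ => ?_, h2.growth, h2.lexp⟩, fun v τ => ?_⟩
  · obtain ⟨u, γ', hγ', rfl⟩ := exists_dia_decomp hγ
    rw [Finset.prod_apply, Finset.prod_apply]
    rw [← hmul u τ]
    refine Finset.prod_congr rfl fun x _ => ?_
    rw [mul_smul, dia_inv hG.inv _ _ ((between_GD m q H).ge hγ'),
      dia_dia (M := m * q) (Γ := GD m q H) hG.inv, mul_comm (liftU m x) u]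
  · rw [hmul, Finset.prod_apply]

variable {ι : Qbar →+* ℂ} {D : WD m q}

omit [NeZero m] in
/-- The root of unity in `ℚ̄`. -/
theorem exists_zetaQ (ι : Qbar →+* ℂ) (q : ℕ) [Fact q.Prime] [NeZero q] :
    ∃ ζ : Qbarˣ, ζ ^ q = 1 ∧ Units.map (ι : Qbar →* ℂ) ζ = zetaU 1 q := by
  obtain ⟨ζ, hζ⟩ := mem_range_of_isAlgebraic ι (isAlgebraic_zetaU q)
  have h0 : ζ ≠ 0 := by
    rintro rfl
    rw [map_zero] at hζ
    exact Units.ne_zero _ hζ.symm
  refine ⟨Units.mk0 ζ h0, ?_, Units.ext hζ⟩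
  apply Units.ext
  rw [Units.val_pow_eq_pow_val, Units.val_mk0, Units.val_one]
  apply ι.injective
  rw [map_pow, hζ, map_one]
  exact (zetaU_isPrimitiveRoot q).pow_eq_one

variable [GoodGroup (GD m q H)] {n : ℕ} [NeZero n]
  {A : ValuationSubring Qbar}

omit [GoodGroup (GD m q H)] in
/-- The expansion of `(U_q F) ^ n` at the second cusp. -/
theorem lexp_heckeU_act {F : ℍ → ℂ} {y : LaurentSeries Qbar} (hF : IsMF ι (GD m q H) 1 F y)
    {ζ : Qbarˣ} (hζ : Units.map (ι : Qbar →* ℂ) ζ = zetaU 1 q) (v : (ZMod (m * q))ˣ)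
    {a : LaurentSeries Qbar}
    (ha : LExp 1 (fun τ => F (diaMat (m * q) v • D.act τ)) (coeffMap ι a))
    {z : (ZMod q)ˣ → LaurentSeries Qbar}
    (hz : ∀ x, LExp 1 (fun τ => F (diaMat (m * q) (v * liftU m x) • τ)) (coeffMap ι (z x))) :
    LExp 1 (fun τ => ∏ b : Fin q, F (aff 1 b q (diaMat (m * q) v • D.act τ)))
      (coeffMap ι (qExpand Qbar q a *
        ∏ x : (ZMod q)ˣ, twist (ζ ^ (-(x : ZMod q)).val) (z x))) := by
  classical
  have hG1 : ∀ γ ∈ Gamma1 (m * q), ∀ τ : ℍ, F (γ • τ) = F τ := fun γ hγ =>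
    hF.inv γ ((between_GD m q H).ge hγ)
  have e : (fun τ => ∏ b : Fin q, F (aff 1 b q (diaMat (m * q) v • D.act τ))) =
      (fun τ => F (diaMat (m * q) v • D.act (aff q 0 1 τ))) *
      ∏ x : (ZMod q)ˣ, fun τ => F (diaMat (m * q) (v * liftU m x) • aff q (-(x : ZMod q)).val q τ) := by
    funext τ
    rw [heckeU_dia (Dvd.intro_left m rfl) hG1,
      heckeU_act D (G := fun τ => F (diaMat (m * q) v • τ)) (dia_inv hF.inv v),
      Pi.mul_apply, Finset.prod_apply]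
    congr 1
    refine Finset.prod_congr rfl fun x _ => ?_
    exact dia_dia (M := m * q) (Γ := GD m q H) hF.inv _ _ _
  rw [e, map_mul, map_prod, ModularCurve.coeffMap_qExpand]
  have h1 := lexp_aff_mul q ha
  refine h1.mul ?_
  have h2 : ∀ x ∈ (Finset.univ : Finset (ZMod q)ˣ), LExp 1
      (fun τ => F (diaMat (m * q) (v * liftU m x) • aff q (-(x : ZMod q)).val q τ))
      (coeffMap ι (twist (ζ ^ (-(x : ZMod q)).val) (z x))) := by
    intro x _
    have h3 := (hz x).aff q (-(x : ZMod q)).val q 1 1 (by ring)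
    rw [qExpand_one_apply, ← zetaU_pow, ← hζ, ← map_pow, Nat.cast_one] at h3
    rw [twist_coeffMap]
    exact h3
  exact lexp_prod _ h2

variable [DiaGroup (m * q) (GD m q H)] [IntGroup (GD m q H)] [ALGroup D (GD m q H)]

/-- **The second congruence relation**: `φ U_q = q` from the kernel of the specialisation at the
first cusp to the kernel at the second cusp. -/
theorem KK.frob_act (hA : A.LiesOverPrime q) {φ : GQ} (hφ : A.IsFrobeniusAt φ q)
    {u : (ZMod (m * q))ˣ} (hu : RAL ι m q (toRA φ) u) (χ : xGroup (m * q) (GD m q H) n)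
    (h : KK ι (m * q) (GD m q H) id A n χ.1) :
    KK ι (m * q) (GD m q H) D.act A n
      (galX ι (m * q) (GD m q H) n φ (tX ι (m * q) (GD m q H) n q χ) *
        ((dX (m * q) (GD m q H) n u⁻¹ χ) ^ q)⁻¹ : xGroup (m * q) (GD m q H) n).1 := by
  classical
  have := charP_residue hq.out hA
  obtain ⟨k, hk⟩ : ∃ k, n = k + 1 := Nat.exists_eq_succ_of_ne_zero (NeZero.ne n)
  obtain ⟨ζ, hζ1, hζ⟩ := exists_zetaQ ι q
  obtain ⟨F, y, G, g, hF, hy, hG, hg, hKK⟩ := h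
  have hgm : GoodMap ι (m * q) (GD m q H) D.act (RAL ι m q) := goodMap_act
  set s : Qbar →+* Qbar := ((toRA φ : Qbar ≃+* Qbar) : Qbar →+* Qbar) with hs
  have hFn : IsMF ι (GD m q H) 1 (F ^ n) (y ^ n) :=
    ((hF.pow n).char_congr (xGroup_le n χ.2).1).toIsMF
  have hG1 : ∀ γ ∈ Gamma1 (m * q), ∀ τ : ℍ, (F ^ n) (γ • τ) = (F ^ n) τ := fun γ hγ =>
    hFn.inv γ ((between_GD m q H).ge hγ)
  -- `P = U_q F` and its conjugate
  have hU := hF.heckeU (M := m * q) (Dvd.intro_left m rfl : q ∣ m * q)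
  set P : ℍ → ℂ := fun τ => ∏ b : Fin q, F (aff 1 b q τ) with hP
  have hPn : IsMF ι (GD m q H) 1 (P ^ n) ((secNorm Qbar q y) ^ n) :=
    ((hU.pow n).char_congr (xGroup_le n (tX ι (m * q) (GD m q H) n q χ).2).1).toIsMF
  obtain ⟨P', hP'⟩ := conjX_spec ι (toRA φ) (tX ι (m * q) (GD m q H) n q χ) hU
  rw [← galX_apply] at hP'
  have hPn' : IsMF ι (GD m q H) 1 (P' ^ n) (coeffMap s ((secNorm Qbar q y) ^ n)) := by
    rw [map_pow]
    exact ((hP'.pow n).char_congr (xGroup_le n (galX ι (m * q) (GD m q H) n φ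
      (tX ι (m * q) (GD m q H) n q χ)).2).1).toIsMF
  -- the norm of `G`
  obtain ⟨K0, κ, hκ, hK0, hK0v⟩ := exists_K0 hG hg
  obtain ⟨K0', hK0'⟩ := exists_mf_conj hK0 (toRA φ)
  rw [← hs] at hK0'
  have hsκ : coeffMap s κ ≠ 0 := coeffMap_toRA_ne_zero hκ
  obtain ⟨κ', hκ'⟩ := hgm.exp (hK0'.mono (between_GD m q H).le)
  have hκ'0 : κ' ≠ 0 := by
    rintro rfl
    have h1 : (fun τ => K0' (D.act τ)) = 0 := hκ'.eq_zero_iff.mpr rfl
    have h2 : K0' ≠ 0 := fun h0 => hsκ (hK0'.eq_zero_iff.mp h0)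
    obtain ⟨τ, hτ⟩ := Function.ne_iff.mp h2
    obtain ⟨τ', rfl⟩ := D.act_surjective τ
    exact hτ (congrFun h1 τ')
  -- the diamond translate of `F`
  obtain ⟨y₁, hF₁⟩ := hF.exists_dia (NeZero.ne n) χ.2 u⁻¹
  have hy₁ : y₁ ≠ 0 := by
    rintro rfl
    exact hF.smul_ne_zero hy _ ((IsCF.eq_zero_iff hF₁.lexp).mpr rfl)
  set F₁ : ℍ → ℂ := fun τ => F (diaMat (m * q) u⁻¹ • τ) with hF₁def
  have hF₁n : IsMF ι (GD m q H) 1 (F₁ ^ n) (y₁ ^ n) :=
    ((hF₁.pow n).char_congr (xGroup_le n (dX (m * q) (GD m q H) n u⁻¹ χ).2).1).toIsMF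
  have hchar : (galX ι (m * q) (GD m q H) n φ (tX ι (m * q) (GD m q H) n q χ) *
        ((dX (m * q) (GD m q H) n u⁻¹ χ) ^ q)⁻¹ : xGroup (m * q) (GD m q H) n) =
      galX ι (m * q) (GD m q H) n φ (tX ι (m * q) (GD m q H) n q χ) *
        (dX (m * q) (GD m q H) n u⁻¹ χ) ^ (q * k) := by
    congr 1
    rw [inv_eq_iff_mul_eq_one, ← pow_add,
      show q + q * k = n * q by rw [hk]; ring, pow_mul, xGroup_pow, one_pow]
  rw [hchar]
  refine ⟨P' * F₁ ^ (q * k), _, (F₁ ^ n) ^ q * fun τ => K0' (D.act τ), _,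
    hP'.mul (hF₁.pow (q * k)), mul_ne_zero (coeffMap_toRA_ne_zero (secNorm_ne_zero' hy))
      (pow_ne_zero _ hy₁), (hF₁n.pow q).mul hκ',
    mul_ne_zero (pow_ne_zero _ (pow_ne_zero _ hy₁)) hκ'0, fun w => ?_⟩
  -- the expansions
  set v : (ZMod (m * q))ˣ := w * u⁻¹ with hv
  have hvu : v * u = w := inv_mul_cancel_right w u
  obtain ⟨a, ha⟩ := hgm.exp_dia hFn v
  have hal : LExp 1 (fun τ => (F ^ n) (diaMat (m * q) v • D.act τ)) (coeffMap ι a) := by
    simpa using ha.lexp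
  have ha0 : a ≠ 0 := hgm.ne_zero hFn (pow_ne_zero n hy) hal
  have hpa : PC A a a := pc_refl hq.out hA ha ha0
  choose az bz haz hbz hpc using fun x : (ZMod q)ˣ => hKK (v * liftU m x)
  -- the expansion of `P ^ n`
  have hPv : LExp 1 (fun τ => (P ^ n) (diaMat (m * q) v • D.act τ))
      (coeffMap ι (qExpand Qbar q a *
        ∏ x : (ZMod q)ˣ, twist (ζ ^ (-(x : ZMod q)).val) (az x))) := by
    have h1 := lexp_heckeU_act (D := D) hFn hζ v hal haz
    have e : (fun τ => (P ^ n) (diaMat (m * q) v • D.act τ)) =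
        fun τ => ∏ b : Fin q, (F ^ n) (aff 1 b q (diaMat (m * q) v • D.act τ)) :=
      funext fun τ => by
        simp only [Pi.pow_apply, hP, Finset.prod_pow]
    rw [e]
    exact h1
  have hPv' := hgm.conj_dia hu v hPn hPn' hPv
  rw [hvu, ← hs] at hPv'
  -- the expansion of `F₁ ^ n`
  have hF₁v : LExp 1 (fun τ => (F₁ (diaMat (m * q) w • D.act τ)) ^ n) (coeffMap ι a) := by
    have e : (fun τ => (F₁ (diaMat (m * q) w • D.act τ)) ^ n) =
        fun τ => (F ^ n) (diaMat (m * q) v • D.act τ) := funext fun τ => by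
      rw [hv, mul_comm w, ← dia_dia (M := m * q) (Γ := GD m q H) hFn.inv]
      rfl
    rw [e]
    exact hal
  -- the expansion of `K0' ^ n`
  have hK0w : ∀ τ : ℍ, K0' (D.act (diaMat (m * q) w • D.act τ)) = K0' τ := by
    intro τ
    rw [D.act_smulG (Γ := Gamma0 (m * q)) ⟨diaMat (m * q) w, diaMat_mem w⟩,
      hK0'.inv _ (D.cjG ⟨diaMat (m * q) w, diaMat_mem w⟩).2, D.act_act,
      hK0'.inv _ D.sqMat_mem]
  -- the congruence
  have hB : ∏ x : (ZMod q)ˣ, bz x = κ ^ n := by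
    have h1 := lexp_prod (Finset.univ : Finset (ZMod q)ˣ)
      (f := fun x τ => G (diaMat (m * q) (v * liftU m x) • id τ) ^ n)
      (F := fun x => coeffMap ι (bz x)) (h := 1) fun x _ => hbz x
    rw [← map_prod] at h1
    have h2 := hK0.lexp.pow n
    rw [← map_pow, Nat.cast_one] at h2
    have e : (∏ x : (ZMod q)ˣ, fun τ => G (diaMat (m * q) (v * liftU m x) • id τ) ^ n) =
        K0 ^ n := by
      funext τ
      rw [Finset.prod_apply, Finset.prod_pow, Pi.pow_apply, ← hK0v v τ]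
      rfl
    rw [e] at h1
    exact IsCF.unique h1 h2
  have hprod : PC A (∏ x : (ZMod q)ˣ, twist (ζ ^ (-(x : ZMod q)).val) (az x)) (κ ^ n) := by
    rw [← hB]
    refine PC.prod _ fun x _ => (hpc x).twist_left ?_
    rw [← pow_mul, mul_comm, pow_mul, hζ1, one_pow]
  have hmain : PC A (coeffMap s (qExpand Qbar q a *
        ∏ x : (ZMod q)ˣ, twist (ζ ^ (-(x : ZMod q)).val) (az x)))
      (a ^ q * (coeffMap s κ) ^ n) := by
    rw [map_mul, ModularCurve.coeffMap_qExpand, ← map_pow (coeffMap s)]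
    exact (hpa.toRA_qExpand hφ).mul (hprod.toRA hφ.mem_decompositionSubgroup)
  refine ⟨coeffMap s (qExpand Qbar q a *
        ∏ x : (ZMod q)ˣ, twist (ζ ^ (-(x : ZMod q)).val) (az x)) * a ^ (q * k),
    (a ^ q) ^ n * (coeffMap s κ) ^ n, ?_, ?_, ?_⟩
  · have e : (fun τ => ((P' * F₁ ^ (q * k)) (diaMat (m * q) w • D.act τ)) ^ n) =
        (fun τ => (P' ^ n) (diaMat (m * q) w • D.act τ)) *
          (fun τ => (F₁ (diaMat (m * q) w • D.act τ)) ^ n) ^ (q * k) := by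
      funext τ
      simp only [Pi.mul_apply, Pi.pow_apply, mul_pow]
      congr 1
      rw [← pow_mul, ← pow_mul, mul_comm (q * k) n]
    rw [e, map_mul, map_pow]
    exact hPv'.mul (hF₁v.pow (q * k))
  · have e : (fun τ => (((F₁ ^ n) ^ q * fun τ => K0' (D.act τ))
          (diaMat (m * q) w • D.act τ)) ^ n) =
          ((fun τ => (F₁ (diaMat (m * q) w • D.act τ)) ^ n) ^ q) ^ n * K0' ^ n := by
      funext τ
      simp only [Pi.mul_apply, Pi.pow_apply, mul_pow]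
      rw [hK0w]
    rw [e, map_mul, map_pow, map_pow, map_pow]
    have h3 := hK0'.lexp
    rw [Nat.cast_one] at h3
    exact ((hF₁v.pow q).pow n).mul (h3.pow n)
  · have e1 : (a ^ q) ^ n * (coeffMap s κ) ^ n =
        (a ^ q * (coeffMap s κ) ^ n) * a ^ (q * k) := by
      rw [← pow_mul, hk]
      ring
    rw [e1]
    exact hmain.mul (hpa.pow _)

end Main

end Fermat.Agent.Ribet
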