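import Fermat.Agent.Ribet.R3Char
import Fermat.Agent.Ribet.UqW
import Fermat.Agent.Ribet.Torus
import Fermat.Agent.Ribet.KLAlg

/-!
# The toric data and the (KL) data on the generalised eigenspace of characters of `GD m q H`
-/

set_option autoImplicit false
set_option linter.unusedSectionVars false

open UpperHalfPlane hiding I
open ModularForm Matrix.SpecialLinearGroup Filter Asymptotics CongruenceSubgroup
open scoped MatrixGroups Manifold ModularForm Polynomial Topology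

noncomputable section

namespace Fermat.Agent.Ribet

open Fermat.Agent.JLevelOne Fermat.Agent.X0Emb Fermat.Agent.ModFun ModularCurve Fermat.Agent.FG
open Fermat.Agent.EisChar Fermat.Agent.S28aux Fermat.Agent.IntStruct Fermat.Agent.HeckePar
open Fermat.Agent.X1 Fermat.Agent.X1Char Fermat.Agent.GaussVal Fermat.Agent.TEll

section Op

variable {M : ℕ} {Γ : Subgroup SL(2, ℤ)} [hΓ : Between M Γ] {n : ℕ} {I : Set ℕ} {a : ℕ → ℤ}

variable (M Γ n I a) in
/-- The generalised eigenspace, written additively. -/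
abbrev WE : Type := Additive ↥(GE M Γ n I a)

/-- The character attached to an element. -/
def ch (x : WE M Γ n I a) : Γ →* ℂˣ := (Additive.toMul x).1

theorem ch_mem (x : WE M Γ n I a) : ch x ∈ GE M Γ n I a := (Additive.toMul x).2

theorem ch_injective : Function.Injective (ch : WE M Γ n I a → (Γ →* ℂˣ)) := fun _ _ h =>
  Additive.toMul.injective (Subtype.ext h)

theorem ch_add (x y : WE M Γ n I a) : ch (x + y) = ch x * ch y := rfl

theorem ch_zero : ch (0 : WE M Γ n I a) = 1 := rfl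

theorem ch_neg (x : WE M Γ n I a) : ch (-x) = (ch x)⁻¹ := rfl

theorem ch_sub (x y : WE M Γ n I a) : ch (x - y) = ch x / ch y := rfl

theorem ch_sub' (x y : WE M Γ n I a) : ch (x - y) = ch x * (ch y)⁻¹ := by
  rw [sub_eq_add_neg, ch_add, ch_neg]

theorem ch_zsmul (k : ℤ) (x : WE M Γ n I a) : ch (k • x) = ch x ^ k := rfl

theorem ch_nsmul (k : ℕ) (x : WE M Γ n I a) : ch (k • x) = ch x ^ k := rfl

theorem ch_pow (x : WE M Γ n I a) : ch x ^ n = 1 := (ch_mem x).1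

theorem n_smul (x : WE M Γ n I a) : n • x = 0 := ch_injective (by rw [ch_nsmul, ch_pow, ch_zero])

/-- The element attached to a character. -/
def ofCh (χ : Γ →* ℂˣ) (h : χ ∈ GE M Γ n I a) : WE M Γ n I a := Additive.ofMul ⟨χ, h⟩

@[simp] theorem ch_ofCh (χ : Γ →* ℂˣ) (h : χ ∈ GE M Γ n I a) : ch (ofCh χ h) = χ := rfl

theorem ch_sum {ι : Type*} (s : Finset ι) (f : ι → WE M Γ n I a) :
    ch (∑ i ∈ s, f i) = ∏ i ∈ s, ch (f i) := by
  classical
  induction s using Finset.induction_on with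
  | empty => rw [Finset.sum_empty, Finset.prod_empty, ch_zero]
  | insert i s hi ih => rw [Finset.sum_insert hi, Finset.prod_insert hi, ch_add, ih]

/-- Operators. -/
def opW (g : (Γ →* ℂˣ) →* (Γ →* ℂˣ)) (hg : ∀ χ ∈ GE M Γ n I a, g χ ∈ GE M Γ n I a) :
    WE M Γ n I a →+ WE M Γ n I a :=
  MonoidHom.toAdditive ((g.comp (GE M Γ n I a).subtype).codRestrict _ fun χ => hg χ.1 χ.2)

@[simp] theorem ch_opW (g : (Γ →* ℂˣ) →* (Γ →* ℂˣ))
    (hg : ∀ χ ∈ GE M Γ n I a, g χ ∈ GE M Γ n I a) (x : WE M Γ n I a) :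
    ch (opW g hg x) = g (ch x) := rfl

theorem ch_iterate {f : WE M Γ n I a → WE M Γ n I a} {g : (Γ →* ℂˣ) → (Γ →* ℂˣ)}
    (h : ∀ x, ch (f x) = g (ch x)) (k : ℕ) (x : WE M Γ n I a) : ch (f^[k] x) = g^[k] (ch x) := by
  induction k generalizing x with
  | zero => rfl
  | succ k ih => rw [Function.iterate_succ_apply, Function.iterate_succ_apply, ih, h]

variable (M Γ n I a) in
/-- Diamond operators. -/
def dW (u : (ZMod M)ˣ) : WE M Γ n I a →+ WE M Γ n I a :=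
  opW (dChar M Γ u) fun _ h => dChar_mem_GE u h

@[simp] theorem ch_dW (u : (ZMod M)ˣ) (x : WE M Γ n I a) :
    ch (dW M Γ n I a u x) = dChar M Γ u (ch x) := rfl

variable (M Γ n I a) in
/-- Hecke operators. -/
def tW (ℓ : ℕ) [Fact ℓ.Prime] : WE M Γ n I a →+ WE M Γ n I a :=
  opW (tChar M Γ ℓ) fun _ h => tChar_mem_GE ℓ h

@[simp] theorem ch_tW (ℓ : ℕ) [Fact ℓ.Prime] (x : WE M Γ n I a) :
    ch (tW M Γ n I a ℓ x) = tChar M Γ ℓ (ch x) := rfl

section Gal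

variable (ι : Qbar →+* ℂ) [GoodGroup Γ] [hD : DiaGroup M Γ] [NeZero n]
  (hle : GE M Γ n I a ≤ xGroup M Γ n)

theorem galX_mem_GE (σ : GQ) {χ : xGroup M Γ n} (hχ : χ.1 ∈ GE M Γ n I a) :
    (galX ι M Γ n σ χ).1 ∈ GE M Γ n I a := by
  have h := map_mem_GE (I := I) (a := a) (Γ' := Γ) (W := xGroup M Γ n)
    (fun ℓ _ _ χ hχ => tChar_mem_xGroup ι hχ ℓ)
    ((xGroup M Γ n).subtype.comp (galX ι M Γ n σ : xGroup M Γ n →* xGroup M Γ n))
    (fun ℓ _ _ χ => congrArg Subtype.val (galX_tX (ι := ι) σ ℓ χ)) hχ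
  exact h

/-- An element of the generalised eigenspace as an element of `xGroup` -/
def toX (x : WE M Γ n I a) : xGroup M Γ n := ⟨ch x, hle (ch_mem x)⟩

/-- The Galois action. -/
def galW (σ : GQ) : WE M Γ n I a →+ WE M Γ n I a :=
  MonoidHom.toAdditive ((((xGroup M Γ n).subtype.comp
    (galX ι M Γ n σ : xGroup M Γ n →* xGroup M Γ n)).comp (Subgroup.inclusion hle)).codRestrict _
      fun χ => galX_mem_GE ι σ χ.2)

theorem ch_galW (σ : GQ) (x : WE M Γ n I a) :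
    ch (galW ι hle σ x) = (galX ι M Γ n σ (toX hle x)).1 := rfl

theorem toX_galW (σ : GQ) (x : WE M Γ n I a) :
    toX hle (galW ι hle σ x) = galX ι M Γ n σ (toX hle x) := rfl

theorem galW_dW (σ : GQ) (u : (ZMod M)ˣ) (x : WE M Γ n I a) :
    galW ι hle σ (dW M Γ n I a u x) = dW M Γ n I a u (galW ι hle σ x) := by
  apply ch_injective
  have h := congrArg Subtype.val (galX_dX (ι := ι) σ u (toX hle x))
  exact h

theorem galW_tW (σ : GQ) (ℓ : ℕ) [Fact ℓ.Prime] (x : WE M Γ n I a) :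
    galW ι hle σ (tW M Γ n I a ℓ x) = tW M Γ n I a ℓ (galW ι hle σ x) := by
  apply ch_injective
  have h := congrArg Subtype.val (galX_tX (ι := ι) σ ℓ (toX hle x))
  exact h

theorem galW_mul (σ τ : GQ) (x : WE M Γ n I a) :
    galW ι hle (σ * τ) x = galW ι hle σ (galW ι hle τ x) := by
  apply ch_injective
  rw [ch_galW, ch_galW, toX_galW, map_mul]
  rfl

theorem galW_one (x : WE M Γ n I a) : galW ι hle 1 x = x := by
  apply ch_injective
  rw [ch_galW, map_one]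
  rfl

end Gal

theorem tW_dW (ℓ : ℕ) [Fact ℓ.Prime] (u : (ZMod M)ˣ) (x : WE M Γ n I a) :
    tW M Γ n I a ℓ (dW M Γ n I a u x) = dW M Γ n I a u (tW M Γ n I a ℓ x) :=
  ch_injective (by rw [ch_tW, ch_dW, ch_dW, ch_tW, dChar_tChar_comm])

theorem tW_tW (ℓ ℓ' : ℕ) [Fact ℓ.Prime] [Fact ℓ'.Prime] (x : WE M Γ n I a) :
    tW M Γ n I a ℓ (tW M Γ n I a ℓ' x) = tW M Γ n I a ℓ' (tW M Γ n I a ℓ x) :=
  ch_injective (by rw [ch_tW, ch_tW, ch_tW, ch_tW, tChar_comm])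

variable (I a) in
/-- The subgroups defined by congruences. -/
def kW (ι : Qbar →+* ℂ) (M : ℕ) (Γ : Subgroup SL(2, ℤ)) [Between M Γ] (n : ℕ) [NeZero n]
    (g : ℍ → ℍ) (A : ValuationSubring Qbar) : AddSubgroup (WE M Γ n I a) where
  carrier := {x | KK ι M Γ g A n (ch x)}
  zero_mem' := KK.one
  add_mem' hx hy := KK.mul hx hy
  neg_mem' {x} hx := KK.inv (NeZero.ne n) (ch_pow x) hx

theorem mem_kW {ι : Qbar →+* ℂ} [NeZero n] {g : ℍ → ℍ} {A : ValuationSubring Qbar}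
    {x : WE M Γ n I a} : x ∈ kW I a ι M Γ n g A ↔ KK ι M Γ g A n (ch x) := Iff.rfl

end Op

section Alg

variable {W : Type*} [AddCommGroup W]

/-- a unipotent operator of order dividing `n = p ^ k` on a group killed by `n` -/
theorem nil_of_iterate {n p k : ℕ} (hp : p.Prime) (hn : n = p ^ k) (hW : ∀ x : W, n • x = 0)
    (δ : W →+ W) (hδ : ∀ x, (δ^[n]) x = x) :
    ∃ N : ℕ, ∀ x, ((δ - AddMonoidHom.id W)^[N]) x = 0 := by
  let d : AddMonoid.End W := δ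
  have hd : d ^ n = 1 := by
    ext x
    rw [AddMonoid.End.coe_pow]
    exact hδ x
  have hn0 : ((n : ℕ) : AddMonoid.End W) = 0 := by
    ext x
    rw [AddMonoid.End.natCast_apply]
    exact hW x
  obtain ⟨r, hr⟩ := Commute.exists_add_pow_prime_pow_eq hp (Commute.one_right (d - 1)) k
  rw [sub_add_cancel, ← hn, hd, one_pow, add_comm (_ ^ _) (1 : AddMonoid.End W), add_assoc,
    left_eq_add, mul_one, mul_assoc] at hr
  have h1 : (d - 1) ^ n = (p : AddMonoid.End W) * (-((d - 1) * r)) := by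
    rw [mul_neg]
    exact eq_neg_of_add_eq_zero_left hr
  have h2 : (d - 1) ^ (n * k) = 0 := by
    rw [pow_mul, h1, (Nat.cast_commute p _).mul_pow, ← Nat.cast_pow, ← hn, hn0, zero_mul]
  refine ⟨n * k, fun x => ?_⟩
  have h3 := DFunLike.congr_fun h2 x
  rw [AddMonoid.End.coe_pow] at h3
  exact h3

end Alg

section Inst

instance goodGroup_GD (m q : ℕ) [NeZero m] [NeZero q] (H : Subgroup (ZMod q)ˣ) :
    GoodGroup (GD m q H) := goodGroup_of_between (m * q) _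

instance intGroup_GD (m q : ℕ) [NeZero m] [NeZero q] (H : Subgroup (ZMod q)ˣ) :
    IntGroup (GD m q H) := intGroup_of_between (m * q) _

theorem WD.coprime {m q : ℕ} (D : WD m q) : Nat.Coprime q m := by
  rw [← Nat.isCoprime_iff_coprime]
  exact ⟨q * D.e, D.c, by linear_combination D.rel⟩

theorem neg_one_mem_of_odd {q : ℕ} {H : Subgroup (ZMod q)ˣ} (h : Odd H.index) :
    (-1 : (ZMod q)ˣ) ∈ H := by
  have h1 := psiGD_neg_one (m := 1) h
  rw [psiGD_apply, Dq.mk_eq_one] at h1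
  convert h1
  apply Units.ext
  rw [ZMod.unitsMap_val]
  simp

variable (ι : Qbar →+* ℂ) (m q : ℕ) [NeZero m] [Fact q.Prime] [NeZero q]
  (H : Subgroup (ZMod q)ˣ) (n : ℕ) (I : Set ℕ) (a : ℕ → ℤ)

/-- The setting of road A. -/
structure KLS where
  D : WD m q
  A : ValuationSubring Qbar
  hA : A.LiesOverPrime q
  u : (ZMod (m * q))ˣ
  hu : ∀ x : (ZMod q)ˣ, ∃ i : ℕ, ZMod.unitsMap (dvd_mq m q) u⁻¹ ^ i * x ∈ H
  σ : GQ
  hσ : σ ∈ A.inertiaSubgroupIn ℚ
  hσu : RAL ι m q (toRA σ) u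
  φ : GQ
  hφ : A.IsFrobeniusAt φ q
  hφ1 : RAL ι m q (toRA φ) 1
  p : ℕ
  k : ℕ
  hp : p.Prime
  hn : n = p ^ k
  index : H.index = n
  h6 : NoTors m n
  ℓ : ℕ
  hℓ : ℓ.Prime
  hℓI : ℓ ∈ I
  hℓM : (ℓ : ZMod (m * q)) = 1
  haℓ : IsCoprime (a ℓ - 1 - (ℓ : ℤ)) (n : ℤ)

namespace KLS

variable {ι m q H n I a}
variable (S : KLS ι m q H n I a)

include S in
theorem not_dvd : ¬ S.ℓ ∣ m * q := by
  have : Fact S.ℓ.Prime := ⟨S.hℓ⟩
  intro h
  have h1 := congrArg (ZMod.castHom h (ZMod S.ℓ)) S.hℓM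
  rw [map_natCast, map_one, ZMod.natCast_self] at h1
  exact zero_ne_one h1

include S in
theorem hle [NeZero n] : GE (m * q) (GD m q H) n I a ≤ xGroup (m * q) (GD m q H) n := by
  have : Fact S.ℓ.Prime := ⟨S.hℓ⟩
  exact GE_le_xGroup S.h6 S.hℓI S.haℓ S.hℓM

theorem N1 {χ : GD m q H →* ℂˣ} (hχ : χ ∈ GE (m * q) (GD m q H) n I a)
    (hδ : dChar (m * q) (GD m q H) S.u⁻¹ χ = χ) :
    ∃ ψ ∈ GE (m * q) (GD m q H) n I a,
      χ = ∏ i ∈ Finset.range n, (dChar (m * q) (GD m q H) S.u⁻¹)^[i] ψ := by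
  have : Fact S.ℓ.Prime := ⟨S.hℓ⟩
  exact GE_N1 S.index S.h6 S.hu S.hℓI S.haℓ S.not_dvd hχ hδ

theorem N2 {χ : GD m q H →* ℂˣ} (hχ : χ ∈ GE (m * q) (GD m q H) n I a)
    (hN : ∏ i ∈ Finset.range n, (dChar (m * q) (GD m q H) S.u⁻¹)^[i] χ = 1) :
    ∃ ψ ∈ GE (m * q) (GD m q H) n I a, χ = dChar (m * q) (GD m q H) S.u⁻¹ ψ / ψ := by
  have : Fact S.ℓ.Prime := ⟨S.hℓ⟩
  exact GE_N2 S.index S.h6 S.hu S.hℓI S.haℓ S.not_dvd hχ hN

theorem N0 {χ : GD m q H →* ℂˣ} (hχ : χ ∈ GE (m * q) (GD m q H) n I a)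
    (hδ : dChar (m * q) (GD m q H) S.u⁻¹ χ = χ) :
    ∃ ψ ∈ GE (m * q) (Gamma0 (m * q)) n I a, resC (m * q) (GD m q H) ψ = χ := by
  have : Fact S.ℓ.Prime := ⟨S.hℓ⟩
  exact GE_exists_resC S.index S.h6 S.hu S.hℓI S.haℓ S.not_dvd hχ hδ

/-- The diamond operator. -/
def δW : WE (m * q) (GD m q H) n I a →+ WE (m * q) (GD m q H) n I a :=
  dW (m * q) (GD m q H) n I a S.u⁻¹

@[simp] theorem ch_δW (x : WE (m * q) (GD m q H) n I a) :
    ch (S.δW x) = dChar (m * q) (GD m q H) S.u⁻¹ (ch x) := rfl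

theorem δW_iterate (x : WE (m * q) (GD m q H) n I a) : ((S.δW)^[n]) x = x := by
  classical
  let _ : Fintype (Dq q H) := Fintype.ofFinite _
  apply ch_injective
  rw [ch_iterate (g := dChar (m * q) (GD m q H) S.u⁻¹) (fun x => rfl)]
  obtain ⟨φ, hφ, h⟩ := exists_of_mem_GE (ch_mem x)
  rw [← h, ← chi_iterate (chi_dd S.u⁻¹)]
  have h1 := dd_iterate_card (u := S.u⁻¹) (isKer_GD m q H) φ
  rw [card_quot S.index] at h1
  rw [h1]

theorem δW_nil : ∃ N : ℕ, ∀ x : WE (m * q) (GD m q H) n I a,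
    ((S.δW - AddMonoidHom.id (WE (m * q) (GD m q H) n I a))^[N]) x = 0 :=
  nil_of_iterate S.hp S.hn n_smul S.δW S.δW_iterate

theorem surj_W (x : WE (m * q) (GD m q H) n I a) (hx : S.δW x = x) :
    ∃ z, x = S.δW (S.δW z - z) - (S.δW z - z) := by
  obtain ⟨ψ, hψ, h⟩ := S.N1 (ch_mem x) (congrArg ch hx)
  obtain ⟨z, hz⟩ := norm_eq S.δW (odd_of_six S.h6) n_smul (ofCh ψ hψ)
  refine ⟨z, ?_⟩
  rw [← hz]
  apply ch_injective
  rw [ch_sum, h]
  refine Finset.prod_congr rfl fun i _ => ?_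
  rw [ch_iterate (g := dChar (m * q) (GD m q H) S.u⁻¹) (fun x => rfl), ch_ofCh]

variable [NeZero n]

/-- The kernel of the specialisation at the first cusp. -/
def K1 : AddSubgroup (WE (m * q) (GD m q H) n I a) := kW I a ι (m * q) (GD m q H) n id S.A

/-- The kernel of the specialisation at the second cusp. -/
def K2 : AddSubgroup (WE (m * q) (GD m q H) n I a) := kW I a ι (m * q) (GD m q H) n S.D.act S.A

include S in
theorem alGroup : ALGroup S.D (GD m q H) :=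
  alGroup_GD S.D S.D.coprime (neg_one_mem_of_odd (S.index ▸ odd_of_six S.h6))

/-- The generator of tame inertia. -/
def σW : WE (m * q) (GD m q H) n I a →+ WE (m * q) (GD m q H) n I a := galW ι S.hle S.σ

/-- The Frobenius. -/
def φW : WE (m * q) (GD m q H) n I a →+ WE (m * q) (GD m q H) n I a := galW ι S.hle S.φ

/-- The operator `U_q`. -/
def UW (_S : KLS ι m q H n I a) : WE (m * q) (GD m q H) n I a →+ WE (m * q) (GD m q H) n I a :=
  tW (m * q) (GD m q H) n I a q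

theorem δW_K1 (x : WE (m * q) (GD m q H) n I a) (hx : x ∈ S.K1) : S.δW x ∈ S.K1 :=
  KK.dia (NeZero.ne n) (S.hle (ch_mem x)) hx S.u⁻¹

theorem δW_K2 (x : WE (m * q) (GD m q H) n I a) (hx : x ∈ S.K2) : S.δW x ∈ S.K2 :=
  KK.dia (NeZero.ne n) (S.hle (ch_mem x)) hx S.u⁻¹

theorem dX_one_inv (χ : xGroup (m * q) (GD m q H) n) :
    dX (m * q) (GD m q H) n 1⁻¹ χ = χ :=
  Subtype.ext (by rw [inv_one, coe_dX, dChar_one])

theorem a_W (x : WE (m * q) (GD m q H) n I a) : S.σW x - x ∈ S.K1 := by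
  have h := KK.inertia (ι := ι) (Γ := GD m q H) (M := m * q) (n := n)
    (Fact.out : q.Prime) S.hA goodMap_id S.hσ (u := 1) rfl (toX S.hle x)
  rw [dX_one_inv] at h
  refine KK.congr h ?_
  rw [ch_sub']
  rfl

theorem b_W (x : WE (m * q) (GD m q H) n I a) : S.σW x - S.δW x ∈ S.K2 := by
  have := S.alGroup
  have h := KK.inertia (ι := ι) (Γ := GD m q H) (M := m * q) (n := n)
    (Fact.out : q.Prime) S.hA (goodMap_act (D := S.D)) S.hσ S.hσu (toX S.hle x)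
  refine KK.congr h ?_
  rw [ch_sub']
  rfl

theorem φW_K1 (x : WE (m * q) (GD m q H) n I a) (hx : x ∈ S.K1) : S.φW x ∈ S.K1 :=
  KK.gal (ι := ι) (Γ := GD m q H) (M := m * q) (n := n) goodMap_id
    S.hφ.mem_decompositionSubgroup (u := 1) rfl (toX S.hle x) hx

theorem σW_K1 (x : WE (m * q) (GD m q H) n I a) (hx : x ∈ S.K1) : S.σW x ∈ S.K1 :=
  KK.gal (ι := ι) (Γ := GD m q H) (M := m * q) (n := n) goodMap_id
    (mem_decompositionSubgroup_of_inertia S.hσ) (u := 1) rfl (toX S.hle x) hx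

theorem φW_K2 (x : WE (m * q) (GD m q H) n I a) (hx : x ∈ S.K2) : S.φW x ∈ S.K2 := by
  have := S.alGroup
  exact KK.gal (ι := ι) (Γ := GD m q H) (M := m * q) (n := n) (goodMap_act (D := S.D))
    S.hφ.mem_decompositionSubgroup S.hφ1 (toX S.hle x) hx

theorem d_W (x : WE (m * q) (GD m q H) n I a) : S.φW x - S.UW x ∈ S.K1 := by
  have h := KK.frob_id (ι := ι) (Γ := GD m q H) (M := m * q) (n := n)
    (Dvd.intro_left m rfl) S.hA S.hφ (toX S.hle x)
  refine KK.congr h ?_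
  rw [ch_sub']
  rfl

theorem e_W (x : WE (m * q) (GD m q H) n I a) (hx : x ∈ S.K1) :
    S.φW (S.UW x) - (q : ℤ) • x ∈ S.K2 := by
  have := S.alGroup
  have h := KK.frob_act (ι := ι) (D := S.D) (H := H) (n := n)
    S.hA S.hφ S.hφ1 (toX S.hle x) hx
  rw [dX_one_inv] at h
  refine KK.congr h ?_
  have h1 : ch ((q : ℤ) • x) = ch x ^ q := zpow_natCast (ch x) q
  rw [ch_sub', h1]
  rfl

/-- **The toric data.** -/
def toric (inter : ∀ x, S.δW x = x → (x ∈ S.K1 ↔ x ∈ S.K2)) :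
    ToricData (WE (m * q) (GD m q H) n I a) where
  δ := S.δW
  σ := S.σW
  K₁ := S.K1
  K₂ := S.K2
  comm x := galW_dW ι S.hle S.σ S.u⁻¹ x
  nil x := by
    obtain ⟨N, hN⟩ := S.δW_nil
    exact ⟨N, hN x⟩
  surj y hy := by
    obtain ⟨z, hz⟩ := S.surj_W y hy
    exact ⟨S.δW z - z, hz.symm⟩
  stab₁ := S.δW_K1
  stab₂ := S.δW_K2
  a := S.a_W
  b := S.b_W
  inter := inter

@[simp] theorem toric_δ (inter) : (S.toric inter).δ = S.δW := rfl
@[simp] theorem toric_σ (inter) : (S.toric inter).σ = S.σW := rfl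
@[simp] theorem toric_K₁ (inter) : (S.toric inter).K₁ = S.K1 := rfl
@[simp] theorem toric_K₂ (inter) : (S.toric inter).K₂ = S.K2 := rfl

include S in
theorem finite_WE : Finite (WE (m * q) (GD m q H) n I a) :=
  Finite.of_injective (fun x => toX S.hle x) fun x y h => by
    apply ch_injective
    have h1 : (toX S.hle x).1 = (toX S.hle y).1 := congrArg Subtype.val h
    exact h1

/-- The condition (c) from the count of the toric part. -/
theorem c_of_card (inter : ∀ x, S.δW x = x → (x ∈ S.K1 ↔ x ∈ S.K2))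
    (hcard : Nat.card (S.toric inter).T₀ ^ 2 ≤ Nat.card (S.toric inter).W₀) :
    ∀ x ∈ S.K1, x ∈ S.K2 → S.δW x = x := by
  have := S.finite_WE
  exact fun x h1 h2 => (S.toric inter).c hcard x h1 h2

section Uε

variable {ε : ℤ} (hU : ∀ χ ∈ GE (m * q) (Gamma0 (m * q)) n I a,
  tChar (m * q) (Gamma0 (m * q)) q χ = χ ^ ε)

include hU in
/-- `U_q = ε` on the invariants. -/
theorem UW_of_inv (x : WE (m * q) (GD m q H) n I a) (hx : S.δW x = x) : S.UW x = ε • x := by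
  obtain ⟨χ, hχ, h⟩ := S.N0 (ch_mem x) (congrArg ch hx)
  apply ch_injective
  have h1 : ch (ε • x) = resC (m * q) (GD m q H) (χ ^ ε) := by
    rw [ch_zsmul, ← h]
    exact (map_zpow (resC (m * q) (GD m q H)) χ ε).symm
  rw [h1, ← hU χ hχ]
  show tChar (m * q) (GD m q H) q (ch x) = _
  rw [← h]
  obtain ⟨φ, hφ, rfl⟩ := exists_of_mem_GE hχ
  rw [← chi_resG, ← chi_TT, ← chi_TT, ← chi_resG, resG_TT (isKer_GD m q H)]

theorem sum_δW (x : WE (m * q) (GD m q H) n I a) :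
    S.δW (∑ i ∈ Finset.range n, (S.δW)^[i] x) = ∑ i ∈ Finset.range n, (S.δW)^[i] x := by
  have h1 := Finset.sum_range_succ (fun i => (S.δW)^[i] x) n
  have h2 := Finset.sum_range_succ' (fun i => (S.δW)^[i] x) n
  rw [h1, S.δW_iterate, Function.iterate_zero_apply] at h2
  have h3 := add_right_cancel h2
  refine Eq.trans ?_ h3.symm
  rw [map_sum]
  refine Finset.sum_congr rfl fun i _ => ?_
  rw [Function.iterate_succ_apply']

theorem UW_δW (x : WE (m * q) (GD m q H) n I a) : S.UW (S.δW x) = S.δW (S.UW x) :=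
  tW_dW q S.u⁻¹ x

theorem UW_iterate (i : ℕ) (x : WE (m * q) (GD m q H) n I a) :
    S.UW ((S.δW)^[i] x) = (S.δW)^[i] (S.UW x) :=
  Function.Commute.iterate_right (f := S.UW) (g := S.δW) S.UW_δW i x

include hU in
/-- `U_q = ε` modulo `δ - 1`. -/
theorem UW_eq (x : WE (m * q) (GD m q H) n I a) : ∃ z, S.UW x - ε • x = S.δW z - z := by
  have h1 : ∑ i ∈ Finset.range n, (S.δW)^[i] (S.UW x - ε • x) = 0 := by
    have h2 : ∀ i ∈ Finset.range n, (S.δW)^[i] (S.UW x - ε • x) =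
        S.UW ((S.δW)^[i] x) - ε • ((S.δW)^[i] x) := by
      intro i _
      rw [S.UW_iterate, iterate_map_sub, iterate_map_zsmul]
    rw [Finset.sum_congr rfl h2, Finset.sum_sub_distrib, ← map_sum, ← Finset.smul_sum,
      S.UW_of_inv hU _ (S.sum_δW x), sub_self]
  obtain ⟨ψ, hψ, h⟩ := S.N2 (ch_mem (S.UW x - ε • x)) (by
    have h3 := congrArg ch h1
    rw [ch_sum, ch_zero] at h3
    rw [← h3]
    refine Finset.prod_congr rfl fun i _ => ?_
    rw [ch_iterate (g := dChar (m * q) (GD m q H) S.u⁻¹) (fun x => rfl)])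
  refine ⟨ofCh ψ hψ, ch_injective ?_⟩
  rw [h]
  rfl

end Uε

/-- **The (KL) data.** -/
def kl {ε : ℤ} (hε : ε * ε = 1) (hq : (q : ZMod n) = 1)
    (hU : ∀ χ ∈ GE (m * q) (Gamma0 (m * q)) n I a, tChar (m * q) (Gamma0 (m * q)) q χ = χ ^ ε)
    (c : ∀ x ∈ S.K1, x ∈ S.K2 → S.δW x = x) :
    KLData (WE (m * q) (GD m q H) n I a) where
  δ := S.δW
  σ := S.σW
  φ := S.φW
  U := S.UW
  K₁ := S.K1
  K₂ := S.K2
  ε := ε
  q := q
  εε := hε
  q_smul x := by
    have h1 : ((q : ℤ) - 1 : ℤ) • x = 0 := by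
      have h2 : (n : ℤ) ∣ (q : ℤ) - 1 := by
        rw [← ZMod.intCast_zmod_eq_zero_iff_dvd]
        push_cast
        rw [hq, sub_self]
      obtain ⟨t, ht⟩ := h2
      rw [ht, mul_comm (n : ℤ) t, mul_smul, natCast_zsmul, n_smul, smul_zero]
    rw [sub_smul, one_smul, sub_eq_zero] at h1
    exact h1
  σδ x := galW_dW ι S.hle S.σ S.u⁻¹ x
  φδ x := galW_dW ι S.hle S.φ S.u⁻¹ x
  Uδ := S.UW_δW
  Uσ x := (galW_tW ι S.hle S.σ q x).symm
  δ₁ := S.δW_K1
  σ₁ := S.σW_K1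
  φ₁ := S.φW_K1
  φ₂ := S.φW_K2
  a := S.a_W
  b := S.b_W
  c := c
  d := S.d_W
  e := S.e_W
  surj := S.surj_W
  Uε := S.UW_eq hU

section
variable {ε : ℤ} (hε : ε * ε = 1) (hq : (q : ZMod n) = 1)
    (hU : ∀ χ ∈ GE (m * q) (Gamma0 (m * q)) n I a, tChar (m * q) (Gamma0 (m * q)) q χ = χ ^ ε)
    (c : ∀ x ∈ S.K1, x ∈ S.K2 → S.δW x = x)

@[simp] theorem kl_δ : (S.kl hε hq hU c).δ = S.δW := rfl
@[simp] theorem kl_σ : (S.kl hε hq hU c).σ = S.σW := rfl
@[simp] theorem kl_φ : (S.kl hε hq hU c).φ = S.φW := rfl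
@[simp] theorem kl_U : (S.kl hε hq hU c).U = S.UW := rfl
@[simp] theorem kl_ε : (S.kl hε hq hU c).ε = ε := rfl
@[simp] theorem kl_K₁ : (S.kl hε hq hU c).K₁ = S.K1 := rfl
@[simp] theorem kl_K₂ : (S.kl hε hq hU c).K₂ = S.K2 := rfl

end

end KLS

end Inst

end Fermat.Agent.Ribet
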