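import Fermat.Agent.S36.NormInertia
import Fermat.Agent.RTD.TameGen
import Fermat.Agent.Frob.Exists
import Fermat.Agent.Ribet.KLInst

/-!
# Choice of the Frobenius and of the tame generator
-/

set_option autoImplicit false
set_option linter.unusedSectionVars false

open CongruenceSubgroup

noncomputable section

namespace Fermat.Agent.Ribet

open Fermat.Agent.JLevelOne Fermat.Agent.X0Emb Fermat.Agent.ModFun ModularCurve Fermat.Agent.FG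
open Fermat.Agent.EisChar Fermat.Agent.S28aux Fermat.Agent.IntStruct Fermat.Agent.HeckePar
open Fermat.Agent.X1 Fermat.Agent.X1Char Fermat.Agent.GaussVal Fermat.Agent.TEll
open Fermat.Agent.RTD (IsTameGen)

variable {ι : Qbar →+* ℂ} {m q : ℕ} [NeZero m] [hq : Fact q.Prime] [NeZero q]
  {A : ValuationSubring Qbar}

/-- The product of an element of inertia and of a Frobenius is a Frobenius. -/
theorem isFrobeniusAt_mul {φ τ : GQ} (hφ : A.IsFrobeniusAt φ q)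
    (hτ : τ ∈ A.inertiaSubgroupIn ℚ) : A.IsFrobeniusAt (τ * φ) q := by
  obtain ⟨hφd, hφr⟩ := hφ
  obtain ⟨σ', hσ', rfl⟩ := hτ
  refine ⟨mul_mem σ'.2 hφd, fun x => ?_⟩
  have h1 : (⟨(σ' : GQ) * φ, mul_mem σ'.2 hφd⟩ : A.decompositionSubgroup ℚ) =
    σ' * ⟨φ, hφd⟩ := rfl
  have h2 : ∀ y : IsLocalRing.ResidueField A, σ' • y = y := by
    intro y
    have h3 := MonoidHom.mem_ker.mp hσ'
    exact congrArg (fun f => f y) h3
  erw [h1, mul_smul, hφr, h2]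

theorem ral_iff {K : Type} [Field K] [Countable K] [IsAlgClosed K] (ι : K →+* ℂ) {ζ : K}
    (hζ : ι ζ = ((zetaU 1 q : ℂˣ) : ℂ)) (σ : K ≃+* K) (u : (ZMod (m * q))ˣ) :
    RAL ι m q σ u ↔ σ ζ ^ ((u : ZMod (m * q)).val) = ζ := by
  constructor
  · exact fun h => h ζ hζ
  · intro h ζ' hζ'
    rw [← hζ] at hζ'
    rw [ι.injective hζ']
    exact h

theorem exists_prim (ι : Qbar →+* ℂ) (q : ℕ) [Fact q.Prime] [NeZero q] :
    ∃ ζ : Qbar, IsPrimitiveRoot ζ q ∧ ι ζ = ((zetaU 1 q : ℂˣ) : ℂ) := by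
  obtain ⟨ζ, hζ⟩ := mem_range_of_isAlgebraic ι (isAlgebraic_zetaU q)
  refine ⟨ζ, ?_, hζ⟩
  refine IsPrimitiveRoot.of_map_of_injective (f := ι) ?_ ι.injective
  rw [hζ]
  exact zetaU_isPrimitiveRoot q

/-- **(i)** There are Frobenius elements acting trivially on the `q`-th roots of unity. -/
theorem exists_frob_RAL (ι : Qbar →+* ℂ) (m : ℕ) [NeZero m] (hA : A.LiesOverPrime q) :
    ∃ φ : GQ, A.IsFrobeniusAt φ q ∧ RAL ι m q (toRA φ) 1 := by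
  obtain ⟨ζ, hζ, hζι⟩ := exists_prim ι q
  obtain ⟨φ₀, hφ₀⟩ := Fermat.Agent.Frob.exists_isFrobeniusAt hq.out hA
  obtain ⟨τ, hτ, h⟩ := Fermat.Agent.S36norm.exists_inertia_zeta hq.out hA
    (hζ.map_of_injective φ₀.injective) hζ
  refine ⟨τ * φ₀, isFrobeniusAt_mul hφ₀ hτ, ?_⟩
  rw [ral_iff ι hζι, Units.val_one, val_one_mul, pow_one]
  exact h

/-- the cyclotomic character modulo `q` -/
theorem autToPow_eq {ζ : Qbar} (hζ : IsPrimitiveRoot ζ q) {σ : GQ} {x : (ZMod q)ˣ}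
    (h : σ ζ = ζ ^ ((x : ZMod q).val)) : hζ.autToPow ℚ σ = x := by
  have h1 := hζ.autToPow_spec ℚ σ
  rw [h] at h1
  apply Units.ext
  apply ZMod.val_injective
  exact hζ.pow_inj (ZMod.val_lt _) (ZMod.val_lt _) h1

theorem ral_of_autToPow (ι : Qbar →+* ℂ) {ζ : Qbar} (hζ : IsPrimitiveRoot ζ q)
    (hζι : ι ζ = ((zetaU 1 q : ℂˣ) : ℂ)) {σ : GQ} {u : (ZMod (m * q))ˣ}
    (h : redU m u = (hζ.autToPow ℚ σ)⁻¹) : RAL ι m q (toRA σ) u := by
  rw [ral_iff ι hζι]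
  show σ ζ ^ _ = ζ
  rw [← hζ.autToPow_spec ℚ σ, ← pow_mul]
  conv_rhs => rw [← pow_one ζ]
  refine pow_eq_pow_of_modEq ?_ hζ.pow_eq_one
  rw [← ZMod.natCast_eq_natCast_iff]
  push_cast
  rw [ZMod.natCast_zmod_val]
  have h1 := congrArg (fun v : (ZMod q)ˣ => (v : ZMod q)) h
  simp only [coe_redU] at h1
  have h2 : (((u : ZMod (m * q)).val : ℕ) : ZMod q) =
      ZMod.castHom (Dvd.intro_left m rfl : q ∣ m * q) (ZMod q) (u : ZMod (m * q)) := by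
    have : NeZero (m * q) := ⟨Nat.mul_ne_zero (NeZero.ne m) (NeZero.ne q)⟩
    rw [← map_natCast (ZMod.castHom (Dvd.intro_left m rfl : q ∣ m * q) (ZMod q)),
      ZMod.natCast_zmod_val]
  rw [h2, h1, Units.mul_inv]

/-- Every automorphism is related to some diamond. -/
theorem exists_RAL (ι : Qbar →+* ℂ) (m : ℕ) [NeZero m] (q : ℕ) [Fact q.Prime] [NeZero q] (σ : GQ) :
    ∃ u : (ZMod (m * q))ˣ, RAL ι m q (toRA σ) u := by
  obtain ⟨ζ, hζ, hζι⟩ := exists_prim ι q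
  exact ⟨liftU m (hζ.autToPow ℚ σ)⁻¹, ral_of_autToPow ι hζ hζι (redU_liftU _)⟩

/-- **(ii)** A tame generator generates the quotient `(ℤ/q)ˣ / H` of index a power of `p`. -/
theorem exists_gen_RAL (ι : Qbar →+* ℂ) (m : ℕ) [NeZero m] {p k : ℕ} (hp : p.Prime)
    (hA : A.LiesOverPrime q) (hqp : q ≠ p) {σ₀ : GQ} (hσ₀ : IsTameGen A p q σ₀)
    {H : Subgroup (ZMod q)ˣ} (hH : H.index = p ^ k) :
    ∃ u : (ZMod (m * q))ˣ, RAL ι m q (toRA σ₀) u ∧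
      ∀ x : (ZMod q)ˣ, ∃ i : ℕ, ZMod.unitsMap (dvd_mq m q) u⁻¹ ^ i * x ∈ H := by
  classical
  have : Fact p.Prime := ⟨hp⟩
  obtain ⟨ζ, hζ, hζι⟩ := exists_prim ι q
  refine ⟨liftU m (hζ.autToPow ℚ σ₀)⁻¹, ral_of_autToPow ι hζ hζι (redU_liftU _), fun x => ?_⟩
  have hu : ZMod.unitsMap (dvd_mq m q) (liftU m (hζ.autToPow ℚ σ₀)⁻¹)⁻¹ =
      hζ.autToPow ℚ σ₀ := by
    rw [map_inv]
    show (redU m _)⁻¹ = _
    rw [redU_liftU, inv_inv]
  rw [hu]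
  let f : A.inertiaSubgroupIn ℚ →* Dq q H := (Dq.mk q H).comp
    ((hζ.autToPow ℚ).comp (A.inertiaSubgroupIn ℚ).subtype)
  have hcard : Nat.card (Dq q H) = p ^ k := by rw [Dq.card, hH]
  have hpg : IsPGroup p f.range := (IsPGroup.of_card hcard).to_subgroup _
  have hint : IsIntegral ℚ ζ := hζ.isIntegral (Nat.pos_of_ne_zero (NeZero.ne q)) |>.tower_top
  have hfd : FiniteDimensional ℚ (IntermediateField.adjoin ℚ {ζ}) :=
    IntermediateField.adjoin.finiteDimensional hint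
  obtain ⟨τ, hτ, hτx⟩ := Fermat.Agent.S36norm.exists_inertia_zeta hq.out hA hζ
    (hζ.pow_of_coprime ((x⁻¹ : (ZMod q)ˣ) : ZMod q).val (ZMod.val_coe_unit_coprime _))
  have h1 := hσ₀.mem_zpowers hq.out hA hqp f hpg (IntermediateField.adjoin ℚ {ζ})
    (fun i hi => by
      have h2 : hζ.autToPow ℚ (i : GQ) = 1 := by
        apply autToPow_eq
        rw [hi ζ (IntermediateField.mem_adjoin_simple_self ℚ ζ), Units.val_one]
        have : Fact (1 < q) := ⟨hq.out.one_lt⟩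
        rw [ZMod.val_one, pow_one]
      show Dq.mk q H (hζ.autToPow ℚ (i : GQ)) = 1
      rw [h2, map_one]) ⟨τ, hτ⟩
  obtain ⟨i, hi⟩ := mem_powers_iff_mem_zpowers.mpr h1
  refine ⟨i, ?_⟩
  have h3 : Dq.mk q H (hζ.autToPow ℚ σ₀) ^ i = Dq.mk q H (hζ.autToPow ℚ τ) := hi
  rw [autToPow_eq hζ hτx, map_inv] at h3
  rw [← Dq.mk_eq_one, map_mul, map_pow, h3, inv_mul_cancel]

/-- There are subgroups of `(ℤ/q)ˣ` of any index dividing `q - 1`. -/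
theorem exists_index (q : ℕ) [Fact q.Prime] {n : ℕ} (hn : n ∣ q - 1) :
    ∃ H : Subgroup (ZMod q)ˣ, H.index = n := by
  refine ⟨(powMonoidHom n : (ZMod q)ˣ →* (ZMod q)ˣ).range, ?_⟩
  rw [IsCyclic.index_powMonoidHom_range, Nat.card_eq_fintype_card, ZMod.card_units]
  exact Nat.gcd_eq_right hn

/-- **Existence of the setting of road A** with a given tame generator. -/
theorem exists_KLS (ι : Qbar →+* ℂ) {m q : ℕ} [NeZero m] [hq : Fact q.Prime] [NeZero q]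
    (hcop : Nat.Coprime q m) {A : ValuationSubring Qbar} (hA : A.LiesOverPrime q)
    {p k n : ℕ} (hp : p.Prime) (hqp : q ≠ p) (hn : n = p ^ k) (hnq : n ∣ q - 1)
    (h6 : NoTors m n) {σ₀ : GQ} (hσ₀ : IsTameGen A p q σ₀) {I : Set ℕ} {a : ℕ → ℤ}
    {ℓ : ℕ} (hℓ : ℓ.Prime) (hℓI : ℓ ∈ I) (hℓM : (ℓ : ZMod (m * q)) = 1)
    (haℓ : IsCoprime (a ℓ - 1 - (ℓ : ℤ)) (n : ℤ)) :
    ∃ (H : Subgroup (ZMod q)ˣ) (S : KLS ι m q H n I a), S.A = A ∧ S.σ = σ₀ := by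
  obtain ⟨D⟩ := exists_WD hcop
  obtain ⟨H, hH⟩ := exists_index q hnq
  obtain ⟨φ, hφ, hφ1⟩ := exists_frob_RAL ι m hA
  obtain ⟨u, hu, hgen⟩ := exists_gen_RAL ι m hp hA hqp hσ₀ (hH.trans hn)
  exact ⟨H, ⟨D, A, hA, u, hgen, σ₀, hσ₀.1, hu, φ, hφ, hφ1, p, k, hp, hn, hH, h6, ℓ, hℓ, hℓI,
    hℓM, haℓ⟩, rfl, rfl⟩

end Fermat.Agent.Ribet
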