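import Mathlib.Algebra.Module.LinearMap.End
import Mathlib.Algebra.Group.Subgroup.Basic
import Mathlib.Tactic.Abel
import Mathlib.Tactic.NoncommRing

/-!
# The intersection of the two specialisation kernels is `Δ`-invariant

Formal part of the tame Greenberg-Stevens argument (helper43): `W` is a module over `(ℤ/n)[Δ]`,
`w = δ - 1`, `A = σ - 1`.
-/

set_option autoImplicit false

namespace Fermat.Agent.Ribet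

/-- The data for the formal argument. `w = δ - 1`, `A = σ - 1`, `Nm = ∑ δ^i = w * Nm'`. -/
structure ConeData (W : Type*) [AddCommGroup W] where
  w : W →+ W
  A : W →+ W
  Nm : W →+ W
  Nm' : W →+ W
  K₁ : AddSubgroup W
  K₂ : AddSubgroup W
  T : AddSubgroup W
  A_w : ∀ x, A (w x) = w (A x)
  A_Nm : ∀ x, A (Nm x) = Nm (A x)
  A_Nm' : ∀ x, A (Nm' x) = Nm' (A x)
  Nm_eq : ∀ x, Nm x = w (Nm' x)
  Nm_comm : ∀ x, w (Nm' x) = Nm' (w x)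
  w_Nm : ∀ x, w (Nm x) = 0
  nilp : ∀ x, ∃ k : ℕ, w^[k] x = 0
  N1 : ∀ x, w x = 0 → ∃ y, x = Nm y
  N2 : ∀ x, Nm x = 0 → ∃ y, x = w y
  K₁_w : ∀ x ∈ K₁, w x ∈ K₁
  K₂_w : ∀ x ∈ K₂, w x ∈ K₂
  /-- `(σ - 1) W ⊆ K₁` -/
  ha : ∀ x, A x ∈ K₁
  /-- `(σ - δ) W ⊆ K₂` -/
  hb : ∀ x, A x - w x ∈ K₂
  hK₁ : ∀ x, w x = 0 → x ∈ K₁ → x ∈ T
  hK₂ : ∀ x, w x = 0 → x ∈ K₂ → x ∈ T
  /-- `T ⊆ ker (σ - 1)` -/
  hT : ∀ x ∈ T, A x = 0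
  /-- `T ⊆ (σ - 1) W^Δ` -/
  hT' : ∀ x ∈ T, ∃ y, w y = 0 ∧ x = A y

namespace ConeData

variable {W : Type*} [AddCommGroup W] (D : ConeData W)

/-- The key step. -/
theorem step {x : W} (h₁ : x ∈ D.K₁) (h₂ : x ∈ D.K₂) (hx : D.w (D.w x) = 0) : D.w x = 0 := by
  obtain ⟨ξ₀, hξ₀⟩ := D.N1 _ hx
  -- `w (x - Nm' ξ₀) = 0`
  have h3 : D.w (x - D.Nm' ξ₀) = 0 := by
    rw [map_sub, hξ₀, D.Nm_eq, sub_self]
  obtain ⟨ξ₁, hξ₁⟩ := D.N1 _ h3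
  -- `x = Nm' ξ`
  obtain ⟨ξ, hξ⟩ : ∃ ξ, x = D.Nm' ξ := by
    refine ⟨ξ₀ + D.w ξ₁, ?_⟩
    rw [map_add, ← D.Nm_comm, ← D.Nm_eq, ← hξ₁]; abel
  have hy : D.w x = D.Nm ξ := by rw [hξ, D.Nm_eq]
  have hyT : D.w x ∈ D.T := D.hK₁ _ hx (D.K₁_w _ h₁)
  obtain ⟨e', he', hye⟩ := D.hT' _ hyT
  obtain ⟨e, rfl⟩ := D.N1 _ he'
  -- `Nm (ξ - A e) = 0`
  have h4 : D.Nm (ξ - D.A e) = 0 := by
    rw [map_sub, ← hy, ← D.A_Nm, ← hye, sub_self]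
  obtain ⟨t, ht⟩ := D.N2 _ h4
  have hξ' : ξ = D.A e + D.w t := by rw [← ht]; abel
  have hx' : x = D.A (D.Nm' e) + D.Nm t := by
    rw [hξ, hξ', map_add, ← D.A_Nm', ← D.Nm_comm, ← D.Nm_eq]
  have h5 : D.Nm t ∈ D.T := by
    refine D.hK₁ _ (D.w_Nm t) ?_
    have : D.Nm t = x - D.A (D.Nm' e) := by rw [hx']; abel
    rw [this]
    exact D.K₁.sub_mem h₁ (D.ha _)
  have h6 : D.Nm e + D.Nm t ∈ D.T := by
    refine D.hK₂ _ (by rw [map_add, D.w_Nm, D.w_Nm, add_zero]) ?_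
    have : D.Nm e + D.Nm t = x - (D.A (D.Nm' e) - D.w (D.Nm' e)) := by
      rw [hx', ← D.Nm_eq]; abel
    rw [this]
    exact D.K₂.sub_mem h₂ (D.hb _)
  have h7 : D.Nm e ∈ D.T := by
    have := D.T.sub_mem h6 h5
    rwa [add_sub_cancel_right] at this
  rw [hye, D.hT _ h7]

theorem step_iterate (k : ℕ) : ∀ x ∈ D.K₁, x ∈ D.K₂ → D.w^[k] x = 0 → D.w x = 0 := by
  induction k with
  | zero => intro x _ _ h; simp only [Function.iterate_zero, id_eq] at h; rw [h, map_zero]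
  | succ k ih =>
    intro x h₁ h₂ h
    rw [Function.iterate_succ_apply] at h
    exact D.step h₁ h₂ (ih _ (D.K₁_w _ h₁) (D.K₂_w _ h₂) h)

/-- `K₁ ∩ K₂ ⊆ W^Δ`. -/
theorem w_eq_zero {x : W} (h₁ : x ∈ D.K₁) (h₂ : x ∈ D.K₂) : D.w x = 0 := by
  obtain ⟨k, hk⟩ := D.nilp x
  exact D.step_iterate k x h₁ h₂ hk

/-- `K₁ ∩ K₂ ⊆ T`. -/
theorem mem_T {x : W} (h₁ : x ∈ D.K₁) (h₂ : x ∈ D.K₂) : x ∈ D.T :=
  D.hK₁ _ (D.w_eq_zero h₁ h₂) h₁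

end ConeData

end Fermat.Agent.Ribet
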