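import Fermat.Agent.GaussVal.Data
import Fermat.Agent.TEll.Gauss
import Fermat.Agent.X1.GaussTwist
import Fermat.Agent.ModFun.SecProd
import Fermat.Prelude.Def_EllipticCurve_FrobeniusTrace
import Fermat.Prelude.Def_FLTPrelim_Ramification

/-!
# Congruences between integral Laurent series

`Cong A a b` : `a` and `b` are series with coefficients in the valuation ring `A`, with the same
nonzero reduction modulo the maximal ideal.
-/

set_option autoImplicit false

noncomputable section

open ModularCurve HahnSeries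
open Fermat.Agent.GaussVal Fermat.Agent.X0Emb Fermat.Agent.TEll Fermat.Agent.ModFun

namespace Fermat.Agent.Ribet

section Basic

variable {K : Type*} [Field K] (A : ValuationSubring K)

/-- `a ≡ b`, both integral with nonzero reduction. -/
def Cong (a b : LaurentSeries K) : Prop :=
  ∃ Y Z : LaurentSeries A, incl A Y = a ∧ incl A Z = b ∧ redS A Y = redS A Z ∧ redS A Y ≠ 0

variable {A}
variable {a b c d : LaurentSeries K}

theorem cong_incl_iff {Y Z : LaurentSeries A} :
    Cong A (incl A Y) (incl A Z) ↔ redS A Y = redS A Z ∧ redS A Y ≠ 0 := by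
  constructor
  · rintro ⟨Y', Z', hY, hZ, h1, h2⟩
    obtain rfl := incl_injective A hY
    obtain rfl := incl_injective A hZ
    exact ⟨h1, h2⟩
  · rintro ⟨h1, h2⟩
    exact ⟨Y, Z, rfl, rfl, h1, h2⟩

theorem cong_self_iff : Cong A a a ↔ ∃ Y : LaurentSeries A, incl A Y = a ∧ redS A Y ≠ 0 := by
  constructor
  · rintro ⟨Y, Z, hY, hZ, h1, h2⟩
    exact ⟨Y, hY, h2⟩
  · rintro ⟨Y, hY, h2⟩
    exact ⟨Y, Y, hY, hY, rfl, h2⟩

theorem Cong.symm (h : Cong A a b) : Cong A b a := by
  obtain ⟨Y, Z, hY, hZ, h1, h2⟩ := h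
  exact ⟨Z, Y, hZ, hY, h1.symm, h1 ▸ h2⟩

theorem Cong.trans (h : Cong A a b) (h' : Cong A b c) : Cong A a c := by
  obtain ⟨Y, Z, hY, hZ, h1, h2⟩ := h
  obtain ⟨Y', Z', hY', hZ', h1', h2'⟩ := h'
  have : Z = Y' := incl_injective A (hZ.trans hY'.symm)
  subst this
  exact ⟨Y, Z', hY, hZ', h1.trans h1', h2⟩

theorem Cong.left (h : Cong A a b) : Cong A a a := h.trans h.symm

theorem Cong.right (h : Cong A a b) : Cong A b b := h.symm.trans h

theorem Cong.ne_zero_left (h : Cong A a b) : a ≠ 0 := by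
  obtain ⟨Y, Z, hY, hZ, h1, h2⟩ := h
  rw [← hY]
  exact incl_ne_zero h2

theorem Cong.ne_zero_right (h : Cong A a b) : b ≠ 0 := h.symm.ne_zero_left

theorem Cong.one : Cong A (1 : LaurentSeries K) 1 :=
  ⟨1, 1, by rw [map_one], by rw [map_one], rfl, by rw [map_one]; exact one_ne_zero⟩

theorem Cong.mul (h : Cong A a b) (h' : Cong A c d) : Cong A (a * c) (b * d) := by
  obtain ⟨Y, Z, hY, hZ, h1, h2⟩ := h
  obtain ⟨Y', Z', hY', hZ', h1', h2'⟩ := h'
  exact ⟨Y * Y', Z * Z', by rw [map_mul, hY, hY'], by rw [map_mul, hZ, hZ'],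
    by rw [map_mul, map_mul, h1, h1'], by rw [map_mul]; exact mul_ne_zero h2 h2'⟩

theorem Cong.pow (h : Cong A a b) (n : ℕ) : Cong A (a ^ n) (b ^ n) := by
  induction n with
  | zero => rw [pow_zero, pow_zero]; exact Cong.one
  | succ n ih => rw [pow_succ, pow_succ]; exact ih.mul h

theorem Cong.prod {ι : Type*} (s : Finset ι) {f g : ι → LaurentSeries K}
    (h : ∀ i ∈ s, Cong A (f i) (g i)) : Cong A (∏ i ∈ s, f i) (∏ i ∈ s, g i) := by
  classical
  induction s using Finset.induction_on with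
  | empty => rw [Finset.prod_empty, Finset.prod_empty]; exact Cong.one
  | insert x s hx ih =>
    rw [Finset.prod_insert hx, Finset.prod_insert hx]
    exact (h x (Finset.mem_insert_self x s)).mul
      (ih fun i hi => h i (Finset.mem_insert_of_mem hi))

/-- Transport of congruences along compatible maps. -/
theorem Cong.map (h : Cong A a b) (f : LaurentSeries K → LaurentSeries K)
    (fA : LaurentSeries A → LaurentSeries A)
    (fk : LaurentSeries (IsLocalRing.ResidueField A) → LaurentSeries (IsLocalRing.ResidueField A))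
    (h1 : ∀ Y, incl A (fA Y) = f (incl A Y)) (h2 : ∀ Y, redS A (fA Y) = fk (redS A Y))
    (h3 : ∀ y, y ≠ 0 → fk y ≠ 0) : Cong A (f a) (f b) := by
  obtain ⟨Y, Z, hY, hZ, e1, e2⟩ := h
  exact ⟨fA Y, fA Z, by rw [h1, hY], by rw [h1, hZ], by rw [h2, h2, e1],
    by rw [h2]; exact h3 _ e2⟩

theorem Cong.qExpand (h : Cong A a b) (e : ℕ) [NeZero e] :
    Cong A (qExpand K e a) (qExpand K e b) :=
  h.map _ (ModularCurve.qExpand A e) (ModularCurve.qExpand _ e)
    (fun _ => ModularCurve.coeffMap_qExpand _ _ _) (fun _ => ModularCurve.coeffMap_qExpand _ _ _)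
    (fun _ hy => (map_ne_zero_iff _ (qExpand_injective e)).mpr hy)

theorem Cong.secNorm (h : Cong A a b) (e : ℕ) [NeZero e] :
    Cong A (secNorm K e a) (secNorm K e b) :=
  h.map _ (TEll.secNorm A e) (TEll.secNorm _ e) (fun _ => coeffMap_secNorm _ _ _)
    (fun _ => coeffMap_secNorm _ _ _) (fun _ hy => secNorm_ne_zero e hy)

theorem Cong.TSer (h : Cong A a b) (e : ℕ) [NeZero e] : Cong A (TSer K e a) (TSer K e b) :=
  h.map _ (TEll.TSer A e) (TEll.TSer _ e) (fun _ => coeffMap_TSer _ _ _)
    (fun _ => coeffMap_TSer _ _ _) (fun _ hy => TSer_ne_zero e hy)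

theorem Cong.twist' (h : Cong A a b) (c : Aˣ) :
    Cong A (twist (Units.map (A.subtype : A →* K) c) a)
      (twist (Units.map (A.subtype : A →* K) c) b) :=
  h.map _ (X0Emb.twist c)
    (X0Emb.twist (Units.map (IsLocalRing.residue A : A →* IsLocalRing.ResidueField A) c))
    (fun _ => twist_coeffMap _ _ _) (fun _ => twist_coeffMap _ _ _)
    (fun _ hy => X1G.twist_ne_zero _ hy)

/-- `q ↦ ζ q` for a root of unity `ζ`. -/
theorem Cong.twist (h : Cong A a b) {n : ℕ} (hn : n ≠ 0) {z : Kˣ} (hz : z ^ n = 1) :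
    Cong A (twist z a) (twist z b) := by
  obtain ⟨c, rfl⟩ := X1G.exists_unit_of_pow_eq_one (A := A) hn hz
  exact h.twist' c

theorem units_map_residue_eq_one {q : ℕ} [Fact q.Prime] [CharP (IsLocalRing.ResidueField A) q]
    {c : Aˣ} {z : Kˣ} (hc : Units.map (A.subtype : A →* K) c = z) (hz : z ^ q = 1) :
    Units.map (IsLocalRing.residue A : A →* IsLocalRing.ResidueField A) c = 1 := by
  have h1 : c ^ q = 1 := by
    have hinj : Function.Injective (Units.map (A.subtype : A →* K)) :=
      Units.map_injective Subtype.val_injective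
    apply hinj
    rw [map_pow, hc, hz, map_one]
  have h2 : IsLocalRing.residue A (c : A) ^ q = 1 := by
    rw [← map_pow, ← Units.val_pow_eq_pow_val, h1, Units.val_one, map_one]
  have h3 : IsLocalRing.residue A (c : A) = 1 := by
    have h4 : frobenius (IsLocalRing.ResidueField A) q (IsLocalRing.residue A (c : A)) =
        frobenius (IsLocalRing.ResidueField A) q 1 := by
      rw [frobenius_def, frobenius_def, h2, one_pow]
    exact frobenius_inj _ q h4
  ext
  exact h3

/-- `q ↦ ζ q` is trivial modulo `m_A` if `ζ ^ q = 1`, `q` the residue characteristic. -/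
theorem Cong.twist_left (h : Cong A a b) {q : ℕ} [Fact q.Prime]
    [CharP (IsLocalRing.ResidueField A) q] {z : Kˣ} (hz : z ^ q = 1) :
    Cong A (X0Emb.twist z a) b := by
  obtain ⟨c, hc⟩ := X1G.exists_unit_of_pow_eq_one (A := A) (Fact.out : q.Prime).ne_zero hz
  have hc' := units_map_residue_eq_one hc hz
  obtain ⟨Y, Z, hY, hZ, h1, h2⟩ := h
  have h3 : redS A (X0Emb.twist c Y) = redS A Y := by
    have : redS A (X0Emb.twist c Y) =
        X0Emb.twist (Units.map (IsLocalRing.residue A : A →* IsLocalRing.ResidueField A) c)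
          (redS A Y) := twist_coeffMap _ _ _
    rw [this, hc']
    ext n
    rw [twist_coeff, one_zpow, Units.val_one, one_mul]
  refine ⟨X0Emb.twist c Y, Z, ?_, hZ, h3.trans h1, by rw [h3]; exact h2⟩
  have : incl A (X0Emb.twist c Y) =
      X0Emb.twist (Units.map (A.subtype : A →* K) c) (incl A Y) := twist_coeffMap _ _ _
  rw [this, hc, hY]

end Basic

/-! ### Automorphisms of the coefficients -/

section Aut

variable {K : Type*} [Field K] {A : ValuationSubring K} {a b : LaurentSeries K}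

/-- Transport along a ring endomorphism of `K` preserving `A`. -/
theorem Cong.coeffMap_of (h : Cong A a b) (s : K →+* K) (sA : A →+* A)
    (sk : IsLocalRing.ResidueField A →+* IsLocalRing.ResidueField A) (h1 : ∀ x : A, s x = sA x)
    (h2 : ∀ x : A, IsLocalRing.residue A (sA x) = sk (IsLocalRing.residue A x)) :
    Cong A (coeffMap s a) (coeffMap s b) := by
  refine h.map _ (coeffMap sA) (coeffMap sk) ?_ ?_ ?_
  · intro Y
    ext n
    simp only [coeffMap_coeff]
    exact (h1 _).symm
  · intro Y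
    ext n
    simp only [coeffMap_coeff]
    exact h2 _
  · intro y hy
    exact (map_ne_zero_iff _ (RingHom.injective _)).mpr hy

theorem Cong.coeffMap_left (h : Cong A a b) (s : K →+* K) (sA : A →+* A)
    (h1 : ∀ x : A, s x = sA x)
    (h2 : ∀ x : A, IsLocalRing.residue A (sA x) = IsLocalRing.residue A x) :
    Cong A (coeffMap s a) b := by
  obtain ⟨Y, Z, hY, hZ, e1, e2⟩ := h
  have h3 : redS A (coeffMap sA Y) = redS A Y := by
    ext n
    simp only [coeffMap_coeff]
    exact h2 _
  refine ⟨coeffMap sA Y, Z, ?_, hZ, h3.trans e1, by rw [h3]; exact e2⟩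
  rw [← hY]
  ext n
  simp only [coeffMap_coeff]
  exact (h1 _).symm

variable {L : Type*} [Field L] [Algebra ℚ L] {B : ValuationSubring L} {x y : LaurentSeries L}

theorem Cong.decomposition (h : Cong B x y) (σ : B.decompositionSubgroup ℚ) :
    Cong B (coeffMap (((σ : L ≃ₐ[ℚ] L) : L →+* L)) x)
      (coeffMap (((σ : L ≃ₐ[ℚ] L) : L →+* L)) y) :=
  h.coeffMap_of _ (MulSemiringAction.toRingHom (B.decompositionSubgroup ℚ) B σ)
    (MulSemiringAction.toRingHom (B.decompositionSubgroup ℚ) (IsLocalRing.ResidueField B) σ)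
    (fun _ => rfl) (fun _ => rfl)

/-- Inertia acts trivially modulo `m_A`. -/
theorem Cong.inertia (h : Cong B x y) {σ : L ≃ₐ[ℚ] L} (hσ : σ ∈ B.inertiaSubgroupIn ℚ) :
    Cong B (coeffMap (σ : L →+* L) x) y := by
  obtain ⟨τ, hτ, rfl⟩ := hσ
  refine h.coeffMap_left _ (MulSemiringAction.toRingHom (B.decompositionSubgroup ℚ) B τ)
    (fun _ => rfl) (fun z => ?_)
  exact DFunLike.congr_fun (MonoidHom.mem_ker.mp hτ) (IsLocalRing.residue B z)

theorem Cong.frobenius {q : ℕ} (h : Cong B x y) {σ : L ≃ₐ[ℚ] L} (hσ : B.IsFrobeniusAt σ q) :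
    Cong B (coeffMap (σ : L →+* L) x) (coeffMap (σ : L →+* L) y) :=
  h.decomposition ⟨σ, hσ.mem_decompositionSubgroup⟩

theorem Cong.decomposition_mem (h : Cong B x y) {σ : L ≃ₐ[ℚ] L}
    (hσ : σ ∈ B.decompositionSubgroup ℚ) :
    Cong B (coeffMap (σ : L →+* L) x) (coeffMap (σ : L →+* L) y) :=
  h.decomposition ⟨σ, hσ⟩

/-- **The norm is the Frobenius** modulo `m_A`, `q` the residue characteristic. -/
theorem Cong.frobenius_secNorm {q : ℕ} [Fact q.Prime] [CharP (IsLocalRing.ResidueField B) q]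
    (h : Cong B x y) {σ : L ≃ₐ[ℚ] L} (hσ : B.IsFrobeniusAt σ q) :
    Cong B (coeffMap (σ : L →+* L) x) (TEll.secNorm L q y) := by
  obtain ⟨Y, Z, rfl, rfl, e1, e2⟩ := h
  set τ : B.decompositionSubgroup ℚ := ⟨σ, hσ.mem_decompositionSubgroup⟩
  have h2 : redS B (coeffMap (MulSemiringAction.toRingHom (B.decompositionSubgroup ℚ) B τ) Y) =
      coeffMap (_root_.frobenius (IsLocalRing.ResidueField B) q) (redS B Y) := by
    ext n
    simp only [coeffMap_coeff]
    exact hσ.smul_residue_eq (IsLocalRing.residue B (Y.coeff n))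
  refine ⟨coeffMap (MulSemiringAction.toRingHom (B.decompositionSubgroup ℚ) B τ) Y,
    TEll.secNorm B q Z, ?_, coeffMap_secNorm _ _ _, ?_, ?_⟩
  · ext n
    simp only [coeffMap_coeff]
    rfl
  · rw [h2, e1]
    have h3 : redS B (TEll.secNorm B q Z) = TEll.secNorm _ q (redS B Z) := coeffMap_secNorm _ _ _
    rw [h3, secNorm_charP]
  · rw [h2]
    exact (map_ne_zero_iff _ (RingHom.injective _)).mpr e2

/-- `(φ x)(t ^ q) ≡ x ^ q` modulo `m_A`, `q` the residue characteristic. -/
theorem Cong.qExpand_frobenius {q : ℕ} [Fact q.Prime] [CharP (IsLocalRing.ResidueField B) q]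
    (h : Cong B x y) {σ : L ≃ₐ[ℚ] L} (hσ : B.IsFrobeniusAt σ q) :
    Cong B (ModularCurve.qExpand L q (coeffMap (σ : L →+* L) x)) (y ^ q) := by
  obtain ⟨Y, Z, rfl, rfl, e1, e2⟩ := h
  set τ : B.decompositionSubgroup ℚ := ⟨σ, hσ.mem_decompositionSubgroup⟩
  have h2 : redS B (ModularCurve.qExpand B q
      (coeffMap (MulSemiringAction.toRingHom (B.decompositionSubgroup ℚ) B τ) Y)) =
      (redS B Y) ^ q := by
    have h3 : redS B (ModularCurve.qExpand B q
      (coeffMap (MulSemiringAction.toRingHom (B.decompositionSubgroup ℚ) B τ) Y)) =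
      ModularCurve.qExpand _ q (redS B
        (coeffMap (MulSemiringAction.toRingHom (B.decompositionSubgroup ℚ) B τ) Y)) :=
      ModularCurve.coeffMap_qExpand _ _ _
    rw [h3, ← qExpand_coeffMap_frobenius]
    congr 1
    ext n
    simp only [coeffMap_coeff]
    exact hσ.smul_residue_eq (IsLocalRing.residue B (Y.coeff n))
  refine ⟨ModularCurve.qExpand B q
    (coeffMap (MulSemiringAction.toRingHom (B.decompositionSubgroup ℚ) B τ) Y), Z ^ q, ?_,
    map_pow _ _ _, ?_, ?_⟩
  · have h4 : incl B (ModularCurve.qExpand B q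
      (coeffMap (MulSemiringAction.toRingHom (B.decompositionSubgroup ℚ) B τ) Y)) =
      ModularCurve.qExpand L q (incl B
        (coeffMap (MulSemiringAction.toRingHom (B.decompositionSubgroup ℚ) B τ) Y)) :=
      ModularCurve.coeffMap_qExpand _ _ _
    rw [h4]
    congr 1
  · rw [h2, e1, map_pow]
  · rw [h2]
    exact pow_ne_zero _ e2

/-- `x(t ^ q) ≡ (φ⁻¹ x) ^ q` modulo `m_A`, `q` the residue characteristic. -/
theorem Cong.qExpand_frobenius_symm {q : ℕ} [Fact q.Prime]
    [CharP (IsLocalRing.ResidueField B) q]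
    (h : Cong B x y) {σ : L ≃ₐ[ℚ] L} (hσ : B.IsFrobeniusAt σ q) :
    Cong B (ModularCurve.qExpand L q x) ((coeffMap ((σ⁻¹ : L ≃ₐ[ℚ] L) : L →+* L) y) ^ q) := by
  have h1 := h.decomposition_mem (σ := σ⁻¹) (inv_mem hσ.mem_decompositionSubgroup)
  have h2 := h1.qExpand_frobenius hσ
  have h3 : coeffMap (σ : L →+* L) (coeffMap ((σ⁻¹ : L ≃ₐ[ℚ] L) : L →+* L) x) = x := by
    ext n
    simp only [coeffMap_coeff]
    exact σ.apply_symm_apply _
  rwa [h3] at h2

end Aut

/-! ### Scaling and roots -/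

section Scale

variable {K : Type*} [Field K] {A : ValuationSubring K} {a b : LaurentSeries K}

theorem Cong.scalable (h : Cong A a b) : Scalable A a := by
  obtain ⟨Y, hY, h0⟩ := cong_self_iff.mp h.left
  obtain ⟨n₀, hn₀⟩ : ∃ n, (redS A Y).coeff n ≠ 0 := by
    by_contra h
    push Not at h
    exact h0 (HahnSeries.ext (funext h))
  have h1 : A.valuation (a.coeff n₀) = 1 := by
    rw [← hY]
    simp only [coeffMap_coeff] at hn₀ ⊢
    rw [Ne, IsLocalRing.residue_eq_zero_iff] at hn₀
    have h2 : ¬ A.valuation (Y.coeff n₀ : K) < 1 := fun h => hn₀ ((A.valuation_lt_one_iff _).mpr h)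
    exact le_antisymm ((A.valuation_le_one_iff _).mpr (Y.coeff n₀).2) (not_lt.mp h2)
  refine ⟨n₀, ?_, fun n => ?_⟩
  · intro h
    rw [h, map_zero] at h1
    exact zero_ne_one h1
  · rw [h1, ← hY]
    exact (A.valuation_le_one_iff _).mpr (Y.coeff n).2

theorem exists_cong_of_scalable (h : Scalable A a) :
    ∃ c : K, c ≠ 0 ∧ Cong A (algebraMap K (LaurentSeries K) c * a)
      (algebraMap K (LaurentSeries K) c * a) := by
  obtain ⟨c, Y, n₀, hc, hcY, hY, -, -⟩ := h.exists_primitive
  refine ⟨c⁻¹, inv_ne_zero hc, cong_self_iff.mpr ⟨Y, ?_, hY⟩⟩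
  rw [← hcY, ← mul_assoc, ← map_mul, inv_mul_cancel₀ hc, map_one, one_mul]

theorem exists_cong_of_mem_intAlg [CharZero K] [Algebra.IsAlgebraic ℚ K] {ℓ : ℕ}
    (hℓ : ℓ.Prime) (hA : A.LiesOverPrime ℓ) (ha : a ∈ intAlg K) (ha0 : a ≠ 0) :
    ∃ c : K, c ≠ 0 ∧ Cong A (algebraMap K (LaurentSeries K) c * a)
      (algebraMap K (LaurentSeries K) c * a) :=
  exists_cong_of_scalable (scalable_of_mem_intAlg hℓ hA ha ha0)

/-- Two primitive multiples of a series differ by a unit. -/
theorem valuation_eq_one_of_cong {c : K} (h : Cong A a a)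
    (h' : Cong A (algebraMap K (LaurentSeries K) c * a) (algebraMap K (LaurentSeries K) c * a)) :
    A.valuation c = 1 := by
  obtain ⟨n, hn, hn'⟩ := h.scalable
  obtain ⟨Y, hY, h0⟩ := cong_self_iff.mp h
  obtain ⟨Z, hZ, h0'⟩ := cong_self_iff.mp h'
  have e1 : ∃ m, A.valuation (a.coeff m) = 1 := by
    obtain ⟨n₀, hn₀⟩ : ∃ n, (redS A Y).coeff n ≠ 0 := by
      by_contra h
      push Not at h
      exact h0 (HahnSeries.ext (funext h))
    refine ⟨n₀, ?_⟩
    rw [← hY]
    simp only [coeffMap_coeff] at hn₀ ⊢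
    rw [Ne, IsLocalRing.residue_eq_zero_iff] at hn₀
    have h2 : ¬ A.valuation (Y.coeff n₀ : K) < 1 := fun h => hn₀ ((A.valuation_lt_one_iff _).mpr h)
    exact le_antisymm ((A.valuation_le_one_iff _).mpr (Y.coeff n₀).2) (not_lt.mp h2)
  have e2 : ∃ m, A.valuation (c * a.coeff m) = 1 := by
    obtain ⟨n₀, hn₀⟩ : ∃ n, (redS A Z).coeff n ≠ 0 := by
      by_contra h
      push Not at h
      exact h0' (HahnSeries.ext (funext h))
    refine ⟨n₀, ?_⟩
    have e3 : c * a.coeff n₀ = (incl A Z).coeff n₀ := by rw [hZ, coeff_algebraMap_mul]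
    rw [e3]
    simp only [coeffMap_coeff] at hn₀ ⊢
    rw [Ne, IsLocalRing.residue_eq_zero_iff] at hn₀
    have h2 : ¬ A.valuation (Z.coeff n₀ : K) < 1 := fun h => hn₀ ((A.valuation_lt_one_iff _).mpr h)
    exact le_antisymm ((A.valuation_le_one_iff _).mpr (Z.coeff n₀).2) (not_lt.mp h2)
  have f1 : ∀ m, A.valuation (a.coeff m) ≤ 1 := fun m => by
    rw [← hY]; exact (A.valuation_le_one_iff _).mpr (Y.coeff m).2
  have f2 : ∀ m, A.valuation (c * a.coeff m) ≤ 1 := fun m => by
    have e3 : c * a.coeff m = (incl A Z).coeff m := by rw [hZ, coeff_algebraMap_mul]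
    rw [e3]; exact (A.valuation_le_one_iff _).mpr (Z.coeff m).2
  obtain ⟨m₁, hm₁⟩ := e1
  obtain ⟨m₂, hm₂⟩ := e2
  apply le_antisymm
  · have := f2 m₁
    rwa [map_mul, hm₁, mul_one] at this
  · rw [← hm₂, map_mul]
    calc A.valuation c * A.valuation (a.coeff m₂) ≤ A.valuation c * 1 := mul_le_mul' le_rfl (f1 m₂)
      _ = A.valuation c := mul_one _

theorem Cong.smul (h : Cong A a b) {c d : A}
    (hcd : IsLocalRing.residue A c = IsLocalRing.residue A d)
    (hc : IsLocalRing.residue A c ≠ 0) :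
    Cong A (algebraMap K (LaurentSeries K) c * a) (algebraMap K (LaurentSeries K) d * b) := by
  refine Cong.mul ?_ h
  have key : ∀ x : A, incl A (HahnSeries.C x) = algebraMap K (LaurentSeries K) x := by
    intro x
    rw [algebraMap_laurentSeries_eq_single]
    exact coeffMap_single _ _ _
  have key2 : ∀ x : A, redS A (HahnSeries.C x) = HahnSeries.C (IsLocalRing.residue A x) := by
    intro x
    exact coeffMap_single _ _ _
  refine ⟨HahnSeries.C c, HahnSeries.C d, key c, key d, by rw [key2, key2, hcd], ?_⟩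
  rw [key2]
  exact (map_ne_zero_iff _ HahnSeries.C_injective).mpr hc

theorem Cong.smul_self (h : Cong A a b) {c : K} (hc : A.valuation c = 1) :
    Cong A (algebraMap K (LaurentSeries K) c * a) (algebraMap K (LaurentSeries K) c * b) := by
  have hc' : c ∈ A := (A.valuation_le_one_iff c).mp hc.le
  refine h.smul (c := ⟨c, hc'⟩) (d := ⟨c, hc'⟩) rfl ?_
  rw [Ne, IsLocalRing.residue_eq_zero_iff, A.valuation_lt_one_iff]
  simp [hc]

/-- A scalable series whose `n`-th power is primitive is primitive. -/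
theorem Cong.of_pow {n : ℕ} (hn : n ≠ 0) (ha : Scalable A a) (h : Cong A (a ^ n) (a ^ n)) :
    Cong A a a := by
  obtain ⟨c, hc, hca⟩ := exists_cong_of_scalable ha
  have h1 := hca.pow n
  rw [mul_pow, ← map_pow] at h1
  have h2 := valuation_eq_one_of_cong h h1
  have h3 : A.valuation c = 1 := by
    rw [map_pow] at h2
    exact (pow_eq_one_iff_of_nonneg zero_le hn).mp h2
  have h4 : A.valuation c⁻¹ = 1 := by rw [map_inv₀, h3, inv_one]
  have h5 := hca.smul_self h4
  rwa [← mul_assoc, ← map_mul, inv_mul_cancel₀ hc, map_one, one_mul] at h5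

/-- Congruent `n`-th powers: the series are congruent up to a root of unity. -/
theorem Cong.exists_root [IsAlgClosed K] {n : ℕ} (hn : n ≠ 0) (ha : Cong A a a)
    (hb : Cong A b b) (h : Cong A (a ^ n) (b ^ n)) :
    ∃ z : K, z ^ n = 1 ∧ Cong A a (algebraMap K (LaurentSeries K) z * b) := by
  obtain ⟨Y, rfl, hY⟩ := cong_self_iff.mp ha
  obtain ⟨Z, rfl, hZ⟩ := cong_self_iff.mp hb
  rw [← map_pow, ← map_pow, cong_incl_iff, map_pow, map_pow] at h
  -- factor `X ^ n - 1` over `A`
  have hmem : ∀ w : K, w ^ n = 1 → A.valuation w = 1 := by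
    intro w hw
    have h1 : A.valuation w ^ n = 1 := by rw [← map_pow, hw, map_one]
    exact (pow_eq_one_iff_of_nonneg zero_le hn).mp h1
  set s : Multiset K := (Polynomial.X ^ n - 1 : Polynomial K).roots with hs
  have hpoly : (Polynomial.X ^ n - 1 : Polynomial K) =
      (s.map fun w => Polynomial.X - Polynomial.C w).prod := by
    have hm : (Polynomial.X ^ n - 1 : Polynomial K).Monic :=
      Polynomial.monic_X_pow_sub_C (1 : K) hn
    exact (IsAlgClosed.splits _).eq_prod_roots_of_monic hm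
  have hroot : ∀ w ∈ s, w ^ n = 1 := by
    intro w hw
    have := Polynomial.isRoot_of_mem_roots hw
    rw [Polynomial.IsRoot, Polynomial.eval_sub, Polynomial.eval_pow, Polynomial.eval_X,
      Polynomial.eval_one, sub_eq_zero] at this
    exact this
  -- evaluate at `Y / Z`
  have hZ0 : incl A Z ≠ 0 := incl_ne_zero hZ
  have hfac : incl A Y ^ n - incl A Z ^ n =
      (s.map fun w => incl A Y - algebraMap K (LaurentSeries K) w * incl A Z).prod := by
    have h1 := congrArg (Polynomial.aeval (incl A Y / incl A Z)) hpoly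
    rw [map_sub, map_pow, Polynomial.aeval_X, map_one, map_multiset_prod, Multiset.map_map] at h1
    have h2 : incl A Y ^ n - incl A Z ^ n =
        ((incl A Y / incl A Z) ^ n - 1) * incl A Z ^ n := by
      rw [div_pow, sub_mul, one_mul, div_mul_cancel₀ _ (pow_ne_zero n hZ0)]
    have hcard : Multiset.card s = n := by
      have h3 := congrArg Polynomial.natDegree hpoly
      rw [Polynomial.natDegree_multiset_prod_X_sub_C_eq_card,
        show (Polynomial.X ^ n - 1 : Polynomial K) = Polynomial.X ^ n - Polynomial.C 1 by simp,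
        Polynomial.natDegree_X_pow_sub_C] at h3
      exact h3.symm
    rw [h2, h1]
    have h4 : incl A Z ^ n = (s.map fun _ => incl A Z).prod := by
      rw [Multiset.map_const', Multiset.prod_replicate, hcard]
    rw [h4, ← Multiset.prod_map_mul]
    congr 1
    refine Multiset.map_congr rfl fun w _ => ?_
    simp only [Function.comp, map_sub, Polynomial.aeval_X, Polynomial.aeval_C]
    rw [sub_mul, div_mul_cancel₀ _ hZ0]
  -- descend to `A`
  have hlift : ∀ (t : Multiset K), (∀ w ∈ t, w ^ n = 1) →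
      (∀ w ∈ t, ¬ Cong A (incl A Y) (algebraMap K (LaurentSeries K) w * incl A Z)) →
      ∃ P : LaurentSeries A, incl A P =
        (t.map fun w => incl A Y - algebraMap K (LaurentSeries K) w * incl A Z).prod ∧
        redS A P ≠ 0 := by
    intro t
    induction t using Multiset.induction_on with
    | empty =>
      intro _ _
      refine ⟨1, by rw [map_one]; simp, by rw [map_one]; exact one_ne_zero⟩
    | cons w t ih =>
      intro ht ht'
      obtain ⟨P, hP, hP0⟩ := ih (fun v hv => ht v (Multiset.mem_cons_of_mem hv))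
        (fun v hv => ht' v (Multiset.mem_cons_of_mem hv))
      have hw := hmem w (ht w (Multiset.mem_cons_self w t))
      have hwA : w ∈ A := (A.valuation_le_one_iff w).mp hw.le
      have e1 : incl A (HahnSeries.C (⟨w, hwA⟩ : A)) = algebraMap K (LaurentSeries K) w := by
        rw [algebraMap_laurentSeries_eq_single]
        exact coeffMap_single _ _ _
      refine ⟨(Y - HahnSeries.C (⟨w, hwA⟩ : A) * Z) * P, ?_, ?_⟩
      · rw [Multiset.map_cons, Multiset.prod_cons, map_mul, map_sub, map_mul, e1, hP]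
      · rw [map_mul]
        refine mul_ne_zero ?_ hP0
        rw [map_sub, sub_ne_zero]
        intro h5
        refine ht' w (Multiset.mem_cons_self w t) ?_
        rw [← e1, ← map_mul, cong_incl_iff]
        exact ⟨h5, hY⟩
  by_contra hcon
  push Not at hcon
  obtain ⟨P, hP, hP0⟩ := hlift s hroot (fun w hw => hcon w (hroot w hw))
  apply hP0
  have h6 : P = Y ^ n - Z ^ n := by
    apply incl_injective A
    rw [hP, ← hfac, map_sub, map_pow, map_pow]
  rw [h6, map_sub, map_pow, map_pow, h.1, sub_self]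

end Scale

end Fermat.Agent.Ribet
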