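import Fermat.Agent.Ribet.KLInst

/-!
# The operator `y` at level `Γ₀(m q)`
-/

set_option autoImplicit false
set_option linter.unusedSectionVars false

open UpperHalfPlane hiding I
open ModularForm Matrix.SpecialLinearGroup Filter Asymptotics CongruenceSubgroup
open scoped MatrixGroups Manifold ModularForm Polynomial Topology

noncomputable section

namespace Fermat.Agent.Ribet

open Fermat.Agent.JLevelOne Fermat.Agent.X0Emb Fermat.Agent.ModFun ModularCurve Fermat.Agent.FG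
open Fermat.Agent.EisChar Fermat.Agent.S28aux Fermat.Agent.IntStruct Fermat.Agent.HeckePar
open Fermat.Agent.X1 Fermat.Agent.X1Char Fermat.Agent.GaussVal Fermat.Agent.TEll

namespace KLData

variable {W : Type*} [AddCommGroup W] (D : KLData W) {V : Type*} [AddCommGroup V]

/-- Pushing the operator `y` to a quotient `V ≅ W / w W`. -/
theorem push (p : W →+ V) (hp : Function.Surjective p) (hk : ∀ x, p x = 0 ↔ ∃ z, x = D.δ z - z) :
    ∃ y : V →+ V,
      (∀ (g : W →+ W) (g' : V →+ V), (∀ x, g (D.δ x) = D.δ (g x)) → (∀ x, g (D.U x) = D.U (g x)) →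
        (∀ x, p (g x) = g' (p x)) → ∀ v, y (g' v) = g' (y v)) ∧
      ∀ x, p (D.φ x) - D.ε • p x = -((2 : ℤ) • y (p (D.σ x) - p x)) := by
  have hker : p.ker = D.wW := by
    ext x
    rw [AddMonoidHom.mem_ker, hk]
    constructor
    · rintro ⟨z, rfl⟩
      exact ⟨z, D.w_apply z⟩
    · rintro ⟨z, hz⟩
      exact ⟨z, by rw [← hz, D.w_apply]⟩
  let e : W ⧸ D.wW ≃+ V :=
    (QuotientAddGroup.quotientAddEquivOfEq hker.symm).trans
      (QuotientAddGroup.quotientKerEquivOfSurjective p hp)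
  have he : ∀ x : W, e (QuotientAddGroup.mk x) = p x := fun x => rfl
  have he' : ∀ x : W, e.symm (p x) = QuotientAddGroup.mk x := fun x => by
    rw [← he, AddEquiv.symm_apply_apply]
  let y : V →+ V := (e : W ⧸ D.wW →+ V).comp (D.y.comp (e.symm : V →+ W ⧸ D.wW))
  have hy : ∀ x : W, y (p x) = e (D.y (QuotientAddGroup.mk x)) := fun x => by
    show e (D.y (e.symm (p x))) = _
    rw [he']
  refine ⟨y, fun g g' hδ hU hg v => ?_, fun x => ?_⟩
  · obtain ⟨x, rfl⟩ := hp v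
    obtain ⟨z, hz⟩ := QuotientAddGroup.mk_surjective (D.y (QuotientAddGroup.mk x))
    rw [← hg, hy, hy, D.y_comm hδ hU hz.symm, ← hz, he, he, hg]
  · have h1 := congrArg e (D.kl x)
    rw [he, map_neg, map_zsmul, map_sub, map_zsmul] at h1
    rw [h1, ← map_sub p (D.σ x) x, hy]

end KLData

section Res

variable {M : ℕ} {Γ : Subgroup SL(2, ℤ)} [hΓ : Between M Γ] {n : ℕ}

/-- Restriction is Galois equivariant. -/
theorem resC_galX (ι : Qbar →+* ℂ) [GoodGroup Γ] [DiaGroup M Γ] [GoodGroup (Gamma0 M)]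
    [DiaGroup M (Gamma0 M)] [NeZero n] (σ : GQ) (χ : xGroup M (Gamma0 M) n)
    (h : resC M Γ χ.1 ∈ xGroup M Γ n) :
    (galX ι M Γ n σ ⟨resC M Γ χ.1, h⟩).1 = resC M Γ (galX ι M (Gamma0 M) n σ χ).1 := by
  obtain ⟨F, y, hy, hF⟩ := exists_isCFX ι χ
  obtain ⟨F', hF'⟩ := conjX_spec ι (toRA σ) χ hF
  exact (eq_conjX ι (toRA σ) ⟨resC M Γ χ.1, h⟩ (isCF_res hF) hy (isCF_res hF')).symm

end Res

namespace KLS

variable {ι : Qbar →+* ℂ} {m q : ℕ} [NeZero m] [Fact q.Prime] [NeZero q]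
  {H : Subgroup (ZMod q)ˣ} {n : ℕ} {I : Set ℕ} {a : ℕ → ℤ} (S : KLS ι m q H n I a)

include S in
theorem hle₀ [NeZero n] : GE (m * q) (Gamma0 (m * q)) n I a ≤ xGroup (m * q) (Gamma0 (m * q)) n := by
  have : Fact S.ℓ.Prime := ⟨S.hℓ⟩
  exact GE_le_xGroup S.h6 S.hℓI S.haℓ S.hℓM

/-- Restriction. -/
def resW (_S : KLS ι m q H n I a) : WE (m * q) (Gamma0 (m * q)) n I a →+
    WE (m * q) (GD m q H) n I a :=
  MonoidHom.toAdditive (((resC (m * q) (GD m q H)).comp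
    (GE (m * q) (Gamma0 (m * q)) n I a).subtype).codRestrict _ fun χ => resC_mem_GE χ.2)

@[simp] theorem ch_resW (x : WE (m * q) (Gamma0 (m * q)) n I a) :
    ch (S.resW x) = resC (m * q) (GD m q H) (ch x) := rfl

theorem resW_injective : Function.Injective S.resW := by
  have : Fact S.ℓ.Prime := ⟨S.hℓ⟩
  rw [injective_iff_map_eq_zero]
  intro x hx
  apply ch_injective
  rw [ch_zero]
  refine GE_resC_inj (H := H) S.hu S.hℓI S.haℓ S.not_dvd (ch_mem x) ?_
  rw [← S.ch_resW, hx, ch_zero]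

theorem δW_resW (x : WE (m * q) (Gamma0 (m * q)) n I a) : S.δW (S.resW x) = S.resW x :=
  ch_injective (dChar_resC S.u⁻¹ (ch_pow x))

theorem exists_resW (x : WE (m * q) (GD m q H) n I a) (hx : S.δW x = x) : ∃ y, S.resW y = x := by
  obtain ⟨χ, hχ, h⟩ := S.N0 (ch_mem x) (congrArg ch hx)
  exact ⟨ofCh χ hχ, ch_injective h⟩

theorem resW_tW (ℓ : ℕ) [Fact ℓ.Prime] (x : WE (m * q) (Gamma0 (m * q)) n I a) :
    S.resW (tW (m * q) (Gamma0 (m * q)) n I a ℓ x) = tW (m * q) (GD m q H) n I a ℓ (S.resW x) := by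
  apply ch_injective
  rw [ch_resW, ch_tW, ch_tW, ch_resW]
  obtain ⟨φ, hφ, h⟩ := exists_of_mem_GE (ch_mem x)
  rw [← h, ← chi_resG, ← chi_TT, ← chi_TT, ← chi_resG, resG_TT (isKer_GD m q H)]

theorem resW_galW [NeZero n] (σ : GQ) (x : WE (m * q) (Gamma0 (m * q)) n I a) :
    S.resW (galW ι S.hle₀ σ x) = galW ι S.hle σ (S.resW x) := by
  apply ch_injective
  exact (resC_galX ι σ (toX S.hle₀ x) (S.hle (ch_mem (S.resW x)))).symm

/-- The norm. -/
def nW : WE (m * q) (GD m q H) n I a →+ WE (m * q) (GD m q H) n I a where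
  toFun x := ∑ i ∈ Finset.range n, (S.δW)^[i] x
  map_zero' := Finset.sum_eq_zero fun i _ => iterate_map_zero _ _
  map_add' x y := by
    rw [← Finset.sum_add_distrib]
    exact Finset.sum_congr rfl fun i _ => iterate_map_add _ _ _ _

theorem nW_apply (x : WE (m * q) (GD m q H) n I a) :
    S.nW x = ∑ i ∈ Finset.range n, (S.δW)^[i] x := rfl

theorem ch_nW (x : WE (m * q) (GD m q H) n I a) :
    ch (S.nW x) = ∏ i ∈ Finset.range n, (dChar (m * q) (GD m q H) S.u⁻¹)^[i] (ch x) := by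
  rw [nW_apply, ch_sum]
  refine Finset.prod_congr rfl fun i _ => ?_
  rw [ch_iterate (g := dChar (m * q) (GD m q H) S.u⁻¹) (fun x => rfl)]

theorem nW_comm {g : WE (m * q) (GD m q H) n I a →+ WE (m * q) (GD m q H) n I a}
    (hg : ∀ x, g (S.δW x) = S.δW (g x)) (x : WE (m * q) (GD m q H) n I a) :
    S.nW (g x) = g (S.nW x) := by
  rw [nW_apply, nW_apply, map_sum]
  refine Finset.sum_congr rfl fun i _ => ?_
  exact (Function.Commute.iterate_right (f := g) (g := S.δW) hg i x).symm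

theorem nW_eq_zero [NeZero n] {x : WE (m * q) (GD m q H) n I a} :
    S.nW x = 0 ↔ ∃ z, x = S.δW z - z := by
  constructor
  · intro h
    obtain ⟨ψ, hψ, h1⟩ := S.N2 (ch_mem x) (by rw [← ch_nW, h, ch_zero])
    exact ⟨ofCh ψ hψ, ch_injective h1⟩
  · rintro ⟨z, rfl⟩
    rw [map_sub, S.nW_comm (g := S.δW) (fun x => rfl), nW_apply, S.sum_δW, sub_self]

/-- The norm to level `Γ₀(m q)`. -/
theorem exists_pW [NeZero n] : ∃ p : WE (m * q) (GD m q H) n I a →+
    WE (m * q) (Gamma0 (m * q)) n I a, (∀ x, S.resW (p x) = S.nW x) ∧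
      Function.Surjective p := by
  have h1 : ∀ x : WE (m * q) (GD m q H) n I a, ∃ y, S.resW y = S.nW x := fun x =>
    S.exists_resW (S.nW x) (by rw [nW_apply]; exact S.sum_δW x)
  choose f hf using h1
  have hadd : ∀ x y, f (x + y) = f x + f y := by
    intro x y
    apply S.resW_injective
    rw [hf, map_add, map_add, hf, hf]
  refine ⟨AddMonoidHom.mk' f hadd, hf, fun v => ?_⟩
  obtain ⟨ψ, hψ, h⟩ := S.N1 (ch_mem (S.resW v)) (congrArg ch (S.δW_resW v))
  refine ⟨ofCh ψ hψ, S.resW_injective ?_⟩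
  have h2 : S.resW (f (ofCh ψ hψ)) = S.resW v := by
    rw [hf]
    apply ch_injective
    rw [ch_nW, h, ch_ofCh]
  exact h2

/-- **Road A, (ε)**: the operator `y` at level `Γ₀(m q)`. -/
theorem exists_y [NeZero n] {ε : ℤ} (hε : ε * ε = 1) (hq : (q : ZMod n) = 1)
    (hU : ∀ χ ∈ GE (m * q) (Gamma0 (m * q)) n I a, tChar (m * q) (Gamma0 (m * q)) q χ = χ ^ ε)
    (c : ∀ x ∈ S.K1, x ∈ S.K2 → S.δW x = x) :
    ∃ y : WE (m * q) (Gamma0 (m * q)) n I a →+ WE (m * q) (Gamma0 (m * q)) n I a,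
      (∀ (g : GQ) (x : WE (m * q) (Gamma0 (m * q)) n I a),
        y (galW ι S.hle₀ g x) = galW ι S.hle₀ g (y x)) ∧
      (∀ (ℓ : ℕ) [Fact ℓ.Prime] (x : WE (m * q) (Gamma0 (m * q)) n I a),
        y (tW (m * q) (Gamma0 (m * q)) n I a ℓ x) =
          tW (m * q) (Gamma0 (m * q)) n I a ℓ (y x)) ∧
      ∀ x : WE (m * q) (Gamma0 (m * q)) n I a,
        galW ι S.hle₀ S.φ x - ε • x = -((2 : ℤ) • y (galW ι S.hle₀ S.σ x - x)) := by
  obtain ⟨p, hp, hps⟩ := S.exists_pW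
  obtain ⟨y, hy, hkl⟩ := (S.kl hε hq hU c).push p hps (fun x => by
    rw [kl_δ, ← S.nW_eq_zero, ← hp, map_eq_zero_iff _ S.resW_injective])
  have hgal : ∀ (g : GQ) (x : WE (m * q) (GD m q H) n I a),
      p (galW ι S.hle g x) = galW ι S.hle₀ g (p x) := by
    intro g x
    apply S.resW_injective
    rw [hp, S.resW_galW, hp, S.nW_comm (galW_dW ι S.hle g S.u⁻¹)]
  have hT : ∀ (ℓ : ℕ) [Fact ℓ.Prime] (x : WE (m * q) (GD m q H) n I a),
      p (tW (m * q) (GD m q H) n I a ℓ x) = tW (m * q) (Gamma0 (m * q)) n I a ℓ (p x) := by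
    intro ℓ _ x
    apply S.resW_injective
    rw [hp, S.resW_tW, hp, S.nW_comm (tW_dW ℓ S.u⁻¹)]
  refine ⟨y, fun g x => ?_, fun ℓ _ x => ?_, fun v => ?_⟩
  · exact hy (galW ι S.hle g) (galW ι S.hle₀ g) (galW_dW ι S.hle g S.u⁻¹)
      (galW_tW ι S.hle g q) (hgal g) x
  · exact hy (tW (m * q) (GD m q H) n I a ℓ) (tW (m * q) (Gamma0 (m * q)) n I a ℓ)
      (tW_dW ℓ S.u⁻¹) (fun x => tW_tW ℓ q x) (hT ℓ) x
  · obtain ⟨x, rfl⟩ := hps v
    have h := hkl x
    rw [kl_φ, kl_σ, kl_ε] at h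
    rw [← hgal, ← hgal]
    exact h

end KLS

end Fermat.Agent.Ribet
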