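import Fermat.Agent.Ribet.GalN
import Fermat.Agent.Ribet.PushY
import Fermat.Agent.Ribet.NewQ

/-!
# The dictionary between `J₀(N)[n]`, parabolic homomorphisms and characters
-/

set_option autoImplicit false
set_option linter.unusedSectionVars false

open UpperHalfPlane hiding I
open ModularForm Matrix.SpecialLinearGroup Filter Asymptotics CongruenceSubgroup
open scoped MatrixGroups Manifold ModularForm Polynomial Topology

noncomputable section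

namespace Fermat.Agent.Ribet

open Fermat.Agent.JLevelOne Fermat.Agent.X0Emb Fermat.Agent.ModFun ModularCurve Fermat.Agent.FG
open Fermat.Agent.EisChar Fermat.Agent.S28aux Fermat.Agent.IntStruct Fermat.Agent.HeckePar
open Fermat.Agent.X1 Fermat.Agent.X1Char Fermat.Agent.GaussVal Fermat.Agent.TEll
open Fermat.Agent.GalRep (Rel HasChar IsKummer)

section Rel

variable {ι : Qbar →+* ℂ} {N n : ℕ} [NeZero N] [NeZero n]

/-- A function with character as an `IsCF`. -/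
theorem exists_isCF_of_hasChar {χ : Gamma0 N →* ℂˣ} (hχ : χ ∈ charGroup (Gamma0 N) n)
    {g : ℍ → ℂ} (hg : HasChar N χ g) {k : LaurentSeries Qbar}
    (hk : LExp 1 (g ^ n) (coeffMap ι k)) : ∃ y : LaurentSeries Qbar, y ^ n = k ∧
      IsCF ι (Gamma0 N) χ g y := by
  obtain ⟨D, hD⟩ := exists_lexp (h := 1) hg.mdiff (fun τ => by
    have h1 := hg.smul ⟨_, GoodGroup.T_mem (Γ := Gamma0 N)⟩ τ
    rw [hχ.2 _ (by simp [ModularGroup.T])] at h1
    simp only [UpperHalfPlane.modular_T_smul, Units.val_one, one_mul] at h1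
    simpa using h1) (by
    have h1 : GrowthInf (fun τ => g ((1 : SL(2, ℤ)) • τ)) := hg.growth 1
    simpa only [one_smul] using h1)
  rw [Nat.cast_one] at hD
  have h1 := (hD.pow n).unique one_pos hk
  obtain ⟨y, hy⟩ := exists_coeffMap_of_pow_eq ι (NeZero.ne n) h1
  refine ⟨y, ?_, hg.mdiff, hg.smul, hg.growth, by rw [← hy]; exact hD⟩
  apply coeffMap_injective ι
  rw [map_pow, ← hy, h1]

/-- **The relation between classes and characters is Galois equivariant.** -/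
theorem rel_galX {x : JZero N} (χ : xGroup N (Gamma0 N) n) (h : Rel ι N n x χ.1) (σ : GQ) :
    Rel ι N n (σ • x) (galX ι N (Gamma0 N) n σ χ).1 := by
  obtain ⟨k, g, hk, hg, hl⟩ := h
  obtain ⟨y, hy, hF⟩ := exists_isCF_of_hasChar (xGroup_le n χ.2) hg hl
  obtain ⟨F', hF'⟩ := conjX_spec ι (toRA σ) χ hF
  refine ⟨arithmeticGalois _ σ • k, F', hk.smul _, ⟨hF'.mdiff, hF'.growth, hF'.char⟩, ?_⟩
  rw [coe_arithmeticGalois_smul, ← hy]
  have h1 := hF'.lexp.pow n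
  rw [← map_pow, ← map_pow] at h1
  exact h1

end Rel

section CharZ

variable {N n : ℕ} [NeZero n]

theorem charZ_TT (ℓ : ℕ) [Fact ℓ.Prime] (φ : Additive (Gamma0 N) →+ ZMod n) :
    charZ (TT N (Gamma0 N) (ZMod n) ℓ φ) = tChar N (Gamma0 N) ℓ (charZ φ) := by
  refine MonoidHom.ext fun γ => ?_
  rw [charZ_apply, TT_apply, CosetSys.addTransfer_apply, map_sum, toMul_sum]
  rfl

theorem charZ_opP (ℓ : ℕ) [hℓ : Fact ℓ.Prime]
    (φ : Period.parabolicHoms ℤ (Gamma0 N) (ZMod n)) :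
    charZ (opP N ℤ (ZMod n) ⟨ℓ, hℓ.out⟩ φ).1 = tChar N (Gamma0 N) ℓ (charZ φ.1) := by
  rw [coe_opP, ← TT_gamma0, charZ_TT]

theorem charZ_neg (φ : Additive (Gamma0 N) →+ ZMod n) : charZ (-φ) = (charZ φ)⁻¹ := by
  ext γ; simp [charZ_apply]

theorem charZ_zsmul (k : ℤ) (φ : Additive (Gamma0 N) →+ ZMod n) :
    charZ (k • φ) = charZ φ ^ k := by
  let f : Multiplicative (Additive (Gamma0 N) →+ ZMod n) →* (Gamma0 N →* ℂˣ) :=
    { toFun := fun φ => charZ (Multiplicative.toAdd φ)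
      map_one' := charZ_zero
      map_mul' := fun _ _ => charZ_add _ _ }
  exact map_zpow f (Multiplicative.ofAdd φ) k

variable (N n) in
/-- The generalised eigenspace in the parabolic homomorphisms. -/
def PE (I : Set ℕ) (a : ℕ → ℤ) : AddSubgroup (Period.parabolicHoms ℤ (Gamma0 N) (ZMod n)) where
  carrier := {ψ | charZ ψ.1 ∈ GE N (Gamma0 N) n I a}
  zero_mem' := by
    show charZ (0 : Additive (Gamma0 N) →+ ZMod n) ∈ GE N (Gamma0 N) n I a
    rw [charZ_zero]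
    exact one_mem _
  add_mem' {x y} hx hy := by
    show charZ (x.1 + y.1) ∈ GE N (Gamma0 N) n I a
    rw [charZ_add]
    exact mul_mem hx hy
  neg_mem' {x} hx := by
    show charZ (-x.1) ∈ GE N (Gamma0 N) n I a
    rw [charZ_neg]
    exact inv_mem hx

variable {I : Set ℕ} {a : ℕ → ℤ}

theorem mem_PE {ψ : Period.parabolicHoms ℤ (Gamma0 N) (ZMod n)} :
    ψ ∈ PE N n I a ↔ charZ ψ.1 ∈ GE N (Gamma0 N) n I a := Iff.rfl

theorem mem_PE_iff {ψ : Period.parabolicHoms ℤ (Gamma0 N) (ZMod n)} :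
    ψ ∈ PE N n I a ↔ ∀ (ℓ : ℕ) [hℓ : Fact ℓ.Prime], ℓ ∈ I → ∃ k : ℕ,
      (fun x => opP N ℤ (ZMod n) ⟨ℓ, hℓ.out⟩ x - a ℓ • x)^[k] ψ = 0 := by
  rw [mem_PE, mem_GE, and_iff_right (charZ_pow _)]
  refine forall_congr' fun ℓ => forall_congr' fun hℓ => imp_congr_right fun _ =>
    exists_congr fun k => ?_
  have h1 : ∀ (k : ℕ) (ψ : Period.parabolicHoms ℤ (Gamma0 N) (ZMod n)),
      charZ ((fun x => opP N ℤ (ZMod n) ⟨ℓ, hℓ.out⟩ x - a ℓ • x)^[k] ψ).1 =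
        (fun χ : Gamma0 N →* ℂˣ => tChar N (Gamma0 N) ℓ χ / χ ^ a ℓ)^[k] (charZ ψ.1) := by
    intro k
    induction k with
    | zero => intro ψ; rfl
    | succ k ih =>
      intro ψ
      rw [Function.iterate_succ_apply, Function.iterate_succ_apply, ih]
      congr 1
      show charZ ((opP N ℤ (ZMod n) ⟨ℓ, hℓ.out⟩ ψ).1 - a ℓ • ψ.1) = _
      rw [sub_eq_add_neg, charZ_add, charZ_neg, charZ_opP, charZ_zsmul]
      exact (div_eq_mul_inv (tChar N (Gamma0 N) ℓ (charZ ψ.1)) (charZ ψ.1 ^ a ℓ)).symm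
  rw [← h1]
  constructor
  · intro h
    apply Subtype.ext
    exact charZ_injective (h.trans charZ_zero.symm)
  · intro h
    rw [h]
    exact charZ_zero

end CharZ

section Eqv

variable {N n : ℕ} [NeZero N] [NeZero n] {I : Set ℕ} {a : ℕ → ℤ}

theorem opP_mem_PE (ℓ : Nat.Primes) {ψ : Period.parabolicHoms ℤ (Gamma0 N) (ZMod n)}
    (h : ψ ∈ PE N n I a) : opP N ℤ (ZMod n) ℓ ψ ∈ PE N n I a := by
  have : Fact (ℓ : ℕ).Prime := ⟨ℓ.2⟩
  rw [mem_PE]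
  exact (charZ_opP (ℓ : ℕ) ψ).symm ▸ tChar_mem_GE (ℓ : ℕ) h

theorem charZ_galP (hNT : NoTors N n) (σ : GQ)
    (ψ : Period.parabolicHoms ℤ (Gamma0 N) (ZMod n)) (h : charZ ψ.1 ∈ xGroup N (Gamma0 N) n) :
    charZ (galP hNT σ ψ).1 = (galX X0Emb.iota N (Gamma0 N) n σ ⟨charZ ψ.1, h⟩).1 := by
  refine rel_char_unique (NeZero.ne n) (x := σ • (jEquiv hNT ψ : JZero N)) ?_
    (rel_galX ⟨_, h⟩ (jEquiv_rel hNT ψ) σ) ?_
  · rw [← jEquiv_galP]
    exact jEquiv_rel hNT _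
  · exact (xGroup_le n (galX X0Emb.iota N (Gamma0 N) n σ ⟨charZ ψ.1, h⟩).2).1

variable (hpar : ∀ χ ∈ GE N (Gamma0 N) n I a, ∀ γ : Gamma0 N,
    ((γ : SL(2, ℤ)) : Matrix (Fin 2) (Fin 2) ℤ).trace ^ 2 = 4 → χ γ = 1)

variable (N n I a) in
/-- The character attached to a parabolic homomorphism. -/
def dictHom : PE N n I a →+ WE N (Gamma0 N) n I a where
  toFun ψ := ofCh (charZ ψ.1.1) ψ.2
  map_zero' := ch_injective charZ_zero
  map_add' _ _ := ch_injective (charZ_add _ _)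

theorem ch_dictHom (ψ : PE N n I a) : ch (dictHom N n I a ψ) = charZ ψ.1.1 := rfl

/-- **The dictionary.** -/
def dictE : PE N n I a ≃+ WE N (Gamma0 N) n I a :=
  AddEquiv.ofBijective (dictHom N n I a) (by
    constructor
    · intro ψ ψ' h
      exact Subtype.ext (Subtype.ext (charZ_injective (congrArg ch h)))
    · intro x
      obtain ⟨φ, hφ⟩ := exists_charZ (ch_pow x)
      have h1 : Period.IsParabolicHom (Gamma0 N) φ := by
        rw [charZ_parabolic, hφ]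
        exact hpar _ (ch_mem x)
      exact ⟨⟨⟨φ, h1⟩, by rw [mem_PE, hφ]; exact ch_mem x⟩, ch_injective hφ⟩)

theorem ch_dictE (ψ : PE N n I a) : ch (dictE hpar ψ) = charZ ψ.1.1 := rfl

/-- Hecke operators on `PE` -/
def opE (ℓ : Nat.Primes) : PE N n I a →+ PE N n I a where
  toFun ψ := ⟨opP N ℤ (ZMod n) ℓ ψ.1, opP_mem_PE ℓ ψ.2⟩
  map_zero' := Subtype.ext (map_zero _)
  map_add' _ _ := Subtype.ext (map_add _ _ _)

@[simp] theorem coe_opE (ℓ : Nat.Primes) (ψ : PE N n I a) :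
    (opE ℓ ψ : Period.parabolicHoms ℤ (Gamma0 N) (ZMod n)) = opP N ℤ (ZMod n) ℓ ψ.1 := rfl

theorem dictE_opE (ℓ : ℕ) [hℓ : Fact ℓ.Prime] (ψ : PE N n I a) :
    dictE hpar (opE ⟨ℓ, hℓ.out⟩ ψ) = tW N (Gamma0 N) n I a ℓ (dictE hpar ψ) :=
  ch_injective (charZ_opP ℓ ψ.1)

variable (hNT : NoTors N n) (hle : GE N (Gamma0 N) n I a ≤ xGroup N (Gamma0 N) n)

include hle in
theorem galP_mem_PE (σ : GQ) {ψ : Period.parabolicHoms ℤ (Gamma0 N) (ZMod n)}
    (h : ψ ∈ PE N n I a) : galP hNT σ ψ ∈ PE N n I a := by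
  rw [mem_PE, charZ_galP hNT σ ψ (hle h)]
  exact galX_mem_GE X0Emb.iota σ (χ := ⟨charZ ψ.1, hle h⟩) h

/-- The Galois action on `PE` -/
def galE (σ : GQ) : PE N n I a →+ PE N n I a where
  toFun ψ := ⟨galP hNT σ ψ.1, galP_mem_PE hNT hle σ ψ.2⟩
  map_zero' := Subtype.ext (map_zero _)
  map_add' _ _ := Subtype.ext (map_add _ _ _)

@[simp] theorem coe_galE (σ : GQ) (ψ : PE N n I a) :
    (galE hNT hle σ ψ : Period.parabolicHoms ℤ (Gamma0 N) (ZMod n)) = galP hNT σ ψ.1 := rfl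

theorem dictE_galE (σ : GQ) (ψ : PE N n I a) :
    dictE hpar (galE hNT hle σ ψ) = galW X0Emb.iota hle σ (dictE hpar ψ) :=
  ch_injective (charZ_galP hNT σ ψ.1 (hle ψ.2))

end Eqv

section Y

/-- Transport along an additive equivalence. -/
theorem transport_y {V W G L : Type*} [AddCommGroup V] [AddCommGroup W] (d : V ≃+ W)
    (gV : G → V →+ V) (gW : G → W →+ W) (hg : ∀ g x, d (gV g x) = gW g (d x))
    (tV : L → V →+ V) (tW : L → W →+ W) (ht : ∀ g x, d (tV g x) = tW g (d x))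
    (y : W →+ W) (h1 : ∀ g x, y (gW g x) = gW g (y x)) (h2 : ∀ ℓ x, y (tW ℓ x) = tW ℓ (y x))
    (φ σ : G) (ε : ℤ) (h3 : ∀ x, gW φ x - ε • x = -((2 : ℤ) • y (gW σ x - x))) :
    ∃ y' : V →+ V, (∀ g x, y' (gV g x) = gV g (y' x)) ∧ (∀ ℓ x, y' (tV ℓ x) = tV ℓ (y' x)) ∧
      ∀ x, gV φ x - ε • x = -((2 : ℤ) • y' (gV σ x - x)) := by
  let y' : V →+ V := (d.symm.toAddMonoidHom.comp y).comp d.toAddMonoidHom
  have hy : ∀ x, d (y' x) = y (d x) := fun x => d.apply_symm_apply _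
  refine ⟨y', fun g x => d.injective ?_, fun ℓ x => d.injective ?_, fun x => d.injective ?_⟩
  · rw [hy, hg, h1, hg, hy]
  · rw [hy, ht, h2, ht, hy]
  · rw [map_neg, map_sub, map_zsmul, map_zsmul, hy, map_sub, hg, hg]
    exact h3 _

variable {m q : ℕ} [NeZero m] [Fact q.Prime] [NeZero q] {H : Subgroup (ZMod q)ˣ} {n : ℕ}
  [NeZero n] {I : Set ℕ} {a : ℕ → ℤ} (S : KLS X0Emb.iota m q H n I a)

namespace KLS

include S in
theorem par₀ : ∀ χ ∈ GE (m * q) (Gamma0 (m * q)) n I a, ∀ γ : Gamma0 (m * q),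
    ((γ : SL(2, ℤ)) : Matrix (Fin 2) (Fin 2) ℤ).trace ^ 2 = 4 → χ γ = 1 := by
  have : Fact S.ℓ.Prime := ⟨S.hℓ⟩
  have : NeZero (m * q) := ⟨Nat.mul_ne_zero (NeZero.ne m) (NeZero.ne q)⟩
  exact fun χ hχ γ hγ => GE_parabolic S.h6 S.hℓI S.haℓ S.hℓM hχ γ hγ

/-- **The operator `y` on parabolic homomorphisms.** -/
theorem exists_yE (hNT : NoTors (m * q) n) {ε : ℤ} (hε : ε * ε = 1) (hq : (q : ZMod n) = 1)
    (hU : ∀ χ ∈ GE (m * q) (Gamma0 (m * q)) n I a, tChar (m * q) (Gamma0 (m * q)) q χ = χ ^ ε)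
    (c : ∀ x ∈ S.K1, x ∈ S.K2 → S.δW x = x) :
    ∃ y : PE (m * q) n I a →+ PE (m * q) n I a,
      (∀ (g : GQ) (x : PE (m * q) n I a),
        y (galE hNT S.hle₀ g x) = galE hNT S.hle₀ g (y x)) ∧
      (∀ (ℓ : Nat.Primes) (x : PE (m * q) n I a), y (opE ℓ x) = opE ℓ (y x)) ∧
      ∀ x : PE (m * q) n I a, galE hNT S.hle₀ S.φ x - ε • x =
        -((2 : ℤ) • y (galE hNT S.hle₀ S.σ x - x)) := by
  have hh := S.exists_y hε hq hU c
  obtain ⟨y, hy⟩ := hh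
  have h1 := hy.1
  have h2 := hy.2.1
  have h3 := hy.2.2
  have hh := transport_y (dictE S.par₀) (galE hNT S.hle₀) (galW X0Emb.iota S.hle₀)
    (dictE_galE S.par₀ hNT S.hle₀) opE
    (fun ℓ => haveI : Fact (ℓ : ℕ).Prime := ⟨ℓ.2⟩; tW (m * q) (Gamma0 (m * q)) n I a (ℓ : ℕ))
    (fun ℓ x => haveI : Fact (ℓ : ℕ).Prime := ⟨ℓ.2⟩; dictE_opE S.par₀ (ℓ : ℕ) x) y h1
    (fun ℓ x => haveI : Fact (ℓ : ℕ).Prime := ⟨ℓ.2⟩; h2 (ℓ : ℕ) x) S.φ S.σ ε
  exact hh h3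

end KLS

end Y

end Fermat.Agent.Ribet
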