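import Fermat.Agent.DS.EisGamma1
import Fermat.Agent.DS.IntGamma

/-!
# Eisenstein series supported on `q ∣ c`, and the Galois action on their expansions
-/

set_option autoImplicit false

open UpperHalfPlane ModularForm EisensteinSeries Matrix.SpecialLinearGroup Filter Topology
  CongruenceSubgroup
open scoped MatrixGroups Manifold ModularForm

noncomputable section

namespace Fermat.Agent.Ribet

open Fermat.Agent.DSEis ZMod

variable {q : ℕ} [NeZero q]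

/-- `∑_{q ∣ c} φ(d) (c z + d)^{-k}` -/
def eis0 (φ : ZMod q → ℂ) (k : ℤ) : ℍ → ℂ :=
  eis (N := q) (fun a => if a 0 = 0 then φ (a 1) else 0) k

/-- Fourier transform of `φ` -/
def fou (φ : ZMod q → ℂ) (n : ℕ) : ℂ := ∑ h : ZMod q, φ h * stdAddChar ((n : ZMod q) * h)

lemma stdAddChar_natCast_mul (n : ℕ) (h : ZMod q) :
    stdAddChar ((n : ZMod q) * h) = (stdAddChar h : ℂ) ^ n := by
  rw [← nsmul_eq_mul, AddChar.map_nsmul_eq_pow]

lemma stdAddChar_val (h : ZMod q) :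
    (stdAddChar h : ℂ) = Complex.exp (2 * Real.pi * Complex.I * ((h.val : ℂ) / q)) := by
  have h1 : h = ((h.val : ℤ) : ZMod q) := by
    rw [Int.cast_natCast, ZMod.natCast_zmod_val]
  conv_lhs => rw [h1]
  rw [stdAddChar_coe]
  congr 1
  push_cast
  ring

/-- Lipschitz formula in a residue class. -/
lemma lipschitz_class {k : ℕ} (hk : 3 ≤ k) (h : ZMod q) (z : ℍ) :
    ∑' j : ℤ, (((q : ℂ) * z + ((h.val : ℂ) + j * q)) ^ k)⁻¹ =
      ((q : ℂ) ^ k)⁻¹ * (cst k * ∑' n : ℕ+, ((n : ℕ) : ℂ) ^ (k - 1) *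
        (stdAddChar (((n : ℕ) : ZMod q) * h) *
          Complex.exp (2 * Real.pi * Complex.I * z) ^ (n : ℕ))) := by
  have hq : (q : ℂ) ≠ 0 := by exact_mod_cast NeZero.ne q
  set w : ℍ := ((h.val / q : ℝ) +ᵥ z) with hw
  have hwz : (w : ℂ) = (h.val : ℂ) / q + z := by
    rw [hw, UpperHalfPlane.coe_vadd]
    push_cast
    rfl
  have h1 := qExpansion_identity_pnat (k := k - 1) (by omega) w
  rw [show k - 1 + 1 = k by omega] at h1
  have h2 : ∀ j : ℤ, (((q : ℂ) * z + ((h.val : ℂ) + j * q)) ^ k)⁻¹ =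
      ((q : ℂ) ^ k)⁻¹ * (1 / ((w : ℂ) + j) ^ k) := by
    intro j
    rw [one_div, ← mul_inv, ← mul_pow, hwz]
    congr 2
    field_simp
    ring
  rw [tsum_congr h2, tsum_mul_left, h1, cst]
  congr 2
  refine tsum_congr fun n => ?_
  rw [stdAddChar_natCast_mul, ← mul_pow, stdAddChar_val, ← Complex.exp_add, hwz]
  congr 3
  ring

lemma summable_norm_class (k : ℕ) (hk : 3 ≤ k) (φ : ZMod q → ℂ) (z : ℍ) :
    Summable fun d : ℤ => φ (d : ZMod q) * (((z : ℂ) + d) ^ k)⁻¹ := by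
  have hk' : (3 : ℤ) ≤ k := by exact_mod_cast hk
  have hs := summable_eis (N := q) (fun a : Fin 2 → ZMod q => φ (a 1)) hk' z
  have hinj : Function.Injective (fun d : ℤ => (![1, d] : Fin 2 → ℤ)) := by
    intro a b hab
    simpa using congrFun hab 1
  refine (hs.comp_injective hinj).congr fun d => ?_
  simp [red, eisSummand]

/-- an integer is a pair (quotient, residue) -/
def clsEquiv (q : ℕ) [NeZero q] : ZMod q × ℤ ≃ ℤ where
  toFun p := (p.1.val : ℤ) + p.2 * q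
  invFun d := ((d : ZMod q), d / q)
  left_inv := fun ⟨h, j⟩ => by
    have hq : (q : ℤ) ≠ 0 := by exact_mod_cast NeZero.ne q
    refine Prod.ext ?_ ?_
    · simp
    · show ((h.val : ℤ) + j * q) / q = j
      rw [Int.add_mul_ediv_right _ _ hq, Int.ediv_eq_zero_of_lt (by positivity)
        (by exact_mod_cast ZMod.val_lt h), zero_add]
  right_inv := fun d => by
    show ((((d : ZMod q)).val : ℤ)) + d / q * q = d
    rw [ZMod.val_intCast, mul_comm, Int.emod_add_mul_ediv]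

lemma clsEquiv_apply (h : ZMod q) (j : ℤ) : clsEquiv q (h, j) = (h.val : ℤ) + j * q := rfl

lemma clsEquiv_cast (h : ZMod q) (j : ℤ) : ((clsEquiv q (h, j) : ℤ) : ZMod q) = h := by
  rw [clsEquiv_apply]
  simp

lemma summable_fou_aux (c : ℂ) (k : ℕ) (h : ZMod q) (z : ℍ) :
    Summable fun n : ℕ+ => c * (((n : ℕ) : ℂ) ^ (k - 1) *
        (stdAddChar (((n : ℕ) : ZMod q) * h) *
          Complex.exp (2 * Real.pi * Complex.I * z) ^ (n : ℕ))) := by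
  refine Summable.mul_left _ ?_
  have h2 : Summable fun n : ℕ => ((n : ℂ) ^ (k - 1) *
      Complex.exp (2 * Real.pi * Complex.I * z) ^ n) :=
    summable_pow_mul_geometric_of_norm_lt_one (k - 1) (norm_exp_two_pi_I_lt_one z)
  have h3 := h2.norm.comp_injective PNat.coe_injective
  refine Summable.of_norm (h3.congr fun n => ?_)
  have h4 : ‖(stdAddChar (((n : ℕ) : ZMod q) * h) : ℂ)‖ = 1 := by
    rw [stdAddChar_apply]
    exact Circle.norm_coe _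
  simp only [Function.comp, norm_mul, h4, one_mul]

lemma lipschitz_aux {k : ℕ} (hk : 3 ≤ k) (φ : ZMod q → ℂ) (z w : ℍ) (hw : (w : ℂ) = q * z)
    (h : ZMod q) : ∑' j : ℤ, φ ((clsEquiv q (h, j) : ℤ) : ZMod q) *
      (((w : ℂ) + (clsEquiv q (h, j) : ℤ)) ^ k)⁻¹ =
      ((q : ℂ) ^ k)⁻¹ * (cst k * ∑' n : ℕ+, φ h * (((n : ℕ) : ℂ) ^ (k - 1) *
        (stdAddChar (((n : ℕ) : ZMod q) * h) *
          Complex.exp (2 * Real.pi * Complex.I * z) ^ (n : ℕ)))) := by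
  have h1 : ∀ j : ℤ, φ ((clsEquiv q (h, j) : ℤ) : ZMod q) *
      (((w : ℂ) + (clsEquiv q (h, j) : ℤ)) ^ k)⁻¹ =
      φ h * (((q : ℂ) * z + ((h.val : ℂ) + j * q)) ^ k)⁻¹ := by
    intro j
    rw [clsEquiv_cast, clsEquiv_apply, hw]
    push_cast
    rfl
  rw [tsum_congr h1, tsum_mul_left, lipschitz_class hk h z, tsum_mul_left]
  ring

/-- Lipschitz formula with coefficients. -/
lemma lipschitz_phi {k : ℕ} (hk : 3 ≤ k) (φ : ZMod q → ℂ) (z w : ℍ) (hw : (w : ℂ) = q * z) :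
    ∑' d : ℤ, φ (d : ZMod q) * (((w : ℂ) + d) ^ k)⁻¹ =
      ((q : ℂ) ^ k)⁻¹ * (cst k * ∑' n : ℕ+, ((n : ℕ) : ℂ) ^ (k - 1) * (fou φ n *
          Complex.exp (2 * Real.pi * Complex.I * z) ^ (n : ℕ))) := by
  have hs := summable_norm_class k hk φ w
  have hs2 := hs.comp_injective (clsEquiv q).injective
  simp only [Function.comp_def] at hs2
  have e1 : ∑' d : ℤ, φ (d : ZMod q) * (((w : ℂ) + d) ^ k)⁻¹ =
      ∑' p : ZMod q × ℤ, φ ((clsEquiv q p : ℤ) : ZMod q) *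
        (((w : ℂ) + (clsEquiv q p : ℤ)) ^ k)⁻¹ :=
    ((clsEquiv q).tsum_eq (fun d : ℤ => φ (d : ZMod q) * (((w : ℂ) + d) ^ k)⁻¹)).symm
  have e2 : ∑' p : ZMod q × ℤ, φ ((clsEquiv q p : ℤ) : ZMod q) *
        (((w : ℂ) + (clsEquiv q p : ℤ)) ^ k)⁻¹ = ∑ h : ZMod q, ∑' j : ℤ,
        φ ((clsEquiv q (h, j) : ℤ) : ZMod q) * (((w : ℂ) + (clsEquiv q (h, j) : ℤ)) ^ k)⁻¹ := by
    rw [hs2.tsum_prod, tsum_fintype]
  have e3 : ∑ h : ZMod q, ∑' j : ℤ,
        φ ((clsEquiv q (h, j) : ℤ) : ZMod q) * (((w : ℂ) + (clsEquiv q (h, j) : ℤ)) ^ k)⁻¹ =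
      ∑ h : ZMod q, ((q : ℂ) ^ k)⁻¹ * (cst k * ∑' n : ℕ+, φ h * (((n : ℕ) : ℂ) ^ (k - 1) *
        (stdAddChar (((n : ℕ) : ZMod q) * h) *
          Complex.exp (2 * Real.pi * Complex.I * z) ^ (n : ℕ)))) :=
    Finset.sum_congr rfl fun h _ => lipschitz_aux hk φ z w hw h
  have e4 : ∑' n : ℕ+, ((n : ℕ) : ℂ) ^ (k - 1) * (fou φ n *
          Complex.exp (2 * Real.pi * Complex.I * z) ^ (n : ℕ)) =
      ∑ h : ZMod q, ∑' n : ℕ+, φ h * (((n : ℕ) : ℂ) ^ (k - 1) *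
        (stdAddChar (((n : ℕ) : ZMod q) * h) *
          Complex.exp (2 * Real.pi * Complex.I * z) ^ (n : ℕ))) := by
    rw [← Summable.tsum_finsetSum fun h _ => summable_fou_aux (φ h) k h z]
    refine tsum_congr fun n => ?_
    rw [fou, Finset.sum_mul, Finset.mul_sum]
    refine Finset.sum_congr rfl fun h _ => ?_
    ring
  rw [e1, e2, e3, ← Finset.mul_sum, ← Finset.mul_sum, e4]

/-- the expansion of `eis0`, as a double series -/
theorem eis0_eq (φ : ZMod q → ℂ) (hφ : ∀ a, φ (-a) = φ a) {k : ℕ} (hk : 3 ≤ k) (hev : Even k)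
    (z : ℍ) :
    eis0 φ k z = (∑' d : ℤ, φ (d : ZMod q) * ((d : ℂ) ^ k)⁻¹) +
      2 * (((q : ℂ) ^ k)⁻¹ * cst k) * ∑' c : ℕ+, ∑' n : ℕ+, ((n : ℕ) : ℂ) ^ (k - 1) * (fou φ n *
          Complex.exp (2 * Real.pi * Complex.I * z) ^ (c * n : ℕ)) := by
  have hk' : (3 : ℤ) ≤ k := by exact_mod_cast hk
  have hq : (q : ℤ) ≠ 0 := by exact_mod_cast NeZero.ne q
  have hs := summable_eis (N := q) (fun a : Fin 2 → ZMod q => if a 0 = 0 then φ (a 1) else 0) hk' z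
  -- restrict to `q ∣ v₀`
  let e : ℤ × ℤ → (Fin 2 → ℤ) := fun p => ![q * p.1, p.2]
  have he : Function.Injective e := by
    intro a b hab
    have h0 := congrFun hab 0
    have h1 := congrFun hab 1
    simp only [e, Matrix.cons_val_zero, Matrix.cons_val_one] at h0 h1
    exact Prod.ext (mul_left_cancel₀ hq h0) h1
  have hterm : ∀ p : ℤ × ℤ, (if red q (e p) 0 = 0 then φ (red q (e p) 1) else 0) *
      eisSummand k (e p) z = φ (p.2 : ZMod q) * ((((q : ℂ) * p.1) * z + p.2) ^ k)⁻¹ := by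
    intro p
    simp [e, red, eisSummand]
  have h1 : eis0 φ k z = ∑' p : ℤ × ℤ, φ (p.2 : ZMod q) *
      ((((q : ℂ) * p.1) * z + p.2) ^ k)⁻¹ := by
    rw [eis0, eis, ← he.tsum_eq]
    · exact tsum_congr hterm
    · intro v hv
      by_cases h0 : red q v 0 = 0
      · have h2 : ((v 0 : ℤ) : ZMod q) = 0 := h0
        rw [ZMod.intCast_zmod_eq_zero_iff_dvd] at h2
        obtain ⟨c, hc⟩ := h2
        refine ⟨(c, v 1), ?_⟩
        ext i
        fin_cases i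
        · exact hc.symm
        · rfl
      · simp [h0] at hv
  have hs2 : Summable fun p : ℤ × ℤ => φ (p.2 : ZMod q) *
      ((((q : ℂ) * p.1) * z + p.2) ^ k)⁻¹ :=
    (hs.comp_injective he).congr fun p => hterm p
  have hs3 : Summable fun c : ℤ => ∑' d : ℤ, φ (d : ZMod q) *
      ((((q : ℂ) * c) * z + d) ^ k)⁻¹ := hs2.prod
  rw [h1, hs2.tsum_prod, tsum_int_eq_zero_add_tsum_pnat hs3, add_assoc]
  have t1 : Summable fun n : ℕ+ => ∑' d : ℤ, φ (d : ZMod q) *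
      ((((q : ℂ) * ((n : ℕ) : ℤ)) * z + d) ^ k)⁻¹ := by
    have := (summable_int_iff_summable_nat_and_neg.mp hs3).1
    exact (summable_pnat_iff_summable_nat (f := fun n : ℕ => ∑' d : ℤ, φ (d : ZMod q) *
      ((((q : ℂ) * ((n : ℕ) : ℤ)) * z + d) ^ k)⁻¹)).mpr this
  have t2 : Summable fun n : ℕ+ => ∑' d : ℤ, φ (d : ZMod q) *
      ((((q : ℂ) * ((-((n : ℕ) : ℤ) : ℤ) : ℂ)) * z + d) ^ k)⁻¹ := by
    have := (summable_int_iff_summable_nat_and_neg.mp hs3).2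
    exact (summable_pnat_iff_summable_nat (f := fun n : ℕ => ∑' d : ℤ, φ (d : ZMod q) *
      ((((q : ℂ) * ((-(n : ℤ) : ℤ) : ℂ)) * z + d) ^ k)⁻¹)).mpr this
  rw [← t1.tsum_add t2]
  congr 1
  · simp
  · rw [← tsum_mul_left]
    refine tsum_congr fun c => ?_
    have hneg : ∑' d : ℤ, φ (d : ZMod q) *
      ((((q : ℂ) * ((-((c : ℕ) : ℤ) : ℤ) : ℂ)) * z + d) ^ k)⁻¹ = ∑' d : ℤ, φ (d : ZMod q) *
      ((((q : ℂ) * ((c : ℕ) : ℤ)) * z + d) ^ k)⁻¹ := by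
      rw [← (Equiv.neg ℤ).tsum_eq]
      refine tsum_congr fun d => ?_
      have e1 : (((q : ℂ) * ((-((c : ℕ) : ℤ) : ℤ) : ℂ)) * z + ((Equiv.neg ℤ d : ℤ) : ℂ)) =
          -((((q : ℂ) * ((c : ℕ) : ℤ)) * z + d)) := by
        simp
        ring
      rw [e1, hev.neg_pow]
      simp [hφ]
    rw [hneg, ← two_mul]
    let cz : ℍ := ⟨((c : ℕ) : ℂ) * z, by
      have : (((c : ℕ) : ℂ) * (z : ℂ)).im = ((c : ℕ) : ℝ) * z.im := by
        rw [← Complex.ofReal_natCast, Complex.im_ofReal_mul]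
        rfl
      rw [this]
      exact mul_pos (by exact_mod_cast c.pos) z.im_pos⟩
    let w : ℍ := ⟨(q : ℂ) * cz, by
      have : ((q : ℂ) * (cz : ℂ)).im = (q : ℝ) * cz.im := by
        rw [← Complex.ofReal_natCast, Complex.im_ofReal_mul]
        rfl
      rw [this]
      exact mul_pos (by exact_mod_cast Nat.pos_of_ne_zero (NeZero.ne q)) cz.im_pos⟩
    have h3 := lipschitz_phi hk φ cz w rfl
    have h4 : ∀ d : ℤ, φ (d : ZMod q) * ((((q : ℂ) * ((c : ℕ) : ℤ)) * z + d) ^ k)⁻¹ =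
        φ (d : ZMod q) * (((w : ℂ) + d) ^ k)⁻¹ := by
      intro d
      congr 3
      show _ = (q : ℂ) * (((c : ℕ) : ℂ) * z) + d
      push_cast
      ring
    rw [tsum_congr h4, h3]
    have h5 : ∀ n : ℕ+, Complex.exp (2 * Real.pi * Complex.I * (cz : ℂ)) ^ (n : ℕ) =
        Complex.exp (2 * Real.pi * Complex.I * z) ^ (c * n : ℕ) := by
      intro n
      rw [pow_mul]
      congr 1
      rw [← Complex.exp_nat_mul]
      congr 1
      show _ * (((c : ℕ) : ℂ) * z) = _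
      ring
    simp only [h5]
    ring

/-- the divisor sum -/
def fouSum (φ : ZMod q → ℂ) (k : ℕ) (n : ℕ) : ℂ :=
  ∑ x ∈ n.divisorsAntidiagonal, (x.2 : ℂ) ^ (k - 1) * fou φ x.2

lemma norm_fou_le (φ : ZMod q → ℂ) (n : ℕ) : ‖fou φ n‖ ≤ ∑ h : ZMod q, ‖φ h‖ := by
  rw [fou]
  refine (norm_sum_le _ _).trans (Finset.sum_le_sum fun h _ => ?_)
  have h4 : ‖(stdAddChar ((n : ZMod q) * h) : ℂ)‖ = 1 := by
    rw [stdAddChar_apply]
    exact Circle.norm_coe _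
  rw [norm_mul, h4, mul_one]

lemma summable_double' (φ : ZMod q → ℂ) (k : ℕ) {x : ℂ} (hx : ‖x‖ < 1) :
    Summable fun c : ℕ+ × ℕ+ => ((c.2 : ℕ) : ℂ) ^ (k - 1) * (fou φ c.2 * x ^ (c.1 * c.2 : ℕ)) := by
  refine Summable.of_norm_bounded (g := fun c : ℕ+ × ℕ+ =>
    (∑ h : ZMod q, ‖φ h‖) * ‖(((c.2 : ℕ) : ℂ) ^ (k - 1) * x ^ (c.1 * c.2 : ℕ))‖) ?_ ?_
  · exact (summable_prod_mul_pow (k - 1) hx).norm.mul_left _
  · intro c
    rw [mul_left_comm, norm_mul]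
    exact mul_le_mul_of_nonneg_right (norm_fou_le φ _) (norm_nonneg _)

lemma hasSum_fouSum (φ : ZMod q → ℂ) (k : ℕ) {x : ℂ} (hx : ‖x‖ < 1) :
    HasSum (fun n : ℕ+ => fouSum φ k n * x ^ (n : ℕ))
      (∑' c : ℕ+, ∑' n : ℕ+, ((n : ℕ) : ℂ) ^ (k - 1) * (fou φ n * x ^ (c * n : ℕ))) := by
  have H := summable_double' φ k hx
  have h1 : ∑' c : ℕ+, ∑' n : ℕ+, ((n : ℕ) : ℂ) ^ (k - 1) * (fou φ n * x ^ (c * n : ℕ)) =
      ∑' c : ℕ+ × ℕ+, ((c.2 : ℕ) : ℂ) ^ (k - 1) * (fou φ c.2 * x ^ (c.1 * c.2 : ℕ)) := by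
    rw [H.tsum_prod]
  rw [h1]
  have h2 := (sigmaAntidiagonalEquivProd.hasSum_iff (f := fun c : ℕ+ × ℕ+ =>
    ((c.2 : ℕ) : ℂ) ^ (k - 1) * (fou φ c.2 * x ^ (c.1 * c.2 : ℕ)))).mpr H.hasSum
  refine h2.sigma fun n => ?_
  have h3 := hasSum_fintype (fun y : (n : ℕ).divisorsAntidiagonal =>
    ((y.1.2 : ℕ) : ℂ) ^ (k - 1) * (fou φ y.1.2 * x ^ (n : ℕ)))
  have h4 : ∑ y : (n : ℕ).divisorsAntidiagonal,
      ((y.1.2 : ℕ) : ℂ) ^ (k - 1) * (fou φ y.1.2 * x ^ (n : ℕ)) = fouSum φ k n * x ^ (n : ℕ) := by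
    rw [fouSum, Finset.sum_mul, Finset.univ_eq_attach,
      (n : ℕ).divisorsAntidiagonal.sum_attach (fun y : ℕ × ℕ =>
        ((y.2 : ℕ) : ℂ) ^ (k - 1) * (fou φ y.2 * x ^ (n : ℕ)))]
    exact Finset.sum_congr rfl fun y _ => by ring
  rw [h4] at h3
  convert h3 using 2 with y
  have hy := (Nat.mem_divisorsAntidiagonal.mp y.2).1
  show ((y.1.2 : ℕ) : ℂ) ^ (k - 1) * (fou φ y.1.2 * x ^ (y.1.1 * y.1.2)) = _
  rw [hy]

/-- the normalised Eisenstein series -/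
def F0 (φ : ZMod q → ℂ) (k : ℕ) : ℍ → ℂ := (((q : ℂ) ^ k) * (cst k)⁻¹) • eis0 φ k

/-- coefficients of `F0` -/
def F0Coeff (φ : ZMod q → ℂ) (k : ℕ) (n : ℕ) : ℂ :=
  if n = 0 then (((q : ℂ) ^ k) * (cst k)⁻¹) * ∑' d : ℤ, φ (d : ZMod q) * ((d : ℂ) ^ k)⁻¹
  else 2 * fouSum φ k n

theorem hasSum_F0 (φ : ZMod q → ℂ) (hφ : ∀ a, φ (-a) = φ a) {k : ℕ} (hk : 3 ≤ k) (hev : Even k)
    (z : ℍ) : HasSum (fun n => F0Coeff φ k n • Function.Periodic.qParam 1 z ^ n) (F0 φ k z) := by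
  have hq : (q : ℂ) ≠ 0 := by exact_mod_cast NeZero.ne q
  have h1 := (hasSum_fouSum φ k (norm_exp_two_pi_I_lt_one z)).mul_left (2 : ℂ)
  have h2 : F0 φ k z = (((q : ℂ) ^ k) * (cst k)⁻¹) *
      (∑' d : ℤ, φ (d : ZMod q) * ((d : ℂ) ^ k)⁻¹) +
      2 * ∑' c : ℕ+, ∑' n : ℕ+, ((n : ℕ) : ℂ) ^ (k - 1) * (fou φ n *
          Complex.exp (2 * Real.pi * Complex.I * z) ^ (c * n : ℕ)) := by
    have h3 : F0 φ k z = (((q : ℂ) ^ k) * (cst k)⁻¹) * eis0 φ k z := rfl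
    rw [h3, eis0_eq φ hφ hk hev, mul_add]
    congr 1
    have h4 := cst_ne_zero k
    field_simp
  rw [h2, ← hasSum_nat_add_iff' 1, ← hasSum_pnat_iff_hasSum_succ
    (f := fun n => F0Coeff φ k n • Function.Periodic.qParam 1 z ^ n)]
  simp only [Finset.range_one, Finset.sum_singleton, F0Coeff, if_true, pow_zero, smul_eq_mul,
    mul_one, add_sub_cancel_left]
  have h5 : (fun n : ℕ+ => (if (n : ℕ) = 0 then (((q : ℂ) ^ k) * (cst k)⁻¹) *
      ∑' d : ℤ, φ (d : ZMod q) * ((d : ℂ) ^ k)⁻¹ else 2 * fouSum φ k n) *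
      Function.Periodic.qParam 1 z ^ (n : ℕ)) = fun n : ℕ+ => 2 * (fouSum φ k n *
        Complex.exp (2 * Real.pi * Complex.I * z) ^ (n : ℕ)) := by
    funext n
    rw [if_neg n.ne_zero, Function.Periodic.qParam, mul_assoc]
    simp
  rw [h5]
  exact h1

/-! ### as modular forms -/

/-- The Eisenstein series `F0` as a modular form on `Γ₁(q)`. -/
def F0MF (φ : ZMod q → ℂ) (k : ℕ) (hk : 3 ≤ k) :
    ModularForm (Gamma1 q : Subgroup (GL (Fin 2) ℝ)) k where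
  toFun := F0 φ k
  slash_action_eq' := by
    rintro _ ⟨γ, hγ, rfl⟩
    have hγ' : γ⁻¹ ∈ Gamma1 q := inv_mem hγ
    rw [Gamma1_mem] at hγ'
    show (F0 φ k) ∣[(k : ℤ)] γ = _
    rw [F0, SL_smul_slash, eis0, eis_slash]
    congr 2
    ext a
    simp only [Matrix.vecMul, dotProduct, Fin.sum_univ_two, Matrix.map_apply]
    have e0 := hγ'.1
    have e1 := hγ'.2.2
    have e2 := hγ'.2.1
    simp only [Int.coe_castRingHom]
    rw [e1, e0, e2, mul_one, mul_zero, add_zero, mul_one]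
    by_cases h : a 0 = 0
    · rw [if_pos h, if_pos h, h, zero_mul, zero_add]
    · rw [if_neg h, if_neg h]
  holo' := (eis_mdiff (N := q) (k := (k : ℤ)) _ (by exact_mod_cast hk)).const_smul _
  bdd_at_cusps' {c} hc := by
    rw [Subgroup.IsArithmetic.isCusp_iff_isCusp_SL2Z] at hc
    rw [OnePoint.isBoundedAt_iff_forall_SL2Z hc]
    intro γ _
    show IsBoundedAtImInfty ((F0 φ k) ∣[(k : ℤ)] γ)
    rw [F0, SL_smul_slash, eis0, eis_slash]
    exact (eis_bdd (N := q) _ (by exact_mod_cast hk)).smul _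

@[simp] lemma coe_F0MF (φ : ZMod q → ℂ) (k : ℕ) (hk : 3 ≤ k) : ⇑(F0MF φ k hk) = F0 φ k := rfl

theorem qExpansion_F0 (φ : ZMod q → ℂ) (hφ : ∀ a, φ (-a) = φ a) {k : ℕ} (hk : 3 ≤ k)
    (hev : Even k) (n : ℕ) : (qExpansion 1 (F0 φ k)).coeff n = F0Coeff φ k n :=
  (ModularFormClass.qExpansion_coeff_unique one_pos one_mem_G1 (f := F0MF φ k hk)
    (fun τ => hasSum_F0 φ hφ hk hev τ) n).symm

/-! ### the Galois action -/

/-- the conjugate function -/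
def conjPhi (σ : ℂ →+* ℂ) (t : (ZMod q)ˣ) (φ : ZMod q → ℂ) : ZMod q → ℂ :=
  fun a => σ (φ (((t⁻¹ : (ZMod q)ˣ) : ZMod q) * a))

lemma sigma_stdAddChar {σ : ℂ →+* ℂ} {t : (ZMod q)ˣ}
    (hσ : σ (stdAddChar (1 : ZMod q)) = stdAddChar (t : ZMod q)) (a : ZMod q) :
    σ (stdAddChar a) = stdAddChar ((t : ZMod q) * a) := by
  have h1 : a = ((a.val : ℕ) : ZMod q) * 1 := by rw [mul_one, ZMod.natCast_zmod_val]
  have h2 : (t : ZMod q) * a = ((a.val : ℕ) : ZMod q) * t := by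
    rw [mul_comm, ZMod.natCast_zmod_val]
  conv_lhs => rw [h1]
  rw [h2, stdAddChar_natCast_mul, stdAddChar_natCast_mul, map_pow, hσ]

lemma sigma_fou {σ : ℂ →+* ℂ} {t : (ZMod q)ˣ}
    (hσ : σ (stdAddChar (1 : ZMod q)) = stdAddChar (t : ZMod q)) (φ : ZMod q → ℂ) (n : ℕ) :
    σ (fou φ n) = fou (conjPhi σ t φ) n := by
  rw [fou, map_sum, fou]
  refine Eq.trans ?_ (Equiv.sum_comp (Units.mulLeft t)
    (fun h => conjPhi σ t φ h * stdAddChar ((n : ZMod q) * h)))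
  refine Finset.sum_congr rfl fun h _ => ?_
  rw [map_mul, sigma_stdAddChar hσ, conjPhi]
  have h1 : (Units.mulLeft t) h = (t : ZMod q) * h := rfl
  rw [h1, ← mul_assoc ((t⁻¹ : (ZMod q)ˣ) : ZMod q), Units.inv_mul, one_mul]
  congr 2
  ring

lemma sigma_fouSum {σ : ℂ →+* ℂ} {t : (ZMod q)ˣ}
    (hσ : σ (stdAddChar (1 : ZMod q)) = stdAddChar (t : ZMod q)) (φ : ZMod q → ℂ) (k n : ℕ) :
    σ (fouSum φ k n) = fouSum (conjPhi σ t φ) k n := by
  rw [fouSum, map_sum, fouSum]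
  refine Finset.sum_congr rfl fun x _ => ?_
  rw [map_mul, map_pow, map_natCast, sigma_fou hσ]

lemma eq_zero_of_const {k : ℕ} (hk : 3 ≤ k) {f : ModularForm (Gamma1 q : Subgroup (GL (Fin 2) ℝ)) k}
    {c : ℂ} (h : ∀ τ : ℍ, f τ = c) : c = 0 := by
  have hq : (q : ℤ) ≠ 0 := by exact_mod_cast NeZero.ne q
  let γ : SL(2, ℤ) := ⟨!![1, 0; q, 1], by simp [Matrix.det_fin_two_of]⟩
  have hγ : γ ∈ Gamma1 q := by
    rw [Gamma1_mem]
    simp [γ]
  have h1 : (f : ℍ → ℂ) ∣[(k : ℤ)] γ = f :=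
    SlashInvariantFormClass.slash_action_eq f _ ⟨γ, hγ, rfl⟩
  have h2 := congrFun h1 UpperHalfPlane.I
  rw [SL_slash_apply, h, h] at h2
  by_contra hc
  have h3 : denom γ UpperHalfPlane.I ^ (-(k : ℤ)) = 1 := by
    refine mul_left_cancel₀ hc ?_
    rw [h2, mul_one]
  have h4 : denom γ UpperHalfPlane.I = (q : ℂ) * Complex.I + 1 := by
    rw [ModularGroup.denom_apply]
    simp [γ]
  have h5 : ‖denom γ UpperHalfPlane.I‖ ^ (k : ℤ) = 1 := by
    have := congrArg norm h3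
    rw [norm_zpow, norm_one, zpow_neg, inv_eq_one] at this
    exact this
  have h6 : 1 < ‖denom γ UpperHalfPlane.I‖ := by
    rw [h4]
    have h7 : Complex.normSq ((q : ℂ) * Complex.I + 1) = 1 + (q : ℝ) ^ 2 := by
      rw [Complex.normSq_apply]
      simp
      ring
    rw [← Complex.sq_norm] at h7
    have h8 : (0 : ℝ) < (q : ℝ) ^ 2 := by
      have : (0 : ℝ) < q := by exact_mod_cast Nat.pos_of_ne_zero (NeZero.ne q)
      positivity
    nlinarith [norm_nonneg ((q : ℂ) * Complex.I + 1)]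
  rw [zpow_natCast] at h5
  exact absurd h5 (one_lt_pow₀ h6 (by omega)).ne'

/-- **The Galois action on the expansions of `F0`.** -/
theorem qExpansion_F0_conj {σ : ℂ →+* ℂ} {t : (ZMod q)ˣ}
    (hσ : σ (stdAddChar (1 : ZMod q)) = stdAddChar (t : ZMod q)) (φ : ZMod q → ℂ)
    (hφ : ∀ a, φ (-a) = φ a) {k : ℕ} (hk : 3 ≤ k) (hev : Even k) :
    qExpansion 1 (F0 (conjPhi σ t φ) k) = (qExpansion 1 (F0 φ k)).map σ := by
  have hφ' : ∀ a, conjPhi σ t φ (-a) = conjPhi σ t φ a := by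
    intro a
    rw [conjPhi, conjPhi, mul_neg, hφ]
  obtain ⟨f', hf'⟩ := IntGamma.exists_sigma_mod (IntGamma.good_Gamma1 q) σ (F0MF φ k hk)
  set g := f' - F0MF (conjPhi σ t φ) k hk with hg
  have hcoef : ∀ n, n ≠ 0 → (qExpansion 1 f').coeff n =
      (qExpansion 1 (F0MF (conjPhi σ t φ) k hk)).coeff n := by
    intro n hn
    rw [hf', PowerSeries.coeff_map, coe_F0MF, coe_F0MF, qExpansion_F0 φ hφ hk hev,
      qExpansion_F0 _ hφ' hk hev, F0Coeff, F0Coeff, if_neg hn, if_neg hn]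
    show σ (2 * fouSum φ k n) = _
    rw [map_mul, map_ofNat, sigma_fouSum hσ]
  have hgq : qExpansion 1 g = qExpansion 1 f' - qExpansion 1 (F0MF (conjPhi σ t φ) k hk) := by
    rw [hg, FunLike.coe_sub]
    exact ModularForm.qExpansion_sub one_pos one_mem_G1 _ _
  have hconst : ∀ τ : ℍ, g τ = (qExpansion 1 g).coeff 0 := by
    intro τ
    have h1 := ModularForm.hasSum_qExpansion (f := g) one_pos one_mem_G1 τ
    refine h1.unique ?_
    have h2 := hasSum_single (f := fun n => (qExpansion 1 g).coeff n •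
      Function.Periodic.qParam 1 τ ^ n) 0 (fun n hn => by
        rw [hgq, map_sub, hcoef n hn, sub_self, zero_smul])
    simpa using h2
  have h0 := eq_zero_of_const hk hconst
  have h1 : qExpansion 1 g = 0 := by
    ext n
    rcases eq_or_ne n 0 with rfl | hn
    · rw [h0, map_zero]
    · rw [hgq, map_sub, hcoef n hn, sub_self, map_zero]
  rw [hgq, sub_eq_zero] at h1
  rw [← coe_F0MF (conjPhi σ t φ) k hk, ← h1, hf']
  rfl

end Fermat.Agent.Ribet
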