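import Mathlib

/-!
# Unit determinants from roots of unity (cluster RIBET)

`sq a t` is the Chebyshev type polynomial with `sq a (c + 1/c) * (c - 1/c) = c^a - c^{-a}`.
-/

set_option autoImplicit false

namespace Fermat.Agent.Ribet

open Polynomial

section Seq

/-- `sq a t = (c^a - c^{-a}) / (c - c^{-1})` for `t = c + c^{-1}`. -/
def sq {T : Type*} [Ring T] (t : T) : ℕ → T
  | 0 => 0
  | 1 => 1
  | (a + 2) => t * sq t (a + 1) - sq t a

section Ring
variable {T : Type*} [Ring T]

@[simp] theorem sq_zero (t : T) : sq t 0 = 0 := rfl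
@[simp] theorem sq_one (t : T) : sq t 1 = 1 := rfl
theorem sq_add_two (t : T) (a : ℕ) : sq t (a + 2) = t * sq t (a + 1) - sq t a := rfl

theorem map_sq {T' : Type*} [Ring T'] (f : T →+* T') (t : T) (a : ℕ) :
    f (sq t a) = sq (f t) a := by
  induction a using Nat.twoStepInduction with
  | zero => simp
  | one => simp
  | more a h1 h2 => rw [sq_add_two, sq_add_two, map_sub, map_mul, h1, h2]

/-- action of `sq A` on an eigenvector. -/
theorem sq_apply {L V : Type*} [CommRing L] [AddCommGroup V] [Module L V] (A : Module.End L V)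
    (l : L) (v : V) (h : A v = l • v) (a : ℕ) : sq A a v = sq l a • v := by
  induction a using Nat.twoStepInduction with
  | zero => simp
  | one => simp
  | more a h1 h2 =>
    rw [sq_add_two, sq_add_two, LinearMap.sub_apply, Module.End.mul_apply, h1, h2, map_smul, h,
      sub_smul, smul_smul, mul_comm l]

end Ring

variable {T : Type*} [CommRing T]

theorem sq_sq (t : T) (a : ℕ) :
    sq t (a + 1) ^ 2 - t * sq t (a + 1) * sq t a + sq t a ^ 2 = 1 := by
  induction a with
  | zero => simp
  | succ a ih =>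
    rw [sq_add_two]
    linear_combination ih

theorem sq_two (a : ℕ) : sq (2 : T) a = a := by
  induction a using Nat.twoStepInduction with
  | zero => simp
  | one => simp
  | more a h1 h2 => rw [sq_add_two, h1, h2]; push_cast; ring

/-- `sq t a ≡ a` modulo `t - 2`. -/
theorem exists_sq_eq (t : T) (a : ℕ) : ∃ c : T, sq t a = a + (t - 2) * c := by
  induction a using Nat.twoStepInduction with
  | zero => exact ⟨0, by simp⟩
  | one => exact ⟨0, by simp⟩
  | more a h1 h2 =>
    obtain ⟨c1, h1⟩ := h1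
    obtain ⟨c2, h2⟩ := h2
    refine ⟨(a + 1 : ℕ) + t * c2 - c1, ?_⟩
    rw [sq_add_two, h1, h2]
    push_cast
    ring

theorem sq_mul_sub {K : Type*} [Field K] (c : K) (hc : c ≠ 0) (a : ℕ) :
    sq (c + c⁻¹) a * (c - c⁻¹) = c ^ a - (c⁻¹) ^ a := by
  induction a using Nat.twoStepInduction with
  | zero => simp
  | one => simp
  | more a h1 h2 =>
    rw [sq_add_two, sub_mul, mul_assoc, h1, h2]
    have : c * c⁻¹ = 1 := mul_inv_cancel₀ hc
    linear_combination (c ^ a - c⁻¹ ^ a) * this

end Seq

section Root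

variable {O : Type*} [CommRing O] {L : Type*} [Field L] [Algebra O L]

theorem isIntegral_of_pow_eq_one {c : L} {m : ℕ} (hm : 0 < m) (hc : c ^ m = 1) :
    IsIntegral O c :=
  ⟨X ^ m - 1, monic_X_pow_sub_C 1 hm.ne', by simp [hc]⟩

theorem isIntegral_geom {c : L} (hc : IsIntegral O c) (hc1 : c ≠ 1) (m : ℕ) :
    IsIntegral O ((c ^ m - 1) / (c - 1)) := by
  have : (c ^ m - 1) / (c - 1) = ∑ i ∈ Finset.range m, c ^ i := by
    rw [div_eq_iff (sub_ne_zero.mpr hc1), geom_sum_mul]
  rw [this]
  exact IsIntegral.sum _ fun i _ => hc.pow i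

/-- The key integrality statement. -/
theorem isIntegral_div {p : ℕ} [Fact p.Prime] {ζ c : L} (hζ : IsPrimitiveRoot ζ p) {k r : ℕ}
    (hr : IsUnit (r : O)) (hc : c ^ (p ^ k * r) = 1) (hc1 : c ≠ 1) (hr0 : 0 < r) :
    IsIntegral O ((ζ - 1) / (c - 1)) := by
  have hp : p.Prime := Fact.out
  have hcint : IsIntegral O c := isIntegral_of_pow_eq_one
    (Nat.mul_pos (pow_pos hp.pos k) hr0) hc
  by_cases hcn : c ^ p ^ k = 1
  · -- `c` is of `p`-power order
    have hfin : orderOf c ∣ p ^ k := orderOf_dvd_of_pow_eq_one hcn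
    obtain ⟨j, hj, hord⟩ := (Nat.dvd_prime_pow hp).1 hfin
    have hj0 : j ≠ 0 := by
      rintro rfl
      rw [pow_zero, orderOf_eq_one_iff] at hord
      exact hc1 hord
    obtain ⟨j', rfl⟩ := Nat.exists_eq_succ_of_ne_zero hj0
    have hprim : IsPrimitiveRoot c (p ^ (j' + 1)) := hord ▸ IsPrimitiveRoot.orderOf c
    have hprim' : IsPrimitiveRoot (c ^ p ^ j') p := by
      refine hprim.pow (pow_pos hp.pos _) ?_
      rw [pow_succ]
    obtain ⟨i, -, hi⟩ := hprim'.eq_pow_of_pow_eq_one hζ.pow_eq_one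
    rw [← hi, ← pow_mul]
    exact isIntegral_geom hcint hc1 _
  · -- `1 - c` is a unit
    have hsum : ∑ i ∈ Finset.range r, (c ^ p ^ k) ^ i = 0 := by
      have h1 : (∑ i ∈ Finset.range r, (c ^ p ^ k) ^ i) * (c ^ p ^ k - 1) = 0 := by
        rw [geom_sum_mul, ← pow_mul, hc, sub_self]
      rcases mul_eq_zero.mp h1 with h | h
      · exact h
      · exact absurd (sub_eq_zero.mp h) hcn
    have hcn' : IsIntegral O (c ^ p ^ k) := hcint.pow _
    have hr1 : (r : L) = -∑ i ∈ Finset.range r, ((c ^ p ^ k) ^ i - 1) := by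
      rw [Finset.sum_sub_distrib, hsum]
      simp
    obtain ⟨u, hu⟩ := hr
    have hrL : (r : L) * algebraMap O L (↑(u⁻¹) : O) = 1 := by
      have : algebraMap O L (r : O) = (r : L) := by simp
      rw [← this, ← hu, ← map_mul, Units.mul_inv, map_one]
    have hinv : IsIntegral O (1 / (c ^ p ^ k - 1)) := by
      have h2 : 1 / (c ^ p ^ k - 1) =
          -(algebraMap O L (↑(u⁻¹) : O) *
            ∑ i ∈ Finset.range r, ((c ^ p ^ k) ^ i - 1) / (c ^ p ^ k - 1)) := by
        rw [← Finset.sum_div, eq_comm, div_eq_mul_one_div, ← mul_assoc, ← neg_mul]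
        have h3 : -(algebraMap O L (↑(u⁻¹) : O) *
            ∑ i ∈ Finset.range r, ((c ^ p ^ k) ^ i - 1)) = 1 := by
          have h5 : (∑ i ∈ Finset.range r, ((c ^ p ^ k) ^ i - 1)) = -(r : L) := by
            rw [hr1]; ring
          rw [h5]
          linear_combination hrL
        rw [h3, one_mul]
      rw [h2]
      refine IsIntegral.neg (IsIntegral.mul isIntegral_algebraMap ?_)
      exact IsIntegral.sum _ fun i _ => isIntegral_geom hcn' hcn i
    have hinv2 : IsIntegral O (1 / (c - 1)) := by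
      have h4 : 1 / (c - 1) = (1 / (c ^ p ^ k - 1)) * ((c ^ p ^ k - 1) / (c - 1)) := by
        have h5 : c ^ p ^ k - 1 ≠ 0 := sub_ne_zero.mpr hcn
        field_simp
      rw [h4]
      exact hinv.mul (isIntegral_geom hcint hc1 _)
    have hζint : IsIntegral O ζ := isIntegral_of_pow_eq_one hp.pos hζ.pow_eq_one
    have : (ζ - 1) / (c - 1) = (ζ - 1) * (1 / (c - 1)) := by rw [mul_one_div]
    rw [this]
    exact (hζint.sub isIntegral_one).mul hinv2

/-- The inverse of a root `θ` of `sq (2 + (ζ-1)² θ) a = 0` is integral. -/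
theorem isIntegral_inv_of_sq_eq_zero [IsAlgClosed L] [CharZero L] {p : ℕ} [Fact p.Prime] {ζ : L}
    (hζ : IsPrimitiveRoot ζ p) {k r a : ℕ} (ha : 2 * a = p ^ k * r) (ha0 : 0 < a)
    (hr : IsUnit (r : O)) {θ : L} (hθ : sq (2 + (ζ - 1) ^ 2 * θ) a = 0) :
    θ ≠ 0 ∧ IsIntegral O θ⁻¹ := by
  have hp : p.Prime := Fact.out
  have hr0 : 0 < r := by
    rcases Nat.eq_zero_or_pos r with h | h
    · subst h; simp at ha; omega
    · exact h
  have hζ1 : ζ - 1 ≠ 0 := sub_ne_zero.mpr (hζ.ne_one hp.one_lt)
  obtain ⟨c, hc⟩ : ∃ c : L, c ^ 2 - (2 + (ζ - 1) ^ 2 * θ) * c + 1 = 0 := by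
    obtain ⟨c, hc⟩ := IsAlgClosed.exists_root
      (X ^ 2 - C (2 + (ζ - 1) ^ 2 * θ) * X + 1 : L[X]) (by
        have : (X ^ 2 - C (2 + (ζ - 1) ^ 2 * θ) * X + 1 : L[X]).natDegree = 2 := by
          compute_degree!
        intro h
        have h' := natDegree_eq_of_degree_eq_some (n := 0) (by rw [h]; rfl)
        rw [this] at h'
        exact absurd h' (by norm_num))
    refine ⟨c, ?_⟩
    simpa [IsRoot] using hc
  have hc0 : c ≠ 0 := by rintro rfl; simp at hc
  have ht : 2 + (ζ - 1) ^ 2 * θ = c + c⁻¹ := by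
    field_simp
    linear_combination -hc
  have h1 := sq_mul_sub c hc0 a
  rw [← ht, hθ, zero_mul] at h1
  have h2 : c ^ (2 * a) = 1 := by
    have h3 : c ^ a = (c⁻¹) ^ a := (sub_eq_zero.mp h1.symm)
    rw [two_mul, pow_add]
    nth_rewrite 2 [h3]
    rw [← mul_pow, mul_inv_cancel₀ hc0, one_pow]
  have hc1 : c ≠ 1 := by
    rintro rfl
    rw [ht] at hθ
    have : (1 : L) + 1⁻¹ = 2 := by norm_num
    rw [this, sq_two] at hθ
    exact ha0.ne' (by exact_mod_cast hθ)
  have hθeq : θ = (c - 1) ^ 2 / (c * (ζ - 1) ^ 2) := by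
    field_simp
    linear_combination -hc
  have hcc : c - 1 ≠ 0 := sub_ne_zero.mpr hc1
  refine ⟨?_, ?_⟩
  · rw [hθeq]
    positivity
  · have h4 : θ⁻¹ = c * ((ζ - 1) / (c - 1)) ^ 2 := by
      rw [hθeq]
      field_simp
    rw [h4]
    have hcint : IsIntegral O c := isIntegral_of_pow_eq_one (by omega) h2
    exact hcint.mul ((isIntegral_div hζ hr (ha ▸ h2) hc1 hr0).pow 2)

end Root

section Det

open Module

variable {O : Type*} [CommRing O] [IsDomain O] [IsIntegrallyClosed O] [CharZero O]

/-- If `κ` is a square matrix over the integrally closed domain `O` with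
`sq (2 + (ζ-1)² κ) a = 0`, then `κ` is invertible. -/
theorem isUnit_det_of_sq_eq_zero {p : ℕ} [Fact p.Prime] {ζ : O}
    (hζ : IsPrimitiveRoot ζ p) {k r a : ℕ} (ha : 2 * a = p ^ k * r) (ha0 : 0 < a)
    (hr : IsUnit (r : O)) {ι : Type*} [Fintype ι] [DecidableEq ι] (κ : Matrix ι ι O)
    (hκ : sq (2 + (ζ - 1) ^ 2 • κ) a = 0) : IsUnit κ.det := by
  let K := FractionRing O
  let L := AlgebraicClosure K
  have : CharZero K := charZero_of_injective_algebraMap (IsFractionRing.injective O K)
  have : CharZero L := charZero_of_injective_algebraMap (algebraMap K L).injective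
  have hinj : Function.Injective (algebraMap O L) := by
    rw [IsScalarTower.algebraMap_eq O K L]
    exact (algebraMap K L).injective.comp (IsFractionRing.injective O K)
  have hζL : IsPrimitiveRoot (algebraMap O L ζ) p := hζ.map_of_injective hinj
  -- the roots of the characteristic polynomial
  have hroot : ∀ θ ∈ ((κ.charpoly).map (algebraMap O L)).roots, θ ≠ 0 ∧ IsIntegral O θ⁻¹ := by
    intro θ hθ
    refine isIntegral_inv_of_sq_eq_zero hζL ha ha0 hr ?_
    have h1 : (κ.map (algebraMap O L)).charpoly.IsRoot θ := by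
      rw [Matrix.charpoly_map]
      exact isRoot_of_mem_roots hθ
    set κL := κ.map (algebraMap O L) with hκL
    have h2 : Module.End.HasEigenvalue (Matrix.toLin' κL) θ := by
      rw [Module.End.hasEigenvalue_iff_isRoot_charpoly, Matrix.charpoly_toLin']
      exact h1
    obtain ⟨v, hv⟩ := h2.exists_hasEigenvector
    have h3 : sq (2 + (algebraMap O L ζ - 1) ^ 2 • κL) a = 0 := by
      have h4 := map_sq (algebraMap O L).mapMatrix (2 + (ζ - 1) ^ 2 • κ) a
      rw [hκ, map_zero] at h4
      have h7 : (algebraMap O L).mapMatrix (2 + (ζ - 1) ^ 2 • κ) =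
          2 + (algebraMap O L ζ - 1) ^ 2 • κL := by
        rw [map_add, map_ofNat]
        congr 1
        ext i j
        simp [hκL]
      rw [← h7, ← h4]
    have h4 : sq (2 + (algebraMap O L ζ - 1) ^ 2 • Matrix.toLin' κL : Module.End L (ι → L)) a
        = 0 := by
      have h5 := map_sq (Matrix.toLinAlgEquiv' (R := L) (n := ι) : Matrix ι ι L →+* Module.End L (ι → L))
        (2 + (algebraMap O L ζ - 1) ^ 2 • κL) a
      rw [h3, map_zero] at h5
      rw [h5]
      congr 1
      rw [map_add, map_ofNat]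
      congr 1
      exact (map_smul (Matrix.toLinAlgEquiv' (R := L) (n := ι)) _ _).symm
    have h8 : (2 + (algebraMap O L ζ - 1) ^ 2 • Matrix.toLin' κL : Module.End L (ι → L)) v =
        (2 + (algebraMap O L ζ - 1) ^ 2 * θ) • v := by
      have := Module.End.mem_eigenspace_iff.mp hv.1
      rw [LinearMap.add_apply, LinearMap.smul_apply, this]
      have h2 : (2 : Module.End L (ι → L)) v = (2 : L) • v := by
        have : (2 : Module.End L (ι → L)) = algebraMap L _ 2 := (map_ofNat _ 2).symm
        rw [this, Module.algebraMap_end_apply]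
      rw [h2, add_smul, mul_smul]
    have h9 := sq_apply _ _ v h8 a
    rw [h4, LinearMap.zero_apply] at h9
    rcases smul_eq_zero.mp h9.symm with h | h
    · exact h
    · exact absurd h hv.2
  have hsplit : ((κ.charpoly).map (algebraMap O L)).Splits := IsAlgClosed.splits _
  have hdet : algebraMap O L κ.det = ((κ.charpoly).map (algebraMap O L)).roots.prod := by
    have h1 : (κ.map (algebraMap O L)).det = (κ.map (algebraMap O L)).charpoly.roots.prod :=
      Matrix.det_eq_prod_roots_charpoly _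
    rw [Matrix.charpoly_map] at h1
    rw [← h1]
    exact (algebraMap O L).map_det κ
  have hne : algebraMap O L κ.det ≠ 0 := by
    rw [hdet]
    intro h
    rw [Multiset.prod_eq_zero_iff] at h
    exact (hroot 0 h).1 rfl
  have hms : ∀ m : Multiset L, (∀ θ ∈ m, θ ≠ 0 ∧ IsIntegral O θ⁻¹) → IsIntegral O (m.prod)⁻¹ := by
    intro m
    induction m using Multiset.induction with
    | empty => intro _; simpa using isIntegral_one
    | cons θ m ih =>
      intro h
      rw [Multiset.prod_cons, mul_inv]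
      exact (h θ (Multiset.mem_cons_self _ _)).2.mul
        (ih fun θ' h' => h θ' (Multiset.mem_cons_of_mem h'))
  have hint : IsIntegral O (algebraMap O L κ.det)⁻¹ := by
    rw [hdet]
    exact hms _ hroot
  have hint2 : IsIntegral O (algebraMap O K κ.det)⁻¹ := by
    rw [← isIntegral_algebraMap_iff (A := K) (B := L) (algebraMap K L).injective, map_inv₀,
      ← IsScalarTower.algebraMap_apply O K L]
    exact hint
  obtain ⟨y, hy⟩ := IsIntegrallyClosed.isIntegral_iff.mp hint2
  have hneK : algebraMap O K κ.det ≠ 0 := by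
    intro h
    apply hne
    rw [IsScalarTower.algebraMap_apply O K L, h, map_zero]
  refine IsUnit.of_mul_eq_one y ?_
  apply IsFractionRing.injective O K
  rw [map_mul, hy, map_one, mul_inv_cancel₀ hneK]

end Det

end Fermat.Agent.Ribet
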