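import Fermat.Agent.Ribet.Final
import Fermat.Agent.Ribet.Roots

/-!
# The tame family argument (cluster RIBET, road B)

`Λ = O[Δ]` with `Δ` cyclic of order `n`, `ϖ = δ - 1`, `ν` the norm element, `χ : Λ → O` a
character of order `p`, `M` a finite free `Λ`-module (the Hecke module of nebentypus in `Δ` at `q`),
`MN = M/ϖM` the Hecke module of trivial nebentypus, `T` the local Hecke algebra, `S = ρ(σ)`,
`F = ρ(φ)` two matrices over `T`, `w` the Atkin-Lehner operator at `q`.
-/

set_option autoImplicit false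

namespace Fermat.Agent.Ribet

open Matrix

section Mat

variable {T : Type*} [CommRing T]

/-- trace of a `2 × 2` matrix -/
def tr2 (A : Matrix (Fin 2) (Fin 2) T) : T := A 0 0 + A 1 1

/-- determinant of a `2 × 2` matrix -/
def dt2 (A : Matrix (Fin 2) (Fin 2) T) : T := A 0 0 * A 1 1 - A 0 1 * A 1 0

omit [CommRing T] in
theorem ext2 {A B : Matrix (Fin 2) (Fin 2) T} (h00 : A 0 0 = B 0 0) (h01 : A 0 1 = B 0 1)
    (h10 : A 1 0 = B 1 0) (h11 : A 1 1 = B 1 1) : A = B := by
  ext i j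
  fin_cases i <;> fin_cases j
  · exact h00
  · exact h01
  · exact h10
  · exact h11

theorem cayley (A : Matrix (Fin 2) (Fin 2) T) : A * A = tr2 A • A - dt2 A • 1 := by
  apply ext2 <;>
  simp [Matrix.mul_apply, Fin.sum_univ_two, tr2, dt2] <;> ring

theorem basic_identity_aux (x y z x' y' z' : T) :
    (4 * (x ^ 2 + y * z)) • !![x', y'; z', -x'] =
      (2 * (2 * x * x' + y * z' + z * y')) • !![x, y; z, -x] +
      (2 : T) • ((!![x', y'; z', -x'] * !![x, y; z, -x] -
        !![x, y; z, -x] * !![x', y'; z', -x']) * !![x, y; z, -x]) := by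
  apply ext2 <;>
  simp <;> ring

/-- The basic commutator identity. -/
theorem basic_identity (S F : Matrix (Fin 2) (Fin 2) T) (h : T) (h2 : 2 * h = 1)
    (hS : dt2 S = 1) :
    ((tr2 S - 2) * (tr2 S + 2)) • (F - (h * tr2 F) • (1 : Matrix (Fin 2) (Fin 2) T)) =
      (2 * (tr2 (F * S) - h * tr2 S * tr2 F)) • (S - (h * tr2 S) • (1 : Matrix (Fin 2) (Fin 2) T)) +
        (2 : T) • ((F * S - S * F) * (S - (h * tr2 S) • (1 : Matrix (Fin 2) (Fin 2) T))) := by
  have hS0 : S - (h * tr2 S) • (1 : Matrix (Fin 2) (Fin 2) T) =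
      !![S 0 0 - h * tr2 S, S 0 1; S 1 0, -(S 0 0 - h * tr2 S)] := by
    apply ext2
    · simp
    · simp
    · simp
    · simp [tr2]
      linear_combination (-(S 0 0 + S 1 1)) * h2
  have hF0 : F - (h * tr2 F) • (1 : Matrix (Fin 2) (Fin 2) T) =
      !![F 0 0 - h * tr2 F, F 0 1; F 1 0, -(F 0 0 - h * tr2 F)] := by
    apply ext2
    · simp
    · simp
    · simp
    · simp [tr2]
      linear_combination (-(F 0 0 + F 1 1)) * h2
  have hcomm : F * S - S * F = (F - (h * tr2 F) • (1 : Matrix (Fin 2) (Fin 2) T)) *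
      (S - (h * tr2 S) • (1 : Matrix (Fin 2) (Fin 2) T)) -
      (S - (h * tr2 S) • (1 : Matrix (Fin 2) (Fin 2) T)) *
        (F - (h * tr2 F) • (1 : Matrix (Fin 2) (Fin 2) T)) := by
    simp only [sub_mul, mul_sub, Matrix.smul_mul, Matrix.mul_smul, Matrix.one_mul, Matrix.mul_one]
    rw [smul_comm (h * tr2 F) (h * tr2 S)]
    abel
  rw [hcomm, hS0, hF0]
  have h1 := basic_identity_aux (S 0 0 - h * tr2 S) (S 0 1) (S 1 0) (F 0 0 - h * tr2 F) (F 0 1)
    (F 1 0)
  have h3 : (tr2 S - 2) * (tr2 S + 2) = 4 * ((S 0 0 - h * tr2 S) ^ 2 + S 0 1 * S 1 0) := by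
    have hS' : S 0 0 * S 1 1 - S 0 1 * S 1 0 = 1 := hS
    simp only [tr2]
    linear_combination (4 : T) * hS' + (-(2 * h + 1) * (S 0 0 + S 1 1) ^ 2 +
      4 * S 0 0 * (S 0 0 + S 1 1)) * h2
  have h4 : tr2 (F * S) - h * tr2 S * tr2 F = 2 * (S 0 0 - h * tr2 S) * (F 0 0 - h * tr2 F) +
      S 0 1 * F 1 0 + S 1 0 * F 0 1 := by
    simp only [tr2, Matrix.mul_apply, Fin.sum_univ_two]
    linear_combination (-(S 0 0 + S 1 1) * (F 0 0 + F 1 1) * h + S 0 0 * F 0 0 - S 1 1 * F 1 1) * h2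
  rw [h3, h4]
  exact h1

/-- polarised Cayley-Hamilton -/
theorem polar (A B : Matrix (Fin 2) (Fin 2) T) :
    A * B + B * A = tr2 A • B + tr2 B • A + (tr2 (B * A) - tr2 A * tr2 B) • 1 := by
  apply ext2 <;>
  simp [Matrix.mul_apply, Fin.sum_univ_two, tr2] <;> ring

/-- powers of a matrix of determinant one -/
theorem pow_eq_sq (S : Matrix (Fin 2) (Fin 2) T) (hS : dt2 S = 1) (a : ℕ) :
    S ^ (a + 1) = sq (tr2 S) (a + 1) • S - sq (tr2 S) a • 1 := by
  induction a with
  | zero => simp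
  | succ a ih =>
    rw [pow_succ, ih, sub_mul, Matrix.smul_mul, cayley, hS, sq_add_two, Matrix.smul_mul,
      Matrix.one_mul, one_smul, smul_sub, smul_smul, sub_smul, mul_comm (sq (tr2 S) (a + 1))]
    abel

theorem pow_eq_sq' (S : Matrix (Fin 2) (Fin 2) T) (hS : dt2 S = 1) (a : ℕ) :
    S ^ a = sq (tr2 S) a • S +
      (sq (tr2 S) (a + 1) - tr2 S * sq (tr2 S) a) • (1 : Matrix (Fin 2) (Fin 2) T) := by
  rcases a with _ | a
  · simp
  · rw [pow_eq_sq S hS a, sq_add_two, sub_eq_add_neg, ← neg_smul]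
    congr 2
    ring

/-- `S^(2a) - 1` is a multiple of `sq (tr S) a`. -/
theorem pow_two_mul_sub_one (S : Matrix (Fin 2) (Fin 2) T) (hS : dt2 S = 1) (a : ℕ) :
    S ^ (2 * a) - 1 = sq (tr2 S) a • ((2 * sq (tr2 S) (a + 1) - tr2 S * sq (tr2 S) a) • S +
      (tr2 S ^ 2 * sq (tr2 S) a - tr2 S * sq (tr2 S) (a + 1) - 2 * sq (tr2 S) a) •
        (1 : Matrix (Fin 2) (Fin 2) T)) := by
  have h1 := cayley S
  rw [hS, one_smul] at h1
  have h2 := sq_sq (tr2 S) a
  have h3 := pow_eq_sq' S hS a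
  set t := tr2 S
  set x := sq t a
  set y := sq t (a + 1)
  rw [two_mul, pow_add, h3]
  simp only [add_mul, mul_add, Matrix.smul_mul, Matrix.mul_smul, Matrix.one_mul, Matrix.mul_one,
    h1]
  match_scalars
  · ring
  · linear_combination h2

/-- The trace relation. -/
theorem tr2_pow_odd (S : Matrix (Fin 2) (Fin 2) T) (hS : dt2 S = 1) (a : ℕ) :
    tr2 (S ^ (2 * a + 1)) - tr2 S =
      (tr2 S - 2) * (tr2 S + 2) * (sq (tr2 S) (a + 1) * sq (tr2 S) a) := by
  have h1 := pow_two_mul_sub_one S hS a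
  have h2 : S ^ (2 * a + 1) = S + (S ^ (2 * a) - 1) * S := by
    rw [pow_succ, sub_mul, Matrix.one_mul]; abel
  have hSS : tr2 (S * S) = tr2 S ^ 2 - 2 := by
    rw [cayley, hS]
    simp only [tr2, Matrix.sub_apply, Matrix.smul_apply, smul_eq_mul, Matrix.one_apply_eq]
    ring
  have hadd : ∀ A B : Matrix (Fin 2) (Fin 2) T, tr2 (A + B) = tr2 A + tr2 B := by
    intro A B; simp only [tr2, Matrix.add_apply]; ring
  have hsmul : ∀ (r : T) (A : Matrix (Fin 2) (Fin 2) T), tr2 (r • A) = r * tr2 A := by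
    intro r A; simp only [tr2, Matrix.smul_apply, smul_eq_mul]; ring
  rw [h2, h1, hadd, Matrix.smul_mul, add_mul, Matrix.smul_mul, Matrix.smul_mul, Matrix.one_mul,
    hsmul, hadd, hsmul, hsmul, hSS]
  ring

end Mat

section Sym

variable {Λ T M MN : Type*} [CommRing Λ] [CommRing T] [AddCommGroup M] [Module Λ M] [Module T M]
  [SMulCommClass T Λ M] [AddCommGroup MN] [Module T MN]

/-- The symmetry argument: an element of `T` which kills `MN = M/ϖM` maps `M` into `ϖ²M`. -/
theorem sym (ϖ e : Λ) (π : M →+ MN) (hπT : ∀ (t : T) (x : M), π (t • x) = t • π x)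
    (hker : ∀ x, π x = 0 ↔ ∃ y, x = ϖ • y)
    (w : M →+ M) (hw : ∀ x, w (ϖ • x) = -((1 + ϖ * e) • ϖ • w x))
    (hwT : ∀ (t : T) (x : M), w (t • x) = t • w x) (c : T) (hc : IsUnit c)
    (h2 : IsUnit (2 : T)) (hwc : ∀ x, π (w x) = c • π x) (d : T) (hd : ∀ m : MN, d • m = 0)
    (x : M) : ∃ y, d • x = (ϖ * ϖ) • y := by
  have hdM : ∀ x : M, ∃ y, d • x = ϖ • y := by
    intro x
    rw [← hker, hπT, hd]
  obtain ⟨y, hy⟩ := hdM x
  have hwx : ∀ x, ∃ x1, w x = c • x + ϖ • x1 := by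
    intro x
    obtain ⟨x1, hx1⟩ := (hker (w x - c • x)).1 (by rw [map_sub, hwc, hπT, sub_self])
    exact ⟨x1, by rw [← hx1]; abel⟩
  obtain ⟨x1, hx1⟩ := hwx x
  obtain ⟨y2, hy2⟩ := hwx y
  obtain ⟨y1, hy1⟩ := hdM x1
  have h1 : d • w x = w (ϖ • y) := by rw [← hwT, hy]
  rw [hw, hx1, smul_add, smul_comm d ϖ x1, hy1, smul_comm d c x, hy, add_smul, one_smul,
    hy2] at h1
  -- `c • ϖ • y + ϖ • ϖ • y1 = -(ϖ • (c • y + ϖ • y2) + (ϖ * e) • ϖ • w y)`
  obtain ⟨u, hu⟩ := h2.mul hc
  have h3 : (2 * c) • (ϖ • y) = (ϖ * ϖ) • (-(y1 + y2 + e • (c • y + ϖ • y2))) := by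
    have h4 : (2 * c) • (ϖ • y) = c • ϖ • y + c • ϖ • y := by
      rw [mul_smul, two_smul]
    rw [h4]
    have h5 : c • ϖ • y = ϖ • c • y := smul_comm _ _ _
    have h6 : c • ϖ • y = -(ϖ • (c • y + ϖ • y2) + (ϖ * e) • ϖ • (c • y + ϖ • y2))
        - ϖ • ϖ • y1 := by
      rw [← h1]; abel
    rw [h5] at h6 ⊢
    nth_rewrite 2 [h6]
    generalize c • y = cy
    module
  refine ⟨(↑(u⁻¹) : T) • (-(y1 + y2 + e • (c • y + ϖ • y2))), ?_⟩
  rw [← smul_comm, ← h3, hy, smul_smul, ← hu, Units.inv_mul, one_smul]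

end Sym

section Kappa

open Module

variable {O Λ T M : Type*} [CommRing O] [CommRing Λ] [CommRing T] [AddCommGroup M] [Module Λ M]
  [Module T M] [SMulCommClass T Λ M]

/-- Dividing an operator. -/
theorem exists_lift [Module.Projective Λ M] (c : Λ) (d : T) (hd : ∀ x : M, ∃ y, d • x = c • y) :
    ∃ κ : M →ₗ[Λ] M, ∀ x : M, d • x = c • κ x := by
  let f : M →ₗ[Λ] M := c • LinearMap.id
  let g : M →ₗ[Λ] LinearMap.range f :=
    LinearMap.codRestrict _ (Module.toModuleEnd Λ (S := T) M d) (by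
      intro x
      obtain ⟨y, hy⟩ := hd x
      exact ⟨y, hy.symm⟩)
  obtain ⟨h, hh⟩ := Module.projective_lifting_property f.rangeRestrict g
    (LinearMap.surjective_rangeRestrict _)
  refine ⟨h, fun x => ?_⟩
  have := congrArg Subtype.val (LinearMap.congr_fun hh x)
  exact this.symm

theorem mem_smul_top_iff_repr {ι : Type*} [Fintype ι] (b : Basis ι Λ M) (I : Ideal Λ) (x : M) :
    x ∈ I • (⊤ : Submodule Λ M) ↔ ∀ i, b.repr x i ∈ I := by
  constructor
  · intro hx i
    refine Submodule.smul_induction_on hx ?_ ?_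
    · intro r hr n _
      rw [map_smul]
      exact I.mul_mem_right _ hr
    · intro x y hx hy
      rw [map_add]
      exact I.add_mem hx hy
  · intro h
    rw [← b.sum_repr x]
    exact Submodule.sum_mem _ fun i _ => Submodule.smul_mem_smul (h i) trivial

variable [IsDomain O] [IsIntegrallyClosed O] [CharZero O]

/-- `κ` is bijective. -/
theorem kappa_bijective [Module.Free Λ M] [Module.Finite Λ M] (χ : Λ →+* O) [IsLocalHom χ]
    (ϖ : Λ) {p : ℕ} [Fact p.Prime] {ζ : O} (hζ : IsPrimitiveRoot ζ p) (hχϖ : χ ϖ = ζ - 1)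
    {k r a : ℕ} (ha : 2 * a = p ^ k * r) (ha0 : 0 < a) (hr : IsUnit (r : O))
    (t : T) (κ : M →ₗ[Λ] M) (hκ : ∀ x : M, (t - 2) • x = (ϖ * ϖ) • κ x)
    (hrel : (t - 2) * sq t a = 0)
    (hRAM : ∀ x : M, (t - 2) • x ∈ RingHom.ker χ • (⊤ : Submodule Λ M) →
      x ∈ RingHom.ker χ • (⊤ : Submodule Λ M)) :
    Function.Bijective κ := by
  classical
  let b := Module.Free.chooseBasis Λ M
  let ι := Module.Free.ChooseBasisIndex Λ M
  let Ψ : Module.End Λ M →+* Matrix ι ι O :=
    (χ.mapMatrix : Matrix ι ι Λ →+* Matrix ι ι O).comp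
      ((LinearMap.toMatrixAlgEquiv b : Module.End Λ M ≃ₐ[Λ] Matrix ι ι Λ) :
        Module.End Λ M →+* Matrix ι ι Λ)
  have hΨ : ∀ (A : Module.End Λ M) i j, Ψ A i j = χ (b.repr (A (b j)) i) := by
    intro A i j
    show χ (LinearMap.toMatrixAlgEquiv b A i j) = _
    rw [LinearMap.toMatrixAlgEquiv_apply]
  let τ : T →+* Module.End Λ M := Module.toModuleEnd Λ (S := T) M
  have hτ : ∀ (c : T) (x : M), τ c x = c • x := fun c x => rfl
  have hτκ : τ (t - 2) = (ϖ * ϖ) • (κ : Module.End Λ M) := by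
    ext x
    exact hκ x
  have h1 : Ψ (τ (t - 2)) = (ζ - 1) ^ 2 • Ψ κ := by
    ext i j
    rw [hτκ, hΨ, Matrix.smul_apply, hΨ]
    simp [hχϖ, pow_two]
  -- the determinant of `Ψ (τ (t-2))` is nonzero
  have hdet : (Ψ (τ (t - 2))).det ≠ 0 := by
    intro h0
    obtain ⟨v, hv0, hv⟩ : ∃ v : ι → O, v ≠ 0 ∧ (∀ j, ∃ c, χ c = v j) ∧
        Matrix.mulVec (Ψ (τ (t - 2))) v = 0 := by
      let P : Matrix ι ι χ.range := fun i j => ⟨Ψ (τ (t - 2)) i j, by rw [hΨ]; exact ⟨_, rfl⟩⟩
      have hP : χ.range.subtype.mapMatrix P = Ψ (τ (t - 2)) := by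
        ext i j; rfl
      have hP0 : P.det = 0 := by
        apply Subtype.val_injective
        show χ.range.subtype P.det = _
        rw [RingHom.map_det, hP, h0]; rfl
      obtain ⟨v, hv0, hv⟩ := Matrix.exists_mulVec_eq_zero_iff.mpr hP0
      refine ⟨fun j => (v j : O), fun h => hv0 (funext fun j => Subtype.ext (congrFun h j)),
        fun j => (v j).2, ?_⟩
      funext i
      have h1 := congrArg (fun c : χ.range => (c : O)) (congrFun hv i)
      simp only [Matrix.mulVec, dotProduct] at h1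
      rw [AddSubmonoidClass.coe_finsetSum] at h1
      exact h1
    obtain ⟨hu', hv⟩ := hv
    choose u hu using hu'
    let x : M := ∑ j, u j • b j
    have hx : ∀ j, b.repr x j = u j := by
      intro j
      exact congrFun (b.repr_sum_self (fun j => u j)) j
    have h2 : (t - 2) • x ∈ RingHom.ker χ • (⊤ : Submodule Λ M) := by
      rw [mem_smul_top_iff_repr b]
      intro i
      rw [RingHom.mem_ker]
      have h3 := congrFun hv i
      rw [Matrix.mulVec, dotProduct] at h3
      rw [Pi.zero_apply] at h3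
      rw [← h3]
      have h4 : (t - 2) • x = ∑ j, u j • (τ (t - 2)) (b j) := by
        rw [← hτ]
        simp only [x, map_sum, map_smul]
      rw [h4, map_sum, Finsupp.finsetSum_apply, map_sum]
      refine Finset.sum_congr rfl fun j _ => ?_
      rw [map_smul, Finsupp.smul_apply, smul_eq_mul, map_mul, hu, hΨ, mul_comm]
    have h5 := hRAM x h2
    rw [mem_smul_top_iff_repr b] at h5
    apply hv0
    funext j
    have := h5 j
    rw [hx, RingHom.mem_ker, hu] at this
    exact this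
  have h6 : Ψ (τ (sq t a)) = 0 := by
    have h7 : Ψ (τ (t - 2)) * Ψ (τ (sq t a)) = 0 := by
      rw [← map_mul, ← map_mul, hrel, map_zero, map_zero]
    have h8 : (Ψ (τ (t - 2))).det • Ψ (τ (sq t a)) = 0 := by
      calc (Ψ (τ (t - 2))).det • Ψ (τ (sq t a))
          = (Ψ (τ (t - 2))).adjugate * (Ψ (τ (t - 2))) * Ψ (τ (sq t a)) := by
            rw [Matrix.adjugate_mul, Matrix.smul_mul, Matrix.one_mul]
        _ = 0 := by rw [Matrix.mul_assoc, h7, Matrix.mul_zero]
    ext i j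
    have h9 := congrFun (congrFun h8 i) j
    rw [Matrix.smul_apply, Matrix.zero_apply, smul_eq_mul] at h9
    exact (mul_eq_zero.mp h9).resolve_left hdet
  have h10 : sq (2 + (ζ - 1) ^ 2 • Ψ κ) a = 0 := by
    rw [← h6, ← h1, map_sq, map_sq]
    congr 1
    have : t = 2 + (t - 2) := by ring
    rw [this, map_add, map_add, map_ofNat, map_ofNat]
    congr 2
    ring_nf
  have h11 := isUnit_det_of_sq_eq_zero hζ ha ha0 hr (Ψ κ) h10
  have h12 : (Ψ κ).det = χ (LinearMap.det κ) := by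
    rw [← LinearMap.det_toMatrix b]
    show ((χ.mapMatrix) _).det = _
    rw [← RingHom.map_det]
    rfl
  rw [h12] at h11
  have h13 : IsUnit (LinearMap.det κ) := isUnit_of_map_unit χ _ h11
  have h14 := LinearMap.isUnit_iff_isUnit_det κ
  have h15 : IsUnit κ := h14.mpr h13
  exact (Module.End.isUnit_iff κ).1 h15

end Kappa

section Main

open Module

variable {R O Λ T M MN : Type*} [CommRing R] [CommRing O] [IsDomain O] [IsIntegrallyClosed O]
  [CharZero O] [CommRing Λ] [Algebra R Λ] [CommRing T] [IsLocalRing T]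
  [AddCommGroup M] [Module Λ M] [Module T M] [SMulCommClass T Λ M]
  [AddCommGroup MN] [Module R MN] [Module T MN] [SMulCommClass T R MN]

/-- **Road B: the key relation and the contradiction.** -/
theorem family_contradiction [Module.Free Λ M] [Module.Finite Λ M] [Module.Projective R MN]
    [Module.Finite T MN] [Nontrivial MN]
    -- arithmetic
    {p : ℕ} [Fact p.Prime] {k r q a : ℕ} (hq : q = 1 + p ^ k * r) (ha : 2 * a = p ^ k * r)
    (ha0 : 0 < a) (hrO : IsUnit (r : O)) (hrT : IsUnit (r : T)) (h2 : IsUnit (2 : T))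
    (hpT : ((p ^ k : ℕ) : T) ∈ IsLocalRing.maximalIdeal T)
    {ζ : O} (hζ : IsPrimitiveRoot ζ p)
    -- the ring `Λ`
    (ϖ ν e c₀ : Λ) (hν : ν = (p ^ k : ℕ) + ϖ * c₀)
    (hann : ∀ x : M, (∃ y, ϖ • x = ν • y) → ∃ y, x = ν • y)
    (χ : Λ →+* O) [IsLocalHom χ] (hχϖ : χ ϖ = ζ - 1)
    -- the specialisation
    (π : M →+ MN) (hπs : Function.Surjective π) (hπT : ∀ (t : T) (x : M), π (t • x) = t • π x)
    (hπO : ∀ (o : R) (x : M), π (algebraMap R Λ o • x) = o • π x)
    (hker : ∀ x, π x = 0 ↔ ∃ y, x = ϖ • y)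
    (htf : ∀ (j : ℕ) (x : MN), 0 < j → j • x = 0 → x = 0)
    -- the Atkin-Lehner operator
    (w : M →+ M) (hw : ∀ x, w (ϖ • x) = -((1 + ϖ * e) • ϖ • w x))
    (hwT : ∀ (t : T) (x : M), w (t • x) = t • w x) (c : T) (hc : IsUnit c)
    (hwc : ∀ x, π (w x) = c • π x)
    -- the matrices
    (S F : Matrix (Fin 2) (Fin 2) T) (hS : dt2 S = 1) (hF : IsUnit (dt2 F))
    (hFS : F * S = S ^ q * F) (hS1 : ∀ i j, (S - 1) i j ∈ IsLocalRing.maximalIdeal T)
    (ε : T) (hε : ε * ε = 1)
    -- level `N`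
    (hN1 : ∀ m : MN, tr2 S • m = (2 : T) • m) (hN2 : ∀ m : MN, tr2 (F * S) • m = tr2 F • m)
    (hN3 : ∀ m : MN, tr2 F • m = (ε * (q + 1)) • m)
    -- ramification of the nebentypus forms
    (hRAM : ∀ x : M, (tr2 S - 2) • x ∈ RingHom.ker χ • (⊤ : Submodule Λ M) →
      x ∈ RingHom.ker χ • (⊤ : Submodule Λ M))
    -- exactness at level `N`
    (hE : ∀ x : Fin 2 → MN, act (S - 1) x = 0 → ∃ x', act (S - 1) x' = x) :
    False := by
  have hp : p.Prime := Fact.out
  obtain ⟨h, hh⟩ := h2.exists_left_inv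
  have h2h : 2 * h = 1 := by rw [mul_comm]; exact hh
  set t : T := tr2 S with ht
  -- `t - 2` and `a`
  have ht2 : t - 2 ∈ IsLocalRing.maximalIdeal T := by
    have h1 := hS1 0 0
    have h2 := hS1 1 1
    have : t - 2 = (S - 1) 0 0 + (S - 1) 1 1 := by
      simp only [ht, tr2, Matrix.sub_apply, Matrix.one_apply_eq]; ring
    rw [this]
    exact Ideal.add_mem _ h1 h2
  have hu1 : IsUnit (t + 2) := by
    have : t + 2 = 2 * 2 + (t - 2) := by ring
    rw [this]
    by_contra hcon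
    have h3 := (IsLocalRing.mem_maximalIdeal _).mpr hcon
    have h4 : (2 : T) * 2 ∈ IsLocalRing.maximalIdeal T := by
      have := Ideal.sub_mem _ h3 ht2
      simpa using this
    exact (IsLocalRing.mem_maximalIdeal _).mp h4 (h2.mul h2)
  have haT : (2 : T) * a = (p ^ k : ℕ) * r := by exact_mod_cast congrArg (Nat.cast (R := T)) ha
  have hu2 : IsUnit (sq t (a + 1)) := by
    obtain ⟨c1, hc1⟩ := exists_sq_eq t (a + 1)
    have h5 : 2 * sq t (a + 1) = 2 + ((p ^ k : ℕ) * r + 2 * ((t - 2) * c1)) := by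
      rw [hc1]
      push_cast at haT ⊢
      linear_combination haT
    have h6 : IsUnit (2 * sq t (a + 1)) := by
      rw [h5]
      by_contra hcon
      have h3 := (IsLocalRing.mem_maximalIdeal _).mpr hcon
      have h4 : ((p ^ k : ℕ) : T) * r + 2 * ((t - 2) * c1) ∈ IsLocalRing.maximalIdeal T :=
        Ideal.add_mem _ (Ideal.mul_mem_right _ _ hpT)
          (Ideal.mul_mem_left _ _ (Ideal.mul_mem_right _ _ ht2))
      have h7 : (2 : T) ∈ IsLocalRing.maximalIdeal T := by
        have := Ideal.sub_mem _ h3 h4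
        simpa using this
      exact (IsLocalRing.mem_maximalIdeal _).mp h7 h2
    exact isUnit_of_mul_isUnit_right h6
  have hq' : q = 2 * a + 1 := by omega
  -- the relation `(t - 2) * sq t a = 0`
  have hrel : (t - 2) * sq t a = 0 := by
    have h1 : tr2 (S ^ q) = tr2 S := by
      -- conjugation by `F`
      have hadj : F.adjugate * F = dt2 F • 1 := by
        rw [Matrix.adjugate_mul, Matrix.det_fin_two]; rfl
      have h3 : dt2 F * tr2 (S ^ q) = dt2 F * tr2 S := by
        have h4 : tr2 (F * S * F.adjugate) = dt2 F * tr2 S := by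
          have : tr2 (F * S * F.adjugate) = tr2 (F.adjugate * (F * S)) := by
            have := Matrix.trace_mul_comm (F * S) F.adjugate
            simpa [Matrix.trace_fin_two, tr2] using this
          rw [this, ← Matrix.mul_assoc, hadj, Matrix.smul_mul, Matrix.one_mul]
          simp [tr2]; ring
        have h5 : tr2 (S ^ q * F * F.adjugate) = dt2 F * tr2 (S ^ q) := by
          have : F * F.adjugate = dt2 F • 1 := by
            rw [Matrix.mul_adjugate, Matrix.det_fin_two]; rfl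
          rw [Matrix.mul_assoc, this, Matrix.mul_smul, Matrix.mul_one]
          simp [tr2]; ring
        rw [← h4, ← h5, hFS]
      exact hF.mul_left_cancel h3
    have h2' := tr2_pow_odd S hS a
    rw [← hq', h1, sub_self] at h2'
    have h3 : (t - 2) * sq t a * ((t + 2) * sq t (a + 1)) = 0 := by
      rw [ht]
      linear_combination -h2'
    exact (hu1.mul hu2).mul_left_injective (by simpa using h3)
  -- symmetric divisibility
  have hD0 : ∀ m : MN, (t - 2) • m = 0 := by
    intro m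
    rw [sub_smul, hN1, sub_self]
  have hD : ∀ x : M, ∃ y, (t - 2) • x = (ϖ * ϖ) • y :=
    sym ϖ e π hπT hker w hw hwT c hc h2 hwc (t - 2) hD0
  set E : T := tr2 (F * S) - h * t * tr2 F with hEdef
  have hE0 : ∀ m : MN, E • m = 0 := by
    intro m
    have : E = (tr2 (F * S) - tr2 F) - (h * tr2 F) * (t - 2) := by
      rw [hEdef]
      linear_combination (-tr2 F) * h2h
    rw [this, sub_smul, sub_smul, hN2, sub_self, mul_smul, hD0, smul_zero, sub_self]
  have hEE : ∀ x : M, ∃ y, E • x = (ϖ * ϖ) • y :=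
    sym ϖ e π hπT hker w hw hwT c hc h2 hwc E hE0
  obtain ⟨κ, hκ⟩ := exists_lift (ϖ * ϖ) (t - 2) hD
  obtain ⟨ξ, hξ⟩ := exists_lift (ϖ * ϖ) E hEE
  have hκbij : Function.Bijective κ :=
    kappa_bijective χ ϖ hζ hχϖ ha ha0 hrO t κ hκ hrel hRAM
  -- annihilators
  have hann2 : ∀ x : M, (∃ y, (ϖ * ϖ) • x = ν • y) → ∃ y, x = ν • y := by
    rintro x ⟨y, hy⟩
    rw [mul_smul] at hy
    obtain ⟨z, hz⟩ := hann (ϖ • x) ⟨y, hy⟩
    exact hann x ⟨z, hz⟩
  have hκν : ∀ x : M, (∃ y, κ x = ν • y) → ∃ y, x = ν • y := by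
    rintro x ⟨y, hy⟩
    obtain ⟨z, rfl⟩ := hκbij.2 y
    refine ⟨z, hκbij.1 ?_⟩
    rw [hy, map_smul]
  -- `sq t a` maps `M` to `ν M`
  have hsa : ∀ x : M, ∃ y, sq t a • x = ν • y := by
    intro x
    apply hκν
    apply hann2
    refine ⟨0, ?_⟩
    rw [smul_zero, ← hκ, smul_smul, hrel, zero_smul]
  -- the commutator
  have hcomm : F * S - S * F = sq t a • (S * ((2 * sq t (a + 1) - t * sq t a) • S +
      (t ^ 2 * sq t a - t * sq t (a + 1) - 2 * sq t a) •
        (1 : Matrix (Fin 2) (Fin 2) T)) * F) := by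
    have h1 := pow_two_mul_sub_one S hS a
    rw [← ht] at h1
    have h3 : F * S - S * F = S * (S ^ (2 * a) - 1) * F := by
      rw [hFS, hq', pow_succ', Matrix.mul_sub, Matrix.sub_mul, Matrix.mul_one]
    rw [h3, h1, Matrix.mul_smul, Matrix.smul_mul]
  -- `νM²`
  have hcommν : ∀ x : Fin 2 → M, ∃ y : Fin 2 → M, act (F * S - S * F) x = ν • y := by
    intro x
    rw [hcomm, smul_act]
    choose y hy using fun i => hsa (act (S * ((2 * sq t (a + 1) - t * sq t a) • S +
      (t ^ 2 * sq t a - t * sq t (a + 1) - 2 * sq t a) •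
        (1 : Matrix (Fin 2) (Fin 2) T)) * F) x i)
    exact ⟨y, funext hy⟩
  -- `κ`, `ξ` and the final operator
  obtain ⟨κi, hκi⟩ : ∃ κi : M →ₗ[Λ] M, ∀ x, κ (κi x) = x :=
    ⟨(LinearEquiv.ofBijective κ hκbij).symm, fun x =>
      (LinearEquiv.ofBijective κ hκbij).apply_symm_apply x⟩
  have hκT : ∀ (s : T) (x : M), ∃ y, κ (s • x) - s • κ x = ν • y := by
    intro s x
    apply hann2
    refine ⟨0, ?_⟩
    rw [smul_sub, ← hκ, ← smul_comm s (ϖ * ϖ) (κ x), ← hκ, smul_zero, smul_smul, smul_smul,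
      mul_comm, sub_self]
  have hξT : ∀ (s : T) (x : M), ∃ y, ξ (s • x) - s • ξ x = ν • y := by
    intro s x
    apply hann2
    refine ⟨0, ?_⟩
    rw [smul_sub, ← hξ, ← smul_comm s (ϖ * ϖ) (ξ x), ← hξ, smul_zero, smul_smul, smul_smul,
      mul_comm, sub_self]
  -- `y₀ = h • κ⁻¹ ξ`
  let Y : M →ₗ[Λ] M := (Module.toModuleEnd Λ (S := T) M h) ∘ₗ κi ∘ₗ ξ
  have hY : ∀ x, Y x = h • κi (ξ x) := fun x => rfl
  have hκiT : ∀ (s : T) (x : M), ∃ y, κi (s • x) - s • κi x = ν • y := by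
    intro s x
    apply hκν
    obtain ⟨y, hy⟩ := hκT s (κi x)
    refine ⟨-y, ?_⟩
    rw [map_sub, hκi, smul_neg, ← hy, hκi]
    abel
  have hYT : ∀ (s : T) (x : M), ∃ y, Y (s • x) - s • Y x = ν • y := by
    intro s x
    obtain ⟨y1, hy1⟩ := hξT s x
    obtain ⟨y2, hy2⟩ := hκiT s (ξ x)
    refine ⟨h • (κi y1 + y2), ?_⟩
    have h1 : ξ (s • x) = s • ξ x + ν • y1 := by rw [← hy1]; abel
    have h3 : κi (s • ξ x) = s • κi (ξ x) + ν • y2 := by rw [← hy2]; abel
    rw [hY, hY, h1, map_add, h3, map_smul]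
    rw [smul_add, smul_add, smul_comm s h, smul_add, smul_add, ← smul_comm h ν, ← smul_comm h ν]
    abel
  -- the congruence on `M²`
  set S0 : Matrix (Fin 2) (Fin 2) T := S - (h * t) • (1 : Matrix (Fin 2) (Fin 2) T) with hS0
  set F0 : Matrix (Fin 2) (Fin 2) T := F - (h * tr2 F) • (1 : Matrix (Fin 2) (Fin 2) T) with hF0
  have hKL0 : ∀ (x : Fin 2 → M) (i : Fin 2), ∃ y z, act F0 x i - Y (act S0 x i) =
      ϖ • y + ν • z := by
    intro x i
    have h1 := basic_identity S F h h2h hS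
    rw [← ht, ← hS0, ← hF0] at h1
    have h3 := congrArg (fun A => act A x i) h1
    simp only [add_act, smul_act, Pi.add_apply, Pi.smul_apply] at h3
    obtain ⟨y, hy⟩ := hcommν (act S0 x)
    rw [act_act] at hy
    rw [hy, Pi.smul_apply] at h3
    rw [show tr2 (F * S) - h * t * tr2 F = E from rfl, mul_smul (t - 2) (t + 2),
      hκ, mul_smul (2 : T) E, hξ] at h3
    -- `ϖ² (κ ((t+2) v) - 2 ξ u) = ν ..`
    obtain ⟨z, hz⟩ := hann2 (κ ((t + 2) • act F0 x i) - (2 : T) • ξ (act S0 x i))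
      ⟨(2 : T) • y i, by
        rw [smul_sub, h3, ← smul_comm (2 : T) (ϖ * ϖ), ← smul_comm (2 : T) ν]; abel⟩
    obtain ⟨z1, hz1⟩ := hκT (2 : T) (κi (ξ (act S0 x i)))
    rw [hκi] at hz1
    obtain ⟨z2, hz2⟩ := hκν ((t + 2) • act F0 x i - (2 : T) • κi (ξ (act S0 x i)))
      ⟨z - z1, by
        rw [map_sub, smul_sub, ← hz, ← hz1]; abel⟩
    obtain ⟨y3, hy3⟩ := hD (act F0 x i)
    -- `4 v = 2 κ⁻¹ ξ u + ...`
    refine ⟨-((h * h) • ϖ • y3), (h * h) • z2, ?_⟩
    have h4 : act F0 x i = (h * h) • ((t + 2) • act F0 x i) - (h * h) • ((t - 2) • act F0 x i) := by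
      rw [← smul_sub, ← sub_smul, smul_smul]
      have : h * h * (t + 2 - (t - 2)) = 1 := by linear_combination (2 * h + 1) * h2h
      rw [this, one_smul]
    have h5 : (t + 2) • act F0 x i = (2 : T) • κi (ξ (act S0 x i)) + ν • z2 := by
      rw [← hz2]; abel
    rw [hY]
    nth_rewrite 1 [h4]
    rw [h5, hy3, smul_add, smul_smul]
    have h6 : h * h * 2 = h := by linear_combination h * h2h
    rw [h6, ← smul_comm (h * h) ν, smul_neg, mul_smul ϖ ϖ, ← smul_comm (h * h) ϖ]
    abel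
  have hcommY : ∀ (x : Fin 2 → M) (i : Fin 2), ∃ z, Y (act S0 x i) -
      act S0 (fun j => Y (x j)) i = ν • z := by
    intro x i
    obtain ⟨z0, hz0⟩ := hYT (S0 i 0) (x 0)
    obtain ⟨z1, hz1⟩ := hYT (S0 i 1) (x 1)
    refine ⟨z0 + z1, ?_⟩
    rw [smul_add, ← hz0, ← hz1]
    simp only [act, map_add]
    abel
  -- descend `Y`
  have hπν : ∀ z, π (ν • z) = (p ^ k) • π z := by
    intro z
    rw [hν, add_smul, map_add, Nat.cast_smul_eq_nsmul, map_nsmul]
    have : π ((ϖ * c₀) • z) = 0 := by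
      rw [hker]
      exact ⟨c₀ • z, by rw [mul_smul]⟩
    rw [this, add_zero]
  have hπϖ : ∀ z, π (ϖ • z) = 0 := fun z => (hker _).2 ⟨z, rfl⟩
  have hwd : ∀ x x' : M, π x = π x' → π (Y x) = π (Y x') := by
    intro x x' hxx
    obtain ⟨y, hy⟩ := (hker (x - x')).1 (by rw [map_sub, hxx, sub_self])
    have : Y x = Y x' + ϖ • Y y := by
      rw [← map_smul, ← hy, map_sub]; abel
    rw [this, map_add, hπϖ, add_zero]
  let yN : MN →ₗ[R] MN :=
    { toFun := fun m => π (Y (Function.surjInv hπs m))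
      map_add' := by
        intro m m'
        rw [← map_add, ← map_add]
        apply hwd
        rw [map_add, Function.surjInv_eq hπs, Function.surjInv_eq hπs, Function.surjInv_eq hπs]
      map_smul' := by
        intro o m
        rw [RingHom.id_apply, ← hπO, ← map_smul]
        apply hwd
        rw [hπO, Function.surjInv_eq hπs, Function.surjInv_eq hπs] }
  have hyN : ∀ x, yN (π x) = π (Y x) := by
    intro x
    apply hwd
    exact Function.surjInv_eq hπs _
  -- facts on `MN`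
  have hπact : ∀ (A : Matrix (Fin 2) (Fin 2) T) (x : Fin 2 → M) (i : Fin 2),
      act A (fun j => π (x j)) i = π (act A x i) := by
    intro A x i
    simp only [act, map_add, hπT]
  have hNNsq : ∀ x : Fin 2 → MN, act (S - 1) (act (S - 1) x) = 0 := by
    intro x
    have h1 : (S - 1) * (S - 1) = (t - 2) • S := by
      rw [Matrix.sub_mul, Matrix.mul_sub, Matrix.mul_one, Matrix.one_mul, cayley, hS, ← ht,
        one_smul, sub_smul, two_smul]
      abel
    rw [act_act, h1, smul_act]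
    funext i
    exact hD0 _
  have hpow : ∀ (j : ℕ) (x : Fin 2 → MN), act (S ^ j) x = x + j • act (S - 1) x := by
    intro j
    induction j with
    | zero => intro x; rw [pow_zero, one_act, zero_smul, add_zero]
    | succ j ih =>
      intro x
      rw [pow_succ, ← act_act, ih]
      have h1 : act S x = x + act (S - 1) x := by rw [sub_act, one_act]; abel
      rw [h1, act_add, hNNsq, add_zero, succ_nsmul]
      abel
  have hFNN : ∀ x : Fin 2 → MN, act F (act (S - 1) x) = q • act (S - 1) (act F x) := by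
    intro x
    have h1 : act (F * S) x = act (S ^ q * F) x := by rw [hFS]
    rw [← act_act, ← act_act, hpow] at h1
    rw [sub_act, one_act, act_sub, h1]
    abel
  have hNNF : ∀ x : Fin 2 → MN, act (S - 1) (act F x) = ε • act (S - 1) x := by
    intro x
    have h1 : (S - 1) * F + F * (S - 1) = tr2 (S - 1) • F + tr2 F • (S - 1) +
        (tr2 (F * (S - 1)) - tr2 (S - 1) * tr2 F) • (1 : Matrix (Fin 2) (Fin 2) T) :=
      polar (S - 1) F
    have h3 : tr2 (S - 1) = t - 2 := by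
      simp only [ht, tr2, Matrix.sub_apply, Matrix.one_apply_eq]; ring
    have h4 : tr2 (F * (S - 1)) = tr2 (F * S) - tr2 F := by
      rw [Matrix.mul_sub, Matrix.mul_one]
      simp only [tr2, Matrix.sub_apply]; ring
    have h5 := congrArg (fun A => act A x) h1
    simp only [add_act, smul_act, one_act] at h5
    rw [← act_act, ← act_act, hFNN, h3, h4] at h5
    have h6 : (t - 2) • act F x = 0 := by funext i; exact hD0 _
    have h7 : (tr2 (F * S) - tr2 F - (t - 2) * tr2 F) • x = 0 := by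
      funext i
      rw [Pi.smul_apply, sub_smul, sub_smul, hN2, sub_self, mul_comm, mul_smul, hD0, smul_zero,
        sub_self, Pi.zero_apply]
    have h8 : tr2 F • act (S - 1) x = (ε * (q + 1)) • act (S - 1) x := by
      funext i
      exact hN3 _
    rw [h6, h7, h8, zero_add, add_zero] at h5
    have h9 : (q + 1) • (act (S - 1) (act F x) - ε • act (S - 1) x) = 0 := by
      rw [smul_sub, add_nsmul, one_nsmul, add_comm (q • _), h5, mul_comm, mul_smul]
      have : ((q : T) + 1) • ε • act (S - 1) x = (q + 1) • ε • act (S - 1) x := by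
        rw [← Nat.cast_smul_eq_nsmul T]; push_cast; rfl
      rw [this, sub_self]
    have h10 : act (S - 1) (act F x) - ε • act (S - 1) x = 0 := by
      funext i
      exact htf (q + 1) _ (Nat.succ_pos _) (congrFun h9 i)
    exact sub_eq_zero.mp h10
  have hεu : IsUnit ε := IsUnit.of_mul_eq_one _ hε
  have hq1 : (q : T) = 1 + (p ^ k : ℕ) * r := by rw [hq]; push_cast; ring
  -- conclusion
  refine final_contradiction' (R := R) (M := MN) (p ^ k)
    (fun x hx => htf _ x (pow_pos hp.pos k) hx) (S - 1) (F - ε • 1) (ε * r) (hεu.mul hrT)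
    ?_ hNNsq ?_ ?_ hS1 hE yN ?_
  · intro m
    have : (S - 1) 0 0 + (S - 1) 1 1 = t - 2 := by
      simp only [ht, tr2, Matrix.sub_apply, Matrix.one_apply_eq]; ring
    rw [this, hD0]
  · intro x
    have h1 : act (F - ε • (1 : Matrix (Fin 2) (Fin 2) T)) x = act F x - ε • x := by
      rw [sub_act, smul_act, one_act]
    rw [h1, act_sub, act_smul, hNNF, sub_self]
  · intro m
    have h1 : (F - ε • (1 : Matrix (Fin 2) (Fin 2) T)) 0 0 +
        (F - ε • (1 : Matrix (Fin 2) (Fin 2) T)) 1 1 = tr2 F - 2 * ε := by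
      simp [tr2]; ring
    rw [h1, sub_smul, hN3, ← sub_smul, ← Nat.cast_smul_eq_nsmul T, smul_smul]
    congr 1
    rw [hq1]; ring
  · intro x
    obtain ⟨xt, hxt⟩ : ∃ xt : Fin 2 → M, ∀ i, π (xt i) = x i :=
      ⟨fun i => Function.surjInv hπs (x i), fun i => Function.surjInv_eq hπs _⟩
    have hx : x = fun j => π (xt j) := funext fun i => (hxt i).symm
    have hstep : ∀ i, ∃ z, act (F - ε • 1) x i - act (S - 1) (fun i => yN (x i)) i =
        (p ^ k) • z := by
      intro i
      obtain ⟨y, z, hyz⟩ := hKL0 xt i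
      obtain ⟨z', hz'⟩ := hcommY xt i
      have h1 : act F0 x i = π (act F0 xt i) := by rw [hx, hπact]
      have h3 : act S0 (fun i => yN (x i)) i = π (act S0 (fun j => Y (xt j)) i) := by
        rw [← hπact]
        congr 1
        funext j
        rw [← hxt, hyN]
      have h4 : act F0 x i - act S0 (fun i => yN (x i)) i = (p ^ k) • (π z + π z') := by
        rw [h1, h3, ← map_sub]
        have : act F0 xt i - act S0 (fun j => Y (xt j)) i = ϖ • y + ν • z + ν • z' := by
          rw [← hyz, ← hz']; abel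
        rw [this, map_add, map_add, hπϖ, hπν, hπν, zero_add, smul_add]
      have h5 : act F0 x i = act (F - ε • 1) x i - (p ^ k) • ((ε * h * r) • x i) := by
        rw [hF0, sub_act, sub_act, smul_act, smul_act, one_act]
        simp only [Pi.sub_apply, Pi.smul_apply]
        rw [mul_smul, hN3, ← Nat.cast_smul_eq_nsmul T, smul_smul, smul_smul, sub_sub, ← add_smul]
        congr 2
        rw [hq1]
        linear_combination ε * h2h
      have h6 : act S0 (fun i => yN (x i)) i = act (S - 1) (fun i => yN (x i)) i := by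
        rw [hS0, sub_act, sub_act, smul_act, one_act]
        simp only [Pi.sub_apply, Pi.smul_apply]
        rw [mul_smul, hN1, smul_smul, hh, one_smul]
      refine ⟨π z + π z' + (ε * h * r) • x i, ?_⟩
      rw [smul_add, ← h4, h5, h6]
      abel
    choose z hz using hstep
    exact ⟨z, funext hz⟩

end Main

end Fermat.Agent.Ribet
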