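import Mathlib

/-!
# The final contradiction (cluster RIBET, piece R0)

`T` is a local ring (the Hecke algebra), `M` a `T`-module, `M²` carries the action of
`2 × 2`-matrices over `T`.  `NN = ρ(σ) - 1`, `Z = ρ(φ) - ε`.
-/

set_option autoImplicit false

namespace Fermat.Agent.Ribet

section Act

variable {T : Type*} [CommRing T] {M : Type*} [AddCommGroup M] [Module T M]

/-- The action of `2 × 2`-matrices over `T` on `M²`. -/
def act (A : Matrix (Fin 2) (Fin 2) T) (x : Fin 2 → M) : Fin 2 → M :=
  fun i => A i 0 • x 0 + A i 1 • x 1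

theorem act_apply (A : Matrix (Fin 2) (Fin 2) T) (x : Fin 2 → M) (i : Fin 2) :
    act A x i = A i 0 • x 0 + A i 1 • x 1 := rfl

@[simp] theorem act_zero (A : Matrix (Fin 2) (Fin 2) T) : act A (0 : Fin 2 → M) = 0 := by
  funext i; simp [act]

@[simp] theorem zero_act (x : Fin 2 → M) : act (0 : Matrix (Fin 2) (Fin 2) T) x = 0 := by
  funext i; simp [act]

theorem act_add (A : Matrix (Fin 2) (Fin 2) T) (x y : Fin 2 → M) :
    act A (x + y) = act A x + act A y := by
  funext i; simp only [act, Pi.add_apply, smul_add]; abel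

theorem add_act (A B : Matrix (Fin 2) (Fin 2) T) (x : Fin 2 → M) :
    act (A + B) x = act A x + act B x := by
  funext i; simp only [act, Pi.add_apply, Matrix.add_apply, add_smul]; abel

theorem act_neg (A : Matrix (Fin 2) (Fin 2) T) (x : Fin 2 → M) : act A (-x) = -act A x := by
  funext i; simp only [act, Pi.neg_apply, smul_neg]; abel

theorem neg_act (A : Matrix (Fin 2) (Fin 2) T) (x : Fin 2 → M) : act (-A) x = -act A x := by
  funext i; simp only [act, Pi.neg_apply, Matrix.neg_apply, neg_smul]; abel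

theorem act_sub (A : Matrix (Fin 2) (Fin 2) T) (x y : Fin 2 → M) :
    act A (x - y) = act A x - act A y := by
  rw [sub_eq_add_neg, act_add, act_neg, ← sub_eq_add_neg]

theorem sub_act (A B : Matrix (Fin 2) (Fin 2) T) (x : Fin 2 → M) :
    act (A - B) x = act A x - act B x := by
  rw [sub_eq_add_neg, add_act, neg_act, ← sub_eq_add_neg]

theorem act_act (A B : Matrix (Fin 2) (Fin 2) T) (x : Fin 2 → M) :
    act A (act B x) = act (A * B) x := by
  funext i
  simp only [act, Matrix.mul_apply, Fin.sum_univ_two, smul_add, smul_smul, add_smul]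
  abel

theorem one_act (x : Fin 2 → M) : act (1 : Matrix (Fin 2) (Fin 2) T) x = x := by
  funext i
  fin_cases i
  · show (1 : Matrix (Fin 2) (Fin 2) T) 0 0 • x 0 + (1 : Matrix (Fin 2) (Fin 2) T) 0 1 • x 1 = x 0
    simp
  · show (1 : Matrix (Fin 2) (Fin 2) T) 1 0 • x 0 + (1 : Matrix (Fin 2) (Fin 2) T) 1 1 • x 1 = x 1
    simp

theorem act_nsmul (A : Matrix (Fin 2) (Fin 2) T) (n : ℕ) (x : Fin 2 → M) :
    act A (n • x) = n • act A x := by
  funext i; simp only [act, Pi.smul_apply, smul_add, smul_comm n]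

theorem act_smul (A : Matrix (Fin 2) (Fin 2) T) (t : T) (x : Fin 2 → M) :
    act A (t • x) = t • act A x := by
  funext i; simp only [act, Pi.smul_apply, smul_add, smul_smul, mul_comm]

theorem smul_act (A : Matrix (Fin 2) (Fin 2) T) (t : T) (x : Fin 2 → M) :
    act (t • A) x = t • act A x := by
  funext i; simp only [act, Pi.smul_apply, Matrix.smul_apply, smul_add, smul_smul, smul_eq_mul]

variable (R : Type*) [CommRing R] [Module R M] [SMulCommClass T R M]

/-- The action as a linear map over a base ring `R`. -/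
def actL (A : Matrix (Fin 2) (Fin 2) T) : (Fin 2 → M) →ₗ[R] (Fin 2 → M) where
  toFun := act A
  map_add' := act_add A
  map_smul' r x := by
    funext i
    simp only [act, Pi.smul_apply, RingHom.id_apply, smul_add]
    rw [smul_comm, smul_comm (A i 1)]

@[simp] theorem actL_apply (A : Matrix (Fin 2) (Fin 2) T) (x : Fin 2 → M) :
    actL R A x = act A x := rfl

end Act

section Final

variable {T : Type*} [CommRing T] [IsLocalRing T] {M : Type*} [AddCommGroup M] [Module T M]
variable {R : Type*} [CommRing R] [Module R M] [SMulCommClass T R M]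

/-- **The final contradiction.**  Let `M` be a finitely generated nonzero module over the local
ring `T`, projective over a base ring `R`, without `n`-torsion.  Let `NN, Z` be `2 × 2`-matrices
over `T` with (as operators on `M` resp. `M²`) `tr NN = 0`, `NN² = 0`, `NN Z = 0`, `tr Z = n u`
with `u` a unit, and all entries of `NN` in the maximal ideal.  Suppose `ker NN = im NN` on `M²`
and suppose that `Z ≡ NN y (mod n)` on `M²` for a scalar operator `y : M → M`.
This is absurd. -/
theorem final_contradiction' [Module.Finite T M] [Nontrivial M] [Module.Projective R M]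
    (n : ℕ) (hn : ∀ x : M, n • x = 0 → x = 0)
    (NN Z : Matrix (Fin 2) (Fin 2) T) (u : T) (hu : IsUnit u)
    (htr : ∀ m : M, (NN 0 0 + NN 1 1) • m = 0)
    (hNN : ∀ x : Fin 2 → M, act NN (act NN x) = 0)
    (hNZ : ∀ x : Fin 2 → M, act NN (act Z x) = 0)
    (hZ : ∀ m : M, (Z 0 0 + Z 1 1) • m = n • (u • m))
    (hmem : ∀ i j, NN i j ∈ IsLocalRing.maximalIdeal T)
    (hE : ∀ x : Fin 2 → M, act NN x = 0 → ∃ x', act NN x' = x)
    (y : M →ₗ[R] M)
    (hKL : ∀ x : Fin 2 → M, ∃ x', act Z x - act NN (fun i => y (x i)) = n • x') :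
    False := by
  classical
  have : Module.Projective R (Fin 2 → M) :=
    Module.Projective.of_equiv' (DFinsupp.linearEquivFunOnFintype (R := R) (ι := Fin 2)
      (M := fun _ => M))
  have hnP : ∀ x : Fin 2 → M, n • x = 0 → x = 0 := by
    intro x hx
    funext i
    exact hn _ (congrFun hx i)
  -- the first lift
  obtain ⟨Y0, hY0⟩ : ∃ Y0 : (Fin 2 → M) →ₗ[R] (Fin 2 → M), ∀ x, act NN (Y0 x) = act Z x := by
    let f : (Fin 2 → M) →ₗ[R] LinearMap.range (actL R (M := M) NN) :=
      (actL R (M := M) NN).rangeRestrict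
    let g : (Fin 2 → M) →ₗ[R] LinearMap.range (actL R (M := M) NN) :=
      LinearMap.codRestrict _ (actL R (M := M) Z) (by
        intro x
        obtain ⟨x', hx'⟩ := hE (act Z x) (hNZ x)
        exact ⟨x', hx'⟩)
    obtain ⟨h, hh⟩ := Module.projective_lifting_property f g
      (LinearMap.surjective_rangeRestrict _)
    refine ⟨h, fun x => ?_⟩
    have := congrArg Subtype.val (LinearMap.congr_fun hh x)
    exact this
  -- the scalar operator on `M²`
  let yy : (Fin 2 → M) →ₗ[R] (Fin 2 → M) := LinearMap.pi fun i => y ∘ₗ LinearMap.proj i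
  have hyy : ∀ x : Fin 2 → M, yy x = fun i => y (x i) := fun x => rfl
  -- the second lift
  let C : (Fin 2 → M) × (Fin 2 → M) →ₗ[R] (Fin 2 → M) :=
    LinearMap.coprod ((n : ℕ) • LinearMap.id) (actL R (M := M) NN)
  have hC : ∀ a b, C (a, b) = n • a + act NN b := by
    intro a b
    simp [C]
  have hrange : ∀ x, Y0 x - yy x ∈ LinearMap.range C := by
    intro x
    obtain ⟨x', hx'⟩ := hKL x
    have h1 : act NN (Y0 x - yy x) = n • x' := by
      rw [act_sub, hY0, hyy, hx']
    have h2 : act NN x' = 0 := by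
      apply hnP
      rw [← act_nsmul, ← h1, hNN]
    obtain ⟨x'', hx''⟩ := hE x' h2
    have h3 : act NN (Y0 x - yy x - n • x'') = 0 := by
      rw [act_sub, h1, act_nsmul, hx'', sub_self]
    obtain ⟨z, hz⟩ := hE _ h3
    refine ⟨(x'', z), ?_⟩
    rw [hC, hz]
    abel
  obtain ⟨Y12, hY12⟩ : ∃ Y : (Fin 2 → M) →ₗ[R] (Fin 2 → M) × (Fin 2 → M),
      ∀ x, C (Y x) = Y0 x - yy x := by
    let f := C.rangeRestrict
    let g : (Fin 2 → M) →ₗ[R] LinearMap.range C :=
      LinearMap.codRestrict _ (Y0 - yy) (by intro x; exact hrange x)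
    obtain ⟨h, hh⟩ := Module.projective_lifting_property f g
      (LinearMap.surjective_rangeRestrict _)
    refine ⟨h, fun x => ?_⟩
    have := congrArg Subtype.val (LinearMap.congr_fun hh x)
    exact this
  -- `Z = NN yy + n NN Y2`
  have hZeq : ∀ x, act Z x = act NN (yy x) + n • act NN (Y12 x).1 := by
    intro x
    have h1 : Y0 x = yy x + (n • (Y12 x).1 + act NN (Y12 x).2) := by
      rw [← hC, Prod.mk.eta, hY12]; abel
    rw [← hY0, h1, act_add, act_add, hNN, act_nsmul, add_zero]
  -- the partial trace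
  let e : Fin 2 → M → (Fin 2 → M) := fun i m => Pi.single i m
  have key : ∀ m : M, u • m ∈ (IsLocalRing.maximalIdeal T) • (⊤ : Submodule T M) := by
    intro m
    have ht : (Z 0 0 + Z 1 1) • m = act Z (e 0 m) 0 + act Z (e 1 m) 1 := by
      simp [act, e, add_smul]
    have hy0 : act NN (yy (e 0 m)) 0 + act NN (yy (e 1 m)) 1 = 0 := by
      have : act NN (yy (e 0 m)) 0 + act NN (yy (e 1 m)) 1 = (NN 0 0 + NN 1 1) • y m := by
        simp [act, hyy, e, add_smul]
      rw [this, htr]
    have h3 : n • (u • m) = n • (act NN (Y12 (e 0 m)).1 0 + act NN (Y12 (e 1 m)).1 1) := by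
      calc n • (u • m) = act Z (e 0 m) 0 + act Z (e 1 m) 1 := by rw [← hZ, ht]
        _ = (act NN (yy (e 0 m)) 0 + act NN (yy (e 1 m)) 1) +
              n • (act NN (Y12 (e 0 m)).1 0 + act NN (Y12 (e 1 m)).1 1) := by
            rw [hZeq, hZeq]
            simp only [Pi.add_apply, Pi.smul_apply, smul_add]
            abel
        _ = _ := by rw [hy0, zero_add]
    have h4 : u • m = act NN (Y12 (e 0 m)).1 0 + act NN (Y12 (e 1 m)).1 1 := by
      have := hn (u • m - (act NN (Y12 (e 0 m)).1 0 + act NN (Y12 (e 1 m)).1 1))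
        (by rw [smul_sub, h3, sub_self])
      exact sub_eq_zero.mp this
    rw [h4]
    simp only [act]
    refine Submodule.add_mem _ (Submodule.add_mem _ ?_ ?_) (Submodule.add_mem _ ?_ ?_) <;>
      exact Submodule.smul_mem_smul (hmem _ _) trivial
  have htop : (⊤ : Submodule T M) ≤ (IsLocalRing.maximalIdeal T) • (⊤ : Submodule T M) := by
    intro m _
    obtain ⟨v, hv⟩ := hu
    have := key ((↑(v⁻¹) : T) • m)
    rw [smul_smul, ← hv, Units.mul_inv, one_smul] at this
    exact this
  have hbot : (⊤ : Submodule T M) = ⊥ :=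
    Submodule.eq_bot_of_le_smul_of_le_jacobson_bot (IsLocalRing.maximalIdeal T) ⊤
      Module.Finite.fg_top htop (IsLocalRing.maximalIdeal_le_jacobson _)
  exact bot_ne_top hbot.symm

/-- The final contradiction, with identities of matrices over `T`. -/
theorem final_contradiction [Module.Finite T M] [Nontrivial M] [Module.Projective R M]
    (n : ℕ) (hn : ∀ x : M, n • x = 0 → x = 0)
    (NN Z : Matrix (Fin 2) (Fin 2) T) (u : T) (hu : IsUnit u)
    (htr : NN 0 0 + NN 1 1 = 0) (hNN : NN * NN = 0) (hNZ : NN * Z = 0)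
    (hZ : Z 0 0 + Z 1 1 = (n : T) * u)
    (hmem : ∀ i j, NN i j ∈ IsLocalRing.maximalIdeal T)
    (hE : ∀ x : Fin 2 → M, act NN x = 0 → ∃ x', act NN x' = x)
    (y : M →ₗ[R] M)
    (hKL : ∀ x : Fin 2 → M, ∃ x', act Z x - act NN (fun i => y (x i)) = n • x') :
    False :=
  final_contradiction' n hn NN Z u hu (fun m => by rw [htr, zero_smul])
    (fun x => by rw [act_act, hNN, zero_act]) (fun x => by rw [act_act, hNZ, zero_act])
    (fun m => by rw [hZ, mul_smul, Nat.cast_smul_eq_nsmul]) hmem hE y hKL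

end Final

end Fermat.Agent.Ribet
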