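import Fermat.Agent.S41.Lift

/-!
# From an integral eigenvector modulo `p` to a normalised eigenform
-/

set_option autoImplicit false

noncomputable section

open CongruenceSubgroup ModularCurve ModularCurve.Period
open scoped MatrixGroups

namespace Fermat.Agent.Ribet

open Fermat.Agent.HeckePar Fermat.Agent.S21per FermatAgent.HeckeEigen ModularFormClass
open Fermat.Agent.S41aux

variable {M : ℕ}

/-- **Lifting** (without conditions on `U_q`). -/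
theorem exists_form_of_vector [NeZero M] {p : ℕ} (hp : p.Prime)
    (𝔪 : Ideal (integralClosure ℤ ℂ)) (h𝔪 : 𝔪.IsMaximal)
    (hp𝔪 : (p : integralClosure ℤ ℂ) ∈ 𝔪) (S : ℕ → Prop) (hSM : ∀ ℓ, S ℓ → ¬ ℓ ∣ M) (a : ℕ → ℤ)
    (hne : ∀ M' : ℕ, 0 < M' → ∃ ℓ : ℕ, ℓ.Prime ∧ S ℓ ∧ (M' : ℤ) ∣ ℓ - 1 ∧
      ¬ (p : ℤ) ∣ a ℓ - (ℓ + 1))
    (y : Additive (Gamma0 M) →+ ℤ)
    (hy0 : ∃ g, ¬ (p : ℤ) ∣ y g)
    (hy : ∀ (ℓ : ℕ) [Fact ℓ.Prime], S ℓ → ∀ g,
        (p : ℤ) ∣ (heckeSys M ℓ).addTransfer y g - a ℓ * y g) :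
    ∃ g : CuspForm (Gamma0 M) 2, g.IsNormalizedEigenform ∧
      ∀ ℓ : ℕ, ℓ.Prime → S ℓ → ∃ b : integralClosure ℤ ℂ, (b : ℂ) = qCoeff g ℓ ∧
        b - ((a ℓ : ℤ) : integralClosure ℤ ℂ) ∈ 𝔪 := by
  classical
  haveI := finiteDimensional_hom M
  let V : Submodule ℂ (Additive (Gamma0 M) →+ ℂ) := ⊤
  have hVT : ∀ ℓ : Nat.Primes, S ℓ → ∀ φ ∈ V, heckeC M ℓ φ ∈ V := fun _ _ _ _ => trivial
  have hyV : (Int.castAddHom ℂ).comp y ∈ V := trivial
  -- the Hecke operators on `V`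
  let T : {ℓ : Nat.Primes // S ℓ} → Module.End ℂ V := fun ℓ =>
    (heckeC M ℓ.1).restrict (fun φ hφ => hVT ℓ.1 ℓ.2 φ hφ)
  have hT : ∀ ℓ (x : V), ((T ℓ x : V) : Additive (Gamma0 M) →+ ℂ) = heckeC M ℓ.1 x :=
    fun _ _ => rfl
  have hcomm : ∀ i j, Commute (T i) (T j) := by
    intro i j
    refine LinearMap.ext fun x => Subtype.ext ?_
    exact LinearMap.congr_fun (heckeC_commute i.1 j.1) (x : Additive (Gamma0 M) →+ ℂ)
  -- the lattice of homomorphisms with values in `𝔪`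
  let Λ : AddSubgroup V :=
    { carrier := {φ | ∀ g, ∃ c ∈ 𝔪, ((c : integralClosure ℤ ℂ) : ℂ) =
        (φ : Additive (Gamma0 M) →+ ℂ) g}
      zero_mem' := fun g => ⟨0, 𝔪.zero_mem, by simp⟩
      add_mem' := by
        intro φ ψ hφ hψ g
        obtain ⟨c, hc, hc'⟩ := hφ g
        obtain ⟨d, hd, hd'⟩ := hψ g
        refine ⟨c + d, 𝔪.add_mem hc hd, ?_⟩
        push_cast
        rw [hc', hd']; rfl
      neg_mem' := by
        intro φ hφ g
        obtain ⟨c, hc, hc'⟩ := hφ g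
        refine ⟨-c, 𝔪.neg_mem hc, ?_⟩
        push_cast
        rw [hc']; rfl }
  have hΛ : ∀ φ : V, φ ∈ Λ ↔ ∀ g, ∃ c ∈ 𝔪, ((c : integralClosure ℤ ℂ) : ℂ) =
        (φ : Additive (Gamma0 M) →+ ℂ) g := fun _ => Iff.rfl
  have hint𝔪 : ∀ z : ℤ, (p : ℤ) ∣ z → ((z : ℤ) : integralClosure ℤ ℂ) ∈ 𝔪 := by
    rintro z ⟨w, rfl⟩
    push_cast
    exact 𝔪.mul_mem_right _ hp𝔪
  let f : V := ⟨_, hyV⟩
  have hf : ∀ g, (f : Additive (Gamma0 M) →+ ℂ) g = ((y g : ℤ) : ℂ) := fun _ => rfl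
  obtain ⟨g₀, hg₀⟩ := hy0
  obtain ⟨χ, v, hv0, hv, hχ⟩ := exists_joint_eigenvector_congr (K := ℂ) (V := V) 𝔪 h𝔪.isPrime T
    hcomm Λ (by
      intro i φ hφ g
      haveI : Fact ((i.1 : Nat.Primes) : ℕ).Prime := ⟨i.1.2⟩
      rw [hΛ] at hφ
      choose c hc hc' using hφ
      refine ⟨∑ x, c (Additive.ofMul ((heckeSys M (i.1 : ℕ)).coc (Additive.toMul g) x)),
        𝔪.sum_mem fun x _ => hc _, ?_⟩
      rw [hT]
      show _ = (heckeSys M (i.1 : ℕ)).addTransfer (φ : Additive (Gamma0 M) →+ ℂ) g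
      rw [CosetSys.addTransfer_apply]
      push_cast
      exact Finset.sum_congr rfl fun x _ => hc' _) (by
      intro c φ hφ g
      obtain ⟨d, hd, hd'⟩ := hφ g
      refine ⟨c * d, 𝔪.mul_mem_left _ hd, ?_⟩
      push_cast
      rw [hd']; rfl) f (fun ℓ => ((a ℓ.1 : ℤ) : integralClosure ℤ ℂ)) (by
      intro i g
      haveI : Fact ((i.1 : Nat.Primes) : ℕ).Prime := ⟨i.1.2⟩
      refine ⟨_, hint𝔪 _ (hy (i.1 : ℕ) i.2 g), ?_⟩
      have h1 : ((T i f : V) : Additive (Gamma0 M) →+ ℂ) g =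
          (((heckeSys M (i.1 : ℕ)).addTransfer y g : ℤ) : ℂ) := by
        have h2 := DFunLike.congr_fun ((heckeSys M (i.1 : ℕ)).addTransfer_comp
          (Int.castAddHom ℂ) y) g
        exact h2
      have h3 : ((T i f - (algebraMap (integralClosure ℤ ℂ) ℂ)
          ((a i.1 : ℤ) : integralClosure ℤ ℂ) • f : V) : Additive (Gamma0 M) →+ ℂ) g =
          ((T i f : V) : Additive (Gamma0 M) →+ ℂ) g - ((a i.1 : ℤ) : ℂ) * ((y g : ℤ) : ℂ) := by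
        rw [map_intCast]
        rfl
      rw [h3, h1]
      push_cast
      rfl) (by
      intro u hu
      obtain ⟨c, hc, hc'⟩ := hu g₀
      have h1 : (c : ℂ) = (u : ℂ) * ((y g₀ : ℤ) : ℂ) := hc'
      have h2 : c = u * ((y g₀ : ℤ) : integralClosure ℤ ℂ) := by
        apply Subtype.ext
        rw [h1]; push_cast; rfl
      have hcop : IsCoprime (p : ℤ) (y g₀) :=
        (Prime.coprime_iff_not_dvd (Nat.prime_iff_prime_int.mp hp)).mpr hg₀
      obtain ⟨r, s, hrs⟩ := hcop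
      have h3 : u = ((r * p : ℤ) : integralClosure ℤ ℂ) * u + ((s : ℤ) : integralClosure ℤ ℂ) * c := by
        have h4 : ((r * p + s * y g₀ : ℤ) : integralClosure ℤ ℂ) = 1 := by rw [hrs]; simp
        rw [h2]
        push_cast at h4 ⊢
        linear_combination -u * h4
      rw [h3]
      exact 𝔪.add_mem (𝔪.mul_mem_right _ (hint𝔪 _ (Dvd.intro_left _ rfl))) (𝔪.mul_mem_left _ hc)) (by
      intro χ v hv0 hv i
      have h1 : heckeC M i.1 (v : Additive (Gamma0 M) →+ ℂ) = χ i • (v : Additive (Gamma0 M) →+ ℂ) :=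
        congrArg Subtype.val (hv i)
      have h2 : (v : Additive (Gamma0 M) →+ ℂ) ≠ 0 := fun h => hv0 (Subtype.ext h)
      exact ⟨⟨χ i, isIntegral_of_heckeC i.1 _ h2 _ h1⟩, rfl⟩)
  -- the complex eigenvector
  set w : Additive (Gamma0 M) →+ ℂ := v.1 with hw
  have hw0 : w ≠ 0 := fun h => hv0 (Subtype.ext h)
  have hwe : ∀ i : {ℓ : Nat.Primes // S ℓ}, heckeC M i.1 w = ((χ i : integralClosure ℤ ℂ) : ℂ) • w :=
    fun i => congrArg Subtype.val (hv i)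
  -- it is parabolic
  have hpar : IsParabolicHom (Gamma0 M) w := by
    let lam : ℕ → integralClosure ℤ ℂ := fun ℓ =>
      if h : ∃ hℓ : ℓ.Prime, S ℓ then χ ⟨⟨ℓ, h.1⟩, h.2⟩ else 0
    have hlam : ∀ (ℓ : ℕ) (hℓ : ℓ.Prime) (hS : S ℓ), lam ℓ = χ ⟨⟨ℓ, hℓ⟩, hS⟩ := by
      intro ℓ hℓ hS
      simp only [lam]
      rw [dif_pos ⟨hℓ, hS⟩]
    refine isParabolicHom_of_congr (E := ℂ) (by norm_num) hp (O := integralClosure ℤ ℂ)
      Subtype.val_injective 𝔪 h𝔪.ne_top hp𝔪 S hSM (NeZero.ne M) a hne w lam ?_ ?_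
    · intro ℓ hℓ hS g
      rw [hlam ℓ hℓ.out hS]
      exact DFunLike.congr_fun (hwe ⟨⟨ℓ, hℓ.out⟩, hS⟩) g
    · intro ℓ hℓ hS
      rw [hlam ℓ hℓ hS]
      exact hχ ⟨⟨ℓ, hℓ⟩, hS⟩
  -- Eichler–Shimura
  obtain ⟨hinj, hrange⟩ := Fermat.Agent.S21.result M
  obtain ⟨gg, hgg⟩ : w ∈ LinearMap.range (periodHomPair M) := by
    rw [hrange]; exact hpar
  have hgg0 : gg ≠ 0 := by
    rintro rfl
    rw [map_zero] at hgg
    exact hw0 hgg.symm
  have hTgg : ∀ i : {ℓ : Nat.Primes // S ℓ},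
      heckeOp M 2 i.1 gg.1 = ((χ i : integralClosure ℤ ℂ) : ℂ) • gg.1 ∧
      heckeOp M 2 i.1 gg.2 = ((χ i : integralClosure ℤ ℂ) : ℂ) • gg.2 := by
    intro i
    have h1 := hwe i
    rw [← hgg, periodHomPair_heckeOp, ← map_smul] at h1
    have h2 := hinj h1
    exact ⟨congrArg Prod.fst h2, congrArg Prod.snd h2⟩
  -- the space of cusp forms
  let W : Submodule ℂ (CuspForm (Gamma0 M) 2) :=
    { carrier := {g | ∀ i : {ℓ : Nat.Primes // S ℓ}, heckeOp M 2 i.1 g =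
          ((χ i : integralClosure ℤ ℂ) : ℂ) • g}
      add_mem' := by
        intro x y hx1 hy1 i
        rw [map_add, hx1, hy1, smul_add]
      zero_mem' := fun i => by rw [map_zero, smul_zero]
      smul_mem' := by
        intro c x hx1 i
        rw [map_smul, hx1, smul_comm] }
  have hW1 : gg.1 ∈ W := fun i => (hTgg i).1
  have hW2 : gg.2 ∈ W := fun i => (hTgg i).2
  have hWnt : Nontrivial W := by
    rw [Submodule.nontrivial_iff_ne_bot]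
    intro hbot
    apply hgg0
    rw [hbot] at hW1 hW2
    exact Prod.ext hW1 hW2
  have hWstab : ∀ (r : Nat.Primes), ∀ x ∈ W, heckeOp M 2 r x ∈ W := by
    intro r x hx
    have hc : ∀ s (z : CuspForm (Gamma0 M) 2), heckeOp M 2 s (heckeOp M 2 r z) =
        heckeOp M 2 r (heckeOp M 2 s z) := fun s z =>
      LinearMap.congr_fun (heckeOp_comm (N := M) (k := 2) s r) z
    intro i
    rw [hc, hx i, map_smul]
  obtain ⟨χ', g', hg'0, hg'⟩ := exists_joint_eigenvector (K := ℂ) (V := W)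
    (fun r : Nat.Primes => (heckeOp M 2 r).restrict (hWstab r)) (by
      intro r s
      refine LinearMap.ext fun x => Subtype.ext ?_
      exact LinearMap.congr_fun (heckeOp_comm (N := M) (k := 2) r s) (x : CuspForm (Gamma0 M) 2))
  have hg'e : ∀ r : Nat.Primes, heckeOp M 2 r (g' : CuspForm (Gamma0 M) 2) =
      χ' r • (g' : CuspForm (Gamma0 M) 2) := fun r => congrArg Subtype.val (hg' r)
  have hg'ne : (g' : CuspForm (Gamma0 M) 2) ≠ 0 := fun h => hg'0 (Subtype.ext h)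
  obtain ⟨g, hgN, hge, hgc⟩ := exists_isNormalizedEigenform_of_eigen hg'e hg'ne
  refine ⟨g, hgN, ?_⟩
  intro ℓ hℓ hS
  refine ⟨χ ⟨⟨ℓ, hℓ⟩, hS⟩, ?_, hχ ⟨⟨ℓ, hℓ⟩, hS⟩⟩
  rw [hgc ⟨ℓ, hℓ⟩]
  have h1 := (g'.2) ⟨⟨ℓ, hℓ⟩, hS⟩
  rw [hg'e] at h1
  exact (smul_left_injective ℂ hg'ne h1).symm

end Fermat.Agent.Ribet

end
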