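import Fermat.Agent.Ribet.Descend
import Fermat.Agent.Ribet.R3GD

/-!
# The cyclic quotient datum for `GD m q H`
-/

set_option autoImplicit false

open UpperHalfPlane hiding I
open ModularForm Matrix.SpecialLinearGroup Filter Asymptotics CongruenceSubgroup
open scoped MatrixGroups Manifold ModularForm Polynomial Topology

noncomputable section

namespace Fermat.Agent.Ribet

open Fermat.Agent.JLevelOne Fermat.Agent.X0Emb Fermat.Agent.ModFun ModularCurve Fermat.Agent.FG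
open Fermat.Agent.EisChar Fermat.Agent.S28aux Fermat.Agent.IntStruct Fermat.Agent.HeckePar
open Fermat.Agent.X1 Fermat.Agent.X1Char Fermat.Agent.GaussVal

variable {K : Type} [Field K] {M : ℕ} {D : Type*} [CommGroup D] [Finite D]
  {ψ : (ZMod M)ˣ →* D} {Γ : Subgroup SL(2, ℤ)} {n : ℕ} {u : (ZMod M)ˣ}

omit [Finite D] in
theorem mem_zpowers_of_gen (hgen : ∀ d : D, ∃ i : ℕ, ψ u ^ i = d) (d : D) :
    d ∈ Subgroup.zpowers (ψ u) := by
  obtain ⟨i, hi⟩ := hgen d
  exact ⟨i, by simpa using hi⟩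

theorem orderOf_gen (hgen : ∀ d : D, ∃ i : ℕ, ψ u ^ i = d) (hn : Nat.card D = n) :
    orderOf (ψ u) = n := by
  rw [orderOf_eq_card_of_forall_mem_zpowers (mem_zpowers_of_gen hgen), hn]

/-- The unit of `ℂ` given by a root of unity. -/
def rootU (ι : K →+* ℂ) {ζ : K} (hζ : ζ ≠ 0) : ℂˣ := Units.mk0 (ι ζ) ((map_ne_zero ι).mpr hζ)

/-- The cyclic quotient datum. -/
def cycOf (ι : K →+* ℂ) (h : IsKer Γ ψ) (hgen : ∀ d : D, ∃ i : ℕ, ψ u ^ i = d)
    (hn : Nat.card D = n) [NeZero n] {ζ : K} (hζ : IsPrimitiveRoot ζ n) : Cyc ι M Γ n where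
  u₀ := u
  ζ := ζ
  prim := hζ
  κ := (monoidHomOfForallMemZpowers (mem_zpowers_of_gen hgen)
    (g' := rootU ι (hζ.ne_zero (NeZero.ne n))) (by
      rw [orderOf_gen hgen hn]
      apply orderOf_dvd_of_pow_eq_one
      ext
      rw [Units.val_pow_eq_pow_val, Units.val_one, rootU, Units.val_mk0, ← map_pow,
        hζ.pow_eq_one, map_one])).comp (th ψ)
  mem := by
    have h1 := (h (gd M (u ^ n))).mpr (by
      rw [th_gd, map_pow, ← orderOf_gen hgen hn, pow_orderOf_eq_one])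
    exact h1
  spec := by
    intro γ
    obtain ⟨i, hi⟩ := hgen (th ψ γ)
    refine ⟨i, (γ * (gd M (u ^ i))⁻¹ : Gamma0 M), (h _).mpr ?_, ?_, ?_⟩
    · rw [map_mul, map_inv, th_gd, map_pow, hi, mul_inv_cancel]
    · show _ = ((γ : SL(2, ℤ)) * (diaMat M (u ^ i))⁻¹) * diaMat M (u ^ i)
      rw [inv_mul_cancel_right]
    · rw [MonoidHom.comp_apply, ← hi, map_pow, monoidHomOfForallMemZpowers_apply_gen,
        Units.val_pow_eq_pow_val]
      rfl

/-- The cyclic quotient datum for `GD m q H`. -/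
def cycGD {m q : ℕ} [NeZero q] {H : Subgroup (ZMod q)ˣ} (ι : K →+* ℂ) (hn : H.index = n)
    [NeZero n] {u : (ZMod (m * q))ˣ}
    (hu : ∀ x : (ZMod q)ˣ, ∃ i : ℕ, ZMod.unitsMap (dvd_mq m q) u ^ i * x ∈ H)
    {ζ : K} (hζ : IsPrimitiveRoot ζ n) : Cyc ι (m * q) (GD m q H) n :=
  cycOf ι (isKer_GD m q H) (psiGD_gen hu) (by rw [Dq.card, hn]) hζ

end Fermat.Agent.Ribet
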