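import Fermat.Agent.Ribet.PCComb
import Fermat.Agent.Ribet.Wq
import Fermat.Agent.X1Char.Key

/-!
# The subgroups of characters defined by congruences
-/

set_option autoImplicit false

open UpperHalfPlane hiding I
open ModularForm Matrix.SpecialLinearGroup Filter Asymptotics CongruenceSubgroup
open scoped MatrixGroups Manifold ModularForm Polynomial Topology

noncomputable section

namespace Fermat.Agent.Ribet

open Fermat.Agent.JLevelOne Fermat.Agent.X0Emb Fermat.Agent.ModFun ModularCurve Fermat.Agent.FG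
open Fermat.Agent.EisChar Fermat.Agent.S28aux Fermat.Agent.IntStruct Fermat.Agent.HeckePar
open Fermat.Agent.X1 Fermat.Agent.X1Char Fermat.Agent.GaussVal

section Dia

variable {M : ℕ}

theorem exists_diaMat_mul (v u : (ZMod M)ˣ) :
    ∃ γ ∈ Gamma1 M, diaMat M v * diaMat M u = γ * diaMat M (v * u) := by
  refine ⟨diaMat M v * diaMat M u * (diaMat M (v * u))⁻¹, ?_, by group⟩
  have h0 : diaMat M v * diaMat M u ∈ Gamma0 M := mul_mem (diaMat_mem v) (diaMat_mem u)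
  refine mem_gamma1_of_mem_gamma0 (mul_mem h0 (inv_mem (diaMat_mem _))) ?_
  rw [mul_inv_00 h0 (diaMat_mem _), diaMat_11]
  have h1 := (Del_mul (diaMat_mem_Del v) (diaMat_mem_Del u)).2.2
  rw [← Matrix.SpecialLinearGroup.coe_mul] at h1
  rw [h1, ← Units.val_mul, ← Units.val_mul, ← mul_inv, inv_mul_cancel, Units.val_one]

theorem diaMat_one_mem : diaMat M 1 ∈ Gamma1 M := by
  refine mem_gamma1_of_mem_gamma0 (diaMat_mem _) ?_
  rw [diaMat_00, inv_one, Units.val_one]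

variable {Γ : Subgroup SL(2, ℤ)} [hΓ : Between M Γ] {F : ℍ → ℂ}

include hΓ in
theorem dia_dia (hF : ∀ γ ∈ Γ, ∀ τ : ℍ, F (γ • τ) = F τ) (v u : (ZMod M)ˣ) (τ : ℍ) :
    F (diaMat M v • diaMat M u • τ) = F (diaMat M (v * u) • τ) := by
  obtain ⟨γ, hγ, h⟩ := exists_diaMat_mul v u
  rw [← mul_smul, h, mul_smul, hF _ (hΓ.ge hγ)]

include hΓ in
theorem dia_one (hF : ∀ γ ∈ Γ, ∀ τ : ℍ, F (γ • τ) = F τ) (τ : ℍ) :
    F (diaMat M 1 • τ) = F τ := hF _ (hΓ.ge diaMat_one_mem) _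

end Dia

section Good

variable {K : Type} [Field K]

/-- `g : ℍ → ℍ` is such that the composites of modular functions with `g` are modular functions,
compatibly with the automorphisms of `K` up to diamonds. -/
structure GoodMap (ι : K →+* ℂ) (M : ℕ) (Γ : Subgroup SL(2, ℤ)) (g : ℍ → ℍ)
    (R : (K ≃+* K) → (ZMod M)ˣ → Prop) : Prop where
  surj : Function.Surjective g
  exp : ∀ {F : ℍ → ℂ} {y : LaurentSeries K}, IsMF ι Γ 1 F y →
    ∃ z : LaurentSeries K, IsMF ι Γ 1 (fun τ => F (g τ)) z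
  conj : ∀ {σ : K ≃+* K} {u : (ZMod M)ˣ}, R σ u → ∀ {F F' : ℍ → ℂ} {y z : LaurentSeries K},
    IsMF ι Γ 1 F y → IsMF ι Γ 1 F' (coeffMap (σ : K →+* K) y) →
    LExp 1 (fun τ => F (g τ)) (coeffMap ι z) →
    LExp 1 (fun τ => F' (diaMat M u • g τ)) (coeffMap ι (coeffMap (σ : K →+* K) z))

variable {ι : K →+* ℂ} {M : ℕ} {Γ : Subgroup SL(2, ℤ)} {g : ℍ → ℍ}
  {R : (K ≃+* K) → (ZMod M)ˣ → Prop}

theorem goodMap_id [hΓ : Between M Γ] : GoodMap ι M Γ id (fun _ u => u = 1) where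
  surj := Function.surjective_id
  exp {_ y} hF := ⟨y, hF⟩
  conj := by
    rintro σ u rfl F F' y z hF hF' hz
    have h1 : z = y := IsCF.unique hz (by simpa using hF.lexp)
    have h2 : (fun τ => F' (diaMat M 1 • id τ)) = F' := funext fun τ => dia_one hF'.inv τ
    rw [h2, h1]
    simpa using hF'.lexp

namespace GoodMap

variable [hΓ : Between M Γ] [GoodGroup Γ] [hD : DiaGroup M Γ] [Countable K] [IsAlgClosed K]

theorem exp_dia (hg : GoodMap ι M Γ g R) {F : ℍ → ℂ} {y : LaurentSeries K}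
    (hF : IsMF ι Γ 1 F y) (u : (ZMod M)ˣ) :
    ∃ z : LaurentSeries K, IsMF ι Γ 1 (fun τ => F (diaMat M u • g τ)) z := by
  obtain ⟨w, hw⟩ := mf_exists_dia (M := M) hF u
  exact hg.exp hw

theorem conj_dia (hg : GoodMap ι M Γ g R) {σ : K ≃+* K} {u : (ZMod M)ˣ} (hu : R σ u)
    (v : (ZMod M)ˣ) {F F' : ℍ → ℂ} {y z : LaurentSeries K}
    (hF : IsMF ι Γ 1 F y) (hF' : IsMF ι Γ 1 F' (coeffMap (σ : K →+* K) y))
    (hz : LExp 1 (fun τ => F (diaMat M v • g τ)) (coeffMap ι z)) :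
    LExp 1 (fun τ => F' (diaMat M (v * u) • g τ)) (coeffMap ι (coeffMap (σ : K →+* K) z)) := by
  obtain ⟨w, hw⟩ := mf_exists_dia (M := M) hF v
  have hw' : IsMF ι Γ 1 (fun τ => F' (diaMat M v • τ)) (coeffMap (σ : K →+* K) w) := by
    refine ⟨mdiff_comp_smul hF'.mdiff _, dia_inv hF'.inv v, smul_growth hF'.growth _, ?_⟩
    have := mf_dia_conj (M := M) hF (by simpa using hw.lexp) σ hF'
    simpa using this
  have h1 := hg.conj hu hw hw' hz
  have h2 : (fun τ => F' (diaMat M v • (diaMat M u • g τ))) =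
      fun τ => F' (diaMat M (v * u) • g τ) := funext fun τ => dia_dia hF'.inv v u _
  rw [← h2]
  exact h1

end GoodMap

variable (ι M Γ g) in
/-- The condition defining the kernel of specialisation. -/
def KK (A : ValuationSubring K) (n : ℕ) (χ : Γ →* ℂˣ) : Prop :=
  ∃ (F : ℍ → ℂ) (y : LaurentSeries K) (G : ℍ → ℂ) (z : LaurentSeries K),
    IsCF ι Γ χ F y ∧ y ≠ 0 ∧ IsMF ι Γ 1 G z ∧ z ≠ 0 ∧
    ∀ u : (ZMod M)ˣ, ∃ a b : LaurentSeries K,
      LExp 1 (fun τ => F (diaMat M u • g τ) ^ n) (coeffMap ι a) ∧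
      LExp 1 (fun τ => G (diaMat M u • g τ) ^ n) (coeffMap ι b) ∧ PC A a b

variable {A : ValuationSubring K} {n : ℕ} {χ ψ : Γ →* ℂˣ}

theorem KK.one : KK ι M Γ g A n 1 := by
  refine ⟨1, 1, 1, 1, IsCF.one, one_ne_zero, IsMF.one Γ 1, one_ne_zero, fun u => ?_⟩
  refine ⟨1, 1, ?_, ?_, PC.one⟩ <;>
  · simp only [Pi.one_apply, one_pow, map_one]
    exact LExp.one 1

theorem KK.mul (hχ : KK ι M Γ g A n χ) (hψ : KK ι M Γ g A n ψ) : KK ι M Γ g A n (χ * ψ) := by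
  obtain ⟨F, y, G, z, hF, hy, hG, hz, h⟩ := hχ
  obtain ⟨F', y', G', z', hF', hy', hG', hz', h'⟩ := hψ
  refine ⟨F * F', y * y', G * G', z * z', hF.mul hF', mul_ne_zero hy hy', hG.mul hG',
    mul_ne_zero hz hz', fun u => ?_⟩
  obtain ⟨a, b, ha, hb, hab⟩ := h u
  obtain ⟨a', b', ha', hb', hab'⟩ := h' u
  refine ⟨a * a', b * b', ?_, ?_, hab.mul hab'⟩
  · simp only [Pi.mul_apply, mul_pow, map_mul]
    exact ha.mul ha'
  · simp only [Pi.mul_apply, mul_pow, map_mul]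
    exact hb.mul hb'

theorem KK.congr (hχ : KK ι M Γ g A n χ) (h : χ = ψ) : KK ι M Γ g A n ψ := h ▸ hχ

theorem KK.pow (hχ : KK ι M Γ g A n χ) (k : ℕ) : KK ι M Γ g A n (χ ^ k) := by
  induction k with
  | zero => exact KK.one.congr (pow_zero χ).symm
  | succ k ih => exact (ih.mul hχ).congr (pow_succ χ k).symm

theorem KK.inv (hn : n ≠ 0) (h1 : χ ^ n = 1) (hχ : KK ι M Γ g A n χ) :
    KK ι M Γ g A n χ⁻¹ := by
  obtain ⟨m, rfl⟩ := Nat.exists_eq_succ_of_ne_zero hn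
  refine (hχ.pow m).congr ?_
  ext γ
  have h2 := DFunLike.congr_fun h1 γ
  rw [MonoidHom.pow_apply, MonoidHom.one_apply, pow_succ] at h2
  rw [MonoidHom.pow_apply, MonoidHom.inv_apply, eq_inv_of_mul_eq_one_left h2]

section Stab

variable [hΓ : Between M Γ] [GoodGroup Γ] [hD : DiaGroup M Γ] [Countable K] [IsAlgClosed K]

/-- Stability under the diamonds. -/
theorem KK.dia (hn : n ≠ 0) (hχ : χ ∈ xGroup M Γ n) (h : KK ι M Γ g A n χ) (v : (ZMod M)ˣ) :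
    KK ι M Γ g A n (dChar M Γ v χ) := by
  obtain ⟨F, y, G, z, hF, hy, hG, hz, h⟩ := h
  obtain ⟨y', hF'⟩ := hF.exists_dia hn hχ v
  obtain ⟨z', hG'⟩ := mf_exists_dia (M := M) hG v
  have hy' : y' ≠ 0 := by
    rintro rfl
    exact hF.smul_ne_zero hy _ ((IsCF.eq_zero_iff hF'.lexp).mpr rfl)
  have hz' : z' ≠ 0 := by
    rintro rfl
    exact (IsCF.ofIsMF hG).smul_ne_zero hz _
      ((IsCF.eq_zero_iff (IsCF.ofIsMF hG').lexp).mpr rfl)
  refine ⟨_, y', _, z', hF', hy', hG', hz', fun u => ?_⟩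
  obtain ⟨a, b, ha, hb, hab⟩ := h (v * u)
  refine ⟨a, b, ?_, ?_, hab⟩
  · have hFn : IsMF ι Γ 1 (F ^ n) (y ^ n) :=
      ((hF.pow n).char_congr (xGroup_le n hχ).1).toIsMF
    have h2 : (fun τ => F (diaMat M v • (diaMat M u • g τ)) ^ n) =
        fun τ => F (diaMat M (v * u) • g τ) ^ n := funext fun τ => by
      have := dia_dia (M := M) (Γ := Γ) hFn.inv v u (g τ)
      simpa using this
    rw [h2]
    exact ha
  · have h2 : (fun τ => G (diaMat M v • (diaMat M u • g τ)) ^ n) =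
        fun τ => G (diaMat M (v * u) • g τ) ^ n := funext fun τ => by
      rw [dia_dia hG.inv]
    rw [h2]
    exact hb

end Stab

end Good

/-! ### Galois action -/

section Gal

variable {ι : Qbar →+* ℂ} {M : ℕ} {Γ : Subgroup SL(2, ℤ)} [hΓ : Between M Γ] [GoodGroup Γ]
  [hD : DiaGroup M Γ] {n : ℕ} [NeZero n] {A : ValuationSubring Qbar} {g : ℍ → ℍ}
  {R : (Qbar ≃+* Qbar) → (ZMod M)ˣ → Prop}

omit hΓ hD in
theorem exists_mf_conj {G : ℍ → ℂ} {z : LaurentSeries Qbar} (hG : IsMF ι Γ 1 G z)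
    (σ : Qbar ≃+* Qbar) :
    ∃ G' : ℍ → ℂ, IsMF ι Γ 1 G' (coeffMap (σ : Qbar →+* Qbar) z) := by
  obtain ⟨χ', G', hχ', hG'⟩ := (IsCF.ofIsMF hG).exists_conj (n := 1) one_ne_zero
    (by ext γ; simp) σ
  have hχ'1 : χ' = 1 := by
    ext γ
    have := DFunLike.congr_fun hχ' γ
    rw [MonoidHom.pow_apply, pow_one] at this
    rw [this]
  subst hχ'1
  exact ⟨G', hG'.toIsMF⟩

theorem coeffMap_toRA_ne_zero {σ : Qbar ≃+* Qbar} {y : LaurentSeries Qbar} (hy : y ≠ 0) :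
    coeffMap (σ : Qbar →+* Qbar) y ≠ 0 := by
  rw [Ne, map_eq_zero_iff _ (coeffMap_injective _)]
  exact hy

/-- Stability under the decomposition group. -/
theorem KK.gal (hg : GoodMap ι M Γ g R) {σ : GQ} (hσ : σ ∈ A.decompositionSubgroup ℚ)
    {u : (ZMod M)ˣ} (hu : R (toRA σ) u) (χ : xGroup M Γ n) (h : KK ι M Γ g A n χ.1) :
    KK ι M Γ g A n (galX ι M Γ n σ χ).1 := by
  obtain ⟨F, y, G, z, hF, hy, hG, hz, h⟩ := h
  obtain ⟨F', hF'⟩ := conjX_spec ι (toRA σ) χ hF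
  obtain ⟨G', hG'⟩ := exists_mf_conj hG (toRA σ)
  rw [← galX_apply] at hF'
  refine ⟨F', _, G', _, hF', coeffMap_toRA_ne_zero hy, hG', coeffMap_toRA_ne_zero hz,
    fun v => ?_⟩
  obtain ⟨a, b, ha, hb, hab⟩ := h (v * u⁻¹)
  have hFn : IsMF ι Γ 1 (F ^ n) (y ^ n) := ((hF.pow n).char_congr (xGroup_le n χ.2).1).toIsMF
  have hFn' : IsMF ι Γ 1 (F' ^ n) (coeffMap ((toRA σ : Qbar ≃+* Qbar) : Qbar →+* Qbar)
      (y ^ n)) := by
    rw [map_pow]
    exact ((hF'.pow n).char_congr (xGroup_le n (galX ι M Γ n σ χ).2).1).toIsMF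
  have hGn : IsMF ι Γ 1 (G ^ n) (z ^ n) := hG.pow n
  have hGn' : IsMF ι Γ 1 (G' ^ n) (coeffMap ((toRA σ : Qbar ≃+* Qbar) : Qbar →+* Qbar)
      (z ^ n)) := by
    rw [map_pow]
    exact hG'.pow n
  have h1 := hg.conj_dia hu (v * u⁻¹) hFn hFn' ha
  have h2 := hg.conj_dia hu (v * u⁻¹) hGn hGn' hb
  rw [inv_mul_cancel_right] at h1 h2
  exact ⟨_, _, h1, h2, hab.decomposition hσ⟩

/-- **Inertia acts through the diamonds on the quotient.** -/
theorem KK.inertia [IntGroup Γ] {p : ℕ} (hp : p.Prime) (hA : A.LiesOverPrime p)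
    (hg : GoodMap ι M Γ g R) {σ : GQ} (hσ : σ ∈ A.inertiaSubgroupIn ℚ)
    {u : (ZMod M)ˣ} (hu : R (toRA σ) u) (χ : xGroup M Γ n) :
    KK ι M Γ g A n ((galX ι M Γ n σ χ) * (dX M Γ n u⁻¹ χ)⁻¹ : xGroup M Γ n).1 := by
  obtain ⟨F, y, hy, hF⟩ := exists_isCFX ι χ
  obtain ⟨F', hF'⟩ := conjX_spec ι (toRA σ) χ hF
  rw [← galX_apply] at hF'
  obtain ⟨y', hH⟩ := hF.exists_dia (NeZero.ne n) χ.2 u⁻¹
  have hy' : y' ≠ 0 := by
    rintro rfl
    exact hF.smul_ne_zero hy _ ((IsCF.eq_zero_iff hH.lexp).mpr rfl)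
  obtain ⟨m, hm⟩ : ∃ m, n = m + 1 := Nat.exists_eq_succ_of_ne_zero (NeZero.ne n)
  set H : ℍ → ℂ := fun τ => F (diaMat M u⁻¹ • τ) with hHdef
  have hFn : IsMF ι Γ 1 (F ^ n) (y ^ n) := ((hF.pow n).char_congr (xGroup_le n χ.2).1).toIsMF
  have hFn' : IsMF ι Γ 1 (F' ^ n) (coeffMap ((toRA σ : Qbar ≃+* Qbar) : Qbar →+* Qbar)
      (y ^ n)) := by
    rw [map_pow]
    exact ((hF'.pow n).char_congr (xGroup_le n (galX ι M Γ n σ χ).2).1).toIsMF
  have hHn : IsMF ι Γ 1 (H ^ n) (y' ^ n) :=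
    ((hH.pow n).char_congr (xGroup_le n (dX M Γ n u⁻¹ χ).2).1).toIsMF
  have hchar : (galX ι M Γ n σ χ * (dX M Γ n u⁻¹ χ)⁻¹ : xGroup M Γ n) =
      galX ι M Γ n σ χ * (dX M Γ n u⁻¹ χ) ^ m := by
    congr 1
    rw [inv_eq_iff_mul_eq_one, ← pow_succ', ← hm]
    exact Subtype.ext (xGroup_le n (dX M Γ n u⁻¹ χ).2).1
  rw [hchar]
  refine ⟨F' * H ^ m, _, H ^ n, y' ^ n, hF'.mul (hH.pow m),
    mul_ne_zero (coeffMap_toRA_ne_zero hy) (pow_ne_zero m hy'), hHn, pow_ne_zero n hy',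
    fun v => ?_⟩
  obtain ⟨z, hz⟩ := hg.exp_dia hFn (v * u⁻¹)
  have hz0 : z ≠ 0 := by
    rintro rfl
    have h1 := hz.eq_zero_iff.mpr rfl
    have h2 := (IsCF.ofIsMF hFn).smul_ne_zero (pow_ne_zero n hy) (diaMat M (v * u⁻¹))
    obtain ⟨τ, hτ⟩ := Function.ne_iff.mp h2
    obtain ⟨τ', rfl⟩ := hg.surj τ
    exact hτ (congrFun h1 τ')
  have hzl : LExp 1 (fun τ => (F ^ n) (diaMat M (v * u⁻¹) • g τ)) (coeffMap ι z) := by
    simpa using hz.lexp
  have hpc : PC A z z := by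
    have := isAlgebraic_Qbar
    exact PC.of_scalable (scalable_of_mem_intAlg hp hA (mem_intAlg_of_isMF hz) hz0)
  have h1 := hg.conj_dia hu (v * u⁻¹) hFn hFn' hzl
  rw [inv_mul_cancel_right] at h1
  have h2 : LExp 1 (fun τ => (H (diaMat M v • g τ)) ^ n) (coeffMap ι z) := by
    have e : (fun τ => (H (diaMat M v • g τ)) ^ n) =
        fun τ => (F ^ n) (diaMat M (v * u⁻¹) • g τ) := funext fun τ => by
      rw [mul_comm v, ← dia_dia (M := M) (Γ := Γ) hFn.inv]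
      rfl
    rw [e]
    exact hzl
  refine ⟨coeffMap ((toRA σ : Qbar ≃+* Qbar) : Qbar →+* Qbar) z * z ^ m, z ^ n, ?_, ?_, ?_⟩
  · have e : (fun τ => ((F' * H ^ m) (diaMat M v • g τ)) ^ n) =
        (fun τ => (F' ^ n) (diaMat M v • g τ)) *
          (fun τ => (H (diaMat M v • g τ)) ^ n) ^ m := by
      funext τ
      simp only [Pi.mul_apply, Pi.pow_apply, mul_pow]
      congr 1
      rw [← pow_mul, ← pow_mul, mul_comm]
    rw [e, map_mul, map_pow]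
    exact h1.mul (h2.pow m)
  · have e : (fun τ => ((H ^ n) (diaMat M v • g τ)) ^ n) =
          (fun τ => (H (diaMat M v • g τ)) ^ n) ^ n := by
      funext τ
      simp only [Pi.pow_apply]
    rw [e, map_pow]
    exact h2.pow n
  · have h3 : PC A (coeffMap ((toRA σ : Qbar ≃+* Qbar) : Qbar →+* Qbar) z) z :=
      hpc.inertia hσ
    rw [hm, pow_succ']
    exact h3.mul (hpc.pow m)

end Gal

end Fermat.Agent.Ribet
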