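import Fermat.Agent.Ribet.RelKK
import Fermat.Agent.Ribet.Dict
import Fermat.Agent.Ribet.LevelRel

/-!
# The bound on the toric part
-/

set_option autoImplicit false

open UpperHalfPlane hiding I
open ModularForm Matrix.SpecialLinearGroup Filter Asymptotics CongruenceSubgroup
open scoped MatrixGroups Manifold ModularForm Polynomial Topology

noncomputable section

namespace Fermat.Agent.Ribet

open Fermat.Agent.JLevelOne Fermat.Agent.X0Emb Fermat.Agent.ModFun ModularCurve Fermat.Agent.FG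
open Fermat.Agent.EisChar Fermat.Agent.S28aux Fermat.Agent.IntStruct Fermat.Agent.HeckePar
open Fermat.Agent.X1 Fermat.Agent.X1Char Fermat.Agent.GaussVal AlgebraicCurve
open Fermat.Agent.GalRep (Rel IsKummer HasChar Bridge bridge TG HeckeAlgS inclS)
open Fermat.Agent.TwHecke Fermat.Agent.TwExact ModularCurve.Period

/-! ### Counting -/

section Count

variable {W : Type*} [AddCommGroup W] [Finite W] (D : ToricData W)

/-- The bound on the toric part from its position with respect to `σ - 1`. -/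
theorem ToricData.hcard_of (h1 : ∀ x, D.δ x = x → x ∈ D.K₁ → D.σ x = x)
    (h2 : ∀ x, D.δ x = x → D.σ x = x → ∃ y, D.δ y = y ∧ D.σ y - y = x) :
    Nat.card D.T₀ ^ 2 ≤ Nat.card D.W₀ := by
  classical
  have e1 : Nat.card D.W₀ = Nat.card D.S.ker * Nat.card D.S.range := by
    rw [AddSubgroup.card_eq_card_quotient_mul_card_addSubgroup D.S.ker, mul_comm]
    congr 1
    exact Nat.card_congr (QuotientAddGroup.quotientKerEquivRange D.S).toEquiv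
  have e2 : Nat.card D.T₀ ≤ Nat.card D.S.ker := by
    refine Nat.card_le_card_of_injective (fun x => ⟨⟨(x : W), x.2.1⟩, ?_⟩) ?_
    · rw [AddMonoidHom.mem_ker]
      apply Subtype.ext
      rw [ToricData.coe_S]
      show D.σ (x : W) - x = 0
      rw [h1 _ x.2.1 x.2.2, sub_self]
    · intro x y h
      have := congrArg (fun z : D.S.ker => ((z : D.W₀) : W)) h
      exact Subtype.ext this
  have e3 : Nat.card D.T₀ ≤ Nat.card D.S.range := by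
    refine Nat.card_le_card_of_injective (fun x => ⟨⟨(x : W), x.2.1⟩, ?_⟩) ?_
    · obtain ⟨y, hy, hyx⟩ := h2 _ x.2.1 (h1 _ x.2.1 x.2.2)
      refine ⟨⟨y, hy⟩, Subtype.ext ?_⟩
      rw [ToricData.coe_S]
      exact hyx
    · intro x y h
      have := congrArg (fun z : D.S.range => ((z : D.W₀) : W)) h
      exact Subtype.ext this
  rw [e1, pow_two]
  exact Nat.mul_le_mul e2 e3

end Count

/-! ### Elements killed by powers of a maximal ideal -/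

section MN

variable {N n : ℕ} [NeZero N] [NeZero n] (hNT : NoTors N n) {S : Set ℕ}
  (hS : ∀ ℓ : ℕ, ℓ.Prime → ℓ ∣ N → ℓ ∈ S) {k : Type} [Field k] {θ : PIdx S → k} {a : ℕ → ℤ}
  (hθ : ∀ ℓ : PIdx S, θ ℓ = ((a (ℓ.1 : ℕ) : ℤ) : k)) {p r : ℕ} [hp : Fact p.Prime] [CharP k p]
  (hn : n = p ^ r)

/-- An operator `T_ℓ - a_ℓ`. -/
abbrev oPa (N n : ℕ) (a : ℕ → ℤ) (ℓ : Nat.Primes) :
    Module.End ℤ (parabolicHoms ℤ (Gamma0 N) (ZMod n)) :=
  opP N ℤ (ZMod n) ℓ - algebraMap ℤ _ (a (ℓ : ℕ))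

include hS hθ hn in
omit hp in
theorem mNil_of {ψ : parabolicHoms ℤ (Gamma0 N) (ZMod n)}
    (h : ∀ ℓ : PIdx S, ∃ j : ℕ, ((oPa N n a ℓ.1) ^ j) ψ = 0) :
    MNil N S θ (jEquiv hNT ψ : JZero N) := by
  letI := heckeModuleBar N
  intro s hs
  set cv := cev (R := ℤ) (opS (R := ℤ) N (ZMod n) S) (opS_commute (R := ℤ) N (ZMod n) S) with hcv
  let J0 : Ideal (MvPolynomial (PIdx S) ℤ) :=
    { carrier := {s | cv s ψ = 0}
      add_mem' := fun {s t} hs ht => by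
        show cv (s + t) ψ = 0
        rw [map_add, LinearMap.add_apply, show cv s ψ = 0 from hs, show cv t ψ = 0 from ht,
          add_zero]
      zero_mem' := by
        show cv 0 ψ = 0
        rw [map_zero]; rfl
      smul_mem' := fun t s hs => by
        show cv (t * s) ψ = 0
        rw [hcv, cev_mul_apply, ← hcv]
        exact (congrArg (cv t) (show cv s ψ = 0 from hs)).trans (map_zero _) }
  have hJ0 : ∀ s, s ∈ J0 ↔ cv s ψ = 0 := fun s => Iff.rfl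
  have h1 : ∀ ℓ : PIdx S, MvPolynomial.X ℓ - MvPolynomial.C (a (ℓ.1 : ℕ)) ∈ J0.radical := by
    intro ℓ
    obtain ⟨j, hj⟩ := h ℓ
    refine ⟨j, ?_⟩
    rw [hJ0, map_pow, map_sub, hcv, cev_X, cev_C]
    exact hj
  have h2 : ∀ s : MvPolynomial (PIdx S) ℤ,
      s - MvPolynomial.C (MvPolynomial.eval (fun ℓ : PIdx S => a (ℓ.1 : ℕ)) s) ∈ J0.radical := by
    intro s
    induction s using MvPolynomial.induction_on with
    | C c => rw [MvPolynomial.eval_C, sub_self]; exact J0.radical.zero_mem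
    | add s t hs ht =>
      rw [map_add, map_add, add_sub_add_comm]
      exact J0.radical.add_mem hs ht
    | mul_X s ℓ hs =>
      rw [map_mul, MvPolynomial.eval_X, map_mul]
      have e : s * MvPolynomial.X ℓ -
          MvPolynomial.C (MvPolynomial.eval (fun ℓ : PIdx S => a (ℓ.1 : ℕ)) s) *
            MvPolynomial.C (a (ℓ.1 : ℕ)) =
          MvPolynomial.X ℓ * (s - MvPolynomial.C
            (MvPolynomial.eval (fun ℓ : PIdx S => a (ℓ.1 : ℕ)) s)) +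
          MvPolynomial.C (MvPolynomial.eval (fun ℓ : PIdx S => a (ℓ.1 : ℕ)) s) *
            (MvPolynomial.X ℓ - MvPolynomial.C (a (ℓ.1 : ℕ))) := by ring
      rw [e]
      exact J0.radical.add_mem (J0.radical.mul_mem_left _ hs) (J0.radical.mul_mem_left _ (h1 ℓ))
  have h3 : s ∈ J0.radical := by
    have h4 : ((MvPolynomial.eval (fun ℓ : PIdx S => a (ℓ.1 : ℕ)) s : ℤ) : k) = 0 := by
      have h5 : ((Int.castRingHom k).comp (MvPolynomial.eval fun ℓ : PIdx S => a (ℓ.1 : ℕ))) =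
          MvPolynomial.eval₂Hom (Int.castRingHom k) θ := by
        refine MvPolynomial.ringHom_ext (fun c => ?_) (fun ℓ => ?_)
        · simp
        · simp [hθ]
      exact (DFunLike.congr_fun h5 s).trans hs
    rw [CharP.intCast_eq_zero_iff k p] at h4
    obtain ⟨t, ht⟩ := h4
    have h5 := h2 s
    have h6 : (MvPolynomial.C (p : ℤ) : MvPolynomial (PIdx S) ℤ) ∈ J0.radical := by
      refine ⟨r, ?_⟩
      rw [hJ0, map_pow, hcv, cev_C, ← map_pow, Module.algebraMap_end_apply, ← Nat.cast_pow, ← hn]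
      apply Subtype.ext
      refine AddMonoidHom.ext fun g => ?_
      show (n : ℤ) • (ψ.1 g) = 0
      rw [natCast_zsmul, nsmul_eq_mul, ZMod.natCast_self, zero_mul]
    rw [ht, map_mul] at h5
    have h7 := J0.radical.add_mem h5 (J0.radical.mul_mem_right (MvPolynomial.C t) h6)
    rwa [sub_add_cancel] at h7
  obtain ⟨j, hj⟩ := h3
  refine ⟨j, ?_⟩
  rw [← jEquiv_cev hNT hS, ← hcv, (hJ0 _).mp hj, map_zero]
  rfl

end MN

/-! ### Characters -/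

section Chars

variable {N n : ℕ} [NeZero n]

theorem tChar_gamma0 (ℓ : ℕ) [hℓ : Fact ℓ.Prime] (χ : Gamma0 N →* ℂˣ) :
    tChar N (Gamma0 N) ℓ χ = (heckeSys N ℓ).transfer χ := by
  refine MonoidHom.ext fun γ => ?_
  have h1 := DFunLike.congr_fun (TT_gamma0 (A := Additive ℂˣ) ℓ (MonoidHom.toAdditive χ))
    (Additive.ofMul γ)
  rw [TT_apply, CosetSys.addTransfer_apply, CosetSys.addTransfer_apply] at h1
  have h2 := congrArg Additive.toMul h1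
  rw [toMul_sum, toMul_sum] at h2
  exact h2

/-- `charZ` as a homomorphism. -/
def charZHom (N n : ℕ) [NeZero n] :
    Multiplicative (Additive (Gamma0 N) →+ ZMod n) →* (Gamma0 N →* ℂˣ) where
  toFun φ := charZ (Multiplicative.toAdd φ)
  map_one' := charZ_zero
  map_mul' _ _ := charZ_add _ _

theorem charZ_sub (φ φ' : Additive (Gamma0 N) →+ ZMod n) :
    charZ (φ - φ') = charZ φ / charZ φ' :=
  map_div (charZHom N n) (Multiplicative.ofAdd φ) (Multiplicative.ofAdd φ')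

theorem charZ_oPa {a : ℕ → ℤ} (ℓ : ℕ) [hℓ : Fact ℓ.Prime]
    (ψ : parabolicHoms ℤ (Gamma0 N) (ZMod n)) :
    charZ (oPa N n a ⟨ℓ, hℓ.out⟩ ψ).1 =
      (fun χ : Gamma0 N →* ℂˣ => tChar N (Gamma0 N) ℓ χ / χ ^ a ℓ) (charZ ψ.1) := by
  have h1 : (oPa N n a ⟨ℓ, hℓ.out⟩ ψ).1 =
      (opP N ℤ (ZMod n) ⟨ℓ, hℓ.out⟩ ψ).1 - a ℓ • ψ.1 := rfl
  rw [h1, charZ_sub, charZ_opP, charZ_zsmul]

theorem charZ_oPa_pow {a : ℕ → ℤ} (ℓ : ℕ) [hℓ : Fact ℓ.Prime] (j : ℕ)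
    (ψ : parabolicHoms ℤ (Gamma0 N) (ZMod n)) :
    charZ (((oPa N n a ⟨ℓ, hℓ.out⟩) ^ j) ψ).1 =
      (fun χ : Gamma0 N →* ℂˣ => tChar N (Gamma0 N) ℓ χ / χ ^ a ℓ)^[j] (charZ ψ.1) := by
  induction j generalizing ψ with
  | zero => rfl
  | succ j ih =>
    rw [pow_succ, Module.End.mul_apply, ih, charZ_oPa, Function.iterate_succ_apply]

/-- Characters in the generalised eigenspace as parabolic homomorphisms. -/
theorem exists_par {I : Set ℕ} {a : ℕ → ℤ} {χ : Gamma0 N →* ℂˣ}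
    (hχ : χ ∈ GE N (Gamma0 N) n I a)
    (hpar : ∀ γ : Gamma0 N, ((γ : SL(2, ℤ)) : Matrix (Fin 2) (Fin 2) ℤ).trace ^ 2 = 4 → χ γ = 1) :
    ∃ ψ : parabolicHoms ℤ (Gamma0 N) (ZMod n), charZ ψ.1 = χ ∧
      ∀ ℓ : Nat.Primes, (ℓ : ℕ) ∈ I → ∃ j : ℕ, ((oPa N n a ℓ) ^ j) ψ = 0 := by
  obtain ⟨φ, rfl⟩ := exists_charZ hχ.1
  refine ⟨⟨φ, charZ_parabolic.mpr hpar⟩, rfl, fun ℓ hℓ => ?_⟩
  have : Fact (ℓ : ℕ).Prime := ⟨ℓ.2⟩
  obtain ⟨j, hj⟩ := hχ.2 ℓ hℓ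
  refine ⟨j, Subtype.ext (charZ_injective ?_)⟩
  have h1 := charZ_oPa_pow (N := N) (n := n) (a := a) ℓ j ⟨φ, charZ_parabolic.mpr hpar⟩
  exact (h1.trans hj).trans charZ_zero.symm

theorem trace_sq_of_lower {γ : SL(2, ℤ)} (hγ : γ 1 0 = 0) :
    (γ : Matrix (Fin 2) (Fin 2) ℤ).trace ^ 2 = 4 := by
  have h2 := det_SL γ
  rw [Matrix.trace_fin_two]
  rw [hγ, mul_zero, sub_zero] at h2
  rcases Int.eq_one_or_neg_one_of_mul_eq_one' h2 with ⟨h3, h4⟩ | ⟨h3, h4⟩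
  · change (γ 0 0 + γ 1 1) ^ 2 = 4
    rw [h3, h4]; norm_num
  · change (γ 0 0 + γ 1 1) ^ 2 = 4
    rw [h3, h4]; norm_num

omit [NeZero n] in
theorem dChar_gamma0 [NeZero N] (u : (ZMod N)ˣ) {χ : Gamma0 N →* ℂˣ} (hχ : χ ^ n = 1) :
    dChar N (Gamma0 N) u χ = χ := by
  obtain ⟨φ, rfl⟩ := exists_chi hχ
  rw [← chi_dd]
  have h1 : IsKer (Gamma0 N) (1 : (ZMod N)ˣ →* Unit) := fun g => ⟨fun _ => rfl, fun _ => g.2⟩
  have h2 := dd_resG (A := Mu n) h1 u φ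
  have h3 : resG (Gamma0 N) φ = φ := AddMonoidHom.ext fun g => rfl
  rw [h3] at h2
  rw [h2]

theorem par_mem_xGroup [NeZero N] (ψ : parabolicHoms ℤ (Gamma0 N) (ZMod n)) :
    charZ ψ.1 ∈ xGroup N (Gamma0 N) n := by
  rw [X1Char.mem_xGroup]
  intro u
  rw [dChar_gamma0 u (charZ_pow _), X1Char.mem_charGroup]
  exact ⟨charZ_pow _, fun γ hγ => charZ_parabolic.mp ψ.2 γ (trace_sq_of_lower hγ)⟩

end Chars

/-! ### Classes attached to elements of the generalised eigenspace -/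

section Classes

variable {N n : ℕ} [NeZero N] [NeZero n] (hNT : NoTors N n) {I : Set ℕ} {a : ℕ → ℤ}

include hNT in
theorem exists_class {S : Set ℕ} (hS : ∀ ℓ : ℕ, ℓ.Prime → ℓ ∣ N → ℓ ∈ S) {k : Type} [Field k]
    {θ : PIdx S → k} (hθ : ∀ ℓ : PIdx S, θ ℓ = ((a (ℓ.1 : ℕ) : ℤ) : k)) {p r : ℕ} [CharP k p]
    (hn : n = p ^ r) (hI : ∀ ℓ : PIdx S, ((ℓ.1 : Nat.Primes) : ℕ) ∈ I) {χ : Gamma0 N →* ℂˣ}
    (hχ : χ ∈ GE N (Gamma0 N) n I a)
    (hpar : ∀ γ : Gamma0 N, ((γ : SL(2, ℤ)) : Matrix (Fin 2) (Fin 2) ℤ).trace ^ 2 = 4 → χ γ = 1) :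
    ∃ x : JZero N, n • x = 0 ∧ Rel iota N n x χ ∧ MNil N S θ x := by
  obtain ⟨ψ, rfl, h⟩ := exists_par hχ hpar
  exact ⟨jEquiv hNT ψ, (jEquiv hNT ψ).2, jEquiv_rel hNT ψ,
    mNil_of hNT hS hθ hn fun ℓ => h ℓ.1 (hI ℓ)⟩

include hNT in
theorem exists_xGroup {y : JZero N} (hy : n • y = 0) :
    ∃ χ : xGroup N (Gamma0 N) n, Rel iota N n y χ.1 := by
  obtain ⟨ψ, hψ⟩ := (jEquiv hNT).surjective ⟨y, hy⟩
  refine ⟨⟨charZ ψ.1, par_mem_xGroup ψ⟩, ?_⟩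
  have h := jEquiv_rel hNT ψ
  rw [hψ] at h
  exact h

theorem rel_unique {y : JZero N} {χ χ' : xGroup N (Gamma0 N) n} (h : Rel iota N n y χ.1)
    (h' : Rel iota N n y χ'.1) : χ = χ' :=
  Subtype.ext (rel_char_unique (NeZero.ne n) h h' (xGroup_le n χ'.2).1)

theorem Rel.eq_of {x y : JZero N} {χ : Gamma0 N →* ℂˣ} (hχ : χ ^ n = 1) (h : Rel iota N n x χ)
    (h' : Rel iota N n y χ) : x = y :=
  GalRep.Rel.unique (bridge iota N) (NeZero.ne n) hχ h h'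

/-- The operator `T_ℓ - a_ℓ` on `xGroup`. -/
def tXa (N n : ℕ) [NeZero N] [NeZero n] (I : Set ℕ) (a : ℕ → ℤ) (ℓ : {ℓ : ℕ // ℓ.Prime ∧ ℓ ∈ I}) :
    Additive (xGroup N (Gamma0 N) n) →+ Additive (xGroup N (Gamma0 N) n) :=
  haveI : Fact (ℓ : ℕ).Prime := ⟨ℓ.2.1⟩
  MonoidHom.toAdditive (tX iota N (Gamma0 N) n ℓ) - a ℓ • AddMonoidHom.id _

theorem tXa_apply (ℓ : ℕ) [hℓ : Fact ℓ.Prime] (hI : ℓ ∈ I) (χ : Additive (xGroup N (Gamma0 N) n)) :
    ((Additive.toMul (tXa N n I a ⟨ℓ, hℓ.out, hI⟩ χ) : xGroup N (Gamma0 N) n) :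
      Gamma0 N →* ℂˣ) = (fun χ : Gamma0 N →* ℂˣ => tChar N (Gamma0 N) ℓ χ / χ ^ a ℓ)
        (Additive.toMul χ : xGroup N (Gamma0 N) n).1 := rfl

theorem tXa_iterate (ℓ : ℕ) [hℓ : Fact ℓ.Prime] (hI : ℓ ∈ I) (j : ℕ)
    (χ : Additive (xGroup N (Gamma0 N) n)) :
    ((Additive.toMul ((tXa N n I a ⟨ℓ, hℓ.out, hI⟩)^[j] χ) : xGroup N (Gamma0 N) n) :
      Gamma0 N →* ℂˣ) = (fun χ : Gamma0 N →* ℂˣ => tChar N (Gamma0 N) ℓ χ / χ ^ a ℓ)^[j]
        (Additive.toMul χ : xGroup N (Gamma0 N) n).1 := by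
  induction j generalizing χ with
  | zero => rfl
  | succ j ih =>
    rw [Function.iterate_succ_apply, ih, tXa_apply ℓ hI, Function.iterate_succ_apply]

theorem mem_nil_tXa {χ : Additive (xGroup N (Gamma0 N) n)} :
    χ ∈ nil (tXa N n I a) ↔
      (Additive.toMul χ : xGroup N (Gamma0 N) n).1 ∈ GE N (Gamma0 N) n I a := by
  rw [mem_GE, mem_nil]
  constructor
  · intro h
    refine ⟨(xGroup_le n (Additive.toMul χ).2).1, fun ℓ hℓ hI => ?_⟩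
    obtain ⟨j, hj⟩ := h ⟨ℓ, hℓ.out, hI⟩
    refine ⟨j, ?_⟩
    rw [← tXa_iterate ℓ hI j χ, hj]
    rfl
  · rintro ⟨-, h⟩ ⟨ℓ, hℓ, hI⟩
    have : Fact ℓ.Prime := ⟨hℓ⟩
    obtain ⟨j, hj⟩ := h ℓ hI
    refine ⟨j, ?_⟩
    have h1 := tXa_iterate (N := N) (n := n) (a := a) ℓ hI j χ
    rw [hj] at h1
    exact Additive.toMul.injective (Subtype.ext h1)

theorem tXa_comm (i j : {ℓ : ℕ // ℓ.Prime ∧ ℓ ∈ I}) (χ : Additive (xGroup N (Gamma0 N) n)) :
    tXa N n I a i (tXa N n I a j χ) = tXa N n I a j (tXa N n I a i χ) := by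
  obtain ⟨i, hi, hiI⟩ := i
  obtain ⟨j, hj, hjI⟩ := j
  have : Fact i.Prime := ⟨hi⟩
  have : Fact j.Prime := ⟨hj⟩
  have h1 : ∀ (c : ℤ) (ℓ : ℕ) [Fact ℓ.Prime] (χ : Additive (xGroup N (Gamma0 N) n)),
      MonoidHom.toAdditive (tX iota N (Gamma0 N) n ℓ) (c • χ) =
        c • MonoidHom.toAdditive (tX iota N (Gamma0 N) n ℓ) χ := fun c ℓ _ χ => map_zsmul _ c χ
  have h2 : MonoidHom.toAdditive (tX iota N (Gamma0 N) n i)
      (MonoidHom.toAdditive (tX iota N (Gamma0 N) n j) χ) =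
      MonoidHom.toAdditive (tX iota N (Gamma0 N) n j)
      (MonoidHom.toAdditive (tX iota N (Gamma0 N) n i) χ) := by
    apply Additive.toMul.injective
    apply Subtype.ext
    exact tChar_comm i j (Additive.toMul χ : xGroup N (Gamma0 N) n).1
  simp only [tXa, AddMonoidHom.sub_apply, AddMonoidHom.smul_apply, AddMonoidHom.id_apply, map_sub,
    h1, h2]
  rw [smul_comm (a i) (a j)]
  abel

include hNT in
/-- (E) on the generalised eigenspace. -/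
theorem exists_galW_sub (hle : GE N (Gamma0 N) n I a ≤ xGroup N (Gamma0 N) n)
    {S : Set ℕ} (hS : ∀ ℓ : ℕ, ℓ.Prime → ℓ ∣ N → ℓ ∈ S) {k : Type} [Field k]
    {θ : PIdx S → k} (hθ : ∀ ℓ : PIdx S, θ ℓ = ((a (ℓ.1 : ℕ) : ℤ) : k)) {p r : ℕ} [CharP k p]
    (hn : n = p ^ r) (hI : ∀ ℓ : PIdx S, ((ℓ.1 : Nat.Primes) : ℕ) ∈ I)
    (hpar : ∀ χ ∈ GE N (Gamma0 N) n I a, ∀ γ : Gamma0 N,
      ((γ : SL(2, ℤ)) : Matrix (Fin 2) (Fin 2) ℤ).trace ^ 2 = 4 → χ γ = 1)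
    {σ : GQ} (hE : EJ N n S θ σ) (v : WE N (Gamma0 N) n I a) (hv : galW iota hle σ v = v) :
    ∃ w, galW iota hle σ w - w = v := by
  obtain ⟨x, hx, hxr, hnil⟩ := exists_class hNT hS hθ hn hI (ch_mem v) (hpar _ (ch_mem v))
  have h1 : σ • x = x := by
    have h2 := rel_galX (toX hle v) hxr σ
    have h3 : (galX iota N (Gamma0 N) n σ (toX hle v)).1 = ch v := congrArg ch hv
    rw [h3] at h2
    exact Rel.eq_of (ch_pow v) h2 hxr
  obtain ⟨y, hy, hyx⟩ := hE x hx hnil h1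
  obtain ⟨χ, hχ⟩ := exists_xGroup hNT hy
  have h4 : galX iota N (Gamma0 N) n σ χ = χ * toX hle v := by
    refine rel_unique (y := σ • y) (rel_galX χ hχ σ) ?_
    rw [sub_eq_iff_eq_add'.mp hyx]
    exact hχ.mul hxr
  obtain ⟨e, he1, he2, he3⟩ := exists_proj (f := tXa N n I a) tXa_comm
  let g : Additive (xGroup N (Gamma0 N) n) →+ Additive (xGroup N (Gamma0 N) n) :=
    MonoidHom.toAdditive (galX iota N (Gamma0 N) n σ : xGroup N (Gamma0 N) n →* _)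
  have hg : ∀ i x, g (tXa N n I a i x) = tXa N n I a i (g x) := by
    rintro ⟨ℓ, hℓ, hI⟩ x
    have : Fact ℓ.Prime := ⟨hℓ⟩
    have h5 : g (MonoidHom.toAdditive (tX iota N (Gamma0 N) n ℓ) x) =
        MonoidHom.toAdditive (tX iota N (Gamma0 N) n ℓ) (g x) :=
      congrArg Additive.ofMul (galX_tX (ι := iota) σ ℓ (Additive.toMul x))
    simp only [tXa, AddMonoidHom.sub_apply, AddMonoidHom.smul_apply, AddMonoidHom.id_apply,
      map_sub, h5, map_zsmul]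
  have h5 : g (e (Additive.ofMul χ)) = e (Additive.ofMul χ) + Additive.ofMul (toX hle v) := by
    have h6 : g (Additive.ofMul χ) = Additive.ofMul χ + Additive.ofMul (toX hle v) :=
      congrArg Additive.ofMul h4
    rw [he3 g hg, h6, map_add, he2 (Additive.ofMul (toX hle v)) (mem_nil_tXa.mpr (ch_mem v))]
  refine ⟨ofCh (Additive.toMul (e (Additive.ofMul χ)) : xGroup N (Gamma0 N) n).1
    (mem_nil_tXa.mp (he1 _)), ?_⟩
  rw [sub_eq_iff_eq_add']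
  apply ch_injective
  exact congrArg (fun z : Additive (xGroup N (Gamma0 N) n) =>
    (Additive.toMul z : xGroup N (Gamma0 N) n).1) h5

end Classes

/-! ### The conclusion -/

section Main

namespace KLS

variable {m q : ℕ} [NeZero m] [hq : Fact q.Prime] [NeZero q] {H : Subgroup (ZMod q)ˣ} {n : ℕ}
  [NeZero n] {I J : Set ℕ} {a : ℕ → ℤ} {ε : ℤ} (S : KLS iota m q H n I a)
  (hm : ¬ q ∣ m) (hJ : ∀ ℓ ∈ J, ℓ ∈ I ∧ ℓ ≠ q)
  (hnew : ∀ y ∈ genEig m (Gamma0 m) (Mu n) J a, y = 0)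
  (hqI : q ∈ I) (hqε : a q = ε) (hε : ε * ε = 1)

include S hm hJ hnew hqI hqε hε in
omit [NeZero m] [NeZero n] [NeZero q] in
theorem hyp : @Hyp m q n H I J a ε S.ℓ ⟨S.hℓ⟩ :=
  @Hyp.mk m q n H I J a ε S.ℓ ⟨S.hℓ⟩ hm hJ hnew S.h6 hqI hqε hε S.index S.hℓI S.haℓ S.hℓM

include hm hJ hnew hqI hqε hε in
/-- (inter) -/
theorem inter_holds (x : WE (m * q) (GD m q H) n I a) (hx : S.δW x = x) :
    x ∈ S.K1 ↔ x ∈ S.K2 := by
  have : Fact S.ℓ.Prime := ⟨S.hℓ⟩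
  exact (S.hyp hm hJ hnew hqI hqε hε).inter S.hu S.hA (ch_mem x) (congrArg ch hx)

include S in
theorem parabolic {Γ : Subgroup SL(2, ℤ)} [Between (m * q) Γ] {χ : Γ →* ℂˣ}
    (hχ : χ ∈ GE (m * q) Γ n I a) (γ : Γ)
    (hγ : ((γ : SL(2, ℤ)) : Matrix (Fin 2) (Fin 2) ℤ).trace ^ 2 = 4) : χ γ = 1 := by
  have : Fact S.ℓ.Prime := ⟨S.hℓ⟩
  have : NeZero (m * q) := ⟨Nat.mul_ne_zero (NeZero.ne m) (NeZero.ne q)⟩
  exact GE_parabolic S.h6 S.hℓI S.haℓ S.hℓM hχ γ hγ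

variable (hWJ : WRel hq.out hm)

include hm hJ hnew hqI hqε hε hWJ in
/-- Inertia fixes the toric part at level `Γ₀(m q)`. -/
theorem galW_eq_self {v : WE (m * q) (Gamma0 (m * q)) n I a}
    (hv : KK iota (m * q) (Gamma0 (m * q)) id S.A n (ch v)) : galW iota S.hle₀ S.σ v = v := by
  have : Fact S.ℓ.Prime := ⟨S.hℓ⟩
  have : NeZero (m * q) := ⟨Nat.mul_ne_zero (NeZero.ne m) (NeZero.ne q)⟩
  obtain ⟨ψ, hψ, -⟩ := exists_par (ch_mem v) (S.parabolic (ch_mem v))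
  have hx := jEquiv_rel (S.h6.mul_right q) ψ
  rw [hψ] at hx
  have h1 := (S.hyp hm hJ hnew hqI hqε hε).smul_eq_self S.hA
    (fun x χ h1 h2 => hWJ n x χ (NeZero.ne n) h1 h2) (ch_mem v) hx hv S.hσ
  have h2 := rel_galX (toX S.hle₀ v) hx S.σ
  rw [h1] at h2
  apply ch_injective
  have h3 := rel_unique h2 (χ' := toX S.hle₀ v) hx
  have h4 : (galX iota (m * q) (Gamma0 (m * q)) n S.σ (toX S.hle₀ v)).1 =
    (toX S.hle₀ v).1 := congrArg Subtype.val h3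
  exact h4

variable {T : Set ℕ} (hT : ∀ ℓ : ℕ, ℓ.Prime → ℓ ∣ m * q → ℓ ∈ T) {k : Type} [Field k]
    {θ : PIdx T → k} (hθ : ∀ ℓ : PIdx T, θ ℓ = ((a (ℓ.1 : ℕ) : ℤ) : k)) [CharP k S.p]
    (hI : ∀ ℓ : PIdx T, ((ℓ.1 : Nat.Primes) : ℕ) ∈ I) (hE : EJ (m * q) n T θ S.σ)

include hm hJ hnew hqI hqε hε hWJ hT hθ hI hE in
/-- **The bound on the toric part.** -/
theorem hcard : Nat.card (S.toric (S.inter_holds hm hJ hnew hqI hqε hε)).T₀ ^ 2 ≤
    Nat.card (S.toric (S.inter_holds hm hJ hnew hqI hqε hε)).W₀ := by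
  have : Fact S.ℓ.Prime := ⟨S.hℓ⟩
  have : NeZero (m * q) := ⟨Nat.mul_ne_zero (NeZero.ne m) (NeZero.ne q)⟩
  have := S.finite_WE
  refine ToricData.hcard_of _ (fun x hx hk => ?_) (fun x hx hσ => ?_)
  · obtain ⟨v, rfl⟩ := S.exists_resW x hx
    have h1 : KK iota (m * q) (Gamma0 (m * q)) id S.A n (ch v) :=
      (S.hyp hm hJ hnew hqI hqε hε).down_id S.hu S.hA (ch_mem v) hk
    have h2 := S.galW_eq_self hm hJ hnew hqI hqε hε hWJ h1
    exact (S.resW_galW S.σ v).symm.trans (congrArg S.resW h2)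
  · obtain ⟨v, rfl⟩ := S.exists_resW x hx
    have h1 : galW iota S.hle₀ S.σ v = v := S.resW_injective ((S.resW_galW S.σ v).trans hσ)
    obtain ⟨w, hw⟩ := exists_galW_sub (S.h6.mul_right q) S.hle₀ hT hθ S.hn hI
      (fun χ hχ => S.parabolic hχ) hE v h1
    refine ⟨S.resW w, S.δW_resW w, ?_⟩
    show galW iota S.hle S.σ (S.resW w) - S.resW w = S.resW v
    rw [← S.resW_galW, ← map_sub, hw]

include hm hJ hnew hqI hqε hε hWJ hT hθ hI hE in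
/-- (c) -/
theorem c_holds (x : WE (m * q) (GD m q H) n I a) (h1 : x ∈ S.K1) (h2 : x ∈ S.K2) :
    S.δW x = x :=
  S.c_of_card (S.inter_holds hm hJ hnew hqI hqε hε)
    (S.hcard hm hJ hnew hqI hqε hε hWJ hT hθ hI hE) x h1 h2

include S hm hJ hnew hqI hqε hε in
omit [NeZero m] [NeZero n] in
/-- `U_q = ε` -/
theorem hU_holds (χ : Gamma0 (m * q) →* ℂˣ) (hχ : χ ∈ GE (m * q) (Gamma0 (m * q)) n I a) :
    tChar (m * q) (Gamma0 (m * q)) q χ = χ ^ ε := by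
  obtain ⟨φ, hφ, rfl⟩ := exists_of_mem_GE hχ
  rw [← chi_TT, TT_q_eq hm hJ hnew S.h6 hqI hqε hε hφ, chi_zsmul]

include hm hJ hnew hqI hqε hε hWJ hT hθ hI hE in
/-- **Road A**: the operator `y` at level `Γ₀(m q)`. -/
theorem exists_y_road (hq1 : (q : ZMod n) = 1) :
    ∃ y : WE (m * q) (Gamma0 (m * q)) n I a →+ WE (m * q) (Gamma0 (m * q)) n I a,
      (∀ (g : GQ) (x : WE (m * q) (Gamma0 (m * q)) n I a),
        y (galW iota S.hle₀ g x) = galW iota S.hle₀ g (y x)) ∧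
      (∀ (ℓ : ℕ) [Fact ℓ.Prime] (x : WE (m * q) (Gamma0 (m * q)) n I a),
        y (tW (m * q) (Gamma0 (m * q)) n I a ℓ x) =
          tW (m * q) (Gamma0 (m * q)) n I a ℓ (y x)) ∧
      ∀ x : WE (m * q) (Gamma0 (m * q)) n I a,
        galW iota S.hle₀ S.φ x - ε • x = -((2 : ℤ) • y (galW iota S.hle₀ S.σ x - x)) :=
  S.exists_y hε hq1 (S.hU_holds hm hJ hnew hqI hqε hε)
    (S.c_holds hm hJ hnew hqI hqε hε hWJ hT hθ hI hE)

end KLS

end Main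

end Fermat.Agent.Ribet
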