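import Fermat.Agent.Ribet.Descend
import Fermat.Agent.Ribet.AL

/-!
# The kernel of specialisation at level `Γ₀(M)`
-/

set_option autoImplicit false

open UpperHalfPlane hiding I
open ModularForm Matrix.SpecialLinearGroup Filter Asymptotics CongruenceSubgroup
open scoped MatrixGroups Manifold ModularForm Polynomial Topology

noncomputable section

namespace Fermat.Agent.Ribet

open Fermat.Agent.JLevelOne Fermat.Agent.X0Emb Fermat.Agent.ModFun ModularCurve Fermat.Agent.FG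
open Fermat.Agent.EisChar Fermat.Agent.S28aux Fermat.Agent.IntStruct Fermat.Agent.HeckePar
open Fermat.Agent.X1 Fermat.Agent.X1Char Fermat.Agent.GaussVal Fermat.Agent.TEll

section Id

variable {K : Type} [Field K] {ι : K →+* ℂ} {M : ℕ} {n : ℕ} {A : ValuationSubring K}
  {χ : Gamma0 M →* ℂˣ}

/-- The simple form of the condition at level `Γ₀(M)` and at the cusp `∞`. -/
theorem kk_id_iff (hχ : χ ^ n = 1) : KK ι M (Gamma0 M) id A n χ ↔
    ∃ (F : ℍ → ℂ) (y : LaurentSeries K) (G : ℍ → ℂ) (z : LaurentSeries K),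
      IsCF ι (Gamma0 M) χ F y ∧ y ≠ 0 ∧ IsMF ι (Gamma0 M) 1 G z ∧ z ≠ 0 ∧
      PC A (y ^ n) (z ^ n) := by
  constructor
  · rintro ⟨F, y, G, z, hF, hy, hG, hz, h⟩
    refine ⟨F, y, G, z, hF, hy, hG, hz, ?_⟩
    obtain ⟨a, b, ha, hb, hab⟩ := h 1
    have e1 : a = y ^ n := by
      refine IsCF.unique ha ?_
      have h1 : (fun τ => F (diaMat M 1 • id τ) ^ n) = F ^ n := by
        funext τ
        have h2 := hF.char ⟨diaMat M 1, diaMat_mem 1⟩ τ
        have h3 := DFunLike.congr_fun hχ ⟨diaMat M 1, diaMat_mem 1⟩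
        rw [MonoidHom.pow_apply, MonoidHom.one_apply] at h3
        rw [id, h2, mul_pow, ← Units.val_pow_eq_pow_val, h3, Units.val_one, one_mul]
        rfl
      rw [h1, map_pow]
      exact hF.lexp.pow n
    have e2 : b = z ^ n := by
      refine IsCF.unique hb ?_
      have h1 : (fun τ => G (diaMat M 1 • id τ) ^ n) = G ^ n := by
        funext τ
        rw [id, hG.inv _ (diaMat_mem 1)]
        rfl
      rw [h1, map_pow]
      have := hG.lexp.pow n
      simpa using this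
    rwa [e1, e2] at hab
  · rintro ⟨F, y, G, z, hF, hy, hG, hz, h⟩
    refine kk_of_gamma0 hχ hF hy hG hz (a := y ^ n) (b := z ^ n) ?_ ?_ h
    · rw [map_pow]
      exact hF.lexp.pow n
    · rw [map_pow]
      have h1 := hG.lexp
      rw [Nat.cast_one] at h1
      exact h1.pow n

end Id

section Res

variable {K : Type} [Field K] {ι : K →+* ℂ} {M : ℕ} {Γ : Subgroup SL(2, ℤ)}
  [hΓ : Between M Γ] {n : ℕ} {A : ValuationSubring K} {g : ℍ → ℍ} {χ : Gamma0 M →* ℂˣ}

/-- Restriction to `Γ`. -/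
theorem KK.res (h : KK ι M (Gamma0 M) g A n χ) : KK ι M Γ g A n (resC M Γ χ) := by
  obtain ⟨F, y, G, z, hF, hy, hG, hz, h⟩ := h
  exact ⟨F, y, G, z, isCF_res hF, hy, hG.mono hΓ.le, hz, h⟩

end Res

section Hecke

variable {K : Type} [Field K] [Countable K] [IsAlgClosed K] {ι : K →+* ℂ} {M : ℕ} [NeZero M]
  {n : ℕ} [NeZero n] {A : ValuationSubring K} {χ : Gamma0 M →* ℂˣ}

omit [Countable K] [NeZero M] in
/-- Stability under `T_ℓ`. -/
theorem KK.hecke (hχ : χ ^ n = 1) (ℓ : ℕ) [hℓ : Fact ℓ.Prime] (hM : ¬ ℓ ∣ M)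
    (h : KK ι M (Gamma0 M) id A n χ) :
    KK ι M (Gamma0 M) id A n (tChar M (Gamma0 M) ℓ χ) := by
  have : NeZero ℓ := ⟨hℓ.out.ne_zero⟩
  have hχ' : (tChar M (Gamma0 M) ℓ χ) ^ n = 1 := by
    have h2 : tChar M (Gamma0 M) ℓ (χ ^ n) = 1 := by rw [hχ, map_one]
    exact (map_pow (tChar M (Gamma0 M) ℓ) χ n).symm.trans h2
  rw [kk_id_iff hχ] at h
  rw [kk_id_iff hχ']
  obtain ⟨F, y, G, z, hF, hy, hG, hz, h⟩ := h
  -- the diamond is a scalar
  have hdia : ∀ {ψ : Gamma0 M →* ℂˣ} {F : ℍ → ℂ} {y : LaurentSeries K}, ψ ^ n = 1 →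
      IsCF ι (Gamma0 M) ψ F y → ∃ c : K, c ^ n = 1 ∧
        LExp 1 (fun τ => F (diaMat M (pUnit M ℓ) • τ))
          (coeffMap ι (algebraMap K (LaurentSeries K) c * y)) := by
    intro ψ F y hψ hF
    set g : Gamma0 M := ⟨diaMat M (pUnit M ℓ), diaMat_mem _⟩ with hg
    have h3 := DFunLike.congr_fun hψ g
    rw [MonoidHom.pow_apply, MonoidHom.one_apply] at h3
    have hn0 : n ≠ 0 := NeZero.ne n
    have halg : IsAlgebraic ℚ ((ψ g : ℂˣ) : ℂ) := by
      refine ⟨Polynomial.X ^ n - 1, ?_, ?_⟩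
      · have h1 := (Polynomial.monic_X_pow_sub_C (1 : ℚ) hn0).ne_zero
        rwa [map_one] at h1
      · rw [map_sub, map_pow, Polynomial.aeval_X, map_one, ← Units.val_pow_eq_pow_val, h3,
          Units.val_one, sub_self]
    obtain ⟨c, hc⟩ := mem_range_of_isAlgebraic ι halg
    refine ⟨c, ι.injective ?_, ?_⟩
    · rw [map_pow, map_one, hc, ← Units.val_pow_eq_pow_val, h3, Units.val_one]
    · have h4 : (fun τ => F (diaMat M (pUnit M ℓ) • τ)) = (fun _ => ι c) * F := by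
        funext τ
        rw [Pi.mul_apply, hc]
        exact hF.char g τ
      rw [h4, map_mul]
      exact (IsCF.lexp_const c).mul hF.lexp
  obtain ⟨c, hc, hFd⟩ := hdia hχ hF
  obtain ⟨d, hd, hGd⟩ := hdia (F := G) (y := z) (ψ := 1) (by ext γ; simp) (IsCF.ofIsMF hG)
  have hF' := hF.hecke hM hFd
  have hG' := ((IsCF.ofIsMF hG).hecke hM hGd).char_congr (map_one (tChar M (Gamma0 M) ℓ))
  have hc0 : c ≠ 0 := by
    rintro rfl
    rw [zero_pow (NeZero.ne n)] at hc
    exact zero_ne_one hc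
  have hd0 : d ≠ 0 := by
    rintro rfl
    rw [zero_pow (NeZero.ne n)] at hd
    exact zero_ne_one hd
  have key : ∀ (c : K) (y : LaurentSeries K), c ^ n = 1 →
      (qExpand K ℓ (algebraMap K (LaurentSeries K) c * y) * secNorm K ℓ y) ^ n =
        TSer K ℓ (y ^ n) := by
    intro c y hc
    rw [TSer_apply, map_mul, qExpand_algebraMap, mul_pow, mul_pow, ← map_pow, hc, map_one,
      one_mul, map_pow, map_pow]
  refine ⟨_, _, _, _, hF', mul_ne_zero (qExpand_ne_zero' (mul_ne_zero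
    (algebraMap_ne_zero' hc0) hy)) (secNorm_ne_zero' hy), hG'.toIsMF,
    mul_ne_zero (qExpand_ne_zero' (mul_ne_zero (algebraMap_ne_zero' hd0) hz))
      (secNorm_ne_zero' hz), ?_⟩
  rw [key c y hc, key d z hd]
  exact h.TSer ℓ

end Hecke

/-! ### The Atkin–Lehner involution -/

section Act

variable {K : Type} [Field K] [Countable K] [IsAlgClosed K] {ι : K →+* ℂ} {m q : ℕ} [NeZero m]
  [hq : Fact q.Prime] [NeZero q] {D : WD m q} {n : ℕ} [NeZero n]

section

variable {Γ : Subgroup SL(2, ℤ)} [hΓ : Between (m * q) Γ] [GoodGroup Γ] [hW : WNorm D Γ]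
  {R : (K ≃+* K) → (ZMod (m * q))ˣ → Prop}

omit [NeZero m] hq hΓ [Countable K] in
theorem isCF_act (hg : GoodMap ι (m * q) Γ D.act R) {χ : Γ →* ℂˣ} (hχ : χ ^ n = 1)
    (hT : D.wChar Γ χ ⟨ModularGroup.T, GoodGroup.T_mem⟩ = 1) {F : ℍ → ℂ} {y : LaurentSeries K}
    (hF : IsCF ι Γ χ F y) :
    ∃ y' : LaurentSeries K, IsCF ι Γ (D.wChar Γ χ) (fun τ => F (D.act τ)) y' := by
  have hm := D.mdiff_act hF.mdiff
  have hgr := D.growth_act hF.growth
  obtain ⟨E, hE⟩ := exists_lexp (h := 1) hm (fun τ => by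
    have h1 := D.w_char hF.char ⟨_, GoodGroup.T_mem (Γ := Γ)⟩ τ
    rw [hT, Units.val_one, one_mul] at h1
    simp only [UpperHalfPlane.modular_T_smul] at h1
    simpa using h1) (by
    have h1 : GrowthInf (fun τ => F (D.act ((1 : SL(2, ℤ)) • τ))) := hgr 1
    simpa only [one_smul] using h1)
  rw [Nat.cast_one] at hE
  have hFn : IsMF ι Γ 1 (F ^ n) (y ^ n) := ((hF.pow n).char_congr hχ).toIsMF
  obtain ⟨w, hw⟩ := hg.exp hFn
  have h1 : LExp 1 (fun τ => (F ^ n) (D.act τ)) (E ^ n) := hE.pow n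
  have h2 := h1.unique one_pos (by simpa using hw.lexp)
  have : CharZero K := (RingHom.charZero_iff ι.injective).mpr inferInstance
  obtain ⟨z, hz⟩ := exists_coeffMap_of_pow_eq ι (NeZero.ne n) h2
  exact ⟨z, hm, D.w_char hF.char, hgr, by rw [← hz]; exact hE⟩

end

variable {A : ValuationSubring K} {χ : Gamma0 (m * q) →* ℂˣ}
  {R : (K ≃+* K) → (ZMod (m * q))ˣ → Prop}

omit hq in
theorem kk_act_iff (hg : GoodMap ι (m * q) (Gamma0 (m * q)) D.act R)
    (hχ : χ ∈ charGroup (Gamma0 (m * q)) n)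
    (hw : D.wChar (Gamma0 (m * q)) χ ∈ charGroup (Gamma0 (m * q)) n) :
    KK ι (m * q) (Gamma0 (m * q)) D.act A n χ ↔
      KK ι (m * q) (Gamma0 (m * q)) id A n (D.wChar (Gamma0 (m * q)) χ) := by
  have hT1 : ∀ {ψ : Gamma0 (m * q) →* ℂˣ}, ψ ∈ charGroup (Gamma0 (m * q)) n →
      ψ ⟨ModularGroup.T, GoodGroup.T_mem⟩ = 1 := fun hψ => hψ.2 _ (by simp [ModularGroup.T])
  have hww : D.wChar (Gamma0 (m * q)) (D.wChar (Gamma0 (m * q)) χ) = χ :=
    D.wChar_wChar χ D.sqMat_mem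
  rw [kk_id_iff hw.1]
  constructor
  · rintro ⟨F, y, G, z, hF, hy, hG, hz, h⟩
    obtain ⟨a, b, ha, hb, hab⟩ := h 1
    obtain ⟨y', hF'⟩ := isCF_act hg hχ.1 (hT1 hw) hF
    obtain ⟨z', hG'⟩ := hg.exp hG
    have e1 : a = y' ^ n := by
      refine IsCF.unique ha ?_
      have h1 : (fun τ => F (diaMat (m * q) 1 • D.act τ) ^ n) =
          (fun τ => F (D.act τ)) ^ n := by
        funext τ
        have h2 := hF.char ⟨diaMat (m * q) 1, diaMat_mem 1⟩ (D.act τ)
        have h3 := DFunLike.congr_fun hχ.1 ⟨diaMat (m * q) 1, diaMat_mem 1⟩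
        rw [MonoidHom.pow_apply, MonoidHom.one_apply] at h3
        rw [h2, mul_pow, ← Units.val_pow_eq_pow_val, h3, Units.val_one, one_mul]
        rfl
      rw [h1, map_pow]
      exact hF'.lexp.pow n
    have e2 : b = z' ^ n := by
      refine IsCF.unique hb ?_
      have h1 : (fun τ => G (diaMat (m * q) 1 • D.act τ) ^ n) =
          (fun τ => G (D.act τ)) ^ n := by
        funext τ
        rw [hG.inv _ (diaMat_mem 1)]
        rfl
      rw [h1, map_pow]
      have h2 := hG'.lexp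
      rw [Nat.cast_one] at h2
      exact h2.pow n
    rw [e1, e2] at hab
    refine ⟨_, y', _, z', hF', ?_, hG', ?_, hab⟩
    · rintro rfl
      exact hab.ne_zero_left (zero_pow (NeZero.ne n))
    · rintro rfl
      exact hab.ne_zero_right (zero_pow (NeZero.ne n))
  · rintro ⟨F, y, G, z, hF, hy, hG, hz, h⟩
    obtain ⟨y', hF'⟩ := isCF_act hg hw.1 (by rw [hww]; exact hT1 hχ) hF
    obtain ⟨z', hG'⟩ := hg.exp hG
    have hyn : LExp 1 (F ^ n) (coeffMap ι (y ^ n)) := by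
      rw [map_pow]; exact hF.lexp.pow n
    have hzn : LExp 1 (G ^ n) (coeffMap ι (z ^ n)) := by
      have h1 := hG.lexp
      rw [Nat.cast_one] at h1
      rw [map_pow]; exact h1.pow n
    have eF : (fun τ => (fun τ => F (D.act τ)) (D.act τ) ^ n) = F ^ n := by
      funext τ
      show F (D.act (D.act τ)) ^ n = F τ ^ n
      have h2 := hF.char ⟨D.sqMat, D.sqMat_mem⟩ τ
      have h3 := DFunLike.congr_fun hw.1 ⟨D.sqMat, D.sqMat_mem⟩
      rw [MonoidHom.pow_apply, MonoidHom.one_apply] at h3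
      rw [D.act_act, h2, mul_pow, ← Units.val_pow_eq_pow_val, h3, Units.val_one, one_mul]
    have eG : (fun τ => (fun τ => G (D.act τ)) (D.act τ) ^ n) = G ^ n := by
      funext τ
      show G (D.act (D.act τ)) ^ n = G τ ^ n
      rw [D.act_act, hG.inv _ D.sqMat_mem]
    refine kk_of_gamma0 hχ.1 (hF'.char_congr hww) ?_ hG' ?_ (a := y ^ n) (b := z ^ n)
      (by rw [eF]; exact hyn) (by rw [eG]; exact hzn) h
    · rintro rfl
      have h1 := (IsCF.eq_zero_iff hF'.lexp).mpr rfl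
      have h2 : F ^ n = 0 := by
        rw [← eF]
        funext τ
        rw [h1]
        exact zero_pow (NeZero.ne n)
      exact h.ne_zero_left ((IsCF.eq_zero_iff hyn).mp h2)
    · rintro rfl
      have h1 := hG'.eq_zero_iff.mpr rfl
      have h2 : G ^ n = 0 := by
        rw [← eG]
        funext τ
        rw [h1]
        exact zero_pow (NeZero.ne n)
      exact h.ne_zero_right ((IsCF.eq_zero_iff hzn).mp h2)

end Act

end Fermat.Agent.Ribet
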