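import Fermat.Agent.Ribet.R3Char
import Fermat.Agent.Ribet.NewQ
import Fermat.Agent.Ribet.LevelN
import Fermat.Agent.Ribet.GDCyc
import Fermat.Agent.Ribet.ALInst

/-!
# The two kernels of specialisation have the same diamond invariants
-/

set_option autoImplicit false

open UpperHalfPlane hiding I
open ModularForm Matrix.SpecialLinearGroup Filter Asymptotics CongruenceSubgroup
open scoped MatrixGroups Manifold ModularForm Polynomial Topology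

noncomputable section

namespace Fermat.Agent.Ribet

open Fermat.Agent.JLevelOne Fermat.Agent.X0Emb Fermat.Agent.ModFun ModularCurve Fermat.Agent.FG
open Fermat.Agent.EisChar Fermat.Agent.S28aux Fermat.Agent.IntStruct Fermat.Agent.HeckePar
open Fermat.Agent.X1 Fermat.Agent.X1Char Fermat.Agent.GaussVal

/-! ### Periodicity of `T_ℓ - 1 - ℓ` -/

section Per

variable {M : ℕ} {Γ : Subgroup SL(2, ℤ)} [hΓ : Between M Γ] {I : Set ℕ} {a : ℕ → ℤ}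

/-- `T_ℓ - 1 - ℓ` -/
def fE (M : ℕ) (Γ : Subgroup SL(2, ℤ)) [hΓ : Between M Γ] (A : Type*) [AddCommGroup A] (ℓ : ℕ)
    [Fact ℓ.Prime] : (Additive Γ →+ A) →+ (Additive Γ →+ A) :=
  TT M Γ A ℓ - (ℓ + 1) • AddMonoidHom.id _

theorem fE_apply {A : Type*} [AddCommGroup A] (ℓ : ℕ) [Fact ℓ.Prime] (φ : Additive Γ →+ A) :
    fE M Γ A ℓ φ = TT M Γ A ℓ φ - (ℓ + 1) • φ := rfl

theorem fE_mem {A : Type*} [AddCommGroup A] (ℓ : ℕ) [Fact ℓ.Prime] {φ : Additive Γ →+ A}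
    (h : φ ∈ genEig M Γ A I a) : fE M Γ A ℓ φ ∈ genEig M Γ A I a :=
  sub_mem (TT_mem_genEig ℓ h) (AddSubgroup.nsmul_mem _ h _)

variable {n : ℕ}

theorem chi_nsmul (k : ℕ) (φ : Additive Γ →+ Mu n) : chi (k • φ) = chi φ ^ k := by
  induction k with
  | zero => rw [zero_nsmul, chi_zero]; ext γ; simp
  | succ k ih =>
    rw [succ_nsmul, chi_add, ih]
    ext γ
    simp [pow_succ]

theorem chi_fE (ℓ : ℕ) [Fact ℓ.Prime] (φ : Additive Γ →+ Mu n) :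
    chi (fE M Γ (Mu n) ℓ φ) = tChar M Γ ℓ (chi φ) * (chi φ ^ (ℓ + 1))⁻¹ := by
  rw [fE_apply, sub_eq_add_neg, chi_add, chi_neg, chi_nsmul, chi_TT]

theorem finite_homMu [NeZero M] [NeZero n] : Finite (Additive Γ →+ Mu n) := by
  have := finiteIndex_of_between M Γ
  exact finite_hom Γ (Mu n)

instance finite_GE [NeZero M] [NeZero n] : Finite (GE M Γ n I a) := by
  have := finite_homMu (M := M) (Γ := Γ) (n := n)
  choose f hf using fun χ : GE M Γ n I a => exists_of_mem_GE χ.2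
  refine Finite.of_injective f fun χ ψ h => Subtype.ext ?_
  rw [← (hf χ).2, ← (hf ψ).2, h]

variable {ℓ : ℕ} [hℓ : Fact ℓ.Prime] (hI : ℓ ∈ I)
  (ha : IsCoprime (a ℓ - 1 - (ℓ : ℤ)) (n : ℤ))

include hI ha in
theorem fE_inj {φ : Additive Γ →+ Mu n} (hφ : φ ∈ genEig M Γ (Mu n) I a)
    (h1 : fE M Γ (Mu n) ℓ φ = 0) : φ = 0 := by
  refine eq_zero_of_nil (c := a ℓ - 1 - (ℓ : ℤ))
    (fun φ hφ => hom_zsmul_inj (inj_of_coprime (mu_smul n) ha) φ hφ)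
    (⟨ℓ, hℓ.out, hI⟩ : {ℓ : ℕ // ℓ.Prime ∧ ℓ ∈ I}) hφ ?_
  rw [TA_apply, ← h1, fE_apply]
  have e1 : (ℓ + 1) • φ = (ℓ : ℤ) • φ + φ := by
    rw [succ_nsmul, natCast_zsmul]
  have e2 : (a ℓ - 1 - (ℓ : ℤ)) • φ = a ℓ • φ - φ - (ℓ : ℤ) • φ :=
    (sub_smul _ _ _).trans (congrArg₂ (· - ·) ((sub_smul _ _ _).trans (by rw [one_smul])) rfl)
  rw [e1, e2]
  abel

include hI ha in
theorem exists_iterate_fE [NeZero M] [NeZero n] {φ : Additive Γ →+ Mu n}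
    (hφ : φ ∈ genEig M Γ (Mu n) I a) : ∃ j : ℕ, (fE M Γ (Mu n) ℓ)^[j + 1] φ = φ := by
  have := finite_homMu (M := M) (Γ := Γ) (n := n)
  let f : genEig M Γ (Mu n) I a → genEig M Γ (Mu n) I a := fun φ =>
    ⟨fE M Γ (Mu n) ℓ φ.1, fE_mem ℓ φ.2⟩
  have hf : Function.Injective f := by
    intro φ ψ h
    have h1 : fE M Γ (Mu n) ℓ φ.1 = fE M Γ (Mu n) ℓ ψ.1 := congrArg Subtype.val h
    have h2 : fE M Γ (Mu n) ℓ (φ.1 - ψ.1) = 0 := by rw [map_sub, h1, sub_self]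
    exact Subtype.ext (sub_eq_zero.mp (fE_inj hI ha (sub_mem φ.2 ψ.2) h2))
  obtain ⟨j, hj, h1⟩ := hf.mem_periodicPts (⟨φ, hφ⟩ : genEig M Γ (Mu n) I a)
  obtain ⟨j, rfl⟩ := Nat.exists_eq_succ_of_ne_zero hj.ne'
  refine ⟨j, ?_⟩
  have h2 : ∀ (k : ℕ) (φ : genEig M Γ (Mu n) I a), ((f^[k] φ : genEig M Γ (Mu n) I a) :
      Additive Γ →+ Mu n) = (fE M Γ (Mu n) ℓ)^[k] φ.1 := by
    intro k
    induction k with
    | zero => intro χ; rfl
    | succ k ih =>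
      intro χ
      rw [Function.iterate_succ_apply, Function.iterate_succ_apply, ih]
  have h3 : f^[j + 1] ⟨φ, hφ⟩ = ⟨φ, hφ⟩ := h1
  rw [← h2 (j + 1) ⟨φ, hφ⟩, h3]

end Per

/-! ### The characters of `Γ₀(M) / Γ` -/

section Kap

theorem zsmul_succ_eq {B : Type*} [AddCommGroup B] (ℓ : ℕ) (x : B) :
    ((ℓ : ℤ) + 1) • x = (ℓ + 1) • x := by
  rw [← natCast_zsmul]
  push_cast
  rfl

variable {M : ℕ} {D : Type*} [CommGroup D] {ψ : (ZMod M)ˣ →* D} {n : ℕ}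

theorem exists_kap (hn : Nat.card D = n) {ℓ : ℕ} [hℓ : Fact ℓ.Prime] (hM : ¬ ℓ ∣ M)
    (f : D →* ℂˣ) : ∃ κ : Additive (Gamma0 M) →+ Mu n, chi κ = f.comp (th ψ) ∧
      fE M (Gamma0 M) (Mu n) ℓ κ = 0 := by
  have h1 : ∀ d, f d ∈ rootsOfUnity n ℂ := by
    intro d
    rw [mem_rootsOfUnity, ← map_pow, ← hn, pow_card_eq_one', map_one]
  let F : Additive D →+ Mu n := MonoidHom.toAdditive (f.codRestrict (rootsOfUnity n ℂ) h1)
  refine ⟨F.comp (MonoidHom.toAdditive (th ψ)), rfl, ?_⟩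
  rw [fE_apply, TT_comp_th ℓ hM, sub_eq_zero]
  exact zsmul_succ_eq ℓ _

end Kap

/-! ### The kernel at level `Γ₀(N)` -/

section KKN

variable {K : Type} [Field K] [Countable K] [IsAlgClosed K] {ι : K →+* ℂ} {M : ℕ} [NeZero M]
  {n : ℕ} [NeZero n] {A : ValuationSubring K} {I : Set ℕ} {a : ℕ → ℤ}

omit [Countable K] [NeZero M] in
theorem kk_fE {ℓ : ℕ} [Fact ℓ.Prime] (hM : ¬ ℓ ∣ M) {φ : Additive (Gamma0 M) →+ Mu n}
    (h : KK ι M (Gamma0 M) id A n (chi φ)) :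
    KK ι M (Gamma0 M) id A n (chi (fE M (Gamma0 M) (Mu n) ℓ φ)) := by
  rw [chi_fE]
  refine (KK.hecke (chi_pow φ) ℓ hM h).mul ((h.pow (ℓ + 1)).inv (NeZero.ne n) ?_)
  rw [← chi_nsmul]
  exact chi_pow _

omit [Countable K] in
/-- A twist by a character of `Γ₀(M) / Γ` can be removed. -/
theorem kk_of_mul_kap {D : Type*} [CommGroup D] {ψ : (ZMod M)ˣ →* D} (hn : Nat.card D = n)
    {ℓ : ℕ} [hℓ : Fact ℓ.Prime] (hM : ¬ ℓ ∣ M) (hI : ℓ ∈ I)
    (ha : IsCoprime (a ℓ - 1 - (ℓ : ℤ)) (n : ℤ)) {χ : Gamma0 M →* ℂˣ}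
    (hχ : χ ∈ GE M (Gamma0 M) n I a) (f : D →* ℂˣ)
    (h : KK ι M (Gamma0 M) id A n (χ * f.comp (th ψ))) : KK ι M (Gamma0 M) id A n χ := by
  obtain ⟨φ, hφ, rfl⟩ := exists_of_mem_GE hχ
  obtain ⟨κ, hκ, hκ0⟩ := exists_kap (ψ := ψ) hn hM f
  rw [← hκ, ← chi_add] at h
  obtain ⟨j, hj⟩ := exists_iterate_fE hI ha hφ
  have h1 : ∀ k : ℕ, KK ι M (Gamma0 M) id A n (chi ((fE M (Gamma0 M) (Mu n) ℓ)^[k] (φ + κ))) := by
    intro k
    induction k with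
    | zero => exact h
    | succ k ih =>
      rw [Function.iterate_succ_apply']
      exact kk_fE hM ih
  have h2 := h1 (j + 1)
  rwa [Function.iterate_succ_apply, map_add, hκ0, add_zero, ← Function.iterate_succ_apply,
    hj] at h2

end KKN

/-! ### `U_q = ε`, `w_q = - ε` at level `Γ₀(m q)` -/

section Eps

variable {m q : ℕ} [hq : Fact q.Prime] [NeZero q] {n : ℕ} {I J : Set ℕ}
  {a : ℕ → ℤ} (hm : ¬ q ∣ m) (hJ : ∀ ℓ ∈ J, ℓ ∈ I ∧ ℓ ≠ q)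
  (hnew : ∀ y ∈ genEig m (Gamma0 m) (Mu n) J a, y = 0) (h6 : NoTors m n)
  {ε : ℤ} (hqI : q ∈ I) (hqε : a q = ε) (hε : ε * ε = 1)

omit [NeZero q] in
theorem wHomA_wHomA {A : Type*} [AddCommGroup A] (x : Additive (Gamma0 (m * q)) →+ A) :
    wHomA hq.out hm (wHomA hq.out hm x) = x := by
  refine AddMonoidHom.ext fun g => ?_
  obtain ⟨g, rfl⟩ := Additive.ofMul.surjective g
  rw [wHomA_apply, wHomA_apply, TwHecke.wHom_wHom, ofMul_mul, ofMul_mul, map_add, map_add,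
    ofMul_inv, map_neg]
  abel

theorem eps_cases {ε : ℤ} (hε : ε * ε = 1) : ε = 1 ∨ ε = -1 := by
  have := Int.isUnit_iff.mp (IsUnit.of_mul_eq_one _ hε)
  exact this

include hm hJ hnew h6 hqI hqε hε in
/-- `U_q = ε`. -/
theorem TT_q_eq {φ : Additive (Gamma0 (m * q)) →+ Mu n}
    (hφ : φ ∈ genEig (m * q) (Gamma0 (m * q)) (Mu n) I a) :
    TT (m * q) (Gamma0 (m * q)) (Mu n) q φ = ε • φ := by
  have h1 : ∀ φ ∈ genEig (m * q) (Gamma0 (m * q)) (Mu n) I a,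
      TT (m * q) (Gamma0 (m * q)) (Mu n) q φ = - wHomA hq.out hm φ := fun φ hφ =>
    TT_q_eq_neg hq.out hm hJ hnew hφ
  have h2 : TT (m * q) (Gamma0 (m * q)) (Mu n) q (TT (m * q) (Gamma0 (m * q)) (Mu n) q φ) = φ := by
    rw [h1 _ (TT_mem_genEig q hφ), h1 _ hφ, map_neg, neg_neg, wHomA_wHomA]
  have hc : ∀ x : Additive (Gamma0 (m * q)) →+ Mu n, (2 * ε) • x = 0 → x = 0 := by
    intro x hx
    refine hom_zsmul_inj (fun z hz => ?_) x hx
    apply two_of_coprime (mu_smul n) h6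
    rcases eps_cases hε with h | h
    · rw [h, mul_one] at hz
      rw [← hz]
      exact (natCast_zsmul z 2).symm
    · rw [h] at hz
      have : (2 : ℕ) • z = -((2 * (-1) : ℤ) • z) := by
        rw [← neg_zsmul]
        exact (natCast_zsmul z 2).symm
      rw [this, hz, neg_zero]
  have h3 := eq_zero_of_nil (f := TA (m * q) (Gamma0 (m * q)) (Mu n) I a) (c := 2 * ε) hc
    (⟨q, hq.out, hqI⟩ : {ℓ : ℕ // ℓ.Prime ∧ ℓ ∈ I})
    (x := TT (m * q) (Gamma0 (m * q)) (Mu n) q φ - ε • φ)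
    (sub_mem (TT_mem_genEig q hφ) (AddSubgroup.zsmul_mem _ hφ _)) (by
      rw [TA_apply]
      change TT (m * q) (Gamma0 (m * q)) (Mu n) q _ - a q • _ + _ = _
      rw [hqε, map_sub, h2, map_zsmul]
      have e1 : ε • ε • φ = φ := by rw [← mul_zsmul, hε, one_zsmul]
      have e2 : ∀ x : Additive (Gamma0 (m * q)) →+ Mu n, (2 * ε) • x = ε • x + ε • x := by
        intro x
        rw [two_mul, add_zsmul]
      rw [e2, zsmul_sub, e1]
      abel)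
  exact sub_eq_zero.mp h3

include hm hJ hnew h6 hqI hqε hε in
/-- `w_q = - ε`. -/
theorem wHomA_eq {φ : Additive (Gamma0 (m * q)) →+ Mu n}
    (hφ : φ ∈ genEig (m * q) (Gamma0 (m * q)) (Mu n) I a) :
    wHomA hq.out hm φ = (-ε) • φ := by
  have h1 := TT_q_eq_neg hq.out hm hJ hnew hφ
  rw [TT_q_eq hm hJ hnew h6 hqI hqε hε hφ] at h1
  rw [neg_zsmul, h1, neg_neg]

theorem wChar_chi (D : WD m q) (φ : Additive (Gamma0 (m * q)) →+ Mu n) :
    D.wChar (Gamma0 (m * q)) (chi φ) = chi (wHomA hq.out hm φ) := wChar_eq hq.out hm D (chi φ)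

end Eps

/-! ### The Atkin–Lehner operator on the characters of `Γ₀(m q) / Γ` -/

section WKap

variable {m q : ℕ} [NeZero q] (D : WD m q) {H : Subgroup (ZMod q)ˣ}

omit [NeZero q] in
theorem psiGD_eq {g : Gamma0 (m * q)} {u : (ZMod q)ˣ}
    (h : ((((g : SL(2, ℤ)) 1 1 : ℤ)) : ZMod q) = u) : th (psiGD m q H) g = Dq.mk q H u := by
  rw [th_apply, psiGD_apply]
  congr 1
  apply Units.ext
  rw [ZMod.unitsMap_val, coe_lr, ← h]
  exact ZMod.cast_intCast (dvd_mq m q) _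

theorem th_cjG (g : Gamma0 (m * q)) :
    th (psiGD m q H) (D.cjG g) = (th (psiGD m q H) g)⁻¹ := by
  obtain ⟨c, hc, h1, h2, -⟩ := D.exists_conj g.2
  have h3 : D.cjG g = ⟨c, hc⟩ := D.cjG_eq h1
  have h4 := entry00_mul_11 g.2
  let u : (ZMod q)ˣ := ⟨_, _, by rw [mul_comm]; exact h4, h4⟩
  have h5 : ((((g : SL(2, ℤ)) 1 1 : ℤ)) : ZMod q) = u := rfl
  rw [h3, psiGD_eq h5, ← map_inv]
  refine psiGD_eq ?_
  exact h2

theorem wChar_kap (f : Dq q H →* ℂˣ) :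
    D.wChar (Gamma0 (m * q)) (f.comp (th (psiGD m q H))) = (f⁻¹).comp (th (psiGD m q H)) := by
  ext g
  rw [D.wChar_apply, MonoidHom.comp_apply, th_cjG, map_inv, MonoidHom.comp_apply,
    MonoidHom.inv_apply]

end WKap

theorem exists_kap_pow {m q : ℕ} [NeZero q] {H : Subgroup (ZMod q)ˣ} {n : ℕ}
    (hn : H.index = n) [NeZero n] {u : (ZMod (m * q))ˣ}
    (hu : ∀ x : (ZMod q)ˣ, ∃ i : ℕ, ZMod.unitsMap (dvd_mq m q) u ^ i * x ∈ H)
    {ι : Qbar →+* ℂ} {ζ : Qbar} (hζ : IsPrimitiveRoot ζ n) (k : ℕ) :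
    ∃ f : Dq q H →* ℂˣ, (cycGD ι hn hu hζ).κ ^ k = f.comp (th (psiGD m q H)) := by
  obtain ⟨f, hf⟩ : ∃ f : Dq q H →* ℂˣ,
      (cycGD ι hn hu hζ).κ = f.comp (th (psiGD m q H)) := ⟨_, rfl⟩
  refine ⟨f ^ k, ?_⟩
  ext γ
  rw [hf, MonoidHom.pow_apply, MonoidHom.comp_apply, MonoidHom.comp_apply, MonoidHom.pow_apply]

/-- The hypotheses on the level and the system of eigenvalues. -/
structure Hyp (m q n : ℕ) (H : Subgroup (ZMod q)ˣ) (I J : Set ℕ) (a : ℕ → ℤ) (ε : ℤ) (ℓ : ℕ)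
    [Fact ℓ.Prime] : Prop where
  hm : ¬ q ∣ m
  hJ : ∀ ℓ ∈ J, ℓ ∈ I ∧ ℓ ≠ q
  hnew : ∀ y ∈ genEig m (Gamma0 m) (Mu n) J a, y = 0
  h6 : NoTors m n
  hqI : q ∈ I
  hqε : a q = ε
  hε : ε * ε = 1
  hn : H.index = n
  hI : ℓ ∈ I
  ha : IsCoprime (a ℓ - 1 - (ℓ : ℤ)) (n : ℤ)
  hℓ : (ℓ : ZMod (m * q)) = 1

namespace Hyp

variable {m q : ℕ} [NeZero m] [hq : Fact q.Prime] [NeZero q] {H : Subgroup (ZMod q)ˣ} {n : ℕ}
  [NeZero n] {I J : Set ℕ} {a : ℕ → ℤ} {ε : ℤ} {ℓ : ℕ} [hℓ : Fact ℓ.Prime]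
  (h : Hyp m q n H I J a ε ℓ)
include h

omit [NeZero m] [NeZero q] [NeZero n] in
theorem hcop : Nat.Coprime q m := (Nat.Prime.coprime_iff_not_dvd hq.out).mpr h.hm

omit [NeZero m] [NeZero q] [NeZero n] in
theorem not_dvd : ¬ ℓ ∣ m * q := by
  intro hd
  have h1 := congrArg (ZMod.castHom hd (ZMod ℓ)) h.hℓ
  rw [map_natCast, map_one, ZMod.natCast_self] at h1
  exact zero_ne_one h1

omit [NeZero m] [NeZero q] [NeZero n] in
theorem neg_one_mem : (-1 : (ZMod q)ˣ) ∈ H := by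
  have hodd : Odd H.index := h.hn ▸ odd_of_six h.h6
  have h1 : (QuotientGroup.mk' H (-1)) ^ 2 = 1 := by
    rw [← map_pow, neg_one_sq, map_one]
  have h2 : (QuotientGroup.mk' H (-1)) ^ H.index = 1 := pow_card_eq_one'
  obtain ⟨k, hk⟩ := hodd
  rw [hk, pow_succ, pow_mul, h1, one_pow, one_mul] at h2
  exact (QuotientGroup.eq_one_iff _).mp h2

theorem mem_xGroup {Γ : Subgroup SL(2, ℤ)} [Between (m * q) Γ] {χ : Γ →* ℂˣ}
    (hχ : χ ∈ GE (m * q) Γ n I a) : χ ∈ xGroup (m * q) Γ n :=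
  GE_le_xGroup h.h6 h.hI h.ha h.hℓ hχ

theorem mem_charGroup {Γ : Subgroup SL(2, ℤ)} [Between (m * q) Γ] {χ : Γ →* ℂˣ}
    (hχ : χ ∈ GE (m * q) Γ n I a) : χ ∈ charGroup Γ n := xGroup_le n (h.mem_xGroup hχ)

omit [NeZero m] [NeZero q] [NeZero n] in
theorem kap_mem (f : Dq q H →* ℂˣ) :
    f.comp (th (psiGD m q H)) ∈ charGroup (Gamma0 (m * q)) n := by
  have hcard : Nat.card (Dq q H) = n := by rw [Dq.card, h.hn]
  refine ⟨?_, fun γ hγ => ?_⟩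
  · ext γ
    rw [MonoidHom.pow_apply, MonoidHom.comp_apply, ← map_pow, ← hcard, pow_card_eq_one', map_one]
    rfl
  · have h1 := det_SL (γ : SL(2, ℤ))
    rw [hγ, mul_zero, sub_zero] at h1
    have h2 : th (psiGD m q H) γ = 1 := by
      rcases Int.eq_one_or_neg_one_of_mul_eq_one' h1 with ⟨-, h4⟩ | ⟨-, h4⟩
      · rw [psiGD_eq (u := 1) (by rw [h4]; simp), map_one]
      · rw [psiGD_eq (u := -1) (by rw [h4]; simp), Dq.mk_eq_one]
        exact h.neg_one_mem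
    rw [MonoidHom.comp_apply, h2, map_one]

variable {ι : Qbar →+* ℂ} {A : ValuationSubring Qbar} {D : WD m q}

omit [NeZero m] in
theorem kk_eps_iff {φ : Additive (Gamma0 (m * q)) →+ Mu n} :
    KK ι (m * q) (Gamma0 (m * q)) id A n (chi ((-ε) • φ)) ↔
      KK ι (m * q) (Gamma0 (m * q)) id A n (chi φ) := by
  rcases eps_cases h.hε with h1 | h1
  · rw [h1, neg_zsmul, one_zsmul, chi_neg]
    constructor
    · intro h2
      exact (h2.inv (NeZero.ne n) (by rw [← chi_neg]; exact chi_pow _)).congr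
        (by ext γ; simp)
    · intro h2
      exact h2.inv (NeZero.ne n) (chi_pow _)
  · rw [h1, neg_neg, one_zsmul]

omit [NeZero m] in
theorem wChar_eq_chi {φ : Additive (Gamma0 (m * q)) →+ Mu n}
    (hφ : φ ∈ genEig (m * q) (Gamma0 (m * q)) (Mu n) I a) :
    D.wChar (Gamma0 (m * q)) (chi φ) = chi ((-ε) • φ) := by
  rw [wChar_chi h.hm, wHomA_eq h.hm h.hJ h.hnew h.h6 h.hqI h.hqε h.hε hφ]

/-- At level `Γ₀(m q)` the two kernels agree. -/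
theorem kk_act_iff_id {χ : Gamma0 (m * q) →* ℂˣ}
    (hχ : χ ∈ GE (m * q) (Gamma0 (m * q)) n I a) :
    KK ι (m * q) (Gamma0 (m * q)) D.act A n χ ↔ KK ι (m * q) (Gamma0 (m * q)) id A n χ := by
  have : ALGroup D (Gamma0 (m * q)) := alGroup_Gamma0 D h.hcop
  have : NeZero (m * q) := ⟨Nat.mul_ne_zero (NeZero.ne m) (NeZero.ne q)⟩
  obtain ⟨φ, hφ, rfl⟩ := exists_of_mem_GE hχ
  have h1 : (-ε) • φ ∈ genEig (m * q) (Gamma0 (m * q)) (Mu n) I a :=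
    AddSubgroup.zsmul_mem _ hφ _
  rw [kk_act_iff (goodMap_act (ι := ι) (D := D) (Γ := Gamma0 (m * q))) (h.mem_charGroup hχ)
    (by rw [h.wChar_eq_chi hφ]; exact h.mem_charGroup (chi_mem_GE.mpr h1)),
    h.wChar_eq_chi hφ, h.kk_eps_iff]

omit [NeZero m] [NeZero n] in
theorem not_dvd_n : ¬ q ∣ n := by
  intro hd
  have h1 : n ∣ q - 1 := by
    rw [← h.hn, ← ZMod.card_units q, ← Nat.card_eq_fintype_card]
    exact H.index_dvd_card
  have h2 := Nat.le_of_dvd (Nat.sub_pos_of_lt hq.out.one_lt) (hd.trans h1)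
  have h3 := hq.out.one_lt
  omega

section Down

variable {u : (ZMod (m * q))ˣ}
  (hu : ∀ x : (ZMod q)ˣ, ∃ i : ℕ, ZMod.unitsMap (dvd_mq m q) u ^ i * x ∈ H)
  (hA : A.LiesOverPrime q)

include hu hA in
/-- Descent at the first cusp. -/
theorem down_id {χ : Gamma0 (m * q) →* ℂˣ} (hχ : χ ∈ GE (m * q) (Gamma0 (m * q)) n I a)
    (hk : KK ι (m * q) (GD m q H) id A n (resC (m * q) (GD m q H) χ)) :
    KK ι (m * q) (Gamma0 (m * q)) id A n χ := by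
  have : NeZero (m * q) := ⟨Nat.mul_ne_zero (NeZero.ne m) (NeZero.ne q)⟩
  have : GoodGroup (GD m q H) := goodGroup_of_between (m * q) _
  have : DiaGroup (m * q) (GD m q H) := diaGroup_of_between (m * q) _
  have : IntGroup (GD m q H) := intGroup_of_between (m * q) _
  obtain ⟨ζ, hζ⟩ := HasEnoughRootsOfUnity.exists_primitiveRoot Qbar n
  obtain ⟨k, hk'⟩ := KK.descend hq.out hA h.not_dvd_n (goodMap_id (ι := ι) (M := m * q)
    (Γ := GD m q H)) (cycGD ι h.hn hu hζ) (h.mem_charGroup hχ) hk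
  have hcard : Nat.card (Dq q H) = n := by rw [Dq.card, h.hn]
  obtain ⟨f, hf⟩ : ∃ f : Dq q H →* ℂˣ,
      (cycGD ι h.hn hu hζ).κ ^ k = f.comp (th (psiGD m q H)) := exists_kap_pow h.hn hu hζ k
  rw [hf] at hk'
  exact kk_of_mul_kap hcard h.not_dvd h.hI h.ha hχ f hk'

include hu hA in
/-- Descent at the second cusp. -/
theorem down_act {χ : Gamma0 (m * q) →* ℂˣ}
    (hχ : χ ∈ GE (m * q) (Gamma0 (m * q)) n I a)
    (hk : KK ι (m * q) (GD m q H) D.act A n (resC (m * q) (GD m q H) χ)) :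
    KK ι (m * q) (Gamma0 (m * q)) D.act A n χ := by
  have : NeZero (m * q) := ⟨Nat.mul_ne_zero (NeZero.ne m) (NeZero.ne q)⟩
  have : GoodGroup (GD m q H) := goodGroup_of_between (m * q) _
  have : DiaGroup (m * q) (GD m q H) := diaGroup_of_between (m * q) _
  have : IntGroup (GD m q H) := intGroup_of_between (m * q) _
  have : ALGroup D (GD m q H) := alGroup_GD D h.hcop h.neg_one_mem
  have : ALGroup D (Gamma0 (m * q)) := alGroup_Gamma0 D h.hcop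
  obtain ⟨ζ, hζ⟩ := HasEnoughRootsOfUnity.exists_primitiveRoot Qbar n
  obtain ⟨k, hk'⟩ := KK.descend hq.out hA h.not_dvd_n (goodMap_act (ι := ι) (D := D)
    (Γ := GD m q H)) (cycGD ι h.hn hu hζ) (h.mem_charGroup hχ) hk
  have hcard : Nat.card (Dq q H) = n := by rw [Dq.card, h.hn]
  obtain ⟨f, hf⟩ : ∃ f : Dq q H →* ℂˣ,
      (cycGD ι h.hn hu hζ).κ ^ k = f.comp (th (psiGD m q H)) := exists_kap_pow h.hn hu hζ k
  rw [hf] at hk'
  obtain ⟨φ, hφ, rfl⟩ := exists_of_mem_GE hχ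
  have h1 : (-ε) • φ ∈ genEig (m * q) (Gamma0 (m * q)) (Mu n) I a :=
    AddSubgroup.zsmul_mem _ hφ _
  have h2 := h.mem_charGroup (chi_mem_GE.mpr h1)
  have hw : D.wChar (Gamma0 (m * q)) (chi φ * f.comp (th (psiGD m q H))) =
      chi ((-ε) • φ) * (f⁻¹).comp (th (psiGD m q H)) := by
    rw [map_mul, h.wChar_eq_chi hφ, wChar_kap]
  rw [kk_act_iff (goodMap_act (ι := ι) (D := D) (Γ := Gamma0 (m * q)))
    (mul_mem (h.mem_charGroup hχ) (h.kap_mem f))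
    (by rw [hw]; exact mul_mem h2 (h.kap_mem _)), hw] at hk'
  have h3 := kk_of_mul_kap hcard h.not_dvd h.hI h.ha (chi_mem_GE.mpr h1) f⁻¹ hk'
  rw [h.kk_eps_iff] at h3
  rwa [h.kk_act_iff_id hχ]

include hu hA in
/-- **The two kernels of specialisation have the same diamond invariants.** -/
theorem inter {χ : GD m q H →* ℂˣ} (hχ : χ ∈ GE (m * q) (GD m q H) n I a)
    (hδ : dChar (m * q) (GD m q H) u χ = χ) :
    KK ι (m * q) (GD m q H) id A n χ ↔ KK ι (m * q) (GD m q H) D.act A n χ := by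
  obtain ⟨ξ, hξ, rfl⟩ := GE_exists_resC h.hn h.h6 hu h.hI h.ha h.not_dvd hχ hδ
  constructor
  · intro hk
    exact ((h.kk_act_iff_id hξ).mpr (h.down_id hu hA hξ hk)).res
  · intro hk
    exact ((h.kk_act_iff_id hξ).mp (h.down_act hu hA hξ hk)).res

end Down

end Hyp

end Fermat.Agent.Ribet
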