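import Fermat.Agent.Ribet.JKappa
import Fermat.Agent.TwHecke.Par
import Fermat.Agent.TwExact.Free

/-!
# Parabolic homomorphisms with coefficients: Galois action and Hecke operators

* `opP N R A ℓ` : the Hecke operators on `parabolicHoms R (Gamma0 N) A`;
* `toHM` : the embedding in `HM N 1 A`; `mem_mpart_toHM` : it is an isomorphism on `𝔪`-parts
  (`𝔪` non-Eisenstein);
* `extO` : operators on `parabolicHoms ℤ (Gamma0 N) (ZMod n)` act on `parabolicHoms O (Gamma0 N) A`
  for every `O`-module `A` which is finite free over `ℤ/n`.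
-/

set_option autoImplicit false
set_option linter.unusedSectionVars false
set_option linter.style.haveILetI false

open Function CongruenceSubgroup
open scoped MatrixGroups

noncomputable section

namespace Fermat.Agent.Ribet

open ModularCurve.Period Fermat.Agent.HeckePar Fermat.Agent.TwHecke Fermat.Agent.TwExact IsLocalRing

section Op

variable (N : ℕ) (R : Type*) [CommRing R] (A : Type*) [AddCommGroup A] [Module R A]

/-- The embedding of the parabolic homomorphisms in the cohomology. -/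
def toHM : parabolicHoms R (Gamma0 N) A →ₗ[R] HM N (1 : (ZMod N)ˣ →* Rˣ) A :=
  (HM.equivHom (M := N) (R := R) (A := A) rfl).symm.toLinearMap ∘ₗ
    (parabolicHoms R (Gamma0 N) A).subtype

theorem equivHom_toHM (φ : parabolicHoms R (Gamma0 N) A) :
    HM.equivHom (M := N) (R := R) (A := A) rfl (toHM N R A φ) = φ.1 :=
  LinearEquiv.apply_symm_apply _ _

theorem toHM_injective : Injective (toHM N R A) := by
  intro φ ψ h
  apply Subtype.ext
  rw [← equivHom_toHM, ← equivHom_toHM, h]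

theorem toHM_mem_par (φ : parabolicHoms R (Gamma0 N) A) : toHM N R A φ ∈ HM.par N _ A := by
  rw [← HM.equivHom_mem_iff (M := N) (R := R) (A := A) rfl, equivHom_toHM]
  exact φ.2

theorem exists_toHM {x : HM N (1 : (ZMod N)ˣ →* Rˣ) A} (hx : x ∈ HM.par N _ A) :
    ∃ φ, toHM N R A φ = x := by
  rw [← HM.equivHom_mem_iff (M := N) (R := R) (A := A) rfl] at hx
  exact ⟨⟨_, hx⟩, LinearEquiv.symm_apply_apply _ _⟩

theorem addTransfer_mem (ℓ : ℕ) [Fact ℓ.Prime] {φ : Additive (Gamma0 N) →+ A}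
    (hφ : φ ∈ parabolicHoms R (Gamma0 N) A) :
    (heckeSys N ℓ).addTransfer φ ∈ parabolicHoms R (Gamma0 N) A := by
  have h1 := toHM_mem_par N R A ⟨φ, hφ⟩
  have h2 := heckeH_mem_par ℓ h1
  rw [← HM.equivHom_mem_iff (M := N) (R := R) (A := A) rfl, HM.equivHom_heckeH,
    equivHom_toHM] at h2
  exact h2

/-- The Hecke operators on parabolic homomorphisms. -/
def opP (ℓ : Nat.Primes) : Module.End R (parabolicHoms R (Gamma0 N) A) :=
  haveI : Fact (ℓ : ℕ).Prime := ⟨ℓ.2⟩
  { toFun := fun φ => ⟨(heckeSys N ℓ).addTransfer φ.1, addTransfer_mem N R A ℓ φ.2⟩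
    map_add' := fun φ ψ => Subtype.ext (map_add _ _ _)
    map_smul' := fun a φ => by
      apply Subtype.ext
      refine AddMonoidHom.ext fun g => ?_
      show ∑ x, (a • φ.1) _ = a • ∑ x, φ.1 _
      rw [Finset.smul_sum]
      rfl }

theorem coe_opP (ℓ : ℕ) [hℓ : Fact ℓ.Prime] (φ : parabolicHoms R (Gamma0 N) A) :
    (opP N R A ⟨ℓ, hℓ.out⟩ φ).1 = (heckeSys N ℓ).addTransfer φ.1 := rfl

theorem toHM_opP (ℓ : Nat.Primes) (φ : parabolicHoms R (Gamma0 N) A) :
    toHM N R A (opP N R A ℓ φ) = heckeP N 1 A ℓ (toHM N R A φ) := by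
  haveI : Fact (ℓ : ℕ).Prime := ⟨ℓ.2⟩
  apply (HM.equivHom (M := N) (R := R) (A := A) rfl).injective
  rw [equivHom_toHM]
  show _ = HM.equivHom (M := N) (R := R) (A := A) rfl (heckeH N ℓ 1 A (toHM N R A φ))
  rw [HM.equivHom_heckeH, equivHom_toHM]
  rfl

theorem opP_commute (ℓ ℓ' : Nat.Primes) : Commute (opP N R A ℓ) (opP N R A ℓ') := by
  refine LinearMap.ext fun φ => toHM_injective N R A ?_
  simp only [Module.End.mul_apply, toHM_opP]
  exact congrArg (fun f : Module.End R _ => f (toHM N R A φ)) (heckeP_commute N 1 A ℓ ℓ').eq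

end Op

section OpS

variable {R : Type*} [CommRing R] (N : ℕ) (A : Type*) [AddCommGroup A] [Module R A] (S : Set ℕ)

/-- The operators away from `S`. -/
def opS : PIdx S → Module.End R (parabolicHoms R (Gamma0 N) A) := fun ℓ => opP N R A ℓ.1

theorem opS_commute (i j : PIdx S) : Commute (opS (R := R) N A S i) (opS N A S j) :=
  opP_commute N R A i.1 j.1

theorem opS_apply (i : PIdx S) : opS (R := R) N A S i = opP N R A i.1 := rfl

end OpS

section MPart

variable {N : ℕ} {R : Type} [CommRing R] [IsLocalRing R] {A : Type} [AddCommGroup A] [Module R A]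
  {S : Set ℕ} {θ : PIdx S → ResidueField R}

theorem toHM_cev (t : MvPolynomial (PIdx S) R) (φ : parabolicHoms R (Gamma0 N) A) :
    toHM N R A (cev (opS N A S) (opS_commute N A S) t φ) =
      cev (hop N 1 A S) (hop_commute N 1 A S) t (toHM N R A φ) :=
  cev_natural _ _ (toHM N R A) (fun i x => toHM_opP N R A i.1 x) t φ

variable (N A θ) in
/-- The `𝔪`-part of the parabolic homomorphisms. -/
def Pm : Submodule R (parabolicHoms R (Gamma0 N) A) := mpart θ (opS N A S) (opS_commute N A S)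

theorem toHM_mem_Hm {φ : parabolicHoms R (Gamma0 N) A} (hφ : φ ∈ Pm N A θ) :
    toHM N R A φ ∈ Hm N 1 A S θ :=
  map_mem_mpart _ _ (toHM N R A) (fun i x => toHM_opP N R A i.1 x) hφ

/-- Strong form of the non-Eisenstein condition. -/
def NonEis1 (N : ℕ) (S : Set ℕ) {R : Type} [CommRing R] [IsLocalRing R]
    (θ : PIdx S → ResidueField R) : Prop :=
  ∃ ℓ : PIdx S, ((ℓ.1 : ℕ) : ZMod N) = 1 ∧ Odd (ℓ.1 : ℕ) ∧ IsUnit (((ℓ.1 : ℕ) : ℕ) : R) ∧
    θ ℓ ≠ residue R (((ℓ.1 : ℕ) : R) + 1)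

theorem exists_toHM_of_mem_Hm (hne : NonEis1 N S θ) {x : HM N (1 : (ZMod N)ˣ →* Rˣ) A}
    (hx : x ∈ Hm N 1 A S θ) : ∃ φ ∈ Pm N A θ, toHM N R A φ = x := by
  obtain ⟨ℓ, h1, hodd, hu, h2⟩ := hne
  haveI : Fact (ℓ.1 : ℕ).Prime := ⟨ℓ.1.2⟩
  set t0 : MvPolynomial (PIdx S) R :=
    MvPolynomial.X ℓ - MvPolynomial.C (((ℓ.1 : ℕ) : R) + 1) with ht0
  have hev0 : evk θ t0 ≠ 0 := by
    rw [ht0, map_sub, evk_X, evk_C]
    exact sub_ne_zero.mpr h2
  have hpar : ∀ y : HM N (1 : (ZMod N)ˣ →* Rˣ) A,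
      cev (hop N 1 A S) (hop_commute N 1 A S) t0 y ∈ HM.par N _ A := by
    intro y
    have h3 := heckeH_sub_mem_par (M := N) (ε := 1) h1 hodd hu y
    have h4 : cev (hop N 1 A S) (hop_commute N 1 A S) t0 y =
        heckeH N ℓ.1 1 A y - (((ℓ.1 : ℕ) : R) + 1) • y := by
      rw [ht0, map_sub, cev_X, cev_C, LinearMap.sub_apply, Module.algebraMap_end_apply]
      rfl
    rw [h4]
    exact h3
  rw [Hm, mem_mpart] at hx
  have key : ∀ t, evk θ t ≠ 0 → ∃ ψ, cev (hop N 1 A S) (hop_commute N 1 A S) t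
      (toHM N R A ψ) = x := by
    intro t ht
    obtain ⟨y, hy⟩ := hx (t * t0) (by rw [map_mul]; exact mul_ne_zero ht hev0)
    obtain ⟨ψ, hψ⟩ := exists_toHM N R A (hpar y)
    exact ⟨ψ, by rw [hψ, ← cev_mul_apply, hy]⟩
  obtain ⟨φ, hφ⟩ := key 1 (by rw [map_one]; exact one_ne_zero)
  rw [map_one, Module.End.one_apply] at hφ
  refine ⟨φ, ?_, hφ⟩
  rw [Pm, mem_mpart]
  intro t ht
  obtain ⟨ψ, hψ⟩ := key t ht
  refine ⟨ψ, toHM_injective N R A ?_⟩
  rw [toHM_cev, hψ, hφ]

/-- The isomorphism between the `𝔪`-parts. -/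
def pmEquiv (hne : NonEis1 N S θ) : Pm N A θ ≃ₗ[R] Hm N 1 A S θ :=
  LinearEquiv.ofBijective ((toHM N R A).restrict fun _ hφ => toHM_mem_Hm hφ) (by
    constructor
    · intro φ ψ h
      exact Subtype.ext (toHM_injective N R A (congrArg Subtype.val h))
    · rintro ⟨x, hx⟩
      obtain ⟨φ, hφ, h⟩ := exists_toHM_of_mem_Hm hne hx
      exact ⟨⟨φ, hφ⟩, Subtype.ext h⟩)

theorem coe_pmEquiv (hne : NonEis1 N S θ) (φ : Pm N A θ) :
    (pmEquiv hne φ : HM N (1 : (ZMod N)ˣ →* Rˣ) A) = toHM N R A φ := rfl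

end MPart

/-! ### Extension of operators to coefficients -/

section Ext

variable {N n : ℕ} [NeZero n] {O : Type*} [CommRing O] {A : Type*} [AddCommGroup A] [Module O A]
  [Module (ZMod n) A] {ι : Type*} [Fintype ι] (b : Module.Basis ι (ZMod n) A)

/-- Push forward of parabolic homomorphisms. -/
def pushP (O : Type*) [CommRing O] {A A' : Type*} [AddCommGroup A] [Module O A] [AddCommGroup A']
    (O' : Type*) [CommRing O'] [Module O' A'] (g : A →+ A') (φ : parabolicHoms O (Gamma0 N) A) :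
    parabolicHoms O' (Gamma0 N) A' :=
  ⟨g.comp φ.1, fun γ hγ => by
    rw [AddMonoidHom.comp_apply, φ.2 γ hγ, map_zero]⟩

/-- coordinates -/
def coordE : parabolicHoms O (Gamma0 N) A ≃+ (ι → parabolicHoms ℤ (Gamma0 N) (ZMod n)) where
  toFun c i := pushP O ℤ (b.coord i).toAddMonoidHom c
  invFun φ := ∑ i, pushP ℤ O ((LinearMap.toSpanSingleton (ZMod n) A (b i)).toAddMonoidHom) (φ i)
  left_inv c := by
    apply Subtype.ext
    refine AddMonoidHom.ext fun γ => ?_
    rw [AddSubmonoidClass.coe_finsetSum, AddMonoidHom.finsetSum_apply]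
    show ∑ i, (b.repr (c.1 γ) i) • b i = c.1 γ
    exact b.sum_repr _
  right_inv φ := by
    funext i
    apply Subtype.ext
    refine AddMonoidHom.ext fun γ => ?_
    show (b.coord i) ((∑ j, pushP ℤ O
      ((LinearMap.toSpanSingleton (ZMod n) A (b j)).toAddMonoidHom) (φ j) :
        parabolicHoms O (Gamma0 N) A).1 γ) = (φ i).1 γ
    rw [AddSubmonoidClass.coe_finsetSum, AddMonoidHom.finsetSum_apply]
    show (b.coord i) (∑ j, ((φ j).1 γ) • b j) = (φ i).1 γ
    rw [map_sum]
    classical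
    simp only [map_smul, Module.Basis.coord_apply, Module.Basis.repr_self, Finsupp.single_apply,
      smul_eq_mul, mul_ite, mul_one, mul_zero, Finset.sum_ite_eq', Finset.mem_univ, if_true]
  map_add' c c' := by
    funext i
    apply Subtype.ext
    exact AddMonoidHom.ext fun γ => map_add (b.coord i) _ _

theorem coordE_apply (c : parabolicHoms O (Gamma0 N) A) (i : ι) (γ : Additive (Gamma0 N)) :
    (coordE b c i).1 γ = b.coord i (c.1 γ) := rfl

/-- coordinates of a push forward -/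
theorem coordE_push {A' : Type*} [AddCommGroup A'] [Module O A'] [Module (ZMod n) A']
    {ι' : Type*} [Fintype ι'] (b' : Module.Basis ι' (ZMod n) A') (g : A →+ A')
    (c : parabolicHoms O (Gamma0 N) A) (i : ι') :
    coordE b' (pushP O O g c) i = ∑ j, (b'.coord i (g (b j))).val • coordE b c j := by
  apply Subtype.ext
  refine AddMonoidHom.ext fun γ => ?_
  rw [AddSubmonoidClass.coe_finsetSum, AddMonoidHom.finsetSum_apply]
  show b'.coord i (g (c.1 γ)) = ∑ j, (b'.coord i (g (b j))).val • (coordE b c j).1 γ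
  let g' : A →ₗ[ZMod n] A' := AddMonoidHom.toZModLinearMap n g
  have h1 : g (c.1 γ) = ∑ j, (b.coord j (c.1 γ)) • g (b j) := by
    conv_lhs => rw [← b.sum_repr (c.1 γ)]
    rw [map_sum]
    refine Finset.sum_congr rfl fun j _ => ?_
    exact map_smul g' _ _
  rw [h1, map_sum]
  refine Finset.sum_congr rfl fun j _ => ?_
  rw [map_smul, coordE_apply, smul_eq_mul, nsmul_eq_mul, ZMod.natCast_val, ZMod.cast_id', id_eq,
    mul_comm]

/-- Extension of an operator to coefficients in `A`. -/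
def extA (f : parabolicHoms ℤ (Gamma0 N) (ZMod n) →+ parabolicHoms ℤ (Gamma0 N) (ZMod n)) :
    parabolicHoms O (Gamma0 N) A →+ parabolicHoms O (Gamma0 N) A :=
  ((coordE b).symm.toAddMonoidHom.comp (AddMonoidHom.pi fun i => f.comp
    (Pi.evalAddMonoidHom (fun _ : ι => parabolicHoms ℤ (Gamma0 N) (ZMod n)) i))).comp
    (coordE b).toAddMonoidHom

theorem coordE_extA
    (f : parabolicHoms ℤ (Gamma0 N) (ZMod n) →+ parabolicHoms ℤ (Gamma0 N) (ZMod n))
    (c : parabolicHoms O (Gamma0 N) A) (i : ι) : coordE b (extA b f c) i = f (coordE b c i) := by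
  show coordE b ((coordE b).symm (fun i => f (coordE b c i))) i = _
  rw [AddEquiv.apply_symm_apply]

theorem extA_push (f : parabolicHoms ℤ (Gamma0 N) (ZMod n) →+ parabolicHoms ℤ (Gamma0 N) (ZMod n))
    (g : A →+ A) (c : parabolicHoms O (Gamma0 N) A) :
    extA b f (pushP O O g c) = pushP O O g (extA b f c) := by
  apply (coordE b).injective
  funext i
  rw [coordE_extA, coordE_push b b, coordE_push b b, map_sum]
  refine Finset.sum_congr rfl fun j _ => ?_
  rw [map_nsmul, coordE_extA]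

theorem extA_smul (f : parabolicHoms ℤ (Gamma0 N) (ZMod n) →+ parabolicHoms ℤ (Gamma0 N) (ZMod n))
    (a : O) (c : parabolicHoms O (Gamma0 N) A) : extA b f (a • c) = a • extA b f c := by
  have h : ∀ c : parabolicHoms O (Gamma0 N) A,
      a • c = pushP O O ((Module.toAddMonoidEnd O A) a) c := fun c => rfl
  rw [h, h, extA_push]

/-- The `O`-linear version. -/
def extO (f : parabolicHoms ℤ (Gamma0 N) (ZMod n) →+ parabolicHoms ℤ (Gamma0 N) (ZMod n)) :
    Module.End O (parabolicHoms O (Gamma0 N) A) where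
  toFun := extA b f
  map_add' := map_add _
  map_smul' := extA_smul b f

theorem extO_apply (f : parabolicHoms ℤ (Gamma0 N) (ZMod n) →+ parabolicHoms ℤ (Gamma0 N) (ZMod n))
    (c : parabolicHoms O (Gamma0 N) A) : extO b f c = extA b f c := rfl

theorem coordE_opP (ℓ : Nat.Primes) (c : parabolicHoms O (Gamma0 N) A) (i : ι) :
    coordE b (opP N O A ℓ c) i = opP N ℤ (ZMod n) ℓ (coordE b c i) := by
  haveI : Fact (ℓ : ℕ).Prime := ⟨ℓ.2⟩
  apply Subtype.ext
  refine AddMonoidHom.ext fun γ => ?_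
  show b.coord i (∑ x, c.1 _) = ∑ x, b.coord i (c.1 _)
  rw [map_sum]

/-- An operator commuting with `T_ℓ` extends to an operator commuting with `T_ℓ`. -/
theorem extA_opP (f : parabolicHoms ℤ (Gamma0 N) (ZMod n) →+ parabolicHoms ℤ (Gamma0 N) (ZMod n))
    (ℓ : Nat.Primes) (hf : ∀ φ, f (opP N ℤ (ZMod n) ℓ φ) = opP N ℤ (ZMod n) ℓ (f φ))
    (c : parabolicHoms O (Gamma0 N) A) :
    extA b f (opP N O A ℓ c) = opP N O A ℓ (extA b f c) := by
  apply (coordE b).injective
  funext i
  rw [coordE_extA, coordE_opP, coordE_opP, coordE_extA, hf]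

/-- multiplicativity -/
theorem extO_mul (f g : AddMonoid.End (parabolicHoms ℤ (Gamma0 N) (ZMod n))) :
    extO (O := O) b (f * g) = extO b f * extO b g := by
  refine LinearMap.ext fun c => (coordE b).injective (funext fun i => ?_)
  rw [Module.End.mul_apply, extO_apply, extO_apply, extO_apply, coordE_extA, coordE_extA,
    coordE_extA]
  rfl

theorem extO_one : extO (O := O) b (1 : AddMonoid.End (parabolicHoms ℤ (Gamma0 N) (ZMod n))) = 1 := by
  refine LinearMap.ext fun c => (coordE b).injective (funext fun i => ?_)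
  rw [Module.End.one_apply, extO_apply, coordE_extA]
  rfl

end Ext

end Fermat.Agent.Ribet

end
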