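import Fermat.Agent.Cofaith.ES
import Fermat.Agent.Ribet.NoTors

/-!
# The `n`-torsion of `J₀(N)` and parabolic homomorphisms `Γ₀(N) → ℤ/n`

For `n` prime to the orders of the torsion elements of `Γ₀(N)` we construct an isomorphism
`jEquiv` between the parabolic homomorphisms `Γ₀(N) → ℤ/n` and `J₀(N)[n]`, which is compatible with
the Hecke operators `T_ℓ`, `ℓ ∤ N`.
-/

set_option autoImplicit false
set_option linter.unusedSectionVars false
set_option linter.style.haveILetI false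

open UpperHalfPlane Function Filter Topology ModularForm CongruenceSubgroup
open scoped Manifold MatrixGroups IntermediateField

noncomputable section

namespace Fermat.Agent.Ribet

open Fermat.Agent.GalRep Fermat.Agent.X0Emb Fermat.Agent.ModFun AlgebraicCurve ModularCurve
open ModularCurve.Period Fermat.Agent.HeckePar Fermat.Agent.Cofaith

local notation "K" => AlgebraicClosure ℚ

/-! ### Characters -/

section Char

variable {N : ℕ} {n : ℕ}

theorem parChar_of (hNT : NoTors N n) {χ : Gamma0 N →* ℂˣ} (hχ : χ ^ n = 1)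
    (hpar : ∀ γ : Gamma0 N, ((γ : SL(2, ℤ)) : Matrix (Fin 2) (Fin 2) ℤ).trace ^ 2 = 4 → χ γ = 1) :
    ParChar N χ where
  par := hpar
  fin γ m hm hγ := by
    have hχn : χ γ ^ n = 1 := by
      rw [← MonoidHom.pow_apply, hχ, MonoidHom.one_apply]
    have key : ∀ k : ℕ, Nat.Coprime n k → γ ^ k = 1 → χ γ = 1 := by
      intro k hk h
      have h1 : χ γ ^ k = 1 := by rw [← map_pow, h, map_one]
      have h2 := pow_gcd_eq_one.mpr ⟨hχn, h1⟩
      rwa [hk.gcd_eq_one, pow_one] at h2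
    have hcoe : ∀ k : ℕ, (γ : SL(2, ℤ)) ^ k = 1 → γ ^ k = 1 := by
      intro k h
      apply Subtype.ext
      rw [Subgroup.coe_pow, h, Subgroup.coe_one]
    have hγ' : (γ : SL(2, ℤ)) ^ m = 1 := by rw [← Subgroup.coe_pow, hγ, Subgroup.coe_one]
    rcases torsion_cases (γ : SL(2, ℤ)) hm hγ' with h | h | ⟨h, h6⟩
    · exact hpar γ h
    · exact key 4 (by
        rw [show 4 = 2 * 2 from rfl]
        exact Nat.Coprime.mul_right hNT.1 hNT.1) (hcoe 4 h)
    · rcases hNT.2 with h3 | ⟨r, hr, hrN, hr3⟩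
      · exact key 6 (by
          rw [show 6 = 2 * 3 from rfl]
          exact Nat.Coprime.mul_right hNT.1 h3) (hcoe 6 h6)
      · exact absurd h (trace_sq_ne_one hr hrN hr3 γ)

/-- A holomorphic function with the given character, whose `n`-th power is in the modular function
field. -/
theorem exists_hasChar' [NeZero N] (ι : K →+* ℂ) (hn : n ≠ 0) {χ : Gamma0 N →* ℂˣ}
    (hχn : χ ^ n = 1) (hχ : ParChar N χ) :
    ∃ (h : modularFunctionFieldBar N) (g : ℍ → ℂ), h ≠ 0 ∧ HasChar N χ g ∧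
      LExp 1 (g ^ n) (coeffMap ι (h : LaurentSeries K)) := by
  have hT : χ (TG N) = 1 := hχ.par _ (by
    simp [TG, ModularGroup.T, Matrix.trace_fin_two])
  have hneg : ∀ h : (-1 : SL(2, ℤ)) ∈ Gamma0 N, χ ⟨-1, h⟩ = 1 := fun h =>
    hχ.par _ (by
      rw [Matrix.SpecialLinearGroup.coe_neg, Matrix.SpecialLinearGroup.coe_one,
        Matrix.trace_fin_two]
      simp)
  obtain ⟨f, hf0, hf, halg⟩ := Fermat.Agent.EisChar.exists_algebraic_charForm N hn χ
    hχn (fun h => hT) hneg 12 (by norm_num) ⟨6, by norm_num⟩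
  have hg := hasChar_of_charForm hf
  obtain ⟨G0, hG0⟩ := exists_lexp_div ι hf hT halg
  have hgn : HasChar N 1 ((fun τ => f τ / discriminant τ) ^ n) := by
    rw [← hχn]
    exact hg.pow n
  have h1 : LExp 1 ((fun τ => f τ / discriminant τ) ^ n) (coeffMap ι (G0 ^ n)) := by
    rw [map_pow]
    exact hG0.pow n
  have h2 := (bridge ι N).conv _ hgn.mdiff hgn.growth (fun γ τ => by rw [hgn.smul]; simp) _ h1
  refine ⟨⟨G0 ^ n, h2⟩, _, ?_, hg, h1⟩
  intro h0
  have h3 : G0 ^ n = 0 := congrArg Subtype.val h0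
  rw [h3, map_zero] at h1
  have h4 := h1.funext (LExp.zero 1)
  apply hf0
  funext τ
  have h5 := congrFun h4 τ
  simp only [Pi.pow_apply, Pi.zero_apply] at h5
  have h6 := pow_eq_zero_iff hn |>.mp h5
  exact (div_eq_zero_iff.mp h6).resolve_right (discriminant_ne_zero τ)

theorem exists_rel' [NeZero N] (hn : n ≠ 0) {χ : Gamma0 N →* ℂˣ} (hχn : χ ^ n = 1)
    (hχ : ParChar N χ) : ∃ x : JZero N, Rel X0Emb.iota N n x χ := by
  obtain ⟨h, g, h0, hg, hgn⟩ := exists_hasChar' X0Emb.iota hn hχn hχ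
  obtain ⟨x, hx⟩ := exists_isKummer_of_dvd hn h0 fun v =>
    dvd_ord_of_hasChar (g := ⟨g, hg.mdiff⟩) hg hχ h0 hgn v
  exact ⟨x, h, g, hx, hg, hgn⟩

/-- Two characters related to the same class are equal. -/
theorem rel_char_unique [NeZero N] (hn : n ≠ 0) {x : JZero N} {χ χ' : Gamma0 N →* ℂˣ}
    (h : Rel X0Emb.iota N n x χ) (h' : Rel X0Emb.iota N n x χ') (hχ' : χ' ^ n = 1) : χ = χ' := by
  obtain ⟨m, rfl⟩ := Nat.exists_eq_succ_of_ne_zero hn
  have := isFF_bar N
  have h1 := h.mul (h'.pow m)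
  have h2 : x + m • x = 0 := by
    rw [← succ_nsmul']
    exact h.nsmul_eq_zero
  rw [h2] at h1
  have h3 := h1.char_eq_one (bridge X0Emb.iota N) hn
  have h4 : χ' * χ' ^ m = 1 := by rw [← char_pow_succ']; exact hχ'
  have h5 : χ * χ' ^ m = χ' * χ' ^ m := by rw [h3, h4]
  refine MonoidHom.ext fun γ => ?_
  have h6 := DFunLike.congr_fun h5 γ
  rw [MonoidHom.mul_apply, MonoidHom.mul_apply] at h6
  exact mul_right_cancel h6

/-- `ℤ/n → μ_n`. -/
def zh (n : ℕ) [NeZero n] : ZMod n →+ Additive ℂˣ :=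
  ZMod.lift n ⟨zmultiplesHom _ (Additive.ofMul (zetaC n)), by
    rw [zmultiplesHom_apply, natCast_zsmul, ← ofMul_pow,
      (isPrimitiveRoot_zetaC (NeZero.ne n)).pow_eq_one, ofMul_one]⟩

theorem zh_intCast (n : ℕ) [NeZero n] (k : ℤ) :
    Additive.toMul (zh n (k : ZMod n)) = zetaC n ^ k := by
  rw [zh, ZMod.lift_coe]
  rfl

theorem zh_injective (n : ℕ) [NeZero n] : Injective (zh n) := by
  rw [injective_iff_map_eq_zero]
  intro a ha
  obtain ⟨k, rfl⟩ := ZMod.intCast_surjective a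
  have h1 := zh_intCast n k
  rw [ha, toMul_zero, eq_comm, (isPrimitiveRoot_zetaC (NeZero.ne n)).zpow_eq_one_iff_dvd] at h1
  rwa [ZMod.intCast_zmod_eq_zero_iff_dvd]

theorem exists_zh (n : ℕ) [NeZero n] {z : ℂˣ} (hz : z ^ n = 1) :
    ∃ a : ZMod n, Additive.toMul (zh n a) = z := by
  have hz' : (z : ℂ) ^ n = 1 := by rw [← Units.val_pow_eq_pow_val, hz, Units.val_one]
  obtain ⟨i, -, hi⟩ := (IsPrimitiveRoot.coe_units_iff.mpr
    (isPrimitiveRoot_zetaC (NeZero.ne n))).eq_pow_of_pow_eq_one hz'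
  refine ⟨((i : ℤ) : ZMod n), ?_⟩
  rw [zh_intCast, zpow_natCast]
  ext
  rw [Units.val_pow_eq_pow_val, hi]

/-- The character `γ ↦ ζ ^ φ(γ)` attached to `φ : Γ₀(N) → ℤ/n`. -/
def charZ [NeZero n] (φ : Additive (Gamma0 N) →+ ZMod n) : Gamma0 N →* ℂˣ where
  toFun γ := Additive.toMul (zh n (φ (Additive.ofMul γ)))
  map_one' := by simp
  map_mul' γ γ' := by simp

theorem charZ_apply [NeZero n] (φ : Additive (Gamma0 N) →+ ZMod n) (γ : Gamma0 N) :
    charZ φ γ = Additive.toMul (zh n (φ (Additive.ofMul γ))) := rfl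

theorem charZ_zero [NeZero n] : charZ (0 : Additive (Gamma0 N) →+ ZMod n) = 1 := by
  ext γ; simp [charZ_apply]

theorem charZ_add [NeZero n] (φ ψ : Additive (Gamma0 N) →+ ZMod n) :
    charZ (φ + ψ) = charZ φ * charZ ψ := by
  ext γ; simp [charZ_apply]

theorem charZ_injective [NeZero n] : Injective (charZ (N := N) (n := n)) := by
  intro φ ψ h
  refine AddMonoidHom.ext fun γ => zh_injective n ?_
  exact Additive.toMul.injective (DFunLike.congr_fun h (Additive.toMul γ))

theorem charZ_pow [NeZero n] (φ : Additive (Gamma0 N) →+ ZMod n) : charZ φ ^ n = 1 := by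
  ext γ
  have h1 : (n : ZMod n) = 0 := ZMod.natCast_self n
  rw [MonoidHom.pow_apply, charZ_apply, ← toMul_nsmul, ← map_nsmul, nsmul_eq_mul, h1, zero_mul,
    map_zero]
  simp

theorem exists_charZ [NeZero n] {χ : Gamma0 N →* ℂˣ} (hχ : χ ^ n = 1) :
    ∃ φ : Additive (Gamma0 N) →+ ZMod n, charZ φ = χ := by
  have h1 : ∀ γ, ∃ a : ZMod n, Additive.toMul (zh n a) = χ γ := fun γ =>
    exists_zh n (by rw [← MonoidHom.pow_apply, hχ, MonoidHom.one_apply])
  choose a ha using h1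
  refine ⟨{ toFun := fun γ => a (Additive.toMul γ), map_zero' := ?_, map_add' := fun x y => ?_ },
    MonoidHom.ext fun γ => ha γ⟩
  · apply zh_injective n
    apply Additive.toMul.injective
    rw [toMul_zero, ha, map_one, map_zero, toMul_zero]
  · apply zh_injective n
    apply Additive.toMul.injective
    rw [toMul_add, ha, map_mul, map_add, toMul_add, ha, ha]

theorem charZ_parabolic [NeZero n] {φ : Additive (Gamma0 N) →+ ZMod n} :
    IsParabolicHom (Gamma0 N) φ ↔
      ∀ γ : Gamma0 N, ((γ : SL(2, ℤ)) : Matrix (Fin 2) (Fin 2) ℤ).trace ^ 2 = 4 →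
        charZ φ γ = 1 := by
  refine forall_congr' fun γ => forall_congr' fun hγ => ?_
  rw [charZ_apply]
  constructor
  · intro h
    rw [h, map_zero, toMul_zero]
  · intro h
    apply zh_injective n
    apply Additive.toMul.injective
    rw [h, map_zero, toMul_zero]

theorem charZ_transfer [NeZero n] {p : ℕ} [Fact p.Prime] (φ : Additive (Gamma0 N) →+ ZMod n) :
    charZ ((heckeSys N p).addTransfer φ) = (heckeSys N p).transfer (charZ φ) := by
  refine MonoidHom.ext fun γ => ?_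
  rw [charZ_apply, CosetSys.addTransfer_apply, CosetSys.transfer_apply, map_sum, toMul_sum]
  rfl

end Char

/-! ### The isomorphism -/

section Equiv

variable (N : ℕ) [NeZero N] (n : ℕ) [NeZero n]

/-- The `n`-torsion of `J₀(N)`. -/
def JTor : AddSubgroup (JZero N) := (nsmulAddMonoidHom n : JZero N →+ JZero N).ker

variable {N n}

omit [NeZero n] in
theorem mem_JTor {x : JZero N} : x ∈ JTor N n ↔ n • x = 0 := Iff.rfl

variable (hNT : NoTors N n)

include hNT in
theorem exists_rel_charZ (φ : parabolicHoms ℤ (Gamma0 N) (ZMod n)) :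
    ∃ x : JZero N, Rel X0Emb.iota N n x (charZ φ.1) :=
  exists_rel' (NeZero.ne n) (charZ_pow _) (parChar_of hNT (charZ_pow _) (charZ_parabolic.mp φ.2))

/-- The map underlying `jEquiv`. -/
def jHom : parabolicHoms ℤ (Gamma0 N) (ZMod n) →+ JTor N n where
  toFun φ := ⟨(exists_rel_charZ hNT φ).choose,
    (exists_rel_charZ hNT φ).choose_spec.nsmul_eq_zero⟩
  map_zero' := by
    apply Subtype.ext
    refine Rel.unique (bridge X0Emb.iota N) (NeZero.ne n) (charZ_pow _)
      (exists_rel_charZ hNT 0).choose_spec ?_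
    have h : ((0 : parabolicHoms ℤ (Gamma0 N) (ZMod n)) : Additive (Gamma0 N) →+ ZMod n) = 0 :=
      rfl
    rw [h, charZ_zero]
    exact Rel.one X0Emb.iota N n
  map_add' φ ψ := by
    apply Subtype.ext
    refine Rel.unique (bridge X0Emb.iota N) (NeZero.ne n) (charZ_pow _)
      (exists_rel_charZ hNT (φ + ψ)).choose_spec ?_
    have h : ((φ + ψ : parabolicHoms ℤ (Gamma0 N) (ZMod n)) :
      Additive (Gamma0 N) →+ ZMod n) = φ + ψ := rfl
    rw [h, charZ_add]
    exact (exists_rel_charZ hNT φ).choose_spec.mul (exists_rel_charZ hNT ψ).choose_spec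

/-- **The torsion of `J₀(N)` and parabolic homomorphisms.** -/
def jEquiv : parabolicHoms ℤ (Gamma0 N) (ZMod n) ≃+ JTor N n :=
  AddEquiv.ofBijective (jHom hNT) (by
    constructor
    · intro φ ψ h
      have h1 : (exists_rel_charZ hNT φ).choose = (exists_rel_charZ hNT ψ).choose :=
        congrArg Subtype.val h
      have h2 := (exists_rel_charZ hNT φ).choose_spec
      have h3 := (exists_rel_charZ hNT ψ).choose_spec
      rw [← h1] at h3
      exact Subtype.ext (charZ_injective (rel_char_unique (NeZero.ne n) h2 h3 (charZ_pow _)))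
    · rintro ⟨x, hx⟩
      obtain ⟨χ, h1, h2, h3⟩ := exists_rel N (NeZero.ne n) x hx
      obtain ⟨φ, rfl⟩ := exists_charZ h2
      refine ⟨⟨φ, charZ_parabolic.mpr h3⟩, Subtype.ext ?_⟩
      exact Rel.unique (bridge X0Emb.iota N) (NeZero.ne n) (charZ_pow _)
        (exists_rel_charZ hNT ⟨φ, charZ_parabolic.mpr h3⟩).choose_spec h1)

theorem jEquiv_rel (φ : parabolicHoms ℤ (Gamma0 N) (ZMod n)) :
    Rel X0Emb.iota N n (jEquiv hNT φ : JZero N) (charZ φ.1) :=
  (exists_rel_charZ hNT φ).choose_spec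

theorem jEquiv_eq_of_rel {φ : parabolicHoms ℤ (Gamma0 N) (ZMod n)} {x : JZero N}
    (h : Rel X0Emb.iota N n x (charZ φ.1)) : (jEquiv hNT φ : JZero N) = x :=
  Rel.unique (bridge X0Emb.iota N) (NeZero.ne n) (charZ_pow _) (jEquiv_rel hNT φ) h

/-- **Hecke equivariance.** -/
theorem heckeOperatorBar_jEquiv (ℓ : Nat.Primes) (hN : ¬ (ℓ : ℕ) ∣ N)
    (φ ψ : parabolicHoms ℤ (Gamma0 N) (ZMod n))
    (h : haveI : Fact (ℓ : ℕ).Prime := ⟨ℓ.2⟩; ψ.1 = (heckeSys N (ℓ : ℕ)).addTransfer φ.1) :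
    (jEquiv hNT ψ : JZero N) = heckeOperatorBar N ℓ (jEquiv hNT φ : JZero N) := by
  haveI : Fact (ℓ : ℕ).Prime := ⟨ℓ.2⟩
  refine jEquiv_eq_of_rel hNT ?_
  rw [h, charZ_transfer]
  exact (jEquiv_rel hNT φ).hecke ℓ (heckeBridge (ℓ : ℕ) hN)

end Equiv

end Fermat.Agent.Ribet

end
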