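import Fermat.Agent.GalRep.JZ9_Map
import Fermat.Agent.Cofaith.Main
import Fermat.Agent.S27.Export

/-!
# Every torsion class of `J₀(N)` comes from an integral parabolic homomorphism
-/

set_option autoImplicit false

noncomputable section

namespace Fermat.Agent.Ribet

open CongruenceSubgroup ModularCurve ModularCurve.Period AlgebraicCurve
open Fermat.Agent.GalRep Fermat.Agent.X0Emb

/-- `J₀(N)` is divisible. -/
theorem jZero_divisible (N : ℕ) [NeZero N] {n : ℕ} (hn : n ≠ 0) (x : JZero N) :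
    ∃ y : JZero N, n • y = x :=
  (Fermat.Agent.S27.pic0_torsion_divisible (AlgebraicClosure ℚ) (modularFunctionFieldBar N) n
    (by exact_mod_cast hn)).2 x

/-- **Surjectivity of `jMap`.** -/
theorem exists_jMap_eq (N : ℕ) [NeZero N] {n : ℕ} (hn : n ≠ 0) {x : JZero N} (hx : n • x = 0) :
    ∃ φ : parabolicHoms ℤ (Gamma0 N) ℤ, jMap N n hn φ = x := by
  obtain ⟨e, he, h⟩ := Fermat.Agent.Cofaith.exists_rel_charOf N
  obtain ⟨y, hy⟩ := jZero_divisible N he x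
  have hne : n * e ≠ 0 := mul_ne_zero hn he
  have hy0 : (n * e) • y = 0 := by rw [mul_smul, hy, hx]
  obtain ⟨φ, hφ, hrel⟩ := h (n * e) hne y hy0
  rw [hy] at hrel
  set Φ : parabolicHoms ℤ (Gamma0 N) ℤ := ⟨φ, hφ⟩ with hΦ
  have h1 : jMap N (n * e) hne Φ = x := jMap_eq_of_rel hne hrel
  have h2 : jMap N (n * e) hne ((n : ℤ) • Φ) = 0 := by rw [map_zsmul, h1, natCast_zsmul, hx]
  obtain ⟨ψ, hψ⟩ := exists_parabolic_of_jMap_eq_zero hne h2
  refine ⟨ψ, ?_⟩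
  have h3 : Φ = (e : ℤ) • ψ := by
    have h4 : (n : ℤ) • (Φ - (e : ℤ) • ψ) = 0 := by
      rw [smul_sub, hψ, smul_smul, Nat.cast_mul, sub_self]
    have h5 : (Φ : Additive (Gamma0 N) →+ ℤ) - (e : ℤ) • (ψ : Additive (Gamma0 N) →+ ℤ) = 0 := by
      have h6 : (n : ℤ) • ((Φ : Additive (Gamma0 N) →+ ℤ) -
          (e : ℤ) • (ψ : Additive (Gamma0 N) →+ ℤ)) = 0 := congrArg Subtype.val h4
      refine AddMonoidHom.ext fun γ => ?_
      have h7 : (n : ℤ) * (((Φ : Additive (Gamma0 N) →+ ℤ) -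
          (e : ℤ) • (ψ : Additive (Gamma0 N) →+ ℤ)) γ) = 0 := DFunLike.congr_fun h6 γ
      exact (mul_eq_zero.mp h7).resolve_left (by exact_mod_cast hn)
    exact Subtype.ext (sub_eq_zero.mp h5)
  rw [← nsmul_jMap_mul hn he, ← natCast_zsmul, ← map_zsmul, ← h3, h1]

theorem exists_eq_jMap (N : ℕ) [NeZero N] {n : ℕ} (hn : n ≠ 0) {x : JZero N} (hx : n • x = 0) :
    ∃ φ : parabolicHoms ℤ (Gamma0 N) ℤ, x = jMap N n hn φ := by
  obtain ⟨φ, h⟩ := exists_jMap_eq N hn hx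
  exact ⟨φ, h.symm⟩

end Fermat.Agent.Ribet

end
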