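import Fermat.Agent.Ribet.GalN

/-!
# Cluster RIBET, piece R2d: (E) on the Hecke module with coefficients
-/

set_option autoImplicit false
set_option linter.unusedSectionVars false
set_option linter.style.haveILetI false

open Function CongruenceSubgroup Polynomial
open scoped MatrixGroups

noncomputable section

namespace Fermat.Agent.Ribet

open ModularCurve.Period Fermat.Agent.HeckePar Fermat.Agent.TwHecke Fermat.Agent.TwExact IsLocalRing
open Fermat.Agent.GalRep ModularCurve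

/-- In a finite module over a local ring a power of the maximal ideal acts trivially. -/
theorem exists_pow_smul_eq_zero {T : Type*} [CommRing T] [IsLocalRing T] {V : Type*}
    [AddCommGroup V] [Module T V] [Finite V] :
    ∃ j : ℕ, ∀ t ∈ maximalIdeal T ^ j, ∀ v : V, t • v = 0 := by
  let f : ℕ →o (Submodule T V)ᵒᵈ :=
    { toFun := fun j => OrderDual.toDual ((maximalIdeal T ^ j) • (⊤ : Submodule T V))
      monotone' := fun a b hab => by
        show (maximalIdeal T ^ b) • (⊤ : Submodule T V) ≤ (maximalIdeal T ^ a) • ⊤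
        exact Submodule.smul_mono_left (Ideal.pow_le_pow_right hab) }
  obtain ⟨j, hj⟩ := IsArtinian.monotone_stabilizes f
  have h1 : (maximalIdeal T ^ j) • (⊤ : Submodule T V) = (maximalIdeal T ^ (j + 1)) • ⊤ :=
    hj (j + 1) (Nat.le_succ j)
  have h2 : (maximalIdeal T ^ j) • (⊤ : Submodule T V) = ⊥ := by
    refine Submodule.eq_bot_of_le_smul_of_le_jacobson_bot (maximalIdeal T) _
      (IsNoetherian.noetherian _) ?_ (maximalIdeal_le_jacobson _)
    rw [← Submodule.mul_smul, ← pow_succ', ← h1]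
  refine ⟨j, fun t ht v => ?_⟩
  have h3 : t • v ∈ (maximalIdeal T ^ j) • (⊤ : Submodule T V) :=
    Submodule.smul_mem_smul ht trivial
  rw [h2] at h3
  exact (Submodule.mem_bot T).mp h3

section Main

variable {N : ℕ} [NeZero N] {p : ℕ} [hp : Fact p.Prime]
  {O : Type} [CommRing O] [IsLocalRing O] [IsNoetherianRing O]
  [IsAdicComplete (maximalIdeal O) O] {S : Set ℕ} {θ : PIdx S → ResidueField O}
  {T : Type} [CommRing T] [Algebra O T]
  {MN : Type} [AddCommGroup MN] [Module O MN] [Module T MN] [IsScalarTower O T MN]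

/-- The ideal `(p ^ k)`. -/
abbrev Ip (O : Type) [CommRing O] (p k : ℕ) : Ideal O := Ideal.span {(p : O) ^ k}

variable (e : MN ≃ₗ[O] Hm N 1 O S θ) (hne : NonEis1 N S θ)

/-- Reduction modulo `p ^ k`. -/
def redk (p k : ℕ) : MN →ₗ[O] Pm N (O ⧸ Ip O p k) θ :=
  (pmEquiv hne).symm.toLinearMap ∘ₗ (HmMap N 1 S θ (Submodule.mkQ (Ip O p k))) ∘ₗ e.toLinearMap

theorem toHM_redk (k : ℕ) (x : MN) :
    toHM N O (O ⧸ Ip O p k) (redk e hne p k x : parabolicHoms O (Gamma0 N) (O ⧸ Ip O p k)) =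
      H1.map _ (Submodule.mkQ (Ip O p k)) (e x : HM N (1 : (ZMod N)ˣ →* Oˣ) O) := by
  rw [← coe_pmEquiv hne, redk]
  simp only [LinearMap.comp_apply, LinearEquiv.coe_coe, LinearEquiv.apply_symm_apply]
  rfl

theorem redk_surjective (h : Good N (1 : (ZMod N)ˣ →* Oˣ) S θ) (k : ℕ) :
    Surjective (redk e hne p k) := by
  intro y
  obtain ⟨z, hz⟩ := h.surjective (Submodule.mkQ (Ip O p k)) (Submodule.mkQ_surjective _)
    (pmEquiv hne y)
  refine ⟨e.symm z, ?_⟩
  simp only [redk, LinearMap.comp_apply, LinearEquiv.coe_coe, LinearEquiv.apply_symm_apply, hz,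
    LinearEquiv.symm_apply_apply]

theorem redk_eq_zero_iff (h : Good N (1 : (ZMod N)ˣ →* Oˣ) S θ) (k : ℕ) (x : MN) :
    redk e hne p k x = 0 ↔ ∃ y : MN, x = (p : O) ^ k • y := by
  have h1 : redk e hne p k x = 0 ↔ e x ∈ LinearMap.ker (HmMap N 1 S θ (Submodule.mkQ (Ip O p k))) := by
    rw [LinearMap.mem_ker, redk]
    simp only [LinearMap.comp_apply, LinearEquiv.coe_coe, LinearEquiv.map_eq_zero_iff]
  rw [h1, h.ker_mkQ, Submodule.ideal_span_singleton_smul, Submodule.mem_smul_pointwise_iff_exists]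
  constructor
  · rintro ⟨z, -, hz⟩
    exact ⟨e.symm z, e.injective (by rw [map_smul, LinearEquiv.apply_symm_apply, hz])⟩
  · rintro ⟨y, rfl⟩
    exact ⟨e y, trivial, by rw [map_smul]⟩

variable (gen : PIdx S → T)
  (hgen : ∀ (ℓ : PIdx S) (x : MN), (e (gen ℓ • x) : HM N (1 : (ZMod N)ˣ →* Oˣ) O) =
    hop N 1 O S ℓ (e x : HM N (1 : (ZMod N)ˣ →* Oˣ) O))

include hgen in
theorem redk_gen (k : ℕ) (ℓ : PIdx S) (x : MN) :
    (redk e hne p k (gen ℓ • x) : parabolicHoms O (Gamma0 N) (O ⧸ Ip O p k)) =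
      opS N (O ⧸ Ip O p k) S ℓ (redk e hne p k x) := by
  apply toHM_injective N O _
  rw [opS_apply, toHM_opP, toHM_redk, toHM_redk, hgen]
  exact hop_map N 1 S _ ℓ _

/-- The kernel as a `T`-submodule. -/
def Kk (T : Type) [CommRing T] [Module T MN] (p k : ℕ) : Submodule T MN where
  carrier := {x | ∃ y : MN, x = p ^ k • y}
  zero_mem' := ⟨0, by rw [smul_zero]⟩
  add_mem' := by
    rintro _ _ ⟨y, rfl⟩ ⟨z, rfl⟩
    exact ⟨y + z, by rw [smul_add]⟩
  smul_mem' := by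
    rintro t _ ⟨y, rfl⟩
    exact ⟨t • y, by rw [smul_comm]⟩

/-- The finite levels. -/
def Vk (T : Type) [CommRing T] (MN : Type) [AddCommGroup MN] [Module T MN] (p k : ℕ) : Type :=
  MN ⧸ (Kk T p k : Submodule T MN)

instance (T : Type) [CommRing T] (MN : Type) [AddCommGroup MN] [Module T MN] (p k : ℕ) :
    AddCommGroup (Vk T MN p k) := Submodule.Quotient.addCommGroup _

instance (T : Type) [CommRing T] (MN : Type) [AddCommGroup MN] [Module T MN] (p k : ℕ) :
    Module T (Vk T MN p k) := Submodule.Quotient.module _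

/-- The projection to a finite level. -/
def mkV (T : Type) [CommRing T] {MN : Type} [AddCommGroup MN] [Module T MN] (p k : ℕ) :
    MN →ₗ[T] Vk T MN p k := Submodule.mkQ _

theorem mkV_surjective (T : Type) [CommRing T] {MN : Type} [AddCommGroup MN] [Module T MN]
    (p k : ℕ) : Surjective (mkV T (MN := MN) p k) := Submodule.mkQ_surjective _

theorem mkV_eq_zero (T : Type) [CommRing T] {MN : Type} [AddCommGroup MN] [Module T MN]
    (p k : ℕ) (x : MN) : mkV T p k x = 0 ↔ x ∈ (Kk T p k : Submodule T MN) :=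
  Submodule.Quotient.mk_eq_zero _

theorem mem_Kk (h : Good N (1 : (ZMod N)ˣ →* Oˣ) S θ) (k : ℕ) (x : MN) :
    x ∈ (Kk T p k : Submodule T MN) ↔ redk e hne p k x = 0 := by
  rw [redk_eq_zero_iff e hne h]
  have h1 : ∀ y : MN, p ^ k • y = (p : O) ^ k • y := fun y => by
    rw [← Nat.cast_pow, Nat.cast_smul_eq_nsmul]
  simp only [← h1]
  rfl

/-- The map from the finite level. -/
def ekHom (h : Good N (1 : (ZMod N)ˣ →* Oˣ) S θ) (k : ℕ) :
    Vk T MN p k →+ Pm N (O ⧸ Ip O p k) θ :=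
  letI f : (MN ⧸ (Kk T p k : Submodule T MN).toAddSubgroup) →+ Pm N (O ⧸ Ip O p k) θ :=
    QuotientAddGroup.lift (Kk T p k : Submodule T MN).toAddSubgroup
      (redk e hne p k).toAddMonoidHom (fun x hx => (mem_Kk (T := T) e hne h k x).mp hx)
  { toFun := fun v => f v
    map_zero' := map_zero f
    map_add' := fun v w => map_add f v w }

theorem ekHom_mk (h : Good N (1 : (ZMod N)ˣ →* Oˣ) S θ) (k : ℕ) (x : MN) :
    ekHom (T := T) e hne h k (mkV T p k x) = redk e hne p k x := rfl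

theorem ekHom_bijective (h : Good N (1 : (ZMod N)ˣ →* Oˣ) S θ) (k : ℕ) :
    Bijective (ekHom (T := T) e hne h k (p := p)) := by
  constructor
  · rw [injective_iff_map_eq_zero]
    intro v hv
    obtain ⟨x, rfl⟩ := mkV_surjective T p k v
    rw [ekHom_mk, ← mem_Kk (T := T) e hne h] at hv
    rwa [mkV_eq_zero]
  · intro y
    obtain ⟨x, hx⟩ := redk_surjective (p := p) e hne h k y
    exact ⟨mkV T p k x, by rw [ekHom_mk, hx]⟩

/-- The finite levels are `𝔪`-parts of parabolic homomorphisms. -/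
def ek (h : Good N (1 : (ZMod N)ˣ →* Oˣ) S θ) (k : ℕ) :
    Vk T MN p k ≃+ Pm N (O ⧸ Ip O p k) θ :=
  AddEquiv.ofBijective (ekHom e hne h k) (ekHom_bijective e hne h k)

theorem ek_mk (h : Good N (1 : (ZMod N)ˣ →* Oˣ) S θ) (k : ℕ) (x : MN) :
    ek (T := T) e hne h k (mkV T p k x) = redk e hne p k x := rfl

theorem ek_smul (h : Good N (1 : (ZMod N)ˣ →* Oˣ) S θ) (k : ℕ) (a : O) (v : Vk T MN p k) :
    ek e hne h k (algebraMap O T a • v) = a • ek e hne h k v := by
  obtain ⟨x, rfl⟩ := mkV_surjective T p k v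
  rw [← map_smul, ek_mk, ek_mk, algebraMap_smul, map_smul]

include hgen in
theorem ek_gen (h : Good N (1 : (ZMod N)ˣ →* Oˣ) S θ) (k : ℕ) (ℓ : PIdx S) (v : Vk T MN p k) :
    (ek e hne h k (gen ℓ • v) : parabolicHoms O (Gamma0 N) (O ⧸ Ip O p k)) =
      opS N (O ⧸ Ip O p k) S ℓ (ek e hne h k v) := by
  obtain ⟨x, rfl⟩ := mkV_surjective T p k v
  rw [← map_smul, ek_mk, ek_mk, redk_gen e hne gen hgen]

/-! ### The Galois action on the finite levels -/

variable (hNT : ∀ k, NoTors N (p ^ k)) (hS : ∀ ℓ : ℕ, ℓ.Prime → ℓ ∣ N → ℓ ∈ S)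

section Action

variable {k : ℕ} [Module (ZMod (p ^ k)) (O ⧸ Ip O p k)] {ι : Type} [Fintype ι]
  (b : Module.Basis ι (ZMod (p ^ k)) (O ⧸ Ip O p k))

/-- Galois action on the `𝔪`-part. -/
def galPm : GQ →* Module.End O (Pm N (O ⧸ Ip O p k) θ) where
  toFun σ := (galA (hNT k) b σ).restrict fun _ hc => galA_mem_Pm (hNT k) b hS σ hc
  map_one' := LinearMap.ext fun c => Subtype.ext (by
    show galA (hNT k) b 1 (c : parabolicHoms O (Gamma0 N) (O ⧸ Ip O p k)) = c
    rw [map_one]; rfl)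
  map_mul' σ τ := LinearMap.ext fun c => Subtype.ext (by
    show galA (hNT k) b (σ * τ) (c : parabolicHoms O (Gamma0 N) (O ⧸ Ip O p k)) =
      galA (hNT k) b σ (galA (hNT k) b τ (c : parabolicHoms O (Gamma0 N) (O ⧸ Ip O p k)))
    rw [map_mul]; rfl)

theorem coe_galPm (σ : GQ) (c : Pm N (O ⧸ Ip O p k) θ) :
    (galPm hNT hS b σ c : parabolicHoms O (Gamma0 N) (O ⧸ Ip O p k)) = galA (hNT k) b σ c := rfl

variable (h : Good N (1 : (ZMod N)ˣ →* Oˣ) S θ)

/-- the additive Galois action on the finite levels. -/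
def galV0 (T : Type) [CommRing T] [Algebra O T] [Module T MN] [IsScalarTower O T MN] (σ : GQ) :
    Vk T MN p k →+ Vk T MN p k :=
  ((ek e hne h k).symm.toAddMonoidHom.comp (galPm hNT hS b σ).toAddMonoidHom).comp
    (ek e hne h k).toAddMonoidHom

theorem ek_galV0 (σ : GQ) (v : Vk T MN p k) :
    ek e hne h k (galV0 e hne hNT hS b h T σ v) = galPm hNT hS b σ (ek e hne h k v) := by
  show ek e hne h k ((ek e hne h k).symm (galPm hNT hS b σ (ek e hne h k v))) = _
  rw [AddEquiv.apply_symm_apply]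

variable (hadj : Algebra.adjoin O (Set.range gen) = ⊤)

include hgen hadj in
theorem galV0_smul (σ : GQ) (t : T) (v : Vk T MN p k) :
    galV0 e hne hNT hS b h T σ (t • v) = t • galV0 e hne hNT hS b h T σ v := by
  have ht : t ∈ Algebra.adjoin O (Set.range gen) := by rw [hadj]; trivial
  induction ht using Algebra.adjoin_induction generalizing v with
  | mem x hx =>
    obtain ⟨ℓ, rfl⟩ := hx
    apply (ek e hne h k).injective
    apply Subtype.ext
    rw [ek_galV0, coe_galPm, ek_gen e hne gen hgen, ek_gen e hne gen hgen, ek_galV0, coe_galPm,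
      galA_opS (hNT k) b hS]
  | algebraMap a =>
    apply (ek e hne h k).injective
    rw [ek_galV0, ek_smul, ek_smul, ek_galV0, map_smul]
  | add x y _ _ hx hy => rw [add_smul, add_smul, map_add, hx, hy]
  | mul x y _ _ hx hy => rw [mul_smul, mul_smul, hx, hy]

/-- **The Galois action on the finite levels.** -/
def galV : GQ →* Module.End T (Vk T MN p k) where
  toFun σ :=
    { toFun := galV0 e hne hNT hS b h T σ
      map_add' := map_add _
      map_smul' := galV0_smul e hne gen hgen hNT hS b h hadj σ }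
  map_one' := LinearMap.ext fun v => (ek e hne h k).injective (by
    show ek e hne h k (galV0 e hne hNT hS b h T 1 v) = ek e hne h k v
    rw [ek_galV0, map_one]; rfl)
  map_mul' σ τ := LinearMap.ext fun v => (ek e hne h k).injective (by
    show ek e hne h k (galV0 e hne hNT hS b h T (σ * τ) v) =
      ek e hne h k (galV0 e hne hNT hS b h T σ (galV0 e hne hNT hS b h T τ v))
    rw [ek_galV0, ek_galV0, ek_galV0, map_mul]; rfl)

theorem ek_galV (σ : GQ) (v : Vk T MN p k) :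
    ek e hne h k (galV e hne gen hgen hNT hS b h hadj σ v) =
      galPm hNT hS b σ (ek e hne h k v) := ek_galV0 e hne hNT hS b h σ v

/-- finite level -/
theorem galV_finite_level : ∃ L : IntermediateField ℚ (AlgebraicClosure ℚ),
    FiniteDimensional ℚ L ∧ ∀ σ : GQ, (∀ x ∈ L, σ x = x) →
      galV e hne gen hgen hNT hS b h hadj σ = 1 := by
  obtain ⟨L, hL, hL2⟩ := galA_finite_level (O := O) (hNT k) b
  refine ⟨L, hL, fun σ hσ => ?_⟩
  refine LinearMap.ext fun v => (ek e hne h k).injective (Subtype.ext ?_)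
  rw [ek_galV, coe_galPm, hL2 σ hσ]
  rfl

/-- The Eichler–Shimura relation on the finite levels. -/
theorem galV_frobenius
    (hF : letI := heckeModuleBar N;
      FrobeniusQuadratic (K := ℚ) (L := AlgebraicClosure ℚ) N p (JZero N))
    (ℓ : PIdx S) (hℓp : ¬ ((ℓ.1 : Nat.Primes) : ℕ) ∣ N * p)
    (B : ValuationSubring (AlgebraicClosure ℚ)) (hB : B.LiesOverPrime (ℓ.1 : ℕ))
    (φ : GQ) (hφ : B.IsFrobeniusAt φ (ℓ.1 : ℕ)) (v : Vk T MN p k) :
    galV e hne gen hgen hNT hS b h hadj φ (galV e hne gen hgen hNT hS b h hadj φ v) -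
      gen ℓ • galV e hne gen hgen hNT hS b h hadj φ v + ((ℓ.1 : ℕ) : T) • v = 0 := by
  rw [Nat.cast_smul_eq_nsmul]
  set r := galV e hne gen hgen hNT hS b h hadj with hr
  have e1 : ek e hne h k (r φ (r φ v)) =
      galPm hNT hS b φ (galPm hNT hS b φ (ek e hne h k v)) := by
    rw [hr, ek_galV, ek_galV]
  have e2 : (ek e hne h k (gen ℓ • r φ v) : parabolicHoms O (Gamma0 N) (O ⧸ Ip O p k)) =
      opS N (O ⧸ Ip O p k) S ℓ
        (galPm hNT hS b φ (ek e hne h k v) : parabolicHoms O (Gamma0 N) (O ⧸ Ip O p k)) := by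
    rw [ek_gen e hne gen hgen, hr, ek_galV]
  have h1 := galA_frobenius (O := O) (hNT k) b hF ℓ.1 hℓp B hB φ hφ
    (ek e hne h k v : parabolicHoms O (Gamma0 N) (O ⧸ Ip O p k))
  have e4 : ek e hne h k (((ℓ.1 : Nat.Primes) : ℕ) • v) =
      ((ℓ.1 : Nat.Primes) : ℕ) • ek e hne h k v :=
    AddMonoidHom.map_nsmul (ek e hne h k).toAddMonoidHom _ v
  apply (ek e hne h k).injective
  apply Subtype.ext
  rw [map_add, map_sub]
  rw [Submodule.coe_add, Submodule.coe_sub]
  rw [e2, e1, e4]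
  refine Eq.trans ?_ (h1.trans ?_)
  · rfl
  · rw [map_zero]
    rfl

end Action

end Main

section Final

variable {N : ℕ} [NeZero N] {p : ℕ} [hp : Fact p.Prime]
  {O : Type} [CommRing O] [IsLocalRing O] [IsNoetherianRing O]
  [IsAdicComplete (maximalIdeal O) O] {S : Set ℕ} {θ : PIdx S → ResidueField O}
  {T : Type} [CommRing T] [IsLocalRing T] [Algebra O T]
  {MN : Type} [AddCommGroup MN] [Module O MN] [Module T MN] [IsScalarTower O T MN]
  (e : MN ≃ₗ[O] Hm N 1 O S θ) (hne : NonEis1 N S θ) (gen : PIdx S → T)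
  (hgen : ∀ (ℓ : PIdx S) (x : MN), (e (gen ℓ • x) : HM N (1 : (ZMod N)ˣ →* Oˣ) O) =
    hop N 1 O S ℓ (e x : HM N (1 : (ZMod N)ˣ →* Oˣ) O))
  (hNT : ∀ k, NoTors N (p ^ k)) (hS : ∀ ℓ : ℕ, ℓ.Prime → ℓ ∣ N → ℓ ∈ S)
  (h : Good N (1 : (ZMod N)ˣ →* Oˣ) S θ) (hadj : Algebra.adjoin O (Set.range gen) = ⊤)

section

variable {k : ℕ} [Module (ZMod (p ^ k)) (O ⧸ Ip O p k)] {ι : Type} [Fintype ι]
  (b : Module.Basis ι (ZMod (p ^ k)) (O ⧸ Ip O p k))

/-- The relation of Eichler–Shimura for all elements of the Galois group. -/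
theorem galV_esRel (ρ : GaloisRepAdic T) (B : Set ℕ) (hB : B.Finite)
    (hSfin : S.Finite)
    (hfrob : ∀ (ℓ : PIdx S), (ℓ.1 : ℕ) ∉ B → ∀ A : ValuationSubring (AlgebraicClosure ℚ),
      A.LiesOverPrime (ℓ.1 : ℕ) → ∀ φ : GQ, A.IsFrobeniusAt φ (ℓ.1 : ℕ) →
        LinearMap.charpoly (ρ.ρ φ) = X ^ 2 - C (gen ℓ) * X + C (((ℓ.1 : ℕ) : T)))
    (hF : letI := heckeModuleBar N;
      FrobeniusQuadratic (K := ℚ) (L := AlgebraicClosure ℚ) N p (JZero N)) :
    ESRel (galV e hne gen hgen hNT hS b h hadj) (matOf ρ) := by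
  have hfin : Finite (Vk T MN p k) := by
    have h1 : Finite (parabolicHoms O (Gamma0 N) (O ⧸ Ip O p k)) :=
      finite_parabolicA (O := O) (hNT k) b
    have h2 : Finite (Pm N (O ⧸ Ip O p k) θ) := inferInstance
    exact Finite.of_equiv _ (ek (T := T) e hne h k).symm.toEquiv
  obtain ⟨j, hj⟩ := exists_pow_smul_eq_zero (T := T) (V := Vk T MN p k)
  obtain ⟨L, hL, hL2⟩ := matOf_sub_one_mem ρ j
  refine esRel_of_frobenius _ _ (galV_finite_level e hne gen hgen hNT hS b h hadj)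
    ⟨L, hL, fun σ hσ i i' v => hj _ (hL2 σ hσ i i') v⟩
    (S ∪ B ∪ ((N * p).divisors : Set ℕ)) ((hSfin.union hB).union (Finset.finite_toSet _)) ?_
  intro ℓ hℓ hℓS A hA φ hφ
  have h1 : ℓ ∉ S := fun h => hℓS (Or.inl (Or.inl h))
  have h2 : ℓ ∉ B := fun h => hℓS (Or.inl (Or.inr h))
  have h3 : ¬ ℓ ∣ N * p := fun h => hℓS (Or.inr (by
    rw [Finset.mem_coe, Nat.mem_divisors]
    exact ⟨h, mul_ne_zero (NeZero.ne N) hp.out.ne_zero⟩))
  obtain ⟨ht, hd⟩ := trace_det_matOf ρ φ (hfrob ⟨⟨ℓ, hℓ⟩, h1⟩ h2 A hA φ hφ)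
  set r := galV e hne gen hgen hNT hS b h hadj with hr
  have h4 : r φ * r φ - gen ⟨⟨ℓ, hℓ⟩, h1⟩ • r φ + ((ℓ : ℕ) : T) • (1 : Module.End T _) = 0 := by
    refine LinearMap.ext fun v => ?_
    exact galV_frobenius e hne gen hgen hNT hS b h hadj hF ⟨⟨ℓ, hℓ⟩, h1⟩ h3 A hA φ hφ v
  rw [ht, hd]
  have h5 : r φ * r φ⁻¹ = 1 := by rw [← map_mul, mul_inv_cancel, map_one]
  have h6 := congrArg (fun z => z * r φ⁻¹) h4
  simp only [add_mul, sub_mul, smul_mul_assoc, one_mul, mul_assoc, h5, mul_one, zero_mul] at h6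
  have h7 : r φ + ((ℓ : ℕ) : T) • r φ⁻¹ =
      (r φ - gen ⟨⟨ℓ, hℓ⟩, h1⟩ • (1 : Module.End T _) + ((ℓ : ℕ) : T) • r φ⁻¹) +
        gen ⟨⟨ℓ, hℓ⟩, h1⟩ • (1 : Module.End T _) := by abel
  rw [h7, h6, zero_add]

/-- (E) on the finite levels. -/
theorem galV_E (σ : GQ) (hE : EJ N (p ^ k) S θ σ) (v : Vk T MN p k)
    (hv : galV e hne gen hgen hNT hS b h hadj σ v = v) :
    ∃ w, galV e hne gen hgen hNT hS b h hadj σ w - w = v := by
  have h1 : galA (hNT k) b σ (ek e hne h k v : parabolicHoms O (Gamma0 N) (O ⧸ Ip O p k)) =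
      ek e hne h k v := by
    rw [← coe_galPm hNT hS b σ, ← ek_galV e hne gen hgen hNT hS b h hadj, hv]
  obtain ⟨c', hc', h2⟩ := hE_Pm (hNT k) b hS σ hE (ek e hne h k v).2 h1
  refine ⟨(ek e hne h k).symm ⟨c', hc'⟩, (ek e hne h k).injective (Subtype.ext ?_)⟩
  rw [map_sub, ek_galV, AddEquiv.apply_symm_apply, ← h2]
  rfl

end

include e hne hgen hNT hS h hadj in
/-- **(E) on the Hecke module.** -/
theorem hE_MN (hb : ∀ k, ∃ (_ : Module (ZMod (p ^ k)) (O ⧸ Ip O p k)) (d : ℕ),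
      Nonempty (Module.Basis (Fin d) (ZMod (p ^ k)) (O ⧸ Ip O p k)))
    (hpO : (p : O) ∈ maximalIdeal O) (h2 : IsUnit (2 : T))
    (ρ : GaloisRepAdic T) (habs : ρ.residual.IsAbsolutelyIrreducible)
    (B : Set ℕ) (hB : B.Finite) (hSfin : S.Finite)
    (hfrob : ∀ (ℓ : PIdx S), (ℓ.1 : ℕ) ∉ B → ∀ A : ValuationSubring (AlgebraicClosure ℚ),
      A.LiesOverPrime (ℓ.1 : ℕ) → ∀ φ : GQ, A.IsFrobeniusAt φ (ℓ.1 : ℕ) →
        LinearMap.charpoly (ρ.ρ φ) = X ^ 2 - C (gen ℓ) * X + C (((ℓ.1 : ℕ) : T)))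
    (hF : letI := heckeModuleBar N;
      FrobeniusQuadratic (K := ℚ) (L := AlgebraicClosure ℚ) N p (JZero N))
    (σ : GQ) (hE : ∀ k, EJ N (p ^ k) S θ σ) (x : Fin 2 → MN)
    (hx : act (matOf ρ σ - 1) x = 0) : ∃ x', act (matOf ρ σ - 1) x' = x := by
  choose hmod d hbas using hb
  have hfinMN : Module.Finite O MN := by
    have := finite_Hm (M := N) (S := S) O (1 : (ZMod N)ˣ →* Oˣ) θ
    exact Module.Finite.equiv e.symm
  refine hE_of_levels (R := O) (p := p) (G := GQ) (ρ := matOf ρ) hpO h2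
    (span_matOf_eq_top ρ habs) (V := fun k => Vk T MN p k)
    (fun k => letI := hmod k; galV e hne gen hgen hNT hS (hbas k).some h hadj)
    (fun k => letI := hmod k; galV_esRel e hne gen hgen hNT hS h hadj (hbas k).some ρ B hB hSfin
      hfrob hF)
    (fun k => mkV T p k) (fun k => mkV_surjective T p k)
    (fun k x hx => ?_) σ (fun k v hv => ?_) x hx
  · rwa [mkV_eq_zero] at hx
  · letI := hmod k
    exact galV_E e hne gen hgen hNT hS h hadj (hbas k).some σ (hE k) v hv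

end Final

end Fermat.Agent.Ribet

end
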