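import Fermat.Agent.Ribet.LevelRelInst
import Fermat.Agent.Ribet.WRelMain
import Fermat.Agent.Ribet.TameMat
import Fermat.Agent.RibetE.EJ

/-!
# Relations at level `N` for `ℤ_[p]`-coefficients: all geometric inputs discharged
-/

set_option autoImplicit false
set_option linter.unusedSectionVars false
set_option linter.style.haveILetI false

noncomputable section

open CongruenceSubgroup IsLocalRing ModularCurve Polynomial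
open scoped MatrixGroups

namespace Fermat.Agent.Ribet

open Fermat.Agent.HeckePar Fermat.Agent.TwHecke Fermat.Agent.TwExact Fermat.Agent.S41hm
open Fermat.Agent.GalRep Fermat.Agent.QX4

theorem finite_residueField_padic (p : ℕ) [hp : Fact p.Prime] : Finite (ResidueField ℤ_[p]) := by
  haveI : NeZero p := ⟨hp.out.ne_zero⟩
  exact Finite.of_equiv (ZMod p) PadicInt.residueField.symm.toEquiv

/-- **(E)** for the eigensystem of an elliptic curve which is new at `q`. -/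
theorem hE_padic {p : ℕ} [hp : Fact p.Prime] (hp2 : p ≠ 2) {m q : ℕ} [NeZero m] [NeZero q]
    (hq : q.Prime) (hqp : q ≠ p) (hm : ¬ q ∣ m)
    (h12 : p ≠ 3 ∨ ∃ r : ℕ, r.Prime ∧ r ∣ m ∧ r % 12 = 11) {S : Finset ℕ}
    (hS : ∀ ℓ : ℕ, ℓ.Prime → ℓ ∣ m * q → ℓ ∈ (↑S : Set ℕ))
    {W : WeierstrassCurve ℤ} (hΔ : W.Δ ≠ 0) (hirr : W.ModRepIsIrreducible p)
    {θ : PIdx (↑S : Set ℕ) → ResidueField ℤ_[p]}
    (hθ : ∀ ℓ, θ ℓ = ((W.apOfModel (ℓ.1 : ℕ) : ℤ) : ResidueField ℤ_[p]))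
    (hnt : ¬ Nontrivial (MN p m (↑S : Set ℕ) θ))
    {A : ValuationSubring (AlgebraicClosure ℚ)} (hA : A.LiesOverPrime q) {σ₀ : GQ}
    (hσ₀ : RTD.IsTameGen A p q σ₀) (k : ℕ) : EJ (m * q) (p ^ k) (↑S : Set ℕ) θ σ₀ := by
  haveI := charP_residueField_padic p
  haveI := finite_residueField_padic p
  have h3 : p ≠ 3 ∨ ∃ r : ℕ, r.Prime ∧ r ∣ m ∧ r % 3 = 2 :=
    h12.imp id fun ⟨r, h1, h2, h4⟩ => ⟨r, h1, h2, by omega⟩
  obtain ⟨t, ht, hθt⟩ := exists_kill hp2 h3 hθ hnt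
  have hstrong : StrongNonEis (↑S : Set ℕ) θ :=
    strongNonEis_of_model hp2 hΔ hirr S.finite_toSet fun ℓ _ _ => hθ ℓ
  obtain ⟨ℓ, -, hℓ⟩ := hstrong.one 1 one_pos
  refine RibetE.EJ_of_new' hq hm hA hp.out hqp ?_ hS θ ht
    (by rw [hθt]; exact one_ne_zero) (ℓ := ℓ) hℓ hσ₀ k
  rcases h12 with h | h
  · left
    have e : (12 : ℕ) = 2 * 2 * 3 := rfl
    rw [e]
    have h2 : Nat.Coprime p 2 := (Nat.coprime_primes hp.out Nat.prime_two).mpr hp2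
    have h3 : Nat.Coprime p 3 := (Nat.coprime_primes hp.out Nat.prime_three).mpr h
    exact Nat.Coprime.mul_right (Nat.Coprime.mul_right h2 h2) h3
  · exact Or.inr (Or.inr (Or.inr h))

/-- **The relations at level `N = m q`, all geometric inputs discharged.** -/
theorem levelRel_top {p : ℕ} [hp : Fact p.Prime] (hp2 : p ≠ 2) {m q : ℕ} [NeZero m] [NeZero q]
    (hq : q.Prime) (hqp : q ≠ p) (hm : ¬ q ∣ m)
    (h12 : p ≠ 3 ∨ ∃ r : ℕ, r.Prime ∧ r ∣ m ∧ r % 12 = 11) {S : Finset ℕ} (hpS : p ∈ S)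
    (hqS : q ∈ (↑S : Set ℕ)) (hS : ∀ ℓ : ℕ, ℓ.Prime → ℓ ∣ m * q → ℓ ∈ (↑S : Set ℕ))
    {W : WeierstrassCurve ℤ} (hΔ : W.Δ ≠ 0) (hirr : W.ModRepIsIrreducible p)
    {θ : PIdx (↑S : Set ℕ) → ResidueField ℤ_[p]}
    (hθ : ∀ ℓ, θ ℓ = ((W.apOfModel (ℓ.1 : ℕ) : ℤ) : ResidueField ℤ_[p]))
    (hnt : ¬ Nontrivial (MN p m (↑S : Set ℕ) θ))
    {T : Type} [CommRing T] [IsLocalRing T] [IsNoetherianRing T] [Algebra ℤ_[p] T]
    [Module T (MN p (m * q) (↑S : Set ℕ) θ)]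
    [IsScalarTower ℤ_[p] T (MN p (m * q) (↑S : Set ℕ) θ)] (gen : PIdx (↑S : Set ℕ) → T)
    (hgen : ∀ (ℓ : PIdx (↑S : Set ℕ)) (x : MN p (m * q) (↑S : Set ℕ) θ),
      ((gen ℓ • x : MN p (m * q) (↑S : Set ℕ) θ) :
        HM (m * q) (1 : (ZMod (m * q))ˣ →* ℤ_[p]ˣ) ℤ_[p]) =
        hop (m * q) 1 ℤ_[p] (↑S : Set ℕ) ℓ
          (x : HM (m * q) (1 : (ZMod (m * q))ˣ →* ℤ_[p]ˣ) ℤ_[p]))
    (hadj : Algebra.adjoin ℤ_[p] (Set.range gen) = ⊤)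
    (ρ : GaloisRepAdic T) (hdet : ρ.DetIsCyclotomic p)
    (habs : ρ.residual.IsAbsolutelyIrreducible)
    (B : Set ℕ) (hB : B.Finite)
    (hfrob : ∀ (ℓ : PIdx (↑S : Set ℕ)), (ℓ.1 : ℕ) ∉ B →
      ∀ A : ValuationSubring (AlgebraicClosure ℚ),
      A.LiesOverPrime (ℓ.1 : ℕ) → ∀ φ : GQ, A.IsFrobeniusAt φ (ℓ.1 : ℕ) →
        LinearMap.charpoly (ρ.ρ φ) = X ^ 2 - C (gen ℓ) * X + C (((ℓ.1 : ℕ) : T)))
    {A : ValuationSubring (AlgebraicClosure ℚ)} (hA : A.LiesOverPrime q) {σ₀ φ : GQ}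
    (hσ₀ : RTD.IsTameGen A p q σ₀) (hφ : A.IsFrobeniusAt φ q)
    (hur : ∀ σ ∈ A.inertiaSubgroupIn ℚ, ρ.residual.ρ σ = 1) :
    LevelRel (matOf ρ σ₀) (matOf ρ φ) (wT hq hm hqS gen hgen hadj) q :=
  levelRel_padic hp2 hq hqp hm (h12.imp id fun ⟨r, h1, h2, h4⟩ => ⟨r, h1, h2, by omega⟩)
    hpS hqS hS hΔ hirr hθ hnt gen hgen hadj ρ hdet habs B hB hfrob hA hσ₀.1 hφ
    (tame_matOf' hq hqp hA ρ hdet hur hφ hσ₀.1)
    (wRel hq hm) (hE_padic hp2 hq hqp hm h12 hS hΔ hirr hθ hnt hA hσ₀)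

end Fermat.Agent.Ribet

end
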