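import Mathlib

/-!
# Localisation of finite modules at a maximal ideal
-/

set_option autoImplicit false

namespace Fermat.Agent.Ribet

variable {R : Type*} [CommRing R] (m : Ideal R) (W : Type*) [AddCommGroup W] [Module R W]

/-- The elements killed by a power of `m`. -/
def loc : Submodule R W where
  carrier := {x | ∃ k : ℕ, ∀ t ∈ m ^ k, t • x = 0}
  zero_mem' := ⟨0, fun t _ => smul_zero t⟩
  add_mem' := by
    rintro x y ⟨k, hk⟩ ⟨l, hl⟩
    refine ⟨k + l, fun t ht => ?_⟩
    rw [smul_add, hk t (Ideal.pow_le_pow_right (Nat.le_add_right k l) ht),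
      hl t (Ideal.pow_le_pow_right (Nat.le_add_left l k) ht), add_zero]
  smul_mem' := by
    rintro c x ⟨k, hk⟩
    refine ⟨k, fun t ht => ?_⟩
    rw [smul_comm, hk t ht, smul_zero]

variable {m W}

theorem mem_loc {x : W} : x ∈ loc m W ↔ ∃ k : ℕ, ∀ t ∈ m ^ k, t • x = 0 := Iff.rfl

/-- Functoriality. -/
theorem map_mem_loc {V : Type*} [AddCommGroup V] [Module R V] (f : W →ₗ[R] V) {x : W}
    (hx : x ∈ loc m W) : f x ∈ loc m V := by
  obtain ⟨k, hk⟩ := hx
  exact ⟨k, fun t ht => by rw [← map_smul, hk t ht, map_zero]⟩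

/-- elements outside `m` act invertibly on `loc m W`. -/
theorem exists_inv [hm : m.IsMaximal] {t : R} (ht : t ∉ m) {x : W} (hx : x ∈ loc m W) :
    ∃ u : R, t • (u • x) = x := by
  obtain ⟨k, hk⟩ := hx
  obtain ⟨r, i, hi, h⟩ := hm.exists_inv ht
  -- `i = 1 - r t ∈ m`
  have h1 : i ^ k • x = 0 := hk _ (Ideal.pow_mem_pow hi k)
  obtain ⟨c, hc⟩ : (1 - i) ∣ (1 - i ^ k) := by
    simpa using sub_dvd_pow_sub_pow 1 i k
  refine ⟨r * c, ?_⟩
  have h2 : t * (r * c) = 1 - i ^ k := by
    rw [hc]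
    have : r * t = 1 - i := by rw [← h]; ring
    rw [← this]
    ring
  rw [← mul_smul, h2, sub_smul, one_smul, h1, sub_zero]

theorem smul_eq_zero_of_notMem [hm : m.IsMaximal] {t : R} (ht : t ∉ m) {x : W}
    (hx : x ∈ loc m W) (h : t • x = 0) : x = 0 := by
  obtain ⟨u, hu⟩ := exists_inv ht hx
  rw [← hu, smul_comm, h, smul_zero]

/-- The idempotent. -/
theorem exists_idem [Finite W] (m : Ideal R) : ∃ e : R, e - 1 ∈ m ∧ (∀ x : W, e • x ∈ loc m W) ∧
    ∀ x ∈ loc m W, e • x = x := by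
  classical
  -- the sequence `m ^ k W` stabilises
  obtain ⟨K, hK⟩ : ∃ K : ℕ, ∀ n, K ≤ n → (m ^ K • (⊤ : Submodule R W)) = m ^ n • ⊤ := by
    have : IsArtinian R W := inferInstance
    let f : ℕ →o (Submodule R W)ᵒᵈ :=
      { toFun := fun n => OrderDual.toDual (m ^ n • (⊤ : Submodule R W))
        monotone' := fun a b hab =>
          Submodule.smul_mono_left (Ideal.pow_le_pow_right hab) }
    obtain ⟨n, hn⟩ := IsArtinian.monotone_stabilizes f
    exact ⟨n, fun k hk => OrderDual.toDual.injective (hn k hk)⟩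
  set W' : Submodule R W := m ^ K • ⊤ with hW'
  have hmW' : W' ≤ m • W' := by
    rw [hW', ← mul_smul, ← pow_succ', ← hK (K + 1) (Nat.le_succ K)]
  have hfg : W'.FG := IsNoetherian.noetherian W'
  obtain ⟨r, hr, hrW⟩ := Submodule.exists_sub_one_mem_and_smul_eq_zero_of_fg_of_le_smul m W' hfg
    hmW'
  -- `e = 1 - (1 - r)^K`
  refine ⟨1 - (1 - r) ^ (K + 1), ?_, ?_, ?_⟩
  · rw [sub_sub_cancel_left]
    apply neg_mem
    apply Ideal.pow_mem_of_mem _ _ _ (Nat.succ_pos K)
    rw [← neg_sub]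
    exact neg_mem hr
  · intro x
    refine ⟨K, fun t ht => ?_⟩
    rw [smul_comm]
    have h1 : t • x ∈ W' := Submodule.smul_mem_smul ht Submodule.mem_top
    obtain ⟨c, hc⟩ : r ∣ (1 - (1 - r) ^ (K + 1)) := by
      simpa using sub_dvd_pow_sub_pow 1 (1 - r) (K + 1)
    rw [hc, mul_comm, mul_smul, hrW _ h1, smul_zero]
  · rintro x ⟨k, hk⟩
    rw [sub_smul, one_smul, sub_eq_self]
    have hm1 : (1 - r) ∈ m := by
      rw [← neg_sub]
      exact neg_mem hr
    have h1 : (1 - r) ^ (K + 1) • x ∈ W' :=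
      Submodule.smul_mem_smul (Ideal.pow_le_pow_right (Nat.le_succ K)
        (Ideal.pow_mem_pow hm1 (K + 1))) Submodule.mem_top
    have h2 := hrW _ h1
    -- `(1 - r)` acts as the identity on `W'`
    have h3 : ∀ j : ℕ, (1 - r) ^ j • ((1 - r) ^ (K + 1) • x) = (1 - r) ^ (K + 1) • x := by
      intro j
      induction j with
      | zero => rw [pow_zero, one_smul]
      | succ j ih => rw [pow_succ, mul_smul, sub_smul, one_smul, h2, sub_zero, ih]
    rw [← h3 k, smul_comm, hk _ (Ideal.pow_mem_pow hm1 k), smul_zero]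

/-- Localised version of "invariants are norms". -/
theorem exists_norm_of_loc [Finite W] [hm : m.IsMaximal] (δ Nm : W →ₗ[R] W) {t : R} (ht : t ∉ m)
    (h : ∀ x, δ x = x → ∃ y, t • x = Nm y) {x : W} (hx : x ∈ loc m W) (hδ : δ x = x) :
    ∃ y ∈ loc m W, x = Nm y := by
  obtain ⟨e, -, he1, he2⟩ := exists_idem (W := W) m
  obtain ⟨u, hu⟩ := exists_inv ht hx
  obtain ⟨y, hy⟩ := h (u • x) (by rw [map_smul, hδ])
  refine ⟨e • y, he1 y, ?_⟩
  rw [map_smul, ← hy, hu, he2 x hx]

/-- Herbrand quotient argument: on `loc m W` the kernel of the norm is the image of `δ - 1`. -/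
theorem exists_sub_of_norm_eq_zero [Finite W] [hm : m.IsMaximal] (δ Nm : W →ₗ[R] W) {t : R}
    (ht : t ∉ m) (h : ∀ x, δ x = x → ∃ y, t • x = Nm y)
    (h1 : ∀ x, Nm (δ x) = Nm x) (h2 : ∀ x, δ (Nm x) = Nm x) {x : W} (hx : x ∈ loc m W)
    (hN : Nm x = 0) : ∃ y ∈ loc m W, x = δ y - y := by
  classical
  let L := loc m W
  let a : L →ₗ[R] L := (δ - LinearMap.id).restrict (p := L) (q := L) (fun x hx => map_mem_loc _ hx)
  let b : L →ₗ[R] L := Nm.restrict (p := L) (q := L) (fun x hx => map_mem_loc _ hx)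
  have hab : LinearMap.range a ≤ LinearMap.ker b := by
    rintro _ ⟨y, rfl⟩
    rw [LinearMap.mem_ker]
    apply Subtype.ext
    change Nm (δ y - y) = 0
    rw [map_sub, h1, sub_self]
  have hker : LinearMap.ker a = LinearMap.range b := by
    apply le_antisymm
    · intro y hy
      rw [LinearMap.mem_ker] at hy
      have h3 : δ y - (y : W) = 0 := congrArg Subtype.val hy
      obtain ⟨z, hz, hz2⟩ := exists_norm_of_loc δ Nm ht h y.2 (sub_eq_zero.mp h3)
      exact ⟨⟨z, hz⟩, Subtype.ext hz2.symm⟩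
    · rintro _ ⟨y, rfl⟩
      rw [LinearMap.mem_ker]
      apply Subtype.ext
      change δ (Nm y) - Nm y = 0
      rw [h2, sub_self]
  have hcard : ∀ f : L →ₗ[R] L, Nat.card (LinearMap.ker f) * Nat.card (LinearMap.range f) =
      Nat.card L := by
    intro f
    rw [Nat.card_congr f.quotKerEquivRange.symm.toEquiv]
    have := (LinearMap.ker f).toAddSubgroup.card_eq_card_quotient_mul_card_addSubgroup
    rw [this, mul_comm]
    rfl
  have ha := hcard a
  have hb := hcard b
  rw [hker] at ha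
  have hpos : 0 < Nat.card (LinearMap.range b) := Nat.card_pos
  have heq : Nat.card (LinearMap.range a) = Nat.card (LinearMap.ker b) := by
    apply Nat.eq_of_mul_eq_mul_left hpos
    rw [ha, ← hb, mul_comm]
  have hset : LinearMap.range a = LinearMap.ker b := by
    apply SetLike.coe_injective
    apply Set.eq_of_subset_of_ncard_le hab
    · rw [← Nat.card_coe_set_eq, ← Nat.card_coe_set_eq]
      exact heq.ge
  have hx' : (⟨x, hx⟩ : L) ∈ LinearMap.ker b := by
    rw [LinearMap.mem_ker]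
    exact Subtype.ext hN
  rw [← hset] at hx'
  obtain ⟨y, hy⟩ := hx'
  exact ⟨y, y.2, (congrArg Subtype.val hy).symm⟩

end Fermat.Agent.Ribet
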