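import Fermat.Agent.Ribet.ShTop
import Fermat.Agent.Ribet.LevelRelTop
import Fermat.Agent.Ribet.Wire
import Fermat.Agent.S36

/-!
# Ribet's theorem for the modules `MN`, `q ≡ 1 mod p`
-/

set_option autoImplicit false
set_option linter.style.haveILetI false

noncomputable section

open IsLocalRing

namespace Fermat.Agent.Ribet

open Fermat.Agent.TwExact Fermat.Agent.S41hm Fermat.Agent.GalRep

/-- **Ribet's theorem** for the modules `MN`, `q ≡ 1 mod p`. -/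
theorem Sh.lowerMN : LowerMN := by
  intro p _ hp2 W hΔQ _ hirr m q _ _ _ hq hqp hm hq1 h12 S _ hpS hqS hmS hbad θ hθ hunr hnt'
  haveI : NeZero q := ⟨hq.ne_zero⟩
  have hΔ0 : W.Δ ≠ 0 := by
    intro h
    apply hΔQ
    rw [WeierstrassCurve.map_Δ, h, map_zero]
  have h3 : p ≠ 3 ∨ ∃ r : ℕ, r.Prime ∧ r ∣ m ∧ r % 3 = 2 :=
    h12.imp id fun ⟨r, h1, h2, h4⟩ => ⟨r, h1, h2, by omega⟩
  have hS : ∀ ℓ : ℕ, ℓ.Prime → ℓ ∣ m * q → ℓ ∈ (↑S : Set ℕ) := by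
    intro ℓ hℓ hd
    rcases hℓ.dvd_mul.mp hd with h | h
    · exact hmS ℓ hℓ h
    · rw [(Nat.prime_dvd_prime_iff_eq hℓ hq).mp h]; exact hqS
  exact Sh.lowerMN_of p hp2 W hΔQ hirr m q hq hqp hm hq1 h3 S hpS hqS hmS hbad θ hθ hunr hnt'
    (fun M _ g hg lam _ S O' _ _ _ _ _ _ h1 h2 chig hchig iota h3 h4 hres =>
      S36.result hg lam S O' h1 h2 chig hchig iota h3 h4 hres) (wRel hq hm)
    (fun hnt A σ₀ hA hσ₀ k => hE_padic hp2 hq hqp hm h12 hS hΔ0 hirr hθ hnt hA hσ₀ k)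

end Fermat.Agent.Ribet

end
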