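import Fermat.Agent.Ribet.AsmMod
import Fermat.Agent.Ribet.Wire
import Fermat.Agent.S36

/-!
# Ribet's theorem, road B: `LowerMN` from the Hecke ring data
-/

set_option autoImplicit false
set_option linter.unusedSectionVars false
set_option linter.unusedVariables false
set_option linter.style.haveILetI false
set_option synthInstance.maxHeartbeats 400000
set_option maxHeartbeats 1000000

noncomputable section

open CongruenceSubgroup IsLocalRing ModularCurve Polynomial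
open scoped MatrixGroups

namespace Fermat.Agent.Ribet

open Fermat.Agent.HeckePar Fermat.Agent.TwHecke Fermat.Agent.TwExact Fermat.Agent.S41hm
open Fermat.Agent.GalRep Fermat.Agent.QX4 HeckeRep RT WeierstrassCurve Tate

/-- S36 in the form used by the modularity lifting files. -/
theorem stmt36 : Stmt36 := by
  intro M _ g hg lam _ S O' _ _ _ _ _ _ h1 h2 chig h3 iota h4 h5 h6
  exact Fermat.Agent.S36.result hg lam S O' h1 h2 chig h3 iota h4 h5 h6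

/-- A Hecke ring acting on the family and on level `m q`, with its Galois representation. -/
def RepData (p : ℕ) [Fact p.Prime] (m q : ℕ) {Δ : Type} [CommGroup Δ] (τ0 : (ZMod q)ˣ →* Δ)
    [IsLocalRing (MonoidAlgebra ℤ_[p] Δ)] [IsLocalHom (algebraMap ℤ_[p] (MonoidAlgebra ℤ_[p] Δ))]
    (S : Finset ℕ) (θ : PIdx (↑S : Set ℕ) → ResidueField ℤ_[p]) : Prop :=
  ∃ (T : Type) (_ : CommRing T) (_ : IsLocalRing T) (_ : Algebra ℤ_[p] T)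
    (_ : Module.Finite ℤ_[p] T)
    (act : T →ₐ[ℤ_[p]] Module.End ℤ_[p] (MD p (m * q) (tauQ m q τ0) (↑S : Set ℕ) θ))
    (actN : T →ₐ[ℤ_[p]] Module.End ℤ_[p] (MN p (m * q) (↑S : Set ℕ) θ))
    (tl : PIdx (↑S : Set ℕ) → T) (ρ : GaloisRepAdic T),
    (∀ ℓ (y : MD p (m * q) (tauQ m q τ0) (↑S : Set ℕ) θ),
      ((act (tl ℓ) y : MD p (m * q) (tauQ m q τ0) (↑S : Set ℕ) θ) :
        HM (m * q) (taut ℤ_[p] (tauQ m q τ0) ^ 2) (MonoidAlgebra ℤ_[p] Δ)) =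
        nop (taut ℤ_[p] (tauQ m q τ0)) (↑S : Set ℕ) ℓ
          (y : HM (m * q) (taut ℤ_[p] (tauQ m q τ0) ^ 2) (MonoidAlgebra ℤ_[p] Δ))) ∧
    (∀ ℓ (x : MN p (m * q) (↑S : Set ℕ) θ),
      ((actN (tl ℓ) x : MN p (m * q) (↑S : Set ℕ) θ) :
        HM (m * q) (1 : (ZMod (m * q))ˣ →* ℤ_[p]ˣ) ℤ_[p]) =
        hop (m * q) 1 ℤ_[p] (↑S : Set ℕ) ℓ
          (x : HM (m * q) (1 : (ZMod (m * q))ˣ →* ℤ_[p]ˣ) ℤ_[p])) ∧
    Algebra.adjoin ℤ_[p] (Set.range tl) = ⊤ ∧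
    ρ.DetIsCyclotomic p ∧ ρ.residual.IsAbsolutelyIrreducible ∧ ρ.residual.IsOdd ∧
    (∀ ℓ : PIdx (↑S : Set ℕ),
      ∀ A : ValuationSubring (AlgebraicClosure ℚ), A.LiesOverPrime ℓ.1 →
      ∀ σ : AlgebraicClosure ℚ ≃ₐ[ℚ] AlgebraicClosure ℚ, A.IsFrobeniusAt σ ℓ.1 →
        LinearMap.charpoly (ρ.ρ σ) = X ^ 2 - C (tl ℓ) * X + C (((ℓ.1 : ℕ) : ℕ) : T)) ∧
    (∀ A : ValuationSubring (AlgebraicClosure ℚ), A.LiesOverPrime q →
      ∀ σ ∈ A.inertiaSubgroupIn ℚ, ρ.residual.ρ σ = 1)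

/-- The existence of the Hecke ring data. -/
def RepStmt : Prop :=
  ∀ (p : ℕ) [Fact p.Prime] (_ : p ≠ 2) (W : WeierstrassCurve ℤ)
    (hΔ : (W.map (Int.castRingHom ℚ)).Δ ≠ 0) (_ : W.IsSemistableModel)
    (_ : W.ModRepIsIrreducible p) (m q : ℕ) [NeZero m] [NeZero q] [NeZero (m * q)]
    (_ : Squarefree m)
    (_ : q.Prime) (_ : q ≠ p) (_ : ¬ q ∣ m)
    (_ : p ≠ 3 ∨ ∃ r : ℕ, r.Prime ∧ r ∣ m ∧ r % 12 = 11)
    (S : Finset ℕ) (_ : ∀ ℓ ∈ S, ℓ.Prime) (_ : p ∈ S) (_ : q ∈ S)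
    (_ : ∀ ℓ : ℕ, ℓ.Prime → ℓ ∣ m → ℓ ∈ S)
    (_ : ∀ ℓ : ℕ, ℓ.Prime → ¬ W.IsGoodPrimeFor ℓ → ℓ ∈ S)
    (θ : PIdx (↑S : Set ℕ) → ResidueField ℤ_[p])
    (_ : ∀ ℓ : PIdx (↑S : Set ℕ), θ ℓ = ((W.apOfModel (ℓ.1 : ℕ) : ℤ) : ResidueField ℤ_[p]))
    (_ : (rbar hΔ p).IsUnramifiedAt q) (_ : Nontrivial (MN p (m * q) (↑S : Set ℕ) θ))
    (Δ : Type) [CommGroup Δ] [Fintype Δ] (_ : IsPGroup p Δ) (τ0 : (ZMod q)ˣ →* Δ)
    (_ : Function.Surjective τ0) [IsLocalRing (MonoidAlgebra ℤ_[p] Δ)]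
    [IsLocalHom (algebraMap ℤ_[p] (MonoidAlgebra ℤ_[p] Δ))],
    RepData p m q τ0 S θ

/-- **`LowerMN`** from the Hecke ring data. -/
theorem lowerMN_of (H : RepStmt) : LowerMN := by
  intro p hp hp2 W hΔ hWs hirr m q iM iMq hmsq hq hqp hm hq1 h12 S hSp hpS hqS hSm hWS θ hθ hunr
    hnt
  haveI : NeZero q := ⟨hq.ne_zero⟩
  have hS : ∀ ℓ : ℕ, ℓ.Prime → ℓ ∣ m * q → ℓ ∈ (↑S : Set ℕ) := by
    intro ℓ hℓ hd
    rcases hℓ.dvd_mul.mp hd with h | h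
    · exact hSm ℓ hℓ h
    · rw [(Nat.prime_dvd_prime_iff_eq hℓ hq).mp h]
      exact hqS
  have hW : W.Δ ≠ 0 := by
    intro h
    apply hΔ
    rw [WeierstrassCurve.map_Δ, h, map_zero]
  obtain ⟨k, r, a, hqk, ha, ha0, hk, hr⟩ := exists_arith hp.out hp2 hq hq1
  obtain ⟨τ0, hτ0⟩ := exists_tau0 (p := p) (k := k) hq (by rw [hqk, Nat.add_sub_cancel_left]; exact dvd_mul_right _ _)
  haveI : NeZero (p ^ k) := ⟨pow_ne_zero k hp.out.ne_zero⟩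
  haveI : Fintype (Multiplicative (ZMod (p ^ k))) := Fintype.ofFinite _
  have hΔp : IsPGroup p (Multiplicative (ZMod (p ^ k))) := isPGroup_mul_zmod p k
  haveI i1 : IsLocalRing (MonoidAlgebra ℤ_[p] (Multiplicative (ZMod (p ^ k)))) :=
    RT.isLocalRing_groupRing (natCast_mem_maximalIdeal_padic p) hΔp
  haveI i2 : IsLocalHom (algebraMap ℤ_[p] (MonoidAlgebra ℤ_[p] (Multiplicative (ZMod (p ^ k))))) :=
    isLocalHom_groupRing
  obtain ⟨T, j1, j2, j3, j4, act, actN, tl, ρ, ht, hgen, hadj, hdet, habs, hodd, hfrob, hur⟩ :=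
    H p hp2 W hΔ hWs hirr m q hmsq hq hqp hm h12 S hSp hpS hqS hSm hWS θ hθ hunr hnt _ hΔp τ0 hτ0
  letI iT : Module T (MN p (m * q) (↑S : Set ℕ) θ) :=
    Module.compHom _ (actN : T →+* Module.End ℤ_[p] (MN p (m * q) (↑S : Set ℕ) θ))
  haveI iST : IsScalarTower ℤ_[p] T (MN p (m * q) (↑S : Set ℕ) θ) :=
    IsScalarTower.of_algebraMap_smul fun c x => by
      show actN (algebraMap ℤ_[p] T c) x = c • x
      rw [AlgHom.commutes, Module.algebraMap_end_apply]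
  exact nontrivial_MN_of_rep hq hm hΔp (mem_zpowers_ofAdd_one (p ^ k)) hτ0 stmt36 hp2 hqp h12 hqk ha
    ha0 hk.ne' hr (orderOf_ofAdd_one (p ^ k)) hpS hqS hS hW hirr hθ act tl ht hgen hadj ρ hdet habs
    hodd hfrob hur hnt

end Fermat.Agent.Ribet

end
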