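import Fermat.Agent.RibetE.Fix
import Fermat.Agent.TwoComp.SwapInst
import Fermat.Agent.S44w.Main
import Fermat.Agent.Ribet.Forms

/-!
# Mazur's principle

Level lowering at `q ‖ N`, `q ≢ 1 (mod p)`, for a mod `p` representation unramified at `q`.
-/

set_option autoImplicit false
set_option linter.unusedSectionVars false
set_option linter.style.haveILetI false

noncomputable section

open CuspForm ModularCurve HahnSeries Module AlgebraicCurve
open Fermat.Agent.GaussVal Fermat.Agent.FF Fermat.Agent.RR Fermat.Agent.TwoGauss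
open Fermat.Agent.TEll Fermat.Agent.Star Fermat.Agent.GalRep Fermat.Agent.S44w
open WeierstrassCurve WeierstrassCurve.Affine WeierstrassCurve.Affine.Point
open Fermat.Agent.ECFrob Fermat.Agent.Torsion Fermat.Agent.ECRed
open scoped Fermat.Agent.GaussVal
open Fermat.Agent.QX4 (Split wJ wJ_wJ wJ_galois)
open Fermat.Agent.RibetE

namespace Fermat.Agent.Ribet

local notation "𝕂" => AlgebraicClosure ℚ

/-! ### Linear algebra: a Frobenius commuting with the whole group -/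

section Lin

variable {W : WeierstrassCurve ℤ} {p : ℕ} [hp : Fact p.Prime] {S : Finset ℕ} {a : ℕ → ℤ}
  {J : Type*} [AddCommGroup J] [Module HeckeAlg J] [DistribMulAction GQ J]
  [SMulCommClass GQ HeckeAlg J]

/-- If `φ` acts on the eigenspace as `c w` with `w` an involution commuting with the Galois group,
then `det ρ(φ) = c²`. -/
theorem det_eq_sq_of_smul (hΔ : W.Δ ≠ 0) (hp2 : p ≠ 2)
    (hspan : Submodule.span (ZMod p) (Set.range (rho W p)) = ⊤)
    (hX : ∀ g : GQ, eigenRep S p a J g * eigenRep S p a J g =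
      LinearMap.trace (ZMod p) _ (rho W p g) • eigenRep S p a J g -
        algebraMap (ZMod p) _ (LinearMap.det (rho W p g)))
    (hne : ∃ x ∈ eigenPart S p a J, x ≠ 0) (φ : GQ) (w : J →+ J) (c : ℤ)
    (hφ : ∀ x ∈ eigenPart S p a J, φ • x = c • w x)
    (hw : ∀ x ∈ eigenPart S p a J, w (w x) = x)
    (hwX : ∀ x ∈ eigenPart S p a J, w x ∈ eigenPart S p a J)
    (hwg : ∀ (g : GQ) (x : J), w (g • x) = g • w x) :
    LinearMap.det (rho W p φ) = ((c * c : ℤ) : ZMod p) := by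
  haveI := finite_rat hΔ hp.out.ne_zero
  haveI : Module.Finite (ZMod p)
      (Submodule.torsionBy ℤ ((W.map (Int.castRingHom ℚ))⁄(AlgebraicClosure ℚ)).Point p) :=
    Module.Finite.of_finite
  let b := Module.finBasisOfFinrankEq _ _ (finrank_rat hΔ (p := p))
  haveI : Nontrivial (eigenPart S p a J) := by
    obtain ⟨x, hx, hx0⟩ := hne
    exact ⟨⟨x, hx⟩, 0, fun h => hx0 (congrArg Subtype.val h)⟩
  have h2 := two_ne_zero_zmod (p := p) hp2
  -- `φ` commutes with everything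
  have hcomm : ∀ g : GQ, rho W p g * rho W p φ = rho W p φ * rho W p g := by
    intro g
    have h3 := blr_converse (rho W p) (eigenRep S p a J) h2 b hspan hX
      (MonoidAlgebra.of (ZMod p) GQ g * MonoidAlgebra.of (ZMod p) GQ φ -
        MonoidAlgebra.of (ZMod p) GQ φ * MonoidAlgebra.of (ZMod p) GQ g) (by
        rw [map_sub, sub_eq_zero, map_mul, map_mul]
        refine LinearMap.ext fun x => Subtype.ext ?_
        have h5 : (((MonoidAlgebra.lift (ZMod p) _ _ (eigenRep S p a J)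
            (MonoidAlgebra.of (ZMod p) GQ g) * MonoidAlgebra.lift (ZMod p) _ _ (eigenRep S p a J)
            (MonoidAlgebra.of (ZMod p) GQ φ)) x : eigenPart S p a J) : J) =
            g • φ • (x : J) := by simp
        have h6 : (((MonoidAlgebra.lift (ZMod p) _ _ (eigenRep S p a J)
            (MonoidAlgebra.of (ZMod p) GQ φ) * MonoidAlgebra.lift (ZMod p) _ _ (eigenRep S p a J)
            (MonoidAlgebra.of (ZMod p) GQ g)) x : eigenPart S p a J) : J) =
            φ • g • (x : J) := by simp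
        rw [h5, h6, hφ x x.2, hφ _ (gsmul_mem_eigenPart g x.2), hwg, smul_comm])
    rw [map_sub, sub_eq_zero, map_mul, map_mul] at h3
    simpa using h3
  -- so it is a scalar
  obtain ⟨d, hd⟩ : ∃ d : ZMod p, rho W p φ = algebraMap (ZMod p) (Module.End (ZMod p) _) d := by
    rw [← Algebra.IsCentral.mem_center_iff (K := ZMod p), Subalgebra.mem_center_iff]
    intro y
    have hy : y ∈ Submodule.span (ZMod p) (Set.range (rho W p)) := by rw [hspan]; trivial
    induction hy using Submodule.span_induction with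
    | mem x hx => obtain ⟨g, rfl⟩ := hx; exact hcomm g
    | zero => rw [zero_mul, mul_zero]
    | add x y _ _ hx hy => rw [add_mul, mul_add, hx, hy]
    | smul e x _ hx => rw [smul_mul_assoc, mul_smul_comm, hx]
  -- the square
  have hsq : rho W p φ * rho W p φ = algebraMap (ZMod p) _ ((c * c : ℤ) : ZMod p) := by
    have h3 := blr_converse (rho W p) (eigenRep S p a J) h2 b hspan hX
      (MonoidAlgebra.of (ZMod p) GQ φ * MonoidAlgebra.of (ZMod p) GQ φ -
        algebraMap (ZMod p) _ ((c * c : ℤ) : ZMod p)) (by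
        rw [map_sub, sub_eq_zero, map_mul, AlgHom.commutes]
        refine LinearMap.ext fun x => Subtype.ext ?_
        have h5 : (((MonoidAlgebra.lift (ZMod p) _ _ (eigenRep S p a J)
            (MonoidAlgebra.of (ZMod p) GQ φ) * MonoidAlgebra.lift (ZMod p) _ _ (eigenRep S p a J)
            (MonoidAlgebra.of (ZMod p) GQ φ)) x : eigenPart S p a J) : J) =
            φ • φ • (x : J) := by simp
        have h6 : (((algebraMap (ZMod p) (Module.End (ZMod p) (eigenPart S p a J))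
            ((c * c : ℤ) : ZMod p)) x : eigenPart S p a J) : J) = (c * c) • (x : J) := by
          rw [Module.algebraMap_end_apply, Int.cast_smul_eq_zsmul]
          rfl
        rw [h5, h6, hφ x x.2, smul_comm, hφ _ (hwX _ x.2), hw _ x.2, smul_smul])
    rw [map_sub, sub_eq_zero, map_mul, AlgHom.commutes] at h3
    simpa using h3
  -- conclusion
  have hdet : LinearMap.det (rho W p φ) = d * d := by
    rw [hd, Algebra.algebraMap_eq_smul_one, LinearMap.det_smul, finrank_rat hΔ, map_one, mul_one,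
      sq]
  have hdd : d * d = ((c * c : ℤ) : ZMod p) := by
    rw [hd, ← map_mul] at hsq
    haveI : Nontrivial (Submodule.torsionBy ℤ
        ((W.map (Int.castRingHom ℚ))⁄(AlgebraicClosure ℚ)).Point p) :=
      Module.nontrivial_of_finrank_pos (R := ZMod p) (by rw [finrank_rat hΔ]; norm_num)
    exact (algebraMap (ZMod p) (Module.End (ZMod p) _)).injective hsq
  rw [hdet, hdd]

end Lin

/-! ### Inertia-fixed eigenclasses are toric -/

section Toric

variable {A : ValuationSubring (AlgebraicClosure ℚ)} {q m : ℕ} [NeZero m]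
  [Fact q.Prime] [CharP (IsLocalRing.ResidueField A) q]
  (hq : q.Prime) (hm : ¬ q ∣ m) (hA : A.LiesOverPrime q)
  {S : Finset ℕ} {p : ℕ} [hp : Fact p.Prime] {a : ℕ → ℤ} {t : HeckeAlgS (↑S : Set ℕ)}

/-- the residue field -/
local notation "κ" => IsLocalRing.ResidueField A

/-- Inertia-fixed eigenclasses split at both components if the eigensystem does not occur at the
lower level. -/
theorem split_model_of_fixed (H3 : S18aux.DegThm (IsLocalRing.ResidueField A) m)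
    (hqp : q ≠ p) (hcop : CopWidths (m := m) hq hm hA p)
    (hS : ∀ ℓ : ℕ, ℓ.Prime → ℓ ∣ m * q → ℓ ∈ S)
    (ht : evS m (↑S : Set ℕ) t = 0) (hθ : theta S p a t = 1)
    (hne : ∃ ℓ : ℕ, ℓ.Prime ∧ ℓ ∉ S ∧ ¬ (p : ℤ) ∣ a ℓ - (ℓ + 1))
    {x : JZero (m * q)} (hx : letI := heckeModuleBar (m * q); x ∈ eigenPart S p a (JZero (m * q)))
    (hfix : ∀ σ ∈ A.inertiaSubgroupIn ℚ, σ • x = x) (i : Fin 2) :
    Split ((Star.Inst.model (m := m) hq hm hA H3).O i)
      ((Star.Inst.model (m := m) hq hm hA H3).ρ i) p x := by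
  letI := heckeModuleBar (m * q)
  have H2 := GoodRed.genus_le_all hq hA m hm
  haveI : IsFF κ (modularFunctionFieldFullC κ m) := isFF_m' (m := m) H3
  have hM := Star.Inst.good hq hm hA H3
  obtain ⟨ℓ, hℓ, hℓS, hℓa⟩ := hne
  haveI : NeZero ℓ := ⟨hℓ.ne_zero⟩
  have hℓN : ¬ ℓ ∣ m * q := fun h => hℓS (hS ℓ hℓ h)
  have hqn : ¬ q ∣ p := fun h => hqp ((Nat.prime_dvd_prime_iff_eq hq hp.out).mp h)
  have hpk : (p : κ) ≠ 0 := fun h => hqn ((CharP.cast_eq_zero_iff κ q p).mp h)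
  obtain ⟨z, hz, hrel⟩ := exists_rel_model hq hm hA H3 hℓ hℓN hM
    (Star.Inst.unitData (m := m) hq hm hA H3) H2 hqn (hcop H3 hM) hx.1 hfix i
  have TK := S18aux.torsKummer_of_genus_le (Gm hq hA H3) H2
  have hρ := isUnit_of_model hq hm hA H3 i
  -- `T_ℓ x - (ℓ + 1) x` is a multiple of `x`
  set b : ℤ := a ℓ - (ℓ + 1) with hb
  have hy : heckeOperatorBar (m * q) ⟨ℓ, hℓ⟩ x - (ℓ + 1) • x = b • x := by
    rw [heckeOperatorBar_of_mem hx ⟨ℓ, hℓ⟩ hℓS, hb, sub_zsmul, add_zsmul, one_zsmul, natCast_zsmul,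
      add_nsmul, one_nsmul, sub_eq_add_neg]
  rw [hy] at hrel
  -- `z` is in the eigenspace of level `m`
  have hzm : (letI := heckeModuleBar m; z ∈ eigenPart S p a (JZero m)) := by
    letI := heckeModuleBar m
    refine ⟨hz, fun ℓ' hℓ' => ?_⟩
    haveI : NeZero (ℓ' : ℕ) := ⟨ℓ'.2.ne_zero⟩
    have hℓ'N : ¬ (ℓ' : ℕ) ∣ m * q := fun h => hℓ' (hS ℓ' ℓ'.2 h)
    have h1 : heckeGen ℓ' • z = heckeOperatorBar m ℓ' z :=
      heckeModuleBar_heckeGen_smul (Fermat.Agent.HeckeComm.heckeOperatorsCommuteBar m) ℓ' _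
    rw [h1]
    have h2 := hrel.map (compatible_i hq hm hA H3 ℓ'.2 hℓ'N i)
      (compatible_m hq hA H3 ℓ'.2 hℓ'N)
    have h3 : heckeOperatorBar (m * q) ⟨(ℓ' : ℕ), ℓ'.2⟩ (b • x) = a (ℓ' : ℕ) • (b • x) := by
      rw [map_zsmul, heckeOperatorBar_of_mem hx ⟨(ℓ' : ℕ), ℓ'.2⟩ hℓ', smul_comm]
    rw [h3] at h2
    have h4 := hrel.zsmul hρ (isUnit_of_ρ (Gm hq hA H3)) (a (ℓ' : ℕ))
    exact Rel.unique hρ (Gm hq hA H3) TK hpk h2 h4
  have hz0 : z = 0 := by
    letI := heckeModuleBar m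
    have h1 : inclS (↑S : Set ℕ) t • z = z := inclS_smul_of_theta_eq_one hzm hθ
    rw [← h1]
    exact inclS_smul_eq_zero m (↑S) (fun r hr hd => hS r hr (hd.mul_right q)) ht hp.out.ne_zero hz
  subst hz0
  -- invert `b`
  have hcop' : IsCoprime (p : ℤ) b :=
    (Prime.coprime_iff_not_dvd (Nat.prime_iff_prime_int.mp hp.out)).mpr hℓa
  obtain ⟨u, v, huv⟩ := hcop'
  have h5 := hrel.zsmul hρ (isUnit_of_ρ (Gm hq hA H3)) v
  have h6 : v • b • x = x := by
    have h7 : (u * p + v * b) • x = (1 : ℤ) • x := by rw [huv]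
    rw [add_zsmul, one_zsmul, mul_zsmul, natCast_zsmul, mul_zsmul] at h7
    have hpx : p • x = 0 := hx.1
    rwa [hpx, zsmul_zero, zero_add] at h7
  rw [h6, smul_zero] at h5
  exact h5.split (isUnit_of_ρ (Gm hq hA H3)) hp.out.pos

/-- Frobenius acts as `-q w_q` on the inertia-fixed eigenclasses. -/
theorem frob_of_fixed (hqp : q ≠ p) (hcop : CopWidths (m := m) hq hm hA p)
    (hS : ∀ ℓ : ℕ, ℓ.Prime → ℓ ∣ m * q → ℓ ∈ S)
    (ht : evS m (↑S : Set ℕ) t = 0) (hθ : theta S p a t = 1)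
    (hne : ∃ ℓ : ℕ, ℓ.Prime ∧ ℓ ∉ S ∧ ¬ (p : ℤ) ∣ a ℓ - (ℓ + 1))
    {x : JZero (m * q)} (hx : letI := heckeModuleBar (m * q); x ∈ eigenPart S p a (JZero (m * q)))
    (hfix : ∀ σ ∈ A.inertiaSubgroupIn ℚ, σ • x = x) {φ : 𝕂 ≃ₐ[ℚ] 𝕂} (hφ : A.IsFrobeniusAt φ q) :
    φ • x = -(q • wJ hq hm x) := by
  have H3 := GoodRed.degThm_res hq hA (NeZero.ne m) hm
  have hqn : ¬ q ∣ p := fun h => hqp ((Nat.prime_dvd_prime_iff_eq hq hp.out).mp h)
  exact frob_toric hq hm hA hqn hφ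
    (split_model_of_fixed hq hm hA H3 hqp hcop hS ht hθ hne hx hfix 0)
    (split_model_of_fixed hq hm hA H3 hqp hcop hS ht hθ hne hx hfix 1)

end Toric

/-! ### Mazur's principle -/

section Main

variable {A : ValuationSubring (AlgebraicClosure ℚ)} {q m : ℕ} [NeZero m]
  [Fact q.Prime] [CharP (IsLocalRing.ResidueField A) q]
  (hq : q.Prime) (hm : ¬ q ∣ m) (hA : A.LiesOverPrime q)
  {p : ℕ} [hp : Fact p.Prime]

/-- **Mazur's principle**: the mod `p` eigensystem of an irreducible `E[p]`, unramified at `q`,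
`q ≢ 1 (mod p)`, of level `m q` is of level `m`. -/
theorem mazur_principle_eigen (hqp : q ≠ p) (hq1 : (q : ZMod p) ≠ 1)
    (hcop : CopWidths (m := m) hq hm hA p)
    {W : WeierstrassCurve ℤ} (hΔ : W.Δ ≠ 0) (hp2 : p ≠ 2)
    (hirr : GaloisRepIsIrreducible (K := AlgebraicClosure ℚ) ℚ (W.map (Int.castRingHom ℚ)) p)
    (hunr : ∀ σ ∈ A.inertiaSubgroupIn ℚ, rho W p σ = 1)
    {S : Finset ℕ} (hS : ∀ ℓ : ℕ, ℓ.Prime → ℓ ∣ m * q → ℓ ∈ S) (hpS : p ∈ S) {a : ℕ → ℤ}
    (S₀ : Finset ℕ)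
    (ha : ∀ ℓ : ℕ, ℓ.Prime → ℓ ∉ S₀ → ((a ℓ : ℤ) : ZMod p) = ((W.apOfModel ℓ : ℤ) : ZMod p))
    {f : CuspForm (CongruenceSubgroup.Gamma0 (m * q)) 2} (hf : f.IsNormalizedEigenform)
    {𝔪 : Ideal (integralClosure ℤ ℂ)} (h𝔪 : 𝔪.IsMaximal) (hp𝔪 : (p : integralClosure ℤ ℂ) ∈ 𝔪)
    (h : ∀ ℓ : ℕ, ℓ.Prime → ℓ ∉ S → ∃ b : integralClosure ℤ ℂ,
      (b : ℂ) = ModularFormClass.qCoeff f ℓ ∧ b - ((a ℓ : ℤ) : integralClosure ℤ ℂ) ∈ 𝔪) :
    ∃ (f' : CuspForm (CongruenceSubgroup.Gamma0 m) 2) (𝔪' : Ideal (integralClosure ℤ ℂ)),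
      f'.IsNormalizedEigenform ∧ 𝔪'.IsMaximal ∧ (p : integralClosure ℤ ℂ) ∈ 𝔪' ∧
      ∀ ℓ : ℕ, ℓ.Prime → ℓ ∉ S → ∃ b : integralClosure ℤ ℂ,
        (b : ℂ) = ModularFormClass.qCoeff f' ℓ ∧ b - ((a ℓ : ℤ) : integralClosure ℤ ℂ) ∈ 𝔪' := by
  classical
  rcases exists_separating_or_eigenform m S p a with ⟨t, ht, hθ⟩ | h1
  swap
  · exact h1
  exfalso
  letI := heckeModuleBar (m * q)
  haveI := Cofaith.smulCommClass_JZero (m * q)
  have hES := esInput (m * q) hp.out (↑S : Set ℕ) (fun ℓ hℓ hd => hS ℓ hℓ hd)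
  set S' : Finset ℕ := S ∪ S₀ ∪ W.Δ.natAbs.primeFactors with hS'
  have hrel := fun g => eigenRep_relation (a := a) hES hΔ S'
    (Finset.subset_union_left.trans Finset.subset_union_left)
    (Finset.mem_union_left _ (Finset.mem_union_left _ hpS))
    (fun q hq hd => Finset.mem_union_left _ (Finset.mem_union_left _ (hS q hq hd)))
    (fun q hq hd => Finset.mem_union_right _
      (Nat.mem_primeFactors.2 ⟨hq, Int.natCast_dvd.1 hd, Int.natAbs_ne_zero.2 hΔ⟩))
    (fun ℓ hℓ hℓS => ha ℓ hℓ fun h0 => hℓS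
      (Finset.mem_union_left _ (Finset.mem_union_right _ h0))) g
  have hspan := span_range_rho hΔ hp2 hirr
  have hne := exists_mem_eigenPart_ne_zero (a := a) hES
    (fun n => Cofaith.finite_torsion_set (m * q) (pow_ne_zero n hp.out.ne_zero)) hf h𝔪 hp𝔪 h
  have hnE := exists_nonEis hΔ hp2 hirr S S₀ ha
  obtain ⟨φ, hφ⟩ := Fermat.Agent.Frob.exists_isFrobeniusAt hq hA
  have key := det_eq_sq_of_smul hΔ hp2 hspan hrel hne φ (wJ hq hm) (-(q : ℤ))
    (fun x hx => by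
      rw [frob_of_fixed hq hm hA hqp hcop hS ht hθ hnE hx
        (fun σ hσ => smul_eq_of_rho_eq_one hΔ hp2 hspan hrel (hunr σ hσ) hx) hφ, neg_smul,
        natCast_zsmul])
    (fun x _ => wJ_wJ hq hm x) (fun x hx => wJ_mem_eigenPart hq hm hS hx)
    (fun g x => wJ_galois hq hm g x)
  have hdet : LinearMap.det (rho W p φ) = (q : ZMod p) := by
    rw [det_rho hΔ φ, cycMod_frobenius hq hA hφ hqp]
  rw [hdet] at key
  apply hq1
  have hq0 : (q : ZMod p) ≠ 0 := by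
    rw [Ne, ZMod.natCast_eq_zero_iff]
    intro hd
    exact hqp ((Nat.prime_dvd_prime_iff_eq hp.out hq).mp hd).symm
  have h2 : (q : ZMod p) * (q : ZMod p) = (q : ZMod p) * 1 := by
    rw [mul_one]
    conv_rhs => rw [key]
    push_cast
    ring
  exact mul_left_cancel₀ hq0 h2

end Main

/-- **Mazur's principle** for residual modularity. -/
theorem mazur_principle {p : ℕ} [hp : Fact p.Prime] (hp2 : p ≠ 2) {W : WeierstrassCurve ℤ}
    (hΔ : W.Δ ≠ 0) (hirr : W.ModRepIsIrreducible p) {m q : ℕ} [NeZero m] (hq : q.Prime)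
    (hqp : q ≠ p) (hm : ¬ q ∣ m) (hq1 : (q : ZMod p) ≠ 1)
    (hcop : ∀ (A : ValuationSubring (AlgebraicClosure ℚ)) (hA : A.LiesOverPrime q)
      [Fact q.Prime] [CharP (IsLocalRing.ResidueField A) q], CopWidths (m := m) hq hm hA p)
    (hunr : ∀ A : ValuationSubring (AlgebraicClosure ℚ), A.LiesOverPrime q →
      ∀ σ ∈ A.inertiaSubgroupIn ℚ, rho W p σ = 1)
    (h : W.IsResiduallyModularOfLevel p (m * q)) : W.IsResiduallyModularOfLevel p m := by
  haveI : Fact q.Prime := ⟨hq⟩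
  obtain ⟨A, hA⟩ := Fermat.Agent.Frob.exists_liesOverPrime q hq
  haveI : CharP (IsLocalRing.ResidueField A) q := charP_residueField_of_liesOver hq hA
  obtain ⟨f, 𝔪, hf, h𝔪, hp𝔪, hcong⟩ := h
  have hmq : m * q ≠ 0 := mul_ne_zero (NeZero.ne m) hq.ne_zero
  set S : Finset ℕ := (m * q).primeFactors ∪ {p} ∪ W.Δ.natAbs.primeFactors with hSdef
  obtain ⟨g, 𝔪', hg, h𝔪', hp𝔪', hcong'⟩ := mazur_principle_eigen hq hm hA hqp hq1 (hcop A hA) hΔ hp2
    hirr (hunr A hA) (S := S)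
    (fun ℓ hℓ hd => Finset.mem_union_left _ (Finset.mem_union_left _
      (Nat.mem_primeFactors.2 ⟨hℓ, hd, hmq⟩)))
    (Finset.mem_union_left _ (Finset.mem_union_right _ (Finset.mem_singleton_self p)))
    (a := fun ℓ => W.apOfModel ℓ) ∅ (fun ℓ _ _ => rfl) hf h𝔪 hp𝔪
    (fun ℓ hℓ hℓS => hcong ℓ hℓ
      (fun hd => hℓS (Finset.mem_union_right _
        (Nat.mem_primeFactors.2 ⟨hℓ, Int.natCast_dvd.1 hd, Int.natAbs_ne_zero.2 hΔ⟩)))
      (fun hd => hℓS (Finset.mem_union_left _ (Finset.mem_union_left _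
        (Nat.mem_primeFactors.2 ⟨hℓ, hd, hmq⟩))))
      (fun he => hℓS (Finset.mem_union_left _ (Finset.mem_union_right _
        (Finset.mem_singleton.2 he)))))
  exact isResiduallyModularOfLevel_of_cong (NeZero.ne m) hg hΔ 𝔪' h𝔪' hp𝔪'
    (S := (↑S : Set ℕ)) (Finset.finite_toSet S)
    (fun ℓ hℓ hℓS => hcong' ℓ hℓ (by simpa using hℓS))

/-- Mazur's principle, `p ≥ 5`. -/
theorem mazur_principle_of_five_le {p : ℕ} [hp : Fact p.Prime] (hp5 : 5 ≤ p)
    {W : WeierstrassCurve ℤ} (hΔ : W.Δ ≠ 0) (hirr : W.ModRepIsIrreducible p) {m q : ℕ} [NeZero m]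
    (hq : q.Prime) (hqp : q ≠ p) (hm : ¬ q ∣ m) (hq1 : (q : ZMod p) ≠ 1)
    (hunr : ∀ A : ValuationSubring (AlgebraicClosure ℚ), A.LiesOverPrime q →
      ∀ σ ∈ A.inertiaSubgroupIn ℚ, rho W p σ = 1)
    (h : W.IsResiduallyModularOfLevel p (m * q)) : W.IsResiduallyModularOfLevel p m := by
  refine mazur_principle (by omega) hΔ hirr hq hqp hm hq1 (fun A hA _ _ => ?_) hunr h
  refine copWidths_of_coprime hq hm hA ?_
  rw [Nat.Prime.coprime_iff_not_dvd hp.out]
  intro hd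
  have h12 : p ∣ 2 * 2 * 3 := hd
  rcases (Nat.Prime.dvd_mul hp.out).1 h12 with h1 | h1
  · rcases (Nat.Prime.dvd_mul hp.out).1 h1 with h2 | h2 <;>
      exact absurd (Nat.le_of_dvd (by norm_num) h2) (by omega)
  · exact absurd (Nat.le_of_dvd (by norm_num) h1) (by omega)

end Fermat.Agent.Ribet

end
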