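import Fermat.Agent.Ribet.Final

/-!
# `V ≅ M²` over the Hecke ring (cluster RIBET, piece R2)

Let `G` act `T`-linearly on `V` through `r`, and let `ρ : G →* M₂(T)` be a representation whose
image spans `M₂(T)`.  If `r g + det (ρ g) r g⁻¹ = tr (ρ g)` on `V` for all `g` then the action of
`G` on `V` factors through `M₂(T)`; hence `V ≅ M²` with `G` acting through the matrices `ρ g`.
-/

set_option autoImplicit false

namespace Fermat.Agent.Ribet

open Matrix MulOpposite

section Factor

variable {T : Type*} [CommRing T] {G : Type*} [Group G] {V : Type*} [AddCommGroup V] [Module T V]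

/-- The relation `g + χ(g) g⁻¹ = t(g)` of Eichler–Shimura. -/
def ESRel (r : G →* Module.End T V) (ρ : G →* Matrix (Fin 2) (Fin 2) T) : Prop :=
  ∀ g, r g + (ρ g).det • r g⁻¹ = (ρ g).trace • (1 : Module.End T V)

theorem esRel_of_quadratic {r : G →* Module.End T V} {ρ : G →* Matrix (Fin 2) (Fin 2) T}
    (h : ∀ g, r g * r g - (ρ g).trace • r g + (ρ g).det • (1 : Module.End T V) = 0) :
    ESRel r ρ := by
  intro g
  have h1 : r g * r g⁻¹ = 1 := by rw [← map_mul, mul_inv_cancel, map_one]
  have h2 := congrArg (fun z => z * r g⁻¹) (h g)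
  simp only [add_mul, sub_mul, smul_mul_assoc, one_mul, mul_assoc, h1, mul_one, zero_mul] at h2
  have h3 : r g + (ρ g).det • r g⁻¹ =
      (r g - (ρ g).trace • (1 : Module.End T V) + (ρ g).det • r g⁻¹) +
        (ρ g).trace • (1 : Module.End T V) := by abel
  rw [h3, h2, zero_add]

variable (r : G →* Module.End T V) (ρ : G →* Matrix (Fin 2) (Fin 2) T)

/-- The triple `(r g, ρ g, det (ρ g) r g⁻¹)`. -/
def tripleHom : G →* Module.End T V × Matrix (Fin 2) (Fin 2) T × (Module.End T V)ᵐᵒᵖ where
  toFun g := (r g, ρ g, op ((ρ g).det • r g⁻¹))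
  map_one' := by simp
  map_mul' g h := by
    simp only [map_mul, _root_.mul_inv_rev, Prod.mk_mul_mk, ← op_mul, Matrix.det_mul]
    rw [smul_mul_smul_comm, mul_comm (ρ h).det]

/-- The `T`-span of the triples. -/
def tripleSpan : Submodule T (Module.End T V × Matrix (Fin 2) (Fin 2) T × (Module.End T V)ᵐᵒᵖ) :=
  Submodule.span T (Set.range (tripleHom r ρ))

variable {r ρ}

theorem tripleSpan_mul {x y : Module.End T V × Matrix (Fin 2) (Fin 2) T × (Module.End T V)ᵐᵒᵖ}
    (hx : x ∈ tripleSpan r ρ) (hy : y ∈ tripleSpan r ρ) : x * y ∈ tripleSpan r ρ := by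
  have h := Submodule.mul_mem_mul hx hy
  rw [tripleSpan, Submodule.span_mul_span] at h
  refine Submodule.span_mono ?_ h
  rintro _ ⟨_, ⟨g, rfl⟩, _, ⟨h, rfl⟩, rfl⟩
  exact ⟨g * h, map_mul _ _ _⟩

theorem tripleSpan_add_eq (hES : ESRel r ρ)
    {x : Module.End T V × Matrix (Fin 2) (Fin 2) T × (Module.End T V)ᵐᵒᵖ}
    (hx : x ∈ tripleSpan r ρ) : x.1 + unop x.2.2 = x.2.1.trace • (1 : Module.End T V) := by
  induction hx using Submodule.span_induction with
  | mem x h =>
    obtain ⟨g, rfl⟩ := h
    exact hES g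
  | zero => simp
  | add x y _ _ hx hy =>
    simp only [Prod.fst_add, Prod.snd_add, unop_add, Matrix.trace_add, add_smul, ← hx, ← hy]
    abel
  | smul a x _ hx =>
    simp only [Prod.smul_fst, Prod.smul_snd, unop_smul, Matrix.trace_smul, smul_eq_mul, mul_smul,
      ← hx, smul_add]

theorem exists_mem_tripleSpan (hspan : Submodule.span T (Set.range ρ) = ⊤)
    (A : Matrix (Fin 2) (Fin 2) T) : ∃ x ∈ tripleSpan r ρ, x.2.1 = A := by
  have hA : A ∈ Submodule.span T (Set.range ρ) := by rw [hspan]; trivial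
  induction hA using Submodule.span_induction with
  | mem x h =>
    obtain ⟨g, rfl⟩ := h
    exact ⟨tripleHom r ρ g, Submodule.subset_span ⟨g, rfl⟩, rfl⟩
  | zero => exact ⟨0, Submodule.zero_mem _, rfl⟩
  | add x y _ _ hx hy =>
    obtain ⟨x', hx', rfl⟩ := hx
    obtain ⟨y', hy', rfl⟩ := hy
    exact ⟨x' + y', Submodule.add_mem _ hx' hy', rfl⟩
  | smul a x _ hx =>
    obtain ⟨x', hx', rfl⟩ := hx
    exact ⟨a • x', Submodule.smul_mem _ a hx', rfl⟩

theorem tripleSpan_eq_zero (h2 : IsUnit (2 : T)) (hES : ESRel r ρ)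
    (hspan : Submodule.span T (Set.range ρ) = ⊤)
    {x : Module.End T V × Matrix (Fin 2) (Fin 2) T × (Module.End T V)ᵐᵒᵖ}
    (hx : x ∈ tripleSpan r ρ) (hx0 : x.2.1 = 0) : x.1 = 0 := by
  have hxs : unop x.2.2 = - x.1 := by
    have := tripleSpan_add_eq hES hx
    rw [hx0, Matrix.trace_zero, zero_smul] at this
    exact (neg_eq_of_add_eq_zero_right this).symm
  have key : ∀ b ∈ tripleSpan r ρ, x.1 * b.1 = unop b.2.2 * x.1 := by
    intro b hb
    have h1 := tripleSpan_add_eq hES (tripleSpan_mul hx hb)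
    simp only [Prod.fst_mul, Prod.snd_mul, hx0, zero_mul, Matrix.trace_zero, zero_smul,
      unop_mul, hxs, mul_neg] at h1
    exact sub_eq_zero.mp (by rw [sub_eq_add_neg]; exact h1)
  obtain ⟨b, hb, hbm⟩ := exists_mem_tripleSpan (r := r) hspan !![0, 1; 0, 0]
  obtain ⟨b', hb', hbm'⟩ := exists_mem_tripleSpan (r := r) hspan !![0, 0; 1, 0]
  have e1 : unop b.2.2 * (unop b'.2.2 * x.1) = unop b'.2.2 * (unop b.2.2 * x.1) := by
    rw [← key b' hb', ← mul_assoc, ← key b hb, mul_assoc]
    have := key _ (tripleSpan_mul hb hb')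
    simp only [Prod.fst_mul, Prod.snd_mul, unop_mul] at this
    rw [this, mul_assoc, ← key b hb]
  have hd := (tripleSpan r ρ).sub_mem (tripleSpan_mul hb hb') (tripleSpan_mul hb' hb)
  set d := b * b' - b' * b with hddef
  have hdm : d.2.1 = !![1, 0; 0, -1] := by
    rw [hddef]
    simp only [Prod.snd_sub, Prod.fst_sub, Prod.snd_mul, Prod.fst_mul, hbm, hbm']
    ext i j
    fin_cases i <;> fin_cases j <;> simp
  have hds : unop d.2.2 * x.1 = 0 := by
    rw [hddef]
    simp only [Prod.snd_sub, Prod.snd_mul, unop_sub, unop_mul, sub_mul, mul_assoc]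
    rw [e1, sub_self]
  have h3 : d.1 = - unop d.2.2 := by
    have := tripleSpan_add_eq hES hd
    rw [hdm, Matrix.trace_fin_two] at this
    simp only [Matrix.of_apply, Matrix.cons_val', Matrix.cons_val_zero, Matrix.cons_val_fin_one,
      Matrix.cons_val_one, add_neg_cancel, zero_smul] at this
    exact eq_neg_of_add_eq_zero_left this
  have h4 : unop d.2.2 * unop d.2.2 = 1 := by
    have := tripleSpan_add_eq hES (tripleSpan_mul hd hd)
    simp only [Prod.fst_mul, Prod.snd_mul, unop_mul, hdm, h3, neg_mul_neg] at this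
    rw [Matrix.trace_fin_two] at this
    simp only [Matrix.mul_apply, Fin.sum_univ_two] at this
    simp only [Matrix.of_apply, Matrix.cons_val', Matrix.cons_val_zero, Matrix.cons_val_fin_one,
      Matrix.cons_val_one, mul_one, mul_zero, add_zero, zero_add, mul_neg, neg_neg,
      one_add_one_eq_two, ← two_smul T (unop d.2.2 * unop d.2.2)] at this
    exact h2.smul_left_cancel.mp this
  calc x.1 = unop d.2.2 * (unop d.2.2 * x.1) := by rw [← mul_assoc, h4, one_mul]
    _ = 0 := by rw [hds, mul_zero]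

/-- **Factorisation through `M₂(T)`.** -/
theorem exists_algHom (h2 : IsUnit (2 : T)) (hES : ESRel r ρ)
    (hspan : Submodule.span T (Set.range ρ) = ⊤) :
    ∃ Φ : Matrix (Fin 2) (Fin 2) T →ₐ[T] Module.End T V, ∀ g, Φ (ρ g) = r g := by
  classical
  choose s hs hsm using fun A => exists_mem_tripleSpan (r := r) hspan A
  have huniq : ∀ x ∈ tripleSpan r ρ, (s x.2.1).1 = x.1 := by
    intro x hx
    have h1 := (tripleSpan r ρ).sub_mem (hs x.2.1) hx
    have h3 := tripleSpan_eq_zero h2 hES hspan h1 (by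
      simp only [Prod.snd_sub, Prod.fst_sub, hsm, sub_self])
    exact sub_eq_zero.mp h3
  have hone : (s 1).1 = 1 := by
    have := huniq (tripleHom r ρ 1) (Submodule.subset_span ⟨1, rfl⟩)
    simpa [map_one] using this
  let Φ : Matrix (Fin 2) (Fin 2) T →ₐ[T] Module.End T V :=
    AlgHom.ofLinearMap
      { toFun := fun A => (s A).1
        map_add' := fun A B => by
          have := huniq _ ((tripleSpan r ρ).add_mem (hs A) (hs B))
          simpa only [Prod.snd_add, Prod.fst_add, hsm] using this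
        map_smul' := fun a A => by
          have := huniq _ ((tripleSpan r ρ).smul_mem a (hs A))
          simpa only [Prod.smul_snd, Prod.smul_fst, hsm, RingHom.id_apply] using this }
      hone (fun A B => by
        have := huniq _ (tripleSpan_mul (hs A) (hs B))
        simp only [Prod.snd_mul, Prod.fst_mul, hsm] at this
        exact this)
  refine ⟨Φ, fun g => ?_⟩
  exact huniq (tripleHom r ρ g) (Submodule.subset_span ⟨g, rfl⟩)

end Factor

section Morita

variable {T : Type*} [CommRing T] {V : Type*} [AddCommGroup V] [Module T V]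

/-- The multiplicity space of a `M₂(T)`-module. -/
def mult (Φ : Matrix (Fin 2) (Fin 2) T →ₐ[T] Module.End T V) : Submodule T V :=
  LinearMap.range (Φ (Matrix.single 0 0 1))

variable (Φ : Matrix (Fin 2) (Fin 2) T →ₐ[T] Module.End T V)

theorem phi_mul_apply (A B : Matrix (Fin 2) (Fin 2) T) (v : V) :
    Φ A (Φ B v) = Φ (A * B) v := by rw [map_mul]; rfl

theorem sum_phi_diag (v : V) : Φ (Matrix.single 0 0 1) v + Φ (Matrix.single 1 1 1) v = v := by
  have h : (Matrix.single 0 0 1 : Matrix (Fin 2) (Fin 2) T) + Matrix.single 1 1 1 = 1 := by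
    ext i j
    fin_cases i <;> fin_cases j <;> simp [Matrix.single]
  rw [← LinearMap.add_apply, ← map_add, h, map_one]; rfl

/-- `V ≃ M²`. -/
noncomputable def moritaEquiv : V ≃ₗ[T] (Fin 2 → mult Φ) where
  toFun v i := ⟨Φ (Matrix.single 0 i 1) v, ⟨Φ (Matrix.single 0 i 1) v, by
    rw [phi_mul_apply, Matrix.single_mul_single_same, one_mul]⟩⟩
  map_add' v w := by
    funext i
    exact Subtype.ext (map_add _ _ _)
  map_smul' a v := by
    funext i
    exact Subtype.ext (map_smul _ _ _)
  invFun m := Φ (Matrix.single 0 0 1) (m 0 : V) + Φ (Matrix.single 1 0 1) (m 1 : V)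
  left_inv v := by
    simp only [phi_mul_apply, Matrix.single_mul_single_same, one_mul]
    exact sum_phi_diag Φ v
  right_inv m := by
    have hm : ∀ i, Φ (Matrix.single 0 0 1) (m i : V) = m i := by
      intro i
      obtain ⟨w, hw⟩ := (m i).2
      rw [← hw, phi_mul_apply, Matrix.single_mul_single_same, one_mul]
    funext i
    apply Subtype.ext
    simp only [map_add, phi_mul_apply]
    fin_cases i
    · show Φ (Matrix.single 0 0 1 * Matrix.single 0 0 1) (m 0 : V) +
        Φ (Matrix.single 0 0 1 * Matrix.single 1 0 1) (m 1 : V) = (m 0 : V)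
      rw [Matrix.single_mul_single_same, Matrix.single_mul_single_of_ne _ _ _ _ (by decide),
        map_zero, LinearMap.zero_apply, add_zero, one_mul, hm]
    · show Φ (Matrix.single 0 1 1 * Matrix.single 0 0 1) (m 0 : V) +
        Φ (Matrix.single 0 1 1 * Matrix.single 1 0 1) (m 1 : V) = (m 1 : V)
      rw [Matrix.single_mul_single_same, Matrix.single_mul_single_of_ne _ _ _ _ (by decide),
        map_zero, LinearMap.zero_apply, zero_add, one_mul, hm]

theorem moritaEquiv_phi (A : Matrix (Fin 2) (Fin 2) T) (v : V) :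
    moritaEquiv Φ (Φ A v) = act A (moritaEquiv Φ v) := by
  funext i
  apply Subtype.ext
  show Φ (Matrix.single 0 i 1) (Φ A v) =
    A i 0 • Φ (Matrix.single 0 0 1) v + A i 1 • Φ (Matrix.single 0 1 1) v
  rw [phi_mul_apply, ← LinearMap.smul_apply, ← LinearMap.smul_apply, ← LinearMap.add_apply,
    ← map_smul, ← map_smul, ← map_add]
  congr 2
  ext a b
  fin_cases i <;> fin_cases a <;> fin_cases b <;>
    simp [Matrix.single, Matrix.mul_apply]

/-- **Flip.**  `V²` with matrices acting through the `T`-structure is isomorphic to `V²` with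
matrices acting through `Φ`. -/
noncomputable def flipEquiv : (Fin 2 → V) ≃ₗ[T] (Fin 2 → V) where
  toFun x k := (moritaEquiv Φ).symm fun i => moritaEquiv Φ (x i) k
  map_add' x y := by
    funext k
    rw [Pi.add_apply, ← map_add]
    congr 1
    funext i
    simp
  map_smul' a x := by
    funext k
    rw [Pi.smul_apply, ← map_smul]
    congr 1
    funext i
    simp
  invFun x k := (moritaEquiv Φ).symm fun i => moritaEquiv Φ (x i) k
  left_inv x := by
    funext k
    simp
  right_inv x := by
    funext k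
    simp

theorem flipEquiv_act (A : Matrix (Fin 2) (Fin 2) T) (x : Fin 2 → V) (k : Fin 2) :
    flipEquiv Φ (act A x) k = Φ A (flipEquiv Φ x k) := by
  apply (moritaEquiv Φ).injective
  rw [moritaEquiv_phi]
  simp only [flipEquiv, LinearEquiv.coe_mk, LinearMap.coe_mk, AddHom.coe_mk,
    LinearEquiv.apply_symm_apply]
  funext i
  simp [act]

end Morita

section Main

variable {T : Type*} [CommRing T] {G : Type*} [Group G] {V : Type*} [AddCommGroup V] [Module T V]
variable {r : G →* Module.End T V} {ρ : G →* Matrix (Fin 2) (Fin 2) T}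

/-- **R2, structure.** -/
theorem exists_morita (h2 : IsUnit (2 : T)) (hES : ESRel r ρ)
    (hspan : Submodule.span T (Set.range ρ) = ⊤) :
    ∃ (M : Submodule T V) (e : V ≃ₗ[T] (Fin 2 → M)), ∀ g v, e (r g v) = act (ρ g) (e v) := by
  obtain ⟨Φ, hΦ⟩ := exists_algHom h2 hES hspan
  exact ⟨mult Φ, moritaEquiv Φ, fun g v => by rw [← hΦ, moritaEquiv_phi]⟩

/-- **R2, flip.** -/
theorem exists_flip (h2 : IsUnit (2 : T)) (hES : ESRel r ρ)
    (hspan : Submodule.span T (Set.range ρ) = ⊤) :
    ∃ e : (Fin 2 → V) ≃ₗ[T] (Fin 2 → V), ∀ g x k, e (act (ρ g) x) k = r g (e x k) := by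
  obtain ⟨Φ, hΦ⟩ := exists_algHom h2 hES hspan
  exact ⟨flipEquiv Φ, fun g x k => by rw [← hΦ, flipEquiv_act]⟩

end Main

end Fermat.Agent.Ribet
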