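import Fermat.Agent.Ribet.Cong
import Fermat.Agent.X1Char.Reduce

/-!
# Projective congruences between Laurent series

`PC A a b` : up to nonzero constants, `a` and `b` are series with coefficients in the valuation ring
`A`, with the same nonzero reduction modulo the maximal ideal.
-/

set_option autoImplicit false

noncomputable section

open ModularCurve HahnSeries
open Fermat.Agent.GaussVal Fermat.Agent.X0Emb Fermat.Agent.TEll Fermat.Agent.ModFun

namespace Fermat.Agent.Ribet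

section Basic

variable {K : Type*} [Field K] (A : ValuationSubring K)

/-- `a ≡ b` up to constants. -/
def PC (a b : LaurentSeries K) : Prop :=
  ∃ (c d : K) (Y Z : LaurentSeries A), c ≠ 0 ∧ d ≠ 0 ∧
    a = algebraMap K (LaurentSeries K) c * incl A Y ∧
    b = algebraMap K (LaurentSeries K) d * incl A Z ∧ redS A Y = redS A Z ∧ redS A Y ≠ 0

variable {A} {a b c d : LaurentSeries K}

theorem algebraMap_mul_cancel {x : K} (hx : x ≠ 0) (a : LaurentSeries K) :
    algebraMap K (LaurentSeries K) x * (algebraMap K (LaurentSeries K) x⁻¹ * a) = a := by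
  rw [← mul_assoc, ← map_mul, mul_inv_cancel₀ hx, map_one, one_mul]

theorem algebraMap_inv_mul_cancel {x : K} (hx : x ≠ 0) (a : LaurentSeries K) :
    algebraMap K (LaurentSeries K) x⁻¹ * (algebraMap K (LaurentSeries K) x * a) = a := by
  rw [← mul_assoc, ← map_mul, inv_mul_cancel₀ hx, map_one, one_mul]

theorem pc_iff : PC A a b ↔ ∃ x y : K, x ≠ 0 ∧ y ≠ 0 ∧
    Cong A (algebraMap K (LaurentSeries K) x * a) (algebraMap K (LaurentSeries K) y * b) := by
  constructor
  · rintro ⟨x, y, Y, Z, hx, hy, rfl, rfl, h1, h2⟩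
    refine ⟨x⁻¹, y⁻¹, inv_ne_zero hx, inv_ne_zero hy, ?_⟩
    rw [algebraMap_inv_mul_cancel hx, algebraMap_inv_mul_cancel hy, cong_incl_iff]
    exact ⟨h1, h2⟩
  · rintro ⟨x, y, hx, hy, Y, Z, hY, hZ, h1, h2⟩
    refine ⟨x⁻¹, y⁻¹, Y, Z, inv_ne_zero hx, inv_ne_zero hy, ?_, ?_, h1, h2⟩
    · rw [hY, algebraMap_inv_mul_cancel hx]
    · rw [hZ, algebraMap_inv_mul_cancel hy]

theorem Cong.pc (h : Cong A a b) : PC A a b :=
  pc_iff.mpr ⟨1, 1, one_ne_zero, one_ne_zero, by rwa [map_one, one_mul, one_mul]⟩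

theorem PC.symm (h : PC A a b) : PC A b a := by
  obtain ⟨x, y, hx, hy, h⟩ := pc_iff.mp h
  exact pc_iff.mpr ⟨y, x, hy, hx, h.symm⟩

theorem PC.const_mul_left (h : PC A a b) {x : K} (hx : x ≠ 0) :
    PC A (algebraMap K (LaurentSeries K) x * a) b := by
  obtain ⟨c, d, Y, Z, hc, hd, rfl, rfl, h1, h2⟩ := h
  exact ⟨x * c, d, Y, Z, mul_ne_zero hx hc, hd, by rw [map_mul, mul_assoc], rfl, h1, h2⟩

theorem PC.const_mul_right (h : PC A a b) {x : K} (hx : x ≠ 0) :
    PC A a (algebraMap K (LaurentSeries K) x * b) := (h.symm.const_mul_left hx).symm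

theorem PC.of_const_mul_left {x : K} (h : PC A (algebraMap K (LaurentSeries K) x * a) b)
    (hx : x ≠ 0) : PC A a b := by
  have := h.const_mul_left (inv_ne_zero hx)
  rwa [algebraMap_inv_mul_cancel hx] at this

theorem PC.of_const_mul_right {x : K} (h : PC A a (algebraMap K (LaurentSeries K) x * b))
    (hx : x ≠ 0) : PC A a b := (h.symm.of_const_mul_left hx).symm

theorem PC.trans (h : PC A a b) (h' : PC A b c) : PC A a c := by
  obtain ⟨x, y, hx, hy, h1⟩ := pc_iff.mp h
  obtain ⟨x', y', hx', hy', h2⟩ := pc_iff.mp h'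
  have h3 : Cong A (algebraMap K (LaurentSeries K) (y * x'⁻¹) *
      (algebraMap K (LaurentSeries K) x' * b)) (algebraMap K (LaurentSeries K) (y * x'⁻¹) *
      (algebraMap K (LaurentSeries K) x' * b)) := by
    rw [map_mul, mul_assoc, algebraMap_inv_mul_cancel hx']
    exact h1.right
  have h4 := valuation_eq_one_of_cong h2.left h3
  have h5 := h2.smul_self h4
  rw [map_mul, mul_assoc, algebraMap_inv_mul_cancel hx', ← map_mul] at h5
  refine pc_iff.mpr ⟨x, y * x'⁻¹ * y', hx, mul_ne_zero (mul_ne_zero hy (inv_ne_zero hx')) hy',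
    h1.trans ?_⟩
  rw [map_mul _ (y * x'⁻¹) y', mul_assoc (algebraMap K (LaurentSeries K) (y * x'⁻¹))]
  exact h5

theorem PC.left (h : PC A a b) : PC A a a := h.trans h.symm

theorem PC.right (h : PC A a b) : PC A b b := h.symm.trans h

theorem algebraMap_ne_zero' {x : K} (hx : x ≠ 0) : algebraMap K (LaurentSeries K) x ≠ 0 :=
  (map_ne_zero_iff _ (algebraMap K (LaurentSeries K)).injective).mpr hx

theorem PC.ne_zero_left (h : PC A a b) : a ≠ 0 := by
  obtain ⟨c, d, Y, Z, hc, hd, rfl, rfl, h1, h2⟩ := h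
  exact mul_ne_zero (algebraMap_ne_zero' hc) (incl_ne_zero h2)

theorem PC.ne_zero_right (h : PC A a b) : b ≠ 0 := h.symm.ne_zero_left

theorem PC.of_scalable (h : Scalable A a) : PC A a a := by
  obtain ⟨x, hx, h⟩ := exists_cong_of_scalable h
  exact (h.pc.of_const_mul_left hx).of_const_mul_right hx

theorem PC.of_mem_intAlg [CharZero K] [Algebra.IsAlgebraic ℚ K] {ℓ : ℕ}
    (hℓ : ℓ.Prime) (hA : A.LiesOverPrime ℓ) (ha : a ∈ intAlg K) (ha0 : a ≠ 0) : PC A a a :=
  PC.of_scalable (scalable_of_mem_intAlg hℓ hA ha ha0)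

theorem scalable_const_mul {x : K} (hx : x ≠ 0) (h : Scalable A a) :
    Scalable A (algebraMap K (LaurentSeries K) x * a) := by
  obtain ⟨n, hn, hn'⟩ := h
  refine ⟨n, ?_, fun m => ?_⟩
  · rw [coeff_algebraMap_mul]
    exact mul_ne_zero hx hn
  · rw [coeff_algebraMap_mul, coeff_algebraMap_mul, map_mul, map_mul]
    exact mul_le_mul' le_rfl (hn' m)

theorem PC.scalable (h : PC A a b) : Scalable A a := by
  obtain ⟨c, d, Y, Z, hc, hd, rfl, rfl, h1, h2⟩ := h
  exact scalable_const_mul hc (cong_incl_iff.mpr ⟨h1, h2⟩).scalable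

theorem pc_self_iff : PC A a a ↔ Scalable A a := ⟨fun h => h.scalable, PC.of_scalable⟩

theorem PC.one : PC A (1 : LaurentSeries K) 1 := Cong.one.pc

theorem PC.mul (h : PC A a b) (h' : PC A c d) : PC A (a * c) (b * d) := by
  obtain ⟨x, y, hx, hy, h1⟩ := pc_iff.mp h
  obtain ⟨x', y', hx', hy', h2⟩ := pc_iff.mp h'
  refine pc_iff.mpr ⟨x * x', y * y', mul_ne_zero hx hx', mul_ne_zero hy hy', ?_⟩
  have h3 := h1.mul h2
  rw [map_mul, map_mul]
  convert! h3 using 1 <;> ring

theorem PC.pow (h : PC A a b) (n : ℕ) : PC A (a ^ n) (b ^ n) := by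
  induction n with
  | zero => rw [pow_zero, pow_zero]; exact PC.one
  | succ n ih => rw [pow_succ, pow_succ]; exact ih.mul h

theorem PC.prod {ι : Type*} (s : Finset ι) {f g : ι → LaurentSeries K}
    (h : ∀ i ∈ s, PC A (f i) (g i)) : PC A (∏ i ∈ s, f i) (∏ i ∈ s, g i) := by
  classical
  induction s using Finset.induction_on with
  | empty => rw [Finset.prod_empty, Finset.prod_empty]; exact PC.one
  | insert x s hx ih =>
    rw [Finset.prod_insert hx, Finset.prod_insert hx]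
    exact (h x (Finset.mem_insert_self x s)).mul
      (ih fun i hi => h i (Finset.mem_insert_of_mem hi))

/-- Cancellation. -/
theorem PC.of_mul_right (h : PC A (a * c) (b * c)) (ha : Scalable A a) (hb : Scalable A b)
    (hc : Scalable A c) : PC A a b := by
  obtain ⟨x, hx, ha'⟩ := exists_cong_of_scalable ha
  obtain ⟨y, hy, hb'⟩ := exists_cong_of_scalable hb
  obtain ⟨w, hw, hc'⟩ := exists_cong_of_scalable hc
  set a' := algebraMap K (LaurentSeries K) x * a with ha''
  set b' := algebraMap K (LaurentSeries K) y * b with hb''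
  set c' := algebraMap K (LaurentSeries K) w * c with hc''
  have h1 : PC A (a' * c') (b' * c') := by
    have e1 : a' * c' = algebraMap K (LaurentSeries K) (x * w) * (a * c) := by
      rw [ha'', hc'', map_mul]; ring
    have e2 : b' * c' = algebraMap K (LaurentSeries K) (y * w) * (b * c) := by
      rw [hb'', hc'', map_mul]; ring
    rw [e1, e2]
    exact (h.const_mul_left (mul_ne_zero hx hw)).const_mul_right (mul_ne_zero hy hw)
  obtain ⟨s, t, hs, ht, h2⟩ := pc_iff.mp h1
  have hs1 : A.valuation s = 1 := valuation_eq_one_of_cong (ha'.mul hc') h2.left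
  have ht1 : A.valuation t = 1 := valuation_eq_one_of_cong (hb'.mul hc') h2.right
  have h3 := ha'.smul_self hs1
  have h4 := hb'.smul_self ht1
  obtain ⟨Y, hY, hY0⟩ := cong_self_iff.mp h3
  obtain ⟨Z, hZ, hZ0⟩ := cong_self_iff.mp h4
  obtain ⟨X, hX, hX0⟩ := cong_self_iff.mp hc'
  have h5 : Cong A (incl A (Y * X)) (incl A (Z * X)) := by
    rw [map_mul, map_mul, hY, hZ, hX, mul_assoc _ a' c', mul_assoc _ b' c']
    exact h2
  rw [cong_incl_iff, map_mul, map_mul] at h5
  have h6 : redS A Y = redS A Z := mul_right_cancel₀ hX0 h5.1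
  have h7 : Cong A (algebraMap K (LaurentSeries K) s * a') (algebraMap K (LaurentSeries K) t * b') :=
    ⟨Y, Z, hY, hZ, h6, hY0⟩
  have h8 := h7.pc
  exact (((h8.of_const_mul_left hs).of_const_mul_right ht).of_const_mul_left hx).of_const_mul_right
    hy

/-- Congruent `n`-th powers. -/
theorem PC.of_pow [IsAlgClosed K] {n : ℕ} (hn : n ≠ 0) (ha : Scalable A a) (hb : Scalable A b)
    (h : PC A (a ^ n) (b ^ n)) : PC A a b := by
  obtain ⟨x, hx, ha'⟩ := exists_cong_of_scalable ha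
  obtain ⟨y, hy, hb'⟩ := exists_cong_of_scalable hb
  set a' := algebraMap K (LaurentSeries K) x * a with ha''
  set b' := algebraMap K (LaurentSeries K) y * b with hb''
  have h1 : PC A (a' ^ n) (b' ^ n) := by
    have e1 : a' ^ n = algebraMap K (LaurentSeries K) (x ^ n) * a ^ n := by
      rw [ha'', mul_pow, map_pow]
    have e2 : b' ^ n = algebraMap K (LaurentSeries K) (y ^ n) * b ^ n := by
      rw [hb'', mul_pow, map_pow]
    rw [e1, e2]
    exact (h.const_mul_left (pow_ne_zero n hx)).const_mul_right (pow_ne_zero n hy)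
  obtain ⟨s, t, hs, ht, h2⟩ := pc_iff.mp h1
  obtain ⟨s', hs'⟩ := IsAlgClosed.exists_pow_nat_eq s (Nat.pos_of_ne_zero hn)
  obtain ⟨t', ht'⟩ := IsAlgClosed.exists_pow_nat_eq t (Nat.pos_of_ne_zero hn)
  have hs0 : s' ≠ 0 := by
    rintro rfl
    rw [zero_pow hn] at hs'
    exact hs hs'.symm
  have ht0 : t' ≠ 0 := by
    rintro rfl
    rw [zero_pow hn] at ht'
    exact ht ht'.symm
  have e1 : algebraMap K (LaurentSeries K) s * a' ^ n =
      (algebraMap K (LaurentSeries K) s' * a') ^ n := by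
    rw [mul_pow (algebraMap K (LaurentSeries K) s') a' n, ← map_pow, hs']
  have e2 : algebraMap K (LaurentSeries K) t * b' ^ n =
      (algebraMap K (LaurentSeries K) t' * b') ^ n := by
    rw [mul_pow (algebraMap K (LaurentSeries K) t') b' n, ← map_pow, ht']
  rw [e1, e2] at h2
  have h3 := Cong.of_pow hn (scalable_const_mul hs0 ha'.scalable) h2.left
  have h4 := Cong.of_pow hn (scalable_const_mul ht0 hb'.scalable) h2.right
  obtain ⟨z, hz, h5⟩ := Cong.exists_root hn h3 h4 h2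
  have hz0 : z ≠ 0 := by
    rintro rfl
    rw [zero_pow hn] at hz
    exact zero_ne_one hz
  have h6 := h5.pc.of_const_mul_right hz0
  exact (((h6.of_const_mul_left hs0).of_const_mul_right ht0).of_const_mul_left hx).of_const_mul_right
    hy

/-! ### Transport -/

theorem coeffMap_algebraMap_mul {K' : Type*} [Field K'] (s : K →+* K') (x : K)
    (a : LaurentSeries K) : coeffMap s (algebraMap K (LaurentSeries K) x * a) =
      algebraMap K' (LaurentSeries K') (s x) * coeffMap s a := by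
  rw [map_mul, algebraMap_laurentSeries_eq_single, algebraMap_laurentSeries_eq_single,
    coeffMap_single]

theorem qExpand_algebraMap (x : K) (e : ℕ) [NeZero e] :
    qExpand K e (algebraMap K (LaurentSeries K) x) = algebraMap K (LaurentSeries K) x := by
  rw [algebraMap_laurentSeries_eq_single, qExpand_single, mul_zero]

theorem twist_algebraMap (x : K) (z : Kˣ) :
    twist z (algebraMap K (LaurentSeries K) x) = algebraMap K (LaurentSeries K) x := by
  rw [algebraMap_laurentSeries_eq_single, twist_single, zpow_zero, Units.val_one, one_mul]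

theorem secNorm_algebraMap (x : K) (e : ℕ) [NeZero e] :
    secNorm K e (algebraMap K (LaurentSeries K) x) = algebraMap K (LaurentSeries K) (x ^ e) := by
  have h1 : algebraMap K (LaurentSeries K) x = qExpand K e (algebraMap K (LaurentSeries K) x) :=
    (qExpand_algebraMap x e).symm
  rw [h1, secNorm_apply, ← algebraMap_cov, Algebra.norm_algebraMap, finrank_cov, map_pow]

theorem PC.qExpand (h : PC A a b) (e : ℕ) [NeZero e] :
    PC A (qExpand K e a) (qExpand K e b) := by
  obtain ⟨x, y, hx, hy, h1⟩ := pc_iff.mp h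
  have h2 := h1.qExpand e
  rw [map_mul, map_mul, qExpand_algebraMap, qExpand_algebraMap] at h2
  exact pc_iff.mpr ⟨x, y, hx, hy, h2⟩

theorem PC.secNorm (h : PC A a b) (e : ℕ) [NeZero e] :
    PC A (secNorm K e a) (secNorm K e b) := by
  obtain ⟨x, y, hx, hy, h1⟩ := pc_iff.mp h
  have h2 := h1.secNorm e
  rw [map_mul, map_mul, secNorm_algebraMap, secNorm_algebraMap] at h2
  exact pc_iff.mpr ⟨x ^ e, y ^ e, pow_ne_zero e hx, pow_ne_zero e hy, h2⟩

theorem PC.TSer (h : PC A a b) (e : ℕ) [NeZero e] : PC A (TSer K e a) (TSer K e b) := by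
  rw [TSer_apply, TSer_apply]
  exact (h.qExpand e).mul (h.secNorm e)

/-- `t ↦ ζ t` for a root of unity `ζ`. -/
theorem PC.twist (h : PC A a b) {n : ℕ} (hn : n ≠ 0) {z : Kˣ} (hz : z ^ n = 1) :
    PC A (twist z a) (twist z b) := by
  obtain ⟨x, y, hx, hy, h1⟩ := pc_iff.mp h
  have h2 := h1.twist hn hz
  rw [map_mul, map_mul, twist_algebraMap, twist_algebraMap] at h2
  exact pc_iff.mpr ⟨x, y, hx, hy, h2⟩

/-- `t ↦ ζ t` is trivial modulo `m_A` if `ζ ^ q = 1`, `q` the residue characteristic. -/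
theorem PC.twist_left (h : PC A a b) {q : ℕ} [Fact q.Prime]
    [CharP (IsLocalRing.ResidueField A) q] {z : Kˣ} (hz : z ^ q = 1) :
    PC A (X0Emb.twist z a) b := by
  obtain ⟨x, y, hx, hy, h1⟩ := pc_iff.mp h
  have h2 := h1.twist_left hz
  rw [map_mul, twist_algebraMap] at h2
  exact pc_iff.mpr ⟨x, y, hx, hy, h2⟩

end Basic

section Aut

variable {L : Type*} [Field L] [Algebra ℚ L] {B : ValuationSubring L} {x y : LaurentSeries L}

theorem PC.decomposition (h : PC B x y) {σ : L ≃ₐ[ℚ] L} (hσ : σ ∈ B.decompositionSubgroup ℚ) :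
    PC B (coeffMap (σ : L →+* L) x) (coeffMap (σ : L →+* L) y) := by
  obtain ⟨c, d, hc, hd, h1⟩ := pc_iff.mp h
  have h2 := h1.decomposition_mem hσ
  rw [coeffMap_algebraMap_mul, coeffMap_algebraMap_mul] at h2
  exact pc_iff.mpr ⟨_, _, (map_ne_zero_iff _ (RingHom.injective _)).mpr hc,
    (map_ne_zero_iff _ (RingHom.injective _)).mpr hd, h2⟩

theorem mem_decompositionSubgroup_of_inertia {σ : L ≃ₐ[ℚ] L} (hσ : σ ∈ B.inertiaSubgroupIn ℚ) :
    σ ∈ B.decompositionSubgroup ℚ := by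
  obtain ⟨τ, hτ, rfl⟩ := hσ
  exact τ.2

/-- Inertia acts trivially modulo `m_A`. -/
theorem PC.inertia (h : PC B x y) {σ : L ≃ₐ[ℚ] L} (hσ : σ ∈ B.inertiaSubgroupIn ℚ) :
    PC B (coeffMap (σ : L →+* L) x) y := by
  obtain ⟨c, d, hc, hd, h1⟩ := pc_iff.mp h
  have h2 := h1.inertia hσ
  rw [coeffMap_algebraMap_mul] at h2
  exact pc_iff.mpr ⟨_, _, (map_ne_zero_iff _ (RingHom.injective _)).mpr hc, hd, h2⟩

/-- **The norm is the Frobenius** modulo `m_A`, `q` the residue characteristic. -/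
theorem PC.frobenius_secNorm {q : ℕ} [Fact q.Prime] [CharP (IsLocalRing.ResidueField B) q]
    (h : PC B x y) {σ : L ≃ₐ[ℚ] L} (hσ : B.IsFrobeniusAt σ q) :
    PC B (coeffMap (σ : L →+* L) x) (TEll.secNorm L q y) := by
  obtain ⟨c, d, hc, hd, h1⟩ := pc_iff.mp h
  have h2 := h1.frobenius_secNorm hσ
  rw [coeffMap_algebraMap_mul, map_mul, secNorm_algebraMap] at h2
  exact pc_iff.mpr ⟨_, _, (map_ne_zero_iff _ (RingHom.injective _)).mpr hc, pow_ne_zero q hd, h2⟩

/-- `(φ x)(t ^ q) ≡ x ^ q` modulo `m_A`, `q` the residue characteristic. -/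
theorem PC.qExpand_frobenius {q : ℕ} [Fact q.Prime] [CharP (IsLocalRing.ResidueField B) q]
    (h : PC B x y) {σ : L ≃ₐ[ℚ] L} (hσ : B.IsFrobeniusAt σ q) :
    PC B (ModularCurve.qExpand L q (coeffMap (σ : L →+* L) x)) (y ^ q) := by
  obtain ⟨c, d, hc, hd, h1⟩ := pc_iff.mp h
  have h2 := h1.qExpand_frobenius hσ
  rw [coeffMap_algebraMap_mul, map_mul, qExpand_algebraMap, mul_pow, ← map_pow] at h2
  exact pc_iff.mpr ⟨_, _, (map_ne_zero_iff _ (RingHom.injective _)).mpr hc, pow_ne_zero q hd, h2⟩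

/-- `x(t ^ q) ≡ (φ⁻¹ x) ^ q` modulo `m_A`, `q` the residue characteristic. -/
theorem PC.qExpand_frobenius_symm {q : ℕ} [Fact q.Prime]
    [CharP (IsLocalRing.ResidueField B) q]
    (h : PC B x y) {σ : L ≃ₐ[ℚ] L} (hσ : B.IsFrobeniusAt σ q) :
    PC B (ModularCurve.qExpand L q x) ((coeffMap ((σ⁻¹ : L ≃ₐ[ℚ] L) : L →+* L) y) ^ q) := by
  obtain ⟨c, d, hc, hd, h1⟩ := pc_iff.mp h
  have h2 := h1.qExpand_frobenius_symm hσ
  rw [coeffMap_algebraMap_mul, map_mul, qExpand_algebraMap, mul_pow, ← map_pow] at h2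
  exact pc_iff.mpr ⟨_, _, hc, pow_ne_zero q ((map_ne_zero_iff _ (RingHom.injective _)).mpr hd), h2⟩

end Aut

/-! ### Versions for `toRA` -/

section RA

open Fermat.Agent.X1Char

variable {A : ValuationSubring Qbar} {x y : LaurentSeries Qbar}

theorem PC.toRA (h : PC A x y) {σ : GQ} (hσ : σ ∈ A.decompositionSubgroup ℚ) :
    PC A (coeffMap ((X1Char.toRA σ : Qbar ≃+* Qbar) : Qbar →+* Qbar) x)
      (coeffMap ((X1Char.toRA σ : Qbar ≃+* Qbar) : Qbar →+* Qbar) y) :=
  h.decomposition hσ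

theorem PC.toRA_inertia (h : PC A x y) {σ : GQ} (hσ : σ ∈ A.inertiaSubgroupIn ℚ) :
    PC A (coeffMap ((X1Char.toRA σ : Qbar ≃+* Qbar) : Qbar →+* Qbar) x) y :=
  h.inertia hσ

theorem PC.toRA_secNorm {q : ℕ} [Fact q.Prime] [CharP (IsLocalRing.ResidueField A) q]
    (h : PC A x y) {σ : GQ} (hσ : A.IsFrobeniusAt σ q) :
    PC A (coeffMap ((X1Char.toRA σ : Qbar ≃+* Qbar) : Qbar →+* Qbar) x)
      (TEll.secNorm Qbar q y) :=
  h.frobenius_secNorm hσ

theorem PC.toRA_qExpand {q : ℕ} [Fact q.Prime] [CharP (IsLocalRing.ResidueField A) q]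
    (h : PC A x y) {σ : GQ} (hσ : A.IsFrobeniusAt σ q) :
    PC A (ModularCurve.qExpand Qbar q
      (coeffMap ((X1Char.toRA σ : Qbar ≃+* Qbar) : Qbar →+* Qbar) x)) (y ^ q) :=
  h.qExpand_frobenius hσ

theorem PC.toRA_qExpand_symm {q : ℕ} [Fact q.Prime] [CharP (IsLocalRing.ResidueField A) q]
    (h : PC A x y) {σ : GQ} (hσ : A.IsFrobeniusAt σ q) :
    PC A (ModularCurve.qExpand Qbar q x)
      ((coeffMap ((X1Char.toRA σ⁻¹ : Qbar ≃+* Qbar) : Qbar →+* Qbar) y) ^ q) :=
  h.qExpand_frobenius_symm hσ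

end RA

end Fermat.Agent.Ribet
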