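import Fermat.Agent.Ribet.PC

/-!
# The averaging argument for projective congruences
-/

set_option autoImplicit false

noncomputable section

open ModularCurve HahnSeries
open Fermat.Agent.GaussVal Fermat.Agent.X0Emb Fermat.Agent.TEll Fermat.Agent.ModFun

namespace Fermat.Agent.Ribet

section Comb

variable {K : Type*} [Field K] {A : ValuationSubring K} {a b c d : LaurentSeries K}

theorem incl_C (x : A) : incl A (HahnSeries.C x) = algebraMap K (LaurentSeries K) x := by
  rw [algebraMap_laurentSeries_eq_single]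
  exact coeffMap_single _ _ _

theorem redS_C (x : A) : redS A (HahnSeries.C x) = HahnSeries.C (IsLocalRing.residue A x) :=
  coeffMap_single _ _ _

/-- Normalisation. -/
theorem exists_normal [IsAlgClosed K] {α : Type*} (i₀ : α)
    {n : ℕ} (hn : n ≠ 0) {b : α → LaurentSeries K} {y : LaurentSeries K}
    (hb : ∀ i, Scalable A (b i)) (hy : ∀ i, PC A y (b i ^ n)) :
    ∃ (x : K) (e : α → K), x ≠ 0 ∧ (∀ i, e i ≠ 0) ∧
      (∀ i, Cong A (algebraMap K (LaurentSeries K) x * y)
        ((algebraMap K (LaurentSeries K) (e i) * b i) ^ n)) ∧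
      (∀ i, Cong A (algebraMap K (LaurentSeries K) (e i) * b i)
        (algebraMap K (LaurentSeries K) (e i) * b i)) := by
  choose x d hx hd hcong using fun i => pc_iff.mp (hy i)
  have key : ∀ i, ∃ e : K, e ≠ 0 ∧ Cong A (algebraMap K (LaurentSeries K) (x i₀) * y)
      ((algebraMap K (LaurentSeries K) e * b i) ^ n) := by
    intro i
    have v1 : A.valuation (x i₀ / x i) = 1 := by
      refine valuation_eq_one_of_cong (hcong i).left ?_
      rw [← mul_assoc, ← map_mul, div_mul_cancel₀ _ (hx i)]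
      exact (hcong i₀).left
    have h1 := (hcong i).smul_self v1
    rw [← mul_assoc, ← map_mul, div_mul_cancel₀ _ (hx i), ← mul_assoc, ← map_mul] at h1
    obtain ⟨e, he⟩ := IsAlgClosed.exists_pow_nat_eq (x i₀ / x i * d i) (Nat.pos_of_ne_zero hn)
    refine ⟨e, ?_, ?_⟩
    · rintro rfl
      rw [zero_pow hn] at he
      exact mul_ne_zero (div_ne_zero (hx i₀) (hx i)) (hd i) he.symm
    · rw [mul_pow, ← map_pow, he]
      exact h1
  choose e he hcong' using key
  refine ⟨x i₀, e, hx i₀, he, hcong', fun i => Cong.of_pow hn ?_ (hcong' i).right⟩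
  obtain ⟨n₀, h0, h1⟩ := hb i
  refine ⟨n₀, ?_, fun k => ?_⟩
  · rw [coeff_algebraMap_mul]
    exact mul_ne_zero (he i) h0
  · rw [coeff_algebraMap_mul, coeff_algebraMap_mul, map_mul, map_mul]
    exact mul_le_mul' le_rfl (h1 k)

theorem mem_of_pow_eq_one {n : ℕ} (hn : n ≠ 0) {z : K} (hz : z ^ n = 1) : z ∈ A := by
  have h1 : A.valuation z ^ n = 1 := by rw [← map_pow, hz, map_one]
  exact (A.valuation_le_one_iff _).mp ((pow_eq_one_iff_of_nonneg zero_le hn).mp h1).le

theorem exists_series [IsAlgClosed K] {α : Type*} (i₀ : α) {n : ℕ} (hn : n ≠ 0)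
    {b : α → LaurentSeries K} (hb : ∀ i, Cong A (b i) (b i))
    (hbn : ∀ i, Cong A (b i ^ n) (b i₀ ^ n)) :
    ∃ Y : α → LaurentSeries A, (∀ i, incl A (Y i) = b i) ∧ (∀ i, redS A (Y i) ≠ 0) ∧
      ∀ i, ∃ γ : IsLocalRing.ResidueField A, redS A (Y i) = HahnSeries.C γ * redS A (Y i₀) := by
  have hY : ∀ i, ∃ Y : LaurentSeries A, incl A Y = b i ∧ redS A Y ≠ 0 := fun i =>
    cong_self_iff.mp (hb i)
  choose Y hYe hY0 using hY
  refine ⟨Y, hYe, hY0, fun i => ?_⟩
  obtain ⟨z, hz, hc⟩ := Cong.exists_root hn (hb i) (hb i₀) (hbn i)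
  have hzA : z ∈ A := mem_of_pow_eq_one hn hz
  have e1 : algebraMap K (LaurentSeries K) z * b i₀ =
      incl A (HahnSeries.C (⟨z, hzA⟩ : A) * Y i₀) := by
    rw [map_mul, incl_C, hYe]
  rw [e1, ← hYe i, cong_incl_iff] at hc
  refine ⟨IsLocalRing.residue A ⟨z, hzA⟩, ?_⟩
  rw [hc.1, map_mul, redS_C]

theorem exists_comb_aux {α β : Type*} [Finite α] [Fintype β] (i₀ : α)
    {b : α → LaurentSeries K} {e : α → K} (he : ∀ i, e i ≠ 0) {Y : α → LaurentSeries A}
    (hYe : ∀ i, incl A (Y i) = algebraMap K (LaurentSeries K) (e i) * b i)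
    (hY0 : ∀ i, redS A (Y i) ≠ 0)
    (hYr : ∀ i, ∃ γ : IsLocalRing.ResidueField A, redS A (Y i) = HahnSeries.C γ * redS A (Y i₀))
    (S : β → LaurentSeries K)
    (hS : ∀ j, ∃ (s : Finset α) (w : α → A),
      S j = ∑ i ∈ s, algebraMap K (LaurentSeries K) (w i) * b i)
    (hv : ∀ i, ∃ v : β → A, b i = ∑ j, algebraMap K (LaurentSeries K) (v j) * S j) :
    ∃ j, ∃ x g : K, x ≠ 0 ∧ g ≠ 0 ∧ Cong A (algebraMap K (LaurentSeries K) x * S j)
      (algebraMap K (LaurentSeries K) g * (algebraMap K (LaurentSeries K) (e i₀) * b i₀)) := by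
  classical
  -- the largest coefficient
  obtain ⟨i₁, hi₁⟩ := @Finite.exists_min α _ _ ⟨i₀⟩ _ (fun i => A.valuation (e i))
  have hq : ∀ i, e i₁ / e i ∈ A := by
    intro i
    rw [← A.valuation_le_one_iff, map_div₀]
    exact div_le_one_of_le₀ (hi₁ i) zero_le
  -- the series `e i₁ * b i`
  have hZ : ∀ i, ∃ (Z : LaurentSeries A) (γ : IsLocalRing.ResidueField A),
      incl A Z = algebraMap K (LaurentSeries K) (e i₁) * b i ∧
      redS A Z = HahnSeries.C γ * redS A (Y i₀) := by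
    intro i
    obtain ⟨γ, hγ⟩ := hYr i
    refine ⟨HahnSeries.C (⟨e i₁ / e i, hq i⟩ : A) * Y i,
      IsLocalRing.residue A ⟨e i₁ / e i, hq i⟩ * γ, ?_, ?_⟩
    · rw [map_mul, incl_C, hYe, ← mul_assoc, ← map_mul, div_mul_cancel₀ _ (he i)]
    · rw [map_mul, redS_C, hγ, map_mul, mul_assoc]
  choose Z γ hZe hZr using hZ
  -- the combinations
  have hT : ∀ j, ∃ (T : LaurentSeries A) (γ : IsLocalRing.ResidueField A),
      incl A T = algebraMap K (LaurentSeries K) (e i₁) * S j ∧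
      redS A T = HahnSeries.C γ * redS A (Y i₀) := by
    intro j
    obtain ⟨s, w, hw⟩ := hS j
    refine ⟨∑ i ∈ s, HahnSeries.C (w i) * Z i, ∑ i ∈ s, IsLocalRing.residue A (w i) * γ i,
      ?_, ?_⟩
    · rw [map_sum, hw, Finset.mul_sum]
      refine Finset.sum_congr rfl fun i _ => ?_
      rw [map_mul, incl_C, hZe]
      ring
    · rw [map_sum, map_sum, Finset.sum_mul]
      refine Finset.sum_congr rfl fun i _ => ?_
      rw [map_mul, redS_C, hZr, map_mul, mul_assoc]
  choose T δ hTe hTr using hT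
  -- some `δ` is nonzero
  have hne : ∃ j, δ j ≠ 0 := by
    by_contra hcon
    push Not at hcon
    obtain ⟨v, hv⟩ := hv i₁
    apply hY0 i₁
    have h1 : Y i₁ = ∑ j, HahnSeries.C (v j) * T j := by
      apply incl_injective A
      rw [hYe, map_sum, hv, Finset.mul_sum]
      refine Finset.sum_congr rfl fun j _ => ?_
      rw [map_mul, incl_C, hTe]
      ring
    rw [h1, map_sum]
    refine Finset.sum_eq_zero fun j _ => ?_
    rw [map_mul, hTr, hcon, map_zero, zero_mul, mul_zero]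
  obtain ⟨j, hj⟩ := hne
  obtain ⟨g, hg⟩ := IsLocalRing.residue_surjective (δ j)
  have hg0 : (g : K) ≠ 0 := by
    intro h
    have : g = 0 := Subtype.ext h
    rw [this, map_zero] at hg
    exact hj hg.symm
  refine ⟨j, e i₁, g, he i₁, hg0, ?_⟩
  rw [← hTe, ← incl_C, ← hYe, ← map_mul, cong_incl_iff, hTr, map_mul, redS_C, hg]
  exact ⟨rfl, mul_ne_zero ((map_ne_zero_iff _ HahnSeries.C_injective).mpr hj) (hY0 i₀)⟩

/-- **The averaging argument.** -/
theorem PC.exists_comb [IsAlgClosed K] {α β : Type*} [Finite α] [Nonempty α] [Fintype β]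
    {n : ℕ} (hn : n ≠ 0) {b : α → LaurentSeries K} {y : LaurentSeries K}
    (hb : ∀ i, Scalable A (b i)) (hy : ∀ i, PC A y (b i ^ n)) (S : β → LaurentSeries K)
    (hS : ∀ j, ∃ (s : Finset α) (w : α → A),
      S j = ∑ i ∈ s, algebraMap K (LaurentSeries K) (w i) * b i)
    (hv : ∀ i, ∃ v : β → A, b i = ∑ j, algebraMap K (LaurentSeries K) (v j) * S j) :
    ∃ j, PC A y (S j ^ n) := by
  obtain ⟨i₀⟩ := ‹Nonempty α›
  obtain ⟨x, e, hx, he, hcong, hprim⟩ := exists_normal i₀ hn hb hy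
  obtain ⟨Y, hYe, hY0, hYr⟩ := exists_series i₀ hn hprim
    (fun i => (hcong i).symm.trans (hcong i₀))
  obtain ⟨j, u, g, hu, hg, h1⟩ := exists_comb_aux i₀ he hYe hY0 hYr S hS hv
  refine ⟨j, ?_⟩
  have h2 := (hcong i₀).pc
  have h3 := (h1.pow n).pc
  rw [mul_pow, ← map_pow, mul_pow (algebraMap K (LaurentSeries K) g), ← map_pow] at h3
  have h4 : PC A (S j ^ n) ((algebraMap K (LaurentSeries K) (e i₀) * b i₀) ^ n) := by
    exact (h3.of_const_mul_left (pow_ne_zero n hu)).of_const_mul_right (pow_ne_zero n hg)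
  exact (h2.of_const_mul_left hx).trans h4.symm

end Comb

end Fermat.Agent.Ribet
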