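import Mathlib
import Fermat.Agent.Ribet.R3GD
import Fermat.Agent.X1Char.XGroup
import Fermat.Agent.Ribet.Descend

/-!
# R3 in terms of characters `Γ →* ℂˣ`
-/

set_option autoImplicit false

noncomputable section

namespace Fermat.Agent.Ribet

open scoped BigOperators MatrixGroups
open HeckePar X1 CongruenceSubgroup ModularCurve.Period
open X1Char (tChar dChar xGroup charGroup)

section Gen

/-! ### Coefficients: a finite group killed by `n` -/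

variable {A : Type*} [AddCommGroup A] {n : ℕ} (hA : ∀ x : A, n • x = 0)
include hA

theorem inj_of_coprime {c : ℤ} (hc : IsCoprime c (n : ℤ)) (x : A) (hx : c • x = 0) : x = 0 := by
  obtain ⟨a, b, hab⟩ := hc
  have h1 : ((a * c + b * n : ℤ)) • x = x := by rw [hab, one_smul]
  have h2 : (n : ℤ) • x = 0 := by rw [natCast_zsmul, hA]
  rw [add_smul, mul_smul, mul_smul, hx, smul_zero, zero_add, h2, smul_zero] at h1
  exact h1.symm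

end Gen

section Main

variable {m q : ℕ} [NeZero m] [hq : Fact q.Prime] {H : Subgroup (ZMod q)ˣ} {n : ℕ}
  {A : Type*} [AddCommGroup A] [Finite A] (hA : ∀ x : A, n • x = 0)
  (hn : H.index = n) (h6 : NoTors m n) {u : (ZMod (m * q))ˣ}
  (hu : ∀ x : (ZMod q)ˣ, ∃ i : ℕ, ZMod.unitsMap (dvd_mq m q) u ^ i * x ∈ H)
  {I : Set ℕ} {a : ℕ → ℤ} {ℓ : ℕ} [hℓ : Fact ℓ.Prime] (hI : ℓ ∈ I)
  (ha : IsCoprime (a ℓ - 1 - (ℓ : ℤ)) (n : ℤ))

include hA hn hu h6 hI ha in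
/-- **(N1)** for `GD m q H`. -/
theorem GA_N1 (hℓM : ¬ ℓ ∣ m * q) {x : Additive (GD m q H) →+ A}
    (hx : x ∈ genEig (m * q) (GD m q H) A I a)
    (hδ : dd (m * q) (GD m q H) A u x = x) :
    ∃ y ∈ genEig (m * q) (GD m q H) A I a,
      x = nmG (m * q) (GD m q H) A u n y := by
  classical
  have : NeZero q := ⟨hq.out.ne_zero⟩
  have : Finite (Additive (GD m q H) →+ A) := finite_hom _ _
  let _ : Fintype (Dq q H) := Fintype.ofFinite _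
  have hc := card_quot hn
  have h1 := N1 (isKer_GD m q H) (psiGD_gen hu) (fun x => by rw [hc]; exact hA x)
    ((h6.mul_right q).torOK hA) hℓM hI
    (inj_of_coprime hA ha) (psiGD_neg_one (hn ▸ h6.odd)) hx hδ
  rwa [hc] at h1

include hA hn hu h6 hI ha in
/-- **(N2)** for `GD m q H`. -/
theorem GA_N2 (hℓM : ¬ ℓ ∣ m * q) {x : Additive (GD m q H) →+ A}
    (hx : x ∈ genEig (m * q) (GD m q H) A I a)
    (hN : nmG (m * q) (GD m q H) A u n x = 0) :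
    ∃ y ∈ genEig (m * q) (GD m q H) A I a,
      x = dd (m * q) (GD m q H) A u y - y := by
  classical
  have : NeZero q := ⟨hq.out.ne_zero⟩
  have : Finite (Additive (GD m q H) →+ A) := finite_hom _ _
  let _ : Fintype (Dq q H) := Fintype.ofFinite _
  have hc := card_quot hn
  refine N2 (isKer_GD m q H) (psiGD_gen hu) (fun x => by rw [hc]; exact hA x)
    ((h6.mul_right q).torOK hA) hℓM hI
    (inj_of_coprime hA ha) (psiGD_neg_one (hn ▸ h6.odd)) hx ?_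
  rwa [hc]

include hA hn hu h6 hI ha in
/-- **(N0)** for `GD m q H`. -/
theorem GA_exists_resG (hℓM : ¬ ℓ ∣ m * q) {x : Additive (GD m q H) →+ A}
    (hx : x ∈ genEig (m * q) (GD m q H) A I a)
    (hδ : dd (m * q) (GD m q H) A u x = x) :
    ∃ y ∈ genEig (m * q) (Gamma0 (m * q)) A I a, resG (GD m q H) y = x := by
  classical
  have : NeZero q := ⟨hq.out.ne_zero⟩
  have : Finite (Additive (GD m q H) →+ A) := finite_hom _ _
  let _ : Fintype (Dq q H) := Fintype.ofFinite _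
  have hc := card_quot hn
  exact exists_resG (isKer_GD m q H) (psiGD_gen hu) (fun x => by rw [hc]; exact hA x)
    ((h6.mul_right q).torOK hA) hℓM
    hI (inj_of_coprime hA ha) (psiGD_neg_one (hn ▸ h6.odd)) hx hδ

omit [NeZero m] [Finite A] in
include hA hu hI ha in
/-- **(N0)**, injectivity. -/
theorem GA_resG_inj (hℓM : ¬ ℓ ∣ m * q) {x : Additive (Gamma0 (m * q)) →+ A}
    (hx : x ∈ genEig (m * q) (Gamma0 (m * q)) A I a) (h0 : resG (GD m q H) x = 0) :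
    x = 0 :=
  resG_inj (isKer_GD m q H) hℓM hI (inj_of_coprime hA ha)
    (fun d => by obtain ⟨i, hi⟩ := psiGD_gen hu d; exact ⟨u ^ i, by rw [map_pow, hi]⟩) hx h0

include hA hI ha in
/-- **(PAR)** -/
theorem GA_parabolic (hodd : Odd n) {M : ℕ} [NeZero M] {Γ : Subgroup SL(2, ℤ)} [hΓ : Between M Γ]
    (hℓM : (ℓ : ZMod M) = 1) {x : Additive Γ →+ A} (hx : x ∈ genEig M Γ A I a) :
    IsParabolicHom Γ x := by
  have := finiteIndex_of_between M Γ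
  have : Finite (Additive Γ →+ A) := finite_hom Γ A
  exact parabolic_of_genEig (two_of_odd hodd hA) hI hℓM (inj_of_coprime hA ha) hx

end Main

section Char

variable {M : ℕ} {Γ : Subgroup SL(2, ℤ)} [hΓ : Between M Γ] {n : ℕ}

/-- The coefficients. -/
abbrev Mu (n : ℕ) : Type := Additive (rootsOfUnity n ℂ)

theorem mu_smul (n : ℕ) (x : Mu n) : n • x = 0 := by
  obtain ⟨x, rfl⟩ := Additive.ofMul.surjective x
  rw [← ofMul_pow, ← ofMul_one]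
  congr 1
  apply Subtype.ext
  exact x.2

/-- The character attached to an additive homomorphism to `Mu n`. -/
def chi (φ : Additive Γ →+ Mu n) : Γ →* ℂˣ :=
  (rootsOfUnity n ℂ).subtype.comp (MonoidHom.toAdditive.symm φ)

theorem chi_apply (φ : Additive Γ →+ Mu n) (γ : Γ) :
    chi φ γ = ((Additive.toMul (φ (Additive.ofMul γ)) : rootsOfUnity n ℂ) : ℂˣ) := rfl

theorem chi_injective : Function.Injective (chi : (Additive Γ →+ Mu n) → (Γ →* ℂˣ)) := by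
  intro φ ψ h
  refine AddMonoidHom.ext fun g => ?_
  obtain ⟨g, rfl⟩ := Additive.ofMul.surjective g
  have h1 := DFunLike.congr_fun h g
  rw [chi_apply, chi_apply] at h1
  exact congrArg Additive.ofMul (Subtype.ext h1)

theorem chi_add (φ ψ : Additive Γ →+ Mu n) : chi (φ + ψ) = chi φ * chi ψ := rfl

theorem chi_zero : chi (0 : Additive Γ →+ Mu n) = 1 := rfl

theorem chi_neg (φ : Additive Γ →+ Mu n) : chi (-φ) = (chi φ)⁻¹ := rfl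

theorem chi_sub (φ ψ : Additive Γ →+ Mu n) : chi (φ - ψ) = chi φ / chi ψ := by
  rw [sub_eq_add_neg, chi_add, chi_neg]
  exact (div_eq_mul_inv (chi φ) (chi ψ)).symm

theorem chi_eq_one {φ : Additive Γ →+ Mu n} : chi φ = 1 ↔ φ = 0 :=
  ⟨fun h => chi_injective (h.trans chi_zero.symm), fun h => by rw [h, chi_zero]⟩

/-- `chi` as a homomorphism -/
def chiHom (Γ : Subgroup SL(2, ℤ)) (n : ℕ) :
    Multiplicative (Additive Γ →+ Mu n) →* (Γ →* ℂˣ) where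
  toFun φ := chi (Multiplicative.toAdd φ)
  map_one' := chi_zero
  map_mul' _ _ := rfl

theorem chi_zsmul (a : ℤ) (φ : Additive Γ →+ Mu n) : chi (a • φ) = chi φ ^ a := by
  have := map_zpow (chiHom Γ n) (Multiplicative.ofAdd φ) a
  exact this

theorem chi_sum {ι : Type*} (s : Finset ι) (f : ι → (Additive Γ →+ Mu n)) :
    chi (∑ i ∈ s, f i) = ∏ i ∈ s, chi (f i) := by
  classical
  induction s using Finset.induction_on with
  | empty => rw [Finset.sum_empty, Finset.prod_empty, chi_zero]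
  | insert i s hi ih => rw [Finset.sum_insert hi, Finset.prod_insert hi, chi_add, ih]

theorem chi_pow (φ : Additive Γ →+ Mu n) : chi φ ^ n = 1 := by
  refine MonoidHom.ext fun γ => ?_
  rw [MonoidHom.pow_apply, chi_apply]
  exact (Additive.toMul (φ (Additive.ofMul γ)) : rootsOfUnity n ℂ).2

theorem exists_chi {χ : Γ →* ℂˣ} (h : χ ^ n = 1) : ∃ φ : Additive Γ →+ Mu n, chi φ = χ := by
  have h1 : ∀ γ, χ γ ∈ rootsOfUnity n ℂ := by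
    intro γ
    rw [mem_rootsOfUnity]
    exact DFunLike.congr_fun h γ
  exact ⟨MonoidHom.toAdditive (χ.codRestrict (rootsOfUnity n ℂ) h1), rfl⟩

theorem chi_TT (ℓ : ℕ) [Fact ℓ.Prime] (φ : Additive Γ →+ Mu n) :
    chi (TT M Γ (Mu n) ℓ φ) = tChar M Γ ℓ (chi φ) := by
  refine MonoidHom.ext fun γ => ?_
  rw [chi_apply, TT_apply, CosetSys.addTransfer_apply, toMul_sum]
  rw [Subgroup.val_finsetProd]
  rfl

theorem chi_dd (u : (ZMod M)ˣ) (φ : Additive Γ →+ Mu n) :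
    chi (dd M Γ (Mu n) u φ) = dChar M Γ u (chi φ) := by
  refine MonoidHom.ext fun γ => ?_
  rw [chi_apply, dd_apply, CosetSys.addTransfer_apply, toMul_sum]
  rw [Subgroup.val_finsetProd]
  rfl

theorem chi_TA {I : Set ℕ} {a : ℕ → ℤ} (ℓ : ℕ) [hℓ : Fact ℓ.Prime] (hI : ℓ ∈ I)
    (φ : Additive Γ →+ Mu n) :
    chi (TA M Γ (Mu n) I a ⟨ℓ, hℓ.out, hI⟩ φ) =
      (fun χ : Γ →* ℂˣ => tChar M Γ ℓ χ / χ ^ a ℓ) (chi φ) := by
  rw [TA_apply, chi_sub, chi_TT, chi_zsmul]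

theorem chi_iterate {f : (Additive Γ →+ Mu n) → (Additive Γ →+ Mu n)}
    {g : (Γ →* ℂˣ) → (Γ →* ℂˣ)} (h : ∀ φ, chi (f φ) = g (chi φ)) (k : ℕ)
    (φ : Additive Γ →+ Mu n) : chi (f^[k] φ) = g^[k] (chi φ) := by
  induction k generalizing φ with
  | zero => rfl
  | succ k ih => rw [Function.iterate_succ_apply, Function.iterate_succ_apply, ih, h]

theorem iter_TA {I : Set ℕ} {a : ℕ → ℤ} (ℓ : ℕ) [hℓ : Fact ℓ.Prime] (hI : ℓ ∈ I) (k : ℕ)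
    (φ : Additive Γ →+ Mu n) :
    (fun χ : Γ →* ℂˣ => tChar M Γ ℓ χ / χ ^ a ℓ)^[k] (chi φ) =
      chi ((TA M Γ (Mu n) I a ⟨ℓ, hℓ.out, hI⟩)^[k] φ) :=
  (chi_iterate (chi_TA ℓ hI) k φ).symm

variable (M Γ) in
/-- The generalised eigenspace, in terms of characters. -/
def GE (n : ℕ) (I : Set ℕ) (a : ℕ → ℤ) : Subgroup (Γ →* ℂˣ) where
  carrier := {χ | χ ^ n = 1 ∧ ∀ (ℓ : ℕ) [Fact ℓ.Prime], ℓ ∈ I → ∃ k : ℕ,
    (fun χ : Γ →* ℂˣ => tChar M Γ ℓ χ / χ ^ a ℓ)^[k] χ = 1}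
  one_mem' := ⟨one_pow n, fun ℓ _ _ => ⟨0, rfl⟩⟩
  mul_mem' := by
    rintro χ ψ ⟨h1, h2⟩ ⟨h3, h4⟩
    obtain ⟨φ, rfl⟩ := exists_chi h1
    obtain ⟨φ', rfl⟩ := exists_chi h3
    rw [← chi_add]
    refine ⟨chi_pow _, fun ℓ _ hℓ => ?_⟩
    have h5 : ∀ φ : Additive Γ →+ Mu n, (∃ k : ℕ,
        (fun χ : Γ →* ℂˣ => tChar M Γ ℓ χ / χ ^ a ℓ)^[k] (chi φ) = 1) ↔
        ∃ k : ℕ, (TA M Γ (Mu n) I a ⟨ℓ, Fact.out, hℓ⟩)^[k] φ = 0 := by
      intro φ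
      refine exists_congr fun k => ?_
      rw [iter_TA ℓ hℓ, chi_eq_one]
    rw [h5]
    have e1 := (h5 φ).mp (h2 ℓ hℓ)
    have e2 := (h5 φ').mp (h4 ℓ hℓ)
    let f : Unit → ((Additive Γ →+ Mu n) →+ (Additive Γ →+ Mu n)) := fun _ =>
      TA M Γ (Mu n) I a ⟨ℓ, Fact.out, hℓ⟩
    exact (add_mem (S := AddSubgroup (Additive Γ →+ Mu n)) (s := nil f) (fun _ => e1)
      (fun _ => e2)) ()
  inv_mem' := by
    rintro χ ⟨h1, h2⟩
    obtain ⟨φ, rfl⟩ := exists_chi h1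
    rw [← chi_neg]
    refine ⟨chi_pow _, fun ℓ _ hℓ => ?_⟩
    obtain ⟨k, hk⟩ := h2 ℓ hℓ
    refine ⟨k, ?_⟩
    rw [iter_TA ℓ hℓ, chi_eq_one] at hk ⊢
    rw [iterate_map_neg, hk, neg_zero]

variable {I : Set ℕ} {a : ℕ → ℤ}

theorem mem_GE {χ : Γ →* ℂˣ} : χ ∈ GE M Γ n I a ↔ χ ^ n = 1 ∧
    ∀ (ℓ : ℕ) [Fact ℓ.Prime], ℓ ∈ I → ∃ k : ℕ,
      (fun χ : Γ →* ℂˣ => tChar M Γ ℓ χ / χ ^ a ℓ)^[k] χ = 1 := Iff.rfl

theorem chi_mem_GE {φ : Additive Γ →+ Mu n} :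
    chi φ ∈ GE M Γ n I a ↔ φ ∈ genEig M Γ (Mu n) I a := by
  rw [mem_GE]
  constructor
  · rintro ⟨-, h⟩ ⟨ℓ, hℓ, hI⟩
    have : Fact ℓ.Prime := ⟨hℓ⟩
    obtain ⟨k, hk⟩ := h ℓ hI
    refine ⟨k, ?_⟩
    rw [iter_TA ℓ hI, chi_eq_one] at hk
    exact hk
  · intro h
    refine ⟨chi_pow φ, fun ℓ hℓ hI => ?_⟩
    obtain ⟨k, hk⟩ := h ⟨ℓ, hℓ.out, hI⟩
    refine ⟨k, ?_⟩
    rw [iter_TA ℓ hI, chi_eq_one]
    exact hk

theorem exists_of_mem_GE {χ : Γ →* ℂˣ} (h : χ ∈ GE M Γ n I a) :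
    ∃ φ ∈ genEig M Γ (Mu n) I a, chi φ = χ := by
  obtain ⟨φ, rfl⟩ := exists_chi h.1
  exact ⟨φ, chi_mem_GE.mp h, rfl⟩

theorem chi_nmG (u : (ZMod M)ˣ) (k : ℕ) (φ : Additive Γ →+ Mu n) :
    chi (nmG M Γ (Mu n) u k φ) = ∏ i ∈ Finset.range k, (dChar M Γ u)^[i] (chi φ) := by
  rw [nmG_apply, chi_sum]
  exact Finset.prod_congr rfl fun i _ => chi_iterate (chi_dd u) i φ

theorem chi_resG (φ : Additive (Gamma0 M) →+ Mu n) :
    chi (resG Γ φ) = resC M Γ (chi φ) := rfl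

/-- Any map commuting with the Hecke operators and compatible with the group structure. -/
theorem iter_of_comm {Γ' : Subgroup SL(2, ℤ)} [Between M Γ'] {W : Subgroup (Γ →* ℂˣ)}
    (ℓ : ℕ) [Fact ℓ.Prime] (hT : ∀ χ ∈ W, tChar M Γ ℓ χ ∈ W) (g : W →* (Γ' →* ℂˣ))
    (hg : ∀ χ : W, g ⟨tChar M Γ ℓ χ.1, hT χ.1 χ.2⟩ = tChar M Γ' ℓ (g χ)) (b : ℤ) (k : ℕ) (χ : W) :
    ∃ h : (fun χ : Γ →* ℂˣ => tChar M Γ ℓ χ / χ ^ b)^[k] χ.1 ∈ W,
      g ⟨_, h⟩ = (fun χ : Γ' →* ℂˣ => tChar M Γ' ℓ χ / χ ^ b)^[k] (g χ) := by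
  induction k with
  | zero => exact ⟨χ.2, rfl⟩
  | succ k ih =>
    obtain ⟨h, h'⟩ := ih
    rw [Function.iterate_succ_apply', Function.iterate_succ_apply']
    refine ⟨div_mem (hT _ h) (zpow_mem h b), ?_⟩
    rw [← h', ← hg ⟨_, h⟩]
    exact map_div g ⟨tChar M Γ ℓ _, hT _ h⟩ (⟨_, h⟩ ^ b) |>.trans (by rw [map_zpow])

/-- **Functoriality** of `GE` with respect to homomorphisms defined on a Hecke stable subgroup
`W` (e.g. `xGroup`) which commute with the Hecke operators. -/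
theorem map_mem_GE {Γ' : Subgroup SL(2, ℤ)} [Between M Γ'] {W : Subgroup (Γ →* ℂˣ)}
    (hT : ∀ (ℓ : ℕ) [Fact ℓ.Prime], ℓ ∈ I → ∀ χ ∈ W, tChar M Γ ℓ χ ∈ W) (g : W →* (Γ' →* ℂˣ))
    (hg : ∀ (ℓ : ℕ) [Fact ℓ.Prime] (hℓ : ℓ ∈ I) (χ : W),
      g ⟨tChar M Γ ℓ χ.1, hT ℓ hℓ χ.1 χ.2⟩ = tChar M Γ' ℓ (g χ))
    {χ : W} (hχ : (χ : Γ →* ℂˣ) ∈ GE M Γ n I a) : g χ ∈ GE M Γ' n I a := by
  refine ⟨?_, fun ℓ _ hℓ => ?_⟩
  · have h1 : χ ^ n = 1 := Subtype.ext hχ.1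
    exact (map_pow g χ n).symm.trans (by rw [h1, map_one])
  · obtain ⟨k, hk⟩ := hχ.2 ℓ hℓ
    obtain ⟨h1, h2⟩ := iter_of_comm ℓ (hT ℓ hℓ) g (hg ℓ hℓ) (a ℓ) k χ
    refine ⟨k, ?_⟩
    rw [← h2]
    have : (⟨_, h1⟩ : W) = 1 := Subtype.ext hk
    rw [this, map_one]

theorem tChar_mem_GE (p : ℕ) [Fact p.Prime] {χ : Γ →* ℂˣ} (h : χ ∈ GE M Γ n I a) :
    tChar M Γ p χ ∈ GE M Γ n I a := by
  obtain ⟨φ, hφ, rfl⟩ := exists_of_mem_GE h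
  rw [← chi_TT, chi_mem_GE]
  exact TT_mem_genEig p hφ

theorem dChar_mem_GE (u : (ZMod M)ˣ) {χ : Γ →* ℂˣ} (h : χ ∈ GE M Γ n I a) :
    dChar M Γ u χ ∈ GE M Γ n I a := by
  obtain ⟨φ, hφ, rfl⟩ := exists_of_mem_GE h
  rw [← chi_dd, chi_mem_GE]
  exact dd_mem_genEig u hφ

section NN

variable [NeZero M] [NeZero n] {N : ℕ} (h6 : NoTors N n) {ℓ : ℕ} [hℓ : Fact ℓ.Prime] (hI : ℓ ∈ I)
  (ha : IsCoprime (a ℓ - 1 - (ℓ : ℤ)) (n : ℤ))

include h6 hI ha in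
/-- **(PAR)** -/
theorem GE_parabolic (hℓM : (ℓ : ZMod M) = 1) {χ : Γ →* ℂˣ} (h : χ ∈ GE M Γ n I a)
    (γ : Γ) (hγ : ((γ : SL(2, ℤ)) : Matrix (Fin 2) (Fin 2) ℤ).trace ^ 2 = 4) : χ γ = 1 := by
  obtain ⟨φ, hφ, rfl⟩ := exists_of_mem_GE h
  have h1 := GA_parabolic (mu_smul n) hI ha h6.odd hℓM hφ γ hγ
  rw [chi_apply, h1]
  rfl

include h6 hI ha in
/-- `GE` is contained in `xGroup`. -/
theorem GE_le_xGroup (hℓM : (ℓ : ZMod M) = 1) : GE M Γ n I a ≤ xGroup M Γ n := by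
  intro χ hχ
  rw [X1Char.mem_xGroup]
  intro u
  have h1 := dChar_mem_GE u hχ
  rw [X1Char.mem_charGroup]
  refine ⟨h1.1, fun γ hγ => GE_parabolic h6 hI ha hℓM h1 γ ?_⟩
  have h2 := det_SL (γ : SL(2, ℤ))
  rw [Matrix.trace_fin_two]
  change ((γ : SL(2, ℤ)) 1 0) = 0 at hγ
  rw [hγ, mul_zero, sub_zero] at h2
  rcases Int.eq_one_or_neg_one_of_mul_eq_one' h2 with ⟨h3, h4⟩ | ⟨h3, h4⟩
  · change ((γ : SL(2, ℤ)) 0 0 + (γ : SL(2, ℤ)) 1 1) ^ 2 = 4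
    rw [h3, h4]; norm_num
  · change ((γ : SL(2, ℤ)) 0 0 + (γ : SL(2, ℤ)) 1 1) ^ 2 = 4
    rw [h3, h4]; norm_num

end NN

section GD

variable {m q : ℕ} [NeZero m] [hq : Fact q.Prime] {H : Subgroup (ZMod q)ˣ} {n : ℕ}
  (hn : H.index = n) (h6 : NoTors m n) {u : (ZMod (m * q))ˣ}
  (hu : ∀ x : (ZMod q)ˣ, ∃ i : ℕ, ZMod.unitsMap (dvd_mq m q) u ^ i * x ∈ H)
  {ℓ : ℕ} [hℓ : Fact ℓ.Prime] (hI : ℓ ∈ I)
  (ha : IsCoprime (a ℓ - 1 - (ℓ : ℤ)) (n : ℤ))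

include hn hu h6 hI ha in
/-- **(N1)** -/
theorem GE_N1 (hℓM : ¬ ℓ ∣ m * q) {χ : GD m q H →* ℂˣ} (hχ : χ ∈ GE (m * q) (GD m q H) n I a)
    (hδ : dChar (m * q) (GD m q H) u χ = χ) :
    ∃ η ∈ GE (m * q) (GD m q H) n I a,
      χ = ∏ i ∈ Finset.range n, (dChar (m * q) (GD m q H) u)^[i] η := by
  have := neZero_index hn
  obtain ⟨φ, hφ, rfl⟩ := exists_of_mem_GE hχ
  rw [← chi_dd] at hδ
  obtain ⟨y, hy, h⟩ := GA_N1 (mu_smul n) hn h6 hu hI ha hℓM hφ (chi_injective hδ)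
  refine ⟨chi y, chi_mem_GE.mpr hy, ?_⟩
  rw [← chi_nmG, ← h]

include hn hu h6 hI ha in
/-- **(N2)** -/
theorem GE_N2 (hℓM : ¬ ℓ ∣ m * q) {χ : GD m q H →* ℂˣ} (hχ : χ ∈ GE (m * q) (GD m q H) n I a)
    (hN : ∏ i ∈ Finset.range n, (dChar (m * q) (GD m q H) u)^[i] χ = 1) :
    ∃ η ∈ GE (m * q) (GD m q H) n I a, χ = dChar (m * q) (GD m q H) u η / η := by
  have := neZero_index hn
  obtain ⟨φ, hφ, rfl⟩ := exists_of_mem_GE hχ
  rw [← chi_nmG, chi_eq_one] at hN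
  obtain ⟨y, hy, h⟩ := GA_N2 (mu_smul n) hn h6 hu hI ha hℓM hφ hN
  refine ⟨chi y, chi_mem_GE.mpr hy, ?_⟩
  rw [← chi_dd, ← chi_sub, ← h]

include hn hu h6 hI ha in
/-- **(N0)** -/
theorem GE_exists_resC (hℓM : ¬ ℓ ∣ m * q) {χ : GD m q H →* ℂˣ}
    (hχ : χ ∈ GE (m * q) (GD m q H) n I a) (hδ : dChar (m * q) (GD m q H) u χ = χ) :
    ∃ η ∈ GE (m * q) (Gamma0 (m * q)) n I a, resC (m * q) (GD m q H) η = χ := by
  have := neZero_index hn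
  obtain ⟨φ, hφ, rfl⟩ := exists_of_mem_GE hχ
  rw [← chi_dd] at hδ
  obtain ⟨y, hy, h⟩ := GA_exists_resG (mu_smul n) hn h6 hu hI ha hℓM hφ (chi_injective hδ)
  refine ⟨chi y, chi_mem_GE.mpr hy, ?_⟩
  rw [← chi_resG, h]

omit [NeZero m] in
include hu hI ha in
/-- **(N0)**, injectivity -/
theorem GE_resC_inj (hℓM : ¬ ℓ ∣ m * q) {χ : Gamma0 (m * q) →* ℂˣ}
    (hχ : χ ∈ GE (m * q) (Gamma0 (m * q)) n I a) (h0 : resC (m * q) (GD m q H) χ = 1) : χ = 1 := by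
  obtain ⟨φ, hφ, rfl⟩ := exists_of_mem_GE hχ
  rw [← chi_resG, chi_eq_one] at h0
  rw [chi_eq_one]
  exact GA_resG_inj (mu_smul n) hu hI ha hℓM hφ h0

omit [NeZero m] in
/-- Restriction maps `GE` to `GE`. -/
theorem resC_mem_GE {χ : Gamma0 (m * q) →* ℂˣ} (hχ : χ ∈ GE (m * q) (Gamma0 (m * q)) n I a) :
    resC (m * q) (GD m q H) χ ∈ GE (m * q) (GD m q H) n I a := by
  obtain ⟨φ, hφ, rfl⟩ := exists_of_mem_GE hχ
  rw [← chi_resG, chi_mem_GE]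
  exact resG_mem (isKer_GD m q H) hφ

omit [NeZero m] in
/-- Restrictions are invariant. -/
theorem dChar_resC (v : (ZMod (m * q))ˣ) {χ : Gamma0 (m * q) →* ℂˣ} (hχ : χ ^ n = 1) :
    dChar (m * q) (GD m q H) v (resC (m * q) (GD m q H) χ) = resC (m * q) (GD m q H) χ := by
  obtain ⟨φ, rfl⟩ := exists_chi hχ
  rw [← chi_resG, ← chi_dd]
  exact congrArg chi (dd_resG (isKer_GD m q H) v φ)

end GD

end Char

end Fermat.Agent.Ribet
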