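import Fermat.Agent.Ribet.Inter
import Fermat.Agent.GalRep.JZ9_Map
import Fermat.Agent.TwoComp.SwapInst

/-!
# Characters and torsion points of `J₀(N)`: Galois action and specialisation
-/

set_option autoImplicit false

open UpperHalfPlane hiding I
open ModularForm Matrix.SpecialLinearGroup Filter Asymptotics CongruenceSubgroup
open scoped MatrixGroups Manifold ModularForm Polynomial Topology

noncomputable section

namespace Fermat.Agent.Ribet

open Fermat.Agent.JLevelOne Fermat.Agent.X0Emb Fermat.Agent.ModFun ModularCurve Fermat.Agent.FG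
open Fermat.Agent.EisChar Fermat.Agent.S28aux Fermat.Agent.IntStruct Fermat.Agent.HeckePar
open Fermat.Agent.X1 Fermat.Agent.X1Char Fermat.Agent.GaussVal AlgebraicCurve
open Fermat.Agent.GalRep (Rel IsKummer HasChar Bridge bridge TG)

section Gal

variable {ι : Qbar →+* ℂ} {N : ℕ} [NeZero N] {n : ℕ} [NeZero n]

omit [NeZero N] [NeZero n] in
theorem TG_char {χ : Gamma0 N →* ℂˣ} (hχ : χ ∈ charGroup (Gamma0 N) n) : χ (TG N) = 1 :=
  hχ.2 _ (by simp [TG, ModularGroup.T])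

omit [NeZero N] in
theorem hasChar_of_isCF {χ : Gamma0 N →* ℂˣ} {F : ℍ → ℂ} {y : LaurentSeries Qbar}
    (hF : IsCF ι (Gamma0 N) χ F y) : HasChar N χ F := ⟨hF.mdiff, hF.growth, hF.char⟩

/-- The Kummer function of a class is the `n`-th power of a function with character. -/
theorem exists_isCF_of_rel {x : JZero N} {χ : Gamma0 N →* ℂˣ} (hχ : χ ∈ charGroup (Gamma0 N) n)
    (hx : Rel ι N n x χ) : ∃ (h : modularFunctionFieldBar N) (F : ℍ → ℂ) (y : LaurentSeries Qbar),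
      IsKummer n x h ∧ IsCF ι (Gamma0 N) χ F y ∧ (h : LaurentSeries Qbar) = y ^ n := by
  obtain ⟨h, g, h1, h2, h3⟩ := hx
  obtain ⟨G, hG⟩ := h2.exists_lexp (fun τ => by
    rw [← GalRep.TG_smul N τ, h2.smul, TG_char hχ]; simp)
  have h4 : G ^ n = coeffMap ι (h : LaurentSeries Qbar) := (hG.pow n).unique one_pos h3
  obtain ⟨y, rfl⟩ := (bridge ι N).root n (NeZero.ne n) G _ h4
  refine ⟨h, g, y, h1, ⟨h2.mdiff, h2.smul, h2.growth, hG⟩, ?_⟩
  rw [← map_pow] at h4
  exact (GalRep.coeffMap_injective ι.injective h4).symm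

/-- **Galois equivariance** of the relation between classes and characters. -/
theorem Rel.gal {x : JZero N} (σ : GQ) (χ : charGroup (Gamma0 N) n) (hx : Rel ι N n x χ.1) :
    Rel ι N n (σ • x) (conjChar ι (toRA σ) χ).1 := by
  obtain ⟨h, F, y, h1, h2, h3⟩ := exists_isCF_of_rel χ.2 hx
  obtain ⟨F', hF'⟩ := conjChar_spec ι (toRA σ) χ h2
  refine ⟨arithmeticGalois (modularFunctionFieldFull N) σ • h, F', ?_, hasChar_of_isCF hF', ?_⟩
  · exact h1.smul (arithmeticGalois (modularFunctionFieldFull N) σ)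
  · have h4 := hF'.lexp.pow n
    have h5 : ((arithmeticGalois (modularFunctionFieldFull N) σ • h : modularFunctionFieldBar N) : LaurentSeries Qbar) =
        coeffMap ((toRA σ : Qbar ≃+* Qbar) : Qbar →+* Qbar) y ^ n := by
      rw [← map_pow, ← h3]
      rfl
    rw [h5, map_pow]
    exact h4

omit [NeZero n] in
theorem mem_bar_of_isMF {F : ℍ → ℂ} {y : LaurentSeries Qbar} (hF : IsMF ι (Gamma0 N) 1 F y) :
    y ∈ modularFunctionFieldBar N :=
  (bridge ι N).conv F hF.mdiff hF.growth (fun γ τ => hF.inv γ γ.2 τ) y (by simpa using hF.lexp)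

omit [NeZero N] [NeZero n] in
theorem isMF_pow {χ : Gamma0 N →* ℂˣ} (hχ : χ ^ n = 1) {F : ℍ → ℂ} {y : LaurentSeries Qbar}
    (hF : IsCF ι (Gamma0 N) χ F y) : IsMF ι (Gamma0 N) 1 (F ^ n) (y ^ n) :=
  ((hF.pow n).char_congr hχ).toIsMF

/-- The `n`-th power of any function with the character of a class is a Kummer function. -/
theorem isKummer_of_isCF {x : JZero N} {χ : Gamma0 N →* ℂˣ} (hχ : χ ∈ charGroup (Gamma0 N) n)
    (hx : Rel ι N n x χ) {F : ℍ → ℂ} {y : LaurentSeries Qbar} (hF : IsCF ι (Gamma0 N) χ F y)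
    (hy : y ≠ 0) (h : modularFunctionFieldBar N) (hh : (h : LaurentSeries Qbar) = y ^ n) :
    IsKummer n x h := by
  obtain ⟨k, G, z, h1, h2, h3⟩ := exists_isCF_of_rel hχ hx
  obtain ⟨m, hm⟩ : ∃ m, n = m + 1 := Nat.exists_eq_succ_of_ne_zero (NeZero.ne n)
  have hk0 := h1.ne_zero
  -- the function `F * G ^ m`
  have h4 : IsMF ι (Gamma0 N) 1 (F * G ^ m) (y * z ^ m) := by
    refine ((hF.mul (h2.pow m)).char_congr ?_).toIsMF
    ext γ
    have h5 := DFunLike.congr_fun hχ.1 γ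
    rw [MonoidHom.pow_apply, hm, pow_succ'] at h5
    rw [MonoidHom.mul_apply, MonoidHom.pow_apply, h5]
  have hw := mem_bar_of_isMF h4
  set w : modularFunctionFieldBar N := ⟨_, hw⟩ with hwdef
  have hz0 : z ≠ 0 := by
    rintro rfl
    apply hk0
    apply Subtype.ext
    rw [h3, zero_pow (NeZero.ne n)]
    rfl
  have hw0 : w ≠ 0 := by
    intro h0
    have h5 := congrArg (fun t : modularFunctionFieldBar N => (t : LaurentSeries Qbar)) h0
    exact mul_ne_zero hy (pow_ne_zero m hz0) h5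
  have h5 : h = k * (w * k⁻¹) ^ n := by
    have h6 : h * k ^ m = w ^ n := by
      apply Subtype.ext
      change (h : LaurentSeries Qbar) * (k : LaurentSeries Qbar) ^ m = (y * z ^ m) ^ n
      rw [hh, h3]
      ring
    have h7 : k * (w * k⁻¹) ^ n * k ^ m = w ^ n := by
      rw [mul_pow, inv_pow]
      have h8 : k ^ n = k * k ^ m := by rw [hm, pow_succ']
      rw [h8]
      field_simp
    exact mul_right_cancel₀ (pow_ne_zero m hk0) (h6.trans h7.symm)
  rw [h5]
  exact h1.mul_pow (mul_ne_zero hw0 (inv_ne_zero hk0))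

end Gal

section Split

variable {m q : ℕ} [NeZero m] [hqf : Fact q.Prime] [NeZero q] {n : ℕ} [NeZero n] (hq : q.Prime)
  (hm : ¬ q ∣ m) {A : ValuationSubring Qbar} (hA : A.LiesOverPrime q)
  [CharP (IsLocalRing.ResidueField A) q]

open Fermat.Agent.TwoGauss (twoComp)
open Fermat.Agent.QX4 (wJ)

/-- **The kernel of specialisation consists of classes which are split at the first component.** -/
theorem split₁_of_kk {x : JZero (m * q)} {χ : Gamma0 (m * q) →* ℂˣ}
    (hχ : χ ∈ charGroup (Gamma0 (m * q)) n) {ι : Qbar →+* ℂ} (hx : Rel ι (m * q) n x χ)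
    (hk : KK ι (m * q) (Gamma0 (m * q)) id A n χ) :
    QX4.Split (twoComp hq hm hA).O₁ (twoComp hq hm hA).ρ₁ n x := by
  have : NeZero (m * q) := ⟨Nat.mul_ne_zero (NeZero.ne m) (NeZero.ne q)⟩
  rw [kk_id_iff hχ.1] at hk
  obtain ⟨F, y, G, z, hF, hy, hG, hz, c, d, Y, Z, hc, hd, e1, e2, e3, e4⟩ := hk
  have hyn := mem_bar_of_isMF (isMF_pow hχ.1 hF)
  have hzm := mem_bar_of_isMF hG
  set h : modularFunctionFieldBar (m * q) := ⟨_, hyn⟩ with hh
  set z' : modularFunctionFieldBar (m * q) := ⟨_, hzm⟩ with hz'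
  have h1 : IsKummer n x h := isKummer_of_isCF hχ hx hF hy h rfl
  have hz0 : z' ≠ 0 := fun h0 => hz (congrArg (fun t : modularFunctionFieldBar (m * q) =>
    (t : LaurentSeries Qbar)) h0)
  have h2 := (h1.mul_pow (inv_ne_zero hz0)).mul_algebraMap (c := d * c⁻¹)
    (mul_ne_zero hd (inv_ne_zero hc))
  set f : modularFunctionFieldBar (m * q) := h * z'⁻¹ ^ n *
    algebraMap Qbar (modularFunctionFieldBar (m * q)) (d * c⁻¹) with hf
  have hcoe : (f : LaurentSeries Qbar) * incl A Z = incl A Y := by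
    have h3 : (f : LaurentSeries Qbar) = y ^ n * (z⁻¹) ^ n *
        algebraMap Qbar (LaurentSeries Qbar) (d * c⁻¹) := rfl
    have h4 : (f : LaurentSeries Qbar) * z ^ n =
        y ^ n * algebraMap Qbar (LaurentSeries Qbar) (d * c⁻¹) := by
      rw [h3, inv_pow]
      field_simp
    have hd' : algebraMap Qbar (LaurentSeries Qbar) d ≠ 0 := algebraMap_ne_zero' hd
    refine mul_left_cancel₀ hd' ?_
    have h5 : algebraMap Qbar (LaurentSeries Qbar) d * ((f : LaurentSeries Qbar) * incl A Z) =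
        (f : LaurentSeries Qbar) * z ^ n := by rw [e2]; ring
    rw [h5, h4, e1, map_mul, map_inv₀]
    have hc' : algebraMap Qbar (LaurentSeries Qbar) c ≠ 0 := algebraMap_ne_zero' hc
    field_simp
  have hZ : redS A Z ≠ 0 := e3 ▸ e4
  have hmem : (f : LaurentSeries Qbar) ∈ gaussSubring A := ⟨Y, Z, hZ, hcoe⟩
  obtain ⟨D, hD, hf0, hDv⟩ := h2
  refine ⟨D, f, hmem, 1, hD.symm, one_ne_zero, fun v => (hDv v).symm, ?_⟩
  rw [one_pow]
  apply Subtype.ext
  refine (TwoGauss.coe_mkData_ρ₁ hq hm hA _ _ f hmem).trans ?_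
  rw [gaussRed_eq (y := ⟨(f : LaurentSeries Qbar), hmem⟩) hZ hcoe, e3, div_self hZ]
  rfl

omit [NeZero n] in
/-- `w_q` exchanges the two conditions. -/
theorem split₂_of_wJ {x : JZero (m * q)}
    (hx : QX4.Split (twoComp hq hm hA).O₁ (twoComp hq hm hA).ρ₁ n (wJ hq hm x)) :
    QX4.Split (twoComp hq hm hA).O₂ (twoComp hq hm hA).ρ₂ n x := by
  obtain ⟨D, f, hf, u, h1, hu, h2, h3⟩ := hx
  have hf0 : f ≠ 0 := by
    rintro rfl
    have h4 : (⟨0, hf⟩ : (twoComp hq hm hA).O₁) = 0 := rfl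
    rw [h4, map_zero] at h3
    exact pow_ne_zero n hu h3.symm
  have h4 : IsKummer n (wJ hq hm x) f := ⟨D, h1.symm, hf0, fun v => (h2 v).symm⟩
  have h5 := h4.smul (SemilinearAut.ofAlgAut (TwoGauss.wq hq hm))
  have h6 : SemilinearAut.ofAlgAut (TwoGauss.wq hq hm) • wJ hq hm x = x := QX4.wJ_wJ hq hm x
  rw [h6] at h5
  obtain ⟨D', hD', -, hDv⟩ := h5
  have h7 := TwoGauss.swapAct_wq hq hm hA (GoodRed.degThm_res hq hA (NeZero.ne m) hm)
    (GoodRed.genus_le_all hq hA m hm)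
  refine ⟨D', _, h7.mem₁ f hf, u, hD'.symm, hu, fun v => (hDv v).symm, ?_⟩
  exact (h7.ρ₁ f hf).trans h3

omit [NeZero n] in
/-- **Inertia fixes the toric classes.** -/
theorem smul_eq_self_of_split (hn : ¬ q ∣ n) {x : JZero (m * q)}
    (h1 : QX4.Split (twoComp hq hm hA).O₁ (twoComp hq hm hA).ρ₁ n x)
    (h2 : QX4.Split (twoComp hq hm hA).O₂ (twoComp hq hm hA).ρ₂ n x) {σ : GQ}
    (hσ : σ ∈ A.inertiaSubgroupIn ℚ) : σ • x = x := by
  have H3 := GoodRed.degThm_res hq hA (NeZero.ne m) hm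
  have H2 := GoodRed.genus_le_all hq hA m hm
  have : FF.IsFF Qbar (modularFunctionFieldBar m) := TwoGauss.isFF_m
  have : FF.IsFF (IsLocalRing.ResidueField A)
    (modularFunctionFieldFullC (IsLocalRing.ResidueField A) m) := TwoGauss.isFF_m' (m := m) H3
  have : FF.IsFF Qbar (modularFunctionFieldBar (m * q)) := TwoGauss.isFF_m
  exact (TwoGauss.act_mkData_inertia hq hm hA H3 H2 hσ).toAct_id.smul_eq_self hq.two_le
    (TwoGauss.arch_mkData hq hm hA H3 H2)
    (by rwa [Ne, CharP.cast_eq_zero_iff (IsLocalRing.ResidueField A) q]) h1 h2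

end Split

section Toric

variable {m q : ℕ} [NeZero m] [hq : Fact q.Prime] [NeZero q] {H : Subgroup (ZMod q)ˣ} {n : ℕ}
  [NeZero n] {I J : Set ℕ} {a : ℕ → ℤ} {ε : ℤ} {ℓ : ℕ} [hℓ : Fact ℓ.Prime]
  (h : Hyp m q n H I J a ε ℓ) {A : ValuationSubring Qbar} (hA : A.LiesOverPrime q)
  (hWJ : ∀ (x : JZero (m * q)) (χ : Gamma0 (m * q) →* ℂˣ), χ ^ n = 1 → Rel iota (m * q) n x χ →
    Rel iota (m * q) n (QX4.wJ hq.out h.hm x) (χ.comp (TwHecke.wHom hq.out h.hm)))

include h hA hWJ in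
/-- **Inertia acts trivially on the kernel of specialisation at level `Γ₀(m q)`.** -/
theorem Hyp.smul_eq_self {x : JZero (m * q)} {χ : Gamma0 (m * q) →* ℂˣ}
    (hχ : χ ∈ GE (m * q) (Gamma0 (m * q)) n I a) (hx : Rel iota (m * q) n x χ)
    (hk : KK iota (m * q) (Gamma0 (m * q)) id A n χ) {σ : GQ} (hσ : σ ∈ A.inertiaSubgroupIn ℚ) :
    σ • x = x := by
  have : CharP (IsLocalRing.ResidueField A) q := TEll.charP_residueField A q hA
  have : NeZero (m * q) := ⟨Nat.mul_ne_zero (NeZero.ne m) (NeZero.ne q)⟩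
  obtain ⟨φ, hφ, rfl⟩ := exists_of_mem_GE hχ
  have h1 := split₁_of_kk hq.out h.hm hA (h.mem_charGroup hχ) hx hk
  have h2 := hWJ x _ (chi_pow φ) hx
  have h3 : (chi φ).comp (TwHecke.wHom hq.out h.hm) = chi ((-ε) • φ) := by
    rw [← wHomA_eq h.hm h.hJ h.hnew h.h6 h.hqI h.hqε h.hε hφ]
    rfl
  rw [h3] at h2
  have h4 : (-ε) • φ ∈ genEig (m * q) (Gamma0 (m * q)) (Mu n) I a :=
    AddSubgroup.zsmul_mem _ hφ _
  have h5 := split₁_of_kk hq.out h.hm hA (h.mem_charGroup (chi_mem_GE.mpr h4)) h2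
    (h.kk_eps_iff.mpr hk)
  exact smul_eq_self_of_split hq.out h.hm hA h.not_dvd_n h1 (split₂_of_wJ hq.out h.hm hA h5) hσ

end Toric

end Fermat.Agent.Ribet
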