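import Fermat.Agent.Ribet.Transport
import Fermat.Agent.Ribet.LevelRel

/-!
# The operator `y` on the Hecke module (road A, algebra)
-/

set_option autoImplicit false
set_option linter.unusedSectionVars false

noncomputable section

namespace Fermat.Agent.Ribet

section Lift

variable {O T M V G : Type*} [CommRing O] [CommRing T] [Algebra O T] [AddCommGroup M] [Module O M]
  [Module T M] [IsScalarTower O T M] [AddCommGroup V] [Module T V] [Group G]
  {r : G →* Module.End T V} {ρ : G →* Matrix (Fin 2) (Fin 2) T}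

/-- **The relation (KL) on `M²`** from the relation on `V = M / n M`. -/
theorem exists_kl_lift [Module.Projective O M] (h2 : IsUnit (2 : T)) (hES : ESRel r ρ)
    (hspan : Submodule.span T (Set.range ρ) = ⊤) (π : M →ₗ[T] V) (hπ : Function.Surjective π)
    {n : ℕ} (hker : ∀ x, π x = 0 → ∃ y, x = n • y) (y : V →+ V)
    (hyT : ∀ (t : T) (v : V), y (t • v) = t • y v) (hyr : ∀ g v, y (r g v) = r g (y v))
    (σ φ : G) (ε : T) (hkl : ∀ v, r φ v - ε • v = -((2 : ℤ) • y (r σ v - v))) :
    ∃ y' : M →ₗ[O] M, ∀ x : Fin 2 → M, ∃ x' : Fin 2 → M,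
      act (ρ φ - ε • (1 : Matrix (Fin 2) (Fin 2) T)) x - act (ρ σ - 1) (fun i => y' (x i)) =
        n • x' := by
  obtain ⟨Φ, hΦ⟩ := exists_algHom h2 hES hspan
  -- the operator `-2 y` as a linear map
  let _ : Module O V := Module.compHom V (algebraMap O T)
  have : IsScalarTower O T V := ⟨fun a t v => by
    show (a • t) • v = algebraMap O T a • (t • v)
    rw [Algebra.smul_def, mul_smul]⟩
  let πO : M →ₗ[O] V := { π with
    map_smul' := fun a x => by
      show π (a • x) = algebraMap O T a • π x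
      rw [← map_smul, algebraMap_smul] }
  let yO : V →ₗ[O] V := { y with
    map_smul' := fun a v => hyT (algebraMap O T a) v }
  obtain ⟨y', hy'⟩ := Module.projective_lifting_property πO ((-(2 : ℤ)) • (yO ∘ₗ πO)) hπ
  have hy'' : ∀ x, π (y' x) = (-(2 : ℤ)) • y (π x) := fun x => LinearMap.congr_fun hy' x
  refine ⟨y', fun x => ?_⟩
  set z : Fin 2 → V := fun i => π (x i) with hz
  have h1 : act (ρ φ - ε • (1 : Matrix (Fin 2) (Fin 2) T)) z -
      act (ρ σ - 1) ((-(2 : ℤ)) • wv y z) = 0 := by
    apply (flipEquiv Φ).injective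
    funext i
    have hc := flip_comm hspan Φ hΦ y hyT hyr z i
    have e1 : flipEquiv Φ ((-(2 : ℤ)) • wv y z) i = (-(2 : ℤ)) • y (flipEquiv Φ z i) := by
      rw [map_zsmul, Pi.smul_apply, hc]
    rw [map_sub, Pi.sub_apply, flipEquiv_act, flipEquiv_act, e1, map_zero, Pi.zero_apply]
    have e2 : Φ (ρ φ - ε • (1 : Matrix (Fin 2) (Fin 2) T)) (flipEquiv Φ z i) =
        r φ (flipEquiv Φ z i) - ε • flipEquiv Φ z i := by
      rw [map_sub, map_smul, map_one, hΦ]
      rfl
    have e3 : ∀ v, Φ (ρ σ - 1) v = r σ v - v := fun v => by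
      rw [map_sub, map_one, hΦ]
      rfl
    rw [e2, e3, hkl, map_zsmul, neg_smul, map_sub y, hyr]
    rw [neg_smul, smul_sub]
    abel
  have h2 : ∀ i, π (act (ρ φ - ε • (1 : Matrix (Fin 2) (Fin 2) T)) x i -
      act (ρ σ - 1) (fun i => y' (x i)) i) = 0 := by
    intro i
    have h3 := congrFun h1 i
    have h4 : (-(2 : ℤ)) • wv y z = fun i => π (y' (x i)) := by
      funext j
      rw [hy'', Pi.smul_apply]
      rfl
    rw [h4, hz, Pi.sub_apply, act_map, act_map, ← map_sub] at h3
    exact h3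
  choose x' hx' using fun i => hker _ (h2 i)
  exact ⟨x', funext fun i => hx' i⟩

end Lift

end Fermat.Agent.Ribet

end
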