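import Fermat.Agent.TwExact.MPart

/-!
# The operator `y` on the `𝔪`-part (road A), algebra
-/

set_option autoImplicit false
set_option linter.unusedSectionVars false

noncomputable section

namespace Fermat.Agent.Ribet

open Fermat.Agent.TwExact IsLocalRing

section Abs

variable {R : Type} [CommRing R] [IsLocalRing R] {κ : Type} {θ : κ → ResidueField R}
  {P : Type} [AddCommGroup P] [Module R P] {T : κ → Module.End R P}
  {hT : ∀ i j, Commute (T i) (T j)} {e : MvPolynomial κ R} (he : IsIdem θ T hT e)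
  {Q : Type} [AddCommGroup Q] {ι : Type} [Fintype ι] (cd : P ≃+ (ι → Q))
  {k : R → ι → ι → ℕ} (hk : ∀ (r : R) (c : P) (i : ι), cd (r • c) i = ∑ j, k r i j • cd c j)
  (E : AddSubgroup Q) (hE : ∀ c ∈ mpart θ T hT, ∀ i, cd c i ∈ E) (y : E →+ E)
  {t : κ → Q →+ Q} (htE : ∀ i, ∀ x ∈ E, t i x ∈ E) (ht : ∀ j c i, cd (T j c) i = t j (cd c i))
  (hyt : ∀ (j : κ) (x x' : E), (x' : Q) = t j x → (y x' : Q) = t j (y x))

include hk in
theorem smul_mem_E {c : P} (hc : ∀ i, cd c i ∈ E) (r : R) (i : ι) : cd (r • c) i ∈ E := by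
  rw [hk]
  exact sum_mem fun j _ => nsmul_mem (hc j) _

/-- The submodule of elements with coordinates in `E`. -/
def WE0 : Submodule R P where
  carrier := {c | ∀ i, cd c i ∈ E}
  zero_mem' := fun i => by rw [map_zero]; exact zero_mem _
  add_mem' := fun hx hy i => by rw [map_add]; exact add_mem (hx i) (hy i)
  smul_mem' := fun r c hc i => smul_mem_E cd hk E hc r i

/-- Coordinates. -/
def cW (c : WE0 cd hk E) (i : ι) : E := ⟨cd c.1 i, c.2 i⟩

theorem coe_cW (c : WE0 cd hk E) (i : ι) : (cW cd hk E c i : Q) = cd c.1 i := rfl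

theorem cW_ext {c c' : WE0 cd hk E} (h : ∀ i, cW cd hk E c i = cW cd hk E c' i) : c = c' :=
  Subtype.ext (cd.injective (funext fun i => congrArg Subtype.val (h i)))

theorem cW_add (c c' : WE0 cd hk E) (i : ι) :
    cW cd hk E (c + c') i = cW cd hk E c i + cW cd hk E c' i :=
  Subtype.ext (congrFun (map_add cd c.1 c'.1) i)

theorem cW_smul (r : R) (c : WE0 cd hk E) (i : ι) :
    cW cd hk E (r • c) i = ∑ j, k r i j • cW cd hk E c j := by
  apply Subtype.ext
  rw [AddSubgroup.val_finsetSum]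
  exact hk r c.1 i

/-- The extension of `y`. -/
def yW : Module.End R (WE0 cd hk E) where
  toFun c := ⟨cd.symm (fun i => (y (cW cd hk E c i)).1), fun i => by
    rw [AddEquiv.apply_symm_apply]; exact (y _).2⟩
  map_add' c c' := cW_ext cd hk E fun i => by
    apply Subtype.ext
    rw [cW_add]
    simp only [coe_cW, AddEquiv.apply_symm_apply, cW_add, map_add, AddSubgroup.coe_add]
  map_smul' r c := cW_ext cd hk E fun i => by
    apply Subtype.ext
    rw [RingHom.id_apply, cW_smul]
    simp only [coe_cW, AddEquiv.apply_symm_apply, cW_smul, map_sum, map_nsmul,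
      AddSubgroup.val_finsetSum, AddSubgroup.coe_nsmul]

theorem coe_yW (c : WE0 cd hk E) (i : ι) :
    cd (yW cd hk E y c).1 i = (y (cW cd hk E c i)).1 :=
  congrFun (cd.apply_symm_apply (fun i => (y (cW cd hk E c i)).1)) i

include he hk htE ht hyt in
/-- **The operator `y` on the `𝔪`-part.** -/
theorem exists_yPm : ∃ y' : Module.End R (mpart θ T hT), ∀ (c : mpart θ T hT) (i : ι),
    cd (y' c : P) i = (y ⟨cd c i, hE c.1 c.2 i⟩ : Q) := by
  let T' : κ → Module.End R (WE0 cd hk E) := fun j => (T j).restrict fun c hc i => by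
    rw [ht]; exact htE j _ (hc i)
  have hT' : ∀ i j, Commute (T' i) (T' j) := fun i j => LinearMap.ext fun c => Subtype.ext
    (congrArg (fun f : Module.End R P => f c.1) (hT i j).eq)
  have hyT' : ∀ i x, yW cd hk E y (T' i x) = T' i (yW cd hk E y x) := by
    intro j c
    apply Subtype.ext
    apply cd.injective
    funext i
    rw [coe_yW]
    show _ = cd (T j (yW cd hk E y c).1) i
    rw [ht, coe_yW]
    exact hyt j _ _ (ht j c.1 i)
  have hmem : ∀ c : WE0 cd hk E, c.1 ∈ mpart θ T hT → (yW cd hk E y c).1 ∈ mpart θ T hT := by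
    intro c hc
    rw [mem_mpart]
    intro s hs
    obtain ⟨z, hz, hzc⟩ := he.exists_preimage hc hs
    set w : WE0 cd hk E := ⟨z, hE z hz⟩ with hw
    have h1 : cev T' hT' s w = c := by
      apply Subtype.ext
      rw [← hzc]
      exact cev_natural hT' hT (WE0 cd hk E).subtype (fun i x => rfl) s w
    refine ⟨(yW cd hk E y w).1, ?_⟩
    rw [← h1, cev_commute hT' (yW cd hk E y) hyT']
    exact (cev_natural hT' hT (WE0 cd hk E).subtype (fun i x => rfl) s (yW cd hk E y w)).symm
  refine ⟨{ toFun := fun c => ⟨(yW cd hk E y ⟨c.1, hE c.1 c.2⟩).1, hmem _ c.2⟩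
            map_add' := fun c c' => Subtype.ext (by
              have h := congrArg Subtype.val (map_add (yW cd hk E y) ⟨c.1, hE c.1 c.2⟩
                ⟨c'.1, hE c'.1 c'.2⟩)
              exact h)
            map_smul' := fun r c => Subtype.ext (by
              have h := congrArg Subtype.val (map_smul (yW cd hk E y) r ⟨c.1, hE c.1 c.2⟩)
              exact h) }, fun c i => ?_⟩
  exact coe_yW cd hk E y _ i

include he hk hE htE ht hyt in
/-- **The operator `y` on the `𝔪`-part**, with all properties. -/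
theorem exists_yPm' {G : Type*} (gP : G → Module.End R P) (gQ : G → Q →+ Q)
    (hg : ∀ g c i, cd (gP g c) i = gQ g (cd c i))
    (hyg : ∀ (g : G) (x x' : E), (x' : Q) = gQ g x → (y x' : Q) = gQ g (y x))
    (φ σ : G) (ε : ℤ) (hkl : ∀ x x' : E, (x' : Q) = gQ σ x - x →
      gQ φ x - ε • (x : Q) = -((2 : ℤ) • (y x' : Q))) :
    ∃ y' : Module.End R (mpart θ T hT),
      (∀ (j : κ) (c c' : mpart θ T hT), (c' : P) = T j c → (y' c' : P) = T j (y' c)) ∧
      (∀ (g : G) (c c' : mpart θ T hT), (c' : P) = gP g c → (y' c' : P) = gP g (y' c)) ∧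
      ∀ c c' : mpart θ T hT, (c' : P) = gP σ c - c →
        gP φ c - ε • (c : P) = -((2 : ℤ) • (y' c' : P)) := by
  obtain ⟨y', hy'⟩ := exists_yPm he cd hk E hE y htE ht hyt
  refine ⟨y', fun j c c' h => ?_, fun g c c' h => ?_, fun c c' h => ?_⟩
  · apply cd.injective
    funext i
    rw [hy', ht, hy']
    exact hyt j _ _ (by
      show cd (c' : P) i = t j (cd c i)
      rw [h, ht])
  · apply cd.injective
    funext i
    rw [hy', hg, hy']
    exact hyg g _ _ (by
      show cd (c' : P) i = gQ g (cd c i)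
      rw [h, hg])
  · apply cd.injective
    funext i
    rw [map_sub, map_neg, map_zsmul, map_zsmul, Pi.sub_apply, Pi.neg_apply, Pi.smul_apply,
      Pi.smul_apply, hy', hg]
    refine hkl ⟨cd c i, hE c.1 c.2 i⟩ ⟨cd c' i, hE c'.1 c'.2 i⟩ ?_
    show cd (c' : P) i = gQ σ (cd c i) - cd c i
    rw [h, map_sub, Pi.sub_apply, hg]

end Abs

end Fermat.Agent.Ribet

end
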