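import Fermat.Agent.Ribet.Dict
import Fermat.Agent.Ribet.RoadAAlg
import Fermat.Agent.Ribet.RoadAPm
import Fermat.Agent.Ribet.LevelRelMain

/-!
# Road A: the final contradiction
-/

set_option autoImplicit false
set_option linter.unusedSectionVars false
set_option linter.style.haveILetI false

open Function CongruenceSubgroup Polynomial
open scoped MatrixGroups

noncomputable section

namespace Fermat.Agent.Ribet

open ModularCurve.Period Fermat.Agent.HeckePar Fermat.Agent.TwHecke Fermat.Agent.TwExact IsLocalRing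
open Fermat.Agent.GalRep ModularCurve
open Fermat.Agent.X1Char (xGroup)

theorem coordE_smul {N n : ℕ} [NeZero n] {O : Type} [CommRing O] {A : Type} [AddCommGroup A]
    [Module O A] [Module (ZMod n) A] {ι : Type} [Fintype ι] (b : Module.Basis ι (ZMod n) A)
    (r : O) (c : parabolicHoms O (Gamma0 N) A) (i : ι) :
    coordE b (r • c) i = ∑ j, (b.coord i (r • b j)).val • coordE b c j :=
  coordE_push b b (Module.toAddMonoidEnd O A r) c i

section PmJ

variable {N n : ℕ} [NeZero N] [NeZero n] (hNT : NoTors N n)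
  {O : Type} [CommRing O] [IsLocalRing O] [IsNoetherianRing O]
  [IsAdicComplete (maximalIdeal O) O] {A : Type} [AddCommGroup A] [Module O A]
  [Module (ZMod n) A] {ι : Type} [Fintype ι] (b : Module.Basis ι (ZMod n) A)
  {S : Set ℕ} {θ : PIdx S → ResidueField O} {I : Set ℕ} {a : ℕ → ℤ}
  (hle : GE N (Gamma0 N) n I a ≤ xGroup N (Gamma0 N) n)
  (hPm : ∀ c ∈ Pm N A θ, ∀ i, coordE b c i ∈ PE N n I a)
  (y : PE N n I a →+ PE N n I a)
  (hyg : ∀ (g : GQ) (x : PE N n I a), y (galE hNT hle g x) = galE hNT hle g (y x))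
  (hyT : ∀ (ℓ : Nat.Primes) (x : PE N n I a), y (opE ℓ x) = opE ℓ (y x))
  (σ φ : GQ) (ε : ℤ)
  (hkl : ∀ x : PE N n I a, galE hNT hle φ x - ε • x = -((2 : ℤ) • y (galE hNT hle σ x - x)))

include hPm hyg hyT hkl in
/-- The operator `y` on the `𝔪`-part of the parabolic homomorphisms. -/
theorem exists_yPmJ : ∃ y' : Module.End O (Pm N A θ),
    (∀ (j : PIdx S) (c c' : Pm N A θ), (c' : parabolicHoms O (Gamma0 N) A) =
      opS N A S j (c : parabolicHoms O (Gamma0 N) A) →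
      (y' c' : parabolicHoms O (Gamma0 N) A) = opS N A S j (y' c)) ∧
    (∀ (g : GQ) (c c' : Pm N A θ), (c' : parabolicHoms O (Gamma0 N) A) =
      galA hNT b g (c : parabolicHoms O (Gamma0 N) A) →
      (y' c' : parabolicHoms O (Gamma0 N) A) = galA hNT b g (y' c)) ∧
    ∀ c c' : Pm N A θ, (c' : parabolicHoms O (Gamma0 N) A) =
      galA hNT b σ (c : parabolicHoms O (Gamma0 N) A) - (c : parabolicHoms O (Gamma0 N) A) →
      galA hNT b φ (c : parabolicHoms O (Gamma0 N) A) - ε • (c : parabolicHoms O (Gamma0 N) A) =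
        -((2 : ℤ) • (y' c' : parabolicHoms O (Gamma0 N) A)) := by
  have hfin := finite_parabolicA (O := O) hNT b
  obtain ⟨e, he⟩ := exists_isIdem_parabolic (O := O) (S := S) (θ := θ) hNT b
  have h1 := exists_yPm' he (coordE b) (coordE_smul b) (PE N n I a) hPm y
    (t := fun j => (opP N ℤ (ZMod n) j.1).toAddMonoidHom)
    (fun j x hx => opP_mem_PE j.1 hx) (fun j c i => coordE_opP b j.1 c i)
    (fun j x x' h => by
      have h2 : x' = opE j.1 x := Subtype.ext h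
      rw [h2, hyT]
      rfl)
    (fun g => galA hNT b g) (fun g => galP hNT g) (fun g c i => coordE_galA hNT b g c i)
    (fun g x x' h => by
      have h2 : x' = galE hNT hle g x := Subtype.ext h
      rw [h2, hyg]
      rfl) φ σ ε
    (fun x x' h => by
      have h2 : x' = galE hNT hle σ x - x := Subtype.ext h
      have h3 := congrArg Subtype.val (hkl x)
      rw [← h2] at h3
      exact h3)
  exact h1

end PmJ

section AbsV

/-- Transport of `y` from the `𝔪`-part to the finite level. -/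
theorem exists_yV_abs {O T P V G κ : Type*} [CommRing O] [CommRing T] [Algebra O T]
    [AddCommGroup P] [Module O P] [AddCommGroup V] [Module T V] (Q : Submodule O P)
    (E : V ≃+ Q) (gen : κ → T) (hadj : Algebra.adjoin O (Set.range gen) = ⊤)
    (op : κ → P → P) (hEgen : ∀ ℓ v, (E (gen ℓ • v) : P) = op ℓ (E v))
    (hEalg : ∀ (a : O) (v : V), E (algebraMap O T a • v) = a • E v)
    (r : G → Module.End T V) (gP : G → P → P) (hEr : ∀ g v, (E (r g v) : P) = gP g (E v))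
    (y' : Module.End O Q) (σ φ : G) (ε : ℤ)
    (h1 : ∀ (j : κ) (c c' : Q), (c' : P) = op j (c : P) → (y' c' : P) = op j (y' c))
    (h2 : ∀ (g : G) (c c' : Q), (c' : P) = gP g (c : P) → (y' c' : P) = gP g (y' c))
    (h3 : ∀ c c' : Q, (c' : P) = gP σ (c : P) - (c : P) →
      gP φ (c : P) - ε • (c : P) = -((2 : ℤ) • (y' c' : P))) :
    ∃ yV : V →+ V, (∀ (t : T) (v : V), yV (t • v) = t • yV v) ∧
      (∀ (g : G) (v : V), yV (r g v) = r g (yV v)) ∧
      ∀ v : V, r φ v - (ε : T) • v = -((2 : ℤ) • yV (r σ v - v)) := by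
  let yV : V →+ V := (E.symm.toAddMonoidHom.comp y'.toAddMonoidHom).comp E.toAddMonoidHom
  have hyV : ∀ v, E (yV v) = y' (E v) := fun v => E.apply_symm_apply _
  refine ⟨yV, fun t v => ?_, fun g v => ?_, fun v => ?_⟩
  · have ht : t ∈ Algebra.adjoin O (Set.range gen) := by rw [hadj]; trivial
    induction ht using Algebra.adjoin_induction generalizing v with
    | mem x hx =>
      obtain ⟨ℓ, rfl⟩ := hx
      apply E.injective
      apply Subtype.ext
      rw [hyV, hEgen, hyV]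
      exact h1 ℓ _ _ (hEgen ℓ v)
    | algebraMap a =>
      apply E.injective
      rw [hyV, hEalg, hEalg, hyV, map_smul]
    | add x z _ _ hx hz => rw [add_smul, add_smul, map_add, hx, hz]
    | mul x z _ _ hx hz => rw [mul_smul, mul_smul, hx, hz]
  · apply E.injective
    apply Subtype.ext
    rw [hyV, hEr, hyV]
    exact h2 g _ _ (hEr g v)
  · apply E.injective
    apply Subtype.ext
    have e1 := h3 (E v) (E (r σ v - v)) (by
      rw [map_sub, AddSubgroupClass.coe_sub, hEr])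
    rw [← hyV] at e1
    rw [Int.cast_smul_eq_zsmul, map_sub, map_neg, map_zsmul, map_zsmul,
      AddSubgroupClass.coe_sub, hEr]
    exact e1

end AbsV

section VkJ

variable {N : ℕ} [NeZero N] {p : ℕ} [hp : Fact p.Prime]
  {O : Type} [CommRing O] [IsLocalRing O] [IsNoetherianRing O]
  [IsAdicComplete (maximalIdeal O) O] {S : Set ℕ} {θ : PIdx S → ResidueField O}
  {T : Type} [CommRing T] [Algebra O T]
  {MN : Type} [AddCommGroup MN] [Module O MN] [Module T MN] [IsScalarTower O T MN]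
  (e : MN ≃ₗ[O] Hm N 1 O S θ) (hne : NonEis1 N S θ) (gen : PIdx S → T)
  (hgen : ∀ (ℓ : PIdx S) (x : MN), (e (gen ℓ • x) : HM N (1 : (ZMod N)ˣ →* Oˣ) O) =
    hop N 1 O S ℓ (e x : HM N (1 : (ZMod N)ˣ →* Oˣ) O))
  (hNT : ∀ k, NoTors N (p ^ k)) (hS : ∀ ℓ : ℕ, ℓ.Prime → ℓ ∣ N → ℓ ∈ S)
  {k : ℕ} [Module (ZMod (p ^ k)) (O ⧸ Ip O p k)] {ι : Type} [Fintype ι]
  (b : Module.Basis ι (ZMod (p ^ k)) (O ⧸ Ip O p k))
  (h : Good N (1 : (ZMod N)ˣ →* Oˣ) S θ) (hadj : Algebra.adjoin O (Set.range gen) = ⊤)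
  (y' : Module.End O (Pm N (O ⧸ Ip O p k) θ)) (σ φ : GQ) (ε : ℤ)
  (h1 : ∀ (j : PIdx S) (c c' : Pm N (O ⧸ Ip O p k) θ),
    (c' : parabolicHoms O (Gamma0 N) (O ⧸ Ip O p k)) =
      opS N (O ⧸ Ip O p k) S j (c : parabolicHoms O (Gamma0 N) (O ⧸ Ip O p k)) →
    (y' c' : parabolicHoms O (Gamma0 N) (O ⧸ Ip O p k)) = opS N (O ⧸ Ip O p k) S j (y' c))
  (h2 : ∀ (g : GQ) (c c' : Pm N (O ⧸ Ip O p k) θ),
    (c' : parabolicHoms O (Gamma0 N) (O ⧸ Ip O p k)) =
      galA (hNT k) b g (c : parabolicHoms O (Gamma0 N) (O ⧸ Ip O p k)) →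
    (y' c' : parabolicHoms O (Gamma0 N) (O ⧸ Ip O p k)) = galA (hNT k) b g (y' c))
  (h3 : ∀ c c' : Pm N (O ⧸ Ip O p k) θ, (c' : parabolicHoms O (Gamma0 N) (O ⧸ Ip O p k)) =
      galA (hNT k) b σ (c : parabolicHoms O (Gamma0 N) (O ⧸ Ip O p k)) -
        (c : parabolicHoms O (Gamma0 N) (O ⧸ Ip O p k)) →
      galA (hNT k) b φ (c : parabolicHoms O (Gamma0 N) (O ⧸ Ip O p k)) -
        ε • (c : parabolicHoms O (Gamma0 N) (O ⧸ Ip O p k)) =
        -((2 : ℤ) • (y' c' : parabolicHoms O (Gamma0 N) (O ⧸ Ip O p k))))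

include h1 h2 h3 in
/-- The operator `y` on a finite level. -/
theorem exists_yVk : ∃ yV : Vk T MN p k →+ Vk T MN p k,
    (∀ (t : T) (v : Vk T MN p k), yV (t • v) = t • yV v) ∧
    (∀ (g : GQ) (v : Vk T MN p k), yV (galV e hne gen hgen hNT hS b h hadj g v) =
      galV e hne gen hgen hNT hS b h hadj g (yV v)) ∧
    ∀ v : Vk T MN p k, galV e hne gen hgen hNT hS b h hadj φ v - (ε : T) • v =
      -((2 : ℤ) • yV (galV e hne gen hgen hNT hS b h hadj σ v - v)) := by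
  have key := exists_yV_abs (Pm N (O ⧸ Ip O p k) θ) (ek (T := T) (p := p) e hne h k) gen hadj
    (fun ℓ c => opS N (O ⧸ Ip O p k) S ℓ c)
    (fun ℓ v => ek_gen e hne gen hgen h k ℓ v) (fun a v => ek_smul e hne h k a v)
    (fun g => galV e hne gen hgen hNT hS b h hadj g)
    (fun g c => galA (hNT k) b g c)
    (fun g v => congrArg Subtype.val (ek_galV e hne gen hgen hNT hS b h hadj g v))
    y' σ φ ε h1 h2 h3
  exact key

end VkJ

/-- The contradiction, algebraic form. -/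
theorem false_of_levelRel {T M O : Type*} [CommRing T] [IsLocalRing T] [AddCommGroup M]
    [Module T M] [Module.Finite T M] [Nontrivial M] [CommRing O] [Module O M]
    [SMulCommClass T O M] [Module.Projective O M] {S F : Matrix (Fin 2) (Fin 2) T}
    {w : M →ₗ[T] M} {q : ℕ} (H : LevelRel S F w q) {ε : ℤ} (hε : ε * ε = 1)
    (hw : ∀ m, w m = -((ε : T) • m)) {n r : ℕ} (hq : q = 1 + n * r) (hr : IsUnit (r : T))
    (hn : ∀ x : M, n • x = 0 → x = 0) (hS1 : ∀ i j, (S - 1) i j ∈ maximalIdeal T)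
    (hKL : ∃ y : M →ₗ[O] M, ∀ x : Fin 2 → M, ∃ x' : Fin 2 → M,
      act (F - (ε : T) • (1 : Matrix (Fin 2) (Fin 2) T)) x - act (S - 1) (fun i => y (x i)) =
        n • x') : False := by
  obtain ⟨y, hy⟩ := hKL
  have hεT : (ε : T) * ε = 1 := by exact_mod_cast congrArg (Int.cast (R := T)) hε
  have hεu : IsUnit (ε : T) := IsUnit.of_mul_eq_one _ hεT
  have hwv : ∀ x : Fin 2 → M, act (F - (ε : T) • (1 : Matrix (Fin 2) (Fin 2) T)) x =
      act F x + wv w.toAddMonoidHom x := by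
    intro x
    rw [sub_act, smul_act, one_act, sub_eq_add_neg]
    congr 1
    funext i
    exact (hw (x i)).symm
  refine final_contradiction' (R := O) n hn (S - 1)
    (F - (ε : T) • (1 : Matrix (Fin 2) (Fin 2) T)) ((r : T) * ε) (hr.mul hεu) (fun m => ?_)
    H.U (fun x => ?_) (fun m => ?_) hS1 H.E y hy
  · have h1 := H.trS m
    have h2 : (S - 1) 0 0 + (S - 1) 1 1 = tr2 S - 2 := by
      simp only [tr2, Matrix.sub_apply, Matrix.one_apply_eq]; ring
    rw [h2, sub_smul, h1, sub_self]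
  · rw [hwv]
    exact H.Fr x
  · have h1 := H.trF m
    have h2 : (F - (ε : T) • (1 : Matrix (Fin 2) (Fin 2) T)) 0 0 +
        (F - (ε : T) • (1 : Matrix (Fin 2) (Fin 2) T)) 1 1 = tr2 F - 2 * ε := by
      simp only [tr2, Matrix.sub_apply, Matrix.smul_apply, Matrix.one_apply_eq, smul_eq_mul]; ring
    rw [h2, sub_smul, h1, hw, smul_neg, neg_neg, ← Nat.cast_smul_eq_nsmul T,
      ← Nat.cast_smul_eq_nsmul T, smul_smul, smul_smul, ← sub_smul]
    congr 1
    rw [hq]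
    push_cast
    ring

section Fin

variable {m q : ℕ} [NeZero m] [hqf : Fact q.Prime] [NeZero q] [NeZero (m * q)] {p : ℕ}
  [hp : Fact p.Prime]
  {O : Type} [CommRing O] [IsLocalRing O] [IsNoetherianRing O]
  [IsAdicComplete (maximalIdeal O) O] {S : Set ℕ} {θ : PIdx S → ResidueField O}
  {T : Type} [CommRing T] [IsLocalRing T] [Algebra O T]
  {MN : Type} [AddCommGroup MN] [Module O MN] [Module T MN] [IsScalarTower O T MN]
  [Module.Projective O MN] [Module.Finite T MN] [Nontrivial MN]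
  (e : MN ≃ₗ[O] Hm (m * q) 1 O S θ) (hne : NonEis1 (m * q) S θ) (gen : PIdx S → T)
  (hgen : ∀ (ℓ : PIdx S) (x : MN),
    (e (gen ℓ • x) : HM (m * q) (1 : (ZMod (m * q))ˣ →* Oˣ) O) =
    hop (m * q) 1 O S ℓ (e x : HM (m * q) (1 : (ZMod (m * q))ˣ →* Oˣ) O))
  (hNT : ∀ k, NoTors (m * q) (p ^ k)) (hS : ∀ ℓ : ℕ, ℓ.Prime → ℓ ∣ m * q → ℓ ∈ S)
  {k : ℕ} [Module (ZMod (p ^ k)) (O ⧸ Ip O p k)] {ι : Type} [Fintype ι]
  (b : Module.Basis ι (ZMod (p ^ k)) (O ⧸ Ip O p k))
  (h : Good (m * q) (1 : (ZMod (m * q))ˣ →* Oˣ) S θ)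
  (hadj : Algebra.adjoin O (Set.range gen) = ⊤)

include e hne hgen hNT hS h hadj b in
/-- **Road A**: the contradiction from the operator `y` on the parabolic homomorphisms. -/
theorem roadA_false (h2 : IsUnit (2 : T))
    (ρ : GaloisRepAdic T) (habs : ρ.residual.IsAbsolutelyIrreducible)
    (B : Set ℕ) (hB : B.Finite) (hSfin : S.Finite)
    (hfrob : ∀ (ℓ : PIdx S), (ℓ.1 : ℕ) ∉ B → ∀ A : ValuationSubring (AlgebraicClosure ℚ),
      A.LiesOverPrime (ℓ.1 : ℕ) → ∀ φ : GQ, A.IsFrobeniusAt φ (ℓ.1 : ℕ) →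
        LinearMap.charpoly (ρ.ρ φ) = X ^ 2 - C (gen ℓ) * X + C (((ℓ.1 : ℕ) : T)))
    (hF : letI := heckeModuleBar (m * q);
      FrobeniusQuadratic (K := ℚ) (L := AlgebraicClosure ℚ) (m * q) p (JZero (m * q)))
    {w : MN →ₗ[T] MN} {σ φ : GQ} (H : LevelRel (matOf ρ σ) (matOf ρ φ) w q) {ε : ℤ}
    (hε : ε * ε = 1) (hw : ∀ m, w m = -((ε : T) • m)) {r : ℕ} (hq : q = 1 + p ^ k * r)
    (hr : IsUnit (r : T)) (hn : ∀ x : MN, p ^ k • x = 0 → x = 0)
    (hS1 : ∀ i j, (matOf ρ σ - 1) i j ∈ maximalIdeal T)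
    {I : Set ℕ} {a : ℕ → ℤ}
    (hle : GE (m * q) (Gamma0 (m * q)) (p ^ k) I a ≤ xGroup (m * q) (Gamma0 (m * q)) (p ^ k))
    (hPm : ∀ c ∈ Pm (m * q) (O ⧸ Ip O p k) θ, ∀ i, coordE b c i ∈ PE (m * q) (p ^ k) I a)
    (y : PE (m * q) (p ^ k) I a →+ PE (m * q) (p ^ k) I a)
    (hyg : ∀ (g : GQ) (x : PE (m * q) (p ^ k) I a),
      y (galE (hNT k) hle g x) = galE (hNT k) hle g (y x))
    (hyT : ∀ (ℓ : Nat.Primes) (x : PE (m * q) (p ^ k) I a), y (opE ℓ x) = opE ℓ (y x))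
    (hkl : ∀ x : PE (m * q) (p ^ k) I a, galE (hNT k) hle φ x - ε • x =
      -((2 : ℤ) • y (galE (hNT k) hle σ x - x))) : False := by
  obtain ⟨y', h1, h2', h3⟩ := exists_yPmJ (θ := θ) (hNT k) b hle hPm y hyg hyT σ φ ε hkl
  obtain ⟨yV, hV1, hV2, hV3⟩ := exists_yVk e hne gen hgen hNT hS b h hadj y' σ φ ε h1 h2' h3
  have hscc : SMulCommClass T O MN := ⟨fun t r x => by
    rw [← algebraMap_smul T r, ← algebraMap_smul T r, smul_smul, smul_smul, mul_comm]⟩
  have hkl' := exists_kl_lift (O := O) (n := p ^ k) h2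
    (galV_esRel e hne gen hgen hNT hS h hadj b ρ B hB hSfin hfrob hF)
    (span_matOf_eq_top ρ habs) (mkV T p k) (mkV_surjective T p k)
    (fun x hx => by rwa [mkV_eq_zero] at hx) yV hV1 hV2 σ φ (ε : T) hV3
  exact false_of_levelRel H hε hw hq hr hn hS1 hkl'

end Fin

end Fermat.Agent.Ribet

end
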