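import Fermat.Agent.HeckeRep.Univ
import Fermat.Agent.Ribet.Family
import Fermat.Agent.Ribet.Lam
import Fermat.Agent.Ribet.TN
import Fermat.Agent.Ribet.WD
import Fermat.Agent.Ribet.Ram
import Fermat.Agent.Ribet.LevelRelInst
import Fermat.Agent.Ribet.TameMat
import Fermat.Agent.Ribet.Unram

/-!
# Ribet's theorem, road B: the contradiction for an abstract Hecke ring
-/

set_option autoImplicit false
set_option linter.unusedSectionVars false
set_option linter.unusedVariables false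
set_option linter.style.haveILetI false

noncomputable section

open IsLocalRing CongruenceSubgroup Polynomial
open scoped MatrixGroups

namespace Fermat.Agent.Ribet.Sh

open Fermat.Agent.HeckePar Fermat.Agent.TwHecke Fermat.Agent.TwExact Fermat.Agent.S41hm
open Fermat.Agent.GalRep Fermat.Agent.HeckeRep Fermat.Agent.RT

section Res
variable {k k' : Type} [Field k] [Field k']

theorem equiv_eq_one {ρ₁ ρ₂ : ResidualGaloisRep k} (h : ρ₁.IsEquiv ρ₂)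
    {σ : AlgebraicClosure ℚ ≃ₐ[ℚ] AlgebraicClosure ℚ} (hσ : ρ₂.ρ σ = 1) : ρ₁.ρ σ = 1 := by
  obtain ⟨e⟩ := h
  refine LinearMap.ext fun x => e.toLinearEquiv.injective ?_
  rw [e.map_apply, hσ]
  rfl

theorem baseChangeAlong_eq_one (f : k →+* k') {ρ : ResidualGaloisRep k}
    {σ : AlgebraicClosure ℚ ≃ₐ[ℚ] AlgebraicClosure ℚ} (hσ : ρ.ρ σ = 1) :
    (ρ.baseChangeAlong f).ρ σ = 1 := by
  letI : Algebra k k' := f.toAlgebra
  show (ρ.ρ σ).baseChange k' = 1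
  rw [hσ, LinearMap.baseChange_one]

theorem equiv_isOdd {ρ₁ ρ₂ : ResidualGaloisRep k} (h : ρ₁.IsEquiv ρ₂) (h2 : ρ₂.IsOdd) :
    ρ₁.IsOdd := by
  obtain ⟨e⟩ := h
  intro c hc hc1
  rw [← h2 c hc hc1, ← LinearMap.det_conj (ρ₁.ρ c) e.toLinearEquiv]
  congr 1
  refine LinearMap.ext fun x => ?_
  show e.toLinearEquiv (ρ₁.ρ c (e.toLinearEquiv.symm x)) = _
  rw [e.map_apply, LinearEquiv.apply_symm_apply]

theorem baseChangeAlong_isOdd (f : k →+* k') {ρ : ResidualGaloisRep k} (h : ρ.IsOdd) :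
    (ρ.baseChangeAlong f).IsOdd := by
  letI : Algebra k k' := f.toAlgebra
  intro c hc hc1
  show LinearMap.det ((ρ.ρ c).baseChange k') = -1
  rw [LinearMap.det_baseChange, h c hc hc1, map_neg, map_one]

end Res

section Adj

/-- additive maps compatible with scalars and generators are compatible with the ring -/
theorem map_smul_of_adjoin {R T ι X Y : Type*} [CommRing R] [CommRing T] [Algebra R T]
    (gen : ι → T) (hadj : Algebra.adjoin R (Set.range gen) = ⊤) [AddCommGroup X] [Module T X]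
    [AddCommGroup Y] [Module T Y] (f : X →+ Y)
    (hC : ∀ (r : R) x, f (algebraMap R T r • x) = algebraMap R T r • f x)
    (hg : ∀ i x, f (gen i • x) = gen i • f x) (t : T) (x : X) : f (t • x) = t • f x := by
  have ht : t ∈ Algebra.adjoin R (Set.range gen) := by rw [hadj]; trivial
  induction ht using Algebra.adjoin_induction generalizing x with
  | mem y hy => obtain ⟨i, rfl⟩ := hy; exact hg i x
  | algebraMap r => exact hC r x
  | add a b _ _ ha hb => rw [add_smul, map_add, ha, hb, add_smul]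
  | mul a b _ _ ha hb => rw [mul_smul, ha, hb, mul_smul]

end Adj

section ResAct

variable {R Λ T M : Type*} [CommRing R] [CommRing Λ] [Algebra R Λ] [CommRing T] [Algebra R T]
  [AddCommGroup M] [Module R M] [Module Λ M] [IsScalarTower R Λ M]

/-- the action over the base ring -/
def resAct (f : T →+* Module.End Λ M)
    (hC : ∀ a : R, f (algebraMap R T a) = algebraMap Λ _ (algebraMap R Λ a)) :
    T →ₐ[R] Module.End R M where
  toFun t := (f t).restrictScalars R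
  map_one' := LinearMap.ext fun x => by
    rw [map_one]; rfl
  map_mul' a b := LinearMap.ext fun x => by
    rw [map_mul]; rfl
  map_zero' := LinearMap.ext fun x => by
    rw [map_zero]; rfl
  map_add' a b := LinearMap.ext fun x => by
    rw [map_add]; rfl
  commutes' a := LinearMap.ext fun x => by
    show f (algebraMap R T a) x = a • x
    rw [hC, Module.algebraMap_end_apply, algebraMap_smul]

theorem resAct_apply (f : T →+* Module.End Λ M)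
    (hC : ∀ a : R, f (algebraMap R T a) = algebraMap Λ _ (algebraMap R Λ a)) (t : T) (x : M) :
    resAct f hC t x = f t x := rfl

end ResAct

section GoodD

variable {p : ℕ} [hp : Fact p.Prime] {N : ℕ} [NeZero N] {Δ : Type} [CommGroup Δ] [Finite Δ]
  [IsLocalRing (MonoidAlgebra ℤ_[p] Δ)] [IsLocalHom (algebraMap ℤ_[p] (MonoidAlgebra ℤ_[p] Δ))]

theorem strong_thMap {S : Set ℕ} {θ : PIdx S → ResidueField ℤ_[p]} (h : StrongNonEis S θ) :
    StrongNonEis S (thMap (MonoidAlgebra ℤ_[p] Δ) θ) where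
  one m hm := by
    obtain ⟨ℓ, h1, h2⟩ := h.one m hm
    refine ⟨ℓ, h1, fun h3 => h2 ?_⟩
    refine (ResidueField.map (algebraMap ℤ_[p] (MonoidAlgebra ℤ_[p] Δ))).injective ?_
    rw [map_add, map_one, map_natCast]
    exact h3
  two m hm := by
    obtain ⟨ℓ, h1, h2⟩ := h.two m hm
    refine ⟨ℓ, h1, fun h3 => h2 ?_⟩
    refine (ResidueField.map (algebraMap ℤ_[p] (MonoidAlgebra ℤ_[p] Δ))).injective ?_
    rw [map_pow, map_pow, map_add, map_one, map_natCast]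
    exact h3

theorem good_taut (hp2 : p ≠ 2) (h3 : p ≠ 3 ∨ ∃ r : ℕ, r.Prime ∧ r ∣ N ∧ r % 3 = 2)
    (hΔ : IsPGroup p Δ) (τ : (ZMod N)ˣ →* Δ) {S : Set ℕ}
    (hS : ∀ ℓ : ℕ, ℓ.Prime → ℓ ∣ N → ℓ ∈ S) {θ : PIdx S → ResidueField ℤ_[p]}
    (h : StrongNonEis S θ) :
    Good N (taut ℤ_[p] τ ^ 2) S (thMap (MonoidAlgebra ℤ_[p] Δ) θ) := by
  have hpO : ((p : ℕ) : ℤ_[p]) ∈ maximalIdeal ℤ_[p] := (mem_maximalIdeal _).mpr PadicInt.p_nonunit
  haveI := isNoetherianRing_groupRing (𝒪 := ℤ_[p]) (Δ := Δ)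
  haveI := isAdicComplete_groupRing (𝒪 := ℤ_[p]) (Δ := Δ)
  refine good_of_strong ?_ ?_ ?_ (fun u => ?_) hS (strong_thMap h)
  · rw [MonoidHom.pow_apply, ← map_pow, neg_one_sq, map_one]
  · have h2 := (isUnit_two_padic hp2).map (algebraMap ℤ_[p] (MonoidAlgebra ℤ_[p] Δ))
    rwa [map_ofNat] at h2
  · refine (three_padic h3).imp_left fun h2 => ?_
    have h4 := h2.map (algebraMap ℤ_[p] (MonoidAlgebra ℤ_[p] Δ))
    rwa [map_ofNat] at h4
  · rw [MonoidHom.pow_apply, Units.val_pow_eq_pow_val, map_pow, residue_taut hpO hΔ, one_pow]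

end GoodD

section Core

variable {p : ℕ} [hp : Fact p.Prime] {m q : ℕ} [NeZero m] [NeZero q]
  {Δ : Type} [CommGroup Δ] [Fintype Δ] (τ0 : (ZMod q)ˣ →* Δ)
  [IsLocalRing (MonoidAlgebra ℤ_[p] Δ)] [IsLocalHom (algebraMap ℤ_[p] (MonoidAlgebra ℤ_[p] Δ))]
  {S : Finset ℕ} {θ : PIdx (↑S : Set ℕ) → ResidueField ℤ_[p]}
  {T : Type} [CommRing T] [Algebra ℤ_[p] T]

set_option maxHeartbeats 2000000 in
/-- **The contradiction.** -/
theorem core (hp2 : p ≠ 2) (hq : q.Prime) (hqp : q ≠ p) (hm : ¬ q ∣ m)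
    (h3 : p ≠ 3 ∨ ∃ r : ℕ, r.Prime ∧ r ∣ m ∧ r % 3 = 2) (hpS : p ∈ S)
    (hqS : q ∈ (↑S : Set ℕ)) (hS : ∀ ℓ : ℕ, ℓ.Prime → ℓ ∣ m * q → ℓ ∈ (↑S : Set ℕ))
    {W : WeierstrassCurve ℤ} (hΔ0 : W.Δ ≠ 0) (hΔQ : (W.map (Int.castRingHom ℚ)).Δ ≠ 0)
    (hirr : W.ModRepIsIrreducible p)
    (hθ : ∀ ℓ, θ ℓ = ((W.apOfModel (ℓ.1 : ℕ) : ℤ) : ResidueField ℤ_[p]))
    (hnt : ¬ Nontrivial (MN p m (↑S : Set ℕ) θ)) (hnt' : Nontrivial (MN p (m * q) (↑S : Set ℕ) θ))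
    -- the group
    (hΔ : IsPGroup p Δ) (hτ0 : Function.Surjective τ0) (δ : Δ)
    (hδ : ∀ x, x ∈ Subgroup.zpowers δ) {k r a : ℕ} (hord : orderOf δ = p ^ k) (hk : 0 < k)
    (hq1 : q = 1 + p ^ k * r) (ha : 2 * a = p ^ k * r) (ha0 : 0 < a) (hr : ¬ p ∣ r)
    -- the character
    {O : Type} [CommRing O] [IsDomain O] [IsIntegrallyClosed O] [CharZero O] {ζ : O}
    (hζ : IsPrimitiveRoot ζ p) (hrO : IsUnit (r : O)) (χ : MonoidAlgebra ℤ_[p] Δ →+* O)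
    [IsLocalHom χ] (hχ : χ (gr ℤ_[p] Δ δ - 1) = ζ - 1) (ι : ℤ_[p] →+* ℂ)
    (hι : Function.Injective ι) {ψ : Δ →* ℂˣ} (hψ : ψ ≠ 1)
    (hker : RingHom.ker χ = RingHom.ker (chiO ι ψ))
    -- the Hecke ring
    [IsLocalRing T] [IsNoetherianRing T] [Module.Finite ℤ_[p] T]
    (gen : PIdx (↑S : Set ℕ) → T) (hadj : Algebra.adjoin ℤ_[p] (Set.range gen) = ⊤)
    (actD : T →+* Module.End (MonoidAlgebra ℤ_[p] Δ)
      (MD p (m * q) (tauQ m q τ0) (↑S : Set ℕ) θ))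
    (hDC : ∀ a : ℤ_[p], actD (algebraMap ℤ_[p] T a) = algebraMap (MonoidAlgebra ℤ_[p] Δ) _
      (algebraMap ℤ_[p] (MonoidAlgebra ℤ_[p] Δ) a))
    (hDT : ∀ ℓ (x : MD p (m * q) (tauQ m q τ0) (↑S : Set ℕ) θ),
      ((actD (gen ℓ) x : MD p (m * q) (tauQ m q τ0) (↑S : Set ℕ) θ) :
        HM (m * q) (taut ℤ_[p] (tauQ m q τ0) ^ 2) (MonoidAlgebra ℤ_[p] Δ)) =
      nop (taut ℤ_[p] (tauQ m q τ0)) (↑S : Set ℕ) ℓ
        (x : HM (m * q) (taut ℤ_[p] (tauQ m q τ0) ^ 2) (MonoidAlgebra ℤ_[p] Δ)))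
    (actN : T →+* Module.End ℤ_[p] (MN p (m * q) (↑S : Set ℕ) θ))
    (hNC : ∀ a : ℤ_[p], actN (algebraMap ℤ_[p] T a) = algebraMap ℤ_[p] _ a)
    (hNT : ∀ ℓ (x : MN p (m * q) (↑S : Set ℕ) θ),
      ((actN (gen ℓ) x : MN p (m * q) (↑S : Set ℕ) θ) :
        HM (m * q) (1 : (ZMod (m * q))ˣ →* ℤ_[p]ˣ) ℤ_[p]) =
      hop (m * q) 1 ℤ_[p] (↑S : Set ℕ) ℓ
        (x : HM (m * q) (1 : (ZMod (m * q))ˣ →* ℤ_[p]ˣ) ℤ_[p]))
    -- the representation
    (ρ : GaloisRepAdic T) (hdet : ρ.DetIsCyclotomic p)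
    (habs : ρ.residual.IsAbsolutelyIrreducible) (hodd : ρ.residual.IsOdd)
    (hfrob : ∀ ℓ : PIdx (↑S : Set ℕ),
      ∀ A : ValuationSubring (AlgebraicClosure ℚ), A.LiesOverPrime ℓ.1 →
      ∀ σ : AlgebraicClosure ℚ ≃ₐ[ℚ] AlgebraicClosure ℚ, A.IsFrobeniusAt σ ℓ.1 →
        LinearMap.charpoly (ρ.ρ σ) = X ^ 2 - C (gen ℓ) * X + C (((ℓ.1 : ℕ) : ℕ) : T))
    {A : ValuationSubring (AlgebraicClosure ℚ)} (hA : A.LiesOverPrime q)
    (hur : ∀ σ ∈ A.inertiaSubgroupIn ℚ, ρ.residual.ρ σ = 1)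
    {σ₀ φ : AlgebraicClosure ℚ ≃ₐ[ℚ] AlgebraicClosure ℚ} (hσ₀ : RTD.IsTameGen A p q σ₀)
    (hφ : A.IsFrobeniusAt φ q)
    (h36 : Stmt36) (hW : WRel hq hm) (hE : ∀ k, EJ (m * q) (p ^ k) (↑S : Set ℕ) θ σ₀) :
    False := by
  haveI : NeZero (m * q) := ⟨mul_ne_zero (NeZero.ne m) (NeZero.ne q)⟩
  haveI := charP_residueField_padic p
  haveI hnoeth := isNoetherianRing_groupRing (𝒪 := ℤ_[p]) (Δ := Δ)
  haveI hcomp := isAdicComplete_groupRing (𝒪 := ℤ_[p]) (Δ := Δ)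
  have hcop : ∀ k : ℕ, Nat.Coprime (p ^ k) q := fun k =>
    Nat.Coprime.pow_left k ((Nat.coprime_primes hp.out hq).mpr hqp.symm)
  have hpk : ∀ k : ℕ, p ^ k ≠ 0 := fun k => pow_ne_zero _ hp.out.ne_zero
  have h3' : p ≠ 3 ∨ ∃ r : ℕ, r.Prime ∧ r ∣ m * q ∧ r % 3 = 2 :=
    h3.imp id fun ⟨r, h1, h2, h4⟩ => ⟨r, h1, h2.mul_right q, h4⟩
  have hstrong : StrongNonEis (↑S : Set ℕ) θ :=
    strongNonEis_of_model hp2 hΔ0 hirr S.finite_toSet fun ℓ _ _ => hθ ℓ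
  have hGD : Good (m * q) (taut ℤ_[p] (tauQ m q τ0) ^ 2) (↑S : Set ℕ)
      (thMap (MonoidAlgebra ℤ_[p] Δ) θ) := good_taut hp2 h3' hΔ _ hS hstrong
  have hGN : Good (m * q) (1 : (ZMod (m * q))ˣ →* ℤ_[p]ˣ) (↑S : Set ℕ) θ :=
    good_of_strong (by simp) (isUnit_two_padic hp2) (three_padic h3')
      (fun u => by rw [MonoidHom.one_apply, Units.val_one, map_one]) hS hstrong
  -- finiteness and freeness
  haveI hfinD : Module.Finite (MonoidAlgebra ℤ_[p] Δ) (MD p (m * q) (tauQ m q τ0) (↑S : Set ℕ) θ) :=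
    finite_Hm _ _ _
  haveI hfreeD : Module.Free (MonoidAlgebra ℤ_[p] Δ)
      (MD p (m * q) (tauQ m q τ0) (↑S : Set ℕ) θ) := hGD.free
  haveI hfinDZ : Module.Finite ℤ_[p] (MD p (m * q) (tauQ m q τ0) (↑S : Set ℕ) θ) :=
    Module.Finite.trans (MonoidAlgebra ℤ_[p] Δ) _
  haveI hfinN : Module.Finite ℤ_[p] (MN p (m * q) (↑S : Set ℕ) θ) := finite_Hm _ _ _
  haveI hfreeN : Module.Free ℤ_[p] (MN p (m * q) (↑S : Set ℕ) θ) := hGN.free
  -- the module structures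
  letI modD : Module T (MD p (m * q) (tauQ m q τ0) (↑S : Set ℕ) θ) := Module.compHom _ actD
  letI modN : Module T (MN p (m * q) (↑S : Set ℕ) θ) := Module.compHom _ actN
  haveI sccD : SMulCommClass T (MonoidAlgebra ℤ_[p] Δ)
      (MD p (m * q) (tauQ m q τ0) (↑S : Set ℕ) θ) := ⟨fun t l x => (actD t).map_smul l x⟩
  haveI sccN : SMulCommClass T ℤ_[p] (MN p (m * q) (↑S : Set ℕ) θ) :=
    ⟨fun t l x => (actN t).map_smul l x⟩
  haveI towN : IsScalarTower ℤ_[p] T (MN p (m * q) (↑S : Set ℕ) θ) := ⟨fun a t x => by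
    show actN (a • t) x = a • actN t x
    rw [Algebra.smul_def, map_mul, hNC, Module.End.mul_apply, Module.algebraMap_end_apply]⟩
  haveI finTN : Module.Finite T (MN p (m * q) (↑S : Set ℕ) θ) :=
    Module.Finite.of_restrictScalars_finite ℤ_[p] T _
  -- units
  have hrT : IsUnit (r : T) := by
    have h := (isUnit_natCast_padic hr).map (algebraMap ℤ_[p] T)
    rwa [map_natCast] at h
  have h2T : IsUnit (2 : T) := by
    have h := (isUnit_two_padic hp2).map (algebraMap ℤ_[p] T)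
    rwa [map_ofNat] at h
  have hqT : IsUnit (q : T) := by
    have h := (isUnit_natCast_padic (p := p) (n := q) fun h =>
      hqp ((Nat.prime_dvd_prime_iff_eq hp.out hq).mp h).symm).map (algebraMap ℤ_[p] T)
    rwa [map_natCast] at h
  have hpT : ((p ^ k : ℕ) : T) ∈ maximalIdeal T := by
    rw [Nat.cast_pow]
    exact Ideal.pow_mem_of_mem _ hdet.1 _ hk
  have hq1T : IsUnit ((q : T) + 1) := by
    have h1 : (q : T) + 1 = 2 + (p ^ k : ℕ) * r := by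
      rw [hq1]; push_cast; ring
    rw [h1]
    by_contra hcon
    have h4 := Ideal.sub_mem _ ((mem_maximalIdeal _).mpr hcon)
      (Ideal.mul_mem_right (r : T) _ hpT)
    rw [add_sub_cancel_right] at h4
    exact (mem_maximalIdeal _).mp h4 h2T
  -- the matrices
  have hFS := tame_matOf' hq hqp hA ρ hdet hur hφ hσ₀.1
  have hS1 : dt2 (matOf ρ σ₀) = 1 := by
    rw [dt2_matOf, det_eq_of_roots (p := p) (a := 1) hdet, Nat.cast_one]
    intro n μ hμ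
    rw [pow_one]
    exact inertia_fix_rootOfUnity hA (hcop n).symm (hpk n) hσ₀.1 hμ
  have hF1 : dt2 (matOf ρ φ) = (q : T) := by
    rw [dt2_matOf, det_eq_of_roots (p := p) (a := q) hdet]
    intro n μ hμ
    exact frobenius_rootOfUnity hA (hcop n).symm (hpk n) hφ hμ
  -- level `N`
  have hgenN : ∀ (ℓ : PIdx (↑S : Set ℕ)) (x : MN p (m * q) (↑S : Set ℕ) θ),
      ((gen ℓ • x : MN p (m * q) (↑S : Set ℕ) θ) :
        HM (m * q) (1 : (ZMod (m * q))ˣ →* ℤ_[p]ˣ) ℤ_[p]) =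
        hop (m * q) 1 ℤ_[p] (↑S : Set ℕ) ℓ
          (x : HM (m * q) (1 : (ZMod (m * q))ˣ →* ℤ_[p]ˣ) ℤ_[p]) := hNT
  have LR := levelRel_padic hp2 hq hqp hm h3 hpS hqS hS hΔ0 hirr hθ hnt gen hgenN hadj ρ hdet habs
    ∅ Set.finite_empty (fun ℓ _ A hA φ hφ => hfrob ℓ A hA φ hφ) hA hσ₀.1 hφ hFS hW hE
  obtain ⟨ε, hε, hwε⟩ := LR.exists_eps h2T hq1T (wT_wT hq hm hqS gen hgenN hadj)
  have hεε : ε * ε = 1 := by rcases hε with rfl | rfl <;> ring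
  have hεu : IsUnit (-ε) := by
    refine IsUnit.of_mul_eq_one (-ε) ?_
    rw [neg_mul_neg, hεε]
  -- the specialisation
  haveI hlocal : IsLocalHom ((RT.aug ℤ_[p] Δ : MonoidAlgebra ℤ_[p] Δ →ₐ[ℤ_[p]] ℤ_[p]) :
      MonoidAlgebra ℤ_[p] Δ →+* ℤ_[p]) := isLocalHom_of_integral (RT.aug ℤ_[p] Δ)
  have hση : ∀ u, (RT.aug ℤ_[p] Δ) ((taut ℤ_[p] (tauQ m q τ0) u :
      (MonoidAlgebra ℤ_[p] Δ)ˣ) : MonoidAlgebra ℤ_[p] Δ) = 1 := fun u => RT.aug_gr _
  let π := specN (taut ℤ_[p] (tauQ m q τ0)) ℤ_[p] θ (RT.aug ℤ_[p] Δ) hση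
  have hπs : Function.Surjective π :=
    specN_surjective (taut ℤ_[p] (tauQ m q τ0)) ℤ_[p] θ (RT.aug ℤ_[p] Δ) hση hGD
  have hπΛ : ∀ (l : MonoidAlgebra ℤ_[p] Δ) x, π (l • x) = RT.aug ℤ_[p] Δ l • π x := fun l x =>
    specN_smul (taut ℤ_[p] (tauQ m q τ0)) ℤ_[p] θ (RT.aug ℤ_[p] Δ) hση l x
  have hπT : ∀ (t : T) (x : MD p (m * q) (tauQ m q τ0) (↑S : Set ℕ) θ), π (t • x) = t • π x := by
    refine map_smul_of_adjoin (R := ℤ_[p]) gen hadj π.toAddMonoidHom (fun b x => ?_) (fun ℓ x => ?_)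
    · show π (actD (algebraMap ℤ_[p] T b) x) = actN (algebraMap ℤ_[p] T b) (π x)
      rw [hDC, hNC, Module.algebraMap_end_apply, Module.algebraMap_end_apply, hπΛ, AlgHom.commutes]
      rfl
    · show π (actD (gen ℓ) x) = actN (gen ℓ) (π x)
      refine Subtype.ext ?_
      rw [hNT]
      show pushH _ _ (actD (gen ℓ) x : MD p (m * q) (tauQ m q τ0) (↑S : Set ℕ) θ).1 = _
      rw [hDT, nop, LinearMap.smul_apply, pushH_smul]
      have h1 : ((RT.aug ℤ_[p] Δ : MonoidAlgebra ℤ_[p] Δ →ₐ[ℤ_[p]] ℤ_[p]) :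
          MonoidAlgebra ℤ_[p] Δ →+* ℤ_[p]) ((taut ℤ_[p] (tauQ m q τ0) (unitOf (m * q) ℓ.1) :
            (MonoidAlgebra ℤ_[p] Δ)ˣ) : MonoidAlgebra ℤ_[p] Δ) = 1 := hση _
      rw [h1, one_smul]
      exact pushH_heckeP _ _ ℓ.1 x.1
  have hkerπ : ∀ x, π x = 0 ↔ ∃ y, x = (gr ℤ_[p] Δ δ - 1) • y := by
    intro x
    have h1 := specN_eq_zero_iff (taut ℤ_[p] (tauQ m q τ0)) ℤ_[p] θ (RT.aug ℤ_[p] Δ) hση hGD x
    have h2 : RingHom.ker ((RT.aug ℤ_[p] Δ : MonoidAlgebra ℤ_[p] Δ →ₐ[ℤ_[p]] ℤ_[p]) :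
        MonoidAlgebra ℤ_[p] Δ →+* ℤ_[p]) = Ideal.span {gr ℤ_[p] Δ δ - 1} := by
      have h4 := RT.ker_aug_eq (𝒪 := ℤ_[p]) (Δ := Δ) (fun _ : Unit => δ) (by
        rw [Set.range_const, ← Subgroup.zpowers_eq_closure]
        exact (Subgroup.eq_top_iff' _).mpr hδ)
      rw [Set.range_const] at h4
      exact h4
    rw [h2, Submodule.ideal_span_singleton_smul, Submodule.mem_smul_pointwise_iff_exists] at h1
    rw [h1]
    constructor
    · rintro ⟨y, -, hy⟩; exact ⟨y, hy.symm⟩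
    · rintro ⟨y, hy⟩; exact ⟨y, trivial, hy.symm⟩
  -- the Atkin-Lehner operator
  let w := wD hq hm τ0 hqS (p := p) (θ := θ)
  have hwT : ∀ (t : T) (x : MD p (m * q) (tauQ m q τ0) (↑S : Set ℕ) θ), w (t • x) = t • w x := by
    refine map_smul_of_adjoin (R := ℤ_[p]) gen hadj w (fun b x => ?_) (fun ℓ x => ?_)
    · show w (actD (algebraMap ℤ_[p] T b) x) = actD (algebraMap ℤ_[p] T b) (w x)
      rw [hDC, Module.algebraMap_end_apply, Module.algebraMap_end_apply]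
      exact wD_algebraMap_smul hq hm τ0 hqS b x
    · show w (actD (gen ℓ) x) = actD (gen ℓ) (w x)
      exact wD_comm_nop hq hm τ0 hqS ℓ (fun hd => ℓ.2 (hS _ ℓ.1.2 hd)) (fun x => actD (gen ℓ) x)
        (fun x => hDT ℓ x) x
  have hwc : ∀ x, π (w x) = (-ε) • π x := by
    intro x
    have h1 : π (w x) = wNm hq hm hqS (π x) := Subtype.ext (pushH_wD hq hm τ0 hqS _ x)
    rw [h1, neg_smul]
    exact hwε (π x)
  obtain ⟨c₀, hc₀⟩ := exists_nrm_eq (R := ℤ_[p]) δ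
  rw [hord] at hc₀
  refine family_contradiction (R := ℤ_[p]) (O := O) (Λ := MonoidAlgebra ℤ_[p] Δ) (T := T)
    (M := MD p (m * q) (tauQ m q τ0) (↑S : Set ℕ) θ) (MN := MN p (m * q) (↑S : Set ℕ) θ)
    hq1 ha ha0 hrO hrT h2T hpT hζ (gr ℤ_[p] Δ δ - 1) (nrm ℤ_[p] δ) (-gr ℤ_[p] Δ δ⁻¹) c₀ hc₀
    (exists_of_sub_one_smul_eq δ hδ) χ hχ π.toAddMonoidHom hπs hπT ?_ hkerπ ?_ w
    (wD_sub_one_smul hq hm τ0 hqS δ) hwT (-ε) hεu hwc (matOf ρ σ₀) (matOf ρ φ) hS1 (hF1 ▸ hqT)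
    hFS (matOf_sub_one_entry_mem ρ (hur σ₀ hσ₀.1)) ε hεε LR.trS LR.trFS ?_ ?_ LR.E
  · intro o x
    show π (algebraMap ℤ_[p] (MonoidAlgebra ℤ_[p] Δ) o • x) = o • π x
    rw [hπΛ, AlgHom.commutes]
    rfl
  · intro j x hj hx
    have h1 : (j : ℤ_[p]) • x = 0 := by rw [Nat.cast_smul_eq_nsmul]; exact hx
    exact (smul_eq_zero.mp h1).resolve_left (by exact_mod_cast hj.ne')
  · intro y
    have h1 : (q + 1) • ε • y = ((q : T) + 1) • ε • y := by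
      rw [← Nat.cast_smul_eq_nsmul T (q + 1) (ε • y), Nat.cast_add, Nat.cast_one]
    have h2 : (ε * ((q : T) + 1)) • y = ((q : T) + 1) • ε • y := by
      rw [smul_smul, mul_comm ((q : T) + 1) ε]
    rw [LR.trF, hwε, smul_neg, neg_neg, h2]
    exact h1
  · intro x hx
    rw [hker] at hx ⊢
    obtain ⟨ℓ0, h1, h2, h4⟩ := exists_aux hstrong (M := m * q)
    refine mem_of_trace hq hm hΔ τ0 hτ0 hpS hS θ hGD h1 h4 (resAct actD hDC)
      (fun t d y => (actD t).map_smul _ y) gen hDT h36 hp2 hqp ρ hdet habs hodd hfrob hA hur hσ₀ ι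
      hι hψ x ?_
    have h5 : ρ.trace σ₀ - 2 = tr2 (matOf ρ σ₀) - 2 := by
      rw [← trace_matOf, Matrix.trace_fin_two, tr2]
    rw [resAct_apply, h5]
    exact hx

end Core

end Fermat.Agent.Ribet.Sh

end
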