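import Fermat.Agent.Ribet.ShCore
import Fermat.Agent.Ribet.ChiO

/-!
# Ribet's theorem, road B: the local Hecke ring of level `m q²`
-/

set_option autoImplicit false
set_option linter.unusedSectionVars false
set_option linter.unusedVariables false
set_option linter.style.haveILetI false

noncomputable section

open IsLocalRing CongruenceSubgroup Polynomial CuspForm
open scoped MatrixGroups

namespace Fermat.Agent.Ribet.Sh

open Fermat.Agent.HeckePar Fermat.Agent.TwHecke Fermat.Agent.TwExact Fermat.Agent.S41hm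
open Fermat.Agent.GalRep Fermat.Agent.HeckeRep Fermat.Agent.RT

theorem finite_residueField_padic' (p : ℕ) [hp : Fact p.Prime] : Finite (ResidueField ℤ_[p]) := by
  haveI : NeZero p := ⟨hp.out.ne_zero⟩
  exact Finite.of_equiv (ZMod p) PadicInt.residueField.symm.toEquiv

theorem evk_map_int {R : Type} [CommRing R] [IsLocalRing R] {S : Set ℕ}
    (θ : PIdx S → ResidueField R) (t : MvPolynomial (PIdx S) ℤ) :
    evk θ (MvPolynomial.map (Int.castRingHom R) t) = MvPolynomial.aeval (R := ℤ) θ t := by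
  induction t using MvPolynomial.induction_on with
  | C n =>
    rw [MvPolynomial.map_C, evk_C, MvPolynomial.aeval_C, eq_intCast, map_intCast]
    exact (eq_intCast (algebraMap ℤ (ResidueField R)) n).symm
  | add p q hp hq => rw [map_add, map_add, hp, hq, map_add]
  | mul_X p i hp =>
    rw [map_mul, map_mul, hp, MvPolynomial.map_X, evk_X, map_mul, MvPolynomial.aeval_X]

/-- A system with a nonzero module of level `N` occurs at level `N`. -/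
theorem occ_of_nontrivial {p : ℕ} [hp : Fact p.Prime] {N : ℕ} [NeZero N] {S : Set ℕ}
    (hS : ∀ ℓ : ℕ, ℓ.Prime → ℓ ∣ N → ℓ ∈ S) {ε : (ZMod N)ˣ →* ℤ_[p]ˣ} (hε : ε = 1)
    {θ : PIdx S → ResidueField ℤ_[p]} (hstrong : StrongNonEis S θ)
    (hG : Good N ε S θ) (hnt : Nontrivial (Hm N ε ℤ_[p] S θ)) : Occ N S θ := by
  obtain rfl : ε = (1 : (ZMod N)ˣ →* ℤ_[p]ˣ) ^ 2 := hε.trans (MonoidHom.ext fun u => by
    rw [MonoidHom.pow_apply, MonoidHom.one_apply, one_pow])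
  intro t ht
  by_contra hne
  haveI := finite_residueField_padic' p
  obtain ⟨ι, hι⟩ := RT.exists_embedding ℤ_[p]
  obtain ⟨ℓ₀, h1, h2, h3⟩ := exists_aux hstrong (M := N)
  have hη : ∀ u : (ZMod N)ˣ, residue ℤ_[p] (((1 : (ZMod N)ˣ →* ℤ_[p]ˣ) u : ℤ_[p]ˣ) : ℤ_[p]) = 1 :=
    fun u => by rw [MonoidHom.one_apply, Units.val_one, map_one]
  have hrel := relation_of_torsion (𝒪 := ℤ_[p]) hη hG t (ℓ₀ := ℓ₀) h3
    (fun x => relation_triv ι hι hS t ht h1 h2 x)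
  have hloc := isLocalAt_hT (M := N) (S := S) (ε := (1 : (ZMod N)ˣ →* ℤ_[p]ˣ) ^ 2) (θ := θ) hη
    (MvPolynomial.map (Int.castRingHom ℤ_[p]) t) (by rw [evk_map_int]; exact hne)
  obtain ⟨x, hx⟩ := exists_ne (0 : Hm N ((1 : (ZMod N)ˣ →* ℤ_[p]ˣ) ^ 2) ℤ_[p] S θ)
  apply hx
  apply hloc.1
  rw [map_zero, ← cevZ_eq, hrel, LinearMap.zero_apply]

/-- **Level lowering for the modules `MN`**, `q ≡ 1 mod p`, with the geometric inputs as
hypotheses. -/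
theorem lowerMN_of (p : ℕ) [hp : Fact p.Prime] (hp2 : p ≠ 2) (W : WeierstrassCurve ℤ)
    (hΔQ : (W.map (Int.castRingHom ℚ)).Δ ≠ 0) (hirr : W.ModRepIsIrreducible p) (m q : ℕ)
    [NeZero m] [NeZero (m * q)] [NeZero q] (hq : q.Prime) (hqp : q ≠ p) (hm : ¬ q ∣ m)
    (hq1 : q % p = 1) (h3 : p ≠ 3 ∨ ∃ r : ℕ, r.Prime ∧ r ∣ m ∧ r % 3 = 2)
    (S : Finset ℕ) (hpS : p ∈ S) (hqS : q ∈ S)
    (hmS : ∀ ℓ : ℕ, ℓ.Prime → ℓ ∣ m → ℓ ∈ S)
    (hbad : ∀ ℓ : ℕ, ℓ.Prime → ¬ W.IsGoodPrimeFor ℓ → ℓ ∈ S)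
    (θ : PIdx (↑S : Set ℕ) → ResidueField ℤ_[p])
    (hθ : ∀ ℓ : PIdx (↑S : Set ℕ), θ ℓ = ((W.apOfModel (ℓ.1 : ℕ) : ℤ) : ResidueField ℤ_[p]))
    (hunr : (rbar hΔQ p).IsUnramifiedAt q) (hnt' : Nontrivial (MN p (m * q) (↑S : Set ℕ) θ))
    (h36 : Stmt36) (hW : WRel hq hm)
    (hE : ¬ Nontrivial (MN p m (↑S : Set ℕ) θ) →
      ∀ (A : ValuationSubring (AlgebraicClosure ℚ)) (σ₀ : GQ), A.LiesOverPrime q →
        RTD.IsTameGen A p q σ₀ → ∀ k, EJ (m * q) (p ^ k) (↑S : Set ℕ) θ σ₀) :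
    Nontrivial (MN p m (↑S : Set ℕ) θ) := by
  by_contra hnt
  haveI : NeZero (m * q * q) := ⟨mul_ne_zero (NeZero.ne (m * q)) (NeZero.ne q)⟩
  haveI := charP_residueField_padic p
  haveI := finite_residueField_padic' p
  have hqS' : q ∈ (↑S : Set ℕ) := hqS
  have hpO : ((p : ℕ) : ℤ_[p]) ∈ maximalIdeal ℤ_[p] := (mem_maximalIdeal _).mpr PadicInt.p_nonunit
  have hΔ0 : W.Δ ≠ 0 := by
    intro h
    apply hΔQ
    rw [WeierstrassCurve.map_Δ, h, map_zero]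
  have hS : ∀ ℓ : ℕ, ℓ.Prime → ℓ ∣ m * q → ℓ ∈ (↑S : Set ℕ) := by
    intro ℓ hℓ hd
    rcases hℓ.dvd_mul.mp hd with h | h
    · exact hmS ℓ hℓ h
    · rw [(Nat.prime_dvd_prime_iff_eq hℓ hq).mp h]; exact hqS
  have hSL : ∀ ℓ : ℕ, ℓ.Prime → ℓ ∣ m * q * q → ℓ ∈ S := by
    intro ℓ hℓ hd
    rcases hℓ.dvd_mul.mp hd with h | h
    · exact hS ℓ hℓ h
    · rw [(Nat.prime_dvd_prime_iff_eq hℓ hq).mp h]; exact hqS
  have hSL' : ∀ ℓ : ℕ, ℓ.Prime → ℓ ∣ m * q * q → ℓ ∈ (↑S : Set ℕ) := hSL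
  have h3' : p ≠ 3 ∨ ∃ r : ℕ, r.Prime ∧ r ∣ m * q ∧ r % 3 = 2 :=
    h3.imp id fun ⟨r, h1, h2, h4⟩ => ⟨r, h1, h2.mul_right q, h4⟩
  have hstrong : StrongNonEis (↑S : Set ℕ) θ :=
    strongNonEis_of_model hp2 hΔ0 hirr S.finite_toSet fun ℓ _ _ => hθ ℓ
  have hGN : Good (m * q) (1 : (ZMod (m * q))ˣ →* ℤ_[p]ˣ) (↑S : Set ℕ) θ :=
    good_of_strong (by simp) (isUnit_two_padic hp2) (three_padic h3')
      (fun u => by rw [MonoidHom.one_apply, Units.val_one, map_one]) hS hstrong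
  -- the local Hecke ring
  have hocc : Occ (m * q * q) (↑S : Set ℕ) θ :=
    (occ_of_nontrivial hS rfl hstrong hGN hnt').up (dvd_mul_right _ _) hSL'
  have ctx : HCtx p (rbar hΔQ p) S θ := {
    two := hp2
    mem := hpO
    mem_S := hpS
    abs := rbar_isAbsolutelyIrreducible hΔQ p hp2 hirr
    frob := fun ℓ A hA σ hσ => by
      haveI : Fact (ℓ.1 : ℕ).Prime := ⟨ℓ.1.2⟩
      have hgood : W.IsGoodPrimeFor (ℓ.1 : ℕ) := by
        by_contra h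
        exact ℓ.2 (hbad _ ℓ.1.2 h)
      have hne : (ℓ.1 : ℕ) ≠ p := fun h => ℓ.2 (by rw [h]; exact hpS)
      have h := charpoly_rbar_frobenius hΔQ p hgood hne hA hσ
      rw [hθ]
      exact h }
  -- the group and the character
  obtain ⟨k, r, a, hq1', ha, ha0, hk, hr⟩ := exists_arith hp.out hp2 hq hq1
  haveI : NeZero (p ^ k) := ⟨pow_ne_zero k hp.out.ne_zero⟩
  obtain ⟨τ0, hτ0⟩ := exists_tau0 (p := p) (k := k) hq ⟨r, by omega⟩
  have hΔP := isPGroup_mul_zmod p k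
  haveI hloc : IsLocalRing (MonoidAlgebra ℤ_[p] (Multiplicative (ZMod (p ^ k)))) :=
    isLocalRing_groupRing hpO hΔP
  haveI hlh : IsLocalHom (algebraMap ℤ_[p] (MonoidAlgebra ℤ_[p] (Multiplicative (ZMod (p ^ k))))) :=
    isLocalHom_groupRing
  obtain ⟨ι, hι⟩ := RT.exists_embedding ℤ_[p]
  obtain ⟨ψ, hψ, hψz⟩ := exists_psi (δ := Multiplicative.ofAdd (1 : ZMod (p ^ k)))
    hp.out.ne_zero hp.out.ne_one (mem_zpowers_ofAdd_one _)
    (by rw [orderOf_ofAdd_one]; exact dvd_pow_self p hk.ne')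
  obtain ⟨ζ, hζ, hχ⟩ := exists_zeta_OO ι ψ hψz
  haveI := isLocalHom_chiOO ι ψ
  have hGD : Good (m * q) (taut ℤ_[p] (tauQ m q τ0) ^ 2) (↑S : Set ℕ)
      (thMap (MonoidAlgebra ℤ_[p] (Multiplicative (ZMod (p ^ k)))) θ) :=
    good_taut hp2 h3' hΔP _ hS hstrong
  -- the actions
  obtain ⟨actD, hDC, hDT⟩ := exists_act (M := m * q) (Q₀ := q) (L := m * q * q)
    (dvd_mul_left q m) dvd_rfl hSL' τ0 hocc hstrong (residue_taut hpO hΔP _) hGD
  obtain ⟨actN, hNC, hNT⟩ := exists_act_triv (M := m * q) (L := m * q * q) (dvd_mul_right _ _)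
    hSL' rfl hocc hstrong hGN
  have hadj : Algebra.adjoin ℤ_[p] (Set.range fun ℓ : PIdx (↑S : Set ℕ) =>
      heckeLocal.π (m * q * q) (↑S : Set ℕ) ℤ_[p] (sysHom hocc)
        (genS (m * q * q) (↑S : Set ℕ) ℓ)) = ⊤ := by
    rw [Algebra.adjoin_range_eq_range_aeval, AlgHom.range_eq_top]
    exact exists_poly (sysHom hocc)
  -- the representation
  have hres := heckeDatum_residual ctx hSL hocc
  have hodd : (heckeDatum ctx hSL hocc).ρ.residual.IsOdd :=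
    equiv_isOdd hres (baseChangeAlong_isOdd _ (rbar_isOdd hΔQ p hp2))
  obtain ⟨A, hA⟩ := Frob.exists_liesOverPrime q hq
  obtain ⟨σ₀, hσ₀⟩ := RTD.exists_isTameGen hq hp.out hA hqp
  obtain ⟨φ, hφ⟩ := Frob.exists_isFrobeniusAt hq hA
  have hur : ∀ σ ∈ A.inertiaSubgroupIn ℚ, (heckeDatum ctx hSL hocc).ρ.residual.ρ σ = 1 :=
    fun σ hσ => equiv_eq_one hres (baseChangeAlong_eq_one _ (hunr A hA σ hσ))
  exact core τ0 hp2 hq hqp hm h3 hpS hqS' hS hΔ0 hΔQ hirr hθ hnt hnt' hΔP hτ0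
    (Multiplicative.ofAdd (1 : ZMod (p ^ k))) (mem_zpowers_ofAdd_one _) (orderOf_ofAdd_one _) hk
    hq1' ha ha0 hr hζ (isUnit_natCast_OO ι (isUnit_natCast_padic hr)) (chiOO ι ψ) hχ ι hι hψ
    (ker_chiOO ι ψ) _ hadj actD hDC
    (fun ℓ x => congrArg Subtype.val (LinearMap.congr_fun (hDT ℓ) x)) actN hNC
    (fun ℓ x => by
      rw [hNT, coe_hT, MonoidHom.one_apply, Units.val_one, one_smul]
      rfl)
    (heckeDatum ctx hSL hocc).ρ (heckeDatum_det ctx hSL hocc)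
    (heckeDatum ctx hSL hocc).residual_absIrr hodd
    (fun ℓ A hA σ hσ => heckeDatum_charpoly ctx hSL hocc ℓ hA hσ) hA hur hσ₀ hφ h36 hW
    (hE hnt A σ₀ hA hσ₀)

end Fermat.Agent.Ribet.Sh

end
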