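import Fermat.Agent.Ribet.Defs

/-!
# Specialisation of the `𝔪`-part of the twisted cohomology along a surjection of local rings
-/

set_option autoImplicit false
set_option linter.unusedSectionVars false
set_option linter.unusedVariables false
set_option linter.style.haveILetI false

noncomputable section

namespace Fermat.Agent.Ribet

open TwHecke TwExact HeckeRep IsLocalRing CongruenceSubgroup
open scoped MatrixGroups

section Equiv

variable {M : ℕ} {R : Type} [CommRing R] [IsLocalRing R] {ε : (ZMod M)ˣ →* Rˣ} {S : Set ℕ}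
  {θ : PIdx S → ResidueField R} {A B : Type} [AddCommGroup A] [Module R A] [AddCommGroup B]
  [Module R B]

theorem HmMap_equiv_eq_zero_iff (e : A ≃ₗ[R] B) (x : Hm M ε A S θ) :
    HmMap M ε S θ (e : A →ₗ[R] B) x = 0 ↔ x = 0 := by
  constructor
  · intro h
    have h2 := congrArg (HmMap M ε S θ (e.symm : B →ₗ[R] A)) h
    rw [← HmMap_comp, map_zero] at h2
    have h3 : (e.symm : B →ₗ[R] A) ∘ₗ (e : A →ₗ[R] B) = LinearMap.id :=
      LinearMap.ext fun z => e.symm_apply_apply z
    rw [h3, HmMap_id] at h2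
    exact h2
  · intro h
    rw [h, map_zero]

end Equiv

section Spec

variable {M : ℕ} [NeZero M] {R R' : Type} [CommRing R] [IsLocalRing R] [IsNoetherianRing R]
  [IsAdicComplete (maximalIdeal R) R] [CommRing R'] [IsLocalRing R'] (σ : R →+* R')
  [hloc : IsLocalHom σ] {ε : (ZMod M)ˣ →* Rˣ} {ε' : (ZMod M)ˣ →* R'ˣ}
  (hε : ∀ u, ((ε' u : R'ˣ) : R') = σ ((ε u : Rˣ) : R)) {S : Set ℕ} {θ : PIdx S → ResidueField R}
  {θ' : PIdx S → ResidueField R'} (hθ : ∀ ℓ, θ' ℓ = ResidueField.map σ (θ ℓ))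

omit [NeZero M] [IsNoetherianRing R] [IsAdicComplete (maximalIdeal R) R] in
include hθ in
/-- the specialisation preserves the `𝔪`-parts -/
theorem pushH_mem_Hm (hσ : Function.Surjective σ) {x : HM M ε R} (hx : x ∈ Hm M ε R S θ) :
    pushH σ hε x ∈ Hm M ε' R' S θ' := by
  rw [Hm, mem_mpart] at hx ⊢
  intro t ht
  obtain ⟨t, rfl⟩ := MvPolynomial.map_surjective _ hσ t
  obtain ⟨y, hy⟩ := hx t (by
    intro h0
    apply ht
    have h1 : evk θ' (MvPolynomial.map σ t) = ResidueField.map σ (evk θ t) := by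
      clear ht h0
      induction t using MvPolynomial.induction_on with
      | C a => rw [MvPolynomial.map_C, evk_C, evk_C, ResidueField.map_residue]
      | add p q hp hq => rw [map_add, map_add, map_add, map_add, hp, hq]
      | mul_X p i hp =>
        rw [map_mul, map_mul, map_mul, map_mul, hp, MvPolynomial.map_X, evk_X, evk_X, hθ]
    rw [h1, h0, map_zero])
  refine ⟨pushH σ hε y, ?_⟩
  rw [← hy]
  exact (cev_semilinear σ (hop_commute M ε R S) (hop_commute M ε' R' S) (pushH σ hε)
    (pushH_smul σ hε) (fun i x => pushH_heckeP σ hε i.1 x) t y).symm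

/-- the specialisation on the `𝔪`-parts. -/
def spec (hσ : Function.Surjective σ) (hθ : ∀ ℓ, θ' ℓ = ResidueField.map σ (θ ℓ)) :
    Hm M ε R S θ →+ Hm M ε' R' S θ' where
  toFun x := ⟨pushH σ hε x.1, pushH_mem_Hm σ hε hθ hσ x.2⟩
  map_zero' := Subtype.ext (map_zero _)
  map_add' x y := Subtype.ext (map_add _ _ _)

variable (hσ : Function.Surjective σ)

omit [NeZero M] [IsNoetherianRing R] [IsAdicComplete (maximalIdeal R) R] in
@[simp] theorem coe_spec (x : Hm M ε R S θ) :
    ((spec σ hε hσ hθ x : Hm M ε' R' S θ') : HM M ε' R') = pushH σ hε x.1 := rfl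

omit [NeZero M] [IsNoetherianRing R] [IsAdicComplete (maximalIdeal R) R] in
theorem spec_smul (r : R) (x : Hm M ε R S θ) :
    spec σ hε hσ hθ (r • x) = σ r • spec σ hε hσ hθ x :=
  Subtype.ext (pushH_smul σ hε r x.1)

omit [NeZero M] [IsNoetherianRing R] [IsAdicComplete (maximalIdeal R) R] in
include hσ in
/-- comparison with the change of rings. -/
theorem pushH_eq_change : letI := σ.toAlgebra
    ∀ (x : HM M ε R) (h : ∀ u, (((epsMap M ε R') u : R'ˣ) : R') = σ ((ε u : Rˣ) : R)),
      pushH σ h x = HMChange (R' := R') M ε R' (H1.map _ (Algebra.linearMap R R') x) := by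
  letI := σ.toAlgebra
  intro x h
  induction x using H1.ind with
  | h c =>
    rw [pushH_mk, H1.map_mk, HMChange_mk]
    congr 1

theorem spec_surjective (hG : Good M ε S θ) : Function.Surjective (spec σ hε hσ hθ) := by
  letI : Algebra R R' := σ.toAlgebra
  haveI : IsLocalHom (algebraMap R R') := hloc
  obtain rfl : ε' = epsMap M ε R' := MonoidHom.ext fun u => Units.ext (hε u)
  obtain rfl : θ' = thMap R' θ := funext hθ
  rintro ⟨y, hy⟩
  obtain ⟨z, rfl⟩ := (HMChange (R' := R') M ε R').surjective y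
  have hz : z ∈ Hm M ε R' S θ := (mem_Hm_change (R' := R') M ε S θ R' hσ z).mp hy
  obtain ⟨x, hx⟩ := hG.surjective (Algebra.linearMap R R') hσ ⟨z, hz⟩
  refine ⟨x, Subtype.ext ?_⟩
  rw [coe_spec, pushH_eq_change σ hσ x.1 hε]
  have := congrArg Subtype.val hx
  rw [coe_HmMap] at this
  rw [this]

theorem spec_eq_zero_iff (hG : Good M ε S θ) (x : Hm M ε R S θ) :
    spec σ hε hσ hθ x = 0 ↔ x ∈ RingHom.ker σ • (⊤ : Submodule R (Hm M ε R S θ)) := by
  letI : Algebra R R' := σ.toAlgebra
  haveI : IsLocalHom (algebraMap R R') := hloc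
  obtain rfl : ε' = epsMap M ε R' := MonoidHom.ext fun u => Units.ext (hε u)
  obtain rfl : θ' = thMap R' θ := funext hθ
  have h1 : spec σ hε hσ hθ x = 0 ↔ HmMap M ε S θ (Algebra.linearMap R R') x = 0 := by
    rw [← Subtype.coe_inj, coe_spec, pushH_eq_change σ hσ x.1 hε, ← Subtype.coe_inj, coe_HmMap]
    exact (HMChange (R' := R') M ε R').map_eq_zero_iff
  rw [h1, ← hG.ker_mkQ (RingHom.ker σ), LinearMap.mem_ker]
  -- `R / ker σ ≃ R'` as `R`-modules
  have hker : LinearMap.ker (Algebra.linearMap R R') = RingHom.ker σ := by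
    ext a; rfl
  let e : (R ⧸ (RingHom.ker σ)) ≃ₗ[R] R' :=
    (Submodule.quotEquivOfEq _ _ hker.symm).trans
      ((Algebra.linearMap R R').quotKerEquivOfSurjective hσ)
  have he : (Algebra.linearMap R R') = (e : (R ⧸ (RingHom.ker σ)) →ₗ[R] R') ∘ₗ
      (Submodule.mkQ (RingHom.ker σ)) := by
    ext; rfl
  rw [he, HmMap_comp]
  exact HmMap_equiv_eq_zero_iff e _

end Spec

end Fermat.Agent.Ribet

end
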