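import Fermat.Agent.Ribet.Spec
import Fermat.Prelude.Thm_IsLocalRing_isAdicComplete_of_module_finite

/-!
# The local Hecke ring acting on the family
-/

set_option autoImplicit false
set_option linter.unusedSectionVars false
set_option linter.unusedVariables false
set_option linter.style.haveILetI false

noncomputable section

namespace Fermat.Agent.Ribet

open TwHecke TwExact HeckeRep IsLocalRing CongruenceSubgroup
open scoped MatrixGroups

section Op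

variable {M : ℕ} {R : Type} [CommRing R] [IsLocalRing R] (η : (ZMod M)ˣ →* Rˣ) {S : Set ℕ}
  (θ : PIdx S → ResidueField R)

theorem nop_mem_Hm (ℓ : PIdx S) {x : HM M (η ^ 2) R} (hx : x ∈ Hm M (η ^ 2) R S θ) :
    nop η S ℓ x ∈ Hm M (η ^ 2) R S θ := by
  rw [nop, LinearMap.smul_apply]
  exact Submodule.smul_mem _ _ (T_mem_mpart (hop_commute M (η ^ 2) R S) ℓ hx)

/-- the normalised operators on the `𝔪`-part -/
def opD (ℓ : PIdx S) : Module.End R (Hm M (η ^ 2) R S θ) :=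
  (nop η S ℓ).restrict fun _ hx => nop_mem_Hm η θ ℓ hx

@[simp] theorem coe_opD (ℓ : PIdx S) (x : Hm M (η ^ 2) R S θ) :
    ((opD η θ ℓ x : Hm M (η ^ 2) R S θ) : HM M (η ^ 2) R) = nop η S ℓ x.1 := rfl

theorem opD_commute (i j : PIdx S) : Commute (opD η θ i) (opD η θ j) := by
  refine LinearMap.ext fun x => Subtype.ext ?_
  exact LinearMap.congr_fun (nop_commute η i j) x.1

variable (𝒪 : Type) [CommRing 𝒪] [IsLocalRing 𝒪] [Algebra 𝒪 R] [IsLocalHom (algebraMap 𝒪 R)]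
  (θ₀ : PIdx S → ResidueField 𝒪)

/-- the normalised operators, over the base ring -/
def opO (ℓ : PIdx S) : Module.End 𝒪 (Hm M (η ^ 2) R S (thMap R θ₀)) :=
  (opD η (thMap R θ₀) ℓ).restrictScalars 𝒪

@[simp] theorem coe_opO (ℓ : PIdx S) (x : Hm M (η ^ 2) R S (thMap R θ₀)) :
    ((opO η 𝒪 θ₀ ℓ x : Hm M (η ^ 2) R S (thMap R θ₀)) : HM M (η ^ 2) R) = nop η S ℓ x.1 := rfl

theorem opO_commute (i j : PIdx S) : Commute (opO η 𝒪 θ₀ i) (opO η 𝒪 θ₀ j) := by
  refine LinearMap.ext fun x => ?_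
  exact LinearMap.congr_fun (opD_commute η (thMap R θ₀) i j) x

/-- substitution `X ℓ ↦ η(ℓ) X ℓ`. -/
def sbst : MvPolynomial (PIdx S) 𝒪 →ₐ[𝒪] MvPolynomial (PIdx S) R :=
  MvPolynomial.aeval fun ℓ =>
    MvPolynomial.C ((η (unitOf M ℓ.1) : Rˣ) : R) * MvPolynomial.X ℓ

omit [IsLocalRing R] [IsLocalRing 𝒪] [IsLocalHom (algebraMap 𝒪 R)] in
theorem sbst_C (a : 𝒪) :
    sbst η 𝒪 (MvPolynomial.C a : MvPolynomial (PIdx S) 𝒪) = MvPolynomial.C (algebraMap 𝒪 R a) := by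
  rw [← MvPolynomial.algebraMap_eq]
  exact (AlgHom.commutes (sbst η 𝒪) a)

omit [IsLocalRing R] [IsLocalRing 𝒪] [IsLocalHom (algebraMap 𝒪 R)] in
theorem sbst_X (ℓ : PIdx S) :
    sbst η 𝒪 (MvPolynomial.X ℓ) =
      MvPolynomial.C ((η (unitOf M ℓ.1) : Rˣ) : R) * MvPolynomial.X ℓ := by
  rw [sbst, MvPolynomial.aeval_X]

theorem cev_opO (t : MvPolynomial (PIdx S) 𝒪) (x : Hm M (η ^ 2) R S (thMap R θ₀)) :
    ((cev (opO η 𝒪 θ₀) (opO_commute η 𝒪 θ₀) t x : Hm M (η ^ 2) R S (thMap R θ₀)) :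
      HM M (η ^ 2) R) =
      cev (hop M (η ^ 2) R S) (hop_commute M (η ^ 2) R S) (sbst η 𝒪 t) x.1 := by
  induction t using MvPolynomial.induction_on generalizing x with
  | C a =>
    rw [cev_C, Module.algebraMap_end_apply, sbst_C, cev_C, Module.algebraMap_end_apply,
      algebraMap_smul]
    rfl
  | add p q hp hq =>
    rw [map_add, map_add, map_add, LinearMap.add_apply, LinearMap.add_apply, Submodule.coe_add,
      hp, hq]
  | mul_X p i hp =>
    rw [map_mul, map_mul, map_mul, cev_X, Module.End.mul_apply, Module.End.mul_apply, hp]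
    congr 1
    rw [sbst_X, map_mul, cev_C, cev_X, Module.End.mul_apply,
      Module.algebraMap_end_apply, coe_opO, nop, LinearMap.smul_apply]
    rfl

theorem evk_sbst (hη : ∀ u, residue R ((η u : Rˣ) : R) = 1) (t : MvPolynomial (PIdx S) 𝒪) :
    evk (thMap R θ₀) (sbst η 𝒪 t) = ResidueField.map (algebraMap 𝒪 R) (evk θ₀ t) := by
  induction t using MvPolynomial.induction_on with
  | C a =>
    rw [sbst_C, evk_C, evk_C, ResidueField.map_residue]
  | add p q hp hq => rw [map_add, map_add, map_add, map_add, hp, hq]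
  | mul_X p i hp =>
    rw [map_mul, map_mul, map_mul, map_mul, hp, sbst_X, map_mul, evk_C, hη,
      one_mul, evk_X, evk_X]

variable [NeZero M] [IsNoetherianRing R] [IsAdicComplete (maximalIdeal R) R]

/-- the `𝔪`-part is local at `θ` over the base ring. -/
theorem isLocalAt_opO (hη : ∀ u, residue R ((η u : Rˣ) : R) = 1) :
    IsLocalAt θ₀ (opO η 𝒪 θ₀) (opO_commute η 𝒪 θ₀) := by
  intro t ht
  obtain ⟨e, he⟩ := exists_isIdem_Hm R (η ^ 2) (thMap R θ₀)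
  have ht' : evk (thMap R θ₀) (sbst η 𝒪 t) ≠ 0 := by
    rw [evk_sbst η 𝒪 θ₀ hη]
    exact (map_ne_zero _).mpr ht
  constructor
  · refine (injective_iff_map_eq_zero _).mpr fun x hx => ?_
    refine Subtype.ext (he.eq_zero x.2 ht' ?_)
    rw [← cev_opO η 𝒪 θ₀]
    exact congrArg Subtype.val hx
  · intro x
    obtain ⟨y, hy, hyx⟩ := he.exists_preimage x.2 ht'
    refine ⟨⟨y, hy⟩, Subtype.ext ?_⟩
    rw [cev_opO η 𝒪 θ₀]
    exact hyx

end Op

section TD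

variable {M : ℕ} {R : Type} [CommRing R] [IsLocalRing R] (η : (ZMod M)ˣ →* Rˣ) {S : Set ℕ}
  (𝒪 : Type) [CommRing 𝒪] [IsLocalRing 𝒪] [Algebra 𝒪 R] [IsLocalHom (algebraMap 𝒪 R)]
  (θ₀ : PIdx S → ResidueField 𝒪)

theorem finite_Hm' [NeZero M] [IsNoetherianRing R] [Module.Finite 𝒪 R] :
    Module.Finite 𝒪 (Hm M (η ^ 2) R S (thMap R θ₀)) :=
  have : Module.Finite R (Hm M (η ^ 2) R S (thMap R θ₀)) := finite_Hm R (η ^ 2) (thMap R θ₀)
  Module.Finite.trans R _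

variable [Module.Finite 𝒪 (Hm M (η ^ 2) R S (thMap R θ₀))]

/-- The Hecke ring over the base ring. -/
abbrev TD : Type := Tring (opO η 𝒪 θ₀) (opO_commute η 𝒪 θ₀)

/-- generators -/
def tl (ℓ : PIdx S) : TD η 𝒪 θ₀ := Tring.gen (opO η 𝒪 θ₀) (opO_commute η 𝒪 θ₀) ℓ

/-- the action of the Hecke ring on the family -/
@[reducible] def modTD : Module (TD η 𝒪 θ₀) (Hm M (η ^ 2) R S (thMap R θ₀)) :=
  Module.compHom _ (Tring.val (opO η 𝒪 θ₀) (opO_commute η 𝒪 θ₀)).toRingHom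

theorem modTD_smul_def (t : TD η 𝒪 θ₀) (x : Hm M (η ^ 2) R S (thMap R θ₀)) :
    letI := modTD η 𝒪 θ₀
    t • x = Tring.val (opO η 𝒪 θ₀) (opO_commute η 𝒪 θ₀) t x := rfl

/-- the Hecke ring commutes with the coefficients -/
theorem val_smul (t : TD η 𝒪 θ₀) (r : R) (x : Hm M (η ^ 2) R S (thMap R θ₀)) :
    Tring.val (opO η 𝒪 θ₀) (opO_commute η 𝒪 θ₀) t (r • x) =
      r • Tring.val (opO η 𝒪 θ₀) (opO_commute η 𝒪 θ₀) t x := by
  obtain ⟨t, rfl⟩ := Tring.ev_surjective (opO η 𝒪 θ₀) (opO_commute η 𝒪 θ₀) t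
  rw [Tring.val_ev]
  apply Subtype.ext
  rw [cev_opO, Submodule.coe_smul, map_smul, Submodule.coe_smul, cev_opO]

/-- an additive endomorphism commuting with scalars of the base ring and the generators commutes
with the Hecke ring. -/
theorem val_comm (f : Hm M (η ^ 2) R S (thMap R θ₀) →+ Hm M (η ^ 2) R S (thMap R θ₀))
    (hf : ∀ (a : 𝒪) x, f (a • x) = a • f x) (hfl : ∀ ℓ x, f (opO η 𝒪 θ₀ ℓ x) = opO η 𝒪 θ₀ ℓ (f x))
    (t : TD η 𝒪 θ₀) (x : Hm M (η ^ 2) R S (thMap R θ₀)) :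
    f (Tring.val (opO η 𝒪 θ₀) (opO_commute η 𝒪 θ₀) t x) =
      Tring.val (opO η 𝒪 θ₀) (opO_commute η 𝒪 θ₀) t (f x) := by
  obtain ⟨t, rfl⟩ := Tring.ev_surjective (opO η 𝒪 θ₀) (opO_commute η 𝒪 θ₀) t
  rw [Tring.val_ev]
  exact cev_natural (opO_commute η 𝒪 θ₀) (opO_commute η 𝒪 θ₀)
    { f with map_smul' := hf } hfl t x

end TD

end Fermat.Agent.Ribet

end
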