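import Fermat.Agent.Ribet.GoodMap

/-!
# The operator `U_q` on functions, the diamonds and the first congruence relation
-/

set_option autoImplicit false

open UpperHalfPlane hiding I
open ModularForm Matrix.SpecialLinearGroup Filter Asymptotics CongruenceSubgroup
open scoped MatrixGroups Manifold ModularForm Polynomial Topology

noncomputable section

namespace Fermat.Agent.Ribet

open Fermat.Agent.JLevelOne Fermat.Agent.X0Emb Fermat.Agent.ModFun ModularCurve Fermat.Agent.FG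
open Fermat.Agent.EisChar Fermat.Agent.S28aux Fermat.Agent.IntStruct Fermat.Agent.HeckePar
open Fermat.Agent.X1 Fermat.Agent.X1Char Fermat.Agent.GaussVal Fermat.Agent.TEll

section Comm

variable {M : ℕ}

theorem exists_equiv' {n m : ℤ} {a b : ZMod M} {X Y : Type*} [Finite X] [Finite Y]
    (S : IntSys M n a X) (T : IntSys M m b Y) (hn : n = m) (ha : a = b) :
    ∃ (e : X ≃ Y) (κ : X → SL(2, ℤ)), (∀ x, κ x ∈ Gamma1 M) ∧
      ∀ x, S.mat x = (κ x : Matrix (Fin 2) (Fin 2) ℤ) * T.mat (e x) := by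
  subst hn ha
  exact S.exists_equiv T

theorem prod_glRep_eq {n m : ℤ} {a b : ZMod M} {X Y : Type*} [Fintype X] [Fintype Y]
    (S : IntSys M n a X) (T : IntSys M m b Y) (hn : n = m) (ha : a = b) {G : ℍ → ℂ}
    (hG : ∀ γ ∈ Gamma1 M, ∀ τ : ℍ, G (γ • τ) = G τ) (τ : ℍ) :
    ∏ x, G (S.glRep x • τ) = ∏ y, G (T.glRep y • τ) := by
  obtain ⟨e, κ, hκ, h⟩ := exists_equiv' S T hn ha
  rw [← Equiv.prod_comp e]
  refine Finset.prod_congr rfl fun x _ => ?_
  have h1 : S.glRep x = mapGL ℝ (κ x) * T.glRep (e x) := by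
    rw [← Units.val_inj, Units.val_mul, IntSys.val_glRep, IntSys.val_glRep, val_mapGL,
      ← map_intCast_mul, h x]
  rw [h1, mul_smul]
  exact hG _ (hκ x) _

variable {q : ℕ} [hq : Fact q.Prime] [NeZero q]

/-- `U_q` commutes with the diamonds, `q ∣ M`. -/
theorem heckeU_dia (hN : q ∣ M) {G : ℍ → ℂ} (hG : ∀ γ ∈ Gamma1 M, ∀ τ : ℍ, G (γ • τ) = G τ)
    (u : (ZMod M)ˣ) (τ : ℍ) :
    ∏ b : Fin q, G (aff 1 b q (diaMat M u • τ)) = ∏ b : Fin q, G (diaMat M u • aff 1 b q τ) := by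
  have hd : ∀ τ : ℍ, (diaSys M u).glRep () • τ = diaMat M u • τ := fun τ =>
    dia_rep_smul (Γ := Gamma1 M) u () τ
  have h := prod_glRep_eq
    ((hSys M q).comp (diaSys M u) (IntSys.hs_dia (1 : ZMod M) q u) (fun _ _ _ _ _ _ _ => rfl))
    ((diaSys M u).comp (hSys M q) (IntSys.hs_hecke q 1 (Units.isUnit _))
      (IntSys.hi_hecke q (not_dvd_one_of_prime hq.out) (diaSys M u)))
    (mul_comm _ _) (mul_comm _ _) hG τ
  simp only [IntSys.comp_glRep, mul_smul] at h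
  rw [Fintype.prod_prod_type, Fintype.prod_prod_type] at h
  simp only [Finset.univ_unique, Finset.prod_singleton] at h
  have h1 := congrFun (mulOp_hSys_of_dvd (Γ := Gamma1 M) hN G) (diaMat M u • τ)
  have h2 := congrFun (mulOp_hSys_of_dvd (Γ := Gamma1 M) hN (fun τ => G (diaMat M u • τ))) τ
  rw [← h1, ← h2]
  simp only [CosetSys.mulOp, IntSys.sys_rep]
  simp only [hd, PUnit.default_eq_unit] at h
  exact h

end Comm

section Main

variable {ι : Qbar →+* ℂ} {M : ℕ} {Γ : Subgroup SL(2, ℤ)} [hΓ : Between M Γ] [GoodGroup Γ]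
  [hD : DiaGroup M Γ] {n : ℕ} [NeZero n] {A : ValuationSubring Qbar}
  {q : ℕ} [hq : Fact q.Prime] [NeZero q]

omit hΓ [GoodGroup Γ] hD in
/-- the expansions of the diamond translates of a nonzero function are nonzero. -/
theorem ne_zero_of_lexp_dia {F : ℍ → ℂ} {y z : LaurentSeries Qbar} (hF : IsMF ι Γ 1 F y)
    (hy : y ≠ 0) {u : (ZMod M)ˣ} (hz : LExp 1 (fun τ => F (diaMat M u • τ)) (coeffMap ι z)) :
    z ≠ 0 := by
  rintro rfl
  have h1 : (fun τ => F (diaMat M u • τ)) = 0 :=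
    (IsCF.eq_zero_iff (F := fun τ => F (diaMat M u • τ)) hz).mpr rfl
  exact (IsCF.ofIsMF hF).smul_ne_zero hy (diaMat M u) h1

omit [GoodGroup Γ] hD [NeZero n] in
/-- `χ ^ n = 1` for the elements of `xGroup`. -/
theorem xGroup_pow (χ : xGroup M Γ n) : χ ^ n = 1 := Subtype.ext (xGroup_le n χ.2).1

/-- **The first congruence relation**: `φ = U_q` at the first cusp. -/
theorem KK.frob_id [IntGroup Γ] (hN : q ∣ M) (hA : A.LiesOverPrime q) {φ : GQ}
    (hφ : A.IsFrobeniusAt φ q) (χ : xGroup M Γ n) :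
    KK ι M Γ id A n (galX ι M Γ n φ χ * (tX ι M Γ n q χ)⁻¹ : xGroup M Γ n).1 := by
  have := charP_residue hq.out hA
  obtain ⟨F, y, hy, hF⟩ := exists_isCFX ι χ
  obtain ⟨F', hF'⟩ := conjX_spec ι (toRA φ) χ hF
  rw [← galX_apply] at hF'
  obtain ⟨k, hk⟩ : ∃ k, n = k + 1 := Nat.exists_eq_succ_of_ne_zero (NeZero.ne n)
  have hFn : IsMF ι Γ 1 (F ^ n) (y ^ n) := ((hF.pow n).char_congr (xGroup_le n χ.2).1).toIsMF
  have hFn' : IsMF ι Γ 1 (F' ^ n) (coeffMap ((toRA φ : Qbar ≃+* Qbar) : Qbar →+* Qbar)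
      (y ^ n)) := by
    rw [map_pow]
    exact ((hF'.pow n).char_congr (xGroup_le n (galX ι M Γ n φ χ).2).1).toIsMF
  have hU := hF.heckeU (M := M) hN
  set P : ℍ → ℂ := fun τ => ∏ b : Fin q, F (aff 1 b q τ) with hP
  have hPn : IsMF ι Γ 1 (P ^ n) ((secNorm Qbar q y) ^ n) :=
    ((hU.pow n).char_congr (xGroup_le n (tX ι M Γ n q χ).2).1).toIsMF
  have hchar : (galX ι M Γ n φ χ * (tX ι M Γ n q χ)⁻¹ : xGroup M Γ n) =
      galX ι M Γ n φ χ * (tX ι M Γ n q χ) ^ k := by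
    congr 1
    rw [inv_eq_iff_mul_eq_one, ← pow_succ', ← hk]
    exact xGroup_pow _
  rw [hchar]
  refine ⟨F' * P ^ k, _, P ^ n, _, hF'.mul (hU.pow k),
    mul_ne_zero (coeffMap_toRA_ne_zero hy) (pow_ne_zero k (secNorm_ne_zero' hy)), hPn,
    pow_ne_zero n (secNorm_ne_zero' hy), fun v => ?_⟩
  obtain ⟨z, hz⟩ := mf_exists_dia (M := M) hFn v
  have hzl : LExp 1 (fun τ => (F ^ n) (diaMat M v • τ)) (coeffMap ι z) := by
    simpa using hz.lexp
  have hz0 : z ≠ 0 := ne_zero_of_lexp_dia hFn (pow_ne_zero n hy) hzl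
  have hpc : PC A z z := by
    have := isAlgebraic_Qbar
    exact PC.of_scalable (scalable_of_mem_intAlg hq.out hA (mem_intAlg_of_isMF hz) hz0)
  have h1 := mf_dia_conj (M := M) hFn hzl (toRA φ) hFn'
  have hG1 : ∀ γ ∈ Gamma1 M, ∀ τ : ℍ, (F ^ n) (γ • τ) = (F ^ n) τ := fun γ hγ =>
    hFn.inv γ (hΓ.ge hγ)
  have h2 : LExp 1 (fun τ => (P (diaMat M v • τ)) ^ n) (coeffMap ι (secNorm Qbar q z)) := by
    have e : (fun τ => (P (diaMat M v • τ)) ^ n) =
        fun τ => ∏ b : Fin q, (F ^ n) (diaMat M v • aff 1 b q τ) := funext fun τ => by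
      rw [← heckeU_dia hN hG1, hP, ← Finset.prod_pow]
      rfl
    rw [e, coeffMap_secNorm]
    exact lexp_secNorm q hzl
  refine ⟨coeffMap ((toRA φ : Qbar ≃+* Qbar) : Qbar →+* Qbar) z * (secNorm Qbar q z) ^ k,
    (secNorm Qbar q z) ^ n, ?_, ?_, ?_⟩
  · have e : (fun τ => ((F' * P ^ k) (diaMat M v • id τ)) ^ n) =
        (fun τ => (F' ^ n) (diaMat M v • τ)) *
          (fun τ => (P (diaMat M v • τ)) ^ n) ^ k := by
      funext τ
      simp only [Pi.mul_apply, Pi.pow_apply, mul_pow, id_eq]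
      congr 1
      rw [← pow_mul, ← pow_mul, mul_comm]
    rw [e, map_mul, map_pow]
    exact h1.mul (h2.pow k)
  · have e : (fun τ => ((P ^ n) (diaMat M v • id τ)) ^ n) =
          (fun τ => (P (diaMat M v • τ)) ^ n) ^ n := by
      funext τ
      simp only [Pi.pow_apply, id_eq]
    rw [e, map_pow]
    exact h2.pow n
  · rw [hk, pow_succ']
    exact (hpc.toRA_secNorm hφ).mul ((hpc.secNorm q).pow k)

end Main

end Fermat.Agent.Ribet
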